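/-
S52 / (L1) Frobenius Cayley–Hamilton, parallelogram block (leaves H2, H3 of team_s52_chat #1).

Height `ht x = max (natDegree num) (natDegree denom)` of a rational function `x : RatFunc k`
and the two exact height identities behind Manin's elementary proof of the Hasse bound:

* `ht_sum_prod` : if `x₃ + x₄` and `x₃ * x₄` are given by the x-only addition formulas of
  `y² = x³ + A x + B` in terms of `x₁ ≠ x₂`, then `ht x₃ + ht x₄ = 2 ht x₁ + 2 ht x₂`;
* `ht_dup` : `ht (((x²-A)²-8Bx) / (4(x³+Ax+B))) = 4 ht x`.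

Everything is Mathlib-only.
-/
import Mathlib

set_option autoImplicit false

namespace Fermat.Agent.S52.helper6492

open Polynomial

section core

variable {κ : Type*} [Field κ]

theorem four_ne_zero_of_two {κ : Type*} [Field κ] (h2 : (2 : κ) ≠ 0) : (4 : κ) ≠ 0 := by
  have : (4 : κ) = 2 * 2 := by norm_num
  rw [this]; exact mul_ne_zero h2 h2

/-- The duplication forms have no common zero on `ℙ¹`. -/
theorem core_dup (A B : κ) (h2 : (2 : κ) ≠ 0) (hΔ : 4 * A ^ 3 + 27 * B ^ 2 ≠ 0) (n d : κ)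
    (h : ¬ (n = 0 ∧ d = 0)) :
    ¬ (4 * d * (n ^ 3 + A * n * d ^ 2 + B * d ^ 3) = 0 ∧
        n ^ 4 - 2 * A * n ^ 2 * d ^ 2 - 8 * B * n * d ^ 3 + A ^ 2 * d ^ 4 = 0) := by
  rintro ⟨h3, h1⟩
  by_cases hd : d = 0
  · subst hd
    apply h
    refine ⟨?_, rfl⟩
    have : n ^ 4 = 0 := by linear_combination h1
    exact (pow_eq_zero_iff (by norm_num)).mp this
  · have h4 : (4 : κ) ≠ 0 := four_ne_zero_of_two h2
    have hf : n ^ 3 + A * n * d ^ 2 + B * d ^ 3 = 0 := by
      rcases mul_eq_zero.mp h3 with h | h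
      · rcases mul_eq_zero.mp h with h | h
        · exact absurd h h4
        · exact absurd h hd
      · exact h
    have : (4 * A ^ 3 + 27 * B ^ 2) * d ^ 6 = 0 := by
      linear_combination (3 * n ^ 2 + 4 * A * d ^ 2) * h1 -
        (3 * n ^ 3 - 5 * A * n * d ^ 2 - 27 * B * d ^ 3) * hf
    rcases mul_eq_zero.mp this with h | h
    · exact hΔ h
    · exact hd ((pow_eq_zero_iff (by norm_num)).mp h)

/-- The three `(2,2)`-forms of the x-only addition law have no common zero on `ℙ¹ × ℙ¹`. -/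
theorem core_add (A B : κ) (h2 : (2 : κ) ≠ 0) (hΔ : 4 * A ^ 3 + 27 * B ^ 2 ≠ 0)
    (n₁ d₁ n₂ d₂ : κ) (h₁ : ¬ (n₁ = 0 ∧ d₁ = 0)) (h₂ : ¬ (n₂ = 0 ∧ d₂ = 0)) :
    ¬ ((n₁ * d₂ - d₁ * n₂) * (n₁ * d₂ - d₁ * n₂) = 0 ∧
        2 * ((n₁ * d₂ + d₁ * n₂) * (n₁ * n₂ + A * (d₁ * d₂))) + 4 * B * ((d₁ * d₂) * (d₁ * d₂)) = 0 ∧
        (n₁ * n₂ - A * (d₁ * d₂)) * (n₁ * n₂ - A * (d₁ * d₂)) -
          4 * B * ((n₁ * d₂ + d₁ * n₂) * (d₁ * d₂)) = 0) := by
  rintro ⟨hF, hG, hH⟩
  have hF' : n₁ * d₂ = d₁ * n₂ := by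
    have := mul_self_eq_zero.mp hF
    linear_combination this
  by_cases hd₁ : d₁ = 0
  · subst hd₁
    have hn₁ : n₁ ≠ 0 := fun h => h₁ ⟨h, rfl⟩
    have hd₂ : d₂ = 0 := by
      rcases mul_eq_zero.mp (by rw [hF']; ring : n₁ * d₂ = 0) with h | h
      · exact absurd h hn₁
      · exact h
    subst hd₂
    have hn₂ : n₂ ≠ 0 := fun h => h₂ ⟨h, rfl⟩
    have : (n₁ * n₂) * (n₁ * n₂) = 0 := by linear_combination hH
    exact mul_ne_zero hn₁ hn₂ (mul_self_eq_zero.mp this)
  · have hd₂ : d₂ ≠ 0 := by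
      intro hd₂
      subst hd₂
      have : d₁ * n₂ = 0 := by rw [← hF']; ring
      rcases mul_eq_zero.mp this with h | h
      · exact hd₁ h
      · exact h₂ ⟨h, rfl⟩
    refine core_dup A B h2 hΔ n₁ d₁ (fun h => hd₁ h.2) ⟨?_, ?_⟩
    · have h4 : (4 : κ) ≠ 0 := four_ne_zero_of_two h2
      have : d₂ ^ 2 * (4 * d₁ * (n₁ ^ 3 + A * n₁ * d₁ ^ 2 + B * d₁ ^ 3)) = 0 := by
        linear_combination d₁ ^ 2 * hG +
          (2 * d₁ * (n₁ * d₂ + d₁ * n₂) * n₁ + 2 * d₂ * (n₁ ^ 2 + A * d₁ ^ 2) * d₁) * hF'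
      rcases mul_eq_zero.mp this with h | h
      · exact absurd ((pow_eq_zero_iff (by norm_num)).mp h) hd₂
      · exact h
    · have : d₂ ^ 2 * (n₁ ^ 4 - 2 * A * n₁ ^ 2 * d₁ ^ 2 - 8 * B * n₁ * d₁ ^ 3 + A ^ 2 * d₁ ^ 4) = 0 := by
        linear_combination d₁ ^ 2 * hH +
          ((n₁ * n₂ * d₁ + n₁ ^ 2 * d₂) * n₁ - 2 * A * n₁ * d₁ ^ 2 * d₂ - 4 * B * d₁ ^ 3 * d₂) * hF'
      rcases mul_eq_zero.mp this with h | h
      · exact absurd ((pow_eq_zero_iff (by norm_num)).mp h) hd₂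
      · exact h

/-- The sum/product forms of two points of `ℙ¹` have no common zero. -/
theorem core_pair (n₃ d₃ n₄ d₄ : κ) (h₃ : ¬ (n₃ = 0 ∧ d₃ = 0)) (h₄ : ¬ (n₄ = 0 ∧ d₄ = 0)) :
    ¬ (d₃ * d₄ = 0 ∧ n₃ * d₄ + d₃ * n₄ = 0 ∧ n₃ * n₄ = 0) := by
  rintro ⟨h1, h2, h3⟩
  rcases mul_eq_zero.mp h1 with h | h
  · subst h
    have hn₃ : n₃ ≠ 0 := fun h => h₃ ⟨h, rfl⟩
    have hn₄ : n₄ = 0 := by
      rcases mul_eq_zero.mp h3 with h | h
      · exact absurd h hn₃
      · exact h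
    subst hn₄
    have hd₄ : d₄ ≠ 0 := fun h => h₄ ⟨rfl, h⟩
    have : n₃ * d₄ = 0 := by linear_combination h2
    exact mul_ne_zero hn₃ hd₄ this
  · subst h
    have hn₄ : n₄ ≠ 0 := fun h => h₄ ⟨h, rfl⟩
    have hn₃ : n₃ = 0 := by
      rcases mul_eq_zero.mp h3 with h | h
      · exact h
      · exact absurd h hn₄
    subst hn₃
    have hd₃ : d₃ ≠ 0 := fun h => h₃ ⟨rfl, h⟩
    have : d₃ * n₄ = 0 := by linear_combination h2
    exact mul_ne_zero hd₃ hn₄ this

end core

section poly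

universe u

variable {k : Type u} [Field k]

/-- `a` has degree at most `D` and its `D`-th coefficient is `c`. -/
def Bd (D : ℕ) (a : k[X]) (c : k) : Prop := a.natDegree ≤ D ∧ a.coeff D = c

theorem Bd.mul {D E : ℕ} {a b : k[X]} {c e : k} (h : Bd D a c) (h' : Bd E b e) :
    Bd (D + E) (a * b) (c * e) :=
  ⟨natDegree_mul_le_of_le h.1 h'.1, by
    rw [coeff_mul_add_eq_of_natDegree_le h.1 h'.1, h.2, h'.2]⟩

theorem Bd.add {D : ℕ} {a b : k[X]} {c e : k} (h : Bd D a c) (h' : Bd D b e) :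
    Bd D (a + b) (c + e) :=
  ⟨natDegree_add_le_of_degree_le h.1 h'.1, by rw [coeff_add, h.2, h'.2]⟩

theorem Bd.sub {D : ℕ} {a b : k[X]} {c e : k} (h : Bd D a c) (h' : Bd D b e) :
    Bd D (a - b) (c - e) :=
  ⟨(natDegree_sub_le_of_le h.1 h'.1).trans (by simp), by rw [coeff_sub, h.2, h'.2]⟩

theorem Bd.C_mul {D : ℕ} {a : k[X]} {c : k} (z : k) (h : Bd D a c) :
    Bd D (C z * a) (z * c) :=
  ⟨(natDegree_C_mul_le z a).trans h.1, by rw [coeff_C_mul, h.2]⟩

theorem Bd.zero (D : ℕ) : Bd D (0 : k[X]) 0 := ⟨by simp, by simp⟩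

/-- A triple of polynomials of degree `≤ D` which is primitive at every finite place and at
infinity (where "primitive at infinity" is measured against the degree bound `D`). -/
structure Prim3 (D : ℕ) (a b c : k[X]) : Prop where
  fin : ∀ M : Ideal k[X], M.IsMaximal → ¬ (a ∈ M ∧ b ∈ M ∧ c ∈ M)
  da : a.natDegree ≤ D
  db : b.natDegree ≤ D
  dc : c.natDegree ≤ D
  top : ¬ (a.coeff D = 0 ∧ b.coeff D = 0 ∧ c.coeff D = 0)

theorem Prim3.bezout {D : ℕ} {a b c : k[X]} (h : Prim3 D a b c) :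
    ∃ u v w : k[X], u * a + v * b + w * c = 1 := by
  by_contra hcon
  have hne : Ideal.span {a, b, c} ≠ (⊤ : Ideal k[X]) := by
    intro htop
    apply hcon
    have h1 : (1 : k[X]) ∈ Ideal.span {a, b, c} := by rw [htop]; trivial
    rw [Ideal.mem_span_insert] at h1
    obtain ⟨u, z, hz, h1⟩ := h1
    rw [Ideal.mem_span_pair] at hz
    obtain ⟨v, w, rfl⟩ := hz
    exact ⟨u, v, w, by rw [h1]; ring⟩
  obtain ⟨M, hM, hle⟩ := Ideal.exists_le_maximal _ hne
  exact h.fin M hM ⟨hle (Ideal.subset_span (by simp)), hle (Ideal.subset_span (by simp)),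
    hle (Ideal.subset_span (by simp))⟩

theorem Prim3.max_eq {D : ℕ} {a b c : k[X]} (h : Prim3 D a b c) :
    max a.natDegree (max b.natDegree c.natDegree) = D := by
  apply le_antisymm (max_le h.da (max_le h.db h.dc))
  by_contra hlt
  rw [not_le] at hlt
  apply h.top
  have ha : a.natDegree < D := lt_of_le_of_lt (le_max_left _ _) hlt
  have hb : b.natDegree < D :=
    lt_of_le_of_lt ((le_max_left _ _).trans (le_max_right _ _)) hlt
  have hc : c.natDegree < D :=
    lt_of_le_of_lt ((le_max_right _ _).trans (le_max_right _ _)) hlt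
  exact ⟨coeff_eq_zero_of_natDegree_lt ha, coeff_eq_zero_of_natDegree_lt hb,
    coeff_eq_zero_of_natDegree_lt hc⟩

theorem natDegree_eq_of_assoc {a b : k[X]} (h : Associated a b) : a.natDegree = b.natDegree :=
  natDegree_eq_of_degree_eq (degree_eq_degree_of_associated h)

/-- Two primitive triples which are proportional have the same degree. -/
theorem Prim3.unique {D D' : ℕ} {a b c a' b' c' : k[X]} (h : Prim3 D a b c)
    (h' : Prim3 D' a' b' c') (ha : a ≠ 0) (hb : a' * b = a * b')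
    (hc : a' * c = a * c') : D = D' := by
  obtain ⟨u, v, w, huvw⟩ := h.bezout
  obtain ⟨u', v', w', huvw'⟩ := h'.bezout
  have h1 : a ∣ a' := Dvd.intro (u * a' + v * b' + w * c') (by
    linear_combination a' * huvw - v * hb - w * hc)
  have h2 : a' ∣ a := Dvd.intro (u' * a + v' * b + w' * c) (by
    linear_combination a * huvw' + v' * hb + w' * hc)
  obtain ⟨e, he⟩ := associated_of_dvd_dvd h1 h2
  have hbe : Associated b b' := ⟨e, by
    apply mul_left_cancel₀ ha
    rw [← hb, ← he]; ring⟩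
  have hce : Associated c c' := ⟨e, by
    apply mul_left_cancel₀ ha
    rw [← hc, ← he]; ring⟩
  rw [← h.max_eq, ← h'.max_eq, natDegree_eq_of_assoc ⟨e, he⟩, natDegree_eq_of_assoc hbe,
    natDegree_eq_of_assoc hce]

/-- A primitive triple of the shape `(0, b, 0)` has degree `0`. -/
theorem Prim3.eq_zero_of_zero {D : ℕ} {b : k[X]} (h : Prim3 D 0 b 0) : D = 0 := by
  obtain ⟨u, v, w, huvw⟩ := h.bezout
  have hb : IsUnit b := IsUnit.of_mul_eq_one v (by linear_combination huvw)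
  have := h.max_eq
  rw [natDegree_eq_zero_of_isUnit hb] at this
  simpa using this.symm

/-- Criterion for finite primitivity through residue fields. -/
theorem fin_of_field {a b c : k[X]}
    (h : ∀ (κ : Type u) [Field κ] (φ : k[X] →+* κ), ¬ (φ a = 0 ∧ φ b = 0 ∧ φ c = 0)) :
    ∀ M : Ideal k[X], M.IsMaximal → ¬ (a ∈ M ∧ b ∈ M ∧ c ∈ M) := by
  intro M hM ⟨h1, h2, h3⟩
  let _ := Ideal.Quotient.field M
  exact h (k[X] ⧸ M) (Ideal.Quotient.mk M)
    ⟨Ideal.Quotient.eq_zero_iff_mem.mpr h1, Ideal.Quotient.eq_zero_iff_mem.mpr h2,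
      Ideal.Quotient.eq_zero_iff_mem.mpr h3⟩

theorem map_C_ne_zero {κ : Type*} [Field κ] (φ : k[X] →+* κ) {z : k} (hz : z ≠ 0) :
    φ (C z) ≠ 0 := by
  intro h
  apply hz
  have hinj : Function.Injective (φ.comp C) := RingHom.injective _
  apply hinj
  simpa using h

theorem map_coprime_ne {κ : Type*} [Field κ] (φ : k[X] →+* κ) {n d : k[X]}
    (h : IsCoprime n d) : ¬ (φ n = 0 ∧ φ d = 0) := by
  rintro ⟨h1, h2⟩
  obtain ⟨u, v, huv⟩ := h
  have : φ (u * n + v * d) = 1 := by rw [huv, map_one]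
  rw [map_add, map_mul, map_mul, h1, h2] at this
  simp at this

end poly

section ratfunc

universe u

variable {k : Type u} [Field k]

/-- Height of a rational function: the maximum of the degrees of its numerator and its
denominator (the degree of the corresponding map `ℙ¹ → ℙ¹`). -/
noncomputable def ht (x : RatFunc k) : ℕ := max x.num.natDegree x.denom.natDegree

theorem bd_num (x : RatFunc k) : Bd (ht x) x.num (x.num.coeff (ht x)) :=
  ⟨le_max_left _ _, rfl⟩

theorem bd_denom (x : RatFunc k) : Bd (ht x) x.denom (x.denom.coeff (ht x)) :=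
  ⟨le_max_right _ _, rfl⟩

theorem top_num_denom (x : RatFunc k) :
    ¬ (x.num.coeff (ht x) = 0 ∧ x.denom.coeff (ht x) = 0) := by
  rintro ⟨h1, h2⟩
  unfold ht at h1 h2
  rcases le_or_gt x.num.natDegree x.denom.natDegree with h | h
  · rw [max_eq_right h, (RatFunc.monic_denom x).coeff_natDegree] at h2
    exact one_ne_zero h2
  · rw [max_eq_left h.le, coeff_natDegree, leadingCoeff_eq_zero] at h1
    rw [h1] at h
    simp at h

theorem ne_num_denom {κ : Type*} [Field κ] (φ : k[X] →+* κ) (x : RatFunc k) :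
    ¬ (φ x.num = 0 ∧ φ x.denom = 0) :=
  map_coprime_ne φ (RatFunc.isCoprime_num_denom x)

theorem mul_denom (x : RatFunc k) :
    x * algebraMap k[X] (RatFunc k) x.denom = algebraMap k[X] (RatFunc k) x.num := by
  have hd : algebraMap k[X] (RatFunc k) x.denom ≠ 0 :=
    RatFunc.algebraMap_ne_zero (RatFunc.denom_ne_zero x)
  exact (eq_div_iff hd).mp (RatFunc.num_div_denom x).symm

theorem prim3_num_denom (x : RatFunc k) : Prim3 (ht x) x.denom x.num 0 where
  fin := fin_of_field (fun _ _ φ h => ne_num_denom φ x ⟨h.2.1, h.1⟩)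
  da := le_max_right _ _
  db := le_max_left _ _
  dc := by simp
  top := fun h => top_num_denom x ⟨h.2.1, h.1⟩

/-- If `x = b / a` with `(a, b)` primitive of degree `D`, then `ht x = D`. -/
theorem ht_eq_of_prim3 {x : RatFunc k} {D : ℕ} {a b : k[X]}
    (hx : x * algebraMap k[X] (RatFunc k) a = algebraMap k[X] (RatFunc k) b)
    (h : Prim3 D a b 0) : ht x = D := by
  refine Prim3.unique (prim3_num_denom x) h (RatFunc.denom_ne_zero x) ?_ (by simp)
  apply RatFunc.algebraMap_injective k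
  rw [map_mul, map_mul, ← hx, ← mul_denom x]
  ring

/-- `ht` of a quotient of coprime polynomials. -/
theorem ht_div_of_isCoprime {a b : k[X]} (hb : b ≠ 0) (h : IsCoprime a b) :
    ht (algebraMap k[X] (RatFunc k) a / algebraMap k[X] (RatFunc k) b) =
      max a.natDegree b.natDegree := by
  have hb' : algebraMap k[X] (RatFunc k) b ≠ 0 := RatFunc.algebraMap_ne_zero hb
  have hmax : max b.natDegree (max a.natDegree (0 : k[X]).natDegree) =
      max a.natDegree b.natDegree := by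
    simp [max_comm]
  rw [← hmax]
  apply ht_eq_of_prim3 (div_mul_cancel₀ _ hb')
  refine ⟨fin_of_field (fun _ _ φ hh => map_coprime_ne φ h ⟨hh.2.1, hh.1⟩), ?_, ?_, ?_, ?_⟩
  · exact le_max_left _ _
  · exact (le_max_left _ _).trans (le_max_right _ _)
  · simp
  · rintro ⟨h1, h2, -⟩
    rw [hmax] at h1 h2
    rcases le_or_gt a.natDegree b.natDegree with hle | hlt
    · rw [max_eq_right hle, coeff_natDegree, leadingCoeff_eq_zero] at h1
      exact hb h1
    · rw [max_eq_left hlt.le, coeff_natDegree, leadingCoeff_eq_zero] at h2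
      rw [h2] at hlt
      simp at hlt

theorem ht_zero : ht (0 : RatFunc k) = 0 := by simp [ht]

theorem ht_neg (x : RatFunc k) : ht (-x) = ht x := by
  have h := ht_eq_of_prim3 (x := -x) (D := ht x) (a := x.denom) (b := -x.num)
    (by rw [map_neg, ← mul_denom x]; ring) ?_
  · exact h
  · have h0 := prim3_num_denom x
    refine ⟨fun M hM hh => h0.fin M hM ⟨hh.1, by simpa using hh.2.1, hh.2.2⟩, h0.da, ?_, h0.dc, ?_⟩
    · simpa using h0.db
    · intro hh
      exact h0.top ⟨hh.1, by simpa using hh.2.1, hh.2.2⟩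

/-- primitive triple attached to the sum and the product of two rational functions -/
theorem prim3_pair (x₃ x₄ : RatFunc k) :
    Prim3 (ht x₃ + ht x₄) (x₃.denom * x₄.denom) (x₃.num * x₄.denom + x₃.denom * x₄.num)
      (x₃.num * x₄.num) := by
  have b1 := (bd_denom x₃).mul (bd_denom x₄)
  have b2 := ((bd_num x₃).mul (bd_denom x₄)).add ((bd_denom x₃).mul (bd_num x₄))
  have b3 := (bd_num x₃).mul (bd_num x₄)
  refine ⟨fin_of_field (fun κ _ φ hh => ?_), b1.1, b2.1, b3.1, ?_⟩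
  · simp only [map_mul, map_add] at hh
    exact core_pair _ _ _ _ (ne_num_denom φ x₃) (ne_num_denom φ x₄) hh
  · rw [b1.2, b2.2, b3.2]
    exact core_pair _ _ _ _ (top_num_denom x₃) (top_num_denom x₄)

theorem map_C_two {R : Type*} [Semiring R] (φ : k[X] →+* R) : φ (C (2 : k)) = 2 := by
  simpa using map_ofNat (φ.comp C) 2

theorem map_C_four {R : Type*} [Semiring R] (φ : k[X] →+* R) : φ (C (4 : k)) = 4 := by
  simpa using map_ofNat (φ.comp C) 4

theorem map_C_eight {R : Type*} [Semiring R] (φ : k[X] →+* R) : φ (C (8 : k)) = 8 := by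
  simpa using map_ofNat (φ.comp C) 8

theorem map_C_disc {κ : Type*} [Field κ] (φ : k[X] →+* κ) {A B : k}
    (hΔ : 4 * A ^ 3 + 27 * B ^ 2 ≠ 0) : 4 * φ (C A) ^ 3 + 27 * φ (C B) ^ 2 ≠ 0 := by
  have h := map_C_ne_zero φ hΔ
  have e27 : φ (C (27 : k)) = 27 := by simpa using map_ofNat (φ.comp C) 27
  simp only [map_add, map_mul, map_pow, map_C_four, e27] at h
  exact h

theorem map_two_ne {κ : Type*} [Field κ] (φ : k[X] →+* κ) (h2 : (2 : k) ≠ 0) : (2 : κ) ≠ 0 := by
  rw [← map_C_two φ]; exact map_C_ne_zero φ h2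

/-- primitive triple of the three `(2,2)`-forms of the x-only addition law -/
theorem prim3_add (A B : k) (h2 : (2 : k) ≠ 0) (hΔ : 4 * A ^ 3 + 27 * B ^ 2 ≠ 0)
    (x₁ x₂ : RatFunc k) :
    Prim3 ((ht x₁ + ht x₂) + (ht x₁ + ht x₂))
      ((x₁.num * x₂.denom - x₁.denom * x₂.num) * (x₁.num * x₂.denom - x₁.denom * x₂.num))
      (C 2 * ((x₁.num * x₂.denom + x₁.denom * x₂.num) *
          (x₁.num * x₂.num + C A * (x₁.denom * x₂.denom))) +
        C (4 * B) * ((x₁.denom * x₂.denom) * (x₁.denom * x₂.denom)))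
      ((x₁.num * x₂.num - C A * (x₁.denom * x₂.denom)) *
          (x₁.num * x₂.num - C A * (x₁.denom * x₂.denom)) -
        C (4 * B) * ((x₁.num * x₂.denom + x₁.denom * x₂.num) * (x₁.denom * x₂.denom))) := by
  have bq := (bd_num x₁).mul (bd_denom x₂)
  have br := (bd_denom x₁).mul (bd_num x₂)
  have bp := (bd_num x₁).mul (bd_num x₂)
  have bs := (bd_denom x₁).mul (bd_denom x₂)
  have bF := (bq.sub br).mul (bq.sub br)
  have bG := (((bq.add br).mul (bp.add (bs.C_mul A))).C_mul 2).add ((bs.mul bs).C_mul (4 * B))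
  have bH := ((bp.sub (bs.C_mul A)).mul (bp.sub (bs.C_mul A))).sub
    (((bq.add br).mul bs).C_mul (4 * B))
  refine ⟨fin_of_field (fun κ _ φ hh => ?_), bF.1, bG.1, bH.1, ?_⟩
  · simp only [map_mul, map_add, map_sub, map_C_two, map_C_four] at hh
    exact core_add (φ (C A)) (φ (C B)) (map_two_ne φ h2) (map_C_disc φ hΔ) _ _ _ _
      (ne_num_denom φ x₁) (ne_num_denom φ x₂) hh
  · rw [bF.2, bG.2, bH.2]
    exact core_add A B h2 hΔ _ _ _ _ (top_num_denom x₁) (top_num_denom x₂)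

/-- **x-level parallelogram law** (Manin). If `x₃ + x₄` and `x₃ x₄` are given by the x-only
addition formulas of `y² = x³ + A x + B` in terms of `x₁`, `x₂`, then
`ht x₃ + ht x₄ = 2 ht x₁ + 2 ht x₂`. -/
theorem ht_sum_prod (A B : k) (h2 : (2 : k) ≠ 0) (hΔ : 4 * A ^ 3 + 27 * B ^ 2 ≠ 0)
    {x₁ x₂ x₃ x₄ : RatFunc k}
    (hsum : (x₃ + x₄) * (x₁ - x₂) ^ 2 =
      2 * ((x₁ * x₂ + RatFunc.C A) * (x₁ + x₂) + 2 * RatFunc.C B))
    (hprod : x₃ * x₄ * (x₁ - x₂) ^ 2 =
      (x₁ * x₂ - RatFunc.C A) ^ 2 - 4 * RatFunc.C B * (x₁ + x₂)) :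
    ht x₃ + ht x₄ = 2 * ht x₁ + 2 * ht x₂ := by
  have P1 := prim3_add A B h2 hΔ x₁ x₂
  have P2 := prim3_pair x₃ x₄
  have e₁ := mul_denom x₁
  have e₂ := mul_denom x₂
  have e₃ := mul_denom x₃
  have e₄ := mul_denom x₄
  have key := Prim3.unique P2 P1
    (mul_ne_zero (RatFunc.denom_ne_zero x₃) (RatFunc.denom_ne_zero x₄)) ?_ ?_
  · omega
  · apply RatFunc.algebraMap_injective k
    simp only [map_mul, map_add, map_sub, map_C_two, map_C_four, RatFunc.algebraMap_C]
    rw [← e₁, ← e₂, ← e₃, ← e₄]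
    linear_combination
      ((algebraMap k[X] (RatFunc k) x₁.denom) * (algebraMap k[X] (RatFunc k) x₂.denom)) ^ 2 *
        (algebraMap k[X] (RatFunc k) x₃.denom) * (algebraMap k[X] (RatFunc k) x₄.denom) * hsum
  · apply RatFunc.algebraMap_injective k
    simp only [map_mul, map_add, map_sub, map_C_four, RatFunc.algebraMap_C]
    rw [← e₁, ← e₂, ← e₃, ← e₄]
    linear_combination
      ((algebraMap k[X] (RatFunc k) x₁.denom) * (algebraMap k[X] (RatFunc k) x₂.denom)) ^ 2 *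
        (algebraMap k[X] (RatFunc k) x₃.denom) * (algebraMap k[X] (RatFunc k) x₄.denom) * hprod

/-- primitive pair of the duplication forms -/
theorem prim3_dup (A B : k) (h2 : (2 : k) ≠ 0) (hΔ : 4 * A ^ 3 + 27 * B ^ 2 ≠ 0)
    (x : RatFunc k) :
    Prim3 (ht x + (ht x + (ht x + ht x)))
      (C 4 * (x.denom * (x.num * (x.num * x.num) + C A * (x.num * (x.denom * x.denom)) +
        C B * (x.denom * (x.denom * x.denom)))))
      (x.num * (x.num * (x.num * x.num)) - C (2 * A) * (x.num * (x.num * (x.denom * x.denom))) -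
        C (8 * B) * (x.num * (x.denom * (x.denom * x.denom))) +
        C (A ^ 2) * (x.denom * (x.denom * (x.denom * x.denom))))
      0 := by
  have n := bd_num x
  have d := bd_denom x
  have bf := ((n.mul (n.mul n)).add ((n.mul (d.mul d)).C_mul A)).add ((d.mul (d.mul d)).C_mul B)
  have bden := (d.mul bf).C_mul 4
  have bnum := (((n.mul (n.mul (n.mul n))).sub ((n.mul (n.mul (d.mul d))).C_mul (2 * A))).sub
    ((n.mul (d.mul (d.mul d))).C_mul (8 * B))).add ((d.mul (d.mul (d.mul d))).C_mul (A ^ 2))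
  refine ⟨fin_of_field (fun κ _ φ hh => ?_), bden.1, bnum.1, by simp, ?_⟩
  · simp only [map_mul, map_add, map_sub, map_pow, map_C_two, map_C_four,
      map_C_eight] at hh
    exact core_dup (φ (C A)) (φ (C B)) (map_two_ne φ h2) (map_C_disc φ hΔ) _ _
      (ne_num_denom φ x) ⟨by linear_combination hh.1, by linear_combination hh.2.1⟩
  · rw [bden.2, bnum.2]
    intro hh
    exact core_dup A B h2 hΔ _ _ (top_num_denom x)
      ⟨by linear_combination hh.1, by linear_combination hh.2.1⟩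

/-- **duplication**: `ht (((x²-A)²-8Bx) / (4(x³+Ax+B))) = 4 ht x`. -/
theorem ht_dup (A B : k) (h2 : (2 : k) ≠ 0) (hΔ : 4 * A ^ 3 + 27 * B ^ 2 ≠ 0)
    {x x' : RatFunc k}
    (h : x' * (4 * (x ^ 3 + RatFunc.C A * x + RatFunc.C B)) =
      (x ^ 2 - RatFunc.C A) ^ 2 - 8 * RatFunc.C B * x) :
    ht x' = 4 * ht x := by
  have P := prim3_dup A B h2 hΔ x
  have e := mul_denom x
  have key := ht_eq_of_prim3 (x := x') ?_ P
  · omega
  · simp only [map_mul, map_add, map_sub, map_pow, map_C_two, map_C_four,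
      map_C_eight, RatFunc.algebraMap_C]
    rw [← e]
    linear_combination (algebraMap k[X] (RatFunc k) x.denom) ^ 4 * h

/-- a rational function which is a root of `x³ + A x + B` is constant -/
theorem ht_eq_zero_of_cubic (A B : k) (h2 : (2 : k) ≠ 0) (hΔ : 4 * A ^ 3 + 27 * B ^ 2 ≠ 0)
    {x : RatFunc k} (h : x ^ 3 + RatFunc.C A * x + RatFunc.C B = 0) : ht x = 0 := by
  have P := prim3_dup A B h2 hΔ x
  have e := mul_denom x
  have hz : C 4 * (x.denom * (x.num * (x.num * x.num) + C A * (x.num * (x.denom * x.denom)) +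
        C B * (x.denom * (x.denom * x.denom)))) = 0 := by
    apply RatFunc.algebraMap_injective k
    simp only [map_mul, map_add, map_zero, map_C_four, RatFunc.algebraMap_C]
    rw [← e]
    linear_combination 4 * (algebraMap k[X] (RatFunc k) x.denom) ^ 4 * h
  rw [hz] at P
  have := P.eq_zero_of_zero
  omega

end ratfunc

end Fermat.Agent.S52.helper6492
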