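import Mathlib

/-!
# The generic point principle for Weierstrass curves (S52, leaf L1-H10)

`F` is a finite field, `W` an elliptic curve over `F` in Weierstrass form, `K` an algebraically
closed field over `F`.  If an integral quadratic relation in the Frobenius holds at ONE
non-constant point of `W` over ANY field `L` over `K`, up to a constant point, then it holds
(exactly) at every point of `W` over `K`.

The proof uses Mathlib's function field `L₀` of `W⁄K`, its generic point `G₀`, the universal
property "every non-constant point `G` of `W` over a field `L ⊇ K` is the image of `G₀` under a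
unique `K`-embedding `L₀ → L`", and translation by constant points.
-/

namespace Fermat.Agent.S52.helper1104

open WeierstrassCurve WeierstrassCurve.Affine Polynomial
open scoped Polynomial.Bivariate

noncomputable section

universe uF uK uL

variable {F : Type uF} [Field F] (W : WeierstrassCurve F)
variable {K : Type uK} [Field K] [Algebra F K]
variable {L : Type uL} [Field L] [Algebra F L] [Algebra K L] [IsScalarTower F K L]

/-! ## Evaluation of the coordinate ring at a point -/

/-- Evaluation of the coordinate ring of `W⁄K` at a solution `(x, y)` of the Weierstrass equation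
of `W` over a `K`-algebra field `L`. -/
def evalAt (x y : L) (h : (W⁄L).Equation x y) :
    (W⁄K).CoordinateRing →ₐ[K] L :=
  AdjoinRoot.liftAlgHom (W⁄K).polynomial (Polynomial.aeval x) y (by
    have h' := (equation_iff _ _).mp h
    simp only [Affine.polynomial, eval₂_add, eval₂_sub, eval₂_mul, eval₂_pow, eval₂_C, eval₂_X,
      RingHom.coe_coe, map_add, map_mul, map_pow, aeval_C, aeval_X]
    simp only [WeierstrassCurve.baseChange, WeierstrassCurve.map_a₁, WeierstrassCurve.map_a₂,
      WeierstrassCurve.map_a₃, WeierstrassCurve.map_a₄, WeierstrassCurve.map_a₆,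
      ← IsScalarTower.algebraMap_apply] at h' ⊢
    linear_combination h')

lemma evalAt_mk (x y : L) (h : (W⁄L).Equation x y) (p : K[X][Y]) :
    evalAt W x y h (CoordinateRing.mk _ p) = p.eval₂ (Polynomial.aeval x : K[X] →ₐ[K] L) y := by
  simp [evalAt]

lemma evalAt_X (x y : L) (h : (W⁄L).Equation x y) :
    evalAt W x y h (CoordinateRing.mk (W⁄K) (C X)) = x := by
  rw [evalAt_mk]; simp

lemma evalAt_Y (x y : L) (h : (W⁄L).Equation x y) :
    evalAt W x y h (CoordinateRing.mk (W⁄K) Y) = y := by
  rw [evalAt_mk]; simp

/-- An element of a field extension of an algebraically closed field `K` which is a root of a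
nonzero polynomial over `K` lies in `K`. -/
lemma mem_range_of_aeval_eq_zero [IsAlgClosed K] {x : L} {N : K[X]} (hN : N ≠ 0)
    (hx : Polynomial.aeval x N = 0) : x ∈ (algebraMap K L).range := by
  have halg : IsAlgebraic K x := ⟨N, hN, hx⟩
  have hint : IsIntegral K x := halg.isIntegral
  exact minpoly.mem_range_of_degree_eq_one K x
    (IsAlgClosed.degree_eq_one_of_irreducible K (minpoly.irreducible hint))

/-- If `x` is not in `K` (algebraically closed) then evaluation at `(x, y)` is injective on the
coordinate ring. -/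
theorem evalAt_injective [IsAlgClosed K] (x y : L) (h : (W⁄L).Equation x y)
    (hx : x ∉ (algebraMap K L).range) : Function.Injective (evalAt (K := K) W x y h) := by
  rw [injective_iff_map_eq_zero]
  intro r hr
  by_contra hne
  obtain ⟨p, q, rfl⟩ := CoordinateRing.exists_smul_basis_eq r
  set N : K[X] := Algebra.norm K[X] (p • (1 : (W⁄K).CoordinateRing) +
    q • CoordinateRing.mk (W⁄K) Y) with hNdef
  have hN0 : N ≠ 0 := by
    have : Module.Finite K[X] (W⁄K).CoordinateRing :=
      Module.Finite.of_basis (CoordinateRing.basis _)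
    rw [hNdef, Ne, Algebra.norm_eq_zero_iff]
    exact hne
  have hprod : (p • (1 : (W⁄K).CoordinateRing) + q • CoordinateRing.mk (W⁄K) Y) *
      CoordinateRing.mk (W⁄K) (C p + C q * (-(Y : K[X][Y]) - C (C (W⁄K).a₁ * X +
        C (W⁄K).a₃))) = CoordinateRing.mk (W⁄K) (C N) := by
    rw [CoordinateRing.smul, CoordinateRing.smul, mul_one, ← map_mul, ← map_add, ← map_mul]
    refine AdjoinRoot.mk_eq_mk.mpr ⟨-(C q) ^ 2, ?_⟩
    rw [hNdef, CoordinateRing.norm_smul_basis, Affine.polynomial]
    simp only [C_add, C_sub, C_mul, C_pow]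
    ring1
  have hev := congrArg (evalAt (K := K) W x y h) hprod
  rw [map_mul, hr, zero_mul, evalAt_mk, eval₂_C] at hev
  exact hx (mem_range_of_aeval_eq_zero hN0 hev.symm)

/-! ## The function field and its generic point -/

variable (K) in
/-- The function field of `W⁄K` (Mathlib's), as a type abbreviation. -/
abbrev FF : Type uK := (W⁄K).FunctionField

/-- The embedding of the function field of `W⁄K` into `L` attached to a solution `(x, y)` of the
Weierstrass equation over `L` whose `x`-coordinate is not in `K`. -/
def genericHom [IsAlgClosed K] (x y : L) (h : (W⁄L).Equation x y)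
    (hx : x ∉ (algebraMap K L).range) : FF W K →ₐ[K] L :=
  IsFractionRing.liftAlgHom (evalAt_injective W x y h hx)

variable (K) in
/-- The `x`-coordinate of the generic point. -/
def genX : FF W K :=
  algebraMap (W⁄K).CoordinateRing (FF W K) (CoordinateRing.mk (W⁄K) (C X))

variable (K) in
/-- The `y`-coordinate of the generic point. -/
def genY : FF W K :=
  algebraMap (W⁄K).CoordinateRing (FF W K) (CoordinateRing.mk (W⁄K) Y)

lemma genericHom_genX [IsAlgClosed K] (x y : L) (h : (W⁄L).Equation x y)
    (hx : x ∉ (algebraMap K L).range) : genericHom W x y h hx (genX W K) = x := by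
  rw [genericHom, genX, IsFractionRing.liftAlgHom_apply, IsFractionRing.lift_algebraMap]
  exact evalAt_X W x y h

lemma genericHom_genY [IsAlgClosed K] (x y : L) (h : (W⁄L).Equation x y)
    (hx : x ∉ (algebraMap K L).range) : genericHom W x y h hx (genY W K) = y := by
  rw [genericHom, genY, IsFractionRing.liftAlgHom_apply, IsFractionRing.lift_algebraMap]
  exact evalAt_Y W x y h

variable (K) in
lemma gen_equation : (W⁄(FF W K)).Equation (genX W K) (genY W K) := by
  rw [equation_iff]
  have key : CoordinateRing.mk (W⁄K) (W⁄K).polynomial = 0 := AdjoinRoot.mk_self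
  have key' := congrArg (algebraMap (W⁄K).CoordinateRing (FF W K)) key
  have hc : ∀ a : F, algebraMap F (FF W K) a = algebraMap (W⁄K).CoordinateRing (FF W K)
      (CoordinateRing.mk (W⁄K) (C (C (algebraMap F K a)))) := by
    intro a
    rw [IsScalarTower.algebraMap_apply F (W⁄K).CoordinateRing (FF W K),
      IsScalarTower.algebraMap_apply F K (W⁄K).CoordinateRing]
    rfl
  simp only [Affine.polynomial, map_add, map_sub, map_mul, map_pow, map_zero] at key'
  simp only [WeierstrassCurve.baseChange, WeierstrassCurve.map_a₁, WeierstrassCurve.map_a₂,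
    WeierstrassCurve.map_a₃, WeierstrassCurve.map_a₄, WeierstrassCurve.map_a₆, hc, genX, genY]
    at key' ⊢
  linear_combination key'

/-- Base change of an elliptic curve to a field is elliptic. -/
lemma isElliptic_baseChange [W.IsElliptic] (A : Type*) [Field A] [Algebra F A] :
    (W⁄A).IsElliptic :=
  inferInstanceAs (W.map (algebraMap F A)).IsElliptic

variable (K) in
/-- The generic point of `W` over the function field of `W⁄K`. -/
def genPoint [W.IsElliptic] : (W⁄(FF W K)).Point :=
  haveI := isElliptic_baseChange W (FF W K)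
  Point.some _ _ (equation_iff_nonsingular.mp (gen_equation W K))

/-! ## Constant points -/

section points

variable [DecidableEq K] [DecidableEq L]

omit [Algebra F K] [DecidableEq K] in
lemma quadratic_ne_zero (b e : K) : (X ^ 2 + C b * X - C e : K[X]) ≠ 0 := by
  intro h0
  have := congrArg (fun p : K[X] => p.coeff 2) h0
  simp at this

/-- A point over `L` whose `x`-coordinate lies in `K` (algebraically closed) is a constant point,
i.e. comes from a point over `K`. -/
theorem some_mem_range_of_x_mem [IsAlgClosed K] {x y : L} (h : (W⁄L).Nonsingular x y)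
    (hx : x ∈ (algebraMap K L).range) :
    Point.some _ _ h ∈ Set.range (Point.map (W' := W) (IsScalarTower.toAlgHom F K L)) := by
  obtain ⟨c, rfl⟩ := hx
  have heq := (equation_iff _ _).mp h.1
  set g : K[X] := X ^ 2 + C ((W⁄K).a₁ * c + (W⁄K).a₃) * X -
    C (c ^ 3 + (W⁄K).a₂ * c ^ 2 + (W⁄K).a₄ * c + (W⁄K).a₆) with hg
  have hg0 : g ≠ 0 := quadratic_ne_zero _ _
  have hgy : Polynomial.aeval y g = 0 := by
    simp only [hg, map_add, map_sub, map_mul, map_pow, aeval_X, aeval_C]
    simp only [WeierstrassCurve.baseChange, WeierstrassCurve.map_a₁, WeierstrassCurve.map_a₂,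
      WeierstrassCurve.map_a₃, WeierstrassCurve.map_a₄, WeierstrassCurve.map_a₆,
      ← IsScalarTower.algebraMap_apply] at heq ⊢
    linear_combination heq
  obtain ⟨d, rfl⟩ := mem_range_of_aeval_eq_zero hg0 hgy
  have hns : (W⁄K).Nonsingular c d :=
    (Affine.baseChange_nonsingular W (f := IsScalarTower.toAlgHom F K L)
      (RingHom.injective _) c d).mp h
  exact ⟨Point.some _ _ hns, rfl⟩

end points

/-! ## The quadratic expression in the Frobenius -/

section psi

variable {A : Type*} [Field A] [DecidableEq A] [Algebra F A]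
variable {B : Type*} [Field B] [DecidableEq B] [Algebra F B]

/-- The endomorphism `c₂ φ² + c₁ φ + c₀` of the group of points of `W` over `A`. -/
def psi (φ : A →ₐ[F] A) (c₀ c₁ c₂ : ℤ) : (W⁄A).Point →+ (W⁄A).Point :=
  c₂ • ((Point.map (W' := W) φ).comp (Point.map (W' := W) φ)) + c₁ • Point.map (W' := W) φ +
    c₀ • AddMonoidHom.id _

lemma psi_apply (φ : A →ₐ[F] A) (c₀ c₁ c₂ : ℤ) (P : (W⁄A).Point) :
    psi W φ c₀ c₁ c₂ P = c₂ • Point.map (W' := W) φ (Point.map (W' := W) φ P) +
      c₁ • Point.map (W' := W) φ P + c₀ • P := rfl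

lemma map_psi (φA : A →ₐ[F] A) (φB : B →ₐ[F] B) (σ : A →ₐ[F] B)
    (hσ : σ.comp φA = φB.comp σ) (c₀ c₁ c₂ : ℤ) (P : (W⁄A).Point) :
    Point.map (W' := W) σ (psi W φA c₀ c₁ c₂ P) =
      psi W φB c₀ c₁ c₂ (Point.map (W' := W) σ P) := by
  have h2 : σ.comp (φA.comp φA) = φB.comp (φB.comp σ) := by
    rw [← AlgHom.comp_assoc, hσ, AlgHom.comp_assoc, hσ]
  simp only [psi_apply, map_add, map_zsmul, Point.map_map, hσ, h2]

end psi

/-! ## The generic point principle -/

section main

variable [DecidableEq K] [DecidableEq L] [W.IsElliptic] [IsAlgClosed K]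

/-- Universal property of the generic point: every non-constant point of `W` over a field `L`
over `K` is the image of the generic point under an embedding of the function field over `K`. -/
theorem exists_genericHom [DecidableEq (FF W K)] (G : (W⁄L).Point)
    (hG : G ∉ Set.range (Point.map (W' := W) (IsScalarTower.toAlgHom F K L))) :
    ∃ j : FF W K →ₐ[F] L,
      j.comp (IsScalarTower.toAlgHom F K (FF W K)) = IsScalarTower.toAlgHom F K L ∧
      Point.map (W' := W) j (genPoint W K) = G := by
  rcases G with _ | ⟨x, y, hxy⟩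
  · exact absurd ⟨0, rfl⟩ hG
  · have hx : x ∉ (algebraMap K L).range := fun hx => hG (some_mem_range_of_x_mem W hxy hx)
    refine ⟨(genericHom W x y hxy.1 hx).restrictScalars F, ?_, ?_⟩
    · refine AlgHom.ext fun c => ?_
      simp
    · rw [genPoint, Point.map_some]
      simp only [AlgHom.coe_restrictScalars', genericHom_genX, genericHom_genY]

/-- **Generic point principle**, internal form. -/
theorem psi_eq_zero_of_generic [Fintype F]
    (φK : K →ₐ[F] K) (hφK : ∀ x, φK x = x ^ Fintype.card F)
    (φL : L →ₐ[F] L) (hφL : ∀ x, φL x = x ^ Fintype.card F)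
    (G : (W⁄L).Point)
    (hG : G ∉ Set.range (Point.map (W' := W) (IsScalarTower.toAlgHom F K L)))
    (c₀ c₁ c₂ : ℤ) (T : (W⁄K).Point)
    (h : psi W φL c₀ c₁ c₂ G = Point.map (W' := W) (IsScalarTower.toAlgHom F K L) T)
    (P : (W⁄K).Point) : psi W φK c₀ c₁ c₂ P = 0 := by
  classical
  set ι : K →ₐ[F] L := IsScalarTower.toAlgHom F K L with hι
  set ι₀ : K →ₐ[F] FF W K := IsScalarTower.toAlgHom F K (FF W K) with hι₀
  set φ₀ : FF W K →ₐ[F] FF W K := FiniteField.frobeniusAlgHom F (FF W K) with hφ₀
  have comm : ∀ j : FF W K →ₐ[F] L, j.comp φ₀ = φL.comp j := by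
    intro j
    refine AlgHom.ext fun z => ?_
    simp [hφ₀, hφL]
  have commι : ι.comp φK = φL.comp ι := by
    refine AlgHom.ext fun z => ?_
    simp [hφK, hφL]
  obtain ⟨j, hj, hjG⟩ := exists_genericHom W G hG
  have hZ : psi W φ₀ c₀ c₁ c₂ (genPoint W K) = Point.map (W' := W) ι₀ T := by
    apply Point.map_injective (W' := W) j
    rw [map_psi W φ₀ φL j (comm j), hjG, h, Point.map_map, hj]
  have hG' : G + Point.map (W' := W) ι P ∉ Set.range (Point.map (W' := W) ι) := by
    rintro ⟨Q, hQ⟩
    exact hG ⟨Q - P, by rw [map_sub, hQ, add_sub_cancel_right]⟩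
  obtain ⟨j', hj', hjG'⟩ := exists_genericHom W _ hG'
  have h1 : psi W φL c₀ c₁ c₂ (G + Point.map (W' := W) ι P) = Point.map (W' := W) ι T := by
    rw [← hjG', ← map_psi W φ₀ φL j' (comm j'), hZ, Point.map_map, hj']
  have h2 : psi W φL c₀ c₁ c₂ (Point.map (W' := W) ι P) = 0 := by
    rw [map_add, h] at h1
    exact add_eq_left.mp h1
  rw [← map_psi W φK φL ι commι] at h2
  exact Point.map_injective (W' := W) ι (h2.trans (map_zero _).symm)

/-- **Generic point principle** (tower form).  `F` a finite field, `W` an elliptic curve over `F`,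
`K` an algebraically closed field over `F`, `L` any field over `K`, `φK`, `φL` the
`#F`-power Frobenius maps.  If `c₂ φ² G + c₁ φ G + c₀ G` is a constant point for ONE non-constant
point `G` of `W` over `L`, then `c₂ φ² P + c₁ φ P + c₀ P = 0` for EVERY point `P` of `W` over `K`. -/
theorem frob_relation_of_generic [Fintype F]
    (φK : K →ₐ[F] K) (hφK : ∀ x, φK x = x ^ Fintype.card F)
    (φL : L →ₐ[F] L) (hφL : ∀ x, φL x = x ^ Fintype.card F)
    (G : (W⁄L).Point)
    (hG : G ∉ Set.range (Point.map (W' := W) (IsScalarTower.toAlgHom F K L)))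
    (c₀ c₁ c₂ : ℤ) (T : (W⁄K).Point)
    (h : c₂ • Point.map (W' := W) φL (Point.map (W' := W) φL G) +
        c₁ • Point.map (W' := W) φL G + c₀ • G =
      Point.map (W' := W) (IsScalarTower.toAlgHom F K L) T)
    (P : (W⁄K).Point) :
    c₂ • Point.map (W' := W) φK (Point.map (W' := W) φK P) +
      c₁ • Point.map (W' := W) φK P + c₀ • P = 0 :=
  psi_eq_zero_of_generic W φK hφK φL hφL G hG c₀ c₁ c₂ T h P

end main

/-! ## Forms with an arbitrary embedding `ι : K →ₐ[F] L` (no `Algebra K L` instance needed) -/

section hom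

variable {M : Type*} [Field M] [Algebra F M] [DecidableEq K] [DecidableEq M]
  [W.IsElliptic] [IsAlgClosed K]

omit [W.IsElliptic] in
/-- A point over `M` whose `x`-coordinate lies in the image of `K` (algebraically closed) comes
from a point over `K`. -/
theorem some_mem_range_map_of_x_mem (ι : K →ₐ[F] M) {x y : M} (h : (W⁄M).Nonsingular x y)
    (hx : x ∈ Set.range ι) : Point.some _ _ h ∈ Set.range (Point.map (W' := W) ι) := by
  let _ : Algebra K M := ι.toRingHom.toAlgebra
  have : IsScalarTower F K M := IsScalarTower.of_algebraMap_eq (fun x => (ι.commutes x).symm)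
  have hι : IsScalarTower.toAlgHom F K M = ι := AlgHom.ext fun _ => rfl
  rw [← hι]
  exact some_mem_range_of_x_mem W h hx

/-- **Generic point principle** (embedding form): as `frob_relation_of_generic`, for an arbitrary
`F`-algebra embedding `ι : K →ₐ[F] M` into a field `M`. -/
theorem frob_relation_of_generic_hom [Fintype F] (ι : K →ₐ[F] M)
    (φK : K →ₐ[F] K) (hφK : ∀ x, φK x = x ^ Fintype.card F)
    (φM : M →ₐ[F] M) (hφM : ∀ x, φM x = x ^ Fintype.card F)
    (G : (W⁄M).Point) (hG : G ∉ Set.range (Point.map (W' := W) ι))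
    (c₀ c₁ c₂ : ℤ) (T : (W⁄K).Point)
    (h : c₂ • Point.map (W' := W) φM (Point.map (W' := W) φM G) +
        c₁ • Point.map (W' := W) φM G + c₀ • G = Point.map (W' := W) ι T)
    (P : (W⁄K).Point) :
    c₂ • Point.map (W' := W) φK (Point.map (W' := W) φK P) +
      c₁ • Point.map (W' := W) φK P + c₀ • P = 0 := by
  let _ : Algebra K M := ι.toRingHom.toAlgebra
  have : IsScalarTower F K M := IsScalarTower.of_algebraMap_eq (fun x => (ι.commutes x).symm)
  have hι : IsScalarTower.toAlgHom F K M = ι := AlgHom.ext fun _ => rfl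
  rw [← hι] at hG h
  exact frob_relation_of_generic W φK hφK φM hφM G hG c₀ c₁ c₂ T h P

/-- **Generic point principle**, trace form: if `φ² G - a φ G + q G` is a constant point for one
non-constant point `G` over some field `M ⊇ K`, then `φ² P - a φ P + q P = 0` on all of `W(K)`
(`q = #F`). -/
theorem frob_trace_relation_of_generic [Fintype F] (ι : K →ₐ[F] M)
    (φK : K →ₐ[F] K) (hφK : ∀ x, φK x = x ^ Fintype.card F)
    (φM : M →ₐ[F] M) (hφM : ∀ x, φM x = x ^ Fintype.card F)
    (G : (W⁄M).Point) (hG : G ∉ Set.range (Point.map (W' := W) ι))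
    (a : ℤ) (T : (W⁄K).Point)
    (h : Point.map (W' := W) φM (Point.map (W' := W) φM G) -
        a • Point.map (W' := W) φM G + (Fintype.card F : ℤ) • G = Point.map (W' := W) ι T)
    (P : (W⁄K).Point) :
    Point.map (W' := W) φK (Point.map (W' := W) φK P) -
      a • Point.map (W' := W) φK P + (Fintype.card F : ℤ) • P = 0 := by
  have h' : (1 : ℤ) • Point.map (W' := W) φM (Point.map (W' := W) φM G) +
      (-a) • Point.map (W' := W) φM G + (Fintype.card F : ℤ) • G = Point.map (W' := W) ι T := by
    rw [one_smul, neg_smul, ← sub_eq_add_neg]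
    exact h
  have := frob_relation_of_generic_hom W ι φK hφK φM hφM G hG (Fintype.card F : ℤ) (-a) 1 T h' P
  rwa [one_smul, neg_smul, ← sub_eq_add_neg] at this

end hom

/-- `Point.map` only depends on the underlying ring homomorphism: restriction of scalars. -/
lemma map_restrictScalars {A : Type*} [Field A] [Algebra F A] [Algebra K A] [IsScalarTower F K A]
    {B : Type*} [Field B] [Algebra F B] [Algebra K B] [IsScalarTower F K B]
    [DecidableEq A] [DecidableEq B] (f : A →ₐ[K] B) (P : (W⁄A).Point) :
    Point.map (W' := W) f P = Point.map (W' := W) (f.restrictScalars F) P := by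
  cases P <;> rfl

end

end Fermat.Agent.S52.helper1104
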