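import Mathlib

/-!
# S52, leaf H5 + H9 of the Frobenius Cayley–Hamilton route (architecture: helper8312)

Pure abstract algebra, no elliptic curves.

* `IsPar h` : the parallelogram law `h (x + y) + h (x - y) = 2 * h x + 2 * h y` for a
  `ℤ`-valued function on an additive commutative group.
* `IsPar.pairing h x y = h (x + y) - h x - h y` is biadditive and symmetric (H5), `h` is
  homogeneous of degree two, etc.
* `IsPar.frobenius_quadratic` (H9): the Manin ending.  If `F` multiplies heights by `l`,
  `R` multiplies heights by `h Q`, `R P0 = Q = P0 + F P0`, `R` commutes with `F`, `h P0 = 1`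
  and `h (F P0 - P0) = N`, then `h (F (F P0) - (l + 1 - N) • F P0 + l • P0) = 0`.
-/

set_option autoImplicit false

namespace Fermat.Agent.S52.helper1617

variable {G : Type*} [AddCommGroup G]

/-- The parallelogram law for a `ℤ`-valued function on an additive commutative group. -/
def IsPar (h : G → ℤ) : Prop :=
  ∀ x y : G, h (x + y) + h (x - y) = 2 * h x + 2 * h y

namespace IsPar

/-- The pairing attached to `h`. -/
def pairing (h : G → ℤ) (x y : G) : ℤ := h (x + y) - h x - h y

variable {h : G → ℤ}

theorem map_zero (hp : IsPar h) : h 0 = 0 := by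
  have := hp 0 0
  simp only [add_zero, sub_zero] at this
  linarith

theorem map_neg (hp : IsPar h) (x : G) : h (-x) = h x := by
  have := hp 0 x
  simp only [zero_add, zero_sub] at this
  have h0 := hp.map_zero
  linarith

theorem map_sub_comm (hp : IsPar h) (x y : G) : h (x - y) = h (y - x) := by
  rw [← hp.map_neg (x - y), neg_sub]

theorem map_add_self (hp : IsPar h) (x : G) : h (x + x) = 4 * h x := by
  have := hp x x
  rw [sub_self, hp.map_zero] at this
  linarith

/-- The three-term identity behind biadditivity. -/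
theorem map_add_add_aux (hp : IsPar h) (x y z : G) :
    h (x + y + z) = h (x + y) + h (x + z) + h (y + z) - h x - h y - h z := by
  have h1 := hp (x + y) z
  have h2 := hp (x - z) y
  have h3 := hp x (y + z)
  have h4 := hp x z
  have e1 : x - z + y = x + y - z := by abel
  have e2 : x - z - y = x - (y + z) := by abel
  have e3 : x + (y + z) = x + y + z := by abel
  rw [e1, e2] at h2
  rw [e3] at h3
  linarith

theorem pairing_def (x y : G) : pairing h x y = h (x + y) - h x - h y := rfl

theorem pairing_comm (x y : G) : pairing h x y = pairing h y x := by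
  simp only [pairing_def, add_comm x y]
  ring

theorem pairing_add_left (hp : IsPar h) (x z y : G) :
    pairing h (x + z) y = pairing h x y + pairing h z y := by
  have := hp.map_add_add_aux x z y
  simp only [pairing_def]
  linarith

theorem pairing_add_right (hp : IsPar h) (x y z : G) :
    pairing h x (y + z) = pairing h x y + pairing h x z := by
  rw [pairing_comm, hp.pairing_add_left, pairing_comm y x, pairing_comm z x]

theorem pairing_self (hp : IsPar h) (x : G) : pairing h x x = 2 * h x := by
  rw [pairing_def, hp.map_add_self]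
  ring

theorem map_add (x y : G) : h (x + y) = h x + h y + pairing h x y := by
  rw [pairing_def]
  ring

theorem map_sub (hp : IsPar h) (x y : G) : h (x - y) = h x + h y - pairing h x y := by
  have := hp x y
  rw [pairing_def]
  linarith

theorem map_add_add (hp : IsPar h) (x y z : G) :
    h (x + y + z) = h x + h y + h z + pairing h x y + pairing h x z + pairing h y z := by
  have := hp.map_add_add_aux x y z
  simp only [pairing_def]
  linarith

/-- The pairing as a biadditive map. -/
def pairingHom (hp : IsPar h) : G →+ G →+ ℤ :=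
  AddMonoidHom.mk' (fun x => AddMonoidHom.mk' (fun y => pairing h x y)
      (fun y z => hp.pairing_add_right x y z))
    (fun x z => by
      ext y
      exact hp.pairing_add_left x z y)

@[simp]
theorem pairingHom_apply (hp : IsPar h) (x y : G) : hp.pairingHom x y = pairing h x y := rfl

theorem pairing_zsmul_left (hp : IsPar h) (n : ℤ) (x y : G) :
    pairing h (n • x) y = n * pairing h x y := by
  have h1 := _root_.map_zsmul
    (AddMonoidHom.mk' (fun x => pairing h x y) (fun x z => hp.pairing_add_left x z y)) n x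
  simp only [AddMonoidHom.mk'_apply, smul_eq_mul] at h1
  exact h1

theorem pairing_zsmul_right (hp : IsPar h) (n : ℤ) (x y : G) :
    pairing h x (n • y) = n * pairing h x y := by
  rw [pairing_comm, hp.pairing_zsmul_left, pairing_comm]

theorem pairing_neg_left (hp : IsPar h) (x y : G) : pairing h (-x) y = -pairing h x y := by
  have := hp.pairing_zsmul_left (-1) x y
  simpa using this

theorem pairing_neg_right (hp : IsPar h) (x y : G) : pairing h x (-y) = -pairing h x y := by
  rw [pairing_comm, hp.pairing_neg_left, pairing_comm]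

theorem pairing_zero_left (hp : IsPar h) (y : G) : pairing h 0 y = 0 := by
  have := hp.pairing_zsmul_left 0 0 y
  simpa using this

theorem pairing_zero_right (hp : IsPar h) (x : G) : pairing h x 0 = 0 := by
  rw [pairing_comm, hp.pairing_zero_left]

theorem pairing_sub_left (hp : IsPar h) (x z y : G) :
    pairing h (x - z) y = pairing h x y - pairing h z y := by
  rw [sub_eq_add_neg, hp.pairing_add_left, hp.pairing_neg_left]
  ring

theorem pairing_sub_right (hp : IsPar h) (x y z : G) :
    pairing h x (y - z) = pairing h x y - pairing h x z := by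
  rw [sub_eq_add_neg, hp.pairing_add_right, hp.pairing_neg_right]
  ring

/-- `h` is homogeneous of degree two. -/
theorem map_zsmul (hp : IsPar h) (n : ℤ) (x : G) : h (n • x) = n ^ 2 * h x := by
  have h1 := hp.pairing_self (n • x)
  rw [hp.pairing_zsmul_left, hp.pairing_zsmul_right, hp.pairing_self] at h1
  linarith

theorem map_nsmul (hp : IsPar h) (n : ℕ) (x : G) : h (n • x) = (n : ℤ) ^ 2 * h x := by
  rw [← hp.map_zsmul, natCast_zsmul]

theorem map_zsmul_add_zsmul (hp : IsPar h) (m n : ℤ) (x y : G) :
    h (m • x + n • y) = m ^ 2 * h x + m * n * pairing h x y + n ^ 2 * h y := by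
  rw [IsPar.map_add (h := h), hp.map_zsmul, hp.map_zsmul, hp.pairing_zsmul_left,
    hp.pairing_zsmul_right]
  ring

/-- Cauchy–Schwarz for a nonnegative `h`: `B(x,y)² ≤ 4 h(x) h(y)`. -/
theorem pairing_sq_le (hp : IsPar h) (hnn : ∀ x, 0 ≤ h x) (x y : G) :
    pairing h x y ^ 2 ≤ 4 * h x * h y := by
  have key : ∀ m n : ℤ, 0 ≤ m ^ 2 * h x + m * n * pairing h x y + n ^ 2 * h y := by
    intro m n
    rw [← hp.map_zsmul_add_zsmul]
    exact hnn _
  have h1 := key (pairing h x y) (-(2 * h x))
  have h2 := key (2 * h y) (-(pairing h x y))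
  have hx := hnn x
  have hy := hnn y
  by_contra hcon
  replace hcon := not_le.mp hcon
  -- `h1 : 0 ≤ h x * (4 h x h y - B²)`, `h2 : 0 ≤ h y * (4 h x h y - B²)`
  have h1' : 0 ≤ h x * (4 * h x * h y - pairing h x y ^ 2) := by nlinarith
  have h2' : 0 ≤ h y * (4 * h x * h y - pairing h x y ^ 2) := by nlinarith
  have hneg : 4 * h x * h y - pairing h x y ^ 2 < 0 := by linarith
  have hx0 : h x = 0 := by
    rcases hx.lt_or_eq with hlt | heq
    · nlinarith
    · exact heq.symm
  have hy0 : h y = 0 := by
    rcases hy.lt_or_eq with hlt | heq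
    · nlinarith
    · exact heq.symm
  -- then `h (x ± y) = ± B ≥ 0` forces `B = 0`
  have h3 := key 1 1
  have h4 := key 1 (-1)
  rw [hx0, hy0] at h3 h4 hcon
  have hB : pairing h x y = 0 := by nlinarith
  rw [hB] at hcon
  simp at hcon

/-- An additive map scaling `h` by `c` scales the pairing by `c`. -/
theorem pairing_map {F : G →+ G} {c : ℤ} (hF : ∀ x, h (F x) = c * h x) (x y : G) :
    pairing h (F x) (F y) = c * pairing h x y := by
  simp only [pairing_def, ← _root_.map_add, hF]
  ring

/-- **Manin ending (H9).**  Abstract form of `φ² - a φ + ℓ = 0` on the generic point: if `F`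
multiplies the quadratic height `h` by `l`, `R` multiplies it by `h Q`, `R P0 = Q = P0 + F P0`,
`R` commutes with `F`, `h P0 = 1` and `h (F P0 - P0) = N`, then
`h (F (F P0) - (l + 1 - N) • F P0 + l • P0) = 0`. -/
theorem frobenius_quadratic (hp : IsPar h) (F R : G →+ G) (P0 Q : G) (l N : ℤ)
    (hF : ∀ x, h (F x) = l * h x) (hR : ∀ x, h (R x) = h Q * h x)
    (hRP : R P0 = Q) (hQ : Q = P0 + F P0) (hRF : ∀ x, R (F x) = F (R x))
    (hP0 : h P0 = 1) (hN : h (F P0 - P0) = N) :
    h (F (F P0) - (l + 1 - N) • F P0 + l • P0) = 0 := by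
  have e1 : h (F P0) = l := by rw [hF, hP0, mul_one]
  have e2 : h (F (F P0)) = l * l := by rw [hF, e1]
  have b1 : pairing h (F P0) P0 = l + 1 - N := by
    have := hp.map_sub (F P0) P0
    rw [hN, e1, hP0] at this
    linarith
  have b2 : pairing h (F (F P0)) (F P0) = l * (l + 1 - N) := by
    rw [pairing_map hF, b1]
  have hQv : h Q = 1 + l + (l + 1 - N) := by
    rw [hQ, IsPar.map_add (h := h), hP0, e1, pairing_comm, b1]
  have e3 : R (F P0 - P0) = F (F P0) - P0 := by
    rw [_root_.map_sub, hRF, hRP, hQ, _root_.map_add]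
    abel
  have e4 : h (F (F P0) - P0) = (1 + l + (l + 1 - N)) * N := by
    rw [← e3, hR, hN, hQv]
  have b3 : pairing h (F (F P0)) P0 = l * l + 1 - (1 + l + (l + 1 - N)) * N := by
    have := hp.map_sub (F (F P0)) P0
    rw [e4, e2, hP0] at this
    linarith
  have e5 : F (F P0) - (l + 1 - N) • F P0 + l • P0
      = F (F P0) + (-(l + 1 - N)) • F P0 + l • P0 := by
    rw [neg_smul, sub_eq_add_neg]
  rw [e5, hp.map_add_add, hp.map_zsmul, hp.map_zsmul, hp.pairing_zsmul_right,
    hp.pairing_zsmul_right, hp.pairing_zsmul_left, hp.pairing_zsmul_right, e1, e2, hP0, b1, b2,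
    b3]
  ring

end IsPar

/-! ### `ℕ`-valued adapters -/

section Nat

variable {hN : G → ℕ}

/-- A `ℕ`-valued parallelogram law gives `IsPar` for the cast. -/
theorem isPar_of_nat (hpar : ∀ x y : G, hN (x + y) + hN (x - y) = 2 * hN x + 2 * hN y) :
    IsPar (fun x => (hN x : ℤ)) := by
  intro x y
  have := hpar x y
  show (hN (x + y) : ℤ) + (hN (x - y) : ℤ) = 2 * (hN x : ℤ) + 2 * (hN y : ℤ)
  exact_mod_cast this

/-- **Manin ending (H9), `ℕ`-valued height.**  `N` is the height of `F P0 - P0` (the point
count), `l` the scaling factor of `F`. -/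
theorem frobenius_quadratic_nat
    (hpar : ∀ x y : G, hN (x + y) + hN (x - y) = 2 * hN x + 2 * hN y)
    (F R : G →+ G) (P0 Q : G) (l : ℕ)
    (hF : ∀ x, hN (F x) = l * hN x) (hR : ∀ x, hN (R x) = hN Q * hN x)
    (hRP : R P0 = Q) (hQ : Q = P0 + F P0) (hRF : ∀ x, R (F x) = F (R x))
    (hP0 : hN P0 = 1) :
    hN (F (F P0) - ((l : ℤ) + 1 - (hN (F P0 - P0) : ℤ)) • F P0 + (l : ℤ) • P0) = 0 := by
  have hp := isPar_of_nat hpar
  have key := hp.frobenius_quadratic F R P0 Q (l : ℤ) (hN (F P0 - P0) : ℤ)
    (fun x => by show (hN (F x) : ℤ) = (l : ℤ) * (hN x : ℤ); exact_mod_cast hF x)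
    (fun x => by show (hN (R x) : ℤ) = (hN Q : ℤ) * (hN x : ℤ); exact_mod_cast hR x)
    hRP hQ hRF (by show (hN P0 : ℤ) = 1; exact_mod_cast hP0) rfl
  exact_mod_cast key

end Nat

end Fermat.Agent.S52.helper1617
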