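import Mathlib

/-!
# Generic-point kit for the ending of the Frobenius Cayley–Hamilton argument (S52, L1)

Mathlib-only.  `k` is the field of definition of the Weierstrass curve `W`, `K0 ⊆ K` are
field extensions of `k`.

* `IsGeneric K0 G` : the point `G ∈ W(K)` is affine with `x`-coordinate transcendental over `K0`.
* `isGeneric_add_baseChange` (G2): `G` generic over `K0`, `P ∈ W(K0)` ⟹ `G + P` generic over `K0`.
* `GenField K0 := AlgebraicClosure (RatFunc K0)` and `genericPoint` (G1): a point of
  `W(GenField K0)` which is generic over `K0` (for `W.Δ ≠ 0`).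
* `eq_zero_of_const_on_generic` (G3): the abstract translation principle.
-/

set_option autoImplicit false

open WeierstrassCurve WeierstrassCurve.Affine Polynomial

namespace Fermat.Agent.S52.helper586

universe u v w

section Generic

variable {k : Type u} [CommRing k] {W : WeierstrassCurve.Affine k}
  {K0 : Type v} [Field K0] [Algebra k K0]
  {K : Type w} [Field K] [Algebra k K] [Algebra K0 K] [IsScalarTower k K0 K]

/-- A point of `W(K)` is *generic over `K0`* if it is affine with an `x`-coordinate that is
transcendental over `K0`. -/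
def IsGeneric (K0 : Type v) [Field K0] [Algebra k K0] [Algebra K0 K] [IsScalarTower k K0 K]
    (G : (W⁄K).Point) : Prop :=
  ∃ (x y : K) (h : (W⁄K).Nonsingular x y), G = Point.some x y h ∧ Transcendental K0 x

lemma IsGeneric.ne_zero {G : (W⁄K).Point} (hG : IsGeneric K0 G) : G ≠ 0 := by
  obtain ⟨x, y, h, rfl, -⟩ := hG
  exact Point.some_ne_zero h

/-- A point generic over `K0` is generic over every subfield `k'` of `K0`. -/
lemma IsGeneric.restrictScalars (k' : Type*) [Field k'] [Algebra k k'] [Algebra k' K0]
    [Algebra k' K] [IsScalarTower k' K0 K] [IsScalarTower k k' K] {G : (W⁄K).Point}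
    (hG : IsGeneric K0 G) : IsGeneric k' G := by
  obtain ⟨x, y, h, rfl, hx⟩ := hG
  exact ⟨x, y, h, rfl, hx.restrictScalars (algebraMap k' K0).injective⟩

/-- The `y`-coordinate of a point with `K0`-algebraic `x`-coordinate is `K0`-algebraic. -/
lemma isAlgebraic_y_of_equation {x y : K} (h : (W⁄K).Equation x y) (hx : IsAlgebraic K0 x) :
    IsAlgebraic K0 y := by
  set A : IntermediateField K0 K := algebraicClosure K0 K with hA
  have hxA : x ∈ A := mem_algebraicClosure_iff.mpr hx
  have hcoe : ∀ c : k, algebraMap k K c ∈ A := fun c => by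
    rw [IsScalarTower.algebraMap_apply k K0 K]
    exact A.algebraMap_mem _
  -- `y` is a root of a monic quadratic with coefficients in `A`
  have key : y ^ 2 + (algebraMap k K W.a₁ * x + algebraMap k K W.a₃) * y
      + -(x ^ 3 + algebraMap k K W.a₂ * x ^ 2 + algebraMap k K W.a₄ * x
      + algebraMap k K W.a₆) = 0 := by
    rw [Affine.equation_iff] at h
    simp only [baseChange_a₁, baseChange_a₂, baseChange_a₃, baseChange_a₄, baseChange_a₆] at h
    linear_combination h
  have hint : IsIntegral A y := by
    let b : A := ⟨algebraMap k K W.a₁ * x + algebraMap k K W.a₃,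
      A.add_mem (A.mul_mem (hcoe _) hxA) (hcoe _)⟩
    let c : A := ⟨-(x ^ (3 : ℕ) + algebraMap k K W.a₂ * x ^ (2 : ℕ) + algebraMap k K W.a₄ * x
        + algebraMap k K W.a₆),
      A.neg_mem (A.add_mem (A.add_mem (A.add_mem (pow_mem hxA 3)
        (A.mul_mem (hcoe _) (pow_mem hxA 2))) (A.mul_mem (hcoe _) hxA)) (hcoe _))⟩
    refine ⟨X ^ 2 + C b * X + C c, ?_, ?_⟩
    · have : (X ^ 2 + C b * X + C c : A[X]) = X ^ 2 + (C b * X + C c) := by ring
      rw [this]
      refine Polynomial.monic_X_pow_add ?_
      refine lt_of_le_of_lt (Polynomial.degree_linear_le) ?_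
      norm_num
    · simp only [eval₂_add, eval₂_mul, eval₂_pow, eval₂_X, eval₂_C,
        IntermediateField.algebraMap_apply]
      exact key
  have : Algebra.IsIntegral K0 A := by
    rw [← Algebra.isAlgebraic_iff_isIntegral]
    exact algebraicClosure.isAlgebraic K0 K
  exact (isIntegral_trans (R := K0) (A := A) y hint).isAlgebraic

variable [DecidableEq K]

open Classical in
/-- A point of `W(K)` which is not generic over `K0` comes from the relative algebraic closure of
`K0` in `K`. -/
lemma mem_range_of_not_isGeneric (Q : (W⁄K).Point) (hQ : ¬ IsGeneric K0 Q) :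
    Q ∈ (Point.map (W' := W) (algebraicClosure K0 K).val).range := by
  set A : IntermediateField K0 K := algebraicClosure K0 K with hA
  rcases Q with _ | ⟨x, y, h⟩
  · exact ⟨0, rfl⟩
  · have hx : IsAlgebraic K0 x := by
      by_contra hx
      exact hQ ⟨x, y, h, rfl, hx⟩
    have hy : IsAlgebraic K0 y := isAlgebraic_y_of_equation h.1 hx
    have hxA : x ∈ A := mem_algebraicClosure_iff.mpr hx
    have hyA : y ∈ A := mem_algebraicClosure_iff.mpr hy
    have h' : (W⁄A).Nonsingular (⟨x, hxA⟩ : A) ⟨y, hyA⟩ :=
      (W.baseChange_nonsingular (f := A.val) A.val.injective ⟨x, hxA⟩ ⟨y, hyA⟩).mp h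
    exact ⟨Point.some _ _ h', rfl⟩

open Classical in
/-- A point in the range of the relative algebraic closure is not generic. -/
lemma not_isGeneric_of_mem_range (Q : (W⁄K).Point)
    (hQ : Q ∈ (Point.map (W' := W) (algebraicClosure K0 K).val).range) : ¬ IsGeneric K0 Q := by
  rintro ⟨x, y, h, rfl, hx⟩
  obtain ⟨Q', hQ'⟩ := hQ
  rcases Q' with _ | ⟨x', y', h'⟩
  · exact Point.some_ne_zero h hQ'.symm
  · rw [Point.map_some] at hQ'
    have hxx : (algebraicClosure K0 K).val x' = x := (Point.some.inj hQ').1
    exact hx (hxx ▸ mem_algebraicClosure_iff.mp x'.2)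

variable [DecidableEq K0]

/-- **(G2)** Translating a generic point by a `K0`-rational point gives a generic point. -/
theorem isGeneric_add_baseChange {G : (W⁄K).Point} (hG : IsGeneric K0 G) (P : (W⁄K0).Point) :
    IsGeneric K0 (G + Point.baseChange K0 K P) := by
  classical
  by_contra hcon
  have h1 := mem_range_of_not_isGeneric _ hcon
  have h2 : Point.baseChange K0 K P ∈
      (Point.map (W' := W) (algebraicClosure K0 K).val).range :=
    ⟨Point.baseChange K0 (algebraicClosure K0 K) P, Point.map_baseChange _ P⟩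
  have h3 : G ∈ (Point.map (W' := W) (algebraicClosure K0 K).val).range := by
    have := (Point.map (W' := W) (algebraicClosure K0 K).val).range.sub_mem h1 h2
    simpa using this
  exact not_isGeneric_of_mem_range _ h3 hG

/-- Variant of (G2) with subtraction. -/
theorem isGeneric_sub_baseChange {G : (W⁄K).Point} (hG : IsGeneric K0 G) (P : (W⁄K0).Point) :
    IsGeneric K0 (G - Point.baseChange K0 K P) := by
  have := isGeneric_add_baseChange hG (-P)
  rwa [map_neg, ← sub_eq_add_neg] at this

/-- **(G3)** Abstract translation principle: an additive operation `ψ` on `W(K)`, compatible with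
an additive operation `ψ0` on `W(K0)` and constant on the points generic over `K0`, forces
`ψ0 = 0` as soon as `W(K)` has one point generic over `K0`. -/
theorem eq_zero_of_const_on_generic
    (ψ0 : (W⁄K0).Point →+ (W⁄K0).Point) (ψ : (W⁄K).Point →+ (W⁄K).Point)
    (hnat : ∀ P, ψ (Point.baseChange K0 K P) = Point.baseChange K0 K (ψ0 P))
    (hconst : ∀ P Q : (W⁄K).Point, IsGeneric K0 P → IsGeneric K0 Q → ψ P = ψ Q)
    (hex : ∃ G : (W⁄K).Point, IsGeneric K0 G) (P : (W⁄K0).Point) : ψ0 P = 0 := by
  obtain ⟨G, hG⟩ := hex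
  have h1 := hconst _ _ (isGeneric_add_baseChange hG P) hG
  rw [map_add, add_eq_left, hnat] at h1
  exact Point.map_injective (W' := W) (Algebra.ofId K0 K) (by rw [h1]; rfl)

end Generic

section GenericPoint

variable {k : Type u} [CommRing k] (W : WeierstrassCurve.Affine k)
  (K0 : Type v) [Field K0] [Algebra k K0]

/-- A field extension of `K0` (in the same universe) that contains generic points of every
Weierstrass curve over `K0`: an algebraic closure of `K0(t)`. -/
abbrev GenField (K0 : Type v) [Field K0] : Type v := AlgebraicClosure (RatFunc K0)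

/-- The `x`-coordinate `t` of the generic point. -/
noncomputable def genX : GenField K0 := algebraMap (RatFunc K0) (GenField K0) RatFunc.X

lemma transcendental_genX : Transcendental K0 (genX K0) :=
  (transcendental_algebraMap_iff
    (algebraMap (RatFunc K0) (GenField K0)).injective).mpr RatFunc.transcendental_X

/-- A monic quadratic over an algebraically closed field has a root. -/
lemma exists_root_quadratic {L : Type*} [Field L] [IsAlgClosed L] (b c : L) :
    ∃ y : L, y ^ 2 + b * y + c = 0 := by
  have hdeg : (X ^ 2 + (C b * X + C c) : L[X]).degree ≠ 0 := by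
    have h2 : (X ^ 2 + (C b * X + C c) : L[X]).degree = 2 := by
      rw [Polynomial.degree_add_eq_left_of_degree_lt]
      · simp
      · refine lt_of_le_of_lt (Polynomial.degree_linear_le) ?_
        simp
    rw [h2]
    norm_num
  obtain ⟨y, hy⟩ := IsAlgClosed.exists_root _ hdeg
  refine ⟨y, ?_⟩
  simp only [IsRoot.def, eval_add, eval_mul, eval_pow, eval_X, eval_C] at hy
  linear_combination hy

lemma exists_genY : ∃ y : GenField K0, (W⁄(GenField K0)).Equation (genX K0) y := by
  obtain ⟨y, hy⟩ := exists_root_quadratic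
    (algebraMap k (GenField K0) W.a₁ * genX K0 + algebraMap k (GenField K0) W.a₃)
    (-(genX K0 ^ (3 : ℕ) + algebraMap k (GenField K0) W.a₂ * genX K0 ^ (2 : ℕ)
      + algebraMap k (GenField K0) W.a₄ * genX K0 + algebraMap k (GenField K0) W.a₆))
  refine ⟨y, ?_⟩
  rw [Affine.equation_iff]
  simp only [baseChange_a₁, baseChange_a₂, baseChange_a₃, baseChange_a₄, baseChange_a₆]
  linear_combination hy

/-- The `y`-coordinate of the generic point. -/
noncomputable def genY : GenField K0 := (exists_genY W K0).choose

lemma equation_gen : (W⁄(GenField K0)).Equation (genX K0) (genY W K0) :=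
  (exists_genY W K0).choose_spec

lemma nonsingular_gen (hΔ : algebraMap k K0 W.Δ ≠ 0) :
    (W⁄(GenField K0)).Nonsingular (genX K0) (genY W K0) := by
  refine (equation_iff_nonsingular_of_Δ_ne_zero (W := W⁄(GenField K0)) ?_).mp (equation_gen W K0)
  have h1 : (W⁄(GenField K0)).Δ = algebraMap k (GenField K0) W.Δ := by
    show (WeierstrassCurve.map W (algebraMap k (GenField K0))).Δ = _
    rw [WeierstrassCurve.map_Δ]
  rw [h1, IsScalarTower.algebraMap_apply k K0 (GenField K0)]
  exact (map_ne_zero_iff _ (algebraMap K0 (GenField K0)).injective).mpr hΔ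

/-- **(G1)** The generic point `(t, y)` of `W` over `GenField K0`. -/
noncomputable def genericPoint (hΔ : algebraMap k K0 W.Δ ≠ 0) : (W⁄(GenField K0)).Point :=
  Point.some _ _ (nonsingular_gen W K0 hΔ)

theorem isGeneric_genericPoint (hΔ : algebraMap k K0 W.Δ ≠ 0) :
    IsGeneric K0 (genericPoint W K0 hΔ) :=
  ⟨_, _, nonsingular_gen W K0 hΔ, rfl, transcendental_genX K0⟩

theorem exists_isGeneric (hΔ : algebraMap k K0 W.Δ ≠ 0) :
    ∃ G : (W⁄(GenField K0)).Point, IsGeneric K0 G :=
  ⟨_, isGeneric_genericPoint W K0 hΔ⟩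

end GenericPoint

section Quadratic

variable {k : Type u} [CommRing k] {W : WeierstrassCurve.Affine k}
  {S : Type*} [CommRing S] [Algebra k S]
  {K0 : Type v} [Field K0] [Algebra k K0] [Algebra S K0] [IsScalarTower k S K0]
  {K : Type w} [Field K] [Algebra k K] [Algebra S K] [IsScalarTower k S K]
  [Algebra K0 K] [IsScalarTower k K0 K] [DecidableEq K0] [DecidableEq K]

/-- `Point.map` commutes with base change for compatible algebra endomorphisms. -/
lemma map_baseChange_comm (φ0 : K0 →ₐ[S] K0) (φ : K →ₐ[S] K)
    (hφ : ∀ x, φ (algebraMap K0 K x) = algebraMap K0 K (φ0 x)) (P : (W⁄K0).Point) :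
    Point.map (W' := W) φ (Point.baseChange K0 K P)
      = Point.baseChange K0 K (Point.map (W' := W) φ0 P) := by
  rcases P with _ | ⟨x, y, h⟩
  · rfl
  · simp only [Point.baseChange, Point.map_some, Point.some.injEq]
    exact ⟨hφ x, hφ y⟩

/-- **(G3), quadratic form.** Let `φ0`, `φ` be compatible algebra endomorphisms of `K0 ⊆ K`
(e.g. the Frobenius maps) and `a b : ℤ`.  If `P ↦ φ(φ P) - a • φ P + b • P` takes the same value
on all points of `W(K)` generic over `K0`, and there is at least one such point, then
`φ0(φ0 P) - a • φ0 P + b • P = 0` for every `P ∈ W(K0)`. -/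
theorem quadratic_eq_zero_of_const (φ0 : K0 →ₐ[S] K0) (φ : K →ₐ[S] K)
    (hφ : ∀ x, φ (algebraMap K0 K x) = algebraMap K0 K (φ0 x)) (a b : ℤ)
    (hex : ∃ G : (W⁄K).Point, IsGeneric K0 G)
    (hconst : ∀ P Q : (W⁄K).Point, IsGeneric K0 P → IsGeneric K0 Q →
      Point.map (W' := W) φ (Point.map (W' := W) φ P) - a • Point.map (W' := W) φ P + b • P
        = Point.map (W' := W) φ (Point.map (W' := W) φ Q) - a • Point.map (W' := W) φ Q + b • Q)
    (P : (W⁄K0).Point) :
    Point.map (W' := W) φ0 (Point.map (W' := W) φ0 P) - a • Point.map (W' := W) φ0 P + b • P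
      = 0 := by
  have key := eq_zero_of_const_on_generic (W := W) (K0 := K0) (K := K)
    ((Point.map (W' := W) φ0).comp (Point.map (W' := W) φ0) - a • Point.map (W' := W) φ0
      + b • AddMonoidHom.id _)
    ((Point.map (W' := W) φ).comp (Point.map (W' := W) φ) - a • Point.map (W' := W) φ
      + b • AddMonoidHom.id _)
    (fun P => by
      simp only [AddMonoidHom.add_apply, AddMonoidHom.sub_apply, AddMonoidHom.comp_apply,
        AddMonoidHom.smul_apply, AddMonoidHom.id_apply, map_add, map_sub, map_zsmul,
        map_baseChange_comm φ0 φ hφ])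
    (fun P Q hP hQ => by
      simpa only [AddMonoidHom.add_apply, AddMonoidHom.sub_apply, AddMonoidHom.comp_apply,
        AddMonoidHom.smul_apply, AddMonoidHom.id_apply] using hconst P Q hP hQ)
    hex P
  simpa only [AddMonoidHom.add_apply, AddMonoidHom.sub_apply, AddMonoidHom.comp_apply,
    AddMonoidHom.smul_apply, AddMonoidHom.id_apply] using key

end Quadratic

section Frobenius

variable (ℓ : ℕ) [Fact ℓ.Prime] (W : WeierstrassCurve.Affine (ZMod ℓ))

/-- Frobenius on the points of `W` over a field extension `F` of `ZMod ℓ`. -/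
noncomputable def frobPt (F : Type v) [Field F] [Algebra (ZMod ℓ) F] [DecidableEq F] :
    (W⁄F).Point →+ (W⁄F).Point :=
  Point.map (W' := W) (FiniteField.frobeniusAlgHom (ZMod ℓ) F)

/-- **(G3) for Frobenius**, with the generic points taken in `GenField K0`:
if `P ↦ Fr(Fr P) - a • Fr P + b • P` is constant on the points of `W(GenField K0)` whose
`x`-coordinate is transcendental over `K0`, then it vanishes on `W(K0)`. -/
theorem frob_quadratic_eq_zero (hΔ : W.Δ ≠ 0) (a b : ℤ)
    (K0 : Type v) [Field K0] [Algebra (ZMod ℓ) K0] [DecidableEq K0] [DecidableEq (GenField K0)]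
    (hconst : ∀ P Q : (W⁄(GenField K0)).Point, IsGeneric K0 P → IsGeneric K0 Q →
      frobPt ℓ W (GenField K0) (frobPt ℓ W (GenField K0) P) - a • frobPt ℓ W (GenField K0) P
          + b • P
        = frobPt ℓ W (GenField K0) (frobPt ℓ W (GenField K0) Q)
          - a • frobPt ℓ W (GenField K0) Q + b • Q)
    (P : (W⁄K0).Point) :
    frobPt ℓ W K0 (frobPt ℓ W K0 P) - a • frobPt ℓ W K0 P + b • P = 0 := by
  refine quadratic_eq_zero_of_const (W := W) (K0 := K0) (K := GenField K0)
    (FiniteField.frobeniusAlgHom (ZMod ℓ) K0) (FiniteField.frobeniusAlgHom (ZMod ℓ) (GenField K0))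
    (fun x => by simp) a b
    (exists_isGeneric W K0 ?_) hconst P
  exact (map_ne_zero_iff _ (algebraMap (ZMod ℓ) K0).injective).mpr hΔ

/-- Variant of `frob_quadratic_eq_zero` where the constant value is named. -/
theorem frob_quadratic_eq_zero' (hΔ : W.Δ ≠ 0) (a b : ℤ)
    (K0 : Type v) [Field K0] [Algebra (ZMod ℓ) K0] [DecidableEq K0] [DecidableEq (GenField K0)]
    (T : (W⁄(GenField K0)).Point)
    (hconst : ∀ P : (W⁄(GenField K0)).Point, IsGeneric K0 P →
      frobPt ℓ W (GenField K0) (frobPt ℓ W (GenField K0) P) - a • frobPt ℓ W (GenField K0) P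
          + b • P = T)
    (P : (W⁄K0).Point) :
    frobPt ℓ W K0 (frobPt ℓ W K0 P) - a • frobPt ℓ W K0 P + b • P = 0 :=
  frob_quadratic_eq_zero ℓ W hΔ a b K0 (fun P Q hP hQ => (hconst P hP).trans (hconst Q hQ).symm) P

end Frobenius

end Fermat.Agent.S52.helper586
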