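import Mathlib

/-!
# Height calculus on `RatFunc K` (leaf H1 of the S52 Frobenius project)

`ht r = max (natDegree num) (natDegree denom)`, the degree of `r` as a map `P¹ → P¹`.

Main results (all Mathlib-only):
* `ht_eq_zero_iff`, `ht_C`, `ht_X`
* `ht_div_of_isCoprime`, `ht_div_of_isRelPrime`, `ht_div_mul_left`, `ht_div_add_natDegree`,
  `ht_div_le`
* `ht_pow`, `ht_inv`, `ht_neg`, `ht_add_C`, `ht_C_mul`, ... (Moebius invariance)
* `ht_algHom` : composition, `ht (σ r) = ht r * ht (σ X)` for every `K`-algebra endomorphism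
  of `K(X)`; `substHom`, `ht_substHom`
* `ht_map` : coefficientwise field maps preserve the height
* `ht_add_ht_of_quadratic` : the two roots of a primitive quadratic
-/

namespace Fermat.Agent.S52.helper5875

open Polynomial IntermediateField

variable {K : Type*} [Field K]

/-- The height (degree as a map `P¹ → P¹`) of a rational function. -/
noncomputable def ht (r : RatFunc K) : ℕ := max r.num.natDegree r.denom.natDegree

theorem ht_def (r : RatFunc K) : ht r = max r.num.natDegree r.denom.natDegree := rfl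

theorem ht_eq_finrank (r : RatFunc K) : ht r = Module.finrank K⟮r⟯ (RatFunc K) :=
  (RatFunc.finrank_eq_max_natDegree r).symm

theorem ht_eq_zero_iff {r : RatFunc K} : ht r = 0 ↔ ∃ c, r = RatFunc.C c := by
  rw [RatFunc.eq_C_iff, ht, Nat.max_eq_zero_iff]

@[simp] theorem ht_C (c : K) : ht (RatFunc.C c) = 0 := ht_eq_zero_iff.2 ⟨c, rfl⟩

@[simp] theorem ht_zero : ht (0 : RatFunc K) = 0 := by simp [ht]

@[simp] theorem ht_one : ht (1 : RatFunc K) = 0 := by simp [ht]

@[simp] theorem ht_X : ht (RatFunc.X : RatFunc K) = 1 := by simp [ht]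

/-! ### Fractions -/

/-- For a coprime fraction, numerator and denominator are the given ones up to units. -/
theorem num_denom_associated_of_isCoprime {p q : K[X]} (hq : q ≠ 0) (h : IsCoprime p q) :
    Associated (algebraMap K[X] (RatFunc K) p / algebraMap K[X] (RatFunc K) q).num p ∧
    Associated (algebraMap K[X] (RatFunc K) p / algebraMap K[X] (RatFunc K) q).denom q := by
  set r := algebraMap K[X] (RatFunc K) p / algebraMap K[X] (RatFunc K) q with hr
  have e : r.num * q = p * r.denom := (RatFunc.num_mul_eq_mul_denom_iff hq).2 rfl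
  have c := r.isCoprime_num_denom
  refine ⟨associated_of_dvd_dvd ?_ ?_, associated_of_dvd_dvd ?_ ?_⟩
  · exact c.dvd_of_dvd_mul_right ⟨q, e.symm⟩
  · exact h.dvd_of_dvd_mul_right ⟨r.denom, e⟩
  · exact c.symm.dvd_of_dvd_mul_left ⟨p, by rw [e, mul_comm]⟩
  · exact h.symm.dvd_of_dvd_mul_left ⟨r.num, by rw [← e, mul_comm]⟩

/-- Height of a coprime fraction. -/
theorem ht_div_of_isCoprime {p q : K[X]} (hq : q ≠ 0) (h : IsCoprime p q) :
    ht (algebraMap K[X] (RatFunc K) p / algebraMap K[X] (RatFunc K) q) =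
      max p.natDegree q.natDegree := by
  obtain ⟨h1, h2⟩ := num_denom_associated_of_isCoprime hq h
  rw [ht, natDegree_eq_of_degree_eq (degree_eq_degree_of_associated h1),
    natDegree_eq_of_degree_eq (degree_eq_degree_of_associated h2)]

/-- Height of a fraction in lowest terms (`IsRelPrime` form). -/
theorem ht_div_of_isRelPrime {p q : K[X]} (hq : q ≠ 0) (h : IsRelPrime p q) :
    ht (algebraMap K[X] (RatFunc K) p / algebraMap K[X] (RatFunc K) q) =
      max p.natDegree q.natDegree :=
  ht_div_of_isCoprime hq h.isCoprime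

/-- Cancelling a common factor. -/
theorem ht_div_mul_left {g p q : K[X]} (hg : g ≠ 0) (hq : q ≠ 0) (h : IsCoprime p q) :
    ht (algebraMap K[X] (RatFunc K) (g * p) / algebraMap K[X] (RatFunc K) (g * q)) =
      max p.natDegree q.natDegree := by
  rw [map_mul, map_mul, mul_div_mul_left _ _ (RatFunc.algebraMap_ne_zero hg)]
  exact ht_div_of_isCoprime hq h

/-- Height of a non-reduced fraction: `ht (p/q) + deg g = max (deg p) (deg q)` for every
greatest common divisor `g` of `p` and `q`. -/
theorem ht_div_add_natDegree {p q g : K[X]} (hq : q ≠ 0) (hgp : g ∣ p) (hgq : g ∣ q)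
    (hg : ∀ d : K[X], d ∣ p → d ∣ q → d ∣ g) :
    ht (algebraMap K[X] (RatFunc K) p / algebraMap K[X] (RatFunc K) q) + g.natDegree =
      max p.natDegree q.natDegree := by
  obtain ⟨p', rfl⟩ := hgp
  obtain ⟨q', rfl⟩ := hgq
  have hg0 : g ≠ 0 := left_ne_zero_of_mul hq
  have hq0 : q' ≠ 0 := right_ne_zero_of_mul hq
  have hrel : IsRelPrime p' q' := by
    intro d hdp hdq
    have := hg (g * d) (mul_dvd_mul_left g hdp) (mul_dvd_mul_left g hdq)
    have h1 : g * d ∣ g * 1 := by simpa using this
    exact isUnit_of_dvd_one ((mul_dvd_mul_iff_left hg0).1 h1)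
  rw [ht_div_mul_left hg0 hq0 hrel.isCoprime, natDegree_mul hg0 hq0]
  by_cases hp0 : p' = 0
  · subst hp0
    have hu : IsUnit q' := hrel (dvd_zero q') dvd_rfl
    simp [natDegree_eq_zero_of_isUnit hu]
  · rw [natDegree_mul hg0 hp0]
    omega

/-- Upper bound for an arbitrary fraction. -/
theorem ht_div_le (p : K[X]) {q : K[X]} (hq : q ≠ 0) :
    ht (algebraMap K[X] (RatFunc K) p / algebraMap K[X] (RatFunc K) q) ≤
      max p.natDegree q.natDegree := by
  classical
  have := ht_div_add_natDegree (g := EuclideanDomain.gcd p q) hq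
    (EuclideanDomain.gcd_dvd_left p q) (EuclideanDomain.gcd_dvd_right p q)
    (fun d h1 h2 => EuclideanDomain.dvd_gcd h1 h2)
  omega

/-- `EuclideanDomain.gcd` version. -/
theorem ht_div_add_natDegree_gcd [DecidableEq K] (p : K[X]) {q : K[X]} (hq : q ≠ 0) :
    ht (algebraMap K[X] (RatFunc K) p / algebraMap K[X] (RatFunc K) q) +
      (EuclideanDomain.gcd p q).natDegree = max p.natDegree q.natDegree :=
  ht_div_add_natDegree hq (EuclideanDomain.gcd_dvd_left p q) (EuclideanDomain.gcd_dvd_right p q)
    (fun _ h1 h2 => EuclideanDomain.dvd_gcd h1 h2)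

/-! ### Powers, inverse, Moebius invariance -/

theorem ht_pow (r : RatFunc K) (n : ℕ) : ht (r ^ n) = n * ht r := by
  have h := ht_div_of_isCoprime (pow_ne_zero n r.denom_ne_zero)
    (r.isCoprime_num_denom.pow (m := n) (n := n))
  rw [map_pow, map_pow, ← div_pow, RatFunc.num_div_denom] at h
  rw [h, natDegree_pow, natDegree_pow, ht, Nat.mul_max_mul_left]

/-- Frobenius multiplies the height by `p`. -/
theorem ht_frobenius (p : ℕ) [ExpChar (RatFunc K) p] (r : RatFunc K) :
    ht (frobenius (RatFunc K) p r) = p * ht r := by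
  rw [frobenius_def, ht_pow]

theorem ht_inv (r : RatFunc K) : ht r⁻¹ = ht r := by
  by_cases hr : r = 0
  · simp [hr]
  have h := ht_div_of_isCoprime (RatFunc.num_ne_zero hr) r.isCoprime_num_denom.symm
  rw [← inv_div, RatFunc.num_div_denom] at h
  rw [h, ht, max_comm]

/-- Two rational functions generating the same subfield have the same height. -/
theorem ht_eq_of_mem_adjoin {r s : RatFunc K} (h1 : r ∈ K⟮s⟯) (h2 : s ∈ K⟮r⟯) : ht r = ht s := by
  have e : K⟮r⟯ = K⟮s⟯ :=
    le_antisymm (adjoin_simple_le_iff.2 h1) (adjoin_simple_le_iff.2 h2)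
  rw [ht_eq_finrank, ht_eq_finrank, e]

theorem ht_neg (r : RatFunc K) : ht (-r) = ht r :=
  ht_eq_of_mem_adjoin (neg_mem (mem_adjoin_simple_self K r))
    (by simpa using neg_mem (mem_adjoin_simple_self K (-r)))

theorem ht_add_C (r : RatFunc K) (c : K) : ht (r + RatFunc.C c) = ht r :=
  ht_eq_of_mem_adjoin
    (add_mem (mem_adjoin_simple_self K r) (IntermediateField.algebraMap_mem _ c))
    (by
      simpa using sub_mem (mem_adjoin_simple_self K (r + RatFunc.C c))
        (IntermediateField.algebraMap_mem K⟮r + RatFunc.C c⟯ c))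

theorem ht_C_add (r : RatFunc K) (c : K) : ht (RatFunc.C c + r) = ht r := by
  rw [add_comm, ht_add_C]

theorem ht_sub_C (r : RatFunc K) (c : K) : ht (r - RatFunc.C c) = ht r := by
  rw [sub_eq_add_neg, ← map_neg, ht_add_C]

theorem ht_C_sub (r : RatFunc K) (c : K) : ht (RatFunc.C c - r) = ht r := by
  rw [sub_eq_add_neg, ht_C_add, ht_neg]

theorem ht_C_mul (r : RatFunc K) {c : K} (hc : c ≠ 0) : ht (RatFunc.C c * r) = ht r := by
  refine ht_eq_of_mem_adjoin
    (mul_mem (IntermediateField.algebraMap_mem _ c) (mem_adjoin_simple_self K r)) ?_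
  have := mul_mem (IntermediateField.algebraMap_mem K⟮RatFunc.C c * r⟯ c⁻¹)
    (mem_adjoin_simple_self K (RatFunc.C c * r))
  rwa [RatFunc.algebraMap_eq_C, ← mul_assoc, ← map_mul, inv_mul_cancel₀ hc, map_one, one_mul]
    at this

theorem ht_mul_C (r : RatFunc K) {c : K} (hc : c ≠ 0) : ht (r * RatFunc.C c) = ht r := by
  rw [mul_comm, ht_C_mul r hc]

/-! ### Composition -/

/-- **Multiplicativity of the height under composition**, in the form: any `K`-algebra
endomorphism `σ` of `K(X)` (i.e. the substitution `X ↦ σ X`) multiplies heights by `ht (σ X)`. -/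
theorem ht_algHom (σ : RatFunc K →ₐ[K] RatFunc K) (r : RatFunc K) :
    ht (σ r) = ht r * ht (σ RatFunc.X) := by
  have h1 : (K⟮r⟯).map σ = K⟮σ r⟯ := by
    rw [IntermediateField.adjoin_map, Set.image_singleton]
  have h2 : (⊤ : IntermediateField K (RatFunc K)).map σ = K⟮σ RatFunc.X⟯ := by
    rw [← RatFunc.adjoin_X, IntermediateField.adjoin_map, Set.image_singleton]
  have hle : K⟮σ r⟯ ≤ K⟮σ RatFunc.X⟯ := by
    rw [← h1, ← h2]; exact IntermediateField.map_mono _ le_top
  have h3 : IntermediateField.relfinrank K⟮σ r⟯ K⟮σ RatFunc.X⟯ = ht r := by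
    rw [← h1, ← h2, IntermediateField.relfinrank_map_map,
      IntermediateField.relfinrank_top_right, ht_eq_finrank]
  rw [ht_eq_finrank (σ r), ← IntermediateField.relfinrank_mul_finrank_top hle, h3,
    ht_eq_finrank (σ RatFunc.X)]

/-- An algebra endomorphism of `K(X)` sends `X` to a non-constant function. -/
theorem algHom_X_not_const (σ : RatFunc K →ₐ[K] RatFunc K) : ¬ ∃ c, σ RatFunc.X = RatFunc.C c := by
  rintro ⟨c, hc⟩
  have h : σ (RatFunc.X - RatFunc.C c) = 0 := by
    rw [map_sub, hc, ← RatFunc.algebraMap_eq_C, AlgHom.commutes, sub_self]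
  have h0 : (RatFunc.X - RatFunc.C c : RatFunc K) = 0 := (map_eq_zero σ).1 h
  have h1 : ht (RatFunc.X - RatFunc.C c : RatFunc K) = 1 := by rw [ht_sub_C, ht_X]
  rw [h0, ht_zero] at h1
  exact zero_ne_one h1

/-- The substitution `X ↦ s` as a `K`-algebra endomorphism of `K(X)`, for non-constant `s`. -/
noncomputable def substHom (s : RatFunc K) (hs : ¬ ∃ c, s = RatFunc.C c) :
    RatFunc K →ₐ[K] RatFunc K :=
  RatFunc.liftAlgHom (Polynomial.aeval s)
    (nonZeroDivisors_le_comap_nonZeroDivisors_of_injective _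
      (transcendental_iff_injective.1 (RatFunc.transcendental_of_ne_C s hs)))

theorem substHom_apply (s : RatFunc K) (hs : ¬ ∃ c, s = RatFunc.C c) (r : RatFunc K) :
    substHom s hs r = Polynomial.aeval s r.num / Polynomial.aeval s r.denom :=
  RatFunc.liftAlgHom_apply _ _ _

theorem substHom_algebraMap (s : RatFunc K) (hs : ¬ ∃ c, s = RatFunc.C c) (p : K[X]) :
    substHom s hs (algebraMap K[X] (RatFunc K) p) = Polynomial.aeval s p := by
  rw [substHom_apply, RatFunc.num_algebraMap, RatFunc.denom_algebraMap, map_one, div_one]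

@[simp] theorem substHom_X (s : RatFunc K) (hs : ¬ ∃ c, s = RatFunc.C c) :
    substHom s hs RatFunc.X = s := by
  rw [← RatFunc.algebraMap_X, substHom_algebraMap, aeval_X]

@[simp] theorem substHom_C (s : RatFunc K) (hs : ¬ ∃ c, s = RatFunc.C c) (c : K) :
    substHom s hs (RatFunc.C c) = RatFunc.C c := by
  rw [← RatFunc.algebraMap_eq_C, AlgHom.commutes]

theorem substHom_div (s : RatFunc K) (hs : ¬ ∃ c, s = RatFunc.C c) (p q : K[X]) :
    substHom s hs (algebraMap K[X] (RatFunc K) p / algebraMap K[X] (RatFunc K) q) =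
      Polynomial.aeval s p / Polynomial.aeval s q := by
  rw [map_div₀, substHom_algebraMap, substHom_algebraMap]

/-- **Height of a composition**: `ht (r ∘ s) = ht r * ht s`. -/
theorem ht_substHom (s : RatFunc K) (hs : ¬ ∃ c, s = RatFunc.C c) (r : RatFunc K) :
    ht (substHom s hs r) = ht r * ht s := by
  rw [ht_algHom, substHom_X]

/-- Every `K`-algebra endomorphism of `K(X)` is a substitution. -/
theorem algHom_eq_substHom (σ : RatFunc K →ₐ[K] RatFunc K) :
    σ = substHom (σ RatFunc.X) (algHom_X_not_const σ) := by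
  ext r
  have hp : ∀ p : K[X], σ (algebraMap K[X] (RatFunc K) p) = Polynomial.aeval (σ RatFunc.X) p := by
    intro p
    have : (σ : RatFunc K →ₐ[K] RatFunc K).comp (Algebra.ofId K[X] (RatFunc K) |>.restrictScalars K)
        = Polynomial.aeval (σ RatFunc.X) := by
      apply Polynomial.algHom_ext
      simp [Algebra.ofId_apply]
    exact congrArg (fun f : K[X] →ₐ[K] RatFunc K => f p) this
  rw [substHom_apply, ← RatFunc.num_div_denom r, map_div₀, hp, hp, RatFunc.num_div_denom]

/-- The value of `substHom` in terms of `RatFunc.eval`. -/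
theorem substHom_eq_eval (s : RatFunc K) (hs : ¬ ∃ c, s = RatFunc.C c) (r : RatFunc K) :
    substHom s hs r = RatFunc.eval (algebraMap K (RatFunc K)) s r := by
  rw [substHom_apply, RatFunc.eval, Polynomial.aeval_def, Polynomial.aeval_def]

theorem ht_eval (s : RatFunc K) (hs : ¬ ∃ c, s = RatFunc.C c) (r : RatFunc K) :
    ht (RatFunc.eval (algebraMap K (RatFunc K)) s r) = ht r * ht s := by
  rw [← substHom_eq_eval s hs, ht_substHom]

/-! ### Subadditivity -/

theorem ht_mul_le (x y : RatFunc K) : ht (x * y) ≤ ht x + ht y := by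
  have h := ht_div_le (x.num * y.num) (mul_ne_zero x.denom_ne_zero y.denom_ne_zero)
  rw [map_mul, map_mul, ← div_mul_div_comm, RatFunc.num_div_denom, RatFunc.num_div_denom] at h
  have h1 : (x.num * y.num).natDegree ≤ x.num.natDegree + y.num.natDegree := natDegree_mul_le
  have h2 : (x.denom * y.denom).natDegree ≤ x.denom.natDegree + y.denom.natDegree :=
    natDegree_mul_le
  simp only [ht] at h ⊢
  omega

theorem ht_add_le (x y : RatFunc K) : ht (x + y) ≤ ht x + ht y := by
  have h := ht_div_le (x.num * y.denom + x.denom * y.num)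
    (mul_ne_zero x.denom_ne_zero y.denom_ne_zero)
  have e : algebraMap K[X] (RatFunc K) (x.num * y.denom + x.denom * y.num) /
      algebraMap K[X] (RatFunc K) (x.denom * y.denom) = x + y := by
    conv_rhs => rw [← RatFunc.num_div_denom x, ← RatFunc.num_div_denom y]
    rw [div_add_div _ _ (RatFunc.algebraMap_ne_zero x.denom_ne_zero)
      (RatFunc.algebraMap_ne_zero y.denom_ne_zero)]
    simp only [map_add, map_mul]
  rw [e] at h
  have h1 : (x.num * y.denom + x.denom * y.num).natDegree ≤
      max (x.num * y.denom).natDegree (x.denom * y.num).natDegree := natDegree_add_le _ _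
  have h2 : (x.num * y.denom).natDegree ≤ x.num.natDegree + y.denom.natDegree := natDegree_mul_le
  have h3 : (x.denom * y.num).natDegree ≤ x.denom.natDegree + y.num.natDegree := natDegree_mul_le
  have h4 : (x.denom * y.denom).natDegree ≤ x.denom.natDegree + y.denom.natDegree :=
    natDegree_mul_le
  simp only [ht] at h ⊢
  omega

/-! ### Coefficientwise maps -/

/-- Coefficientwise field maps preserve the height. -/
theorem ht_map {K' : Type*} [Field K'] (φ : K →+* K')
    (hφ : nonZeroDivisors K[X] ≤ Submonoid.comap (Polynomial.mapRingHom φ) (nonZeroDivisors K'[X]))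
    (r : RatFunc K) :
    ht (RatFunc.map (Polynomial.mapRingHom φ) hφ r) = ht r := by
  rw [RatFunc.map_apply]
  have hd : Polynomial.mapRingHom φ r.denom ≠ 0 := by
    rw [Polynomial.coe_mapRingHom]
    exact (Polynomial.map_ne_zero_iff φ.injective).2 r.denom_ne_zero
  rw [ht_div_of_isCoprime hd (r.isCoprime_num_denom.map (Polynomial.mapRingHom φ))]
  simp only [Polynomial.coe_mapRingHom, natDegree_map, ht]

/-- The condition needed by `RatFunc.map` always holds for field maps. -/
theorem mapRingHom_le_comap {K' : Type*} [Field K'] (φ : K →+* K') :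
    nonZeroDivisors K[X] ≤ Submonoid.comap (Polynomial.mapRingHom φ) (nonZeroDivisors K'[X]) :=
  nonZeroDivisors_le_comap_nonZeroDivisors_of_injective _
    (Polynomial.map_injective φ φ.injective)

end Fermat.Agent.S52.helper5875
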