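import Mathlib

set_option autoImplicit false

/-!
# S52, (L2) bridge, part (B0): the abstract transfer lemma (helper130)

Two "torsion" groups `T`, `T₁` (killed by a prime `n`) with additive endomorphisms `s`, `s₁`
(a Frobenius element), injective additive "reduction" maps `r : T → B`, `r₁ : T₁ → B₁`
intertwining `s`, `s₁` with endomorphisms `f`, `f₁` (Frobenius on the residue curve) which satisfy
Cayley–Hamilton relations `f² - a f + l = 0`, `f₁² - a₁ f₁ + l = 0`, and an injective additive map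
`ι : T → T₁` commuting with `s`, `s₁`.  If `T ≠ 0` then `n ∣ a₁ - a`.

No curves appear here; this is the pure logic of the `ℚ̄ → 𝔽̄_ℓ` bridge.
-/

namespace Fermat.Agent.S52.helper130

/-- If `c • Q = 0`, `n • Q = 0`, `Q ≠ 0` and `n` is prime, then `n ∣ c`. -/
theorem int_dvd_of_zsmul_eq_zero {G : Type*} [AddCommGroup G] {n : ℕ} (hn : n.Prime) {Q : G}
    (hQ : Q ≠ 0) (hnQ : n • Q = 0) {c : ℤ} (hc : c • Q = 0) : (n : ℤ) ∣ c := by
  by_contra hndvd
  have hcop : IsCoprime (n : ℤ) c := by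
    have hp : Prime (n : ℤ) := Nat.prime_iff_prime_int.mp hn
    exact (Prime.coprime_iff_not_dvd hp).mpr hndvd
  obtain ⟨u, v, huv⟩ := hcop
  apply hQ
  have h1 : (u * (n : ℤ) + v * c) • Q = Q := by rw [huv, one_smul]
  rw [add_smul, mul_smul, mul_smul, hc, smul_zero, add_zero, natCast_zsmul, hnQ, smul_zero] at h1
  exact h1.symm

/-- **Abstract transfer lemma** for the `ℚ̄ → 𝔽̄_ℓ` bridge. -/
theorem int_dvd_sub_of_cayley_hamilton
    {T T₁ B B₁ : Type*} [AddCommGroup T] [AddCommGroup T₁] [AddCommGroup B] [AddCommGroup B₁]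
    {n : ℕ} (hn : n.Prime) (hT₁ : ∀ Q : T₁, n • Q = 0)
    (s : T →+ T) (s₁ : T₁ →+ T₁) (hs₁ : Function.Injective s₁)
    (f : B →+ B) (f₁ : B₁ →+ B₁)
    (r : T →+ B) (hr : Function.Injective r) (r₁ : T₁ →+ B₁) (hr₁ : Function.Injective r₁)
    (hrs : ∀ P, r (s P) = f (r P)) (hrs₁ : ∀ Q, r₁ (s₁ Q) = f₁ (r₁ Q))
    (ι : T →+ T₁) (hι : Function.Injective ι) (hιs : ∀ P, ι (s P) = s₁ (ι P))
    (a a₁ l : ℤ)
    (hCH : ∀ P : T, f (f (r P)) - a • f (r P) + l • r P = 0)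
    (hCH₁ : ∀ Q : T₁, f₁ (f₁ (r₁ Q)) - a₁ • f₁ (r₁ Q) + l • r₁ Q = 0)
    (hne : ∃ P : T, P ≠ 0) : (n : ℤ) ∣ a₁ - a := by
  obtain ⟨P, hP⟩ := hne
  -- pull the Cayley–Hamilton relation back to `T`
  have e : s (s P) - a • s P + l • P = 0 := by
    apply hr
    rw [map_zero, map_add, map_sub, map_zsmul, map_zsmul, hrs, hrs]
    exact hCH P
  -- transport it to `T₁`
  have e' : s₁ (s₁ (ι P)) - a • s₁ (ι P) + l • ι P = 0 := by
    have := congrArg ι e
    rwa [map_zero, map_add, map_sub, map_zsmul, map_zsmul, hιs, hιs] at this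
  -- the relation on `T₁`
  have e₁ : s₁ (s₁ (ι P)) - a₁ • s₁ (ι P) + l • ι P = 0 := by
    apply hr₁
    rw [map_zero, map_add, map_sub, map_zsmul, map_zsmul, hrs₁, hrs₁]
    exact hCH₁ (ι P)
  have hQ : s₁ (ι P) ≠ 0 := by
    intro h
    apply hP
    apply hι
    apply hs₁
    rw [h, map_zero, map_zero]
  have hc : (a₁ - a) • s₁ (ι P) = 0 := by
    rw [sub_smul]
    have := congrArg₂ (· - ·) e' e₁
    simp only [sub_self] at this
    rw [← this]
    abel
  exact int_dvd_of_zsmul_eq_zero hn hQ (hT₁ _) hc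

end Fermat.Agent.S52.helper130
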