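import Fermat.Agent.S52.helper130_GoodRed
import Fermat.Agent.S52.helper130_Transfer
import Fermat.Agent.Lib.helper54_Frobenius
import Fermat.Prelude.Def_FLTPrelim_Modularity

set_option autoImplicit false

/-!
# S52, (L2): the `ℚ̄ → 𝔽̄_ℓ` bridge (helper130, backup of board row 524)

`dvd_apOfModel_sub_of_equivariant`: let `W`, `W₁` be integral Weierstrass models with good
reduction at a prime `ℓ` (any `ℓ`, including `2` and `3`), `n ≠ ℓ` a prime, and
`ι : W[n](ℚ̄) → W₁[n](ℚ̄)` an injective additive Galois-equivariant map.  If Frobenius satisfies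
the Cayley–Hamilton relation `φ² - a_ℓ φ + ℓ = 0` on the points of both reductions over every
algebraically closed field of characteristic `ℓ` (`FrobCH`), and `W[n](ℚ̄) ≠ 0`, then
`n ∣ a_ℓ(W₁) - a_ℓ(W)`.
-/

namespace Fermat.Agent.S52.helper130

open WeierstrassCurve WeierstrassCurve.Affine

local notation "Qb" => AlgebraicClosure ℚ

/-- **Cayley–Hamilton for Frobenius** on the reduction of `W` modulo `ℓ`, over a field `K` of
characteristic `ℓ`: `φ² - a_ℓ φ + ℓ = 0` on `(W mod ℓ)(K)`, `φ` the `ℓ`-power Frobenius and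
`a_ℓ = W.apOfModel ℓ`. -/
def FrobCH (ℓ : ℕ) [Fact ℓ.Prime] (W : WeierstrassCurve ℤ) (K : Type) [Field K] [DecidableEq K]
    [Algebra (ZMod ℓ) K] : Prop :=
  ∀ P : ((W.reductionMod ℓ).toAffine⁄K).Point,
    Point.map (W' := (W.reductionMod ℓ).toAffine) (FiniteField.frobeniusAlgHom (ZMod ℓ) K)
        (Point.map (W' := (W.reductionMod ℓ).toAffine) (FiniteField.frobeniusAlgHom (ZMod ℓ) K) P)
      - W.apOfModel ℓ •
        Point.map (W' := (W.reductionMod ℓ).toAffine) (FiniteField.frobeniusAlgHom (ZMod ℓ) K) P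
      + (ℓ : ℤ) • P = 0

/-- A natural number prime to `ℓ` is a unit in every valuation subring of `ℚ̄` over `ℓ`. -/
theorem isUnit_natCast_of_liesOverPrime {L : Type*} [Field L] (A : ValuationSubring L) {ℓ n : ℕ}
    (hA : A.LiesOverPrime ℓ) (hcop : Nat.Coprime n ℓ) : IsUnit (n : A) := by
  have hℓ : ¬ IsUnit (ℓ : A) := by
    intro h
    have h1 : ((ℓ : A) : L) ∈ A.nonunits := by
      have : ((ℓ : A) : L) = (ℓ : L) := by push_cast; rfl
      rw [this]; exact hA
    rw [ValuationSubring.coe_mem_nonunits_iff] at h1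
    exact h1 h
  have hcop' : IsCoprime (n : ℤ) (ℓ : ℤ) := Nat.isCoprime_iff_coprime.mpr hcop
  obtain ⟨u, v, huv⟩ := hcop'
  have h1 : (u : A) * (n : A) + (v : A) * (ℓ : A) = 1 := by
    have := congrArg (Int.cast : ℤ → A) huv
    push_cast at this
    exact this
  have h2 : ¬ IsUnit ((v : A) * (ℓ : A)) := fun h => hℓ (isUnit_of_mul_isUnit_right h)
  have h3 : IsUnit ((u : A) * (n : A)) := by
    rcases IsLocalRing.isUnit_or_isUnit_of_add_one h1 with h | h
    · exact h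
    · exact absurd h h2
  exact isUnit_of_mul_isUnit_right h3

section Main

variable (W W₁ : WeierstrassCurve ℤ) (ℓ : ℕ) [hℓ : Fact ℓ.Prime]

/-- The base change of an integral model to `ℚ̄` through `ℚ`, and through a valuation
subring `A`, agree. -/
theorem map_subtype_eq (A : ValuationSubring Qb) :
    (W.map (algebraMap ℤ A)).map A.subtype = ((W.map (Int.castRingHom ℚ)).toAffine⁄Qb) := by
  show (W.map (algebraMap ℤ A)).map A.subtype =
    (W.map (Int.castRingHom ℚ)).map (algebraMap ℚ Qb)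
  rw [WeierstrassCurve.map_map, WeierstrassCurve.map_map]
  congr 1

/-- The reduction of `W` through a valuation subring `A` agrees with `W.reductionMod ℓ` base
changed to the residue field. -/
theorem map_residue_eq (A : ValuationSubring Qb) [Algebra (ZMod ℓ) (IsLocalRing.ResidueField A)] :
    (W.map (algebraMap ℤ A)).map (IsLocalRing.residue A) =
      ((W.reductionMod ℓ).toAffine⁄(IsLocalRing.ResidueField A)) := by
  show (W.map (algebraMap ℤ A)).map (IsLocalRing.residue A) =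
    (W.map (Int.castRingHom (ZMod ℓ))).map (algebraMap (ZMod ℓ) (IsLocalRing.ResidueField A))
  rw [WeierstrassCurve.map_map, WeierstrassCurve.map_map]
  congr 1
  exact RingHom.ext_int _ _

/-- **The `ℚ̄ → 𝔽̄_ℓ` bridge.** -/
theorem dvd_apOfModel_sub_of_equivariant
    (n : ℕ) (hn : n.Prime) (hnℓ : n ≠ ℓ)
    (hgood : W.IsGoodPrimeFor ℓ) (hgood₁ : W₁.IsGoodPrimeFor ℓ)
    (ι : Submodule.torsionBy ℤ ((W.map (Int.castRingHom ℚ)).toAffine⁄Qb).Point n →+
      Submodule.torsionBy ℤ ((W₁.map (Int.castRingHom ℚ)).toAffine⁄Qb).Point n)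
    (hι : Function.Injective ι)
    (hιG : ∀ (σ : Qb ≃ₐ[ℚ] Qb)
      (P : Submodule.torsionBy ℤ ((W.map (Int.castRingHom ℚ)).toAffine⁄Qb).Point n),
      ι (σ • P) = σ • ι P)
    (hne : ∃ P : Submodule.torsionBy ℤ ((W.map (Int.castRingHom ℚ)).toAffine⁄Qb).Point n, P ≠ 0)
    (hCH : ∀ (K : Type) [Field K] [DecidableEq K] [Algebra (ZMod ℓ) K],
      IsAlgClosed K → FrobCH ℓ W K)
    (hCH₁ : ∀ (K : Type) [Field K] [DecidableEq K] [Algebra (ZMod ℓ) K],
      IsAlgClosed K → FrobCH ℓ W₁ K) :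
    (n : ℤ) ∣ W₁.apOfModel ℓ - W.apOfModel ℓ := by
  obtain ⟨A, σ, hA, hσ⟩ := Fermat.Agent.Lib.helper54.exists_liesOverPrime_isFrobeniusAt hℓ.out
  -- the residue field and its structures
  have hπ : ∀ a : A, ¬ IsUnit a → IsLocalRing.residue A a = 0 := fun a ha =>
    (IsLocalRing.residue_eq_zero_iff a).mpr ((IsLocalRing.mem_maximalIdeal a).mpr ha)
  have hℓ0 : ((ℓ : ℕ) : IsLocalRing.ResidueField A) = 0 := by
    have h1 : ¬ IsUnit ((ℓ : ℕ) : A) := by
      intro h
      have h2 : (((ℓ : ℕ) : A) : Qb) ∈ A.nonunits := by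
        have : (((ℓ : ℕ) : A) : Qb) = (ℓ : Qb) := by push_cast; rfl
        rw [this]; exact hA
      rw [ValuationSubring.coe_mem_nonunits_iff] at h2
      exact h2 h
    have := hπ _ h1
    rwa [map_natCast] at this
  have hchar : CharP (IsLocalRing.ResidueField A) ℓ :=
    (CharP.charP_iff_prime_eq_zero hℓ.out).mpr hℓ0
  let _ : Algebra (ZMod ℓ) (IsLocalRing.ResidueField A) := ZMod.algebra _ ℓ
  let _ : DecidableEq (IsLocalRing.ResidueField A) := Classical.decEq _
  have hclosed : IsAlgClosed (IsLocalRing.ResidueField A) := isAlgClosed_residueField A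
  have hnu : IsUnit (n : A) :=
    isUnit_natCast_of_liesOverPrime A hA ((Nat.coprime_primes hn hℓ.out).mpr hnℓ)
  -- good reduction
  have hΔgen : ∀ V : WeierstrassCurve ℤ, V.IsGoodPrimeFor ℓ →
      ((V.reductionMod ℓ).toAffine⁄(IsLocalRing.ResidueField A)).Δ ≠ 0 := by
    intro V hV
    show ((V.map (Int.castRingHom (ZMod ℓ))).map
      (algebraMap (ZMod ℓ) (IsLocalRing.ResidueField A))).Δ ≠ 0
    rw [WeierstrassCurve.map_Δ, WeierstrassCurve.map_Δ]
    rw [Ne, map_eq_zero_iff _ (algebraMap (ZMod ℓ) (IsLocalRing.ResidueField A)).injective]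
    show ((V.Δ : ℤ) : ZMod ℓ) ≠ 0
    rw [Ne, ZMod.intCast_zmod_eq_zero_iff_dvd]
    exact hV
  obtain ⟨r, hr, hrs⟩ := exists_redHom_torsion (WA := W.map (algebraMap ℤ A)) hπ
    (map_subtype_eq W A) (map_residue_eq W ℓ A) (hΔgen W hgood) hnu
  obtain ⟨r₁, hr₁, hrs₁⟩ := exists_redHom_torsion (WA := W₁.map (algebraMap ℤ A)) hπ
    (map_subtype_eq W₁ A) (map_residue_eq W₁ ℓ A) (hΔgen W₁ hgood₁) hnu
  -- Frobenius on residues
  have hfrob : ∀ (a : Qb) (ha : a ∈ A) (ha' : σ a ∈ A),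
      IsLocalRing.residue A ⟨σ a, ha'⟩ =
        FiniteField.frobeniusAlgHom (ZMod ℓ) (IsLocalRing.ResidueField A)
          (IsLocalRing.residue A ⟨a, ha⟩) := by
    intro a ha ha'
    have h1 := hσ.smul_residue_eq (IsLocalRing.residue A ⟨a, ha⟩)
    rw [← IsLocalRing.ResidueField.residue_smul] at h1
    rw [FiniteField.frobeniusAlgHom_apply, ZMod.card, ← h1]
    rfl
  -- equivariance of the reduction maps
  have key : ∀ (V : WeierstrassCurve ℤ)
      (ρ : Submodule.torsionBy ℤ ((V.map (Int.castRingHom ℚ)).toAffine⁄Qb).Point n →+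
        ((V.reductionMod ℓ).toAffine⁄(IsLocalRing.ResidueField A)).Point)
      (_ : ∀ (x y : Qb) (h : ((V.map (Int.castRingHom ℚ)).toAffine⁄Qb).Nonsingular x y)
        (hP : Point.some x y h ∈
          Submodule.torsionBy ℤ ((V.map (Int.castRingHom ℚ)).toAffine⁄Qb).Point n),
        ∃ (hx : x ∈ A) (hy : y ∈ A)
          (h' : ((V.reductionMod ℓ).toAffine⁄(IsLocalRing.ResidueField A)).Nonsingular
            (IsLocalRing.residue A ⟨x, hx⟩) (IsLocalRing.residue A ⟨y, hy⟩)),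
          ρ ⟨Point.some x y h, hP⟩ =
            Point.some (IsLocalRing.residue A ⟨x, hx⟩) (IsLocalRing.residue A ⟨y, hy⟩) h')
      (P : Submodule.torsionBy ℤ ((V.map (Int.castRingHom ℚ)).toAffine⁄Qb).Point n),
      ρ (σ • P) = Point.map (W' := (V.reductionMod ℓ).toAffine)
        (FiniteField.frobeniusAlgHom (ZMod ℓ) (IsLocalRing.ResidueField A)) (ρ P) := by
    intro V ρ hρ P
    obtain ⟨P, hP⟩ := P
    rcases P with _ | ⟨x, y, h⟩
    · have h0 : (⟨Point.zero, hP⟩ :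
          Submodule.torsionBy ℤ ((V.map (Int.castRingHom ℚ)).toAffine⁄Qb).Point n) = 0 := rfl
      rw [h0, smul_zero, map_zero, map_zero]
    · obtain ⟨hx, hy, h', e⟩ := hρ x y h hP
      have hmem := (σ • (⟨Point.some x y h, hP⟩ :
        Submodule.torsionBy ℤ ((V.map (Int.castRingHom ℚ)).toAffine⁄Qb).Point n)).2
      have hσP : (σ • (⟨Point.some x y h, hP⟩ :
          Submodule.torsionBy ℤ ((V.map (Int.castRingHom ℚ)).toAffine⁄Qb).Point n)) =
          ⟨Point.some (σ x) (σ y)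
            ((Affine.baseChange_nonsingular _ σ.toAlgHom.injective x y).mpr h), hmem⟩ := rfl
      obtain ⟨hx', hy', h'', e'⟩ := hρ (σ x) (σ y) _ hmem
      rw [hσP, e', e, Point.map_some]
      exact some_congr (hfrob x hx hx') (hfrob y hy hy')
  have hT₁ : ∀ Q : Submodule.torsionBy ℤ ((W₁.map (Int.castRingHom ℚ)).toAffine⁄Qb).Point n,
      n • Q = 0 := by
    intro Q
    rw [← Nat.cast_smul_eq_nsmul ℤ n Q]
    exact Submodule.smul_torsionBy _ Q
  exact int_dvd_sub_of_cayley_hamilton hn hT₁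
    (DistribSMul.toAddMonoidHom _ σ) (DistribSMul.toAddMonoidHom _ σ)
    (MulAction.injective σ)
    (Point.map (W' := (W.reductionMod ℓ).toAffine)
      (FiniteField.frobeniusAlgHom (ZMod ℓ) (IsLocalRing.ResidueField A)))
    (Point.map (W' := (W₁.reductionMod ℓ).toAffine)
      (FiniteField.frobeniusAlgHom (ZMod ℓ) (IsLocalRing.ResidueField A)))
    r hr r₁ hr₁ (key W r hrs) (key W₁ r₁ hrs₁) ι hι (hιG σ) (W.apOfModel ℓ) (W₁.apOfModel ℓ)
    (ℓ : ℤ) (fun P => hCH _ hclosed (r P)) (fun Q => hCH₁ _ hclosed (r₁ Q)) hne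

/-- Variant of `dvd_apOfModel_sub_of_equivariant` with `Nontrivial` torsion (as provided by
`ModRepIsIrreducible`). -/
theorem dvd_apOfModel_sub_of_equivariant'
    (n : ℕ) (hn : n.Prime) (hnℓ : n ≠ ℓ)
    (hgood : W.IsGoodPrimeFor ℓ) (hgood₁ : W₁.IsGoodPrimeFor ℓ)
    (ι : Submodule.torsionBy ℤ ((W.map (Int.castRingHom ℚ)).toAffine⁄Qb).Point n →+
      Submodule.torsionBy ℤ ((W₁.map (Int.castRingHom ℚ)).toAffine⁄Qb).Point n)
    (hι : Function.Injective ι)
    (hιG : ∀ (σ : Qb ≃ₐ[ℚ] Qb)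
      (P : Submodule.torsionBy ℤ ((W.map (Int.castRingHom ℚ)).toAffine⁄Qb).Point n),
      ι (σ • P) = σ • ι P)
    [hne : Nontrivial (Submodule.torsionBy ℤ ((W.map (Int.castRingHom ℚ)).toAffine⁄Qb).Point n)]
    (hCH : ∀ (K : Type) [Field K] [DecidableEq K] [Algebra (ZMod ℓ) K],
      IsAlgClosed K → FrobCH ℓ W K)
    (hCH₁ : ∀ (K : Type) [Field K] [DecidableEq K] [Algebra (ZMod ℓ) K],
      IsAlgClosed K → FrobCH ℓ W₁ K) :
    (n : ℤ) ∣ W₁.apOfModel ℓ - W.apOfModel ℓ :=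
  dvd_apOfModel_sub_of_equivariant W W₁ ℓ n hn hnℓ hgood hgood₁ ι hι hιG
    (exists_ne (0 : Submodule.torsionBy ℤ ((W.map (Int.castRingHom ℚ)).toAffine⁄Qb).Point n))
    hCH hCH₁

end Main

end Fermat.Agent.S52.helper130
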