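/-
S52 / (L1) end adapters (helper3731).

The Frobenius Cayley–Hamilton theorem `φ² − a φ + ℓ = 0` (module (L1) of the S52 plan) is proved by
its owners for short Weierstrass models `y² = x³ + A x + B` over `ZMod ℓ`.  This file contains the
spec-independent glue around it, everything stated for an arbitrary algebra endomorphism
`frob : K →ₐ[k] K` (in the application: the `ℓ`-power map of an algebraic closure of `ZMod ℓ`):

* `dvd_sub_of_equivariant` : abstract consumer lemma.  Two endomorphisms `φ, φ'` satisfying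
  `X² − a X + q`, resp. `X² − a' X + q`, an injective additive equivariant map `θ` defined on a
  `φ`-stable subgroup containing a nonzero element of prime order `n`  ⟹  `n ∣ a − a'`.
* `card_variableChange`, `traceOfFrobenius_variableChange` : Mathlib variable changes preserve the
  number of points over a finite field, hence the Prelude `traceOfFrobenius`.
* `cayleyHamilton_of_variableChange` : a relation `φ² − a φ + q = 0` on `(C • W)(K)` transfers to
  `W(K)`.
* `cayleyHamilton_general_of_short` : Cayley–Hamilton for all short models over `ZMod ℓ`, `ℓ ≥ 5`,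
  implies Cayley–Hamilton for every Weierstrass model with `Δ ≠ 0` (Prelude `traceOfFrobenius`).
* `dvd_traceOfFrobenius_sub`, `dvd_apOfModel_sub` : the consumer lemma for curves over `ZMod ℓ`
  and for reductions of integral models (Prelude `apOfModel`).
-/
import Mathlib
import Fermat.Prelude.Def_FLTPrelim_Modularity
import Fermat.Agent.S05.helper725_Transfer

set_option autoImplicit false

namespace Fermat.Agent.S52.helper3731

open WeierstrassCurve WeierstrassCurve.Affine
open Fermat.Agent.S05.helper725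

/-! ### The abstract consumer lemma -/

section Abstract

/-- **Abstract consumer lemma.**  Let `φ`, `φ'` be additive endomorphisms of `G`, `G'` with `φ'`
injective, satisfying `φ² − a φ + q = 0` on a `φ`-stable subgroup `M` and `φ'² − a' φ' + q = 0`.
If `θ : M →+ G'` is injective and equivariant and `M` contains a nonzero element killed by a
prime `n`, then `n ∣ a − a'`. -/
theorem dvd_sub_of_equivariant
    {G G' : Type*} [AddCommGroup G] [AddCommGroup G']
    (φ : G →+ G) (φ' : G' →+ G') (hφ' : Function.Injective φ')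
    (a a' q : ℤ) (n : ℕ) (hn : n.Prime)
    (M : AddSubgroup G) (hM : ∀ x ∈ M, φ x ∈ M)
    (θ : M →+ G') (hθ : Function.Injective θ)
    (hθφ : ∀ x : M, θ ⟨φ x, hM x x.2⟩ = φ' (θ x))
    (hCH : ∀ x ∈ M, φ (φ x) - a • φ x + q • x = 0)
    (hCH' : ∀ y : G', φ' (φ' y) - a' • φ' y + q • y = 0)
    (v : M) (hv : v ≠ 0) (hnv : n • v = 0) :
    (n : ℤ) ∣ a - a' := by
  set w : G' := θ v with hw
  have hw0 : w ≠ 0 := fun h => hv (hθ (by rw [← hw, h, map_zero]))
  have hnw : n • w = 0 := by rw [hw, ← map_nsmul, hnv, map_zero]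
  have h1 : φ' (φ' w) - a • φ' w + q • w = 0 := by
    have e1 : θ ⟨φ v, hM v v.2⟩ = φ' w := hθφ v
    have e2 : θ ⟨φ (φ v), hM _ (hM v v.2)⟩ = φ' (φ' w) := by
      rw [← e1]; exact hθφ ⟨φ v, hM v v.2⟩
    have e3 : (⟨φ (φ v), hM _ (hM v v.2)⟩ : M) - a • (⟨φ v, hM v v.2⟩ : M) + q • v = 0 := by
      apply Subtype.ext
      simpa using hCH v v.2
    have := congrArg θ e3
    rw [map_add, map_sub, map_zsmul, map_zsmul, e2, e1, map_zero] at this
    exact this
  have h2 := hCH' w
  have h3 : (a - a') • φ' w = 0 := by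
    have : (a - a') • φ' w
        = (φ' (φ' w) - a' • φ' w + q • w) - (φ' (φ' w) - a • φ' w + q • w) := by
      rw [sub_smul]; abel
    rw [this, h2, h1, sub_zero]
  by_contra hndvd
  have hcop : IsCoprime (n : ℤ) (a - a') :=
    (Nat.prime_iff_prime_int.mp hn).irreducible.coprime_iff_not_dvd.mpr hndvd
  obtain ⟨s, t, hst⟩ := hcop
  have hnu : (n : ℤ) • φ' w = 0 := by
    rw [natCast_zsmul, ← map_nsmul, hnw, map_zero]
  have hu : φ' w = 0 := by
    have : φ' w = (s * n + t * (a - a')) • φ' w := by rw [hst, one_smul]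
    rw [this, add_smul, mul_smul, mul_smul, h3, hnu, smul_zero, smul_zero, add_zero]
  exact hw0 (hφ' (by rw [hu, map_zero]))

end Abstract

/-! ### Variable changes: point counts and transfer of Cayley–Hamilton -/

section Transfer

variable {k : Type*} [Field k]

/-- A Mathlib variable change does not change the number of points over a finite field. -/
theorem card_variableChange [Finite k] [DecidableEq k] (C : VariableChange k)
    (W : WeierstrassCurve k) :
    Nat.card (C • W).toAffine.Point = Nat.card W.toAffine.Point := by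
  apply le_antisymm
  · exact Nat.card_le_card_of_injective _ (vcHom_injective (isVarChange_smul C W))
  · have h := isVarChange_smul C⁻¹ (C • W)
    rw [inv_smul_smul] at h
    exact Nat.card_le_card_of_injective _ (vcHom_injective h)

/-- A Mathlib variable change does not change the Prelude trace of Frobenius. -/
theorem traceOfFrobenius_variableChange [Finite k] [DecidableEq k] (C : VariableChange k)
    (W : WeierstrassCurve k) :
    (C • W).traceOfFrobenius = W.traceOfFrobenius := by
  unfold WeierstrassCurve.traceOfFrobenius WeierstrassCurve.card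
  rw [card_variableChange]

variable {K : Type*} [Field K] [DecidableEq K] [Algebra k K]

/-- **Transfer along a variable change.**  A relation `φ² − a φ + q = 0` for the points of
`C • W` over `K` (with `φ` induced by a `k`-algebra endomorphism of `K`) implies the same relation
for the points of `W`. -/
theorem cayleyHamilton_of_variableChange (frob : K →ₐ[k] K) (a q : ℤ) (C : VariableChange k)
    (W : WeierstrassCurve k)
    (h : ∀ P : ((C • W)⁄K).Point,
      Point.map (W' := C • W) frob (Point.map (W' := C • W) frob P)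
        - a • Point.map (W' := C • W) frob P + q • P = 0)
    (P : (W⁄K).Point) :
    Point.map (W' := W) frob (Point.map (W' := W) frob P)
      - a • Point.map (W' := W) frob P + q • P = 0 := by
  have hvc0 := isVarChange_smul C⁻¹ (C • W)
  rw [inv_smul_smul] at hvc0
  have hK : IsVarChange (W⁄K) ((C • W)⁄K) (algebraMap k K (C⁻¹.u : k)) (algebraMap k K C⁻¹.r)
      (algebraMap k K C⁻¹.s) (algebraMap k K C⁻¹.t) := hvc0.map (algebraMap k K)
  have key := h (vcHom hK P)
  have e1 : vcHom hK (Point.map (W' := W) frob P)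
      = Point.map (W' := C • W) frob (vcHom hK P) := vcHom_map (S := k) hK hK frob P
  have e2 : vcHom hK (Point.map (W' := W) frob (Point.map (W' := W) frob P))
      = Point.map (W' := C • W) frob (Point.map (W' := C • W) frob (vcHom hK P)) :=
    (vcHom_map (S := k) hK hK frob _).trans (congrArg _ e1)
  apply vcHom_injective hK
  rw [map_zero, map_add, map_sub, map_zsmul, map_zsmul, e2, e1]
  exact key

end Transfer

/-! ### From short Weierstrass models to general models over `ZMod ℓ` -/

section Short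

variable (ℓ : ℕ) [Fact ℓ.Prime] {K : Type*} [Field K] [DecidableEq K] [Algebra (ZMod ℓ) K]

/-- The short Weierstrass model `y² = x³ + A x + B`. -/
def shortModel (A B : ZMod ℓ) : WeierstrassCurve (ZMod ℓ) := ⟨0, 0, 0, A, B⟩

/-- Frobenius Cayley–Hamilton for all short Weierstrass models over `ZMod ℓ` (the statement
delivered by the owners of (L1)), for a given `ZMod ℓ`-algebra endomorphism `frob` of `K`. -/
def CHShort (frob : K →ₐ[ZMod ℓ] K) : Prop :=
  ∀ A B : ZMod ℓ, 4 * A ^ 3 + 27 * B ^ 2 ≠ 0 → ∀ P : ((shortModel ℓ A B)⁄K).Point,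
    Point.map (W' := shortModel ℓ A B) frob (Point.map (W' := shortModel ℓ A B) frob P)
      - (shortModel ℓ A B).traceOfFrobenius • Point.map (W' := shortModel ℓ A B) frob P
      + (ℓ : ℤ) • P = 0

/-- Frobenius Cayley–Hamilton for all Weierstrass models with `Δ ≠ 0` over `ZMod ℓ`. -/
def CHGeneral (frob : K →ₐ[ZMod ℓ] K) : Prop :=
  ∀ W : WeierstrassCurve (ZMod ℓ), W.Δ ≠ 0 → ∀ P : (W⁄K).Point,
    Point.map (W' := W) frob (Point.map (W' := W) frob P)
      - W.traceOfFrobenius • Point.map (W' := W) frob P + (ℓ : ℤ) • P = 0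

variable {ℓ}

private lemma natCast_ne_zero_of_lt {m : ℕ} (hm0 : m ≠ 0) (hm : m < ℓ) :
    ((m : ℕ) : ZMod ℓ) ≠ 0 := by
  intro h
  rw [ZMod.natCast_eq_zero_iff] at h
  exact absurd (Nat.le_of_dvd (Nat.pos_of_ne_zero hm0) h) (not_le.mpr hm)

/-- **Cayley–Hamilton: short models ⟹ all models** (`ℓ ≥ 5`). -/
theorem cayleyHamilton_general_of_short (hℓ : 5 ≤ ℓ) (frob : K →ₐ[ZMod ℓ] K)
    (hshort : CHShort ℓ frob) : CHGeneral ℓ frob := by
  intro W hΔ P
  have h2 : (2 : ZMod ℓ) ≠ 0 := by
    have := natCast_ne_zero_of_lt (ℓ := ℓ) (m := 2) (by norm_num) (by omega)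
    exact_mod_cast this
  have h3 : (3 : ZMod ℓ) ≠ 0 := by
    have := natCast_ne_zero_of_lt (ℓ := ℓ) (m := 3) (by norm_num) (by omega)
    exact_mod_cast this
  let _ : Invertible (2 : ZMod ℓ) := invertibleOfNonzero h2
  let _ : Invertible (3 : ZMod ℓ) := invertibleOfNonzero h3
  set C : VariableChange (ZMod ℓ) := W.toShortNF with hC
  have hNF : (C • W).IsShortNF := W.toShortNF_spec
  have hW' : C • W = shortModel ℓ (C • W).a₄ (C • W).a₆ := by
    ext
    · exact (C • W).a₁_of_isShortNF
    · exact (C • W).a₂_of_isShortNF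
    · exact (C • W).a₃_of_isShortNF
    · rfl
    · rfl
  have hΔ' : (C • W).Δ ≠ 0 := by
    rw [variableChange_Δ]
    exact mul_ne_zero (pow_ne_zero _ (Units.ne_zero _)) hΔ
  have hAB : 4 * (C • W).a₄ ^ 3 + 27 * (C • W).a₆ ^ 2 ≠ 0 := by
    intro h0
    apply hΔ'
    rw [(C • W).Δ_of_isShortNF, h0, mul_zero]
  refine cayleyHamilton_of_variableChange frob W.traceOfFrobenius ℓ C W ?_ P
  have key := hshort (C • W).a₄ (C • W).a₆ hAB
  rw [← hW', traceOfFrobenius_variableChange] at key
  exact key

end Short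

/-! ### The consumer lemma for curves over `ZMod ℓ` and for integral models -/

section Consumer

variable {ℓ : ℕ} [Fact ℓ.Prime] {K : Type*} [Field K] [DecidableEq K] [Algebra (ZMod ℓ) K]

/-- **Consumer lemma over `ZMod ℓ`.**  If Frobenius satisfies Cayley–Hamilton on `W₁(K)` and
`W₂(K)`, and there is an injective additive Frobenius-equivariant map from the `n`-torsion of
`W₁(K)` to `W₂(K)` (`n` prime), the `n`-torsion of `W₁(K)` being nonzero, then the traces of
Frobenius are congruent modulo `n`. -/
theorem dvd_traceOfFrobenius_sub (frob : K →ₐ[ZMod ℓ] K) (W₁ W₂ : WeierstrassCurve (ZMod ℓ))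
    (q : ℤ)
    (h₁ : ∀ P : (W₁⁄K).Point,
      Point.map (W' := W₁) frob (Point.map (W' := W₁) frob P)
        - W₁.traceOfFrobenius • Point.map (W' := W₁) frob P + q • P = 0)
    (h₂ : ∀ P : (W₂⁄K).Point,
      Point.map (W' := W₂) frob (Point.map (W' := W₂) frob P)
        - W₂.traceOfFrobenius • Point.map (W' := W₂) frob P + q • P = 0)
    (n : ℕ) (hn : n.Prime)
    (θ : Submodule.torsionBy ℤ (W₁⁄K).Point n →+ (W₂⁄K).Point)
    (hθ : Function.Injective θ)
    (hθφ : ∀ x y : Submodule.torsionBy ℤ (W₁⁄K).Point n,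
      (y : (W₁⁄K).Point) = Point.map (W' := W₁) frob (x : (W₁⁄K).Point) →
        θ y = Point.map (W' := W₂) frob (θ x))
    (hnt : ∃ x : Submodule.torsionBy ℤ (W₁⁄K).Point n, x ≠ 0) :
    (n : ℤ) ∣ W₁.traceOfFrobenius - W₂.traceOfFrobenius := by
  obtain ⟨v, hv⟩ := hnt
  set M : AddSubgroup (W₁⁄K).Point := (Submodule.torsionBy ℤ (W₁⁄K).Point n).toAddSubgroup
    with hMdef
  have hM : ∀ x ∈ M, Point.map (W' := W₁) frob x ∈ M := by
    intro x hx
    have hx' : (n : ℤ) • x = 0 := (Submodule.mem_torsionBy_iff _ _).mp hx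
    have : (n : ℤ) • Point.map (W' := W₁) frob x = 0 := by
      rw [← map_zsmul, hx', map_zero]
    exact (Submodule.mem_torsionBy_iff _ _).mpr this
  have hnv : n • v = 0 := by
    apply Subtype.ext
    have hv' : (n : ℤ) • (v : (W₁⁄K).Point) = 0 := (Submodule.mem_torsionBy_iff _ _).mp v.2
    rw [natCast_zsmul] at hv'
    rw [AddSubmonoidClass.coe_nsmul]
    exact hv'
  exact dvd_sub_of_equivariant (G := (W₁⁄K).Point) (G' := (W₂⁄K).Point)
    (Point.map (W' := W₁) frob) (Point.map (W' := W₂) frob) (Point.map_injective frob)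
    W₁.traceOfFrobenius W₂.traceOfFrobenius q n hn M hM θ hθ
    (fun x => hθφ x ⟨_, hM x x.2⟩ rfl) (fun x _ => h₁ x) h₂ v hv hnv

/-- The reduction of an integral model at a good prime has nonzero discriminant. -/
theorem reductionMod_Δ_ne_zero (W : WeierstrassCurve ℤ) (hW : W.IsGoodPrimeFor ℓ) :
    (W.reductionMod ℓ).Δ ≠ 0 := by
  unfold WeierstrassCurve.reductionMod
  rw [WeierstrassCurve.map_Δ]
  intro h
  apply hW
  have : ((W.Δ : ℤ) : ZMod ℓ) = 0 := by simpa using h
  exact (ZMod.intCast_zmod_eq_zero_iff_dvd _ _).mp this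

/-- **Consumer lemma for integral models** (the shape used by the S52 endgame): `ℓ ≥ 5` a common
good prime of `W` and `W'`; given Cayley–Hamilton for short models over `ZMod ℓ` and an injective
additive Frobenius-equivariant map from the (nonzero) `n`-torsion of the reduction of `W` to the
points of the reduction of `W'` over `K`, one has `n ∣ a_ℓ(W') − a_ℓ(W)`. -/
theorem dvd_apOfModel_sub (hℓ : 5 ≤ ℓ) (frob : K →ₐ[ZMod ℓ] K) (hshort : CHShort ℓ frob)
    (W W' : WeierstrassCurve ℤ) (hW : W.IsGoodPrimeFor ℓ) (hW' : W'.IsGoodPrimeFor ℓ)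
    (n : ℕ) (hn : n.Prime)
    (θ : Submodule.torsionBy ℤ ((W.reductionMod ℓ)⁄K).Point n →+ ((W'.reductionMod ℓ)⁄K).Point)
    (hθ : Function.Injective θ)
    (hθφ : ∀ x y : Submodule.torsionBy ℤ ((W.reductionMod ℓ)⁄K).Point n,
      (y : ((W.reductionMod ℓ)⁄K).Point)
          = Point.map (W' := W.reductionMod ℓ) frob (x : ((W.reductionMod ℓ)⁄K).Point) →
        θ y = Point.map (W' := W'.reductionMod ℓ) frob (θ x))
    (hnt : ∃ x : Submodule.torsionBy ℤ ((W.reductionMod ℓ)⁄K).Point n, x ≠ 0) :
    (n : ℤ) ∣ W'.apOfModel ℓ - W.apOfModel ℓ := by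
  have hgen := cayleyHamilton_general_of_short hℓ frob hshort
  have key := dvd_traceOfFrobenius_sub frob (W.reductionMod ℓ) (W'.reductionMod ℓ) (ℓ : ℤ)
    (hgen _ (reductionMod_Δ_ne_zero W hW)) (hgen _ (reductionMod_Δ_ne_zero W' hW')) n hn θ hθ hθφ
    hnt
  unfold WeierstrassCurve.apOfModel
  rw [← neg_sub]
  exact (dvd_neg).mpr key

end Consumer

end Fermat.Agent.S52.helper3731
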