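import Mathlib
import Fermat.Agent.Lib.helper5856_Ladder

set_option autoImplicit false

/-!
# S52, (L2) bridge, part (B1)+(B2): good reduction on integral points (helper130)

`A` is a valuation subring of a field `F`, `π : A →+* k` a ring homomorphism to a field killing
the non-units of `A` (e.g. the residue map), and `WA` a Weierstrass curve with coefficients in
`A` such that `WA.map π` has non-zero discriminant (good reduction).  No normal form is assumed:
everything is done directly with `a₁, …, a₆`, so residue characteristics `2` and `3` are covered.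

* `redPt` : reduction of a point of `WA.map A.subtype` (junk value `0` at non-integral points);
* `redPt_add` : if `P`, `Q` and `P + Q` are integral then `redPt (P + Q) = redPt P + redPt Q`;
* `redHom` : on an additive subgroup all of whose points are integral, reduction is an injective
  group homomorphism;
* `isInt_of_nsmul_eq_zero` : `n`-torsion points are integral when `n` is a unit of `A`.

The proof of additivity never uses the kernel of reduction: if two integral points have opposite
reductions and are not opposite, the slope of the chord (or tangent) is not in `A` (this is where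
non-singularity of the reduced curve is used), hence the `x`-coordinate of the sum is not in `A`.
-/

namespace Fermat.Agent.S52.helper130

open WeierstrassCurve WeierstrassCurve.Affine

/-- The chord identity on a Weierstrass curve over any commutative ring. -/
theorem chord_identity {R : Type*} [CommRing R] (W : Affine R) {x₁ y₁ x₂ y₂ : R}
    (h₁ : W.Equation x₁ y₁) (h₂ : W.Equation x₂ y₂) :
    (y₁ - y₂) * (y₁ - W.negY x₂ y₂) =
      (x₁ - x₂) * (x₁ ^ 2 + x₁ * x₂ + x₂ ^ 2 + W.a₂ * (x₁ + x₂) + W.a₄ - W.a₁ * y₁) := by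
  rw [equation_iff] at h₁ h₂
  simp only [negY]
  linear_combination h₁ - h₂

section Core

variable {F : Type*} [Field F] {k : Type*} [Field k]
variable {A : ValuationSubring F} {π : A →+* k} {WA : WeierstrassCurve A}

theorem isUnit_of_map_ne_zero (hπ : ∀ a : A, ¬ IsUnit a → π a = 0) {a : A} (h : π a ≠ 0) :
    IsUnit a := by
  by_contra h'
  exact h (hπ a h')

/-- An equation over `F` between elements of `A` is an equation over `A`. -/
theorem equation_of_coe {X Y : A}
    (h : (WA.map A.subtype).toAffine.Equation (X : F) (Y : F)) : WA.toAffine.Equation X Y :=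
  (Affine.map_equation WA.toAffine (f := A.subtype) Subtype.val_injective X Y).mp h

theorem nonsingular_red (hΔ : (WA.map π).Δ ≠ 0) {X Y : A} (h : WA.toAffine.Equation X Y) :
    (WA.map π).toAffine.Nonsingular (π X) (π Y) :=
  (equation_iff_nonsingular_of_Δ_ne_zero hΔ).mp (h.map π)

variable [DecidableEq F] [DecidableEq k]

/-- **Integral slope.**  If the reductions of two integral points are not opposite, the slope of
the line through them lies in `A` and reduces to the slope of the reduced points. -/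
theorem exists_slope_of_red_ne (hπ : ∀ a : A, ¬ IsUnit a → π a = 0) {X₁ Y₁ X₂ Y₂ : A}
    (h₁ : WA.toAffine.Equation X₁ Y₁) (h₂ : WA.toAffine.Equation X₂ Y₂)
    (hne : ¬ (π X₁ = π X₂ ∧ π Y₁ = (WA.map π).toAffine.negY (π X₂) (π Y₂))) :
    ∃ Λ : A, (Λ : F) = (WA.map A.subtype).toAffine.slope (X₁ : F) (X₂ : F) (Y₁ : F) (Y₂ : F) ∧
      π Λ = (WA.map π).toAffine.slope (π X₁) (π X₂) (π Y₁) (π Y₂) := by
  have hF₁ : (WA.map A.subtype).toAffine.Equation (X₁ : F) (Y₁ : F) := h₁.map A.subtype
  have hF₂ : (WA.map A.subtype).toAffine.Equation (X₂ : F) (Y₂ : F) := h₂.map A.subtype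
  have hk₁ : (WA.map π).toAffine.Equation (π X₁) (π Y₁) := h₁.map π
  have hk₂ : (WA.map π).toAffine.Equation (π X₂) (π Y₂) := h₂.map π
  by_cases hx : π X₁ = π X₂
  · have hy : π Y₁ ≠ (WA.map π).toAffine.negY (π X₂) (π Y₂) := fun h => hne ⟨hx, h⟩
    -- the denominator `D` and the numerator `N`
    set D : A := Y₁ - WA.toAffine.negY X₂ Y₂ with hD
    set N : A := X₁ ^ 2 + X₁ * X₂ + X₂ ^ 2 + WA.a₂ * (X₁ + X₂) + WA.a₄ - WA.a₁ * Y₁ with hN
    have hπD : π D = π Y₁ - (WA.map π).toAffine.negY (π X₂) (π Y₂) := by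
      rw [hD, map_sub, ← Affine.map_negY]
    have hπD0 : π D ≠ 0 := by rw [hπD]; exact sub_ne_zero.mpr hy
    obtain ⟨u, hu⟩ := isUnit_of_map_ne_zero hπ hπD0
    have hchord : (Y₁ - Y₂) * D = (X₁ - X₂) * N := chord_identity WA.toAffine h₁ h₂
    have huinv : (u : A) * ((u⁻¹ : Aˣ) : A) = 1 := by simp
    have hDF : (D : F) ≠ 0 := by
      intro h0
      have : D = 0 := Subtype.ext h0
      rw [this, map_zero] at hπD0
      exact hπD0 rfl
    have hinvF : (((u⁻¹ : Aˣ) : A) : F) = (D : F)⁻¹ := by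
      apply eq_inv_of_mul_eq_one_right
      rw [← hu]
      exact_mod_cast congrArg (Subtype.val) huinv
    have hky : π Y₁ = π Y₂ := by
      rcases Y_eq_of_X_eq hk₁ hk₂ hx with h | h
      · exact h
      · exact absurd h hy
    refine ⟨N * ((u⁻¹ : Aˣ) : A), ?_, ?_⟩
    · have hcoe : ((N * ((u⁻¹ : Aˣ) : A) : A) : F) = (N : F) * (D : F)⁻¹ := by
        push_cast; rw [hinvF]
      rw [hcoe]
      by_cases hxF : (X₁ : F) = X₂
      · have hX : X₁ = X₂ := Subtype.ext hxF
        subst hX
        have hyF : (Y₁ : F) ≠ (WA.map A.subtype).toAffine.negY (X₁ : F) (Y₂ : F) := by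
          intro h
          apply hy
          have h' : Y₁ = WA.toAffine.negY X₁ Y₂ := by
            apply Subtype.ext
            rw [h]
            exact Affine.map_negY (W' := WA.toAffine) A.subtype X₁ Y₂
          rw [h', ← Affine.map_negY]
        have hY : Y₁ = Y₂ := by
          rcases Y_eq_of_X_eq hF₁ hF₂ rfl with h | h
          · exact Subtype.ext h
          · exact absurd h hyF
        subst hY
        rw [slope_of_Y_ne rfl hyF]
        have e1 : (N : F) = 3 * (X₁ : F) ^ 2 + 2 * (WA.map A.subtype).toAffine.a₂ * (X₁ : F) +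
            (WA.map A.subtype).toAffine.a₄ - (WA.map A.subtype).toAffine.a₁ * (Y₁ : F) := by
          rw [hN]
          simp only [WeierstrassCurve.map_a₁, WeierstrassCurve.map_a₂, WeierstrassCurve.map_a₄]
          push_cast
          simp only [ValuationSubring.subtype_apply]
          ring
        have e2 : (D : F) = (Y₁ : F) - (WA.map A.subtype).toAffine.negY (X₁ : F) (Y₁ : F) := by
          have hneg := Affine.map_negY (W' := WA.toAffine) A.subtype X₁ Y₁
          simp only [ValuationSubring.subtype_apply] at hneg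
          rw [hD, hneg]
          push_cast
          rfl
        rw [e1, e2, div_eq_mul_inv]
      · rw [slope_of_X_ne hxF]
        have hsub : (X₁ : F) - (X₂ : F) ≠ 0 := sub_ne_zero.mpr hxF
        have hc : ((Y₁ : F) - (Y₂ : F)) * (D : F) = ((X₁ : F) - (X₂ : F)) * (N : F) := by
          exact_mod_cast congrArg (Subtype.val) hchord
        field_simp
        linear_combination -hc
    · rw [slope_of_Y_ne hx hy, map_mul]
      have hπinv : π ((u⁻¹ : Aˣ) : A) = (π D)⁻¹ := by
        apply eq_inv_of_mul_eq_one_right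
        rw [← hu, ← map_mul, huinv, map_one]
      have e1 : π N = 3 * π X₁ ^ 2 + 2 * (WA.map π).toAffine.a₂ * π X₁ +
          (WA.map π).toAffine.a₄ - (WA.map π).toAffine.a₁ * π Y₁ := by
        rw [hN]
        simp only [WeierstrassCurve.map_a₁, WeierstrassCurve.map_a₂, WeierstrassCurve.map_a₄,
          map_sub, map_add, map_mul, map_pow, ← hx]
        ring
      have e2 : π D = π Y₁ - (WA.map π).toAffine.negY (π X₁) (π Y₁) := by
        rw [hπD, ← hx, ← hky]
      rw [hπinv, e1, e2, div_eq_mul_inv]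
  · have hxF : (X₁ : F) ≠ X₂ := fun h => hx (congrArg π (Subtype.ext h))
    have hπsub : π (X₁ - X₂) ≠ 0 := by rw [map_sub]; exact sub_ne_zero.mpr hx
    obtain ⟨u, hu⟩ := isUnit_of_map_ne_zero hπ hπsub
    have huinv : (u : A) * ((u⁻¹ : Aˣ) : A) = 1 := by simp
    have hsub : (X₁ : F) - (X₂ : F) ≠ 0 := sub_ne_zero.mpr hxF
    have hinvF : (((u⁻¹ : Aˣ) : A) : F) = ((X₁ : F) - (X₂ : F))⁻¹ := by
      apply eq_inv_of_mul_eq_one_right
      have : ((u : A) : F) = (X₁ : F) - (X₂ : F) := by rw [hu]; push_cast; ring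
      rw [← this]
      exact_mod_cast congrArg (Subtype.val) huinv
    refine ⟨(Y₁ - Y₂) * ((u⁻¹ : Aˣ) : A), ?_, ?_⟩
    · rw [slope_of_X_ne hxF]
      push_cast
      rw [hinvF, div_eq_mul_inv]
    · rw [slope_of_X_ne hx, map_mul, map_sub]
      have hπinv : π ((u⁻¹ : Aˣ) : A) = (π X₁ - π X₂)⁻¹ := by
        apply eq_inv_of_mul_eq_one_right
        rw [← map_sub, ← hu, ← map_mul, huinv, map_one]
      rw [hπinv, div_eq_mul_inv]

omit [DecidableEq k] in
/-- **Non-integral slope.**  If two integral points have opposite reductions but are not opposite,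
the slope of the line through them is not in `A`.  (Uses non-singularity of the reduced curve.) -/
theorem slope_not_mem (hΔ : (WA.map π).Δ ≠ 0) {X₁ Y₁ X₂ Y₂ : A}
    (h₁ : WA.toAffine.Equation X₁ Y₁) (h₂ : WA.toAffine.Equation X₂ Y₂)
    (hx : π X₁ = π X₂) (hy : π Y₁ = (WA.map π).toAffine.negY (π X₂) (π Y₂))
    (hne : ¬ ((X₁ : F) = X₂ ∧
      (Y₁ : F) = (WA.map A.subtype).toAffine.negY (X₂ : F) (Y₂ : F))) :
    (WA.map A.subtype).toAffine.slope (X₁ : F) (X₂ : F) (Y₁ : F) (Y₂ : F) ∉ A := by
  intro hL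
  have hF₁ : (WA.map A.subtype).toAffine.Equation (X₁ : F) (Y₁ : F) := h₁.map A.subtype
  have hF₂ : (WA.map A.subtype).toAffine.Equation (X₂ : F) (Y₂ : F) := h₂.map A.subtype
  set D : A := Y₁ - WA.toAffine.negY X₂ Y₂ with hD
  set N : A := X₁ ^ 2 + X₁ * X₂ + X₂ ^ 2 + WA.a₂ * (X₁ + X₂) + WA.a₄ - WA.a₁ * Y₁ with hN
  have hπD : π D = 0 := by
    rw [hD, map_sub, ← Affine.map_negY, hy, sub_self]
  have hchord : (Y₁ - Y₂) * D = (X₁ - X₂) * N := chord_identity WA.toAffine h₁ h₂
  have hnegF : (WA.map A.subtype).toAffine.negY (X₂ : F) (Y₂ : F) =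
      ((WA.toAffine.negY X₂ Y₂ : A) : F) := by
    have hneg := Affine.map_negY (W' := WA.toAffine) A.subtype X₂ Y₂
    simp only [ValuationSubring.subtype_apply] at hneg
    exact hneg
  -- the two key facts
  obtain ⟨hΛD, hYY⟩ : (⟨_, hL⟩ : A) * D = N ∧ π Y₁ = π Y₂ := by
    by_cases hxF : (X₁ : F) = X₂
    · have hX : X₁ = X₂ := Subtype.ext hxF
      subst hX
      have hyF : (Y₁ : F) ≠ (WA.map A.subtype).toAffine.negY (X₁ : F) (Y₂ : F) :=
        fun h => hne ⟨rfl, h⟩
      have hY : Y₁ = Y₂ := by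
        rcases Y_eq_of_X_eq hF₁ hF₂ rfl with h | h
        · exact Subtype.ext h
        · exact absurd h hyF
      subst hY
      refine ⟨?_, rfl⟩
      apply Subtype.ext
      have hDF : (D : F) = (Y₁ : F) - (WA.map A.subtype).toAffine.negY (X₁ : F) (Y₁ : F) := by
        rw [hD, hnegF]
        push_cast
        rfl
      have hD0 : (Y₁ : F) - (WA.map A.subtype).toAffine.negY (X₁ : F) (Y₁ : F) ≠ 0 :=
        sub_ne_zero.mpr hyF
      have e1 : (N : F) = 3 * (X₁ : F) ^ 2 + 2 * (WA.map A.subtype).toAffine.a₂ * (X₁ : F) +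
          (WA.map A.subtype).toAffine.a₄ - (WA.map A.subtype).toAffine.a₁ * (Y₁ : F) := by
        rw [hN]
        simp only [WeierstrassCurve.map_a₁, WeierstrassCurve.map_a₂, WeierstrassCurve.map_a₄]
        push_cast
        simp only [ValuationSubring.subtype_apply]
        ring
      show (WA.map A.subtype).toAffine.slope (X₁ : F) (X₁ : F) (Y₁ : F) (Y₁ : F) * (D : F) = (N : F)
      rw [slope_of_Y_ne rfl hyF, hDF, e1, div_mul_cancel₀ _ hD0]
    · have hsub : (X₁ : F) - (X₂ : F) ≠ 0 := sub_ne_zero.mpr hxF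
      have hsubA : X₁ - X₂ ≠ 0 := by
        intro h
        apply hsub
        exact_mod_cast congrArg (Subtype.val) h
      have hΛ : (⟨_, hL⟩ : A) * (X₁ - X₂) = Y₁ - Y₂ := by
        apply Subtype.ext
        show (WA.map A.subtype).toAffine.slope (X₁ : F) (X₂ : F) (Y₁ : F) (Y₂ : F) *
          ((X₁ - X₂ : A) : F) = ((Y₁ - Y₂ : A) : F)
        rw [slope_of_X_ne hxF]
        push_cast
        rw [div_mul_cancel₀ _ hsub]
      have hYY : π Y₁ = π Y₂ := by
        have := congrArg π hΛ
        rw [map_mul, map_sub, map_sub, hx, sub_self, mul_zero] at this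
        exact (sub_eq_zero.mp this.symm)
      refine ⟨?_, hYY⟩
      apply mul_left_cancel₀ hsubA
      rw [← hchord, ← hΛ]
      ring
  -- contradiction with non-singularity
  have hπN : π N = 0 := by rw [← hΛD, map_mul, hπD, mul_zero]
  have hns := nonsingular_red hΔ h₁
  rw [nonsingular_iff'] at hns
  rcases hns.2 with h | h
  · apply h
    have e1 : π N = 3 * π X₁ ^ 2 + 2 * (WA.map π).toAffine.a₂ * π X₁ +
        (WA.map π).toAffine.a₄ - (WA.map π).toAffine.a₁ * π Y₁ := by
      rw [hN]
      simp only [WeierstrassCurve.map_a₁, WeierstrassCurve.map_a₂, WeierstrassCurve.map_a₄,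
        map_sub, map_add, map_mul, map_pow, ← hx]
      ring
    rw [hπN] at e1
    linear_combination e1
  · apply h
    rw [negY, ← hx, ← hYY] at hy
    linear_combination hy

omit [DecidableEq F] [DecidableEq k] in
/-- If the slope is not in `A`, neither is the `x`-coordinate of the sum. -/
theorem addX_not_mem {X₁ X₂ : A} {L : F} (hL : L ∉ A) :
    (WA.map A.subtype).toAffine.addX (X₁ : F) (X₂ : F) L ∉ A := by
  intro h
  apply hL
  have hinv : L⁻¹ ∈ A := (A.mem_or_inv_mem L).resolve_left hL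
  have hL0 : L ≠ 0 := by
    rintro rfl
    exact hL A.zero_mem
  have e : L = ((⟨_, h⟩ : A) + WA.a₂ + X₁ + X₂ : A) * L⁻¹ - (WA.a₁ : A) := by
    push_cast
    simp only [addX, WeierstrassCurve.map_a₁, WeierstrassCurve.map_a₂,
      ValuationSubring.subtype_apply]
    field_simp
    ring
  rw [e]
  exact sub_mem (mul_mem (SetLike.coe_mem _) hinv) (SetLike.coe_mem _)

/-! ### Integral points and their reduction -/

/-- A point of `WA.map A.subtype` is *integral* if it is `0` or has coordinates in `A`. -/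
def IsInt (A : ValuationSubring F) (WA : WeierstrassCurve A) :
    (WA.map A.subtype).toAffine.Point → Prop
  | .zero => True
  | .some x y _ => x ∈ A ∧ y ∈ A

omit [DecidableEq F] [DecidableEq k] in
@[simp] theorem isInt_zero : IsInt A WA 0 := trivial

omit [DecidableEq F] [DecidableEq k] in
theorem isInt_some {x y : F} (h : (WA.map A.subtype).toAffine.Nonsingular x y) :
    IsInt A WA (.some x y h) ↔ x ∈ A ∧ y ∈ A := Iff.rfl

open Classical in
/-- Reduction of a point (junk value `0` at non-integral points). -/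
noncomputable def redPt (π : A →+* k) (hΔ : (WA.map π).Δ ≠ 0) :
    (WA.map A.subtype).toAffine.Point → (WA.map π).toAffine.Point
  | .zero => 0
  | .some x y h =>
    if hxy : x ∈ A ∧ y ∈ A then
      .some (π ⟨x, hxy.1⟩) (π ⟨y, hxy.2⟩)
        (nonsingular_red hΔ (equation_of_coe (X := ⟨x, hxy.1⟩) (Y := ⟨y, hxy.2⟩) h.1))
    else 0

omit [DecidableEq F] [DecidableEq k] in
@[simp] theorem redPt_zero (hΔ : (WA.map π).Δ ≠ 0) : redPt π hΔ 0 = 0 := rfl

open Classical in
omit [DecidableEq F] [DecidableEq k] in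
theorem redPt_some (hΔ : (WA.map π).Δ ≠ 0) {x y : F}
    (h : (WA.map A.subtype).toAffine.Nonsingular x y) (hx : x ∈ A) (hy : y ∈ A) :
    redPt π hΔ (.some x y h) = .some (π ⟨x, hx⟩) (π ⟨y, hy⟩)
      (nonsingular_red hΔ (equation_of_coe (X := ⟨x, hx⟩) (Y := ⟨y, hy⟩) h.1)) := by
  show (if hxy : x ∈ A ∧ y ∈ A then _ else _) = _
  rw [dif_pos ⟨hx, hy⟩]

omit [DecidableEq F] [DecidableEq k] in
theorem redPt_eq_zero_iff (hΔ : (WA.map π).Δ ≠ 0) {P : (WA.map A.subtype).toAffine.Point}
    (hP : IsInt A WA P) : redPt π hΔ P = 0 ↔ P = 0 := by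
  rcases P with _ | ⟨x, y, h⟩
  · exact ⟨fun _ => rfl, fun _ => rfl⟩
  · rw [redPt_some hΔ h hP.1 hP.2]
    exact ⟨fun h' => absurd h' (Point.some_ne_zero _), fun h' => absurd h' (Point.some_ne_zero _)⟩

omit [DecidableEq F] [DecidableEq k] in
theorem some_congr {R : Type*} [CommRing R] {W : Affine R} {x y x' y' : R}
    {h : W.Nonsingular x y} {h' : W.Nonsingular x' y'} (hx : x = x') (hy : y = y') :
    Point.some x y h = Point.some x' y' h' := by
  subst hx hy
  rfl

/-- **Additivity of reduction**: if `P`, `Q` and `P + Q` are integral, then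
`redPt (P + Q) = redPt P + redPt Q`. -/
theorem redPt_add (hπ : ∀ a : A, ¬ IsUnit a → π a = 0) (hΔ : (WA.map π).Δ ≠ 0)
    {P Q : (WA.map A.subtype).toAffine.Point} (hP : IsInt A WA P) (hQ : IsInt A WA Q)
    (hPQ : IsInt A WA (P + Q)) : redPt π hΔ (P + Q) = redPt π hΔ P + redPt π hΔ Q := by
  rcases P with _ | ⟨x₁, y₁, h₁⟩
  · show redPt π hΔ (0 + Q) = redPt π hΔ 0 + redPt π hΔ Q
    rw [zero_add, redPt_zero, zero_add]
  rcases Q with _ | ⟨x₂, y₂, h₂⟩
  · show redPt π hΔ (Point.some x₁ y₁ h₁ + 0) = redPt π hΔ (Point.some x₁ y₁ h₁) + redPt π hΔ 0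
    rw [add_zero, redPt_zero, add_zero]
  obtain ⟨hx₁, hy₁⟩ := hP
  obtain ⟨hx₂, hy₂⟩ := hQ
  -- lift everything to `A`
  obtain ⟨X₁, rfl⟩ : ∃ X : A, (X : F) = x₁ := ⟨⟨x₁, hx₁⟩, rfl⟩
  obtain ⟨Y₁, rfl⟩ : ∃ Y : A, (Y : F) = y₁ := ⟨⟨y₁, hy₁⟩, rfl⟩
  obtain ⟨X₂, rfl⟩ : ∃ X : A, (X : F) = x₂ := ⟨⟨x₂, hx₂⟩, rfl⟩
  obtain ⟨Y₂, rfl⟩ : ∃ Y : A, (Y : F) = y₂ := ⟨⟨y₂, hy₂⟩, rfl⟩
  have e₁ : WA.toAffine.Equation X₁ Y₁ := equation_of_coe h₁.1
  have e₂ : WA.toAffine.Equation X₂ Y₂ := equation_of_coe h₂.1
  have hnegF : (WA.map A.subtype).toAffine.negY (X₂ : F) (Y₂ : F) =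
      ((WA.toAffine.negY X₂ Y₂ : A) : F) := by
    have hneg := Affine.map_negY (W' := WA.toAffine) A.subtype X₂ Y₂
    simp only [ValuationSubring.subtype_apply] at hneg
    exact hneg
  rw [redPt_some hΔ h₁ hx₁ hy₁, redPt_some hΔ h₂ hx₂ hy₂]
  by_cases hred : π X₁ = π X₂ ∧ π Y₁ = (WA.map π).toAffine.negY (π X₂) (π Y₂)
  · -- opposite reductions
    rw [Point.add_of_Y_eq hred.1 hred.2]
    by_cases hF : (X₁ : F) = X₂ ∧ (Y₁ : F) = (WA.map A.subtype).toAffine.negY (X₂ : F) (Y₂ : F)
    · rw [Point.add_of_Y_eq hF.1 hF.2, redPt_zero]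
    · exfalso
      rw [Point.add_some hF] at hPQ
      exact addX_not_mem (slope_not_mem hΔ e₁ e₂ hred.1 hred.2 hF) hPQ.1
  · -- generic case
    obtain ⟨Λ, hΛF, hΛk⟩ := exists_slope_of_red_ne hπ e₁ e₂ hred
    have hF : ¬ ((X₁ : F) = X₂ ∧
        (Y₁ : F) = (WA.map A.subtype).toAffine.negY (X₂ : F) (Y₂ : F)) := by
      rintro ⟨hx, hy⟩
      apply hred
      have hX : X₁ = X₂ := Subtype.ext hx
      have hY : Y₁ = WA.toAffine.negY X₂ Y₂ := Subtype.ext (hy.trans hnegF)
      refine ⟨congrArg π hX, ?_⟩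
      rw [hY, ← Affine.map_negY]
    have hXF : (WA.map A.subtype).toAffine.addX (X₁ : F) (X₂ : F)
        ((WA.map A.subtype).toAffine.slope (X₁ : F) (X₂ : F) (Y₁ : F) (Y₂ : F)) =
          ((WA.toAffine.addX X₁ X₂ Λ : A) : F) := by
      rw [← hΛF]
      have := Affine.map_addX (W' := WA.toAffine) A.subtype X₁ X₂ Λ
      simp only [ValuationSubring.subtype_apply] at this
      exact this
    have hYF : (WA.map A.subtype).toAffine.addY (X₁ : F) (X₂ : F) (Y₁ : F)
        ((WA.map A.subtype).toAffine.slope (X₁ : F) (X₂ : F) (Y₁ : F) (Y₂ : F)) =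
          ((WA.toAffine.addY X₁ X₂ Y₁ Λ : A) : F) := by
      rw [← hΛF]
      have := Affine.map_addY (W' := WA.toAffine) A.subtype X₁ Y₁ X₂ Λ
      simp only [ValuationSubring.subtype_apply] at this
      exact this
    have hsum : Point.some (X₁ : F) (Y₁ : F) h₁ + Point.some (X₂ : F) (Y₂ : F) h₂ =
        Point.some (((WA.toAffine.addX X₁ X₂ Λ : A) : F)) (((WA.toAffine.addY X₁ X₂ Y₁ Λ : A) : F))
          (hXF ▸ hYF ▸ nonsingular_add h₁ h₂ hF) := by
      rw [Point.add_some hF]
      exact some_congr hXF hYF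
    rw [hsum, redPt_some hΔ _ (SetLike.coe_mem _) (SetLike.coe_mem _), Point.add_some hred]
    apply some_congr
    · rw [← hΛk]
      exact (Affine.map_addX (W' := WA.toAffine) π X₁ X₂ Λ).symm
    · rw [← hΛk]
      exact (Affine.map_addY (W' := WA.toAffine) π X₁ Y₁ X₂ Λ).symm

/-- On an additive subgroup all of whose points are integral, reduction is a group
homomorphism. -/
noncomputable def redHom (hπ : ∀ a : A, ¬ IsUnit a → π a = 0) (hΔ : (WA.map π).Δ ≠ 0)
    (H : AddSubgroup (WA.map A.subtype).toAffine.Point) (hH : ∀ P ∈ H, IsInt A WA P) :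
    H →+ (WA.map π).toAffine.Point where
  toFun P := redPt π hΔ P
  map_zero' := redPt_zero hΔ
  map_add' P Q := redPt_add hπ hΔ (hH P P.2) (hH Q Q.2) (hH _ (H.add_mem P.2 Q.2))

theorem redHom_apply (hπ : ∀ a : A, ¬ IsUnit a → π a = 0) (hΔ : (WA.map π).Δ ≠ 0)
    (H : AddSubgroup (WA.map A.subtype).toAffine.Point) (hH : ∀ P ∈ H, IsInt A WA P) (P : H) :
    redHom hπ hΔ H hH P = redPt π hΔ P := rfl

theorem redHom_injective (hπ : ∀ a : A, ¬ IsUnit a → π a = 0) (hΔ : (WA.map π).Δ ≠ 0)
    (H : AddSubgroup (WA.map A.subtype).toAffine.Point) (hH : ∀ P ∈ H, IsInt A WA P) :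
    Function.Injective (redHom hπ hΔ H hH) := by
  rw [injective_iff_map_eq_zero]
  intro P hP
  exact Subtype.ext ((redPt_eq_zero_iff hΔ (hH P P.2)).mp hP)

/-! ### Torsion points are integral -/

open Fermat.Agent.Lib.helper5856 in
omit [DecidableEq k] in
/-- **Torsion points of order prime to the residue characteristic are integral**: if `n` is a
unit of `A` and `n • P = 0` then `P` is integral.  (The `x`-coordinate is a root of the ladder
polynomial `Zₙ`, which has coefficients in `A` and leading coefficient `n²`.) -/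
theorem isInt_of_nsmul_eq_zero {n : ℕ} (hn : IsUnit (n : A))
    {P : (WA.map A.subtype).toAffine.Point} (hP : n • P = 0) : IsInt A WA P := by
  rcases P with _ | ⟨x, y, h⟩
  · trivial
  · have h0 := (nsmul_eq_zero_iff h n).mp hP
    rw [ladP_eval] at h0
    simp only [WeierstrassCurve.map_b₂, WeierstrassCurve.map_b₄, WeierstrassCurve.map_b₆,
      WeierstrassCurve.map_b₈] at h0
    rw [ladP_map] at h0
    simp only at h0
    set p : Polynomial A := (ladP WA.b₂ WA.b₄ WA.b₆ WA.b₈ n).2 with hp
    have hLC : IsLC p (n ^ 2 - 1) ((n : A) ^ 2) := (ladP_isLC _ _ _ _ n).2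
    have hu : IsUnit ((n : A) ^ 2) := hn.pow 2
    have hlead : p.leadingCoeff = (n : A) ^ 2 := hLC.leadingCoeff_eq hu.ne_zero
    have hlu : IsUnit p.leadingCoeff := hlead ▸ hu
    have hx : x ∈ A := by
      have hint : IsIntegral A x := by
        refine ⟨hlu.unit⁻¹ • p, Polynomial.monic_of_isUnit_leadingCoeff_inv_smul hlu, ?_⟩
        rw [Units.smul_def, Polynomial.eval₂_smul]
        have : Polynomial.eval₂ (algebraMap A F) x p = 0 := by
          rw [← Polynomial.eval_map]
          exact h0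
        rw [this, mul_zero]
      obtain ⟨z, hz⟩ := IsIntegrallyClosed.isIntegral_iff.mp hint
      rw [← hz]
      exact z.2
    refine ⟨hx, ?_⟩
    by_contra hy
    have hinv : y⁻¹ ∈ A := (A.mem_or_inv_mem y).resolve_left hy
    have hy0 : y ≠ 0 := by
      rintro rfl
      exact hy A.zero_mem
    have heq := (equation_iff _ _).mp h.1
    simp only [WeierstrassCurve.map_a₁, WeierstrassCurve.map_a₂, WeierstrassCurve.map_a₃,
      WeierstrassCurve.map_a₄, WeierstrassCurve.map_a₆, ValuationSubring.subtype_apply] at heq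
    apply hy
    have e : y = (((⟨x, hx⟩ : A) ^ 3 + WA.a₂ * (⟨x, hx⟩ : A) ^ 2 + WA.a₄ * (⟨x, hx⟩ : A) + WA.a₆ : A)
        : F) * y⁻¹ - ((WA.a₁ * (⟨x, hx⟩ : A) + WA.a₃ : A) : F) := by
      push_cast
      field_simp
      linear_combination heq
    rw [e]
    exact sub_mem (mul_mem (SetLike.coe_mem _) hinv) (SetLike.coe_mem _)

end Core

/-! ### Packaged form for curves propositionally equal to the base changes -/

section Package

variable {F : Type*} [Field F] {k : Type*} [Field k] [DecidableEq F] [DecidableEq k]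
variable {A : ValuationSubring F} {π : A →+* k} {WA : WeierstrassCurve A}

/-- **Good reduction on prime-to-residue-characteristic torsion, packaged.**
`WF` (over `F`) and `V` (over `k`) are the base changes of a Weierstrass curve `WA` over the
valuation subring `A` along the inclusion and along `π`; `V` has non-zero discriminant and `n` is
a unit of `A`.  Then there is an injective additive map from the `n`-torsion of `WF` to the points
of `V` which is given on coordinates by `π`. -/
theorem exists_redHom_torsion {WF : Affine F} {V : Affine k}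
    (hπ : ∀ a : A, ¬ IsUnit a → π a = 0) (hF : WA.map A.subtype = WF) (hV : WA.map π = V)
    (hΔ : V.Δ ≠ 0) {n : ℕ} (hn : IsUnit (n : A)) :
    ∃ r : Submodule.torsionBy ℤ WF.Point (n : ℤ) →+ V.Point, Function.Injective r ∧
      ∀ (x y : F) (h : WF.Nonsingular x y)
        (hP : Point.some x y h ∈ Submodule.torsionBy ℤ WF.Point (n : ℤ)),
        ∃ (hx : x ∈ A) (hy : y ∈ A) (h' : V.Nonsingular (π ⟨x, hx⟩) (π ⟨y, hy⟩)),
          r ⟨Point.some x y h, hP⟩ = Point.some (π ⟨x, hx⟩) (π ⟨y, hy⟩) h' := by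
  subst hF hV
  have hint : ∀ P ∈ Submodule.torsionBy ℤ (WA.map A.subtype).toAffine.Point (n : ℤ),
      IsInt A WA P := by
    intro P hP
    rw [Submodule.mem_torsionBy_iff, natCast_zsmul] at hP
    exact isInt_of_nsmul_eq_zero hn hP
  refine ⟨{ toFun := fun P => redPt π hΔ P.1
            map_zero' := redPt_zero hΔ
            map_add' := fun P Q =>
              redPt_add hπ hΔ (hint P P.2) (hint Q Q.2) (hint _ (P + Q).2) }, ?_, ?_⟩
  · rw [injective_iff_map_eq_zero]
    intro P hP
    exact Subtype.ext ((redPt_eq_zero_iff hΔ (hint P P.2)).mp hP)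
  · intro x y h hP
    have hxy := hint _ hP
    exact ⟨hxy.1, hxy.2, _, redPt_some hΔ h hxy.1 hxy.2⟩

end Package

/-! ### The residue field of a valuation subring of an algebraically closed field -/

/-- The residue field of a valuation subring of an algebraically closed field is algebraically
closed. -/
theorem isAlgClosed_residueField {L : Type*} [Field L] [IsAlgClosed L] (A : ValuationSubring L) :
    IsAlgClosed (IsLocalRing.ResidueField A) := by
  apply IsAlgClosed.of_exists_root
  intro p hmonic hirr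
  have hlift : p ∈ Polynomial.lifts (IsLocalRing.residue A) :=
    Polynomial.map_surjective _ IsLocalRing.residue_surjective p
  obtain ⟨q, hq, hqdeg, hqmonic⟩ := Polynomial.lifts_and_natDegree_eq_and_monic hlift hmonic
  have hdeg : (q.map A.subtype).degree ≠ 0 := by
    rw [Polynomial.degree_map_eq_of_injective Subtype.val_injective,
      Polynomial.degree_eq_natDegree hqmonic.ne_zero, hqdeg]
    have := Polynomial.natDegree_pos_iff_degree_pos.mpr (Polynomial.degree_pos_of_irreducible hirr)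
    exact_mod_cast this.ne'
  obtain ⟨z, hz⟩ := IsAlgClosed.exists_root (q.map A.subtype) hdeg
  have hint : IsIntegral A z := by
    refine ⟨q, hqmonic, ?_⟩
    rw [← Polynomial.eval_map]
    exact hz
  obtain ⟨w, hw⟩ := IsIntegrallyClosed.isIntegral_iff.mp hint
  refine ⟨IsLocalRing.residue A w, ?_⟩
  rw [← hq, Polynomial.eval_map, Polynomial.eval₂_at_apply]
  have h0 : q.eval w = 0 := by
    apply Subtype.val_injective
    show A.subtype (q.eval w) = 0
    rw [← Polynomial.eval₂_at_apply, ← Polynomial.eval_map]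
    have hwz : A.subtype w = z := hw
    rw [hwz]
    exact hz
  rw [h0, map_zero]

end Fermat.Agent.S52.helper130
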