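import Mathlib

/-!
# Reduction of points of a Weierstrass curve modulo a valuation subring is a group homomorphism

`K` a field, `A : ValuationSubring K`, `π : A →+* k` a ring homomorphism to a field `k`
(in applications: the residue map), `W : WeierstrassCurve A` a Weierstrass curve with
coefficients in `A` (general Weierstrass form, no restriction on the residue characteristic).

* `Red A π W P Pb` : the point `P` of `W` over `K` reduces to the NONSINGULAR point `Pb` of the
  reduced curve `W.map π`.
* `Red.add` : the relation is additive (reduction is a group homomorphism on the points with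
  nonsingular reduction).
* `red` : for good reduction, the reduction homomorphism `W(K) →+ W̃(k)`.

The proof uses the polynomial addition formulas of `WeierstrassCurve.Projective`, which commute
with ring homomorphisms, and a generic translate to avoid the degenerate case.
-/

set_option autoImplicit false

open WeierstrassCurve
open scoped WeierstrassCurve.Projective

namespace Fermat.Agent.S52.helper3042

section Prim

variable {K : Type*} [Field K]

/-- Two nonzero triples over a field with vanishing cross products are projectively equivalent. -/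
theorem equiv_of_cross {F : Type*} [Field F] {P Q : Fin 3 → F} (hP : P ≠ 0) (hQ : Q ≠ 0)
    (h : ∀ i j, P i * Q j = P j * Q i) : P ≈ Q := by
  obtain ⟨j, hj⟩ := Function.ne_iff.mp hQ
  have hj' : Q j ≠ 0 := by simpa using hj
  have hPj : P j ≠ 0 := by
    intro h0
    apply hP
    funext i
    have := h i j
    rw [h0, zero_mul] at this
    simpa using (mul_eq_zero.mp this).resolve_right hj'
  refine ⟨Units.mk0 (P j / Q j) (div_ne_zero hPj hj'), ?_⟩
  funext i
  simp only [Units.smul_def, Units.val_mk0, Pi.smul_apply, smul_eq_mul]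
  field_simp
  linear_combination -(h i j)

theorem cross_of_equiv {F : Type*} [Field F] {P Q : Fin 3 → F} (h : P ≈ Q) (i j : Fin 3) :
    P i * Q j = P j * Q i := by
  obtain ⟨u, rfl⟩ := h
  simp only [Units.smul_def, Pi.smul_apply, smul_eq_mul]
  ring

/-- Every nonzero triple over `K` can be scaled to a triple over the valuation subring `A` one of
whose coordinates is `1`. -/
theorem exists_prim (A : ValuationSubring K) (Q : Fin 3 → K) (hQ : Q ≠ 0) :
    ∃ c : K, c ≠ 0 ∧ ∃ P : Fin 3 → A, (A.subtype ∘ P) = c • Q ∧ ∃ i, P i = 1 := by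
  obtain ⟨i, -, hi⟩ := Finset.exists_max_image Finset.univ (fun j => A.valuation (Q j))
    ⟨0, Finset.mem_univ _⟩
  have hQi : Q i ≠ 0 := by
    intro h0
    apply hQ
    funext j
    have := hi j (Finset.mem_univ _)
    rw [h0, map_zero] at this
    simpa using le_antisymm this zero_le
  have hvi : A.valuation (Q i) ≠ 0 := by simpa using hQi
  have hmem : ∀ j, (Q i)⁻¹ * Q j ∈ A := by
    intro j
    rw [← A.valuation_le_one_iff, map_mul, map_inv₀]
    have := hi j (Finset.mem_univ _)
    calc (A.valuation (Q i))⁻¹ * A.valuation (Q j)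
        ≤ (A.valuation (Q i))⁻¹ * A.valuation (Q i) := mul_le_mul' le_rfl this
      _ = 1 := inv_mul_cancel₀ hvi
  refine ⟨(Q i)⁻¹, inv_ne_zero hQi, fun j => ⟨(Q i)⁻¹ * Q j, hmem j⟩, ?_, i, ?_⟩
  · funext j
    simp
  · ext
    simp [hQi]

end Prim

section Core

variable {K : Type*} [Field K] {k : Type*} [Field k] (A : ValuationSubring K) (π : A →+* k)
  (W : WeierstrassCurve A)

/-- `Red A π W P Pb`: the point `P` of `W` over `K` reduces to the nonsingular point `Pb` of the
reduced curve `W.map π` over `k`: there is a projective representative with coordinates in `A`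
whose image in `K` represents `P` and whose reduction is a nonsingular representative of `Pb`. -/
def Red (P : (W.map A.subtype).toAffine.Point) (Pb : (W.map π).toAffine.Point) : Prop :=
  ∃ P' : Fin 3 → A, W.toProjective.Equation P' ∧
    (W.map π).toProjective.Nonsingular (π ∘ P') ∧
    Projective.Point.toAffine (W.map A.subtype).toProjective (A.subtype ∘ P') = P ∧
    Projective.Point.toAffine (W.map π).toProjective (π ∘ P') = Pb

variable {A π W}

/-- A representative over `A` with nonsingular reduction is nonsingular over `K`. -/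
theorem nonsingular_of_red {P' : Fin 3 → A} (hE : W.toProjective.Equation P')
    (hN : (W.map π).toProjective.Nonsingular (π ∘ P')) :
    (W.map A.subtype).toProjective.Nonsingular (A.subtype ∘ P') := by
  have hinj : Function.Injective A.subtype := Subtype.val_injective
  refine (Projective.map_nonsingular (W' := W.toProjective) hinj P').mpr ?_
  rw [Projective.nonsingular_iff] at hN ⊢
  refine ⟨hE, ?_⟩
  obtain ⟨-, hN⟩ := hN
  by_contra hcon
  simp only [not_or, not_not] at hcon
  obtain ⟨h1, h2, h3⟩ := hcon
  rcases hN with hN | hN | hN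
  · apply hN
    have := congrArg π h1
    simpa [WeierstrassCurve.map, map_ofNat] using this
  · apply hN
    have := congrArg π h2
    simpa [WeierstrassCurve.map, map_ofNat] using this
  · apply hN
    have := congrArg π h3
    simpa [WeierstrassCurve.map, map_ofNat] using this

theorem ne_zero_of_nonsingular {F : Type*} [Field F] {V : WeierstrassCurve F} {P : Fin 3 → F}
    (hP : V.toProjective.Nonsingular P) : P ≠ 0 := by
  rintro rfl
  exact Projective.Y_ne_zero_of_Z_eq_zero hP rfl rfl

/-- Representatives over `A` of the same `K`-point have equivalent reductions. -/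
theorem red_equiv {P' Q' : Fin 3 → A} (hP : π ∘ P' ≠ 0) (hQ : π ∘ Q' ≠ 0)
    (h : (A.subtype ∘ P') ≈ (A.subtype ∘ Q')) : (π ∘ P') ≈ (π ∘ Q') := by
  refine equiv_of_cross hP hQ fun i j => ?_
  have := cross_of_equiv h i j
  simp only [Function.comp_apply] at this ⊢
  have h' : P' i * Q' j = P' j * Q' i := by
    apply Subtype.val_injective
    simpa using this
  simpa using congrArg π h'

theorem toAffine_eq_iff {F : Type*} [Field F] {V : WeierstrassCurve F} {P Q : Fin 3 → F}
    (hP : V.toProjective.Nonsingular P) (hQ : V.toProjective.Nonsingular Q) :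
    Projective.Point.toAffine V.toProjective P = Projective.Point.toAffine V.toProjective Q ↔
      P ≈ Q := by
  classical
  refine ⟨fun h => ?_, Projective.Point.toAffine_of_equiv⟩
  have h1 : (Projective.Point.mk (W' := V.toProjective) (point := ⟦P⟧) hP) =
      Projective.Point.mk (W' := V.toProjective) (point := ⟦Q⟧) hQ := by
    apply (Projective.Point.toAffineAddEquiv V.toProjective).injective
    exact h
  exact Quotient.exact (congrArg Projective.Point.point h1)

namespace Red

theorem unique {P : (W.map A.subtype).toAffine.Point} {Pb Pb' : (W.map π).toAffine.Point}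
    (h : Red A π W P Pb) (h' : Red A π W P Pb') : Pb = Pb' := by
  obtain ⟨P', hE, hN, hP, rfl⟩ := h
  obtain ⟨Q', hE', hN', hQ, rfl⟩ := h'
  apply Projective.Point.toAffine_of_equiv
  refine red_equiv (ne_zero_of_nonsingular hN) (ne_zero_of_nonsingular hN') ?_
  exact (toAffine_eq_iff (nonsingular_of_red hE hN) (nonsingular_of_red hE' hN')).mp (hP.trans hQ.symm)

theorem zero : Red A π W 0 0 := by
  refine ⟨![0, 1, 0], Projective.equation_zero, ?_, ?_, ?_⟩
  · have : π ∘ ![(0 : A), 1, 0] = ![0, 1, 0] := by
      rw [Projective.comp_fin3]; simp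
    rw [this]; exact Projective.nonsingular_zero
  · have : A.subtype ∘ ![(0 : A), 1, 0] = ![0, 1, 0] := by
      rw [Projective.comp_fin3]; simp
    rw [this]; exact Projective.Point.toAffine_zero
  · have : π ∘ ![(0 : A), 1, 0] = ![0, 1, 0] := by
      rw [Projective.comp_fin3]; simp
    rw [this]; exact Projective.Point.toAffine_zero

theorem neg {P : (W.map A.subtype).toAffine.Point} {Pb : (W.map π).toAffine.Point}
    (h : Red A π W P Pb) : Red A π W (-P) (-Pb) := by
  obtain ⟨P', hE, hN, rfl, rfl⟩ := h
  have hNK := nonsingular_of_red hE hN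
  have hmapK : A.subtype ∘ W.toProjective.neg P' =
      (W.map A.subtype).toProjective.neg (A.subtype ∘ P') :=
    (Projective.map_neg (W' := W.toProjective) A.subtype P').symm
  have hmapk : π ∘ W.toProjective.neg P' = (W.map π).toProjective.neg (π ∘ P') :=
    (Projective.map_neg (W' := W.toProjective) π P').symm
  refine ⟨W.toProjective.neg P', ?_, ?_, ?_, ?_⟩
  · have := (Projective.nonsingular_neg hNK).1
    rw [← hmapK] at this
    exact (Projective.map_equation (W' := W.toProjective) Subtype.val_injective _).mp this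
  · rw [hmapk]; exact Projective.nonsingular_neg hN
  · rw [hmapK]; exact Projective.Point.toAffine_neg hNK
  · rw [hmapk]; exact Projective.Point.toAffine_neg hN

/-- Generic additivity: if the reductions are different points, reduction commutes with the sum. -/
theorem add_of_ne [DecidableEq K] [DecidableEq k]
    {P Q : (W.map A.subtype).toAffine.Point} {Pb Qb : (W.map π).toAffine.Point}
    (hP : Red A π W P Pb) (hQ : Red A π W Q Qb) (hne : Pb ≠ Qb) :
    Red A π W (P + Q) (Pb + Qb) := by
  obtain ⟨P', hE, hN, rfl, rfl⟩ := hP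
  obtain ⟨Q', hE', hN', rfl, rfl⟩ := hQ
  have hNK := nonsingular_of_red hE hN
  have hNK' := nonsingular_of_red hE' hN'
  have hnek : ¬ (π ∘ P') ≈ (π ∘ Q') := fun h => hne (Projective.Point.toAffine_of_equiv h)
  have hneK : ¬ (A.subtype ∘ P') ≈ (A.subtype ∘ Q') := fun h =>
    hnek (red_equiv (ne_zero_of_nonsingular hN) (ne_zero_of_nonsingular hN') h)
  have hmapK : A.subtype ∘ W.toProjective.addXYZ P' Q' =
      (W.map A.subtype).toProjective.add (A.subtype ∘ P') (A.subtype ∘ Q') := by
    rw [Projective.add_of_not_equiv hneK]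
    exact (Projective.map_addXYZ (W' := W.toProjective) A.subtype P' Q').symm
  have hmapk : π ∘ W.toProjective.addXYZ P' Q' =
      (W.map π).toProjective.add (π ∘ P') (π ∘ Q') := by
    rw [Projective.add_of_not_equiv hnek]
    exact (Projective.map_addXYZ (W' := W.toProjective) π P' Q').symm
  refine ⟨W.toProjective.addXYZ P' Q', ?_, ?_, ?_, ?_⟩
  · have := (Projective.nonsingular_add hNK hNK').1
    rw [← hmapK] at this
    exact (Projective.map_equation (W' := W.toProjective) Subtype.val_injective _).mp this
  · rw [hmapk]; exact Projective.nonsingular_add hN hN'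
  · rw [hmapK]; exact Projective.Point.toAffine_add hNK hNK'
  · rw [hmapk]; exact Projective.Point.toAffine_add hN hN'

end Red

end Core

section Generic

open Polynomial

variable {K : Type*} [Field K] {k : Type*} [Field k] {A : ValuationSubring K} {π : A →+* k}
  {W : WeierstrassCurve A}

/-- The residue field of a valuation subring of an algebraically closed field is algebraically
closed (stated for an arbitrary surjection `π : A →+* k` onto a field). -/
theorem isAlgClosed_of_surjective [IsAlgClosed K] (hπ : Function.Surjective π) :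
    IsAlgClosed k := by
  refine IsAlgClosed.of_exists_root k fun p hp hirr => ?_
  obtain ⟨q, hq, hdeg, hqm⟩ := Polynomial.lifts_and_natDegree_eq_and_monic
    (f := π) (p := p) ((Polynomial.mem_lifts p).mpr (Polynomial.map_surjective π hπ p)) hp
  have hpd : p.natDegree ≠ 0 := by
    intro h0
    have := hirr.natDegree_pos
    omega
  have hd : (q.map A.subtype).degree ≠ 0 := by
    intro h0
    have h1 : (q.map A.subtype).natDegree = 0 :=
      Polynomial.natDegree_eq_zero_iff_degree_le_zero.mpr h0.le
    rw [hqm.natDegree_map, hdeg] at h1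
    exact hpd h1
  obtain ⟨α, hα⟩ := IsAlgClosed.exists_root _ hd
  have hint : IsIntegral A α := ⟨q, hqm, by
    rw [← Polynomial.eval_map]; exact hα⟩
  obtain ⟨a, rfl⟩ := IsIntegrallyClosed.isIntegral_iff.mp hint
  refine ⟨π a, ?_⟩
  rw [← hq, Polynomial.eval_map, Polynomial.eval₂_at_apply]
  have h0 : Polynomial.eval a q = 0 := by
    have : algebraMap A K (Polynomial.eval a q) = 0 := by
      rw [← Polynomial.eval₂_at_apply, ← Polynomial.eval_map]; exact hα
    exact (map_eq_zero_iff _ (FaithfulSMul.algebraMap_injective A K)).mp this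
  rw [h0, map_zero]

/-- A surjection from a valuation subring onto a field kills exactly the non-units. -/
theorem isUnit_of_map_ne_zero (hπ : Function.Surjective π) {a : A} (ha : π a ≠ 0) : IsUnit a := by
  have hmax : (RingHom.ker π).IsMaximal := RingHom.ker_isMaximal_of_surjective π hπ
  have hker : RingHom.ker π = IsLocalRing.maximalIdeal A := IsLocalRing.eq_maximalIdeal hmax
  refine IsLocalRing.notMem_maximalIdeal.mp ?_
  rw [← hker, RingHom.mem_ker]
  exact ha

/-- The polynomial `4x³ + b₂x² + 2b₄x + b₆`, whose roots are the `x`-coordinates of the points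
with `2y + a₁x + a₃ = 0` (singular points and points of order two). -/
noncomputable def twoPoly (V : WeierstrassCurve k) : Polynomial k :=
  C 4 * X ^ 3 + C V.b₂ * X ^ 2 + C (2 * V.b₄) * X + C V.b₆

theorem twoPoly_eval (V : WeierstrassCurve k) {x y : k} (h : V.toAffine.Equation x y) :
    (twoPoly V).eval x = (2 * y + V.a₁ * x + V.a₃) ^ 2 := by
  rw [Affine.equation_iff] at h
  simp only [twoPoly, eval_add, eval_mul, eval_C, eval_pow, eval_X, WeierstrassCurve.b₂,
    WeierstrassCurve.b₄, WeierstrassCurve.b₆]
  linear_combination (-4) * h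

theorem twoPoly_ne_zero_of_two_ne_zero (V : WeierstrassCurve k) (h2 : (2 : k) ≠ 0) :
    twoPoly V ≠ 0 := by
  intro h0
  have h3 : (twoPoly V).coeff 3 = 4 := by
    simp [twoPoly, Polynomial.coeff_X_pow]
  rw [h0, Polynomial.coeff_zero] at h3
  have : (2 : k) * 2 = 0 := by rw [h3]; norm_num
  rcases mul_eq_zero.mp this with h | h <;> exact h2 h

theorem twoPoly_ne_zero_of_Δ_ne_zero (V : WeierstrassCurve k) (hΔ : V.Δ ≠ 0) :
    twoPoly V ≠ 0 := by
  intro h0
  have h3 : (twoPoly V).coeff 3 = 4 := by
    simp [twoPoly, Polynomial.coeff_X_pow]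
  have h2 : (twoPoly V).coeff 2 = V.b₂ := by
    simp [twoPoly, Polynomial.coeff_X_pow]
  have h0' : (twoPoly V).coeff 0 = V.b₆ := by
    simp [twoPoly, Polynomial.coeff_X_pow]
  rw [h0, Polynomial.coeff_zero] at h3 h2 h0'
  apply hΔ
  rw [WeierstrassCurve.Δ, ← h2, ← h0']
  linear_combination (2 * V.b₄ ^ 3) * h3

/-- If `x ∈ A` then the `y`-coordinate of a point over `K` with this `x`-coordinate is in `A`. -/
theorem y_mem_of_x_mem {x y : K} (hx : x ∈ A) (h : (W.map A.subtype).toAffine.Equation x y) :
    y ∈ A := by
  rw [Affine.equation_iff] at h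
  by_contra hy
  have hv : 1 < A.valuation y := not_le.mp ((A.valuation_le_one_iff y).not.mpr hy)
  have hx1 : A.valuation x ≤ 1 := (A.valuation_le_one_iff x).mpr hx
  have hc : ∀ c : A, A.valuation (c : K) ≤ 1 := fun c => (A.valuation_le_one_iff _).mpr c.2
  set β : K := (W.map A.subtype).a₁ * x + (W.map A.subtype).a₃ with hβ
  set γ : K := x ^ 3 + (W.map A.subtype).a₂ * x ^ 2 + (W.map A.subtype).a₄ * x +
    (W.map A.subtype).a₆ with hγ
  have hβ1 : A.valuation β ≤ 1 := by
    have : β ∈ A := by
      rw [hβ]
      exact A.add_mem _ _ (A.mul_mem _ _ (W.a₁).2 hx) (W.a₃).2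
    exact (A.valuation_le_one_iff _).mpr this
  have hγ1 : A.valuation γ ≤ 1 := by
    have : γ ∈ A := by
      rw [hγ]
      exact A.add_mem _ _ (A.add_mem _ _ (A.add_mem _ _ (A.pow_mem hx 3)
        (A.mul_mem _ _ (W.a₂).2 (A.pow_mem hx 2))) (A.mul_mem _ _ (W.a₄).2 hx)) (W.a₆).2
    exact (A.valuation_le_one_iff _).mpr this
  have hy2 : y ^ 2 = γ - β * y := by rw [hβ, hγ]; linear_combination h
  have h1 : A.valuation (y ^ 2) ≤ A.valuation y := by
    rw [hy2]
    refine (Valuation.map_sub _ _ _).trans (max_le (hγ1.trans hv.le) ?_)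
    rw [map_mul]
    calc A.valuation β * A.valuation y ≤ 1 * A.valuation y := mul_le_mul' hβ1 le_rfl
      _ = A.valuation y := one_mul _
  have h2 : A.valuation y < A.valuation (y ^ 2) := by
    rw [pow_two, map_mul]
    have hy0 : A.valuation y ≠ 0 := (lt_trans zero_lt_one hv).ne'
    calc A.valuation y = A.valuation y * 1 := (mul_one _).symm
      _ < A.valuation y * A.valuation y := by
          exact (mul_lt_mul_iff_right₀ (zero_lt_iff.mpr hy0)).mpr hv
  exact absurd (lt_of_lt_of_le h2 h1) (lt_irrefl _)

/-- Generic integral points: for every finite set `s` of the residue field there is a point with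
coordinates in `A` whose reduction has `x`-coordinate outside `s` and is neither singular nor of
order two. -/
theorem exists_generic [IsAlgClosed K] [Infinite k] (hπ : Function.Surjective π)
    (h2 : twoPoly (W.map π) ≠ 0) (s : Finset k) :
    ∃ a b : A, W.toAffine.Equation a b ∧ π a ∉ s ∧
      2 * π b + (W.map π).a₁ * π a + (W.map π).a₃ ≠ 0 := by
  classical
  obtain ⟨xb, hxb⟩ := Infinite.exists_notMem_finset (s ∪ (twoPoly (W.map π)).roots.toFinset)
  rw [Finset.mem_union, not_or] at hxb
  obtain ⟨a, rfl⟩ := hπ xb
  set β : K := (W.map A.subtype).a₁ * (a : K) + (W.map A.subtype).a₃ with hβ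
  set γ : K := (a : K) ^ 3 + (W.map A.subtype).a₂ * (a : K) ^ 2 + (W.map A.subtype).a₄ * (a : K) +
    (W.map A.subtype).a₆ with hγ
  have hd : (C (1 : K) * X ^ 2 + C β * X + C (-γ)).degree ≠ 0 := by
    rw [Polynomial.degree_quadratic one_ne_zero]; norm_num
  obtain ⟨y, hy⟩ := IsAlgClosed.exists_root _ hd
  have hy' : y ^ 2 + β * y - γ = 0 := by
    have := hy
    simp only [IsRoot, eval_add, eval_mul, eval_C, eval_pow, eval_X] at this
    linear_combination this
  have hEK : (W.map A.subtype).toAffine.Equation (a : K) y := by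
    rw [Affine.equation_iff]
    rw [hβ, hγ] at hy'
    linear_combination hy'
  have hyA : y ∈ A := y_mem_of_x_mem a.2 hEK
  have hE : W.toAffine.Equation a ⟨y, hyA⟩ :=
    (Affine.map_equation (W := W.toAffine) (f := A.subtype) Subtype.val_injective a ⟨y, hyA⟩).mp hEK
  refine ⟨a, ⟨y, hyA⟩, hE, hxb.1, fun h0 => hxb.2 ?_⟩
  rw [Multiset.mem_toFinset, Polynomial.mem_roots h2, IsRoot,
    twoPoly_eval _ (Affine.Equation.map π hE), h0]
  ring

end Generic

section Hom

variable {K : Type*} [Field K] {k : Type*} [Field k] {A : ValuationSubring K} {π : A →+* k}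
  {W : WeierstrassCurve A}

namespace Red

/-- An affine point with coordinates in `A` whose reduction is nonsingular reduces
coordinatewise. -/
theorem some' (a b : A) (hE : W.toAffine.Equation a b)
    (hk : (W.map π).toAffine.Nonsingular (π a) (π b)) :
    ∃ hK : (W.map A.subtype).toAffine.Nonsingular (a : K) (b : K),
      Red A π W (.some _ _ hK) (.some _ _ hk) := by
  have hπc : π ∘ ![a, b, 1] = ![π a, π b, 1] := by
    rw [Projective.comp_fin3]; simp
  have hιc : A.subtype ∘ ![a, b, 1] = ![(a : K), (b : K), 1] := by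
    rw [Projective.comp_fin3]; simp
  have hEp : W.toProjective.Equation ![a, b, 1] := (Projective.equation_some a b).mpr hE
  have hNk : (W.map π).toProjective.Nonsingular (π ∘ ![a, b, 1]) := by
    rw [hπc]; exact (Projective.nonsingular_some _ _).mpr hk
  have hNK := nonsingular_of_red hEp hNk
  rw [hιc] at hNK
  refine ⟨(Projective.nonsingular_some _ _).mp hNK, ![a, b, 1], hEp, hNk, ?_, ?_⟩
  · rw [hιc]; exact Projective.Point.toAffine_some hNK
  · rw [hπc]; exact Projective.Point.toAffine_some ((Projective.nonsingular_some _ _).mpr hk)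

theorem some (a b : A) (hK : (W.map A.subtype).toAffine.Nonsingular (a : K) (b : K))
    (hk : (W.map π).toAffine.Nonsingular (π a) (π b)) :
    Red A π W (.some _ _ hK) (.some _ _ hk) := by
  have hE : W.toAffine.Equation a b :=
    (Affine.map_equation (W := W.toAffine) (f := A.subtype) Subtype.val_injective a b).mp hK.1
  obtain ⟨_, h⟩ := some' (π := π) a b hE hk
  exact h

/-- A generic reducible point: it avoids `±Pb` and is not of order two. -/
theorem exists_generic_point [IsAlgClosed K] [Infinite k] (hπ : Function.Surjective π)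
    (h2 : twoPoly (W.map π) ≠ 0) (Pb : (W.map π).toAffine.Point) :
    ∃ (R : (W.map A.subtype).toAffine.Point) (Rb : (W.map π).toAffine.Point),
      Red A π W R Rb ∧ Rb ≠ Pb ∧ Rb ≠ -Pb ∧ Rb ≠ -Rb := by
  classical
  have key : ∀ s : Finset k, ∃ (R : (W.map A.subtype).toAffine.Point) (a b : A)
      (hk : (W.map π).toAffine.Nonsingular (π a) (π b)),
      Red A π W R (.some _ _ hk) ∧ π a ∉ s ∧ (Affine.Point.some _ _ hk) ≠ -(Affine.Point.some _ _ hk) := by
    intro s
    obtain ⟨a, b, hE, has, hne⟩ := exists_generic (W := W) hπ h2 s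
    have hk : (W.map π).toAffine.Nonsingular (π a) (π b) := by
      rw [Affine.nonsingular_iff']
      exact ⟨Affine.Equation.map π hE, Or.inr hne⟩
    obtain ⟨hK, hR⟩ := some' (π := π) a b hE hk
    refine ⟨_, a, b, hk, hR, has, ?_⟩
    rw [Affine.Point.neg_some, ne_eq, Affine.Point.some.injEq]
    rintro ⟨-, h⟩
    apply hne
    rw [Affine.negY] at h
    linear_combination h
  rcases Pb with _ | ⟨x0, y0, h0⟩
  · obtain ⟨R, a, b, hk, hR, -, hne⟩ := key ∅
    refine ⟨R, _, hR, ?_, ?_, hne⟩
    · exact Affine.Point.some_ne_zero hk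
    · have : -(Affine.Point.zero : (W.map π).toAffine.Point) = 0 := neg_zero
      rw [this]
      exact Affine.Point.some_ne_zero hk
  · obtain ⟨R, a, b, hk, hR, has, hne⟩ := key {x0}
    rw [Finset.mem_singleton] at has
    refine ⟨R, _, hR, ?_, ?_, hne⟩
    · rw [ne_eq, Affine.Point.some.injEq]
      exact fun h => has h.1
    · rw [Affine.Point.neg_some, ne_eq, Affine.Point.some.injEq]
      exact fun h => has h.1

/-- **Additivity of reduction** on points with nonsingular reduction. -/
theorem add [DecidableEq K] [DecidableEq k] [IsAlgClosed K] (hπ : Function.Surjective π)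
    (h2 : twoPoly (W.map π) ≠ 0)
    {P Q : (W.map A.subtype).toAffine.Point} {Pb Qb : (W.map π).toAffine.Point}
    (hP : Red A π W P Pb) (hQ : Red A π W Q Qb) : Red A π W (P + Q) (Pb + Qb) := by
  by_cases hne : Pb = Qb
  · subst hne
    have : IsAlgClosed k := isAlgClosed_of_surjective hπ
    obtain ⟨R, Rb, hR, hR1, hR2, hR3⟩ := exists_generic_point hπ h2 Pb
    have h1 : Red A π W (P + R) (Pb + Rb) := add_of_ne hP hR (Ne.symm hR1)
    have h2' : Red A π W (Q + -R) (Pb + -Rb) := by
      refine add_of_ne hQ hR.neg fun h => hR2 ?_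
      rw [h, neg_neg]
    have h3 : Red A π W ((P + R) + (Q + -R)) ((Pb + Rb) + (Pb + -Rb)) := by
      refine add_of_ne h1 h2' fun h => hR3 ?_
      exact add_left_cancel h
    have e1 : (P + R) + (Q + -R) = P + Q := by abel
    have e2 : (Pb + Rb) + (Pb + -Rb) = Pb + Pb := by abel
    rw [e1, e2] at h3
    exact h3
  · exact add_of_ne hP hQ hne

end Red

theorem nonsingular_of_Δ_ne_zero {V : WeierstrassCurve k} (hΔ : V.Δ ≠ 0) {P : Fin 3 → k}
    (hE : V.toProjective.Equation P) (hP : P ≠ 0) : V.toProjective.Nonsingular P := by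
  by_cases hz : P 2 = 0
  · have hx : P 0 = 0 := Projective.X_eq_zero_of_Z_eq_zero hE hz
    have hy : P 1 ≠ 0 := by
      intro hy
      apply hP
      funext i
      fin_cases i
      · exact hx
      · exact hy
      · exact hz
    rw [Projective.nonsingular_of_Z_eq_zero hz]
    refine ⟨hE, Or.inr ?_⟩
    rw [hx]
    simpa using hy
  · rw [Projective.nonsingular_of_Z_ne_zero hz]
    exact (Affine.equation_iff_nonsingular_of_Δ_ne_zero hΔ).mp
      ((Projective.equation_of_Z_ne_zero hz).mp hE)

/-- Good reduction: every point reduces to a (nonsingular) point. -/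
theorem exists_red (hΔ : (W.map π).Δ ≠ 0) (P : (W.map A.subtype).toAffine.Point) :
    ∃ Pb, Red A π W P Pb := by
  rcases P with _ | ⟨x, y, h⟩
  · exact ⟨0, Red.zero⟩
  · have hQ : (![x, y, 1] : Fin 3 → K) ≠ 0 := by
      intro h0
      have := congrFun h0 2
      simp at this
    obtain ⟨c, hc, P', hP', i, hi⟩ := exists_prim A ![x, y, 1] hQ
    have hNK : (W.map A.subtype).toProjective.Nonsingular (A.subtype ∘ P') := by
      rw [hP', Projective.nonsingular_smul _ hc.isUnit]
      exact (Projective.nonsingular_some _ _).mpr h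
    have hE : W.toProjective.Equation P' :=
      (Projective.map_equation (W' := W.toProjective) Subtype.val_injective _).mp hNK.1
    have hne : π ∘ P' ≠ 0 := by
      intro h0
      have := congrFun h0 i
      simp [hi] at this
    have hNk : (W.map π).toProjective.Nonsingular (π ∘ P') :=
      nonsingular_of_Δ_ne_zero hΔ (Projective.Equation.map π hE) hne
    refine ⟨_, P', hE, hNk, ?_, rfl⟩
    rw [hP', Projective.Point.toAffine_smul _ hc.isUnit]
    exact Projective.Point.toAffine_some ((Projective.nonsingular_some _ _).mpr h)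

/-- **The reduction homomorphism** for a Weierstrass curve with good reduction. -/
noncomputable def red [DecidableEq K] [DecidableEq k] [IsAlgClosed K] (hπ : Function.Surjective π)
    (hΔ : (W.map π).Δ ≠ 0) :
    (W.map A.subtype).toAffine.Point →+ (W.map π).toAffine.Point where
  toFun P := Classical.choose (exists_red hΔ P)
  map_zero' := Red.unique (Classical.choose_spec (exists_red hΔ 0)) Red.zero
  map_add' P Q := Red.unique (Classical.choose_spec (exists_red hΔ (P + Q)))
    (Red.add hπ (twoPoly_ne_zero_of_Δ_ne_zero _ hΔ) (Classical.choose_spec (exists_red hΔ P))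
      (Classical.choose_spec (exists_red hΔ Q)))

theorem red_spec [DecidableEq K] [DecidableEq k] [IsAlgClosed K] (hπ : Function.Surjective π)
    (hΔ : (W.map π).Δ ≠ 0) (P : (W.map A.subtype).toAffine.Point) :
    Red A π W P (red hπ hΔ P) :=
  Classical.choose_spec (exists_red hΔ P)

end Hom

section Kernel

variable {K : Type*} [Field K] {k : Type*} [Field k] {A : ValuationSubring K} {π : A →+* k}
  {W : WeierstrassCurve A}

/-- If `P = (x, y)` reduces to `0` then `x ∉ A`; more precisely, a point with `x ∉ A` can only
reduce to `0`. -/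
theorem Red.eq_zero_of_notMem (hπ : Function.Surjective π) {x y : K}
    {h : (W.map A.subtype).toAffine.Nonsingular x y} {Pb : (W.map π).toAffine.Point}
    (hR : Red A π W (.some x y h) Pb) (hx : x ∉ A) : Pb = 0 := by
  obtain ⟨P', hE, hN, hP, rfl⟩ := hR
  by_cases hz : π (P' 2) = 0
  · exact Projective.Point.toAffine_of_Z_eq_zero hz
  · exfalso
    obtain ⟨w, hw⟩ := (isUnit_of_map_ne_zero hπ hz).exists_right_inv
    have hNK := nonsingular_of_red hE hN
    have hzK : (A.subtype ∘ P') 2 ≠ 0 := by
      intro h0
      have h1 : P' 2 = 0 := Subtype.val_injective (by simpa using h0)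
      rw [h1, zero_mul] at hw
      exact zero_ne_one hw
    rw [Projective.Point.toAffine_of_Z_ne_zero hNK hzK, Affine.Point.some.injEq] at hP
    apply hx
    have hw' : ((P' 2 : A) : K) * (w : K) = 1 := by
      have := congrArg (A.subtype) hw
      simpa using this
    have hxe : x = ((P' 0 * w : A) : K) := by
      rw [← hP.1]
      simp only [Function.comp_apply, ValuationSubring.subtype_apply, MulMemClass.coe_mul]
      have hz' : ((P' 2 : A) : K) ≠ 0 := by simpa using hzK
      field_simp
      linear_combination (-(P' 0 : K)) * hw'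
    rw [hxe]
    exact (P' 0 * w).2

variable [DecidableEq K] [DecidableEq k] [IsAlgClosed K]

/-- On points with coordinates in `A` the reduction homomorphism is coordinatewise reduction. -/
theorem red_some (hπ : Function.Surjective π) (hΔ : (W.map π).Δ ≠ 0) (a b : A)
    (hK : (W.map A.subtype).toAffine.Nonsingular (a : K) (b : K)) :
    ∃ hk : (W.map π).toAffine.Nonsingular (π a) (π b),
      red hπ hΔ (.some _ _ hK) = .some _ _ hk := by
  have hE : W.toAffine.Equation a b :=
    (Affine.map_equation (W := W.toAffine) (f := A.subtype) Subtype.val_injective a b).mp hK.1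
  have hk : (W.map π).toAffine.Nonsingular (π a) (π b) :=
    (Affine.equation_iff_nonsingular_of_Δ_ne_zero hΔ).mp (Affine.Equation.map π hE)
  exact ⟨hk, Red.unique (red_spec hπ hΔ _) (Red.some a b hK hk)⟩

/-- Points with non-integral `x`-coordinate reduce to `0`. -/
theorem red_some_of_notMem (hπ : Function.Surjective π) (hΔ : (W.map π).Δ ≠ 0) {x y : K}
    (h : (W.map A.subtype).toAffine.Nonsingular x y) (hx : x ∉ A) :
    red hπ hΔ (.some x y h) = 0 :=
  Red.eq_zero_of_notMem hπ (red_spec hπ hΔ _) hx

/-- Points with integral `x`-coordinate do not reduce to `0`. -/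
theorem red_some_ne_zero_of_mem (hπ : Function.Surjective π) (hΔ : (W.map π).Δ ≠ 0) {x y : K}
    (h : (W.map A.subtype).toAffine.Nonsingular x y) (hx : x ∈ A) :
    red hπ hΔ (.some x y h) ≠ 0 := by
  have hy : y ∈ A := y_mem_of_x_mem hx h.1
  obtain ⟨hk, he⟩ := red_some hπ hΔ ⟨x, hx⟩ ⟨y, hy⟩ h
  rw [he]
  exact Affine.Point.some_ne_zero hk

/-- The kernel of reduction: `0` and the points with non-integral `x`-coordinate. -/
theorem red_eq_zero_iff (hπ : Function.Surjective π) (hΔ : (W.map π).Δ ≠ 0)
    (P : (W.map A.subtype).toAffine.Point) :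
    red hπ hΔ P = 0 ↔ P = 0 ∨ ∃ x y h, P = .some x y h ∧ x ∉ A := by
  constructor
  · intro h0
    rcases P with _ | ⟨x, y, h⟩
    · exact Or.inl rfl
    · refine Or.inr ⟨x, y, h, rfl, fun hx => ?_⟩
      exact red_some_ne_zero_of_mem hπ hΔ h hx h0
  · rintro (rfl | ⟨x, y, h, rfl, hx⟩)
    · exact map_zero _
    · exact red_some_of_notMem hπ hΔ h hx

end Kernel

end Fermat.Agent.S52.helper3042
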