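/-
S52 / (L1) leaf H4 (backup copy, hypothesis-passing on H2/H3):
the curve-level parallelogram law for the "x-height" on the twisted curve
`E_lam : Y² = X³ + A lam² X + B lam³` over `RatFunc k`.

For an arbitrary height function `ht : RatFunc k → ℕ` which
* vanishes on constants,
* satisfies the x-level parallelogram law (H2), and
* satisfies the duplication law (H3),
the point height `ptHt (X, Y) := ht (X / lam)`, `ptHt O := 0` satisfies
`ptHt (P + Q) + ptHt (P - Q) = 2 ptHt P + 2 ptHt Q` for all points `P Q`.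
-/
import Mathlib
import Fermat.Agent.S05.helper1745_XOnly

set_option autoImplicit false

namespace Fermat.Agent.S52.helper1913

open WeierstrassCurve WeierstrassCurve.Affine

variable {k : Type*} [Field k]

/-- The twisted curve `Y² = X³ + A lam² X + B lam³` over `RatFunc k`. -/
noncomputable def twistCurve (A B : k) (lam : RatFunc k) : Affine (RatFunc k) :=
  (⟨0, 0, 0, RatFunc.C A * lam ^ 2, RatFunc.C B * lam ^ 3⟩ : WeierstrassCurve (RatFunc k))

/-- The standard height of a rational function: maximum of the degrees of numerator and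
denominator of the reduced fraction. -/
noncomputable def ratHt (r : RatFunc k) : ℕ := max r.num.natDegree r.denom.natDegree

theorem ratHt_C (c : k) : ratHt (RatFunc.C c) = 0 := by
  simp [ratHt, RatFunc.num_C, RatFunc.denom_C]

/-- A root in `RatFunc k` of the cubic `T³ + A T + B` (constant coefficients) is constant. -/
theorem eq_C_of_cubic_eq_zero (A B : k) (x : RatFunc k)
    (hx : x ^ 3 + RatFunc.C A * x + RatFunc.C B = 0) : ∃ c : k, x = RatFunc.C c := by
  classical
  have hint : IsIntegral (Polynomial k) x := by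
    refine ⟨Polynomial.X ^ 3 + Polynomial.C (Polynomial.C A) * Polynomial.X +
      Polynomial.C (Polynomial.C B), ?_, ?_⟩
    · have h1 : (Polynomial.C (Polynomial.C A) * Polynomial.X +
          Polynomial.C (Polynomial.C B) : Polynomial (Polynomial k)).degree < 3 := by
        refine lt_of_le_of_lt (Polynomial.degree_add_le _ _) (max_lt ?_ ?_)
        · refine lt_of_le_of_lt (Polynomial.degree_C_mul_X_le _) ?_
          norm_num
        · refine lt_of_le_of_lt Polynomial.degree_C_le ?_
          norm_num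
      have := Polynomial.monic_X_pow_add h1
      simpa [add_assoc] using this
    · simp only [Polynomial.eval₂_add, Polynomial.eval₂_mul, Polynomial.eval₂_pow,
        Polynomial.eval₂_X, Polynomial.eval₂_C]
      rw [← hx]
      simp [RatFunc.algebraMap_C]
  obtain ⟨p, hp⟩ := IsIntegrallyClosed.isIntegral_iff.mp hint
  have hinj : Function.Injective (algebraMap (Polynomial k) (RatFunc k)) :=
    IsFractionRing.injective (Polynomial k) (RatFunc k)
  have hp3 : p ^ 3 + Polynomial.C A * p + Polynomial.C B = 0 := by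
    apply hinj
    rw [map_zero, ← hx, ← hp]
    simp [RatFunc.algebraMap_C]
  have hdeg : p.natDegree = 0 := by
    have h3 : p ^ 3 = -(Polynomial.C A * p + Polynomial.C B) := by
      linear_combination hp3
    have h4 : (p ^ 3).natDegree = 3 * p.natDegree := Polynomial.natDegree_pow p 3
    have h5 : (-(Polynomial.C A * p + Polynomial.C B)).natDegree ≤ p.natDegree := by
      rw [Polynomial.natDegree_neg]
      refine le_trans (Polynomial.natDegree_add_le _ _) (max_le ?_ ?_)
      · exact Polynomial.natDegree_C_mul_le _ _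
      · simp
    rw [h3] at h4
    omega
  refine ⟨p.coeff 0, ?_⟩
  rw [← hp, Polynomial.eq_C_of_natDegree_eq_zero hdeg, RatFunc.algebraMap_C]
  simp

section Law

variable {A B : k} {lam : RatFunc k}

theorem twistCurve_b₂ : (twistCurve A B lam).b₂ = 0 := by
  simp [twistCurve, WeierstrassCurve.b₂]

theorem twistCurve_b₄ : (twistCurve A B lam).b₄ = 2 * (RatFunc.C A * lam ^ 2) := by
  simp [twistCurve, WeierstrassCurve.b₄]

theorem twistCurve_b₆ : (twistCurve A B lam).b₆ = 4 * (RatFunc.C B * lam ^ 3) := by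
  simp [twistCurve, WeierstrassCurve.b₆]

theorem twistCurve_b₈ : (twistCurve A B lam).b₈ = -(RatFunc.C A * lam ^ 2) ^ 2 := by
  simp [twistCurve, WeierstrassCurve.b₈]

theorem twistCurve_negY (X Y : RatFunc k) : (twistCurve A B lam).negY X Y = -Y := by
  simp [twistCurve, Affine.negY]

/-- Hypothesis package: a height `ht` on `RatFunc k` and a point height `ptHt` on the twisted
curve compatible with it. -/
structure HtData (A B : k) (lam : RatFunc k) (ht : RatFunc k → ℕ)
    (ptHt : (twistCurve A B lam).Point → ℕ) : Prop where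
  lam_ne : lam ≠ 0
  two_ne : (2 : k) ≠ 0
  ht_C : ∀ c : k, ht (RatFunc.C c) = 0
  ptHt_zero : ptHt 0 = 0
  ptHt_some : ∀ (X Y : RatFunc k) (h : (twistCurve A B lam).Nonsingular X Y),
    ptHt (Point.some X Y h) = ht (X / lam)
  H2 : ∀ x1 x2 x3 x4 : RatFunc k, x1 ≠ x2 →
    (x3 + x4) * (x1 - x2) ^ 2 =
      2 * ((x1 * x2 + RatFunc.C A) * (x1 + x2) + 2 * RatFunc.C B) →
    x3 * x4 * (x1 - x2) ^ 2 = (x1 * x2 - RatFunc.C A) ^ 2 - 4 * RatFunc.C B * (x1 + x2) →
    ht x3 + ht x4 = 2 * ht x1 + 2 * ht x2
  H3 : ∀ x x' : RatFunc k, x ^ 3 + RatFunc.C A * x + RatFunc.C B ≠ 0 →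
    x' * (4 * (x ^ 3 + RatFunc.C A * x + RatFunc.C B)) =
      (x ^ 2 - RatFunc.C A) ^ 2 - 8 * RatFunc.C B * x →
    ht x' = 4 * ht x

variable {ht : RatFunc k → ℕ} {ptHt : (twistCurve A B lam).Point → ℕ}

theorem HtData.ptHt_neg (D : HtData A B lam ht ptHt) (P : (twistCurve A B lam).Point) :
    ptHt (-P) = ptHt P := by
  cases P with
  | zero => rfl
  | some X Y h => rw [Point.neg_some, D.ptHt_some, D.ptHt_some]

variable [DecidableEq (RatFunc k)]

/-- Generic case of the parallelogram law: distinct `X`-coordinates. -/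
theorem HtData.ptHt_add_sub_of_X_ne (D : HtData A B lam ht ptHt) {x₁ y₁ x₂ y₂ : RatFunc k}
    (h₁ : (twistCurve A B lam).Nonsingular x₁ y₁) (h₂ : (twistCurve A B lam).Nonsingular x₂ y₂)
    (hx : x₁ ≠ x₂) :
    ptHt (Point.some x₁ y₁ h₁ + Point.some x₂ y₂ h₂) +
        ptHt (Point.some x₁ y₁ h₁ - Point.some x₂ y₂ h₂) =
      2 * ptHt (Point.some x₁ y₁ h₁) + 2 * ptHt (Point.some x₂ y₂ h₂) := by
  have hlam := D.lam_ne
  obtain ⟨Xp, Yp, Xm, Ym, hp, hm, hadd, hsub, hprod, hsum⟩ :=
    Fermat.Agent.S05.helper1745.exists_add_sub_some h₁ h₂ hx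
  rw [hadd, hsub, D.ptHt_some, D.ptHt_some, D.ptHt_some, D.ptHt_some]
  rw [twistCurve_b₄, twistCurve_b₆, twistCurve_b₈] at hprod
  rw [twistCurve_b₂, twistCurve_b₄, twistCurve_b₆] at hsum
  refine D.H2 (x₁ / lam) (x₂ / lam) (Xp / lam) (Xm / lam) ?_ ?_ ?_
  · intro h
    exact hx ((div_left_inj' hlam).mp h)
  · field_simp
    linear_combination hsum
  · field_simp
    linear_combination hprod

/-- Duplication: `ptHt (P + P) = 4 * ptHt P` for every point. -/
theorem HtData.ptHt_add_self (D : HtData A B lam ht ptHt) (P : (twistCurve A B lam).Point) :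
    ptHt (P + P) = 4 * ptHt P := by
  have hlam := D.lam_ne
  cases P with
  | zero =>
    rw [← Point.zero_def, add_zero, D.ptHt_zero]
  | some X Y h =>
    by_cases hy : Y = (twistCurve A B lam).negY X Y
    · -- 2-torsion point: `X / lam` is a root of `T³ + A T + B`, hence constant.
      rw [Point.add_self_of_Y_eq hy, D.ptHt_zero, D.ptHt_some]
      have h0 := (Fermat.Agent.S05.helper1745.y_eq_negY_iff h.left).mp hy
      rw [twistCurve_b₂, twistCurve_b₄, twistCurve_b₆] at h0
      have h4 : (4 : RatFunc k) ≠ 0 := by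
        have h2 : (2 : RatFunc k) ≠ 0 := by
          have := D.two_ne
          intro h2
          apply this
          have h2' : RatFunc.C (2 : k) = 0 := by
            rw [map_ofNat]; exact h2
          simpa using h2'
        have : (4 : RatFunc k) = 2 * 2 := by norm_num
        rw [this]
        exact mul_ne_zero h2 h2
      have hcub : (X / lam) ^ 3 + RatFunc.C A * (X / lam) + RatFunc.C B = 0 := by
        have h5 : 4 * lam ^ 3 * ((X / lam) ^ 3 + RatFunc.C A * (X / lam) + RatFunc.C B) = 0 := by
          field_simp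
          linear_combination h0
        rcases mul_eq_zero.mp h5 with h6 | h6
        · exact absurd h6 (mul_ne_zero h4 (pow_ne_zero 3 hlam))
        · exact h6
      obtain ⟨c, hc⟩ := eq_C_of_cubic_eq_zero A B (X / lam) hcub
      rw [hc, D.ht_C]
    · obtain ⟨X', Y', h', hadd, hdup, hne⟩ :=
        Fermat.Agent.S05.helper1745.exists_add_self_some h hy
      rw [hadd, D.ptHt_some, D.ptHt_some]
      rw [twistCurve_b₂, twistCurve_b₄, twistCurve_b₆, twistCurve_b₈] at hdup
      rw [twistCurve_b₂, twistCurve_b₄, twistCurve_b₆] at hne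
      refine D.H3 (X / lam) (X' / lam) ?_ ?_
      · intro h0
        apply hne
        have : 4 * X ^ 3 + 0 * X ^ 2 + 2 * (2 * (RatFunc.C A * lam ^ 2)) * X +
            4 * (RatFunc.C B * lam ^ 3) =
            4 * lam ^ 3 * ((X / lam) ^ 3 + RatFunc.C A * (X / lam) + RatFunc.C B) := by
          field_simp
          ring
        rw [this, h0, mul_zero]
      · field_simp
        linear_combination hdup

/-- **Curve-level parallelogram law (H4).** -/
theorem HtData.parallelogram (D : HtData A B lam ht ptHt) (P Q : (twistCurve A B lam).Point) :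
    ptHt (P + Q) + ptHt (P - Q) = 2 * ptHt P + 2 * ptHt Q := by
  cases P with
  | zero =>
    rw [← Point.zero_def, zero_add, zero_sub, D.ptHt_neg, D.ptHt_zero]
    ring
  | some x₁ y₁ h₁ =>
    cases Q with
    | zero =>
      rw [← Point.zero_def, add_zero, sub_zero, D.ptHt_zero]
      ring
    | some x₂ y₂ h₂ =>
      by_cases hx : x₁ = x₂
      · -- `Q = P` or `Q = -P`
        subst hx
        rcases Y_eq_of_X_eq h₁.left h₂.left rfl with hy | hy
        · subst hy
          rw [sub_self, D.ptHt_zero, D.ptHt_add_self]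
          ring
        · have hQ : Point.some x₁ y₂ h₂ = -Point.some x₁ y₁ h₁ := by
            rw [Point.neg_some]
            congr 1
            rw [hy, twistCurve_negY, twistCurve_negY, neg_neg]
          rw [hQ, add_neg_cancel, sub_neg_eq_add, D.ptHt_zero, D.ptHt_add_self, D.ptHt_neg]
          ring
      · exact D.ptHt_add_sub_of_X_ne h₁ h₂ hx

end Law

section Concrete

variable (A B : k) (lam : RatFunc k)

/-- The point height on the twisted curve: `0` at infinity, `ratHt (X / lam)` at `(X, Y)`. -/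
noncomputable def twistPtHt : (twistCurve A B lam).Point → ℕ
  | .zero => 0
  | .some X _ _ => ratHt (X / lam)

theorem twistPtHt_zero : twistPtHt A B lam 0 = 0 := rfl

theorem twistPtHt_some (X Y : RatFunc k) (h : (twistCurve A B lam).Nonsingular X Y) :
    twistPtHt A B lam (Point.some X Y h) = ratHt (X / lam) := rfl

variable {A B lam}

/-- **H4, concrete form**: given the x-level parallelogram law (H2) and the duplication law (H3)
for the standard height `max (natDegree num) (natDegree denom)` on `RatFunc k`, the point height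
on `Y² = X³ + A lam² X + B lam³` satisfies the parallelogram law. -/
theorem twistPtHt_parallelogram [DecidableEq (RatFunc k)] (hlam : lam ≠ 0) (h2 : (2 : k) ≠ 0)
    (H2 : ∀ x1 x2 x3 x4 : RatFunc k, x1 ≠ x2 →
      (x3 + x4) * (x1 - x2) ^ 2 =
        2 * ((x1 * x2 + RatFunc.C A) * (x1 + x2) + 2 * RatFunc.C B) →
      x3 * x4 * (x1 - x2) ^ 2 = (x1 * x2 - RatFunc.C A) ^ 2 - 4 * RatFunc.C B * (x1 + x2) →
      max x3.num.natDegree x3.denom.natDegree + max x4.num.natDegree x4.denom.natDegree =
        2 * max x1.num.natDegree x1.denom.natDegree +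
          2 * max x2.num.natDegree x2.denom.natDegree)
    (H3 : ∀ x x' : RatFunc k, x ^ 3 + RatFunc.C A * x + RatFunc.C B ≠ 0 →
      x' * (4 * (x ^ 3 + RatFunc.C A * x + RatFunc.C B)) =
        (x ^ 2 - RatFunc.C A) ^ 2 - 8 * RatFunc.C B * x →
      max x'.num.natDegree x'.denom.natDegree = 4 * max x.num.natDegree x.denom.natDegree)
    (P Q : (twistCurve A B lam).Point) :
    twistPtHt A B lam (P + Q) + twistPtHt A B lam (P - Q) =
      2 * twistPtHt A B lam P + 2 * twistPtHt A B lam Q :=
  HtData.parallelogram (ht := ratHt) (ptHt := twistPtHt A B lam)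
    { lam_ne := hlam
      two_ne := h2
      ht_C := ratHt_C
      ptHt_zero := rfl
      ptHt_some := fun _ _ _ => rfl
      H2 := H2
      H3 := H3 } P Q

/-- The same statement for an arbitrary point height on the literal Weierstrass curve
`⟨0, 0, 0, C A * lam ^ 2, C B * lam ^ 3⟩` (no custom definitions in the statement). -/
theorem parallelogram_of_H2_H3 [DecidableEq (RatFunc k)] (hlam : lam ≠ 0) (h2 : (2 : k) ≠ 0)
    (ptHt : (⟨0, 0, 0, RatFunc.C A * lam ^ 2, RatFunc.C B * lam ^ 3⟩ :
      WeierstrassCurve (RatFunc k)).toAffine.Point → ℕ)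
    (h0 : ptHt 0 = 0)
    (hsome : ∀ (X Y : RatFunc k) (h : (⟨0, 0, 0, RatFunc.C A * lam ^ 2, RatFunc.C B * lam ^ 3⟩ :
      WeierstrassCurve (RatFunc k)).toAffine.Nonsingular X Y),
      ptHt (Point.some X Y h) = max (X / lam).num.natDegree (X / lam).denom.natDegree)
    (H2 : ∀ x1 x2 x3 x4 : RatFunc k, x1 ≠ x2 →
      (x3 + x4) * (x1 - x2) ^ 2 =
        2 * ((x1 * x2 + RatFunc.C A) * (x1 + x2) + 2 * RatFunc.C B) →
      x3 * x4 * (x1 - x2) ^ 2 = (x1 * x2 - RatFunc.C A) ^ 2 - 4 * RatFunc.C B * (x1 + x2) →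
      max x3.num.natDegree x3.denom.natDegree + max x4.num.natDegree x4.denom.natDegree =
        2 * max x1.num.natDegree x1.denom.natDegree +
          2 * max x2.num.natDegree x2.denom.natDegree)
    (H3 : ∀ x x' : RatFunc k, x ^ 3 + RatFunc.C A * x + RatFunc.C B ≠ 0 →
      x' * (4 * (x ^ 3 + RatFunc.C A * x + RatFunc.C B)) =
        (x ^ 2 - RatFunc.C A) ^ 2 - 8 * RatFunc.C B * x →
      max x'.num.natDegree x'.denom.natDegree = 4 * max x.num.natDegree x.denom.natDegree)
    (P Q : (⟨0, 0, 0, RatFunc.C A * lam ^ 2, RatFunc.C B * lam ^ 3⟩ :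
      WeierstrassCurve (RatFunc k)).toAffine.Point) :
    ptHt (P + Q) + ptHt (P - Q) = 2 * ptHt P + 2 * ptHt Q :=
  HtData.parallelogram (A := A) (B := B) (lam := lam) (ht := ratHt) (ptHt := ptHt)
    { lam_ne := hlam
      two_ne := h2
      ht_C := ratHt_C
      ptHt_zero := h0
      ptHt_some := hsome
      H2 := H2
      H3 := H3 } P Q

end Concrete

end Fermat.Agent.S52.helper1913
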