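/-
The Manin count (leaf H8 of the Frobenius Cayley–Hamilton route for S52).

For a prime `ℓ ≥ 3`, `A B : ZMod ℓ` with `4A³+27B² ≠ 0`, `f = X³ + A X + B`, `m = ℓ / 2`,
  `maninNum = f (f^m + 1)² - (X^ℓ + X)(X^ℓ - X)²`,  `maninDen = (X^ℓ - X)²`,
the reduced fraction `maninFrac = maninNum / maninDen` (an element of `RatFunc (ZMod ℓ)`) has
height (max of the degrees of numerator and denominator) equal to the number of points of
`y² = x³ + A x + B` over `ZMod ℓ`, the point at infinity included.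

Main results:
* `manin_height`              : `max num.natDegree denom.natDegree = Nat.card E(ZMod ℓ)`
* `manin_num_denom_natDegree` : `num.natDegree = Nat.card E`, `denom.natDegree + 1 = Nat.card E`
* `manin_natDegree_gcd`       : `(gcd maninNum maninDen).natDegree + Nat.card E = 2 ℓ + 1`
* `card_point_eq`             : `Nat.card E = 1 + ∑ c, #{y | y² = c³ + A c + B}`
* `maninFrac_eq_slope_formula`: `maninFrac = λ ((λ^m + 1)/(t^ℓ - t))² - t^ℓ - t`, `λ = f(t)`,
  i.e. the `x`-coordinate of `F P₀ - P₀` on the twisted curve `λ y² = f(x)`.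
-/
import Mathlib

set_option autoImplicit false

namespace Fermat.Agent.S52.helper2468

open Polynomial

section HeightOfCoprime

variable {k : Type*} [Field k]

/-- The height of a reduced fraction. -/
theorem natDegree_num_denom_of_isCoprime {p q : k[X]} (hq : q ≠ 0) (hpq : IsCoprime p q) :
    (algebraMap k[X] (RatFunc k) p / algebraMap k[X] (RatFunc k) q).num.natDegree = p.natDegree ∧
    (algebraMap k[X] (RatFunc k) p / algebraMap k[X] (RatFunc k) q).denom.natDegree
      = q.natDegree := by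
  set x : RatFunc k := algebraMap k[X] (RatFunc k) p / algebraMap k[X] (RatFunc k) q with hx
  have h1 : x.num * q = p * x.denom := (RatFunc.num_mul_eq_mul_denom_iff hq).mpr hx
  have hc := RatFunc.isCoprime_num_denom x
  have hd1 : x.num ∣ p := hc.dvd_of_dvd_mul_right (Dvd.intro _ h1)
  have hd2 : p ∣ x.num := hpq.dvd_of_dvd_mul_right (Dvd.intro _ h1.symm)
  have hd3 : x.denom ∣ q := hc.symm.dvd_of_dvd_mul_left (Dvd.intro_left _ h1.symm)
  have hd4 : q ∣ x.denom := hpq.symm.dvd_of_dvd_mul_left (Dvd.intro_left _ h1)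
  exact ⟨natDegree_eq_of_degree_eq (degree_eq_degree_of_associated (associated_of_dvd_dvd hd1 hd2)),
    natDegree_eq_of_degree_eq (degree_eq_degree_of_associated (associated_of_dvd_dvd hd3 hd4))⟩

end HeightOfCoprime

section Manin

variable {ℓ : ℕ} [hℓ : Fact ℓ.Prime]

/-- The cubic `X³ + A X + B`. -/
noncomputable def cubic (A B : ZMod ℓ) : (ZMod ℓ)[X] := X ^ 3 + C A * X + C B

/-- Numerator of `x(F P₀ - P₀)` before reduction. -/
noncomputable def maninNum (A B : ZMod ℓ) : (ZMod ℓ)[X] :=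
  cubic A B * (cubic A B ^ (ℓ / 2) + 1) ^ 2 - (X ^ ℓ + X) * (X ^ ℓ - X) ^ 2

/-- Denominator of `x(F P₀ - P₀)` before reduction. -/
noncomputable def maninDen (ℓ : ℕ) : (ZMod ℓ)[X] := (X ^ ℓ - X) ^ 2

theorem cubic_eval (A B c : ZMod ℓ) : (cubic A B).eval c = c ^ 3 + A * c + B := by
  simp [cubic]

theorem cubic_natDegree (A B : ZMod ℓ) : (cubic A B).natDegree = 3 := by
  unfold cubic
  compute_degree!

theorem cubic_pow_card (A B : ZMod ℓ) :
    cubic A B ^ ℓ = (X ^ ℓ) ^ 3 + C A * X ^ ℓ + C B := by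
  rw [← ZMod.expand_card]
  simp [cubic]

theorem two_mul_div_two_add_one (hodd : ℓ ≠ 2) : 2 * (ℓ / 2) + 1 = ℓ := by
  have := hℓ.out.eq_two_or_odd
  omega

/-- The key expansion of the numerator. -/
theorem maninNum_eq (hodd : ℓ ≠ 2) (A B : ZMod ℓ) :
    maninNum A B = X ^ (2 * ℓ + 1) +
      (2 * cubic A B ^ (ℓ / 2 + 1) + X ^ (ℓ + 2) + C A * X ^ ℓ + C A * X + C (2 * B)) := by
  have h1 : cubic A B * (cubic A B ^ (ℓ / 2)) ^ 2 = (X ^ ℓ) ^ 3 + C A * X ^ ℓ + C B := by
    rw [← cubic_pow_card]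
    have e : cubic A B ^ ℓ = cubic A B ^ (2 * (ℓ / 2) + 1) := by
      rw [two_mul_div_two_add_one hodd]
    rw [e]
    ring
  have h2 : cubic A B = X ^ 3 + C A * X + C B := rfl
  have h3 : (C (2 * B) : (ZMod ℓ)[X]) = 2 * C B := by rw [two_mul, two_mul, C_add]
  rw [h3]
  unfold maninNum
  linear_combination h1 + (1 : (ZMod ℓ)[X]) * h2

theorem three_le_of_odd (hodd : ℓ ≠ 2) : 3 ≤ ℓ := by
  have := hℓ.out.two_le
  omega

theorem maninNum_rest_natDegree_le (hodd : ℓ ≠ 2) (A B : ZMod ℓ) :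
    (2 * cubic A B ^ (ℓ / 2 + 1) + X ^ (ℓ + 2) + C A * X ^ ℓ + C A * X + C (2 * B)).natDegree
      ≤ 2 * ℓ := by
  have hl := two_mul_div_two_add_one hodd
  have hl3 := three_le_of_odd hodd
  have h1 : (cubic A B ^ (ℓ / 2 + 1)).natDegree ≤ 2 * ℓ := by
    refine (natDegree_pow_le).trans ?_
    rw [cubic_natDegree]; omega
  have h2 : (2 * cubic A B ^ (ℓ / 2 + 1)).natDegree ≤ 2 * ℓ := by
    rw [two_mul]
    exact natDegree_add_le_of_degree_le h1 h1
  have h3 : (X ^ (ℓ + 2) : (ZMod ℓ)[X]).natDegree ≤ 2 * ℓ := by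
    rw [natDegree_X_pow]; omega
  have h4 : (C A * X ^ ℓ : (ZMod ℓ)[X]).natDegree ≤ 2 * ℓ := by
    refine (natDegree_C_mul_le _ _).trans ?_
    rw [natDegree_X_pow]; omega
  have h5 : (C A * X : (ZMod ℓ)[X]).natDegree ≤ 2 * ℓ := by
    refine (natDegree_C_mul_le _ _).trans ?_
    rw [natDegree_X]; omega
  have h6 : (C (2 * B) : (ZMod ℓ)[X]).natDegree ≤ 2 * ℓ := by
    rw [natDegree_C]; omega
  exact natDegree_add_le_of_degree_le (natDegree_add_le_of_degree_le
    (natDegree_add_le_of_degree_le (natDegree_add_le_of_degree_le h2 h3) h4) h5) h6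

theorem maninNum_natDegree (hodd : ℓ ≠ 2) (A B : ZMod ℓ) :
    (maninNum A B).natDegree = 2 * ℓ + 1 := by
  rw [maninNum_eq hodd, natDegree_add_eq_left_of_natDegree_lt, natDegree_X_pow]
  rw [natDegree_X_pow]
  exact Nat.lt_succ_of_le (maninNum_rest_natDegree_le hodd A B)

theorem maninNum_monic (hodd : ℓ ≠ 2) (A B : ZMod ℓ) : (maninNum A B).Monic := by
  rw [maninNum_eq hodd]
  apply monic_X_pow_add
  exact lt_of_le_of_lt degree_le_natDegree
    (by exact_mod_cast Nat.lt_succ_of_le (maninNum_rest_natDegree_le hodd A B))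

theorem maninNum_ne_zero (hodd : ℓ ≠ 2) (A B : ZMod ℓ) : maninNum A B ≠ 0 :=
  (maninNum_monic hodd A B).ne_zero

theorem maninDen_natDegree (ℓ : ℕ) [hℓ : Fact ℓ.Prime] : (maninDen ℓ).natDegree = 2 * ℓ := by
  unfold maninDen
  rw [natDegree_pow, FiniteField.X_pow_card_sub_X_natDegree_eq _ hℓ.out.one_lt]

theorem maninDen_ne_zero (ℓ : ℕ) [hℓ : Fact ℓ.Prime] : maninDen ℓ ≠ 0 :=
  pow_ne_zero _ (FiniteField.X_pow_card_sub_X_ne_zero _ hℓ.out.one_lt)

/-- `X^ℓ - X` is the product of all linear factors. -/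
theorem X_pow_sub_X_eq_prod (ℓ : ℕ) [hℓ : Fact ℓ.Prime] :
    (X ^ ℓ - X : (ZMod ℓ)[X]) = ∏ c : ZMod ℓ, (X - C c) := by
  have hroots : (X ^ ℓ - X : (ZMod ℓ)[X]).roots = Finset.univ.val := by
    have := FiniteField.roots_X_pow_card_sub_X (ZMod ℓ)
    rwa [ZMod.card] at this
  have hmonic : (X ^ ℓ - X : (ZMod ℓ)[X]).Monic :=
    monic_X_pow_sub (by rw [degree_X]; exact_mod_cast hℓ.out.one_lt)
  have hcard : Multiset.card (X ^ ℓ - X : (ZMod ℓ)[X]).roots
      = (X ^ ℓ - X : (ZMod ℓ)[X]).natDegree := by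
    rw [hroots, FiniteField.X_pow_card_sub_X_natDegree_eq _ hℓ.out.one_lt]
    simp [ZMod.card]
  have := prod_multiset_X_sub_C_of_monic_of_roots_card_eq hmonic hcard
  rw [hroots] at this
  rw [← this]
  rfl

theorem two_ne_zero_of_odd (hodd : ℓ ≠ 2) : (2 : ZMod ℓ) ≠ 0 := by
  intro h
  have h2 : ((2 : ℕ) : ZMod ℓ) = 0 := by exact_mod_cast h
  have h3 : ℓ ∣ 2 := (ZMod.natCast_eq_zero_iff 2 ℓ).mp h2
  have h4 := Nat.le_of_dvd (by norm_num) h3
  have h5 := three_le_of_odd hodd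
  omega

theorem X_sub_C_dvd_X_pow_sub_X (c : ZMod ℓ) : (X - C c) ∣ (X ^ ℓ - X : (ZMod ℓ)[X]) := by
  rw [dvd_iff_isRoot]
  simp [ZMod.pow_card]

/-- The exponent of `X - c` in the common factor of `maninNum` and `maninDen`. -/
noncomputable def maninExp (A B c : ZMod ℓ) : ℕ :=
  open Classical in
  if c ^ 3 + A * c + B = 0 then 1 else if IsSquare (c ^ 3 + A * c + B) then 0 else 2

theorem maninExp_le_two (A B c : ZMod ℓ) : maninExp A B c ≤ 2 := by
  unfold maninExp
  split_ifs <;> omega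

theorem pow_half_eq_neg_one {a : ZMod ℓ} (ha : a ≠ 0) (hsq : ¬ IsSquare a) :
    a ^ (ℓ / 2) = -1 := by
  rcases ZMod.pow_div_two_eq_neg_one_or_one ℓ ha with h | h
  · exact absurd ((ZMod.euler_criterion ℓ ha).mpr h) hsq
  · exact h

theorem pow_half_eq_one {a : ZMod ℓ} (ha : a ≠ 0) (hsq : IsSquare a) :
    a ^ (ℓ / 2) = 1 := (ZMod.euler_criterion ℓ ha).mp hsq

/-- Local divisibility of the numerator. -/
theorem X_sub_C_pow_maninExp_dvd (A B c : ZMod ℓ) :
    (X - C c) ^ maninExp A B c ∣ maninNum A B := by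
  have hX := X_sub_C_dvd_X_pow_sub_X c
  unfold maninExp
  split_ifs with h0 hsq
  · -- `f(c) = 0`
    rw [pow_one]
    have h1 : (X - C c) ∣ cubic A B := by
      rw [dvd_iff_isRoot, IsRoot, cubic_eval]; exact h0
    exact dvd_sub (Dvd.dvd.mul_right h1 _)
      (Dvd.dvd.mul_left (dvd_pow hX two_ne_zero) _)
  · simp
  · -- `f(c)` a non-square
    have h1 : (X - C c) ∣ cubic A B ^ (ℓ / 2) + 1 := by
      rw [dvd_iff_isRoot, IsRoot, eval_add, eval_pow, cubic_eval, eval_one,
        pow_half_eq_neg_one h0 hsq]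
      ring
    exact dvd_sub (Dvd.dvd.mul_left (pow_dvd_pow_of_dvd h1 2) _)
      (Dvd.dvd.mul_left (pow_dvd_pow_of_dvd hX 2) _)

/-- A double root of the cubic forces the discriminant to vanish. -/
theorem not_sq_dvd_cubic {A B : ZMod ℓ} (hΔ : 4 * A ^ 3 + 27 * B ^ 2 ≠ 0) (c : ZMod ℓ) :
    ¬ (X - C c) ^ 2 ∣ cubic A B := by
  rintro ⟨g, hg⟩
  have h0 : c ^ 3 + A * c + B = 0 := by
    have := congrArg (fun p => p.eval c) hg
    simpa [cubic] using this
  have h1 : 3 * c ^ 2 + A = 0 := by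
    have := congrArg (fun p => (derivative p).eval c) hg
    simp only [cubic, derivative_add, derivative_mul, derivative_C,
      derivative_X, derivative_pow, derivative_sub, eval_add, eval_mul, eval_pow, eval_sub,
      eval_X, eval_C, sub_self] at this
    norm_num at this
    linear_combination this
  apply hΔ
  have hA : A = -3 * c ^ 2 := by linear_combination h1
  have hB : B = 2 * c ^ 3 := by linear_combination h0 - c * h1
  rw [hA, hB]; ring

/-- Local exactness of the exponent at places where it is `< 2`. -/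
theorem not_X_sub_C_pow_succ_dvd (hodd : ℓ ≠ 2) {A B : ZMod ℓ}
    (hΔ : 4 * A ^ 3 + 27 * B ^ 2 ≠ 0) (c : ZMod ℓ) (hlt : maninExp A B c < 2) :
    ¬ (X - C c) ^ (maninExp A B c + 1) ∣ maninNum A B := by
  have hX := X_sub_C_dvd_X_pow_sub_X c
  have hm : ℓ / 2 ≠ 0 := by
    have := three_le_of_odd hodd
    omega
  unfold maninExp at hlt ⊢
  split_ifs at hlt ⊢ with h0 hsq
  · -- `f(c) = 0`: the multiplicity is exactly one
    intro hdvd
    have h2 : (X - C c) ^ 2 ∣ (X ^ ℓ + X) * (X ^ ℓ - X : (ZMod ℓ)[X]) ^ 2 :=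
      Dvd.dvd.mul_left (pow_dvd_pow_of_dvd hX 2) _
    have h3 : (X - C c) ^ 2 ∣ cubic A B * (cubic A B ^ (ℓ / 2) + 1) ^ 2 := by
      have := dvd_add hdvd h2
      unfold maninNum at this
      simpa using this
    have hcop : IsCoprime ((X - C c) ^ 2) ((cubic A B ^ (ℓ / 2) + 1) ^ 2) := by
      apply IsCoprime.pow
      rw [(irreducible_X_sub_C c).coprime_iff_not_dvd, dvd_iff_isRoot, IsRoot, eval_add,
        eval_pow, cubic_eval, eval_one, h0, zero_pow hm]
      simp
    exact not_sq_dvd_cubic hΔ c (hcop.dvd_of_dvd_mul_right h3)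
  · -- `f(c)` a nonzero square: the numerator does not vanish at `c`
    rw [zero_add, pow_one, dvd_iff_isRoot, IsRoot]
    unfold maninNum
    rw [eval_sub, eval_mul, eval_pow, eval_add, eval_pow, cubic_eval, eval_one,
      pow_half_eq_one h0 hsq]
    simp only [eval_mul, eval_add, eval_pow, eval_X, eval_sub, ZMod.pow_card, sub_self]
    have h2 := two_ne_zero_of_odd hodd
    intro h
    have h4 : (c ^ 3 + A * c + B) * 2 ^ 2 = 0 := by linear_combination h
    rcases mul_eq_zero.mp h4 with h5 | h5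
    · exact h0 h5
    · exact h2 (pow_eq_zero_iff (two_ne_zero) |>.mp h5)
  · omega

/-- The common factor of `maninNum` and `maninDen`. -/
noncomputable def maninGcd (A B : ZMod ℓ) : (ZMod ℓ)[X] :=
  ∏ c : ZMod ℓ, (X - C c) ^ maninExp A B c

/-- The complementary factor of the denominator. -/
noncomputable def maninDenRed (A B : ZMod ℓ) : (ZMod ℓ)[X] :=
  ∏ c : ZMod ℓ, (X - C c) ^ (2 - maninExp A B c)

theorem maninGcd_ne_zero (A B : ZMod ℓ) : maninGcd A B ≠ 0 :=
  Finset.prod_ne_zero_iff.mpr fun c _ => pow_ne_zero _ (X_sub_C_ne_zero c)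

theorem maninGcd_natDegree (A B : ZMod ℓ) :
    (maninGcd A B).natDegree = ∑ c : ZMod ℓ, maninExp A B c := by
  unfold maninGcd
  rw [natDegree_prod _ _ fun c _ => pow_ne_zero _ (X_sub_C_ne_zero c)]
  refine Finset.sum_congr rfl fun c _ => ?_
  rw [natDegree_pow, natDegree_X_sub_C, mul_one]

theorem maninGcd_mul_maninDenRed (A B : ZMod ℓ) :
    maninGcd A B * maninDenRed A B = maninDen ℓ := by
  unfold maninGcd maninDenRed maninDen
  rw [X_pow_sub_X_eq_prod, ← Finset.prod_mul_distrib, ← Finset.prod_pow]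
  refine Finset.prod_congr rfl fun c _ => ?_
  rw [← pow_add]
  congr 1
  have := maninExp_le_two A B c
  omega

theorem maninGcd_dvd_maninNum (A B : ZMod ℓ) : maninGcd A B ∣ maninNum A B := by
  unfold maninGcd
  refine Finset.prod_dvd_of_coprime ?_ fun c _ => X_sub_C_pow_maninExp_dvd A B c
  intro c _ d _ hcd
  exact IsCoprime.pow (pairwise_coprime_X_sub_C (K := ZMod ℓ) Function.injective_id hcd)

/-- The reduced numerator. -/
noncomputable def maninNumRed (A B : ZMod ℓ) : (ZMod ℓ)[X] :=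
  (maninGcd_dvd_maninNum A B).choose

theorem maninGcd_mul_maninNumRed (A B : ZMod ℓ) :
    maninGcd A B * maninNumRed A B = maninNum A B :=
  (maninGcd_dvd_maninNum A B).choose_spec.symm

theorem isCoprime_maninNumRed_maninDenRed (hodd : ℓ ≠ 2) {A B : ZMod ℓ}
    (hΔ : 4 * A ^ 3 + 27 * B ^ 2 ≠ 0) : IsCoprime (maninNumRed A B) (maninDenRed A B) := by
  unfold maninDenRed
  refine IsCoprime.prod_right fun c _ => ?_
  by_cases h2 : maninExp A B c = 2
  · rw [h2]; simpa using isCoprime_one_right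
  have hlt : maninExp A B c < 2 := lt_of_le_of_ne (maninExp_le_two A B c) h2
  apply IsCoprime.pow_right
  rw [isCoprime_comm, (irreducible_X_sub_C c).coprime_iff_not_dvd]
  intro hdvd
  apply not_X_sub_C_pow_succ_dvd hodd hΔ c hlt
  rw [← maninGcd_mul_maninNumRed, pow_succ]
  refine mul_dvd_mul ?_ hdvd
  exact Finset.dvd_prod_of_mem (fun c => (X - C c) ^ maninExp A B c) (Finset.mem_univ c)

theorem maninNumRed_natDegree (hodd : ℓ ≠ 2) (A B : ZMod ℓ) :
    (maninNumRed A B).natDegree + (maninGcd A B).natDegree = 2 * ℓ + 1 := by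
  have h := maninGcd_mul_maninNumRed A B
  have hne : maninNumRed A B ≠ 0 := by
    intro h0
    rw [h0, mul_zero] at h
    exact maninNum_ne_zero hodd A B h.symm
  rw [← maninNum_natDegree hodd A B, ← h, natDegree_mul (maninGcd_ne_zero A B) hne, add_comm]

theorem maninDenRed_ne_zero (A B : ZMod ℓ) : maninDenRed A B ≠ 0 :=
  Finset.prod_ne_zero_iff.mpr fun c _ => pow_ne_zero _ (X_sub_C_ne_zero c)

theorem maninDenRed_natDegree (A B : ZMod ℓ) :
    (maninDenRed A B).natDegree + (maninGcd A B).natDegree = 2 * ℓ := by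
  rw [← maninDen_natDegree ℓ, ← maninGcd_mul_maninDenRed A B,
    natDegree_mul (maninGcd_ne_zero A B) (maninDenRed_ne_zero A B), add_comm]

/-- The Manin fraction in `RatFunc`. -/
noncomputable def maninFrac (A B : ZMod ℓ) : RatFunc (ZMod ℓ) :=
  algebraMap (ZMod ℓ)[X] (RatFunc (ZMod ℓ)) (maninNum A B) /
    algebraMap (ZMod ℓ)[X] (RatFunc (ZMod ℓ)) (maninDen ℓ)

theorem maninFrac_eq_red (A B : ZMod ℓ) :
    maninFrac A B = algebraMap (ZMod ℓ)[X] (RatFunc (ZMod ℓ)) (maninNumRed A B) /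
      algebraMap (ZMod ℓ)[X] (RatFunc (ZMod ℓ)) (maninDenRed A B) := by
  unfold maninFrac
  rw [← maninGcd_mul_maninNumRed, ← maninGcd_mul_maninDenRed A B, map_mul, map_mul,
    mul_div_mul_left]
  exact RatFunc.algebraMap_ne_zero (maninGcd_ne_zero A B)

/-- Degrees of numerator and denominator of the reduced Manin fraction. -/
theorem maninFrac_num_denom_natDegree (hodd : ℓ ≠ 2) {A B : ZMod ℓ}
    (hΔ : 4 * A ^ 3 + 27 * B ^ 2 ≠ 0) :
    (maninFrac A B).num.natDegree + ∑ c : ZMod ℓ, maninExp A B c = 2 * ℓ + 1 ∧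
    (maninFrac A B).denom.natDegree + ∑ c : ZMod ℓ, maninExp A B c = 2 * ℓ := by
  rw [maninFrac_eq_red, ← maninGcd_natDegree]
  obtain ⟨h1, h2⟩ := natDegree_num_denom_of_isCoprime (maninDenRed_ne_zero A B)
    (isCoprime_maninNumRed_maninDenRed hodd hΔ)
  rw [h1, h2]
  exact ⟨maninNumRed_natDegree hodd A B, maninDenRed_natDegree A B⟩

/-- Number of square roots plus the local exponent is `2`. -/
theorem card_sqrt_add_maninExp (hodd : ℓ ≠ 2) (A B c : ZMod ℓ) :
    (Finset.univ.filter (fun y : ZMod ℓ => y ^ 2 = c ^ 3 + A * c + B)).card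
      + maninExp A B c = 2 := by
  classical
  have hchar : ringChar (ZMod ℓ) ≠ 2 := by rwa [ZMod.ringChar_zmod_n]
  have h := quadraticChar_card_sqrts hchar (c ^ 3 + A * c + B)
  rw [Set.toFinset_ofPred] at h
  unfold maninExp
  split_ifs with h0 hsq
  · rw [h0, MulChar.map_zero] at h
    rw [h0]
    omega
  · rw [(quadraticChar_one_iff_isSquare h0).mpr hsq] at h
    omega
  · rw [quadraticChar_neg_one_iff_not_isSquare.mpr hsq] at h
    omega

/-- The point count of the short Weierstrass curve as a sum of numbers of square roots. -/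
theorem card_point_eq (hodd : ℓ ≠ 2) {A B : ZMod ℓ} (hΔ : 4 * A ^ 3 + 27 * B ^ 2 ≠ 0) :
    Nat.card (⟨0, 0, 0, A, B⟩ : WeierstrassCurve (ZMod ℓ)).toAffine.Point
      = 1 + ∑ c : ZMod ℓ,
          (Finset.univ.filter (fun y : ZMod ℓ => y ^ 2 = c ^ 3 + A * c + B)).card := by
  classical
  set W : WeierstrassCurve (ZMod ℓ) := ⟨0, 0, 0, A, B⟩ with hW
  have hWΔ : W.Δ ≠ 0 := by
    have h1 : W.Δ = -(2 ^ 4 * (4 * A ^ 3 + 27 * B ^ 2)) := by
      simp only [hW, WeierstrassCurve.Δ, WeierstrassCurve.b₂, WeierstrassCurve.b₄,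
        WeierstrassCurve.b₆, WeierstrassCurve.b₈]
      ring
    rw [h1]
    exact neg_ne_zero.mpr (mul_ne_zero (pow_ne_zero _ (two_ne_zero_of_odd hodd)) hΔ)
  have e1 : W.toAffine.Point ≃
      Option {xy : ZMod ℓ × ZMod ℓ // xy.2 ^ 2 = xy.1 ^ 3 + A * xy.1 + B} :=
    (WeierstrassCurve.Affine.nonsingularPointEquiv W.toAffine).trans
      (Equiv.optionCongr (Equiv.subtypeEquivRight (fun xy => by
        rw [← WeierstrassCurve.Affine.equation_iff_nonsingular_of_Δ_ne_zero hWΔ,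
          WeierstrassCurve.Affine.equation_iff]
        simp [hW])))
  rw [Nat.card_congr e1, Nat.card_eq_fintype_card, Fintype.card_option,
    Fintype.card_congr
      (Equiv.subtypeProdEquivSigmaSubtype (fun x y : ZMod ℓ => y ^ 2 = x ^ 3 + A * x + B)),
    Fintype.card_sigma, add_comm]
  congr 1
  refine Finset.sum_congr rfl fun c _ => ?_
  rw [Fintype.card_subtype]

/-- **Manin count** (degrees): the reduced numerator of `maninFrac` has degree `#E(𝔽_ℓ)`, and the
reduced denominator has degree `#E(𝔽_ℓ) - 1`. -/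
theorem manin_num_denom_natDegree (hodd : ℓ ≠ 2) {A B : ZMod ℓ}
    (hΔ : 4 * A ^ 3 + 27 * B ^ 2 ≠ 0) :
    (maninFrac A B).num.natDegree
        = Nat.card (⟨0, 0, 0, A, B⟩ : WeierstrassCurve (ZMod ℓ)).toAffine.Point ∧
    (maninFrac A B).denom.natDegree + 1
        = Nat.card (⟨0, 0, 0, A, B⟩ : WeierstrassCurve (ZMod ℓ)).toAffine.Point := by
  obtain ⟨h1, h2⟩ := maninFrac_num_denom_natDegree hodd hΔ
  have h3 : ∑ c : ZMod ℓ,
      (Finset.univ.filter (fun y : ZMod ℓ => y ^ 2 = c ^ 3 + A * c + B)).card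
        + ∑ c : ZMod ℓ, maninExp A B c = 2 * ℓ := by
    rw [← Finset.sum_add_distrib, Finset.sum_congr rfl
      (fun c _ => card_sqrt_add_maninExp hodd A B c), Finset.sum_const, Finset.card_univ,
      ZMod.card, smul_eq_mul, mul_comm]
  rw [card_point_eq hodd hΔ]
  omega

/-- **Manin count** (height form): the height of the reduced fraction
`(f (f^m+1)² - (X^ℓ+X)(X^ℓ-X)²) / (X^ℓ-X)²` is the number of points of `y² = x³ + A x + B`
over `ZMod ℓ`. -/
theorem manin_height (hodd : ℓ ≠ 2) {A B : ZMod ℓ} (hΔ : 4 * A ^ 3 + 27 * B ^ 2 ≠ 0) :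
    max (maninFrac A B).num.natDegree (maninFrac A B).denom.natDegree
      = Nat.card (⟨0, 0, 0, A, B⟩ : WeierstrassCurve (ZMod ℓ)).toAffine.Point := by
  obtain ⟨h1, h2⟩ := manin_num_denom_natDegree hodd hΔ
  omega

/-- `gcd` form of the Manin count. -/
theorem manin_natDegree_gcd (hodd : ℓ ≠ 2) {A B : ZMod ℓ} (hΔ : 4 * A ^ 3 + 27 * B ^ 2 ≠ 0) :
    (EuclideanDomain.gcd (maninNum A B) (maninDen ℓ)).natDegree
      + Nat.card (⟨0, 0, 0, A, B⟩ : WeierstrassCurve (ZMod ℓ)).toAffine.Point = 2 * ℓ + 1 := by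
  have hass : Associated (EuclideanDomain.gcd (maninNum A B) (maninDen ℓ)) (maninGcd A B) := by
    apply associated_of_dvd_dvd
    · obtain ⟨u, v, huv⟩ := isCoprime_maninNumRed_maninDenRed hodd hΔ
      have h1 : maninGcd A B = u * maninNum A B + v * maninDen ℓ := by
        rw [← maninGcd_mul_maninNumRed, ← maninGcd_mul_maninDenRed A B]
        linear_combination (-maninGcd A B) * huv
      rw [h1]
      exact dvd_add (Dvd.dvd.mul_left (EuclideanDomain.gcd_dvd_left _ _) _)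
        (Dvd.dvd.mul_left (EuclideanDomain.gcd_dvd_right _ _) _)
    · exact EuclideanDomain.dvd_gcd (maninGcd_dvd_maninNum A B)
        (Dvd.intro _ (maninGcd_mul_maninDenRed A B))
  rw [natDegree_eq_of_degree_eq (degree_eq_degree_of_associated hass)]
  have h1 := maninNumRed_natDegree hodd A B
  have h2 := (manin_num_denom_natDegree hodd hΔ).1
  rw [maninFrac_eq_red,
    (natDegree_num_denom_of_isCoprime (maninDenRed_ne_zero A B)
      (isCoprime_maninNumRed_maninDenRed hodd hΔ)).1] at h2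
  omega

/-- The Manin fraction is `λ s² - t^ℓ - t` with slope `s = (λ^m + 1)/(t^ℓ - t)`, `λ = f(t)`:
this is the `x`-coordinate of `F P₀ - P₀` on `λ y² = f(x)`. -/
theorem maninFrac_eq_slope_formula (A B : ZMod ℓ) :
    (RatFunc.X ^ 3 + RatFunc.C A * RatFunc.X + RatFunc.C B : RatFunc (ZMod ℓ)) *
        (((RatFunc.X ^ 3 + RatFunc.C A * RatFunc.X + RatFunc.C B) ^ (ℓ / 2) + 1) /
          (RatFunc.X ^ ℓ - RatFunc.X)) ^ 2 - RatFunc.X ^ ℓ - RatFunc.X = maninFrac A B := by
  have hne : (RatFunc.X ^ ℓ - RatFunc.X : RatFunc (ZMod ℓ)) ≠ 0 := by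
    have h := RatFunc.algebraMap_ne_zero
      (FiniteField.X_pow_card_sub_X_ne_zero (ZMod ℓ) hℓ.out.one_lt)
    simpa using h
  unfold maninFrac maninNum maninDen cubic
  simp only [map_sub, map_mul, map_pow, map_add, map_one, RatFunc.algebraMap_X,
    RatFunc.algebraMap_C]
  field_simp
  ring

end Manin

end Fermat.Agent.S52.helper2468
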