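/-
S52 helper module (helper2957): the twist-transport homomorphism family `T(s,u)`.

For fields `L`, `L'`, a ring homomorphism `s : L →+* L'`, Weierstrass curves `W₁` over `L` and
`W₂` over `L'` and `u : L'` with `u ≠ 0` and `u ^ i * W₂.aᵢ = s W₁.aᵢ`, the map
`(X, Y) ↦ (s X / u ^ 2, s Y / u ^ 3)` is an additive homomorphism `W₁(L) →+ W₂(L')`
(`Point.map` along `s` followed by the change of variables scaling by `u`).

These maps compose: `T(s', u') ∘ T(s, u) = T(s' ∘ s, s' u * u')`.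
-/
import Mathlib
import Fermat.Agent.S05.helper725_Transfer

set_option autoImplicit false

namespace Fermat.Agent.S52.helper2957

open WeierstrassCurve WeierstrassCurve.Affine
open Fermat.Agent.S05.helper725

section RingMap

variable {F K : Type*} [Field F] [Field K] [DecidableEq F] [DecidableEq K]

/-- The additive map on points induced by a ring homomorphism of fields
(`W(F) → (W.map f)(K)`, `(x, y) ↦ (f x, f y)`). -/
noncomputable def ringMap (W : WeierstrassCurve F) (f : F →+* K) :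
    W.toAffine.Point →+ (W.map f).toAffine.Point where
  toFun P := match P with
    | .zero => .zero
    | .some x y h => .some (f x) (f y) ((Affine.map_nonsingular W.toAffine f.injective x y).mpr h)
  map_zero' := rfl
  map_add' := by
    rintro (_ | ⟨x₁, y₁, h₁⟩) (_ | ⟨x₂, y₂, h₂⟩)
    any_goals rfl
    by_cases hxy : x₁ = x₂ ∧ y₁ = W.toAffine.negY x₂ y₂
    · rw [Point.add_of_Y_eq hxy.left hxy.right,
        Point.add_of_Y_eq (congr_arg _ hxy.left) <| by rw [hxy.right, Affine.map_negY]]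
      rfl
    · simpa only [Point.add_some hxy, ← Affine.map_addX, ← Affine.map_addY, ← Affine.map_slope]
        using (Point.add_some fun h ↦
          hxy ⟨f.injective h.1, f.injective (Affine.map_negY (W' := W.toAffine) f .. ▸ h).2⟩).symm

lemma ringMap_zero (W : WeierstrassCurve F) (f : F →+* K) : ringMap W f 0 = 0 := rfl

lemma ringMap_some (W : WeierstrassCurve F) (f : F →+* K) {x y : F}
    (h : W.toAffine.Nonsingular x y) :
    ringMap W f (.some x y h) =
      .some (f x) (f y) ((Affine.map_nonsingular W.toAffine f.injective x y).mpr h) := rfl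

lemma ringMap_injective (W : WeierstrassCurve F) (f : F →+* K) :
    Function.Injective (ringMap W f) := by
  rintro (_ | ⟨x₁, y₁, h₁⟩) (_ | ⟨x₂, y₂, h₂⟩) h
  · rfl
  · exact absurd h (by rw [ringMap_some]; exact fun hh => by cases hh)
  · exact absurd h (by rw [ringMap_some]; exact fun hh => by cases hh)
  · rw [ringMap_some, ringMap_some, Point.some.injEq] at h
    obtain ⟨c1, c2⟩ := h
    have hx := f.injective c1
    have hy := f.injective c2
    subst hx hy
    rfl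

end RingMap

section Scale

variable {L L' L'' L''' : Type*} [Field L] [Field L'] [Field L''] [Field L''']

/-- `IsScale s W₁ W₂ u`: the coefficients of `W₂` are those of `W₁` transported along the ring
homomorphism `s` and rescaled by `u` with weights `1, 2, 3, 4, 6`.  Then
`(X, Y) ↦ (s X / u ^ 2, s Y / u ^ 3)` maps `W₁` to `W₂`. -/
structure IsScale (s : L →+* L') (W₁ : WeierstrassCurve L) (W₂ : WeierstrassCurve L') (u : L') :
    Prop where
  hu : u ≠ 0
  h₁ : u * W₂.a₁ = s W₁.a₁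
  h₂ : u ^ 2 * W₂.a₂ = s W₁.a₂
  h₃ : u ^ 3 * W₂.a₃ = s W₁.a₃
  h₄ : u ^ 4 * W₂.a₄ = s W₁.a₄
  h₆ : u ^ 6 * W₂.a₆ = s W₁.a₆

variable {s : L →+* L'} {W₁ : WeierstrassCurve L} {W₂ : WeierstrassCurve L'} {u : L'}

lemma IsScale.isVarChange (h : IsScale s W₁ W₂ u) : IsVarChange (W₁.map s) W₂ u⁻¹ 0 0 0 where
  hu := inv_ne_zero h.hu
  h₁ := by
    have hu := h.hu
    rw [WeierstrassCurve.map_a₁, ← h.h₁]; field_simp; ring
  h₂ := by
    have hu := h.hu
    rw [WeierstrassCurve.map_a₂, ← h.h₂]; field_simp; ring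
  h₃ := by
    have hu := h.hu
    rw [WeierstrassCurve.map_a₃, ← h.h₃]; field_simp; ring
  h₄ := by
    have hu := h.hu
    rw [WeierstrassCurve.map_a₄, ← h.h₄]; field_simp; ring
  h₆ := by
    have hu := h.hu
    rw [WeierstrassCurve.map_a₆, ← h.h₆]; field_simp; ring

lemma IsScale.nonsingular (h : IsScale s W₁ W₂ u) {X Y : L}
    (hXY : W₁.toAffine.Nonsingular X Y) :
    W₂.toAffine.Nonsingular (s X / u ^ 2) (s Y / u ^ 3) := by
  have e1 : u⁻¹ ^ 2 * s X + 0 = s X / u ^ 2 := by ring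
  have e2 : u⁻¹ ^ 3 * s Y + u⁻¹ ^ 2 * 0 * s X + 0 = s Y / u ^ 3 := by ring
  rw [← e1, ← e2]
  exact (h.isVarChange.nonsingular_iff (s X) (s Y)).mpr
    ((Affine.map_nonsingular W₁.toAffine s.injective X Y).mpr hXY)

lemma IsScale.comp {s' : L' →+* L''} {W₃ : WeierstrassCurve L''} {u' : L''}
    (h : IsScale s W₁ W₂ u) (h' : IsScale s' W₂ W₃ u') :
    IsScale (s'.comp s) W₁ W₃ (s' u * u') where
  hu := mul_ne_zero ((map_ne_zero s').mpr h.hu) h'.hu
  h₁ := by
    rw [RingHom.comp_apply, ← h.h₁, map_mul, ← h'.h₁]; ring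
  h₂ := by
    rw [RingHom.comp_apply, ← h.h₂, map_mul, map_pow, ← h'.h₂]; ring
  h₃ := by
    rw [RingHom.comp_apply, ← h.h₃, map_mul, map_pow, ← h'.h₃]; ring
  h₄ := by
    rw [RingHom.comp_apply, ← h.h₄, map_mul, map_pow, ← h'.h₄]; ring
  h₆ := by
    rw [RingHom.comp_apply, ← h.h₆, map_mul, map_pow, ← h'.h₆]; ring

variable [DecidableEq L] [DecidableEq L'] [DecidableEq L''] [DecidableEq L''']

/-- The twist-transport homomorphism `T(s, u) : W₁(L) →+ W₂(L')`,
`(X, Y) ↦ (s X / u ^ 2, s Y / u ^ 3)`. -/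
noncomputable def T (h : IsScale s W₁ W₂ u) : W₁.toAffine.Point →+ W₂.toAffine.Point :=
  (vcHom h.isVarChange).comp (ringMap W₁ s)

lemma T_zero (h : IsScale s W₁ W₂ u) : T h 0 = 0 := map_zero _

lemma T_some (h : IsScale s W₁ W₂ u) {X Y : L} (hXY : W₁.toAffine.Nonsingular X Y) :
    T h (.some X Y hXY) = .some (s X / u ^ 2) (s Y / u ^ 3) (h.nonsingular hXY) := by
  rw [T, AddMonoidHom.comp_apply, ringMap_some, vcHom_some, Point.some.injEq]
  constructor <;> ring

lemma T_injective (h : IsScale s W₁ W₂ u) : Function.Injective (T h) := by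
  rw [T, AddMonoidHom.coe_comp]
  exact (vcHom_injective h.isVarChange).comp (ringMap_injective W₁ s)

lemma T_eq_zero_iff (h : IsScale s W₁ W₂ u) (P : W₁.toAffine.Point) : T h P = 0 ↔ P = 0 := by
  rw [← T_zero h]
  exact (T_injective h).eq_iff

/-- `T` only depends on the pair `(s, u)`. -/
lemma T_congr {s₁ s₂ : L →+* L'} {u₁ u₂ : L'} (h₁ : IsScale s₁ W₁ W₂ u₁)
    (h₂ : IsScale s₂ W₁ W₂ u₂) (hs : s₁ = s₂) (hu : u₁ = u₂) : T h₁ = T h₂ := by
  subst hs hu
  rfl

/-- Composition rule: `T(s', u') ∘ T(s, u) = T(s' ∘ s, s' u * u')`. -/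
lemma T_comp {s' : L' →+* L''} {W₃ : WeierstrassCurve L''} {u' : L''}
    (h : IsScale s W₁ W₂ u) (h' : IsScale s' W₂ W₃ u')
    (h'' : IsScale (s'.comp s) W₁ W₃ (s' u * u')) (P : W₁.toAffine.Point) :
    T h' (T h P) = T h'' P := by
  rcases P with _ | ⟨X, Y, hXY⟩
  · change T h' (T h 0) = T h'' 0
    rw [T_zero, T_zero, T_zero]
  · rw [T_some, T_some, T_some, Point.some.injEq]
    have hu := h.hu
    have hu' := h'.hu
    have hsu : s' u ≠ 0 := (map_ne_zero s').mpr hu
    constructor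
    · rw [map_div₀, map_pow, RingHom.comp_apply]; field_simp
    · rw [map_div₀, map_pow, RingHom.comp_apply]; field_simp

lemma T_comp' {s' : L' →+* L''} {W₃ : WeierstrassCurve L''} {u' : L''}
    (h : IsScale s W₁ W₂ u) (h' : IsScale s' W₂ W₃ u') (P : W₁.toAffine.Point) :
    T h' (T h P) = T (h.comp h') P :=
  T_comp h h' (h.comp h') P

/-- Two composites of twist-transport maps agree as soon as their `(s, u)`-data agree. -/
lemma T_comm_of {K₂ K₃ : Type*} [Field K₂] [Field K₃] [DecidableEq K₂] [DecidableEq K₃]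
    {V₂ : WeierstrassCurve K₂} {V₃ : WeierstrassCurve K₃} {W₄ : WeierstrassCurve L''}
    {s₁ : L →+* K₂} {s₂ : K₂ →+* L''} {s₃ : L →+* K₃} {s₄ : K₃ →+* L''}
    {u₁ : K₂} {u₂ : L''} {u₃ : K₃} {u₄ : L''}
    (h₁ : IsScale s₁ W₁ V₂ u₁) (h₂ : IsScale s₂ V₂ W₄ u₂)
    (h₃ : IsScale s₃ W₁ V₃ u₃) (h₄ : IsScale s₄ V₃ W₄ u₄)
    (hs : s₂.comp s₁ = s₄.comp s₃) (hu : s₂ u₁ * u₂ = s₄ u₃ * u₄) (P : W₁.toAffine.Point) :
    T h₂ (T h₁ P) = T h₄ (T h₃ P) := by
  rw [T_comp' h₁ h₂, T_comp' h₃ h₄, T_congr (h₁.comp h₂) (h₃.comp h₄) hs hu]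

end Scale

section Twist

variable {L L' : Type*} [Field L] [Field L']

/-- The twisted curve `Y² = X³ + A d² X + B d³`: the quadratic twist by `d` of
`y² = x³ + A x + B`, i.e. `d y² = x³ + A x + B` in the coordinates `X = d x`, `Y = d² y`. -/
def tw (A B d : L) : WeierstrassCurve L := ⟨0, 0, 0, A * d ^ 2, B * d ^ 3⟩

/-- `IsTw W A B d`: `W` is the curve `Y² = X³ + A d² X + B d³`. -/
structure IsTw (W : WeierstrassCurve L) (A B d : L) : Prop where
  h₁ : W.a₁ = 0
  h₂ : W.a₂ = 0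
  h₃ : W.a₃ = 0
  h₄ : W.a₄ = A * d ^ 2
  h₆ : W.a₆ = B * d ^ 3

lemma isTw_tw (A B d : L) : IsTw (tw A B d) A B d := ⟨rfl, rfl, rfl, rfl, rfl⟩

/-- The untwisted curve `y² = x³ + A x + B` is the twist by `1`. -/
lemma isTw_one (A B : L) : IsTw (⟨0, 0, 0, A, B⟩ : WeierstrassCurve L) A B 1 :=
  ⟨rfl, rfl, rfl, by simp, by simp⟩

/-- Base changes of `y² = x³ + A x + B` are twists by `1`. -/
lemma isTw_map_one {k : Type*} [CommRing k] (f : k →+* L) (A B : k) :
    IsTw ((⟨0, 0, 0, A, B⟩ : WeierstrassCurve k).map f) (f A) (f B) 1 :=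
  ⟨by simp, by simp, by simp, by simp, by simp⟩

variable {W : WeierstrassCurve L} {A B d : L}

lemma IsTw.equation_iff (h : IsTw W A B d) (X Y : L) :
    W.toAffine.Equation X Y ↔ Y ^ 2 = X ^ 3 + A * d ^ 2 * X + B * d ^ 3 := by
  rw [Affine.equation_iff, h.h₁, h.h₂, h.h₃, h.h₄, h.h₆]
  constructor <;> intro H <;> linear_combination H

lemma IsTw.negY (h : IsTw W A B d) (X Y : L) : W.toAffine.negY X Y = -Y := by
  simp [Affine.negY, h.h₁, h.h₃]

lemma IsTw.nonsingular_of_Y_ne (h : IsTw W A B d) (h2 : (2 : L) ≠ 0) {X Y : L}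
    (heq : Y ^ 2 = X ^ 3 + A * d ^ 2 * X + B * d ^ 3) (hY : Y ≠ 0) :
    W.toAffine.Nonsingular X Y := by
  rw [Affine.nonsingular_iff]
  refine ⟨(h.equation_iff X Y).mpr heq, Or.inr ?_⟩
  rw [h.h₁, h.h₃]
  intro hcon
  have : (2 : L) * Y = 0 := by linear_combination hcon
  rcases mul_eq_zero.mp this with h' | h'
  · exact h2 h'
  · exact hY h'

/-- The basic point `P₀ = (t₀ d, d²)` (twist coordinates `(t₀, 1)`) for `d = t₀³ + A t₀ + B`. -/
lemma IsTw.equation_P0 (t₀ : L) (h : IsTw W A B (t₀ ^ 3 + A * t₀ + B)) :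
    W.toAffine.Equation (t₀ * (t₀ ^ 3 + A * t₀ + B)) ((t₀ ^ 3 + A * t₀ + B) ^ 2) := by
  rw [h.equation_iff]; ring

lemma IsTw.nonsingular_P0 (t₀ : L) (h : IsTw W A B (t₀ ^ 3 + A * t₀ + B)) (h2 : (2 : L) ≠ 0)
    (hd : t₀ ^ 3 + A * t₀ + B ≠ 0) :
    W.toAffine.Nonsingular (t₀ * (t₀ ^ 3 + A * t₀ + B)) ((t₀ ^ 3 + A * t₀ + B) ^ 2) :=
  h.nonsingular_of_Y_ne h2 (by ring) (pow_ne_zero 2 hd)

variable {W' : WeierstrassCurve L'} {A' B' d' u : L'} {s : L →+* L'}

/-- The scaling relation between two twists. -/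
lemma isScale_of_isTw (h₁ : IsTw W A B d) (h₂ : IsTw W' A' B' d') (hu : u ≠ 0)
    (hA : s A = A') (hB : s B = B') (hd : s d = u ^ 2 * d') : IsScale s W W' u where
  hu := hu
  h₁ := by rw [h₂.h₁, h₁.h₁, map_zero, mul_zero]
  h₂ := by rw [h₂.h₂, h₁.h₂, map_zero, mul_zero]
  h₃ := by rw [h₂.h₃, h₁.h₃, map_zero, mul_zero]
  h₄ := by rw [h₂.h₄, h₁.h₄, map_mul, map_pow, hA, hd]; ring
  h₆ := by rw [h₂.h₆, h₁.h₆, map_mul, map_pow, hB, hd]; ring

/-- In the twist coordinate `x = X / d`, `T(s, u)` is `x ↦ s x`. -/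
lemma twist_x_eq (hd : s d = u ^ 2 * d') (X : L) :
    s X / u ^ 2 / d' = s (X / d) := by
  rw [map_div₀, hd, div_div]

/-- In the twist coordinate `y = Y / d²`, `T(s, u)` is `y ↦ s y * u`. -/
lemma twist_y_eq (hu : u ≠ 0) (hd' : d' ≠ 0) (hd : s d = u ^ 2 * d') (Y : L) :
    s Y / u ^ 3 / d' ^ 2 = s (Y / d ^ 2) * u := by
  rw [map_div₀, map_pow, hd]
  field_simp

variable [DecidableEq L] [DecidableEq L']

/-- `T(s, u)` sends `(t₀ d, d²)` to `(s t₀ d', u d'²)`. -/
lemma T_P0 (h : IsScale s W W' u) (hd : s d = u ^ 2 * d') {t₀ : L}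
    (h0 : W.toAffine.Nonsingular (t₀ * d) (d ^ 2)) {X₁ Y₁ : L'}
    (h1 : W'.toAffine.Nonsingular X₁ Y₁) (hX : X₁ = s t₀ * d') (hY : Y₁ = u * d' ^ 2) :
    T h (.some _ _ h0) = .some X₁ Y₁ h1 := by
  have hu := h.hu
  rw [T_some, Point.some.injEq, map_mul, map_pow, hd, hX, hY]
  constructor <;> field_simp

/-- `T(s, u)` sends the 2-torsion point `(e d, 0)` to `(s e d', 0)`. -/
lemma T_two_torsion (h : IsScale s W W' u) (hd : s d = u ^ 2 * d') {e : L}
    (h0 : W.toAffine.Nonsingular (e * d) 0) {X₁ : L'}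
    (h1 : W'.toAffine.Nonsingular X₁ 0) (hX : X₁ = s e * d') :
    T h (.some _ _ h0) = .some X₁ 0 h1 := by
  have hu := h.hu
  rw [T_some, Point.some.injEq, map_mul, hd, hX, map_zero, zero_div]
  refine ⟨?_, rfl⟩
  field_simp

/-- The twist `x`-coordinate `X / d` of a point (`none` at infinity). -/
def twX (W : WeierstrassCurve L) (d : L) : W.toAffine.Point → Option L
  | .zero => none
  | .some X _ _ => some (X / d)

omit [DecidableEq L] [DecidableEq L'] in
lemma twX_zero (W : WeierstrassCurve L) (d : L) : twX W d 0 = none := rfl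

omit [DecidableEq L] [DecidableEq L'] in
lemma twX_some (W : WeierstrassCurve L) (d : L) {X Y : L} (h : W.toAffine.Nonsingular X Y) :
    twX W d (.some X Y h) = some (X / d) := rfl

/-- In twist `x`-coordinates, `T(s, u)` is `x ↦ s x`. -/
lemma twX_T (h : IsScale s W W' u) (hd : s d = u ^ 2 * d') (P : W.toAffine.Point) :
    twX W' d' (T h P) = (twX W d P).map s := by
  rcases P with _ | ⟨X, Y, hXY⟩
  · change twX W' d' (T h 0) = _
    rw [T_zero]; rfl
  · rw [T_some, twX_some, twX_some, Option.map_some, twist_x_eq hd]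

end Twist

section Frobenius

variable {L L' : Type*} [Field L] [Field L']
variable {W : WeierstrassCurve L} {A B d : L} {W' : WeierstrassCurve L'} {A' B' d' u : L'}
variable {s : L →+* L'} {σ : L →+* L} {σ' : L' →+* L'} {q m : ℕ}

/-- Frobenius instance: for a ring endomorphism `σ` with `σ x = x ^ q`, `q = 2 m + 1` odd,
fixing `A` and `B`, the pair `(σ, d ^ m)` scales the twist by `d` to itself:
`F = T(σ, d ^ m)`, `(X, Y) ↦ (X ^ q / d ^ (2 m), Y ^ q / d ^ (3 m))`. -/
lemma isScale_frob (hW : IsTw W A B d) (hσ : ∀ x, σ x = x ^ q) (hq : q = 2 * m + 1)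
    (hd : d ≠ 0) (hA : A ^ q = A) (hB : B ^ q = B) : IsScale σ W W (d ^ m) :=
  isScale_of_isTw hW hW (pow_ne_zero m hd) (by rw [hσ, hA]) (by rw [hσ, hB])
    (by rw [hσ, hq]; ring)

variable [DecidableEq L] [DecidableEq L']

/-- In twist `x`-coordinates the Frobenius map `F = T(σ, d ^ m)` is `x ↦ x ^ q`. -/
lemma twX_frob (hF : IsScale σ W W (d ^ m)) (hσ : ∀ x, σ x = x ^ q) (hq : q = 2 * m + 1)
    (P : W.toAffine.Point) : twX W d (T hF P) = (twX W d P).map (· ^ q) := by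
  rw [twX_T hF (by rw [hσ, hq]; ring)]
  congr 1
  funext x
  exact hσ x

/-- Twist-transport maps commute with Frobenius maps. -/
lemma T_frob_comm {v : L} {v' : L'} (hF : IsScale σ W W v) (hF' : IsScale σ' W' W' v')
    (h : IsScale s W W' u) (hσ : ∀ x, σ x = x ^ q) (hσ' : ∀ x, σ' x = x ^ q)
    (hv : s v * u = u ^ q * v') (P : W.toAffine.Point) :
    T h (T hF P) = T hF' (T h P) :=
  T_comm_of hF h h hF' (by ext x; simp [hσ, hσ']) (by rw [hσ', hv]) P

/-- Twist-transport maps commute with the Frobenius maps `T(σ, d ^ m)`, `T(σ', d' ^ m)`. -/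
lemma T_frob_comm' (hF : IsScale σ W W (d ^ m)) (hF' : IsScale σ' W' W' (d' ^ m))
    (h : IsScale s W W' u) (hσ : ∀ x, σ x = x ^ q) (hσ' : ∀ x, σ' x = x ^ q)
    (hq : q = 2 * m + 1) (hd : s d = u ^ 2 * d') (P : W.toAffine.Point) :
    T h (T hF P) = T hF' (T h P) :=
  T_frob_comm hF hF' h hσ hσ' (by rw [map_pow, hd, hq]; ring) P

end Frobenius

section Point

variable {L L' : Type*} [Field L] [Field L']
variable {W : WeierstrassCurve L} {A B : L} {W' : WeierstrassCurve L'} {A' B' d' : L'}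
variable {s : L →+* L'}

/-- The key relation: if `(X₁, Y₁)` lies on the twist by `d'` and `X₁ / d' = s t₀`, then
`s (t₀³ + A t₀ + B) = (Y₁ / d'²)² d'`. -/
lemma map_cubic_eq (hA : s A = A') (hB : s B = B') (hd' : d' ≠ 0) {t₀ : L} {X₁ Y₁ : L'}
    (hX : X₁ = s t₀ * d') (heq : Y₁ ^ 2 = X₁ ^ 3 + A' * d' ^ 2 * X₁ + B' * d' ^ 3) :
    s (t₀ ^ 3 + A * t₀ + B) = (Y₁ / d' ^ 2) ^ 2 * d' := by
  rw [map_add, map_add, map_mul, map_pow, hA, hB]
  rw [hX] at heq
  field_simp
  linear_combination (-1 : L') * heq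

/-- Point instance: the pair `(s, Y₁ / d'²)` scales the twist by `t₀³ + A t₀ + B` to the twist
by `d'`, whenever `(X₁, Y₁)` is a point of the latter with `X₁ / d' = s t₀` and `Y₁ ≠ 0`. -/
lemma isScale_point {t₀ : L} (hW : IsTw W A B (t₀ ^ 3 + A * t₀ + B)) (hW' : IsTw W' A' B' d')
    (hA : s A = A') (hB : s B = B') (hd' : d' ≠ 0) {X₁ Y₁ : L'}
    (hX : X₁ = s t₀ * d') (hY : Y₁ ≠ 0)
    (heq : Y₁ ^ 2 = X₁ ^ 3 + A' * d' ^ 2 * X₁ + B' * d' ^ 3) :
    IsScale s W W' (Y₁ / d' ^ 2) :=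
  isScale_of_isTw hW hW' (div_ne_zero hY (pow_ne_zero 2 hd')) hA hB
    (map_cubic_eq hA hB hd' hX heq)

variable [DecidableEq L] [DecidableEq L']

/-- `T(s, Y₁ / d'²)` sends the basic point `P₀ = (t₀ d, d²)` to the given point `(X₁, Y₁)`. -/
lemma T_point_P0 {t₀ : L} {X₁ Y₁ : L'} (h : IsScale s W W' (Y₁ / d' ^ 2))
    (hA : s A = A') (hB : s B = B') (hd' : d' ≠ 0)
    (h0 : W.toAffine.Nonsingular (t₀ * (t₀ ^ 3 + A * t₀ + B)) ((t₀ ^ 3 + A * t₀ + B) ^ 2))
    (h1 : W'.toAffine.Nonsingular X₁ Y₁) (hX : X₁ = s t₀ * d')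
    (heq : Y₁ ^ 2 = X₁ ^ 3 + A' * d' ^ 2 * X₁ + B' * d' ^ 3) :
    T h (.some _ _ h0) = .some X₁ Y₁ h1 :=
  T_P0 h (map_cubic_eq hA hB hd' hX heq) h0 h1 hX (by field_simp)

end Point

section BaseChange

variable {R S F K : Type*} [CommRing R] [CommRing S] [Field F] [Field K]
  [Algebra R S] [Algebra R F] [Algebra S F] [IsScalarTower R S F] [Algebra R K] [Algebra S K]
  [IsScalarTower R S K]

/-- Mathlib's base-change map `Point.map f` is the twist-transport map `T(f, 1)`. -/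
lemma isScale_baseChange (W : WeierstrassCurve R) (f : F →ₐ[S] K) :
    IsScale (f : F →+* K) (W.baseChange F) (W.baseChange K) 1 where
  hu := one_ne_zero
  h₁ := by
    have := congrArg WeierstrassCurve.a₁ (WeierstrassCurve.map_baseChange W f)
    rw [one_mul, ← this]; rfl
  h₂ := by
    have := congrArg WeierstrassCurve.a₂ (WeierstrassCurve.map_baseChange W f)
    rw [one_pow, one_mul, ← this]; rfl
  h₃ := by
    have := congrArg WeierstrassCurve.a₃ (WeierstrassCurve.map_baseChange W f)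
    rw [one_pow, one_mul, ← this]; rfl
  h₄ := by
    have := congrArg WeierstrassCurve.a₄ (WeierstrassCurve.map_baseChange W f)
    rw [one_pow, one_mul, ← this]; rfl
  h₆ := by
    have := congrArg WeierstrassCurve.a₆ (WeierstrassCurve.map_baseChange W f)
    rw [one_pow, one_mul, ← this]; rfl

variable [DecidableEq F] [DecidableEq K]

lemma map_eq_T (W : WeierstrassCurve R) (f : F →ₐ[S] K) (h : IsScale (f : F →+* K)
    (W.baseChange F) (W.baseChange K) 1) (P : (W.baseChange F).toAffine.Point) :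
    Point.map f P = T h P := by
  rcases P with _ | ⟨X, Y, hXY⟩
  · change (0 : (W.baseChange K).toAffine.Point) = T h 0
    rw [T_zero]
  · rw [T_some, Point.map_some, Point.some.injEq]
    simp

end BaseChange

section Subst

variable {k L' : Type*} [Field k] [Field L'] [Algebra k L']

/-- The substitution homomorphism `RatFunc k →ₐ[k] L'`, `t ↦ x`, for `x` transcendental
over `k`. -/
noncomputable def substHom (x : L') (hx : Transcendental k x) : RatFunc k →ₐ[k] L' :=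
  (IntermediateField.val _).comp (RatFunc.algEquivOfTranscendental x hx).toAlgHom

lemma substHom_X (x : L') (hx : Transcendental k x) : substHom x hx RatFunc.X = x := by
  simp [substHom, RatFunc.algEquivOfTranscendental_X]

lemma substHom_C (x : L') (hx : Transcendental k x) (c : k) :
    substHom x hx (RatFunc.C c) = algebraMap k L' c := by
  rw [← RatFunc.algebraMap_eq_C, AlgHom.commutes]

lemma substHom_apply (x : L') (hx : Transcendental k x) (r : RatFunc k) :
    substHom x hx r = Polynomial.aeval x r.num / Polynomial.aeval x r.denom := by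
  simp [substHom, RatFunc.algEquivOfTranscendental_apply]

end Subst

end Fermat.Agent.S52.helper2957
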