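import Mathlib

/-!
# Height calculus on `RatFunc k` (helper6013; S52 leaf H1 / (a))

`height r := max r.num.natDegree r.denom.natDegree` for `r : RatFunc k`, `k` any field.

Main results (all Mathlib-only):

* `height_div_of_isCoprime` : `height (p / q) = max p.natDegree q.natDegree` for coprime `p q`;
* `height_div_mul` / `height_div_add` : non-reduced fractions (`p = e * p'`, `q = e * q'`);
* `height_eq_zero_iff` : `height r = 0 ↔ ∃ c, r = C c`;
* `height_inv`, `height_pow`, `height_neg`, `height_add_C`, `height_C_mul`;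
* `height_aeval` : **composition** `height (g ∘ s) = height g * height s`, where
  `g ∘ s = aeval s g.num / aeval s g.denom`; `height_algHom` : the same for a `k`-algebra
  endomorphism `φ` of `RatFunc k`: `height (φ g) = height g * height (φ X)`;
* `height_add_height_of_quadratic` : **primitive quadratic**: if `U T² - V T + W` is primitive
  over `k[X]` with roots `r₁ r₂ : RatFunc k`, then
  `height r₁ + height r₂ = max U.natDegree (max V.natDegree W.natDegree)`.
-/

set_option autoImplicit false

namespace Fermat.Agent.S52.helper6013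

open Polynomial

noncomputable section

variable {k : Type*} [Field k]

local notation "𝔞" => algebraMap (Polynomial k) (RatFunc k)

/-- The height of a rational function: the maximum of the degrees of its numerator and
denominator (in lowest terms). -/
def height (r : RatFunc k) : ℕ := max r.num.natDegree r.denom.natDegree

theorem height_def (r : RatFunc k) : height r = max r.num.natDegree r.denom.natDegree := rfl

/-! ### Fractions in lowest terms -/

theorem isUnit_of_isCoprime_zero_right {p : k[X]} (h : IsCoprime p 0) : IsUnit p :=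
  isCoprime_zero_right.mp h

theorem natDegree_eq_zero_of_isUnit' {p : k[X]} (h : IsUnit p) : p.natDegree = 0 :=
  natDegree_eq_zero_of_isUnit h

theorem associated_num_denom_div {p q : k[X]} (hq : q ≠ 0) (h : IsCoprime p q) :
    Associated (𝔞 p / 𝔞 q).num p ∧ Associated (𝔞 p / 𝔞 q).denom q := by
  have h1 : (𝔞 p / 𝔞 q).num ∣ p := RatFunc.num_div_dvd p hq
  have h2 : (𝔞 p / 𝔞 q).denom ∣ q := RatFunc.denom_div_dvd p q
  have h3 : (𝔞 p / 𝔞 q).num * q = p * (𝔞 p / 𝔞 q).denom :=
    (RatFunc.num_mul_eq_mul_denom_iff hq).mpr rfl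
  have h4 : p ∣ (𝔞 p / 𝔞 q).num := h.dvd_of_dvd_mul_right ⟨_, h3⟩
  have h5 : q ∣ (𝔞 p / 𝔞 q).denom := by
    apply h.symm.dvd_of_dvd_mul_left
    exact ⟨(𝔞 p / 𝔞 q).num, by rw [← h3]; ring⟩
  exact ⟨associated_of_dvd_dvd h1 h4, associated_of_dvd_dvd h2 h5⟩

/-- The height of a fraction of coprime polynomials. -/
theorem height_div_of_isCoprime {p q : k[X]} (h : IsCoprime p q) :
    height (𝔞 p / 𝔞 q) = max p.natDegree q.natDegree := by
  by_cases hq : q = 0
  · subst hq
    have hp := natDegree_eq_zero_of_isUnit (isCoprime_zero_right.mp h)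
    simp [height, hp]
  · obtain ⟨h1, h2⟩ := associated_num_denom_div hq h
    rw [height, natDegree_eq_of_degree_eq (degree_eq_degree_of_associated h1),
      natDegree_eq_of_degree_eq (degree_eq_degree_of_associated h2)]

/-- Non-reduced fractions: cancel the common factor. -/
theorem height_div_mul {e p q : k[X]} (he : e ≠ 0) (h : IsCoprime p q) :
    height (𝔞 (e * p) / 𝔞 (e * q)) = max p.natDegree q.natDegree := by
  rw [← height_div_of_isCoprime h]
  congr 1
  rw [map_mul, map_mul]
  exact mul_div_mul_left _ _ (RatFunc.algebraMap_ne_zero he)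

/-- Non-reduced fractions: `height (p / q) = max (deg p) (deg q) - deg (common factor)`. -/
theorem height_div_add {e p q : k[X]} (he : e ≠ 0) (hq : q ≠ 0) (h : IsCoprime p q) :
    height (𝔞 (e * p) / 𝔞 (e * q)) + e.natDegree =
      max (e * p).natDegree (e * q).natDegree := by
  rw [height_div_mul he h, natDegree_mul he hq]
  by_cases hp : p = 0
  · subst hp
    simp
    omega
  · rw [natDegree_mul he hp]
    omega

theorem height_algebraMap (p : k[X]) : height (𝔞 p) = p.natDegree := by
  simp [height]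

@[simp] theorem height_zero : height (0 : RatFunc k) = 0 := by
  simp [height]

@[simp] theorem height_one : height (1 : RatFunc k) = 0 := by
  simp [height]

@[simp] theorem height_C (c : k) : height (RatFunc.C c) = 0 := by
  simp [height]

@[simp] theorem height_X : height (RatFunc.X : RatFunc k) = 1 := by
  simp [height]

/-- Height zero means constant. -/
theorem height_eq_zero_iff (r : RatFunc k) : height r = 0 ↔ ∃ c, r = RatFunc.C c := by
  rw [RatFunc.eq_C_iff, height]
  omega

theorem eq_div_num_denom (r : RatFunc k) : r = 𝔞 r.num / 𝔞 r.denom :=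
  (RatFunc.num_div_denom r).symm

theorem height_inv (r : RatFunc k) : height r⁻¹ = height r := by
  by_cases hr : r = 0
  · subst hr; simp
  · have h : r⁻¹ = 𝔞 r.denom / 𝔞 r.num := by
      conv_lhs => rw [eq_div_num_denom r]
      rw [inv_div]
    rw [h, height_div_of_isCoprime (RatFunc.isCoprime_num_denom r).symm, height, max_comm]

theorem height_pow (r : RatFunc k) (n : ℕ) : height (r ^ n) = n * height r := by
  have h : r ^ n = 𝔞 (r.num ^ n) / 𝔞 (r.denom ^ n) := by
    conv_lhs => rw [eq_div_num_denom r]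
    rw [div_pow, map_pow, map_pow]
  rw [h, height_div_of_isCoprime (RatFunc.isCoprime_num_denom r).pow, natDegree_pow,
    natDegree_pow, height, Nat.mul_max_mul_left]

theorem height_neg (r : RatFunc k) : height (-r) = height r := by
  have h : -r = 𝔞 (-r.num) / 𝔞 r.denom := by
    conv_lhs => rw [eq_div_num_denom r]
    rw [map_neg, neg_div]
  rw [h, height_div_of_isCoprime (RatFunc.isCoprime_num_denom r).neg_left, natDegree_neg, height]

/-! ### Homogenisation -/

/-- The homogenisation of `P` to degree `N`, evaluated at `(a, b)`. -/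
def homog {R : Type*} [CommRing R] [Algebra k R] (P : k[X]) (N : ℕ) (a b : R) : R :=
  ∑ i ∈ Finset.range (N + 1), algebraMap k R (P.coeff i) * a ^ i * b ^ (N - i)

theorem map_homog {R S : Type*} [CommRing R] [Algebra k R] [CommRing S] [Algebra k S]
    (f : R →+* S) (hf : ∀ c : k, f (algebraMap k R c) = algebraMap k S c)
    (P : k[X]) (N : ℕ) (a b : R) : f (homog P N a b) = homog P N (f a) (f b) := by
  simp only [homog, map_sum, map_mul, map_pow, hf]

theorem homog_eq_pow_mul_aeval {κ : Type*} [Field κ] [Algebra k κ] {P : k[X]} {N : ℕ}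
    (hN : P.natDegree ≤ N) (α : κ) {β : κ} (hβ : β ≠ 0) :
    homog P N α β = β ^ N * aeval (α / β) P := by
  rw [aeval_eq_sum_range' (Nat.lt_succ_of_le hN), Finset.mul_sum, homog]
  refine Finset.sum_congr rfl fun i hi => ?_
  have hi' : i ≤ N := Nat.lt_succ_iff.mp (Finset.mem_range.mp hi)
  rw [Algebra.smul_def, div_pow]
  have h1 : β ^ N = β ^ i * β ^ (N - i) := by rw [← pow_add, Nat.add_sub_cancel' hi']
  rw [h1]
  field_simp

theorem coeff_max_ne_zero {P Q : k[X]} (h : IsCoprime P Q) :
    P.coeff (max P.natDegree Q.natDegree) ≠ 0 ∨ Q.coeff (max P.natDegree Q.natDegree) ≠ 0 := by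
  rcases le_total P.natDegree Q.natDegree with hle | hle
  · rw [max_eq_right hle]
    by_cases hQ : Q = 0
    · subst hQ
      left
      have hP := isCoprime_zero_right.mp h
      rw [natDegree_zero]
      intro h0
      have := (Polynomial.coeff_zero_eq_eval_zero P).symm.trans h0
      exact (Polynomial.isUnit_iff.mp hP).elim fun c hc => by
        obtain ⟨hc1, hc2⟩ := hc
        rw [← hc2, coeff_C_zero] at h0
        exact hc1.ne_zero h0
    · right
      exact leadingCoeff_ne_zero.mpr hQ
  · rw [max_eq_left hle]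
    by_cases hP : P = 0
    · subst hP
      right
      have hQ := isCoprime_zero_left.mp h
      rw [natDegree_zero]
      intro h0
      exact (Polynomial.isUnit_iff.mp hQ).elim fun c hc => by
        obtain ⟨hc1, hc2⟩ := hc
        rw [← hc2, coeff_C_zero] at h0
        exact hc1.ne_zero h0
    · left
      exact leadingCoeff_ne_zero.mpr hP

/-- **Key lemma**: the homogenisations of two coprime polynomials have no common projective
zero over any field extension. -/
theorem homog_ne_zero_or {κ : Type*} [Field κ] [Algebra k κ] {P Q : k[X]} (hPQ : IsCoprime P Q)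
    {α β : κ} (hαβ : α ≠ 0 ∨ β ≠ 0) :
    homog P (max P.natDegree Q.natDegree) α β ≠ 0 ∨
      homog Q (max P.natDegree Q.natDegree) α β ≠ 0 := by
  set N := max P.natDegree Q.natDegree with hN
  by_cases hβ : β = 0
  · subst hβ
    have hα : α ≠ 0 := by tauto
    have key : ∀ R : k[X], homog R N α 0 = algebraMap k κ (R.coeff N) * α ^ N := by
      intro R
      rw [homog, Finset.sum_eq_single N]
      · simp
      · intro i hi hiN
        have hi' : i < N := lt_of_le_of_ne (Nat.lt_succ_iff.mp (Finset.mem_range.mp hi)) hiN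
        have : N - i ≠ 0 := by omega
        simp [this]
      · intro h
        exact absurd (Finset.mem_range.mpr (Nat.lt_succ_self N)) h
    rw [key, key]
    have hinj : Function.Injective (algebraMap k κ) := (algebraMap k κ).injective
    rcases coeff_max_ne_zero hPQ with h | h
    · left
      exact mul_ne_zero (fun h0 => h (hinj (by rw [h0, map_zero]))) (pow_ne_zero _ hα)
    · right
      exact mul_ne_zero (fun h0 => h (hinj (by rw [h0, map_zero]))) (pow_ne_zero _ hα)
  · rw [homog_eq_pow_mul_aeval (le_max_left _ _) α hβ,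
      homog_eq_pow_mul_aeval (le_max_right _ _) α hβ]
    by_contra hcon
    rw [not_or, not_not, not_not] at hcon
    obtain ⟨h1, h2⟩ := hcon
    have hβN : β ^ N ≠ 0 := pow_ne_zero _ hβ
    have h1' : aeval (α / β) P = 0 := (mul_eq_zero.mp h1).resolve_left hβN
    have h2' : aeval (α / β) Q = 0 := (mul_eq_zero.mp h2).resolve_left hβN
    obtain ⟨u, v, huv⟩ := hPQ
    have h3 := congrArg (aeval (α / β)) huv
    rw [map_add, map_mul, map_mul, h1', h2', mul_zero, mul_zero, add_zero, map_one] at h3
    exact zero_ne_one h3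

/-! ### Degrees of homogeneous substitutions -/

theorem natDegree_homog_term_le {a b : k[X]} {d : ℕ} (ha : a.natDegree ≤ d) (hb : b.natDegree ≤ d)
    (c : k) {i N : ℕ} (hi : i ≤ N) :
    (algebraMap k k[X] c * a ^ i * b ^ (N - i)).natDegree ≤ N * d := by
  have h1 : (a ^ i).natDegree ≤ i * d := natDegree_pow_le_of_le i ha
  have h2 : (b ^ (N - i)).natDegree ≤ (N - i) * d := natDegree_pow_le_of_le _ hb
  have h3 : (a ^ i * b ^ (N - i)).natDegree ≤ i * d + (N - i) * d := natDegree_mul_le_of_le h1 h2
  have h4 : i * d + (N - i) * d = N * d := by rw [← add_mul, Nat.add_sub_cancel' hi]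
  rw [mul_assoc, ← Polynomial.C_eq_algebraMap]
  exact (natDegree_C_mul_le _ _).trans (h4 ▸ h3)

theorem coeff_homog_term {a b : k[X]} {d : ℕ} (ha : a.natDegree ≤ d) (hb : b.natDegree ≤ d)
    (c : k) {i N : ℕ} (hi : i ≤ N) :
    (algebraMap k k[X] c * a ^ i * b ^ (N - i)).coeff (N * d) =
      c * a.coeff d ^ i * b.coeff d ^ (N - i) := by
  have h1 : (a ^ i).natDegree ≤ i * d := natDegree_pow_le_of_le i ha
  have h2 : (b ^ (N - i)).natDegree ≤ (N - i) * d := natDegree_pow_le_of_le _ hb
  have h4 : i * d + (N - i) * d = N * d := by rw [← add_mul, Nat.add_sub_cancel' hi]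
  rw [mul_assoc, ← Polynomial.C_eq_algebraMap, coeff_C_mul, ← h4,
    coeff_mul_add_eq_of_natDegree_le h1 h2, coeff_pow_of_natDegree_le ha, coeff_pow_of_natDegree_le hb,
    mul_assoc]

theorem natDegree_homog_le (P : k[X]) (N : ℕ) {a b : k[X]} {d : ℕ} (ha : a.natDegree ≤ d)
    (hb : b.natDegree ≤ d) : (homog P N a b).natDegree ≤ N * d := by
  rw [homog]
  refine natDegree_sum_le_of_forall_le _ _ fun i hi => ?_
  exact natDegree_homog_term_le ha hb _ (Nat.lt_succ_iff.mp (Finset.mem_range.mp hi))

theorem coeff_homog (P : k[X]) (N : ℕ) {a b : k[X]} {d : ℕ} (ha : a.natDegree ≤ d)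
    (hb : b.natDegree ≤ d) :
    (homog P N a b).coeff (N * d) = homog P N (a.coeff d) (b.coeff d) := by
  rw [homog, homog, finsetSum_coeff]
  refine Finset.sum_congr rfl fun i hi => ?_
  rw [coeff_homog_term ha hb _ (Nat.lt_succ_iff.mp (Finset.mem_range.mp hi))]
  rfl

/-- For coprime `P, Q` of maximal degree `N` and coprime `a, b` of maximal degree `d`, the
homogeneous substitutions `P^h(a,b)`, `Q^h(a,b)` have maximal degree `N * d`. -/
theorem max_natDegree_homog {P Q a b : k[X]} (hPQ : IsCoprime P Q) (hab : IsCoprime a b) :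
    max (homog P (max P.natDegree Q.natDegree) a b).natDegree
        (homog Q (max P.natDegree Q.natDegree) a b).natDegree =
      max P.natDegree Q.natDegree * max a.natDegree b.natDegree := by
  set N := max P.natDegree Q.natDegree with hN
  set d := max a.natDegree b.natDegree with hd
  have ha : a.natDegree ≤ d := le_max_left _ _
  have hb : b.natDegree ≤ d := le_max_right _ _
  apply le_antisymm
  · exact max_le (natDegree_homog_le P N ha hb) (natDegree_homog_le Q N ha hb)
  · have hαβ : a.coeff d ≠ 0 ∨ b.coeff d ≠ 0 := coeff_max_ne_zero hab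
    rcases homog_ne_zero_or (κ := k) hPQ hαβ with h | h
    · rw [← hN, ← coeff_homog P N ha hb] at h
      exact (le_natDegree_of_ne_zero h).trans (le_max_left _ _)
    · rw [← hN, ← coeff_homog Q N ha hb] at h
      exact (le_natDegree_of_ne_zero h).trans (le_max_right _ _)

/-- For coprime `P, Q` and coprime `a, b`, the homogeneous substitutions are coprime. -/
theorem isCoprime_homog {P Q a b : k[X]} (hPQ : IsCoprime P Q) (hab : IsCoprime a b) :
    IsCoprime (homog P (max P.natDegree Q.natDegree) a b)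
      (homog Q (max P.natDegree Q.natDegree) a b) := by
  set N := max P.natDegree Q.natDegree with hN
  apply isCoprime_of_irreducible_dvd
  · rintro ⟨h1, h2⟩
    have hαβ : a.coeff (max a.natDegree b.natDegree) ≠ 0 ∨
        b.coeff (max a.natDegree b.natDegree) ≠ 0 := coeff_max_ne_zero hab
    have ha : a.natDegree ≤ max a.natDegree b.natDegree := le_max_left _ _
    have hb : b.natDegree ≤ max a.natDegree b.natDegree := le_max_right _ _
    rcases homog_ne_zero_or (κ := k) hPQ hαβ with h | h
    · rw [← hN, ← coeff_homog P N ha hb, h1] at h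
      exact h (coeff_zero _)
    · rw [← hN, ← coeff_homog Q N ha hb, h2] at h
      exact h (coeff_zero _)
  · intro π hπ h1 h2
    have : Fact (Irreducible π) := ⟨hπ⟩
    have hf : ∀ c : k, AdjoinRoot.mk π (algebraMap k k[X] c) = algebraMap k (AdjoinRoot π) c := by
      intro c
      rfl
    have e1 : homog P N (AdjoinRoot.mk π a) (AdjoinRoot.mk π b) = 0 := by
      rw [← map_homog (AdjoinRoot.mk π) hf]
      exact AdjoinRoot.mk_eq_zero.mpr h1
    have e2 : homog Q N (AdjoinRoot.mk π a) (AdjoinRoot.mk π b) = 0 := by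
      rw [← map_homog (AdjoinRoot.mk π) hf]
      exact AdjoinRoot.mk_eq_zero.mpr h2
    have hαβ : AdjoinRoot.mk π a ≠ 0 ∨ AdjoinRoot.mk π b ≠ 0 := by
      by_contra hcon
      rw [not_or, not_not, not_not] at hcon
      obtain ⟨u, v, huv⟩ := hab
      have h3 := congrArg (AdjoinRoot.mk π) huv
      rw [map_add, map_mul, map_mul, hcon.1, hcon.2, mul_zero, mul_zero, add_zero, map_one] at h3
      exact zero_ne_one h3
    rcases homog_ne_zero_or (κ := AdjoinRoot π) hPQ hαβ with h | h
    · exact h e1
    · exact h e2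

/-! ### Composition -/

theorem aeval_div_eq_homog {P : k[X]} {N : ℕ} (hN : P.natDegree ≤ N) (a : k[X]) {b : k[X]}
    (hb : b ≠ 0) : aeval (𝔞 a / 𝔞 b) P = 𝔞 (homog P N a b) / 𝔞 b ^ N := by
  have hb' : 𝔞 b ≠ 0 := RatFunc.algebraMap_ne_zero hb
  have hf : ∀ c : k, 𝔞 (algebraMap k k[X] c) = algebraMap k (RatFunc k) c := fun c =>
    (IsScalarTower.algebraMap_apply k k[X] (RatFunc k) c).symm
  rw [map_homog (𝔞) hf, homog_eq_pow_mul_aeval hN _ hb', mul_div_cancel_left₀ _ (pow_ne_zero _ hb')]

/-- **Composition of rational functions multiplies heights**: with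
`g ∘ s := aeval s g.num / aeval s g.denom`, `height (g ∘ s) = height g * height s`
(no hypothesis on `s`). -/
theorem height_aeval (g s : RatFunc k) :
    height (aeval s g.num / aeval s g.denom) = height g * height s := by
  have hPQ := RatFunc.isCoprime_num_denom g
  have hab := RatFunc.isCoprime_num_denom s
  have hb := RatFunc.denom_ne_zero s
  have hb' : 𝔞 s.denom ≠ 0 := RatFunc.algebraMap_ne_zero hb
  set N := max g.num.natDegree g.denom.natDegree with hN
  have h1 : aeval s g.num = 𝔞 (homog g.num N s.num s.denom) / 𝔞 s.denom ^ N := by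
    conv_lhs => rw [eq_div_num_denom s]
    exact aeval_div_eq_homog (le_max_left _ _) _ hb
  have h2 : aeval s g.denom = 𝔞 (homog g.denom N s.num s.denom) / 𝔞 s.denom ^ N := by
    conv_lhs => rw [eq_div_num_denom s]
    exact aeval_div_eq_homog (le_max_right _ _) _ hb
  rw [h1, h2, div_div_div_cancel_right₀ (pow_ne_zero _ hb'),
    height_div_of_isCoprime (isCoprime_homog hPQ hab), max_natDegree_homog hPQ hab]
  rfl

/-- The same with Mathlib's `RatFunc.eval`. -/
theorem height_eval (g s : RatFunc k) :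
    height (RatFunc.eval (algebraMap k (RatFunc k)) s g) = height g * height s := by
  rw [← height_aeval g s]
  rfl

/-- A `k`-algebra endomorphism `φ` of `RatFunc k` multiplies heights by `height (φ X)`. -/
theorem height_algHom (φ : RatFunc k →ₐ[k] RatFunc k) (g : RatFunc k) :
    height (φ g) = height g * height (φ RatFunc.X) := by
  rw [← height_aeval g (φ RatFunc.X)]
  congr 1
  have h : ∀ p : k[X], φ (𝔞 p) = aeval (φ RatFunc.X) p := by
    intro p
    rw [aeval_algHom_apply, RatFunc.aeval_X_left_eq_algebraMap]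
  conv_lhs => rw [eq_div_num_denom g]
  rw [map_div₀, h, h]

/-! ### Moebius invariance -/

theorem height_add_C (r : RatFunc k) (c : k) : height (r + RatFunc.C c) = height r := by
  have h := height_aeval (𝔞 (X + C c)) r
  rw [RatFunc.num_algebraMap, RatFunc.denom_algebraMap, height_algebraMap, natDegree_X_add_C,
    one_mul] at h
  rw [← h]
  congr 1
  simp [RatFunc.algebraMap_eq_C]

theorem height_C_add (r : RatFunc k) (c : k) : height (RatFunc.C c + r) = height r := by
  rw [add_comm, height_add_C]

theorem height_sub_C (r : RatFunc k) (c : k) : height (r - RatFunc.C c) = height r := by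
  rw [sub_eq_add_neg, ← map_neg, height_add_C]

theorem height_C_mul (r : RatFunc k) {c : k} (hc : c ≠ 0) : height (RatFunc.C c * r) = height r := by
  have h := height_aeval (𝔞 (C c * X)) r
  rw [RatFunc.num_algebraMap, RatFunc.denom_algebraMap, height_algebraMap,
    natDegree_C_mul_X c hc, one_mul] at h
  rw [← h]
  congr 1
  simp [RatFunc.algebraMap_eq_C]

theorem height_mul_C (r : RatFunc k) {c : k} (hc : c ≠ 0) : height (r * RatFunc.C c) = height r := by
  rw [mul_comm, height_C_mul r hc]

/-- Moebius invariance: `height ((α r + β) / (γ r + δ)) = height r` when `α δ - β γ ≠ 0`. -/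
theorem height_mobius (r : RatFunc k) {α β γ δ : k} (hdet : α * δ - β * γ ≠ 0) :
    height ((RatFunc.C α * r + RatFunc.C β) / (RatFunc.C γ * r + RatFunc.C δ)) = height r := by
  have hcop : IsCoprime (C α * X + C β : k[X]) (C γ * X + C δ) := by
    refine ⟨C (-(α * δ - β * γ)⁻¹ * γ), C ((α * δ - β * γ)⁻¹ * α), ?_⟩
    have h1 : (C (-(α * δ - β * γ)⁻¹ * γ) * (C α * X + C β) +
        C ((α * δ - β * γ)⁻¹ * α) * (C γ * X + C δ) : k[X]) =
        C ((α * δ - β * γ)⁻¹ * (α * δ - β * γ)) := by
      simp only [map_mul, map_neg, map_sub]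
      ring
    rw [h1, inv_mul_cancel₀ hdet, map_one]
  have hdeg : max (C α * X + C β : k[X]).natDegree (C γ * X + C δ : k[X]).natDegree = 1 := by
    have h1 : (C α * X + C β : k[X]).natDegree ≤ 1 := natDegree_linear_le
    have h2 : (C γ * X + C δ : k[X]).natDegree ≤ 1 := natDegree_linear_le
    have h3 : α ≠ 0 ∨ γ ≠ 0 := by
      by_contra hcon
      rw [not_or, not_not, not_not] at hcon
      apply hdet
      rw [hcon.1, hcon.2]
      ring
    rcases h3 with h | h
    · have : (C α * X + C β : k[X]).natDegree = 1 := natDegree_linear h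
      omega
    · have : (C γ * X + C δ : k[X]).natDegree = 1 := natDegree_linear h
      omega
  set g : RatFunc k := 𝔞 (C α * X + C β) / 𝔞 (C γ * X + C δ) with hg
  have hgh : height g = 1 := by rw [hg, height_div_of_isCoprime hcop, hdeg]
  have key : ∀ s : RatFunc k, aeval s g.num / aeval s g.denom =
      aeval s (C α * X + C β : k[X]) / aeval s (C γ * X + C δ : k[X]) := by
    intro s
    by_cases hq : (C γ * X + C δ : k[X]) = 0
    · have hγ : γ = 0 := by
        have := congrArg (fun p : k[X] => p.coeff 1) hq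
        simpa using this
      have hδ : δ = 0 := by
        have := congrArg (fun p : k[X] => p.coeff 0) hq
        simpa using this
      exact absurd (by rw [hγ, hδ]; ring) hdet
    · obtain ⟨⟨u, hu⟩, ⟨w, hw⟩⟩ := associated_num_denom_div hq hcop
      rw [← hg] at hu hw
      -- `g.num * u = p`, `g.denom * w = q`, and the cross relation forces `u = w`
      have hcross : g.num * (C γ * X + C δ) = (C α * X + C β) * g.denom :=
        (RatFunc.num_mul_eq_mul_denom_iff hq).mpr hg
      have hden : g.denom ≠ 0 := RatFunc.denom_ne_zero g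
      have huw : (u : k[X]) = (w : k[X]) := by
        by_cases hnum : g.num = 0
        · -- then `p = 0`, so `q` is a unit and everything is constant; compare directly
          have hp0 : (C α * X + C β : k[X]) = 0 := by rw [← hu, hnum, zero_mul]
          have hα : α = 0 := by
            have := congrArg (fun p : k[X] => p.coeff 1) hp0
            simpa using this
          have hβ : β = 0 := by
            have := congrArg (fun p : k[X] => p.coeff 0) hp0
            simpa using this
          exact absurd (by rw [hα, hβ]; ring) hdet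
        · have h5 : g.num * (g.denom * (w : k[X])) = g.num * (u : k[X]) * g.denom := by
            rw [hw, hu]; exact hcross
          have h6 : g.num * g.denom * (w : k[X]) = g.num * g.denom * (u : k[X]) := by
            rw [mul_assoc, h5]; ring
          exact (mul_left_cancel₀ (mul_ne_zero hnum hden) h6).symm
      rw [← hu, ← hw, huw, map_mul, map_mul]
      have hw0 : aeval s (w : k[X]) ≠ 0 := by
        obtain ⟨c, hc, hcw⟩ := Polynomial.isUnit_iff.mp w.isUnit
        rw [← hcw, aeval_C]
        exact (_root_.map_ne_zero _).mpr hc.ne_zero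
      rw [mul_div_mul_right _ _ hw0]
  have h := height_aeval g r
  rw [key r, hgh, one_mul] at h
  rw [← h]
  congr 1
  simp [RatFunc.algebraMap_eq_C]

/-! ### The primitive quadratic lemma -/

/-- **Primitive quadratic.**  If `U T² - V T + W ∈ k[X][T]` is primitive (no common non-unit
factor of `U, V, W`), `U ≠ 0`, and its roots `r₁, r₂` lie in `RatFunc k`
(`U (r₁ + r₂) = V`, `U r₁ r₂ = W`), then
`height r₁ + height r₂ = max (deg U) (max (deg V) (deg W))`. -/
theorem height_add_height_of_quadratic {U V W : k[X]}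
    (hprim : ∀ z : k[X], z ∣ U → z ∣ V → z ∣ W → IsUnit z) {r₁ r₂ : RatFunc k}
    (hsum : 𝔞 U * (r₁ + r₂) = 𝔞 V) (hprod : 𝔞 U * (r₁ * r₂) = 𝔞 W) :
    height r₁ + height r₂ = max U.natDegree (max V.natDegree W.natDegree) := by
  set a₁ := r₁.num with ha₁
  set b₁ := r₁.denom with hb₁
  set a₂ := r₂.num with ha₂
  set b₂ := r₂.denom with hb₂
  have hb₁0 : b₁ ≠ 0 := RatFunc.denom_ne_zero r₁
  have hb₂0 : b₂ ≠ 0 := RatFunc.denom_ne_zero r₂
  have hb₁' : 𝔞 b₁ ≠ 0 := RatFunc.algebraMap_ne_zero hb₁0
  have hb₂' : 𝔞 b₂ ≠ 0 := RatFunc.algebraMap_ne_zero hb₂0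
  have hc₁ : IsCoprime a₁ b₁ := RatFunc.isCoprime_num_denom r₁
  have hc₂ : IsCoprime a₂ b₂ := RatFunc.isCoprime_num_denom r₂
  have hr₁ : r₁ = 𝔞 a₁ / 𝔞 b₁ := eq_div_num_denom r₁
  have hr₂ : r₂ = 𝔞 a₂ / 𝔞 b₂ := eq_div_num_denom r₂
  have hinj : Function.Injective (𝔞) := RatFunc.algebraMap_injective k
  -- cleared-denominator forms
  have E1 : U * (a₁ * b₂ + a₂ * b₁) = V * (b₁ * b₂) := by
    apply hinj
    simp only [map_mul, map_add]
    rw [← hsum, hr₁, hr₂]
    field_simp
  have E2 : U * (a₁ * a₂) = W * (b₁ * b₂) := by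
    apply hinj
    simp only [map_mul]
    rw [← hprod, hr₁, hr₂]
    field_simp
  -- `b₁ ∣ U`
  have d1 : b₁ ∣ U * a₂ := by
    have h : b₁ ∣ (U * a₂) * a₁ := ⟨W * b₂, by rw [mul_assoc, mul_comm a₂ a₁, E2]; ring⟩
    exact hc₁.symm.dvd_of_dvd_mul_right h
  have d2 : b₁ ∣ U * b₂ := by
    have h : b₁ ∣ (U * b₂) * a₁ := by
      have h' : (U * b₂) * a₁ = b₁ * (V * b₂ - U * a₂) := by
        have := E1
        linear_combination this
      exact ⟨_, h'⟩
    exact hc₁.symm.dvd_of_dvd_mul_right h
  have d3 : b₁ ∣ U := by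
    obtain ⟨u, v, huv⟩ := hc₂
    have h : U = u * (U * a₂) + v * (U * b₂) := by
      linear_combination (-U) * huv
    rw [h]
    exact dvd_add (Dvd.dvd.mul_left d1 _) (Dvd.dvd.mul_left d2 _)
  obtain ⟨U₁, hU₁⟩ := d3
  have E1' : U₁ * (a₁ * b₂ + a₂ * b₁) = V * b₂ := by
    apply mul_left_cancel₀ hb₁0
    rw [hU₁] at E1
    linear_combination E1
  have E2' : U₁ * (a₁ * a₂) = W * b₂ := by
    apply mul_left_cancel₀ hb₁0
    rw [hU₁] at E2
    linear_combination E2
  -- `b₂ ∣ U₁`
  have d4 : b₂ ∣ U₁ * a₁ := by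
    have h : b₂ ∣ (U₁ * a₁) * a₂ := ⟨W, by rw [mul_assoc, E2']; ring⟩
    exact hc₂.symm.dvd_of_dvd_mul_right h
  have d5 : b₂ ∣ U₁ * b₁ := by
    have h : b₂ ∣ (U₁ * b₁) * a₂ := by
      have h' : (U₁ * b₁) * a₂ = b₂ * (V - U₁ * a₁) := by
        linear_combination E1'
      exact ⟨_, h'⟩
    exact hc₂.symm.dvd_of_dvd_mul_right h
  have d6 : b₂ ∣ U₁ := by
    obtain ⟨u, v, huv⟩ := hc₁
    have h : U₁ = u * (U₁ * a₁) + v * (U₁ * b₁) := by
      linear_combination (-U₁) * huv
    rw [h]
    exact dvd_add (Dvd.dvd.mul_left d4 _) (Dvd.dvd.mul_left d5 _)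
  obtain ⟨c, hc⟩ := d6
  have hV : V = c * (a₁ * b₂ + a₂ * b₁) := by
    apply mul_left_cancel₀ hb₂0
    rw [hc] at E1'
    linear_combination -E1'
  have hW : W = c * (a₁ * a₂) := by
    apply mul_left_cancel₀ hb₂0
    rw [hc] at E2'
    linear_combination -E2'
  have hU : U = c * (b₁ * b₂) := by rw [hU₁, hc]; ring
  have hcu : IsUnit c := hprim c ⟨_, hU⟩ ⟨_, hV⟩ ⟨_, hW⟩
  obtain ⟨γ, hγ, rfl⟩ := Polynomial.isUnit_iff.mp hcu
  have hγ0 : γ ≠ 0 := hγ.ne_zero
  rw [hU, hV, hW, natDegree_C_mul hγ0, natDegree_C_mul hγ0, natDegree_C_mul hγ0]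
  -- the degree computation
  set d₁ := max a₁.natDegree b₁.natDegree with hd₁
  set d₂ := max a₂.natDegree b₂.natDegree with hd₂
  have hh : height r₁ + height r₂ = d₁ + d₂ := rfl
  rw [hh]
  have ha₁d : a₁.natDegree ≤ d₁ := le_max_left _ _
  have hb₁d : b₁.natDegree ≤ d₁ := le_max_right _ _
  have ha₂d : a₂.natDegree ≤ d₂ := le_max_left _ _
  have hb₂d : b₂.natDegree ≤ d₂ := le_max_right _ _
  have u1 : (b₁ * b₂).natDegree ≤ d₁ + d₂ := natDegree_mul_le_of_le hb₁d hb₂d
  have u2 : (a₁ * a₂).natDegree ≤ d₁ + d₂ := natDegree_mul_le_of_le ha₁d ha₂d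
  have u3 : (a₁ * b₂ + a₂ * b₁).natDegree ≤ d₁ + d₂ := by
    refine (natDegree_add_le _ _).trans (max_le (natDegree_mul_le_of_le ha₁d hb₂d) ?_)
    rw [add_comm d₁ d₂]
    exact natDegree_mul_le_of_le ha₂d hb₁d
  apply le_antisymm
  · -- one of the three top coefficients is nonzero
    have k1 : (b₁ * b₂).coeff (d₁ + d₂) = b₁.coeff d₁ * b₂.coeff d₂ :=
      coeff_mul_add_eq_of_natDegree_le hb₁d hb₂d
    have k2 : (a₁ * a₂).coeff (d₁ + d₂) = a₁.coeff d₁ * a₂.coeff d₂ :=
      coeff_mul_add_eq_of_natDegree_le ha₁d ha₂d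
    have k3 : (a₁ * b₂ + a₂ * b₁).coeff (d₁ + d₂) =
        a₁.coeff d₁ * b₂.coeff d₂ + a₂.coeff d₂ * b₁.coeff d₁ := by
      rw [coeff_add, coeff_mul_add_eq_of_natDegree_le ha₁d hb₂d, add_comm d₁ d₂,
        coeff_mul_add_eq_of_natDegree_le ha₂d hb₁d]
    have n1 : a₁.coeff d₁ ≠ 0 ∨ b₁.coeff d₁ ≠ 0 := coeff_max_ne_zero hc₁
    have n2 : a₂.coeff d₂ ≠ 0 ∨ b₂.coeff d₂ ≠ 0 := coeff_max_ne_zero hc₂
    by_cases t1 : (b₁ * b₂).coeff (d₁ + d₂) = 0
    · by_cases t2 : (a₁ * a₂).coeff (d₁ + d₂) = 0
      · have t3 : (a₁ * b₂ + a₂ * b₁).coeff (d₁ + d₂) ≠ 0 := by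
          rw [k3]
          rw [k1] at t1
          rw [k2] at t2
          rcases mul_eq_zero.mp t1 with hβ | hβ
          · have hα₁ : a₁.coeff d₁ ≠ 0 := n1.resolve_right (not_not.mpr hβ)
            have hα₂ : a₂.coeff d₂ = 0 := (mul_eq_zero.mp t2).resolve_left hα₁
            have hβ₂ : b₂.coeff d₂ ≠ 0 := n2.resolve_left (not_not.mpr hα₂)
            rw [hα₂, zero_mul, add_zero]
            exact mul_ne_zero hα₁ hβ₂
          · have hα₂ : a₂.coeff d₂ ≠ 0 := n2.resolve_right (not_not.mpr hβ)
            have hα₁ : a₁.coeff d₁ = 0 := (mul_eq_zero.mp t2).resolve_right hα₂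
            have hβ₁ : b₁.coeff d₁ ≠ 0 := n1.resolve_left (not_not.mpr hα₁)
            rw [hα₁, zero_mul, zero_add]
            exact mul_ne_zero hα₂ hβ₁
        exact (le_natDegree_of_ne_zero t3).trans
          ((le_max_left _ _).trans (le_max_right _ _))
      · exact (le_natDegree_of_ne_zero t2).trans
          ((le_max_right _ _).trans (le_max_right _ _))
    · exact (le_natDegree_of_ne_zero t1).trans (le_max_left _ _)
  · exact max_le u1 (max_le u3 u2)

end

end Fermat.Agent.S52.helper6013
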