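/-
S52 / L1 (Frobenius Cayley–Hamilton, route of helper8312), leaves H2 + H3:
the `x`-level parallelogram law and the duplication law for the naive height
`ht r = max (deg num) (deg denom)` on `RatFunc k`.

Mathlib only.  Everything lives in `Fermat.Agent.S52.helper9671`.
-/
import Mathlib

namespace Fermat.Agent.S52.helper9671

open Polynomial

/-! ### Top coefficients -/

section TopCoeff

variable {k : Type*} [Field k]

/-- `TopCoeff f n c`: `f` has degree at most `n` and its coefficient of `X ^ n` is `c`. -/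
def TopCoeff (f : k[X]) (n : ℕ) (c : k) : Prop := f.natDegree ≤ n ∧ f.coeff n = c

theorem TopCoeff.mul {f g : k[X]} {m n : ℕ} {c e : k} (hf : TopCoeff f m c)
    (hg : TopCoeff g n e) : TopCoeff (f * g) (m + n) (c * e) := by
  refine ⟨natDegree_mul_le.trans (add_le_add hf.1 hg.1), ?_⟩
  rw [coeff_mul_add_eq_of_natDegree_le hf.1 hg.1, hf.2, hg.2]

theorem TopCoeff.add {f g : k[X]} {n : ℕ} {c e : k} (hf : TopCoeff f n c)
    (hg : TopCoeff g n e) : TopCoeff (f + g) n (c + e) := by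
  refine ⟨(natDegree_add_le _ _).trans (max_le hf.1 hg.1), ?_⟩
  rw [coeff_add, hf.2, hg.2]

theorem TopCoeff.neg {f : k[X]} {n : ℕ} {c : k} (hf : TopCoeff f n c) :
    TopCoeff (-f) n (-c) := by
  refine ⟨by rw [natDegree_neg]; exact hf.1, ?_⟩
  rw [coeff_neg, hf.2]

theorem TopCoeff.sub {f g : k[X]} {n : ℕ} {c e : k} (hf : TopCoeff f n c)
    (hg : TopCoeff g n e) : TopCoeff (f - g) n (c - e) := by
  rw [sub_eq_add_neg, sub_eq_add_neg]
  exact hf.add hg.neg

theorem TopCoeff.const (r : k) : TopCoeff (C r) 0 r :=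
  ⟨by simp, by simp⟩

theorem TopCoeff.zero (n : ℕ) : TopCoeff (0 : k[X]) n 0 :=
  ⟨by simp, by simp⟩

theorem TopCoeff.cast {f : k[X]} {n n' : ℕ} {c c' : k} (hf : TopCoeff f n c)
    (hn : n = n') (hc : c = c') : TopCoeff f n' c' := by
  subst hn; subst hc; exact hf

theorem TopCoeff.pow {f : k[X]} {n : ℕ} {c : k} (hf : TopCoeff f n c) (m : ℕ) :
    TopCoeff (f ^ m) (m * n) (c ^ m) := by
  refine ⟨natDegree_pow_le_of_le m hf.1, ?_⟩
  rw [coeff_pow_of_natDegree_le hf.1, hf.2]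

theorem TopCoeff.const_mul {f : k[X]} {n : ℕ} {c : k} (r : k) (hf : TopCoeff f n c) :
    TopCoeff (C r * f) n (r * c) :=
  ((TopCoeff.const r).mul hf).cast (zero_add n) rfl

/-- If the top coefficient is non-zero, the degree is exactly `n`. -/
theorem TopCoeff.natDegree_eq {f : k[X]} {n : ℕ} {c : k} (hf : TopCoeff f n c) (hc : c ≠ 0) :
    f.natDegree = n :=
  le_antisymm hf.1 (le_natDegree_of_ne_zero (by rw [hf.2]; exact hc))

theorem TopCoeff.two : TopCoeff (2 : k[X]) 0 (2 : k) := by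
  have h := TopCoeff.const (2 : k)
  rwa [show C (2 : k) = (2 : k[X]) from map_ofNat C 2] at h

theorem TopCoeff.four : TopCoeff (4 : k[X]) 0 (4 : k) := by
  have h := TopCoeff.const (4 : k)
  rwa [show C (4 : k) = (4 : k[X]) from map_ofNat C 4] at h

end TopCoeff

/-! ### Proportional primitive triples -/

section Engine

variable {k : Type*} [Field k]

/-- Bezout for a triple from "no maximal ideal contains all three". -/
theorem exists_bezout_triple {R : Type*} [CommRing R] {W U V : R}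
    (h : ∀ M : Ideal R, M.IsMaximal → ¬ (W ∈ M ∧ U ∈ M ∧ V ∈ M)) :
    ∃ p q r : R, p * W + q * U + r * V = 1 := by
  by_contra hcon
  have hI : Ideal.span ({W, U, V} : Set R) ≠ ⊤ := by
    intro htop
    have h1 : (1 : R) ∈ Ideal.span ({W, U, V} : Set R) := by rw [htop]; trivial
    rw [Ideal.span, Submodule.mem_span_triple] at h1
    obtain ⟨a, b, c, habc⟩ := h1
    exact hcon ⟨a, b, c, by simpa [smul_eq_mul] using habc⟩
  obtain ⟨M, hM, hle⟩ := Ideal.exists_le_maximal _ hI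
  exact h M hM ⟨hle (Ideal.subset_span (by simp)), hle (Ideal.subset_span (by simp)),
    hle (Ideal.subset_span (by simp))⟩

/-- Two proportional primitive triples of polynomials differ by a non-zero constant. -/
theorem exists_const_of_proportional {W U V W' U' V' : k[X]}
    (hprim : ∃ p q r : k[X], p * W + q * U + r * V = 1)
    (hprim' : ∃ p q r : k[X], p * W' + q * U' + r * V' = 1)
    (hW : W ≠ 0) (hU : W * U' = W' * U) (hV : W * V' = W' * V) :
    ∃ c : k, c ≠ 0 ∧ W' = C c * W ∧ U' = C c * U ∧ V' = C c * V := by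
  obtain ⟨p, q, r, h⟩ := hprim
  obtain ⟨p', q', r', h'⟩ := hprim'
  have h1 : W' = W * (p * W' + q * U' + r * V') := by
    linear_combination (-W') * h - q * hU - r * hV
  have h2 : W = W' * (p' * W + q' * U + r' * V) := by
    linear_combination (-W) * h' + q' * hU + r' * hV
  have h3 : (p * W' + q * U' + r * V') * (p' * W + q' * U + r' * V) = 1 := by
    have : W * ((p * W' + q * U' + r * V') * (p' * W + q' * U + r' * V)) = W * 1 := by
      rw [mul_one, ← mul_assoc, ← h1, ← h2]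
    exact mul_left_cancel₀ hW this
  have hu : IsUnit (p * W' + q * U' + r * V') := IsUnit.of_mul_eq_one _ h3
  obtain ⟨c, hc, hcu⟩ := Polynomial.isUnit_iff.mp hu
  have hc0 : c ≠ 0 := hc.ne_zero
  refine ⟨c, hc0, ?_, ?_, ?_⟩
  · rw [hcu, mul_comm]; exact h1
  · have : W * U' = W * (C c * U) := by rw [hU, h1, ← hcu]; ring
    exact mul_left_cancel₀ hW this
  · have : W * V' = W * (C c * V) := by rw [hV, h1, ← hcu]; ring
    exact mul_left_cancel₀ hW this

/-- The engine: two proportional primitive triples with non-vanishing top coefficient vectors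
have the same top degree. -/
theorem topdeg_eq_of_proportional {W U V W' U' V' : k[X]} {n n' : ℕ} {w u v w' u' v' : k}
    (hprim : ∃ p q r : k[X], p * W + q * U + r * V = 1)
    (hprim' : ∃ p q r : k[X], p * W' + q * U' + r * V' = 1)
    (hW : W ≠ 0) (hU : W * U' = W' * U) (hV : W * V' = W' * V)
    (tW : TopCoeff W n w) (tU : TopCoeff U n u) (tV : TopCoeff V n v)
    (hne : ¬ (w = 0 ∧ u = 0 ∧ v = 0))
    (tW' : TopCoeff W' n' w') (tU' : TopCoeff U' n' u') (tV' : TopCoeff V' n' v')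
    (hne' : ¬ (w' = 0 ∧ u' = 0 ∧ v' = 0)) : n = n' := by
  obtain ⟨c, hc, eW, eU, eV⟩ := exists_const_of_proportional hprim hprim' hW hU hV
  have dW : W'.natDegree = W.natDegree := by rw [eW, natDegree_C_mul hc]
  have dU : U'.natDegree = U.natDegree := by rw [eU, natDegree_C_mul hc]
  have dV : V'.natDegree = V.natDegree := by rw [eV, natDegree_C_mul hc]
  apply le_antisymm
  · by_cases h1 : w = 0
    · by_cases h2 : u = 0
      · have h3 : v ≠ 0 := fun h3 => hne ⟨h1, h2, h3⟩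
        rw [← tV.natDegree_eq h3, ← dV]; exact tV'.1
      · rw [← tU.natDegree_eq h2, ← dU]; exact tU'.1
    · rw [← tW.natDegree_eq h1, ← dW]; exact tW'.1
  · by_cases h1 : w' = 0
    · by_cases h2 : u' = 0
      · have h3 : v' ≠ 0 := fun h3 => hne' ⟨h1, h2, h3⟩
        rw [← tV'.natDegree_eq h3, dV]; exact tV.1
      · rw [← tU'.natDegree_eq h2, dU]; exact tU.1
    · rw [← tW'.natDegree_eq h1, dW]; exact tW.1

end Engine

/-! ### The three `(2,2)`-forms of the addition law and the two `4`-forms of duplication -/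

section Forms

variable {R : Type*} [CommRing R]

/-- `W = (a₁b₂ - a₂b₁)²`. -/
def formW (a1 b1 a2 b2 : R) : R := (a1 * b2 - a2 * b1) ^ 2

/-- `U = 2((a₁a₂ + A b₁b₂)(a₁b₂ + a₂b₁) + 2B b₁²b₂²)`. -/
def formU (A B a1 b1 a2 b2 : R) : R :=
  2 * ((a1 * a2 + A * (b1 * b2)) * (a1 * b2 + a2 * b1) + 2 * (B * (b1 ^ 2 * b2 ^ 2)))

/-- `V = (a₁a₂ - A b₁b₂)² - 4B b₁b₂(a₁b₂ + a₂b₁)`. -/
def formV (A B a1 b1 a2 b2 : R) : R :=
  (a1 * a2 - A * (b1 * b2)) ^ 2 - 4 * (B * (b1 * b2 * (a1 * b2 + a2 * b1)))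

/-- Numerator of the duplication formula, homogenised: `(a² - A b²)² - 8 B a b³`. -/
def formN (A B a b : R) : R := (a ^ 2 - A * b ^ 2) ^ 2 - 8 * (B * (a * b ^ 3))

/-- Denominator of the duplication formula, homogenised: `4 b (a³ + A a b² + B b³)`. -/
def formD (A B a b : R) : R := 4 * (b * (a ^ 3 + A * (a * b ^ 2) + B * b ^ 3))

variable {S : Type*} [CommRing S]

theorem map_formW (φ : R →+* S) (a1 b1 a2 b2 : R) :
    φ (formW a1 b1 a2 b2) = formW (φ a1) (φ b1) (φ a2) (φ b2) := by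
  simp [formW]

theorem map_formU (φ : R →+* S) (A B a1 b1 a2 b2 : R) :
    φ (formU A B a1 b1 a2 b2) = formU (φ A) (φ B) (φ a1) (φ b1) (φ a2) (φ b2) := by
  simp [formU, map_ofNat]

theorem map_formV (φ : R →+* S) (A B a1 b1 a2 b2 : R) :
    φ (formV A B a1 b1 a2 b2) = formV (φ A) (φ B) (φ a1) (φ b1) (φ a2) (φ b2) := by
  simp [formV, map_ofNat]

theorem map_formN (φ : R →+* S) (A B a b : R) :
    φ (formN A B a b) = formN (φ A) (φ B) (φ a) (φ b) := by
  simp [formN, map_ofNat]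

theorem map_formD (φ : R →+* S) (A B a b : R) :
    φ (formD A B a b) = formD (φ A) (φ B) (φ a) (φ b) := by
  simp [formD, map_ofNat]

end Forms

section FormsField

variable {F : Type*} [Field F]

theorem formW_div (α1 β1 α2 β2 : F) (h1 : β1 ≠ 0) (h2 : β2 ≠ 0) :
    formW α1 β1 α2 β2 = (α1 / β1 - α2 / β2) ^ 2 * (β1 ^ 2 * β2 ^ 2) := by
  unfold formW; field_simp

theorem formU_div (A B α1 β1 α2 β2 : F) (h1 : β1 ≠ 0) (h2 : β2 ≠ 0) :
    formU A B α1 β1 α2 β2 =
      2 * ((α1 / β1 * (α2 / β2) + A) * (α1 / β1 + α2 / β2) + 2 * B) * (β1 ^ 2 * β2 ^ 2) := by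
  unfold formU; field_simp

theorem formV_div (A B α1 β1 α2 β2 : F) (h1 : β1 ≠ 0) (h2 : β2 ≠ 0) :
    formV A B α1 β1 α2 β2 =
      ((α1 / β1 * (α2 / β2) - A) ^ 2 - 4 * B * (α1 / β1 + α2 / β2)) * (β1 ^ 2 * β2 ^ 2) := by
  unfold formV; field_simp

theorem formN_div (A B α β : F) (h : β ≠ 0) :
    formN A B α β = (((α / β) ^ 2 - A) ^ 2 - 8 * B * (α / β)) * β ^ 4 := by
  unfold formN; field_simp

theorem formD_div (A B α β : F) (h : β ≠ 0) :
    formD A B α β = 4 * ((α / β) ^ 3 + A * (α / β) + B) * β ^ 4 := by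
  unfold formD; field_simp

/-- The classical resultant identity behind the duplication formula. -/
theorem dup_resultant {A B x : F} (hf : x ^ 3 + A * x + B = 0)
    (hF : (x ^ 2 - A) ^ 2 - 8 * B * x = 0) : 4 * A ^ 3 + 27 * B ^ 2 = 0 := by
  linear_combination (3 * x ^ 2 + 4 * A) * hF - (3 * x ^ 3 - 5 * A * x - 27 * B) * hf

/-- The duplication forms have no common zero on `ℙ¹`. -/
theorem formsDup_no_common_zero {A B : F} (h2 : (2 : F) ≠ 0)
    (hΔ : 4 * A ^ 3 + 27 * B ^ 2 ≠ 0) {a b : F} (h : ¬ (a = 0 ∧ b = 0)) :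
    ¬ (formD A B a b = 0 ∧ formN A B a b = 0) := by
  rintro ⟨hD, hN⟩
  have h4 : (4 : F) ≠ 0 := by
    have : (4 : F) = 2 * 2 := by norm_num
    rw [this]; exact mul_ne_zero h2 h2
  by_cases hb : b = 0
  · have ha : a ≠ 0 := fun ha => h ⟨ha, hb⟩
    rw [formN, hb] at hN
    have : a ^ 4 = 0 := by linear_combination hN
    exact ha (pow_eq_zero_iff (by norm_num) |>.mp this)
  · rw [formD_div A B a b hb] at hD
    rw [formN_div A B a b hb] at hN
    have hb4 : b ^ 4 ≠ 0 := pow_ne_zero 4 hb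
    have hf : (a / b) ^ 3 + A * (a / b) + B = 0 := by
      have := (mul_eq_zero.mp hD).resolve_right hb4
      exact (mul_eq_zero.mp this).resolve_left h4
    have hF : ((a / b) ^ 2 - A) ^ 2 - 8 * B * (a / b) = 0 :=
      (mul_eq_zero.mp hN).resolve_right hb4
    exact hΔ (dup_resultant hf hF)

/-- The three addition forms have no common zero on `ℙ¹ × ℙ¹`. -/
theorem forms_no_common_zero {A B : F} (h2 : (2 : F) ≠ 0)
    (hΔ : 4 * A ^ 3 + 27 * B ^ 2 ≠ 0) {a1 b1 a2 b2 : F}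
    (h1 : ¬ (a1 = 0 ∧ b1 = 0)) (h2' : ¬ (a2 = 0 ∧ b2 = 0)) :
    ¬ (formW a1 b1 a2 b2 = 0 ∧ formU A B a1 b1 a2 b2 = 0 ∧ formV A B a1 b1 a2 b2 = 0) := by
  rintro ⟨hW, hU, hV⟩
  have h4 : (4 : F) ≠ 0 := by
    have : (4 : F) = 2 * 2 := by norm_num
    rw [this]; exact mul_ne_zero h2 h2
  have hW' : a1 * b2 = a2 * b1 := by
    have := pow_eq_zero_iff (n := 2) (by norm_num) |>.mp hW
    exact sub_eq_zero.mp this
  by_cases hb1 : b1 = 0
  · have ha1 : a1 ≠ 0 := fun h => h1 ⟨h, hb1⟩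
    have hb2 : b2 = 0 := by
      rw [hb1, mul_zero] at hW'
      exact (mul_eq_zero.mp hW').resolve_left ha1
    have ha2 : a2 ≠ 0 := fun h => h2' ⟨h, hb2⟩
    rw [formV, hb1, hb2] at hV
    have : (a1 * a2) ^ 2 = 0 := by linear_combination hV
    exact mul_ne_zero ha1 ha2 (pow_eq_zero_iff (by norm_num) |>.mp this)
  · have hb2 : b2 ≠ 0 := by
      intro hb2
      rw [hb2, mul_zero] at hW'
      exact h2' ⟨(mul_eq_zero.mp hW'.symm).resolve_right hb1, hb2⟩
    have hx : a1 / b1 = a2 / b2 := by rw [div_eq_div_iff hb1 hb2]; exact hW'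
    rw [formU_div A B a1 b1 a2 b2 hb1 hb2, ← hx] at hU
    rw [formV_div A B a1 b1 a2 b2 hb1 hb2, ← hx] at hV
    have hbb : b1 ^ 2 * b2 ^ 2 ≠ 0 := mul_ne_zero (pow_ne_zero 2 hb1) (pow_ne_zero 2 hb2)
    have hU' := (mul_eq_zero.mp hU).resolve_right hbb
    have hV' := (mul_eq_zero.mp hV).resolve_right hbb
    have hf : (a1 / b1) ^ 3 + A * (a1 / b1) + B = 0 := by
      have : 4 * ((a1 / b1) ^ 3 + A * (a1 / b1) + B) = 0 := by linear_combination hU'
      exact (mul_eq_zero.mp this).resolve_left h4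
    have hF : ((a1 / b1) ^ 2 - A) ^ 2 - 8 * B * (a1 / b1) = 0 := by linear_combination hV'
    exact hΔ (dup_resultant hf hF)

/-- `(b₃b₄ : a₃b₄ + a₄b₃ : a₃a₄)` is a well-defined point of `ℙ²`. -/
theorem sumprod_no_common_zero {a3 b3 a4 b4 : F} (h3 : ¬ (a3 = 0 ∧ b3 = 0))
    (h4 : ¬ (a4 = 0 ∧ b4 = 0)) :
    ¬ (b3 * b4 = 0 ∧ a3 * b4 + a4 * b3 = 0 ∧ a3 * a4 = 0) := by
  rintro ⟨hW, hU, hV⟩
  rcases mul_eq_zero.mp hW with hb3 | hb4
  · have ha3 : a3 ≠ 0 := fun h => h3 ⟨h, hb3⟩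
    have ha4 : a4 = 0 := (mul_eq_zero.mp hV).resolve_left ha3
    have hb4 : b4 ≠ 0 := fun h => h4 ⟨ha4, h⟩
    rw [hb3, ha4] at hU
    simp at hU
    exact hU.elim ha3 hb4
  · have ha4 : a4 ≠ 0 := fun h => h4 ⟨h, hb4⟩
    have ha3 : a3 = 0 := (mul_eq_zero.mp hV).resolve_right ha4
    have hb3 : b3 ≠ 0 := fun h => h3 ⟨ha3, h⟩
    rw [hb4, ha3] at hU
    simp at hU
    exact hU.elim ha4 hb3

end FormsField

/-! ### Primitivity and top coefficients of the forms evaluated at coprime pairs -/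

section Poly

variable {k : Type*} [Field k]

theorem not_both_zero_of_isCoprime {R S : Type*} [CommRing R] [CommRing S] [Nontrivial S]
    (φ : R →+* S) {a b : R} (h : IsCoprime a b) : ¬ (φ a = 0 ∧ φ b = 0) := by
  rintro ⟨e1, e2⟩
  have := h.map φ
  rw [e1, e2] at this
  exact not_isCoprime_zero_zero this

theorem forms_primitive {A B : k} (h2 : (2 : k) ≠ 0) (hΔ : 4 * A ^ 3 + 27 * B ^ 2 ≠ 0)
    {a1 b1 a2 b2 : k[X]} (h1 : IsCoprime a1 b1) (h2' : IsCoprime a2 b2) :
    ∃ p q r : k[X], p * formW a1 b1 a2 b2 + q * formU (C A) (C B) a1 b1 a2 b2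
      + r * formV (C A) (C B) a1 b1 a2 b2 = 1 := by
  apply exists_bezout_triple
  intro M hM
  let _ := Ideal.Quotient.field M
  rintro ⟨hW, hU, hV⟩
  have hW' := Ideal.Quotient.eq_zero_iff_mem.mpr hW
  have hU' := Ideal.Quotient.eq_zero_iff_mem.mpr hU
  have hV' := Ideal.Quotient.eq_zero_iff_mem.mpr hV
  rw [map_formW] at hW'
  rw [map_formU] at hU'
  rw [map_formV] at hV'
  have h2F : (2 : k[X] ⧸ M) ≠ 0 := by
    have := (map_ne_zero ((Ideal.Quotient.mk M).comp C)).mpr h2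
    simpa [map_ofNat] using this
  have hΔF : 4 * (Ideal.Quotient.mk M (C A)) ^ 3 + 27 * (Ideal.Quotient.mk M (C B)) ^ 2 ≠ 0 := by
    have := (map_ne_zero ((Ideal.Quotient.mk M).comp C)).mpr hΔ
    simpa [map_ofNat] using this
  exact forms_no_common_zero h2F hΔF (not_both_zero_of_isCoprime _ h1)
    (not_both_zero_of_isCoprime _ h2') ⟨hW', hU', hV'⟩

theorem formsDup_primitive {A B : k} (h2 : (2 : k) ≠ 0) (hΔ : 4 * A ^ 3 + 27 * B ^ 2 ≠ 0)
    {a b : k[X]} (h : IsCoprime a b) :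
    ∃ p q r : k[X], p * formD (C A) (C B) a b + q * formN (C A) (C B) a b + r * 0 = 1 := by
  apply exists_bezout_triple
  intro M hM
  let _ := Ideal.Quotient.field M
  rintro ⟨hD, hN, -⟩
  have hD' := Ideal.Quotient.eq_zero_iff_mem.mpr hD
  have hN' := Ideal.Quotient.eq_zero_iff_mem.mpr hN
  rw [map_formD] at hD'
  rw [map_formN] at hN'
  have h2F : (2 : k[X] ⧸ M) ≠ 0 := by
    have := (map_ne_zero ((Ideal.Quotient.mk M).comp C)).mpr h2
    simpa [map_ofNat] using this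
  have hΔF : 4 * (Ideal.Quotient.mk M (C A)) ^ 3 + 27 * (Ideal.Quotient.mk M (C B)) ^ 2 ≠ 0 := by
    have := (map_ne_zero ((Ideal.Quotient.mk M).comp C)).mpr hΔ
    simpa [map_ofNat] using this
  exact formsDup_no_common_zero h2F hΔF (not_both_zero_of_isCoprime _ h) ⟨hD', hN'⟩

theorem sumprod_primitive {a3 b3 a4 b4 : k[X]} (h3 : IsCoprime a3 b3) (h4 : IsCoprime a4 b4) :
    ∃ p q r : k[X], p * (b3 * b4) + q * (a3 * b4 + a4 * b3) + r * (a3 * a4) = 1 := by
  apply exists_bezout_triple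
  intro M hM
  let _ := Ideal.Quotient.field M
  rintro ⟨hW, hU, hV⟩
  have hW' := Ideal.Quotient.eq_zero_iff_mem.mpr hW
  have hU' := Ideal.Quotient.eq_zero_iff_mem.mpr hU
  have hV' := Ideal.Quotient.eq_zero_iff_mem.mpr hV
  rw [map_mul] at hW' hV'
  rw [map_add, map_mul, map_mul] at hU'
  exact sumprod_no_common_zero (not_both_zero_of_isCoprime _ h3)
    (not_both_zero_of_isCoprime _ h4) ⟨hW', hU', hV'⟩

theorem pair_primitive {a b : k[X]} (h : IsCoprime a b) :
    ∃ p q r : k[X], p * b + q * a + r * 0 = 1 := by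
  obtain ⟨p, q, hpq⟩ := h
  exact ⟨q, p, 0, by linear_combination hpq⟩

variable {a1 b1 a2 b2 : k[X]} {d1 d2 : ℕ} {α1 β1 α2 β2 : k}

theorem topCoeff_formW (ta1 : TopCoeff a1 d1 α1) (tb1 : TopCoeff b1 d1 β1)
    (ta2 : TopCoeff a2 d2 α2) (tb2 : TopCoeff b2 d2 β2) :
    TopCoeff (formW a1 b1 a2 b2) (2 * d1 + 2 * d2) (formW α1 β1 α2 β2) := by
  unfold formW
  exact (((ta1.mul tb2).sub ((ta2.mul tb1).cast (add_comm _ _) rfl)).pow 2).cast (by ring) rfl

theorem topCoeff_formU (A B : k) (ta1 : TopCoeff a1 d1 α1) (tb1 : TopCoeff b1 d1 β1)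
    (ta2 : TopCoeff a2 d2 α2) (tb2 : TopCoeff b2 d2 β2) :
    TopCoeff (formU (C A) (C B) a1 b1 a2 b2) (2 * d1 + 2 * d2) (formU A B α1 β1 α2 β2) := by
  unfold formU
  have e1 : TopCoeff (a1 * a2 + C A * (b1 * b2)) (d1 + d2) (α1 * α2 + A * (β1 * β2)) :=
    (ta1.mul ta2).add ((tb1.mul tb2).const_mul A)
  have e2 : TopCoeff (a1 * b2 + a2 * b1) (d1 + d2) (α1 * β2 + α2 * β1) :=
    (ta1.mul tb2).add ((ta2.mul tb1).cast (add_comm _ _) rfl)
  have e3 : TopCoeff (2 * (C B * (b1 ^ 2 * b2 ^ 2))) (d1 + d2 + (d1 + d2))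
      (2 * (B * (β1 ^ 2 * β2 ^ 2))) :=
    (TopCoeff.two.mul (((tb1.pow 2).mul (tb2.pow 2)).const_mul B)).cast (by ring) rfl
  exact (TopCoeff.two.mul ((e1.mul e2).add e3)).cast (by ring) rfl

theorem topCoeff_formV (A B : k) (ta1 : TopCoeff a1 d1 α1) (tb1 : TopCoeff b1 d1 β1)
    (ta2 : TopCoeff a2 d2 α2) (tb2 : TopCoeff b2 d2 β2) :
    TopCoeff (formV (C A) (C B) a1 b1 a2 b2) (2 * d1 + 2 * d2) (formV A B α1 β1 α2 β2) := by
  unfold formV
  have e1 : TopCoeff (a1 * a2 - C A * (b1 * b2)) (d1 + d2) (α1 * α2 - A * (β1 * β2)) :=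
    (ta1.mul ta2).sub ((tb1.mul tb2).const_mul A)
  have e2 : TopCoeff (a1 * b2 + a2 * b1) (d1 + d2) (α1 * β2 + α2 * β1) :=
    (ta1.mul tb2).add ((ta2.mul tb1).cast (add_comm _ _) rfl)
  have e3 : TopCoeff (4 * (C B * (b1 * b2 * (a1 * b2 + a2 * b1)))) (2 * (d1 + d2))
      (4 * (B * (β1 * β2 * (α1 * β2 + α2 * β1)))) :=
    (TopCoeff.four.mul (((tb1.mul tb2).mul e2).const_mul B)).cast (by ring) rfl
  exact ((e1.pow 2).sub e3).cast (by ring) rfl

variable {a b : k[X]} {d : ℕ} {α β : k}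

theorem topCoeff_formN (A B : k) (ta : TopCoeff a d α) (tb : TopCoeff b d β) :
    TopCoeff (formN (C A) (C B) a b) (4 * d) (formN A B α β) := by
  unfold formN
  have e1 : TopCoeff (a ^ 2 - C A * b ^ 2) (2 * d) (α ^ 2 - A * β ^ 2) :=
    (ta.pow 2).sub ((tb.pow 2).const_mul A)
  have h8 : TopCoeff (8 : k[X]) 0 (8 : k) := by
    have h := TopCoeff.const (8 : k)
    rwa [show C (8 : k) = (8 : k[X]) from map_ofNat C 8] at h
  have e2 : TopCoeff (8 * (C B * (a * b ^ 3))) (2 * (2 * d)) (8 * (B * (α * β ^ 3))) :=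
    (h8.mul ((ta.mul (tb.pow 3)).const_mul B)).cast (by ring) rfl
  exact ((e1.pow 2).sub e2).cast (by ring) rfl

theorem topCoeff_formD (A B : k) (ta : TopCoeff a d α) (tb : TopCoeff b d β) :
    TopCoeff (formD (C A) (C B) a b) (4 * d) (formD A B α β) := by
  unfold formD
  have e1 : TopCoeff (a ^ 3 + C A * (a * b ^ 2) + C B * b ^ 3) (3 * d)
      (α ^ 3 + A * (α * β ^ 2) + B * β ^ 3) :=
    ((ta.pow 3).add (((ta.mul (tb.pow 2)).const_mul A).cast (by ring) rfl)).add
      ((tb.pow 3).const_mul B)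
  exact (TopCoeff.four.mul (tb.mul e1)).cast (by ring) rfl

/-- Top coefficient data of a pair with non-zero second entry at `max` of the degrees. -/
theorem topCoeff_pair (a b : k[X]) (hb : b ≠ 0) :
    TopCoeff a (max a.natDegree b.natDegree) (a.coeff (max a.natDegree b.natDegree)) ∧
    TopCoeff b (max a.natDegree b.natDegree) (b.coeff (max a.natDegree b.natDegree)) ∧
    ¬ (a.coeff (max a.natDegree b.natDegree) = 0 ∧
        b.coeff (max a.natDegree b.natDegree) = 0) := by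
  refine ⟨⟨le_max_left _ _, rfl⟩, ⟨le_max_right _ _, rfl⟩, ?_⟩
  rintro ⟨h1, h2⟩
  rcases le_total a.natDegree b.natDegree with h | h
  · rw [max_eq_right h] at h2
    exact hb (leadingCoeff_eq_zero.mp h2)
  · rw [max_eq_left h] at h1
    have ha : a = 0 := leadingCoeff_eq_zero.mp h1
    rw [ha, natDegree_zero] at h
    rw [ha, natDegree_zero, max_eq_right (Nat.zero_le _)] at h2
    exact hb (leadingCoeff_eq_zero.mp h2)

end Poly

/-! ### The height on `RatFunc k` -/

section Height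

variable {k : Type*} [Field k]

/-- The naive height of a rational function: `max (deg num) (deg denom)`, i.e. its degree
as a map `ℙ¹ → ℙ¹` (`0` for constants). -/
noncomputable def ht (r : RatFunc k) : ℕ := max r.num.natDegree r.denom.natDegree

theorem ht_def (r : RatFunc k) : ht r = max r.num.natDegree r.denom.natDegree := rfl

/-- Top-coefficient data of a rational function at level `ht r`. -/
theorem exists_topCoeff (r : RatFunc k) :
    ∃ α β : k, TopCoeff r.num (ht r) α ∧ TopCoeff r.denom (ht r) β ∧ ¬ (α = 0 ∧ β = 0) :=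
  ⟨_, _, topCoeff_pair r.num r.denom r.denom_ne_zero⟩

theorem eq_num_div_denom (r : RatFunc k) :
    r = algebraMap k[X] (RatFunc k) r.num / algebraMap k[X] (RatFunc k) r.denom :=
  (RatFunc.num_div_denom r).symm

theorem algebraMap_denom_ne_zero (r : RatFunc k) :
    algebraMap k[X] (RatFunc k) r.denom ≠ 0 :=
  RatFunc.algebraMap_ne_zero r.denom_ne_zero

/-- The height of `a / b` for a coprime pair. -/
theorem ht_div_of_isCoprime {a b : k[X]} (hab : IsCoprime a b) (hb : b ≠ 0) :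
    ht (algebraMap k[X] (RatFunc k) a / algebraMap k[X] (RatFunc k) b) =
      max a.natDegree b.natDegree := by
  set r : RatFunc k := algebraMap k[X] (RatFunc k) a / algebraMap k[X] (RatFunc k) b with hr
  have hcross : r.num * b = a * r.denom := (RatFunc.num_mul_eq_mul_denom_iff hb).mpr hr
  obtain ⟨α, β, ta, tb, hne⟩ := exists_topCoeff r
  obtain ⟨ta', tb', hne'⟩ := topCoeff_pair a b hb
  refine topdeg_eq_of_proportional (pair_primitive r.isCoprime_num_denom) (pair_primitive hab)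
    r.denom_ne_zero (by linear_combination -hcross) (by ring) tb ta (TopCoeff.zero _)
    (fun h => hne ⟨h.2.1, h.1⟩) tb' ta' (TopCoeff.zero _) (fun h => hne' ⟨h.2.1, h.1⟩)

/-- **x-level parallelogram law** for the height on `RatFunc k`: if `x₃, x₄` are the
`x`-coordinates of `P ± Q` on `y² = x³ + A x + B`, given through their symmetric functions
in terms of `x₁ = x(P) ≠ x₂ = x(Q)`, then `ht x₃ + ht x₄ = 2 ht x₁ + 2 ht x₂`. -/
theorem ht_parallelogram {A B : k} (h2 : (2 : k) ≠ 0) (hΔ : 4 * A ^ 3 + 27 * B ^ 2 ≠ 0)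
    (x1 x2 x3 x4 : RatFunc k) (hne : x1 ≠ x2)
    (hs : (x3 + x4) * (x1 - x2) ^ 2 =
      2 * ((x1 * x2 + RatFunc.C A) * (x1 + x2) + 2 * RatFunc.C B))
    (hp : x3 * x4 * (x1 - x2) ^ 2 =
      (x1 * x2 - RatFunc.C A) ^ 2 - 4 * RatFunc.C B * (x1 + x2)) :
    ht x3 + ht x4 = 2 * ht x1 + 2 * ht x2 := by
  obtain ⟨α1, β1, ta1, tb1, hne1⟩ := exists_topCoeff x1
  obtain ⟨α2, β2, ta2, tb2, hne2⟩ := exists_topCoeff x2
  obtain ⟨α3, β3, ta3, tb3, hne3⟩ := exists_topCoeff x3
  obtain ⟨α4, β4, ta4, tb4, hne4⟩ := exists_topCoeff x4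
  set ι : k[X] →+* RatFunc k := algebraMap k[X] (RatFunc k) with hι
  have e1 : x1 = ι x1.num / ι x1.denom := eq_num_div_denom x1
  have e2 : x2 = ι x2.num / ι x2.denom := eq_num_div_denom x2
  have n1 : ι x1.denom ≠ 0 := algebraMap_denom_ne_zero x1
  have n2 : ι x2.denom ≠ 0 := algebraMap_denom_ne_zero x2
  have n3 : ι x3.denom ≠ 0 := algebraMap_denom_ne_zero x3
  have n4 : ι x4.denom ≠ 0 := algebraMap_denom_ne_zero x4
  have f3 : ι x3.num = x3 * ι x3.denom := (div_eq_iff n3).mp (eq_num_div_denom x3).symm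
  have f4 : ι x4.num = x4 * ι x4.denom := (div_eq_iff n4).mp (eq_num_div_denom x4).symm
  have hinj : Function.Injective ι := IsFractionRing.injective k[X] (RatFunc k)
  have hCA : ι (C A) = RatFunc.C A := RatFunc.algebraMap_C A
  have hCB : ι (C B) = RatFunc.C B := RatFunc.algebraMap_C B
  -- images of the forms in the fraction field
  have iW : ι (formW x1.num x1.denom x2.num x2.denom) =
      (x1 - x2) ^ 2 * (ι x1.denom ^ 2 * ι x2.denom ^ 2) := by
    rw [map_formW, formW_div _ _ _ _ n1 n2, ← e1, ← e2]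
  have iU : ι (formU (C A) (C B) x1.num x1.denom x2.num x2.denom) =
      2 * ((x1 * x2 + RatFunc.C A) * (x1 + x2) + 2 * RatFunc.C B) *
        (ι x1.denom ^ 2 * ι x2.denom ^ 2) := by
    rw [map_formU, formU_div _ _ _ _ _ _ n1 n2, ← e1, ← e2, hCA, hCB]
  have iV : ι (formV (C A) (C B) x1.num x1.denom x2.num x2.denom) =
      ((x1 * x2 - RatFunc.C A) ^ 2 - 4 * RatFunc.C B * (x1 + x2)) *
        (ι x1.denom ^ 2 * ι x2.denom ^ 2) := by
    rw [map_formV, formV_div _ _ _ _ _ _ n1 n2, ← e1, ← e2, hCA, hCB]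
  have iS : ι (x3.num * x4.denom + x4.num * x3.denom) =
      (x3 + x4) * (ι x3.denom * ι x4.denom) := by
    rw [map_add, map_mul, map_mul, f3, f4]; ring
  have iP : ι (x3.num * x4.num) = (x3 * x4) * (ι x3.denom * ι x4.denom) := by
    rw [map_mul, f3, f4]; ring
  have iB : ι (x3.denom * x4.denom) = ι x3.denom * ι x4.denom := map_mul _ _ _
  have hW0 : formW x1.num x1.denom x2.num x2.denom ≠ 0 := by
    intro h0
    have := congrArg ι h0
    rw [iW, map_zero] at this
    have hbb : ι x1.denom ^ 2 * ι x2.denom ^ 2 ≠ 0 :=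
      mul_ne_zero (pow_ne_zero 2 n1) (pow_ne_zero 2 n2)
    have h3 := (mul_eq_zero.mp this).resolve_right hbb
    exact hne (sub_eq_zero.mp (pow_eq_zero_iff (n := 2) (by norm_num) |>.mp h3))
  have hU : formW x1.num x1.denom x2.num x2.denom * (x3.num * x4.denom + x4.num * x3.denom) =
      (x3.denom * x4.denom) * formU (C A) (C B) x1.num x1.denom x2.num x2.denom := by
    apply hinj
    rw [map_mul ι (formW x1.num x1.denom x2.num x2.denom),
      map_mul ι (x3.denom * x4.denom), iW, iU, iS, iB]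
    linear_combination (ι x1.denom ^ 2 * ι x2.denom ^ 2 * (ι x3.denom * ι x4.denom)) * hs
  have hV : formW x1.num x1.denom x2.num x2.denom * (x3.num * x4.num) =
      (x3.denom * x4.denom) * formV (C A) (C B) x1.num x1.denom x2.num x2.denom := by
    apply hinj
    rw [map_mul ι (formW x1.num x1.denom x2.num x2.denom),
      map_mul ι (x3.denom * x4.denom), iW, iV, iP, iB]
    linear_combination (ι x1.denom ^ 2 * ι x2.denom ^ 2 * (ι x3.denom * ι x4.denom)) * hp
  have key := topdeg_eq_of_proportional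
    (forms_primitive h2 hΔ x1.isCoprime_num_denom x2.isCoprime_num_denom)
    (sumprod_primitive x3.isCoprime_num_denom x4.isCoprime_num_denom)
    hW0 hU hV
    (topCoeff_formW ta1 tb1 ta2 tb2) (topCoeff_formU A B ta1 tb1 ta2 tb2)
    (topCoeff_formV A B ta1 tb1 ta2 tb2)
    (forms_no_common_zero h2 hΔ hne1 hne2)
    (tb3.mul tb4) ((ta3.mul tb4).add ((ta4.mul tb3).cast (add_comm _ _) rfl)) (ta3.mul ta4)
    (sumprod_no_common_zero hne3 hne4)
  exact key.symm

/-- **Duplication law** for the height on `RatFunc k`: if `x'` is the `x`-coordinate of `2P`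
on `y² = x³ + A x + B` (with `x = x(P)`, `2P ≠ 0`), then `ht x' = 4 ht x`. -/
theorem ht_duplication {A B : k} (h2 : (2 : k) ≠ 0) (hΔ : 4 * A ^ 3 + 27 * B ^ 2 ≠ 0)
    (x x' : RatFunc k) (hx : x ^ 3 + RatFunc.C A * x + RatFunc.C B ≠ 0)
    (h : x' * (4 * (x ^ 3 + RatFunc.C A * x + RatFunc.C B)) =
      (x ^ 2 - RatFunc.C A) ^ 2 - 8 * RatFunc.C B * x) :
    ht x' = 4 * ht x := by
  obtain ⟨α, β, ta, tb, hne⟩ := exists_topCoeff x
  obtain ⟨α', β', ta', tb', hne'⟩ := exists_topCoeff x'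
  set ι : k[X] →+* RatFunc k := algebraMap k[X] (RatFunc k) with hι
  have e : x = ι x.num / ι x.denom := eq_num_div_denom x
  have n : ι x.denom ≠ 0 := algebraMap_denom_ne_zero x
  have n' : ι x'.denom ≠ 0 := algebraMap_denom_ne_zero x'
  have f' : ι x'.num = x' * ι x'.denom := (div_eq_iff n').mp (eq_num_div_denom x').symm
  have hinj : Function.Injective ι := IsFractionRing.injective k[X] (RatFunc k)
  have hCA : ι (C A) = RatFunc.C A := RatFunc.algebraMap_C A
  have hCB : ι (C B) = RatFunc.C B := RatFunc.algebraMap_C B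
  have h4 : (4 : RatFunc k) ≠ 0 := by
    have h4k : (4 : k) ≠ 0 := by
      have : (4 : k) = 2 * 2 := by norm_num
      rw [this]; exact mul_ne_zero h2 h2
    have := (map_ne_zero (algebraMap k (RatFunc k))).mpr h4k
    simpa [map_ofNat] using this
  have iD : ι (formD (C A) (C B) x.num x.denom) =
      4 * (x ^ 3 + RatFunc.C A * x + RatFunc.C B) * ι x.denom ^ 4 := by
    rw [map_formD, formD_div _ _ _ _ n, ← e, hCA, hCB]
  have iN : ι (formN (C A) (C B) x.num x.denom) =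
      ((x ^ 2 - RatFunc.C A) ^ 2 - 8 * RatFunc.C B * x) * ι x.denom ^ 4 := by
    rw [map_formN, formN_div _ _ _ _ n, ← e, hCA, hCB]
  have hD0 : formD (C A) (C B) x.num x.denom ≠ 0 := by
    intro h0
    have := congrArg ι h0
    rw [iD, map_zero] at this
    exact mul_ne_zero (mul_ne_zero h4 hx) (pow_ne_zero 4 n) this
  have hU : formD (C A) (C B) x.num x.denom * x'.num =
      x'.denom * formN (C A) (C B) x.num x.denom := by
    apply hinj
    rw [map_mul ι (formD (C A) (C B) x.num x.denom), map_mul ι x'.denom, iD, iN, f']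
    linear_combination (ι x.denom ^ 4 * ι x'.denom) * h
  have key := topdeg_eq_of_proportional
    (formsDup_primitive h2 hΔ x.isCoprime_num_denom) (pair_primitive x'.isCoprime_num_denom)
    hD0 hU (by ring)
    (topCoeff_formD A B ta tb) (topCoeff_formN A B ta tb) (TopCoeff.zero _)
    (fun h => formsDup_no_common_zero h2 hΔ hne ⟨h.1, h.2.1⟩)
    tb' ta' (TopCoeff.zero _) (fun h => hne' ⟨h.2.1, h.1⟩)
  exact key.symm

end Height

end Fermat.Agent.S52.helper9671
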