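/-
S52 helper module (helper2957): assembly of the Frobenius Cayley–Hamilton relation
`φ² - a φ + ℓ = 0` on `E(K)` for `E : y² = x³ + A x + B` over `ZMod ℓ`, `ℓ` odd, `K` an
algebraically closed field over `ZMod ℓ`, `a = ℓ + 1 - #E(ZMod ℓ)` (Manin's method).

It combines the landed leaves: RatFunc heights (helper6013), the x-level parallelogram and
duplication laws (helper9671), the curve-level parallelogram law (helper1913), the abstract Manin
ending (helper1617), the Manin count (helper2468), the twist-transport maps (helper2957_TwistHom),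
the generic point (helper586) and the generic point principle (helper1104).
-/
import Mathlib
import Fermat.Agent.S52.helper2957_TwistHom
import Fermat.Agent.S52.helper1617_QuadForm
import Fermat.Agent.S52.helper6013_RatFuncHeight
import Fermat.Agent.S52.helper9671_HeightQuad
import Fermat.Agent.S52.helper1913_CurvePar
import Fermat.Agent.S52.helper2468_ManinCount
import Fermat.Agent.S52.helper586_Generic
import Fermat.Agent.S52.helper1104_GenericPoint

set_option autoImplicit false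

namespace Fermat.Agent.S52.helper2957

open WeierstrassCurve WeierstrassCurve.Affine
open Fermat.Agent.S52.helper6013 (height)

noncomputable section

attribute [local instance] Classical.propDecidable

section Lambda

variable {ℓ : ℕ} [hℓ : Fact ℓ.Prime] (A B : ZMod ℓ)

/-- `λ = t³ + A t + B` in `RatFunc (ZMod ℓ)`. -/
def lam : RatFunc (ZMod ℓ) := RatFunc.X ^ 3 + RatFunc.C A * RatFunc.X + RatFunc.C B

/-- The twisted curve `Λ : Y² = X³ + A λ² X + B λ³` over `RatFunc (ZMod ℓ)`. -/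
def WL : WeierstrassCurve (RatFunc (ZMod ℓ)) :=
  ⟨0, 0, 0, RatFunc.C A * lam A B ^ 2, RatFunc.C B * lam A B ^ 3⟩

lemma isTw_WL : IsTw (WL A B) (RatFunc.C A) (RatFunc.C B) (lam A B) := ⟨rfl, rfl, rfl, rfl, rfl⟩

lemma lam_eq_algebraMap :
    lam A B = algebraMap (Polynomial (ZMod ℓ)) (RatFunc (ZMod ℓ)) (helper2468.cubic A B) := by
  simp [lam, helper2468.cubic, RatFunc.algebraMap_X, RatFunc.algebraMap_C]

lemma lam_ne_zero : lam A B ≠ 0 := by
  rw [lam_eq_algebraMap]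
  refine RatFunc.algebraMap_ne_zero ?_
  intro h
  have := helper2468.cubic_natDegree A B
  rw [h] at this
  simp at this

lemma intDegree_lam : (lam A B).intDegree = 3 := by
  rw [lam_eq_algebraMap, RatFunc.intDegree_polynomial, helper2468.cubic_natDegree]
  rfl

/-- The point height on `Λ`: `0` at infinity, `height (X / λ)` at `(X, Y)`. -/
def pH (P : (WL A B).toAffine.Point) : ℕ := (twX (WL A B) (lam A B) P).elim 0 height

lemma pH_zero : pH A B 0 = 0 := rfl

lemma pH_some {X Y : RatFunc (ZMod ℓ)} (h : (WL A B).toAffine.Nonsingular X Y) :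
    pH A B (.some X Y h) = height (X / lam A B) := rfl

variable {A B}

lemma two_ne_zero_ratFunc (hodd : ℓ ≠ 2) : (2 : RatFunc (ZMod ℓ)) ≠ 0 := by
  have h2 := helper2468.two_ne_zero_of_odd (ℓ := ℓ) hodd
  have : (2 : RatFunc (ZMod ℓ)) = RatFunc.C (2 : ZMod ℓ) := (map_ofNat RatFunc.C 2).symm
  rw [this]
  exact (map_ne_zero _).mpr h2

/-- The parallelogram law for the point height on `Λ`. -/
lemma pH_par (hodd : ℓ ≠ 2) (hΔ : 4 * A ^ 3 + 27 * B ^ 2 ≠ 0) (P Q : (WL A B).toAffine.Point) :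
    pH A B (P + Q) + pH A B (P - Q) = 2 * pH A B P + 2 * pH A B Q := by
  have h2 := helper2468.two_ne_zero_of_odd (ℓ := ℓ) hodd
  exact helper1913.parallelogram_of_H2_H3 (A := A) (B := B) (lam := lam A B) (lam_ne_zero A B) h2
    (pH A B) rfl (fun _ _ _ => rfl)
    (fun x1 x2 x3 x4 hne hs hp => helper9671.ht_parallelogram h2 hΔ x1 x2 x3 x4 hne hs hp)
    (fun x x' hx h => helper9671.ht_duplication h2 hΔ x x' hx h) P Q

end Lambda

section Frob

variable {ℓ : ℕ} [hℓ : Fact ℓ.Prime] {A B : ZMod ℓ}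

/-- The `ℓ`-power Frobenius of `RatFunc (ZMod ℓ)` as a ring homomorphism. -/
def frobR (ℓ : ℕ) [Fact ℓ.Prime] : RatFunc (ZMod ℓ) →+* RatFunc (ZMod ℓ) :=
  (FiniteField.frobeniusAlgHom (ZMod ℓ) (RatFunc (ZMod ℓ)) :
    RatFunc (ZMod ℓ) →ₐ[ZMod ℓ] RatFunc (ZMod ℓ))

lemma frobR_apply (x : RatFunc (ZMod ℓ)) : frobR ℓ x = x ^ ℓ := by
  simp [frobR, ZMod.card]

lemma C_pow_card (c : ZMod ℓ) : (RatFunc.C c : RatFunc (ZMod ℓ)) ^ ℓ = RatFunc.C c := by
  rw [← map_pow, ZMod.pow_card]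

lemma two_mul_half (hodd : ℓ ≠ 2) : ℓ = 2 * (ℓ / 2) + 1 :=
  (helper2468.two_mul_div_two_add_one hodd).symm

lemma isScale_Fr (hodd : ℓ ≠ 2) (A B : ZMod ℓ) :
    IsScale (frobR ℓ) (WL A B) (WL A B) (lam A B ^ (ℓ / 2)) :=
  isScale_frob (isTw_WL A B) frobR_apply (two_mul_half hodd) (lam_ne_zero A B)
    (C_pow_card A) (C_pow_card B)

/-- The Frobenius endomorphism of `Λ`: `(x, y) ↦ (x^ℓ, λ^((ℓ-1)/2) y^ℓ)` in twist coordinates. -/
def Fr (hodd : ℓ ≠ 2) (A B : ZMod ℓ) : (WL A B).toAffine.Point →+ (WL A B).toAffine.Point :=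
  T (isScale_Fr hodd A B)

lemma pH_Fr (hodd : ℓ ≠ 2) (P : (WL A B).toAffine.Point) :
    pH A B (Fr hodd A B P) = ℓ * pH A B P := by
  unfold pH Fr
  rw [twX_frob (isScale_Fr hodd A B) frobR_apply (two_mul_half hodd)]
  cases twX (WL A B) (lam A B) P with
  | none => simp
  | some x => simp [helper6013.height_pow]

lemma nonsingular_P0 (hodd : ℓ ≠ 2) (A B : ZMod ℓ) :
    (WL A B).toAffine.Nonsingular (RatFunc.X * lam A B) (lam A B ^ 2) :=
  (isTw_WL A B).nonsingular_P0 RatFunc.X (two_ne_zero_ratFunc hodd) (lam_ne_zero A B)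

/-- The basic point `P₀ = (t λ, λ²)` of `Λ` (twist coordinates `(t, 1)`). -/
def P0 (hodd : ℓ ≠ 2) (A B : ZMod ℓ) : (WL A B).toAffine.Point :=
  .some _ _ (nonsingular_P0 hodd A B)

lemma pH_P0 (hodd : ℓ ≠ 2) : pH A B (P0 hodd A B) = 1 := by
  rw [P0, pH_some, mul_div_cancel_right₀ _ (lam_ne_zero A B), helper6013.height_X]

lemma lam_pow_card (A B : ZMod ℓ) :
    lam A B ^ ℓ = (RatFunc.X ^ ℓ) ^ 3 + RatFunc.C A * RatFunc.X ^ ℓ + RatFunc.C B := by
  rw [← frobR_apply (lam A B), lam, map_add, map_add, map_mul, map_pow, frobR_apply,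
    frobR_apply, frobR_apply, C_pow_card, C_pow_card]

lemma lam_pow_card' (hodd : ℓ ≠ 2) (A B : ZMod ℓ) :
    lam A B ^ ℓ = (lam A B ^ (ℓ / 2)) ^ 2 * lam A B :=
  (congrArg (fun n => lam A B ^ n) (two_mul_half hodd)).trans (by ring)

lemma nonsingular_FrP0 (hodd : ℓ ≠ 2) (A B : ZMod ℓ) :
    (WL A B).toAffine.Nonsingular (RatFunc.X ^ ℓ * lam A B) (lam A B ^ (ℓ / 2) * lam A B ^ 2) := by
  refine (isTw_WL A B).nonsingular_of_Y_ne (two_ne_zero_ratFunc hodd) ?_
    (mul_ne_zero (pow_ne_zero _ (lam_ne_zero A B)) (pow_ne_zero _ (lam_ne_zero A B)))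
  linear_combination (lam A B ^ 3) * lam_pow_card A B - (lam A B ^ 3) * lam_pow_card' hodd A B

lemma Fr_P0 (hodd : ℓ ≠ 2) :
    Fr hodd A B (P0 hodd A B) =
      .some (RatFunc.X ^ ℓ * lam A B) (lam A B ^ (ℓ / 2) * lam A B ^ 2)
        (nonsingular_FrP0 hodd A B) :=
  T_P0 (isScale_Fr hodd A B) (by rw [frobR_apply]; exact lam_pow_card' hodd A B)
    (nonsingular_P0 hodd A B) (nonsingular_FrP0 hodd A B) (by rw [frobR_apply]) rfl

lemma X_pow_sub_X_ne_zero : (RatFunc.X ^ ℓ - RatFunc.X : RatFunc (ZMod ℓ)) ≠ 0 := by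
  have h := RatFunc.algebraMap_ne_zero
    (FiniteField.X_pow_card_sub_X_ne_zero (ZMod ℓ) hℓ.out.one_lt)
  simpa using h

/-- **Manin count**: the height of `F P₀ - P₀` is the number of points of `E` over `ZMod ℓ`. -/
lemma pH_Fr_P0_sub_P0 (hodd : ℓ ≠ 2) (hΔ : 4 * A ^ 3 + 27 * B ^ 2 ≠ 0) :
    pH A B (Fr hodd A B (P0 hodd A B) - P0 hodd A B) =
      Nat.card (⟨0, 0, 0, A, B⟩ : WeierstrassCurve (ZMod ℓ)).toAffine.Point := by
  have hlam := lam_ne_zero A B
  have hX := X_pow_sub_X_ne_zero (ℓ := ℓ)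
  have hne : RatFunc.X ^ ℓ * lam A B ≠ RatFunc.X * lam A B := by
    intro h
    apply hX
    have : (RatFunc.X ^ ℓ - RatFunc.X) * lam A B = 0 := by linear_combination h
    exact (mul_eq_zero.mp this).resolve_right hlam
  rw [Fr_P0, sub_eq_add_neg, P0, Point.neg_some, Point.add_some (fun h => hne h.1), pH_some,
    Affine.slope_of_X_ne hne, (isTw_WL A B).negY, ← helper2468.manin_height hodd hΔ,
    ← helper2468.maninFrac_eq_slope_formula]
  have e : (WL A B).toAffine.addX (RatFunc.X ^ ℓ * lam A B) (RatFunc.X * lam A B)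
      ((lam A B ^ (ℓ / 2) * lam A B ^ 2 - -lam A B ^ 2) /
        (RatFunc.X ^ ℓ * lam A B - RatFunc.X * lam A B)) / lam A B =
      (RatFunc.X ^ 3 + RatFunc.C A * RatFunc.X + RatFunc.C B) *
        (((RatFunc.X ^ 3 + RatFunc.C A * RatFunc.X + RatFunc.C B) ^ (ℓ / 2) + 1) /
          (RatFunc.X ^ ℓ - RatFunc.X)) ^ 2 - RatFunc.X ^ ℓ - RatFunc.X := by
    have hd : RatFunc.X ^ ℓ * lam A B - RatFunc.X * lam A B ≠ 0 := sub_ne_zero.mpr hne
    simp only [Affine.addX, (isTw_WL A B).h₁, (isTw_WL A B).h₂]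
    change _ = lam A B * ((lam A B ^ (ℓ / 2) + 1) / (RatFunc.X ^ ℓ - RatFunc.X)) ^ 2
      - RatFunc.X ^ ℓ - RatFunc.X
    field_simp
    ring
  rw [e]
  rfl

end Frob

section Key

variable {ℓ : ℕ} [hℓ : Fact ℓ.Prime] {A B : ZMod ℓ}

lemma card_le (hodd : ℓ ≠ 2) (hΔ : 4 * A ^ 3 + 27 * B ^ 2 ≠ 0) :
    Nat.card (⟨0, 0, 0, A, B⟩ : WeierstrassCurve (ZMod ℓ)).toAffine.Point ≤ 2 * ℓ + 1 := by
  have := helper2468.manin_natDegree_gcd hodd hΔ
  omega

lemma pH_Q (hodd : ℓ ≠ 2) (hΔ : 4 * A ^ 3 + 27 * B ^ 2 ≠ 0) :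
    pH A B (P0 hodd A B + Fr hodd A B (P0 hodd A B)) +
      Nat.card (⟨0, 0, 0, A, B⟩ : WeierstrassCurve (ZMod ℓ)).toAffine.Point = 2 * ℓ + 2 := by
  have h1 := pH_par hodd hΔ (Fr hodd A B (P0 hodd A B)) (P0 hodd A B)
  rw [pH_Fr_P0_sub_P0 hodd hΔ, pH_Fr, pH_P0, add_comm (Fr hodd A B (P0 hodd A B))] at h1
  omega

/-- The substitution endomorphism `R_Q` of `Λ` for `Q = P₀ + F P₀`. -/
lemma exists_R (hodd : ℓ ≠ 2) (hΔ : 4 * A ^ 3 + 27 * B ^ 2 ≠ 0) :
    ∃ R : (WL A B).toAffine.Point →+ (WL A B).toAffine.Point,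
      R (P0 hodd A B) = P0 hodd A B + Fr hodd A B (P0 hodd A B) ∧
      (∀ P, pH A B (R P) = pH A B (P0 hodd A B + Fr hodd A B (P0 hodd A B)) * pH A B P) ∧
      (∀ P, R (Fr hodd A B P) = Fr hodd A B (R P)) := by
  have hQ1 := pH_Q hodd hΔ
  have hN := card_le hodd hΔ
  generalize P0 hodd A B + Fr hodd A B (P0 hodd A B) = Q at hQ1 ⊢
  rcases Q with _ | ⟨XQ, YQ, hQ⟩
  · exfalso
    change pH A B 0 + _ = _ at hQ1
    rw [pH_zero] at hQ1
    omega
  · have hlam := lam_ne_zero A B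
    have hht : height (XQ / lam A B) ≠ 0 := by
      rw [pH_some] at hQ1
      omega
    have hnc : ¬ ∃ c, XQ / lam A B = RatFunc.C c :=
      fun h => hht ((helper6013.height_eq_zero_iff _).mpr h)
    have htr : Transcendental (ZMod ℓ) (XQ / lam A B) := RatFunc.transcendental_of_ne_C _ hnc
    set s : RatFunc (ZMod ℓ) →ₐ[ZMod ℓ] RatFunc (ZMod ℓ) := substHom (XQ / lam A B) htr with hs
    have hsA : ∀ c : ZMod ℓ,
        (s : RatFunc (ZMod ℓ) →+* RatFunc (ZMod ℓ)) (RatFunc.C c) = RatFunc.C c := by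
      intro c
      change s (RatFunc.C c) = _
      rw [hs, substHom_C, RatFunc.algebraMap_eq_C]
    have hsX : XQ = (s : RatFunc (ZMod ℓ) →+* RatFunc (ZMod ℓ)) RatFunc.X * lam A B := by
      change XQ = s RatFunc.X * lam A B
      rw [hs, substHom_X]
      field_simp
    have heq : YQ ^ 2 = XQ ^ 3 + RatFunc.C A * lam A B ^ 2 * XQ + RatFunc.C B * lam A B ^ 3 :=
      ((isTw_WL A B).equation_iff XQ YQ).mp hQ.1
    have hY : YQ ≠ 0 := by
      intro hY0
      apply hnc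
      apply helper1913.eq_C_of_cubic_eq_zero A B
      rw [hY0] at heq
      field_simp
      linear_combination -heq
    have hR : IsScale (s : RatFunc (ZMod ℓ) →+* RatFunc (ZMod ℓ)) (WL A B) (WL A B)
        (YQ / lam A B ^ 2) :=
      isScale_point (t₀ := RatFunc.X) (isTw_WL A B) (isTw_WL A B) (hsA A) (hsA B) hlam hsX hY heq
    have hd : (s : RatFunc (ZMod ℓ) →+* RatFunc (ZMod ℓ)) (lam A B) =
        (YQ / lam A B ^ 2) ^ 2 * lam A B :=
      map_cubic_eq (hsA A) (hsA B) hlam hsX heq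
    refine ⟨T hR, ?_, ?_, ?_⟩
    · exact T_point_P0 hR (hsA A) (hsA B) hlam (nonsingular_P0 hodd A B) hQ hsX heq
    · intro P
      rw [pH_some]
      unfold pH
      rw [twX_T hR hd]
      cases twX (WL A B) (lam A B) P with
      | none => simp
      | some x =>
        simp only [Option.map_some, Option.elim_some]
        change height (s x) = _
        rw [helper6013.height_algHom s x, hs, substHom_X, mul_comm]
    · intro P
      exact T_frob_comm' (isScale_Fr hodd A B) (isScale_Fr hodd A B) hR frobR_apply frobR_apply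
        (two_mul_half hodd) hd P

/-- **Manin**: the point `Z = F² P₀ - a F P₀ + ℓ P₀` of `Λ` has height `0`. -/
lemma pH_Z (hodd : ℓ ≠ 2) (hΔ : 4 * A ^ 3 + 27 * B ^ 2 ≠ 0) :
    pH A B (Fr hodd A B (Fr hodd A B (P0 hodd A B)) -
      ((ℓ : ℤ) + 1 - (Nat.card (⟨0, 0, 0, A, B⟩ : WeierstrassCurve (ZMod ℓ)).toAffine.Point : ℤ)) •
        Fr hodd A B (P0 hodd A B) + (ℓ : ℤ) • P0 hodd A B) = 0 := by
  obtain ⟨R, hRP, hRh, hRF⟩ := exists_R hodd hΔ
  have key := helper1617.frobenius_quadratic_nat (hN := pH A B) (pH_par hodd hΔ) (Fr hodd A B) R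
    (P0 hodd A B) (P0 hodd A B + Fr hodd A B (P0 hodd A B)) ℓ (pH_Fr hodd) hRh hRP rfl hRF
    (pH_P0 hodd)
  rw [pH_Fr_P0_sub_P0 hodd hΔ] at key
  exact key

/-- A point of `Λ` of height `0` is `O` or a constant 2-torsion point `(e λ, 0)`. -/
lemma eq_zero_or_of_pH_eq_zero (Z : (WL A B).toAffine.Point) (hZ : pH A B Z = 0) :
    Z = 0 ∨ ∃ (e : ZMod ℓ) (h : (WL A B).toAffine.Nonsingular (RatFunc.C e * lam A B) 0),
      Z = .some _ _ h := by
  rcases Z with _ | ⟨X, Y, h⟩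
  · left; rfl
  · right
    rw [pH_some, helper6013.height_eq_zero_iff] at hZ
    obtain ⟨e, he⟩ := hZ
    have hlam := lam_ne_zero A B
    have hX : X = RatFunc.C e * lam A B := by
      rw [← he]
      field_simp
    subst hX
    have heq := ((isTw_WL A B).equation_iff _ Y).mp h.1
    have heq' : Y ^ 2 = lam A B ^ 3 * RatFunc.C (e ^ 3 + A * e + B) := by
      rw [heq]
      simp only [map_add, map_mul, map_pow]
      ring
    have hY : Y = 0 := by
      by_contra hY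
      have hc : RatFunc.C (e ^ 3 + A * e + B) ≠ (0 : RatFunc (ZMod ℓ)) := by
        intro hc
        rw [hc, mul_zero] at heq'
        exact hY (pow_eq_zero_iff two_ne_zero |>.mp heq')
      have h1 : (Y ^ 2).intDegree = 2 * Y.intDegree := by
        rw [pow_two, RatFunc.intDegree_mul hY hY]
        ring
      have h2 : (lam A B ^ 3 * RatFunc.C (e ^ 3 + A * e + B)).intDegree = 9 := by
        rw [RatFunc.intDegree_mul (pow_ne_zero 3 hlam) hc, RatFunc.intDegree_C, pow_succ, pow_two,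
          RatFunc.intDegree_mul (mul_ne_zero hlam hlam) hlam, RatFunc.intDegree_mul hlam hlam,
          intDegree_lam]
        norm_num
      rw [heq', h2] at h1
      omega
    subst hY
    exact ⟨e, h, rfl⟩

end Key

end

section Main

variable {ℓ : ℕ} [hℓ : Fact ℓ.Prime] {A B : ZMod ℓ}
variable {K : Type*} [Field K] [Algebra (ZMod ℓ) K] [IsAlgClosed K] [DecidableEq K]

theorem frob_CH_short_forall (hodd : ℓ ≠ 2) (hΔ : 4 * A ^ 3 + 27 * B ^ 2 ≠ 0)
    (φ : K →ₐ[ZMod ℓ] K) (hφ : ∀ x, φ x = x ^ ℓ) :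
    ∀ P : ((⟨0, 0, 0, A, B⟩ : WeierstrassCurve (ZMod ℓ))⁄K).Point,
    Point.map (W' := (⟨0, 0, 0, A, B⟩ : WeierstrassCurve (ZMod ℓ))) φ
        (Point.map (W' := (⟨0, 0, 0, A, B⟩ : WeierstrassCurve (ZMod ℓ))) φ P) -
      ((ℓ : ℤ) + 1 -
        (Nat.card (⟨0, 0, 0, A, B⟩ : WeierstrassCurve (ZMod ℓ)).toAffine.Point : ℤ)) •
        Point.map (W' := (⟨0, 0, 0, A, B⟩ : WeierstrassCurve (ZMod ℓ))) φ P + (ℓ : ℤ) • P = 0 := by
  classical
  set W : WeierstrassCurve (ZMod ℓ) := ⟨0, 0, 0, A, B⟩ with hW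
  have h2 := helper2468.two_ne_zero_of_odd (ℓ := ℓ) hodd
  have hWΔ : W.Δ ≠ 0 := by
    have e : W.Δ = -16 * (4 * A ^ 3 + 27 * B ^ 2) := by
      simp only [hW, WeierstrassCurve.Δ, WeierstrassCurve.b₂, WeierstrassCurve.b₄,
        WeierstrassCurve.b₆, WeierstrassCurve.b₈]
      ring
    rw [e]
    refine mul_ne_zero ?_ hΔ
    have : (-16 : ZMod ℓ) = -(2 ^ 4) := by norm_num
    rw [this]
    exact neg_ne_zero.mpr (pow_ne_zero 4 h2)
  have : W.IsElliptic := ⟨isUnit_iff_ne_zero.mpr hWΔ⟩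
  have hΔK : algebraMap (ZMod ℓ) K W.Δ ≠ 0 := (map_ne_zero _).mpr hWΔ
  -- the generic point
  set x1 : helper586.GenField K := helper586.genX K with hx1
  set y1 : helper586.GenField K := helper586.genY W K with hy1
  have hns : (W⁄(helper586.GenField K)).Nonsingular x1 y1 := helper586.nonsingular_gen W K hΔK
  have htrK : Transcendental K x1 := helper586.transcendental_genX K
  have htr : Transcendental (ZMod ℓ) x1 :=
    htrK.restrictScalars (algebraMap (ZMod ℓ) K).injective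
  set sΘ : RatFunc (ZMod ℓ) →ₐ[ZMod ℓ] helper586.GenField K := substHom x1 htr with hsΘ
  have hTwM : IsTw (W.baseChange (helper586.GenField K))
      (algebraMap (ZMod ℓ) (helper586.GenField K) A)
      (algebraMap (ZMod ℓ) (helper586.GenField K) B) 1 :=
    isTw_map_one (algebraMap (ZMod ℓ) (helper586.GenField K)) A B
  have hsA : ∀ c : ZMod ℓ, (sΘ : RatFunc (ZMod ℓ) →+* helper586.GenField K) (RatFunc.C c) =
      algebraMap (ZMod ℓ) (helper586.GenField K) c := fun c => substHom_C x1 htr c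
  have hsX : x1 = (sΘ : RatFunc (ZMod ℓ) →+* helper586.GenField K) RatFunc.X * 1 := by
    rw [mul_one]
    exact (substHom_X x1 htr).symm
  have heq : y1 ^ 2 = x1 ^ 3 + algebraMap (ZMod ℓ) (helper586.GenField K) A * 1 ^ 2 * x1 +
      algebraMap (ZMod ℓ) (helper586.GenField K) B * 1 ^ 3 :=
    (hTwM.equation_iff x1 y1).mp hns.1
  have hy1ne : y1 ≠ 0 := by
    intro h0
    rw [h0] at heq
    apply htr
    refine ⟨Polynomial.X ^ 3 + Polynomial.C A * Polynomial.X + Polynomial.C B, ?_, ?_⟩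
    · intro hp
      have := helper2468.cubic_natDegree A B
      unfold helper2468.cubic at this
      rw [hp] at this
      simp at this
    · simp only [map_add, map_mul, map_pow, Polynomial.aeval_X, Polynomial.aeval_C]
      linear_combination -heq
  have hΘ : IsScale (sΘ : RatFunc (ZMod ℓ) →+* helper586.GenField K) (WL A B)
      (W.baseChange (helper586.GenField K)) (y1 / 1 ^ 2) :=
    isScale_point (t₀ := RatFunc.X) (isTw_WL A B) hTwM (hsA A) (hsA B) one_ne_zero hsX hy1ne heq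
  have hdΘ : (sΘ : RatFunc (ZMod ℓ) →+* helper586.GenField K) (lam A B) =
      (y1 / 1 ^ 2) ^ 2 * 1 := map_cubic_eq (hsA A) (hsA B) one_ne_zero hsX heq
  set G : (W⁄(helper586.GenField K)).Point := Point.some x1 y1 hns with hG
  have hΘP0 : T hΘ (P0 hodd A B) = G :=
    T_point_P0 hΘ (hsA A) (hsA B) one_ne_zero (nonsingular_P0 hodd A B) hns hsX heq
  -- Frobenius on the big field
  set φM : helper586.GenField K →ₐ[ZMod ℓ] helper586.GenField K :=
    FiniteField.frobeniusAlgHom (ZMod ℓ) (helper586.GenField K) with hφMdef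
  have hφM : ∀ x, φM x = x ^ ℓ := by
    intro x
    simp [hφMdef, ZMod.card]
  have hΘFr : ∀ Q, T hΘ (Fr hodd A B Q) = Point.map (W' := W) φM (T hΘ Q) := by
    intro Q
    rw [map_eq_T W φM (isScale_baseChange W φM)]
    refine T_frob_comm (isScale_Fr hodd A B) (isScale_baseChange W φM) hΘ frobR_apply
      (fun x => hφM x) ?_ Q
    rw [map_pow, hdΘ, mul_one, mul_one, ← pow_mul, ← pow_succ]
    exact (congrArg (fun n => (y1 / 1 ^ 2) ^ n) (two_mul_half hodd)).symm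
  -- the point `Z`
  set a : ℤ := (ℓ : ℤ) + 1 - (Nat.card W.toAffine.Point : ℤ) with ha
  have hZ0 := pH_Z hodd hΔ
  have hΘZ : T hΘ (Fr hodd A B (Fr hodd A B (P0 hodd A B)) - a • Fr hodd A B (P0 hodd A B) +
      (ℓ : ℤ) • P0 hodd A B) =
      Point.map (W' := W) φM (Point.map (W' := W) φM G) - a • Point.map (W' := W) φM G +
        (ℓ : ℤ) • G := by
    rw [map_add, map_sub, map_zsmul, map_zsmul, hΘFr, hΘFr, hΘP0]
  set ι : K →ₐ[ZMod ℓ] helper586.GenField K :=
    IsScalarTower.toAlgHom (ZMod ℓ) K (helper586.GenField K) with hι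
  have hconst : ∃ T0 : (W⁄K).Point,
      Point.map (W' := W) φM (Point.map (W' := W) φM G) - a • Point.map (W' := W) φM G +
        (ℓ : ℤ) • G = Point.map (W' := W) ι T0 := by
    rw [← hΘZ]
    rcases eq_zero_or_of_pH_eq_zero _ hZ0 with h0 | ⟨e, h, hZe⟩
    · exact ⟨0, by rw [h0, map_zero, map_zero]⟩
    · rw [hZe, T_some]
      have hmem := helper1104.some_mem_range_map_of_x_mem W ι (hΘ.nonsingular h) (by
        refine ⟨algebraMap (ZMod ℓ) K e, ?_⟩
        rw [map_mul, hdΘ, hsA, hι, IsScalarTower.coe_toAlgHom',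
          ← IsScalarTower.algebraMap_apply]
        have hu : y1 / 1 ^ 2 ≠ 0 := by simpa using hy1ne
        field_simp)
      obtain ⟨T0, hT0⟩ := hmem
      exact ⟨T0, hT0.symm⟩
  have hGnot : G ∉ Set.range (Point.map (W' := W) ι) := by
    rintro ⟨Q, hQ⟩
    rcases Q with _ | ⟨x, y, hxy⟩
    · exact Point.some_ne_zero hns hQ.symm
    · rw [Point.map_some, hG, Point.some.injEq] at hQ
      apply htrK
      rw [← hQ.1]
      exact isAlgebraic_algebraMap x
  obtain ⟨T0, hT0⟩ := hconst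
  have hφK : ∀ x, φ x = x ^ Fintype.card (ZMod ℓ) := by
    intro x
    rw [ZMod.card]
    exact hφ x
  have hφM' : ∀ x, φM x = x ^ Fintype.card (ZMod ℓ) := by
    intro x
    rw [ZMod.card]
    exact hφM x
  intro P
  have key := helper1104.frob_trace_relation_of_generic W ι φ hφK φM hφM' G hGnot a T0
    (by rw [ZMod.card]; exact hT0) P
  rw [ZMod.card] at key
  exact key

/-- **Frobenius Cayley–Hamilton, short Weierstrass form.**  For `E : y² = x³ + A x + B` over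
`ZMod ℓ` (`ℓ` odd, `4A³ + 27B² ≠ 0`), `K` an algebraically closed field over `ZMod ℓ` and `φ`
the `ℓ`-power Frobenius of `K`: `φ² P - a φ P + ℓ P = 0` for every `P ∈ E(K)`, where
`a = ℓ + 1 - #E(ZMod ℓ)`. -/
theorem frob_CH_short (hodd : ℓ ≠ 2) (hΔ : 4 * A ^ 3 + 27 * B ^ 2 ≠ 0)
    (φ : K →ₐ[ZMod ℓ] K) (hφ : ∀ x, φ x = x ^ ℓ)
    (P : ((⟨0, 0, 0, A, B⟩ : WeierstrassCurve (ZMod ℓ))⁄K).Point) :
    Point.map (W' := (⟨0, 0, 0, A, B⟩ : WeierstrassCurve (ZMod ℓ))) φ
        (Point.map (W' := (⟨0, 0, 0, A, B⟩ : WeierstrassCurve (ZMod ℓ))) φ P) -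
      ((ℓ : ℤ) + 1 -
        (Nat.card (⟨0, 0, 0, A, B⟩ : WeierstrassCurve (ZMod ℓ)).toAffine.Point : ℤ)) •
        Point.map (W' := (⟨0, 0, 0, A, B⟩ : WeierstrassCurve (ZMod ℓ))) φ P + (ℓ : ℤ) • P = 0 :=
  frob_CH_short_forall hodd hΔ φ hφ P

end Main

end Fermat.Agent.S52.helper2957
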