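/-
S52 helper module (helper2957): the final surfaces of (L1), Frobenius Cayley–Hamilton.

`frob_CH_short` (helper2957_FrobCH) is put into the shapes consumed downstream:
`helper8312.ShortRel`, `helper3731.CHShort`, `helper3731.CHGeneral` (every Weierstrass model over
`ZMod ℓ` with `Δ ≠ 0`, `ℓ ≥ 5`, Prelude `traceOfFrobenius`), for every algebraically closed field
`K` over `ZMod ℓ` and the `ℓ`-power Frobenius of `K`.
-/
import Mathlib
import Fermat.Agent.S52.helper2957_FrobCH
import Fermat.Agent.S52.helper8312_FrobFinal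

set_option autoImplicit false

namespace Fermat.Agent.S52.helper2957

open WeierstrassCurve WeierstrassCurve.Affine

section Final

variable {ℓ : ℕ} [Fact ℓ.Prime] {K : Type*} [Field K] [DecidableEq K] [Algebra (ZMod ℓ) K]
  [IsAlgClosed K]

/-- The short-model relation `helper8312.ShortRel` holds (`ℓ` odd, `K` algebraically closed). -/
theorem shortRel (hodd : ℓ ≠ 2) (frob : K →ₐ[ZMod ℓ] K) (hfrob : ∀ x, frob x = x ^ ℓ) :
    helper8312.ShortRel ℓ frob := by
  intro A B hAB P
  have key := frob_CH_short hodd hAB frob hfrob P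
  rw [ZMod.card]
  exact key

/-- `helper3731.CHShort`: Cayley–Hamilton for all short models over `ZMod ℓ`. -/
theorem chShort (hodd : ℓ ≠ 2) (frob : K →ₐ[ZMod ℓ] K) (hfrob : ∀ x, frob x = x ^ ℓ) :
    helper3731.CHShort ℓ frob :=
  helper8312.chShort_of_shortRel frob (shortRel hodd frob hfrob)

/-- `helper3731.CHGeneral`: Cayley–Hamilton for all Weierstrass models over `ZMod ℓ` with
`Δ ≠ 0`, `ℓ ≥ 5`. -/
theorem chGeneral (hℓ : 5 ≤ ℓ) (frob : K →ₐ[ZMod ℓ] K) (hfrob : ∀ x, frob x = x ^ ℓ) :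
    helper3731.CHGeneral ℓ frob :=
  helper8312.chGeneral_of_shortRel hℓ frob (shortRel (by omega) frob hfrob)

/-- **Frobenius Cayley–Hamilton** for an elliptic curve `W` over `ZMod ℓ`, `ℓ ≥ 5`, on the points
over an algebraically closed field `K`: `φ² P - a_ℓ φ P + ℓ P = 0` with
`a_ℓ = W.traceOfFrobenius = ℓ + 1 - #W(ZMod ℓ)` (the Prelude definition). -/
theorem frob_cayley_hamilton (hℓ : 5 ≤ ℓ) (W : WeierstrassCurve (ZMod ℓ)) (hΔ : W.Δ ≠ 0)
    (frob : K →ₐ[ZMod ℓ] K) (hfrob : ∀ x, frob x = x ^ ℓ) (P : (W⁄K).Point) :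
    Point.map (W' := W) frob (Point.map (W' := W) frob P) -
      W.traceOfFrobenius • Point.map (W' := W) frob P + (ℓ : ℤ) • P = 0 :=
  chGeneral hℓ frob hfrob W hΔ P

/-- The same for the canonical Frobenius `helper8312.frobAlgHom ℓ K`. -/
theorem chGeneral_frobAlgHom (hℓ : 5 ≤ ℓ) :
    helper3731.CHGeneral ℓ (helper8312.frobAlgHom ℓ K) :=
  chGeneral hℓ _ (helper8312.frobAlgHom_apply ℓ K)

theorem chShort_frobAlgHom (hodd : ℓ ≠ 2) :
    helper3731.CHShort ℓ (helper8312.frobAlgHom ℓ K) :=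
  chShort hodd _ (helper8312.frobAlgHom_apply ℓ K)

end Final

end Fermat.Agent.S52.helper2957
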