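import Mathlib

/-!
# S52: the degree-11 pencil of Klein forms — explicit invariants `Phi4`, `Phi6` (DATA)

`Phi4 a b t = ∑ Phi4c_k a b * t ^ k` (`k ≤ 20`), `Phi6 a b t = ∑ Phi6c_k a b * t ^ k` (`k ≤ 30`):
integer polynomials in `a = c₄`, `b = c₆`, `t` giving `(c₄, c₆)` of the fibre at `t` of the canonical
pencil `pen t (u, v) = (u + t f_v, v - t f_u)` of Klein forms. `hhf`, `ttf` are Klein's `H`, `T`
as forms in `(u⁵, v⁵)`.
-/

set_option autoImplicit false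

namespace Fermat.Agent.S52.helper135

variable {R : Type*} [CommRing R]

/-- Klein's `H` as a quartic form in `(P, Q) = (u⁵, v⁵)`. -/
def hhf (P Q : R) : R := -(P ^ 4 + Q ^ 4) + 228 * (P ^ 3 * Q - P * Q ^ 3) - 494 * P ^ 2 * Q ^ 2

/-- Klein's `T` as a sextic form in `(P, Q) = (u⁵, v⁵)`. -/
def ttf (P Q : R) : R :=
  P ^ 6 + Q ^ 6 + 522 * (P ^ 5 * Q - P * Q ^ 5) - 10005 * (P ^ 4 * Q ^ 2 + P ^ 2 * Q ^ 4)

/-- Coefficient of `t ^ 0` in `Phi4`. -/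
def Phi4c0 (a b : R) : R := a

/-- Coefficient of `t ^ 1` in `Phi4`. -/
def Phi4c1 (a b : R) : R := -20 * b

/-- Coefficient of `t ^ 2` in `Phi4`. -/
def Phi4c2 (a b : R) : R := 190 * a ^ 2

/-- Coefficient of `t ^ 3` in `Phi4`. -/
def Phi4c3 (a b : R) : R := -1140 * a * b

/-- Coefficient of `t ^ 4` in `Phi4`. -/
def Phi4c4 (a b : R) : R := -855 * a ^ 3 + 5700 * b ^ 2

/-- Coefficient of `t ^ 5` in `Phi4`. -/
def Phi4c5 (a b : R) : R := -15504 * a ^ 2 * b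

/-- Coefficient of `t ^ 6` in `Phi4`. -/
def Phi4c6 (a b : R) : R := 102600 * a ^ 4 - 63840 * a * b ^ 2

/-- Coefficient of `t ^ 7` in `Phi4`. -/
def Phi4c7 (a b : R) : R := -259920 * a ^ 3 * b + 182400 * b ^ 3

/-- Coefficient of `t ^ 8` in `Phi4`. -/
def Phi4c8 (a b : R) : R := -1000350 * a ^ 5 + 1126320 * a ^ 2 * b ^ 2

/-- Coefficient of `t ^ 9` in `Phi4`. -/
def Phi4c9 (a b : R) : R := 7736040 * a ^ 4 * b - 7904000 * a * b ^ 3

/-- Coefficient of `t ^ 10` in `Phi4`. -/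
def Phi4c10 (a b : R) : R := -10003500 * a ^ 6 - 5619744 * a ^ 3 * b ^ 2 + 15808000 * b ^ 4

/-- Coefficient of `t ^ 11` in `Phi4`. -/
def Phi4c11 (a b : R) : R := 54685800 * a ^ 5 * b - 54853760 * a ^ 2 * b ^ 3

/-- Coefficient of `t ^ 12` in `Phi4`. -/
def Phi4c12 (a b : R) : R := -45015750 * a ^ 7 + 7202520 * a ^ 4 * b ^ 2 + 37939200 * a * b ^ 4

/-- Coefficient of `t ^ 13` in `Phi4`. -/
def Phi4c13 (a b : R) : R := 35089200 * a ^ 6 * b + 23201280 * a ^ 3 * b ^ 3 - 58368000 * b ^ 5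

/-- Coefficient of `t ^ 14` in `Phi4`. -/
def Phi4c14 (a b : R) : R := 207765000 * a ^ 8 - 495188640 * a ^ 5 * b ^ 2 + 287462400 * a ^ 2 * b ^ 4

/-- Coefficient of `t ^ 15` in `Phi4`. -/
def Phi4c15 (a b : R) : R := -415530000 * a ^ 7 * b + 882458496 * a ^ 4 * b ^ 3 - 466944000 * a * b ^ 5

/-- Coefficient of `t ^ 16` in `Phi4`. -/
def Phi4c16 (a b : R) : R := -77911875 * a ^ 9 + 714711600 * a ^ 6 * b ^ 2 - 1220474880 * a ^ 3 * b ^ 4 + 583680000 * b ^ 6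

/-- Coefficient of `t ^ 17` in `Phi4`. -/
def Phi4c17 (a b : R) : R := -353200500 * a ^ 8 * b + 715080960 * a ^ 5 * b ^ 3 - 361881600 * a ^ 2 * b ^ 5

/-- Coefficient of `t ^ 18` in `Phi4`. -/
def Phi4c18 (a b : R) : R := 779118750 * a ^ 10 - 2182917600 * a ^ 7 * b ^ 2 + 2026391040 * a ^ 4 * b ^ 4 - 622592000 * a * b ^ 6

/-- Coefficient of `t ^ 19` in `Phi4`. -/
def Phi4c19 (a b : R) : R := -694372500 * a ^ 9 * b + 2044414080 * a ^ 6 * b ^ 3 - 2005401600 * a ^ 3 * b ^ 5 + 655360000 * b ^ 7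

/-- Coefficient of `t ^ 20` in `Phi4`. -/
def Phi4c20 (a b : R) : R := 184528125 * a ^ 11 - 549301500 * a ^ 8 * b ^ 2 + 544997376 * a ^ 5 * b ^ 4 - 180224000 * a ^ 2 * b ^ 6

/-- Coefficient of `t ^ 0` in `Phi6`. -/
def Phi6c0 (a b : R) : R := b

/-- Coefficient of `t ^ 1` in `Phi6`. -/
def Phi6c1 (a b : R) : R := -30 * a ^ 2

/-- Coefficient of `t ^ 2` in `Phi6`. -/
def Phi6c2 (a b : R) : R := 435 * a * b

/-- Coefficient of `t ^ 3` in `Phi6`. -/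
def Phi6c3 (a b : R) : R := -1160 * a ^ 3 - 2900 * b ^ 2

/-- Coefficient of `t ^ 4` in `Phi6`. -/
def Phi6c4 (a b : R) : R := 27405 * a ^ 2 * b

/-- Coefficient of `t ^ 5` in `Phi6`. -/
def Phi6c5 (a b : R) : R := -95526 * a ^ 4 - 46980 * a * b ^ 2

/-- Coefficient of `t ^ 6` in `Phi6`. -/
def Phi6c6 (a b : R) : R := 437175 * a ^ 3 * b + 156600 * b ^ 3

/-- Coefficient of `t ^ 7` in `Phi6`. -/
def Phi6c7 (a b : R) : R := 1879200 * a ^ 5 - 3915000 * a ^ 2 * b ^ 2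

/-- Coefficient of `t ^ 8` in `Phi6`. -/
def Phi6c8 (a b : R) : R := -8554275 * a ^ 4 * b + 14407200 * a * b ^ 3

/-- Coefficient of `t ^ 9` in `Phi6`. -/
def Phi6c9 (a b : R) : R := -24312150 * a ^ 6 + 42021000 * a ^ 3 * b ^ 2 - 32016000 * b ^ 4

/-- Coefficient of `t ^ 10` in `Phi6`. -/
def Phi6c10 (a b : R) : R := 246633255 * a ^ 5 * b - 216588240 * a ^ 2 * b ^ 3

/-- Coefficient of `t ^ 11` in `Phi6`. -/
def Phi6c11 (a b : R) : R := -162081000 * a ^ 7 - 1352475900 * a ^ 4 * b ^ 2 + 1459929600 * a * b ^ 4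

/-- Coefficient of `t ^ 12` in `Phi6`. -/
def Phi6c12 (a b : R) : R := 4131714825 * a ^ 6 * b - 1612005600 * a ^ 3 * b ^ 3 - 2433216000 * b ^ 5

/-- Coefficient of `t ^ 13` in `Phi6`. -/
def Phi6c13 (a b : R) : R := -6928962750 * a ^ 8 - 5235216300 * a ^ 5 * b ^ 2 + 12044419200 * a ^ 2 * b ^ 4

/-- Coefficient of `t ^ 14` in `Phi6`. -/
def Phi6c14 (a b : R) : R := 43190534475 * a ^ 7 * b - 43045111800 * a ^ 4 * b ^ 3

/-- Coefficient of `t ^ 15` in `Phi6`. -/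
def Phi6c15 (a b : R) : R := -79575287760 * a ^ 6 * b ^ 2 + 79420170240 * a ^ 3 * b ^ 4

/-- Coefficient of `t ^ 16` in `Phi6`. -/
def Phi6c16 (a b : R) : R := -176688550125 * a ^ 8 * b + 474659611200 * a ^ 5 * b ^ 3 - 297825638400 * a ^ 2 * b ^ 5

/-- Coefficient of `t ^ 17` in `Phi6`. -/
def Phi6c17 (a b : R) : R := 311803323750 * a ^ 10 - 77604382800 * a ^ 7 * b ^ 2 - 935084908800 * a ^ 4 * b ^ 4 + 700766208000 * a * b ^ 6

/-- Coefficient of `t ^ 18` in `Phi6`. -/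
def Phi6c18 (a b : R) : R := -1694131392375 * a ^ 9 * b + 2776512362400 * a ^ 6 * b ^ 3 - 303665356800 * a ^ 3 * b ^ 5 - 778629120000 * b ^ 7

/-- Coefficient of `t ^ 19` in `Phi6`. -/
def Phi6c19 (a b : R) : R := 328214025000 * a ^ 11 + 3481840250100 * a ^ 8 * b ^ 2 - 8100765158400 * a ^ 5 * b ^ 4 + 4290656256000 * a ^ 2 * b ^ 6

/-- Coefficient of `t ^ 20` in `Phi6`. -/
def Phi6c20 (a b : R) : R := -2874607835625 * a ^ 10 * b + 2424887357760 * a ^ 7 * b ^ 3 + 3892110842880 * a ^ 4 * b ^ 5 - 3442360320000 * a * b ^ 7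

/-- Coefficient of `t ^ 21` in `Phi6`. -/
def Phi6c21 (a b : R) : R := 2215444668750 * a ^ 12 - 3077188825500 * a ^ 9 * b ^ 2 + 2709129888000 * a ^ 6 * b ^ 4 - 5125838438400 * a ^ 3 * b ^ 6 + 3278438400000 * b ^ 8

/-- Coefficient of `t ^ 22` in `Phi6`. -/
def Phi6c22 (a b : R) : R := -1403114956875 * a ^ 11 * b - 1724509423800 * a ^ 8 * b ^ 3 + 7701051801600 * a ^ 5 * b ^ 5 - 4573421568000 * a ^ 2 * b ^ 7

/-- Coefficient of `t ^ 23` in `Phi6`. -/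
def Phi6c23 (a b : R) : R := -7705894500000 * a ^ 13 + 33414470973000 * a ^ 10 * b ^ 2 - 49888700928000 * a ^ 7 * b ^ 4 + 30337884979200 * a ^ 4 * b ^ 6 - 6157762560000 * a * b ^ 8

/-- Coefficient of `t ^ 24` in `Phi6`. -/
def Phi6c24 (a b : R) : R := 5089101159375 * a ^ 12 * b - 22687218914400 * a ^ 9 * b ^ 3 + 35246094796800 * a ^ 6 * b ^ 5 - 22779445248000 * a ^ 3 * b ^ 7 + 5131468800000 * b ^ 9

/-- Coefficient of `t ^ 25` in `Phi6`. -/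
def Phi6c25 (a b : R) : R := 17627233668750 * a ^ 14 - 70097953635000 * a ^ 11 * b ^ 2 + 105528606261120 * a ^ 8 * b ^ 4 - 71274600677376 * a ^ 5 * b ^ 6 + 18216714240000 * a ^ 2 * b ^ 8

/-- Coefficient of `t ^ 26` in `Phi6`. -/
def Phi6c26 (a b : R) : R := -40985726371875 * a ^ 13 * b + 163672057566000 * a ^ 10 * b ^ 3 - 245438120632320 * a ^ 7 * b ^ 5 + 163803539865600 * a ^ 4 * b ^ 7 - 41051750400000 * a * b ^ 9

/-- Coefficient of `t ^ 27` in `Phi6`. -/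
def Phi6c27 (a b : R) : R := 9632368125000 * a ^ 15 - 8104032382500 * a ^ 12 * b ^ 2 - 63806176396800 * a ^ 9 * b ^ 4 + 143803576074240 * a ^ 6 * b ^ 6 - 111934439424000 * a ^ 3 * b ^ 8 + 30408704000000 * b ^ 10

/-- Coefficient of `t ^ 28` in `Phi6`. -/
def Phi6c28 (a b : R) : R := -21432019078125 * a ^ 14 * b + 85719228804000 * a ^ 11 * b ^ 3 - 128580522647040 * a ^ 8 * b ^ 5 + 85731449241600 * a ^ 5 * b ^ 7 - 21438136320000 * a ^ 2 * b ^ 9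

/-- Coefficient of `t ^ 29` in `Phi6`. -/
def Phi6c29 (a b : R) : R := 11210083593750 * a ^ 16 - 49873523512500 * a ^ 13 * b ^ 2 + 87394892457600 * a ^ 10 * b ^ 4 - 75042714746880 * a ^ 7 * b ^ 6 + 31344427008000 * a ^ 4 * b ^ 8 - 5033164800000 * a * b ^ 10

/-- Coefficient of `t ^ 30` in `Phi6`. -/
def Phi6c30 (a b : R) : R := -4110363984375 * a ^ 15 * b + 19796866155000 * a ^ 12 * b ^ 3 - 38083944628224 * a ^ 9 * b ^ 5 + 36574189977600 * a ^ 6 * b ^ 7 - 17532190720000 * a ^ 3 * b ^ 9 + 3355443200000 * b ^ 11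

/-- `c₄` of the fibre at `t` of the canonical pencil through a curve with invariants `(a, b)`. -/
def Phi4 (a b t : R) : R :=
  Phi4c0 a b
      + t * Phi4c1 a b
      + t ^ 2 * Phi4c2 a b
      + t ^ 3 * Phi4c3 a b
      + t ^ 4 * Phi4c4 a b
      + t ^ 5 * Phi4c5 a b
      + t ^ 6 * Phi4c6 a b
      + t ^ 7 * Phi4c7 a b
      + t ^ 8 * Phi4c8 a b
      + t ^ 9 * Phi4c9 a b
      + t ^ 10 * Phi4c10 a b
      + t ^ 11 * Phi4c11 a b
      + t ^ 12 * Phi4c12 a b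
      + t ^ 13 * Phi4c13 a b
      + t ^ 14 * Phi4c14 a b
      + t ^ 15 * Phi4c15 a b
      + t ^ 16 * Phi4c16 a b
      + t ^ 17 * Phi4c17 a b
      + t ^ 18 * Phi4c18 a b
      + t ^ 19 * Phi4c19 a b
      + t ^ 20 * Phi4c20 a b

/-- `c₆` of the fibre at `t` of the canonical pencil through a curve with invariants `(a, b)`. -/
def Phi6 (a b t : R) : R :=
  Phi6c0 a b
      + t * Phi6c1 a b
      + t ^ 2 * Phi6c2 a b
      + t ^ 3 * Phi6c3 a b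
      + t ^ 4 * Phi6c4 a b
      + t ^ 5 * Phi6c5 a b
      + t ^ 6 * Phi6c6 a b
      + t ^ 7 * Phi6c7 a b
      + t ^ 8 * Phi6c8 a b
      + t ^ 9 * Phi6c9 a b
      + t ^ 10 * Phi6c10 a b
      + t ^ 11 * Phi6c11 a b
      + t ^ 12 * Phi6c12 a b
      + t ^ 13 * Phi6c13 a b
      + t ^ 14 * Phi6c14 a b
      + t ^ 15 * Phi6c15 a b
      + t ^ 16 * Phi6c16 a b
      + t ^ 17 * Phi6c17 a b
      + t ^ 18 * Phi6c18 a b
      + t ^ 19 * Phi6c19 a b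
      + t ^ 20 * Phi6c20 a b
      + t ^ 21 * Phi6c21 a b
      + t ^ 22 * Phi6c22 a b
      + t ^ 23 * Phi6c23 a b
      + t ^ 24 * Phi6c24 a b
      + t ^ 25 * Phi6c25 a b
      + t ^ 26 * Phi6c26 a b
      + t ^ 27 * Phi6c27 a b
      + t ^ 28 * Phi6c28 a b
      + t ^ 29 * Phi6c29 a b
      + t ^ 30 * Phi6c30 a b

theorem Phi4_zero (a b : R) : Phi4 a b 0 = a := by
  simp [Phi4, Phi4c0]

theorem Phi6_zero (a b : R) : Phi6 a b 0 = b := by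
  simp [Phi6, Phi6c0]

end Fermat.Agent.S52.helper135
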