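import Mathlib
import Fermat.Agent.S52.helper135_PencilData

/-!
# S52 pencil LINK: binomial expansion step for `hhf`
-/

set_option autoImplicit false

namespace Fermat.Agent.S52.helper135

variable {R : Type*} [CommRing R]

/-- Coefficient of `t ^ 0` in `hhf (p (1 + t A)⁵) (q (1 - t B)⁵)`. -/
def LH0 (p q A B : R) : R :=
    (-p ^ 4 + 228 * p ^ 3 * q - 494 * p ^ 2 * q ^ 2 - 228 * p * q ^ 3 - q ^ 4)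

/-- Coefficient of `t ^ 1` in `hhf (p (1 + t A)⁵) (q (1 - t B)⁵)`. -/
def LH1 (p q A B : R) : R :=
    (-20 * p ^ 4 + 3420 * p ^ 3 * q - 4940 * p ^ 2 * q ^ 2 - 1140 * p * q ^ 3) * A
    + (-1140 * p ^ 3 * q + 4940 * p ^ 2 * q ^ 2 + 3420 * p * q ^ 3 + 20 * q ^ 4) * B

/-- Coefficient of `t ^ 2` in `hhf (p (1 + t A)⁵) (q (1 - t B)⁵)`. -/
def LH2 (p q A B : R) : R :=
    (-190 * p ^ 4 + 23940 * p ^ 3 * q - 22230 * p ^ 2 * q ^ 2 - 2280 * p * q ^ 3) * A ^ 2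
    + (-17100 * p ^ 3 * q + 49400 * p ^ 2 * q ^ 2 + 17100 * p * q ^ 3) * A * B
    + (2280 * p ^ 3 * q - 22230 * p ^ 2 * q ^ 2 - 23940 * p * q ^ 3 - 190 * q ^ 4) * B ^ 2

/-- Coefficient of `t ^ 3` in `hhf (p (1 + t A)⁵) (q (1 - t B)⁵)`. -/
def LH3 (p q A B : R) : R :=
    (-1140 * p ^ 4 + 103740 * p ^ 3 * q - 59280 * p ^ 2 * q ^ 2 - 2280 * p * q ^ 3) * A ^ 3
    + (-119700 * p ^ 3 * q + 222300 * p ^ 2 * q ^ 2 + 34200 * p * q ^ 3) * A ^ 2 * B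
    + (34200 * p ^ 3 * q - 222300 * p ^ 2 * q ^ 2 - 119700 * p * q ^ 3) * A * B ^ 2
    + (-2280 * p ^ 3 * q + 59280 * p ^ 2 * q ^ 2 + 103740 * p * q ^ 3 + 1140 * q ^ 4) * B ^ 3

/-- Coefficient of `t ^ 4` in `hhf (p (1 + t A)⁵) (q (1 - t B)⁵)`. -/
def LH4 (p q A B : R) : R :=
    (-4845 * p ^ 4 + 311220 * p ^ 3 * q - 103740 * p ^ 2 * q ^ 2 - 1140 * p * q ^ 3) * A ^ 4
    + (-518700 * p ^ 3 * q + 592800 * p ^ 2 * q ^ 2 + 34200 * p * q ^ 3) * A ^ 3 * B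
    + (239400 * p ^ 3 * q - 1000350 * p ^ 2 * q ^ 2 - 239400 * p * q ^ 3) * A ^ 2 * B ^ 2
    + (-34200 * p ^ 3 * q + 592800 * p ^ 2 * q ^ 2 + 518700 * p * q ^ 3) * A * B ^ 3
    + (1140 * p ^ 3 * q - 103740 * p ^ 2 * q ^ 2 - 311220 * p * q ^ 3 - 4845 * q ^ 4) * B ^ 4

/-- Coefficient of `t ^ 5` in `hhf (p (1 + t A)⁵) (q (1 - t B)⁵)`. -/
def LH5 (p q A B : R) : R :=
    (-15504 * p ^ 4 + 684684 * p ^ 3 * q - 124488 * p ^ 2 * q ^ 2 - 228 * p * q ^ 3) * A ^ 5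
    + (-1556100 * p ^ 3 * q + 1037400 * p ^ 2 * q ^ 2 + 17100 * p * q ^ 3) * A ^ 4 * B
    + (1037400 * p ^ 3 * q - 2667600 * p ^ 2 * q ^ 2 - 239400 * p * q ^ 3) * A ^ 3 * B ^ 2
    + (-239400 * p ^ 3 * q + 2667600 * p ^ 2 * q ^ 2 + 1037400 * p * q ^ 3) * A ^ 2 * B ^ 3
    + (17100 * p ^ 3 * q - 1037400 * p ^ 2 * q ^ 2 - 1556100 * p * q ^ 3) * A * B ^ 4
    + (-228 * p ^ 3 * q + 124488 * p ^ 2 * q ^ 2 + 684684 * p * q ^ 3 + 15504 * q ^ 4) * B ^ 5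

/-- Coefficient of `t ^ 6` in `hhf (p (1 + t A)⁵) (q (1 - t B)⁵)`. -/
def LH6 (p q A B : R) : R :=
    (-38760 * p ^ 4 + 1141140 * p ^ 3 * q - 103740 * p ^ 2 * q ^ 2) * A ^ 6
    + (-3423420 * p ^ 3 * q + 1244880 * p ^ 2 * q ^ 2 + 3420 * p * q ^ 3) * A ^ 5 * B
    + (3112200 * p ^ 3 * q - 4668300 * p ^ 2 * q ^ 2 - 119700 * p * q ^ 3) * A ^ 4 * B ^ 2
    + (-1037400 * p ^ 3 * q + 7113600 * p ^ 2 * q ^ 2 + 1037400 * p * q ^ 3) * A ^ 3 * B ^ 3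
    + (119700 * p ^ 3 * q - 4668300 * p ^ 2 * q ^ 2 - 3112200 * p * q ^ 3) * A ^ 2 * B ^ 4
    + (-3420 * p ^ 3 * q + 1244880 * p ^ 2 * q ^ 2 + 3423420 * p * q ^ 3) * A * B ^ 5
    + (-103740 * p ^ 2 * q ^ 2 - 1141140 * p * q ^ 3 - 38760 * q ^ 4) * B ^ 6

/-- Coefficient of `t ^ 7` in `hhf (p (1 + t A)⁵) (q (1 - t B)⁵)`. -/
def LH7 (p q A B : R) : R :=
    (-77520 * p ^ 4 + 1467180 * p ^ 3 * q - 59280 * p ^ 2 * q ^ 2) * A ^ 7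
    + (-5705700 * p ^ 3 * q + 1037400 * p ^ 2 * q ^ 2) * A ^ 6 * B
    + (6846840 * p ^ 3 * q - 5601960 * p ^ 2 * q ^ 2 - 23940 * p * q ^ 3) * A ^ 5 * B ^ 2
    + (-3112200 * p ^ 3 * q + 12448800 * p ^ 2 * q ^ 2 + 518700 * p * q ^ 3) * A ^ 4 * B ^ 3
    + (518700 * p ^ 3 * q - 12448800 * p ^ 2 * q ^ 2 - 3112200 * p * q ^ 3) * A ^ 3 * B ^ 4
    + (-23940 * p ^ 3 * q + 5601960 * p ^ 2 * q ^ 2 + 6846840 * p * q ^ 3) * A ^ 2 * B ^ 5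
    + (-1037400 * p ^ 2 * q ^ 2 - 5705700 * p * q ^ 3) * A * B ^ 6
    + (59280 * p ^ 2 * q ^ 2 + 1467180 * p * q ^ 3 + 77520 * q ^ 4) * B ^ 7

/-- Coefficient of `t ^ 8` in `hhf (p (1 + t A)⁵) (q (1 - t B)⁵)`. -/
def LH8 (p q A B : R) : R :=
    (-125970 * p ^ 4 + 1467180 * p ^ 3 * q - 22230 * p ^ 2 * q ^ 2) * A ^ 8
    + (-7335900 * p ^ 3 * q + 592800 * p ^ 2 * q ^ 2) * A ^ 7 * B
    + (11411400 * p ^ 3 * q - 4668300 * p ^ 2 * q ^ 2) * A ^ 6 * B ^ 2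
    + (-6846840 * p ^ 3 * q + 14938560 * p ^ 2 * q ^ 2 + 103740 * p * q ^ 3) * A ^ 5 * B ^ 3
    + (1556100 * p ^ 3 * q - 21785400 * p ^ 2 * q ^ 2 - 1556100 * p * q ^ 3) * A ^ 4 * B ^ 4
    + (-103740 * p ^ 3 * q + 14938560 * p ^ 2 * q ^ 2 + 6846840 * p * q ^ 3) * A ^ 3 * B ^ 5
    + (-4668300 * p ^ 2 * q ^ 2 - 11411400 * p * q ^ 3) * A ^ 2 * B ^ 6
    + (592800 * p ^ 2 * q ^ 2 + 7335900 * p * q ^ 3) * A * B ^ 7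
    + (-22230 * p ^ 2 * q ^ 2 - 1467180 * p * q ^ 3 - 125970 * q ^ 4) * B ^ 8

/-- Coefficient of `t ^ 9` in `hhf (p (1 + t A)⁵) (q (1 - t B)⁵)`. -/
def LH9 (p q A B : R) : R :=
    (-167960 * p ^ 4 + 1141140 * p ^ 3 * q - 4940 * p ^ 2 * q ^ 2) * A ^ 9
    + (-7335900 * p ^ 3 * q + 222300 * p ^ 2 * q ^ 2) * A ^ 8 * B
    + (14671800 * p ^ 3 * q - 2667600 * p ^ 2 * q ^ 2) * A ^ 7 * B ^ 2
    + (-11411400 * p ^ 3 * q + 12448800 * p ^ 2 * q ^ 2) * A ^ 6 * B ^ 3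
    + (3423420 * p ^ 3 * q - 26142480 * p ^ 2 * q ^ 2 - 311220 * p * q ^ 3) * A ^ 5 * B ^ 4
    + (-311220 * p ^ 3 * q + 26142480 * p ^ 2 * q ^ 2 + 3423420 * p * q ^ 3) * A ^ 4 * B ^ 5
    + (-12448800 * p ^ 2 * q ^ 2 - 11411400 * p * q ^ 3) * A ^ 3 * B ^ 6
    + (2667600 * p ^ 2 * q ^ 2 + 14671800 * p * q ^ 3) * A ^ 2 * B ^ 7
    + (-222300 * p ^ 2 * q ^ 2 - 7335900 * p * q ^ 3) * A * B ^ 8
    + (4940 * p ^ 2 * q ^ 2 + 1141140 * p * q ^ 3 + 167960 * q ^ 4) * B ^ 9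

/-- Coefficient of `t ^ 10` in `hhf (p (1 + t A)⁵) (q (1 - t B)⁵)`. -/
def LH10 (p q A B : R) : R :=
    (-184756 * p ^ 4 + 684684 * p ^ 3 * q - 494 * p ^ 2 * q ^ 2) * A ^ 10
    + (-5705700 * p ^ 3 * q + 49400 * p ^ 2 * q ^ 2) * A ^ 9 * B
    + (14671800 * p ^ 3 * q - 1000350 * p ^ 2 * q ^ 2) * A ^ 8 * B ^ 2
    + (-14671800 * p ^ 3 * q + 7113600 * p ^ 2 * q ^ 2) * A ^ 7 * B ^ 3
    + (5705700 * p ^ 3 * q - 21785400 * p ^ 2 * q ^ 2) * A ^ 6 * B ^ 4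
    + (-684684 * p ^ 3 * q + 31370976 * p ^ 2 * q ^ 2 + 684684 * p * q ^ 3) * A ^ 5 * B ^ 5
    + (-21785400 * p ^ 2 * q ^ 2 - 5705700 * p * q ^ 3) * A ^ 4 * B ^ 6
    + (7113600 * p ^ 2 * q ^ 2 + 14671800 * p * q ^ 3) * A ^ 3 * B ^ 7
    + (-1000350 * p ^ 2 * q ^ 2 - 14671800 * p * q ^ 3) * A ^ 2 * B ^ 8
    + (49400 * p ^ 2 * q ^ 2 + 5705700 * p * q ^ 3) * A * B ^ 9
    + (-494 * p ^ 2 * q ^ 2 - 684684 * p * q ^ 3 - 184756 * q ^ 4) * B ^ 10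

/-- Coefficient of `t ^ 11` in `hhf (p (1 + t A)⁵) (q (1 - t B)⁵)`. -/
def LH11 (p q A B : R) : R :=
    (-167960 * p ^ 4 + 311220 * p ^ 3 * q) * A ^ 11
    + (-3423420 * p ^ 3 * q + 4940 * p ^ 2 * q ^ 2) * A ^ 10 * B
    + (11411400 * p ^ 3 * q - 222300 * p ^ 2 * q ^ 2) * A ^ 9 * B ^ 2
    + (-14671800 * p ^ 3 * q + 2667600 * p ^ 2 * q ^ 2) * A ^ 8 * B ^ 3
    + (7335900 * p ^ 3 * q - 12448800 * p ^ 2 * q ^ 2) * A ^ 7 * B ^ 4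
    + (-1141140 * p ^ 3 * q + 26142480 * p ^ 2 * q ^ 2) * A ^ 6 * B ^ 5
    + (-26142480 * p ^ 2 * q ^ 2 - 1141140 * p * q ^ 3) * A ^ 5 * B ^ 6
    + (12448800 * p ^ 2 * q ^ 2 + 7335900 * p * q ^ 3) * A ^ 4 * B ^ 7
    + (-2667600 * p ^ 2 * q ^ 2 - 14671800 * p * q ^ 3) * A ^ 3 * B ^ 8
    + (222300 * p ^ 2 * q ^ 2 + 11411400 * p * q ^ 3) * A ^ 2 * B ^ 9
    + (-4940 * p ^ 2 * q ^ 2 - 3423420 * p * q ^ 3) * A * B ^ 10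
    + (311220 * p * q ^ 3 + 167960 * q ^ 4) * B ^ 11

/-- Coefficient of `t ^ 12` in `hhf (p (1 + t A)⁵) (q (1 - t B)⁵)`. -/
def LH12 (p q A B : R) : R :=
    (-125970 * p ^ 4 + 103740 * p ^ 3 * q) * A ^ 12
    + (-1556100 * p ^ 3 * q) * A ^ 11 * B
    + (6846840 * p ^ 3 * q - 22230 * p ^ 2 * q ^ 2) * A ^ 10 * B ^ 2
    + (-11411400 * p ^ 3 * q + 592800 * p ^ 2 * q ^ 2) * A ^ 9 * B ^ 3
    + (7335900 * p ^ 3 * q - 4668300 * p ^ 2 * q ^ 2) * A ^ 8 * B ^ 4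
    + (-1467180 * p ^ 3 * q + 14938560 * p ^ 2 * q ^ 2) * A ^ 7 * B ^ 5
    + (-21785400 * p ^ 2 * q ^ 2) * A ^ 6 * B ^ 6
    + (14938560 * p ^ 2 * q ^ 2 + 1467180 * p * q ^ 3) * A ^ 5 * B ^ 7
    + (-4668300 * p ^ 2 * q ^ 2 - 7335900 * p * q ^ 3) * A ^ 4 * B ^ 8
    + (592800 * p ^ 2 * q ^ 2 + 11411400 * p * q ^ 3) * A ^ 3 * B ^ 9
    + (-22230 * p ^ 2 * q ^ 2 - 6846840 * p * q ^ 3) * A ^ 2 * B ^ 10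
    + (1556100 * p * q ^ 3) * A * B ^ 11
    + (-103740 * p * q ^ 3 - 125970 * q ^ 4) * B ^ 12

/-- Coefficient of `t ^ 13` in `hhf (p (1 + t A)⁵) (q (1 - t B)⁵)`. -/
def LH13 (p q A B : R) : R :=
    (-77520 * p ^ 4 + 23940 * p ^ 3 * q) * A ^ 13
    + (-518700 * p ^ 3 * q) * A ^ 12 * B
    + (3112200 * p ^ 3 * q) * A ^ 11 * B ^ 2
    + (-6846840 * p ^ 3 * q + 59280 * p ^ 2 * q ^ 2) * A ^ 10 * B ^ 3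
    + (5705700 * p ^ 3 * q - 1037400 * p ^ 2 * q ^ 2) * A ^ 9 * B ^ 4
    + (-1467180 * p ^ 3 * q + 5601960 * p ^ 2 * q ^ 2) * A ^ 8 * B ^ 5
    + (-12448800 * p ^ 2 * q ^ 2) * A ^ 7 * B ^ 6
    + (12448800 * p ^ 2 * q ^ 2) * A ^ 6 * B ^ 7
    + (-5601960 * p ^ 2 * q ^ 2 - 1467180 * p * q ^ 3) * A ^ 5 * B ^ 8
    + (1037400 * p ^ 2 * q ^ 2 + 5705700 * p * q ^ 3) * A ^ 4 * B ^ 9
    + (-59280 * p ^ 2 * q ^ 2 - 6846840 * p * q ^ 3) * A ^ 3 * B ^ 10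
    + (3112200 * p * q ^ 3) * A ^ 2 * B ^ 11
    + (-518700 * p * q ^ 3) * A * B ^ 12
    + (23940 * p * q ^ 3 + 77520 * q ^ 4) * B ^ 13

/-- Coefficient of `t ^ 14` in `hhf (p (1 + t A)⁵) (q (1 - t B)⁵)`. -/
def LH14 (p q A B : R) : R :=
    (-38760 * p ^ 4 + 3420 * p ^ 3 * q) * A ^ 14
    + (-119700 * p ^ 3 * q) * A ^ 13 * B
    + (1037400 * p ^ 3 * q) * A ^ 12 * B ^ 2
    + (-3112200 * p ^ 3 * q) * A ^ 11 * B ^ 3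
    + (3423420 * p ^ 3 * q - 103740 * p ^ 2 * q ^ 2) * A ^ 10 * B ^ 4
    + (-1141140 * p ^ 3 * q + 1244880 * p ^ 2 * q ^ 2) * A ^ 9 * B ^ 5
    + (-4668300 * p ^ 2 * q ^ 2) * A ^ 8 * B ^ 6
    + (7113600 * p ^ 2 * q ^ 2) * A ^ 7 * B ^ 7
    + (-4668300 * p ^ 2 * q ^ 2) * A ^ 6 * B ^ 8
    + (1244880 * p ^ 2 * q ^ 2 + 1141140 * p * q ^ 3) * A ^ 5 * B ^ 9
    + (-103740 * p ^ 2 * q ^ 2 - 3423420 * p * q ^ 3) * A ^ 4 * B ^ 10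
    + (3112200 * p * q ^ 3) * A ^ 3 * B ^ 11
    + (-1037400 * p * q ^ 3) * A ^ 2 * B ^ 12
    + (119700 * p * q ^ 3) * A * B ^ 13
    + (-3420 * p * q ^ 3 - 38760 * q ^ 4) * B ^ 14

/-- Coefficient of `t ^ 15` in `hhf (p (1 + t A)⁵) (q (1 - t B)⁵)`. -/
def LH15 (p q A B : R) : R :=
    (-15504 * p ^ 4 + 228 * p ^ 3 * q) * A ^ 15
    + (-17100 * p ^ 3 * q) * A ^ 14 * B
    + (239400 * p ^ 3 * q) * A ^ 13 * B ^ 2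
    + (-1037400 * p ^ 3 * q) * A ^ 12 * B ^ 3
    + (1556100 * p ^ 3 * q) * A ^ 11 * B ^ 4
    + (-684684 * p ^ 3 * q + 124488 * p ^ 2 * q ^ 2) * A ^ 10 * B ^ 5
    + (-1037400 * p ^ 2 * q ^ 2) * A ^ 9 * B ^ 6
    + (2667600 * p ^ 2 * q ^ 2) * A ^ 8 * B ^ 7
    + (-2667600 * p ^ 2 * q ^ 2) * A ^ 7 * B ^ 8
    + (1037400 * p ^ 2 * q ^ 2) * A ^ 6 * B ^ 9
    + (-124488 * p ^ 2 * q ^ 2 - 684684 * p * q ^ 3) * A ^ 5 * B ^ 10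
    + (1556100 * p * q ^ 3) * A ^ 4 * B ^ 11
    + (-1037400 * p * q ^ 3) * A ^ 3 * B ^ 12
    + (239400 * p * q ^ 3) * A ^ 2 * B ^ 13
    + (-17100 * p * q ^ 3) * A * B ^ 14
    + (228 * p * q ^ 3 + 15504 * q ^ 4) * B ^ 15

/-- Coefficient of `t ^ 16` in `hhf (p (1 + t A)⁵) (q (1 - t B)⁵)`. -/
def LH16 (p q A B : R) : R :=
    (-4845 * p ^ 4) * A ^ 16
    + (-1140 * p ^ 3 * q) * A ^ 15 * B
    + (34200 * p ^ 3 * q) * A ^ 14 * B ^ 2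
    + (-239400 * p ^ 3 * q) * A ^ 13 * B ^ 3
    + (518700 * p ^ 3 * q) * A ^ 12 * B ^ 4
    + (-311220 * p ^ 3 * q) * A ^ 11 * B ^ 5
    + (-103740 * p ^ 2 * q ^ 2) * A ^ 10 * B ^ 6
    + (592800 * p ^ 2 * q ^ 2) * A ^ 9 * B ^ 7
    + (-1000350 * p ^ 2 * q ^ 2) * A ^ 8 * B ^ 8
    + (592800 * p ^ 2 * q ^ 2) * A ^ 7 * B ^ 9
    + (-103740 * p ^ 2 * q ^ 2) * A ^ 6 * B ^ 10
    + (311220 * p * q ^ 3) * A ^ 5 * B ^ 11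
    + (-518700 * p * q ^ 3) * A ^ 4 * B ^ 12
    + (239400 * p * q ^ 3) * A ^ 3 * B ^ 13
    + (-34200 * p * q ^ 3) * A ^ 2 * B ^ 14
    + (1140 * p * q ^ 3) * A * B ^ 15
    + (-4845 * q ^ 4) * B ^ 16

/-- Coefficient of `t ^ 17` in `hhf (p (1 + t A)⁵) (q (1 - t B)⁵)`. -/
def LH17 (p q A B : R) : R :=
    (-1140 * p ^ 4) * A ^ 17
    + (2280 * p ^ 3 * q) * A ^ 15 * B ^ 2
    + (-34200 * p ^ 3 * q) * A ^ 14 * B ^ 3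
    + (119700 * p ^ 3 * q) * A ^ 13 * B ^ 4
    + (-103740 * p ^ 3 * q) * A ^ 12 * B ^ 5
    + (59280 * p ^ 2 * q ^ 2) * A ^ 10 * B ^ 7
    + (-222300 * p ^ 2 * q ^ 2) * A ^ 9 * B ^ 8
    + (222300 * p ^ 2 * q ^ 2) * A ^ 8 * B ^ 9
    + (-59280 * p ^ 2 * q ^ 2) * A ^ 7 * B ^ 10
    + (-103740 * p * q ^ 3) * A ^ 5 * B ^ 12
    + (119700 * p * q ^ 3) * A ^ 4 * B ^ 13
    + (-34200 * p * q ^ 3) * A ^ 3 * B ^ 14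
    + (2280 * p * q ^ 3) * A ^ 2 * B ^ 15
    + (1140 * q ^ 4) * B ^ 17

/-- Coefficient of `t ^ 18` in `hhf (p (1 + t A)⁵) (q (1 - t B)⁵)`. -/
def LH18 (p q A B : R) : R :=
    (-190 * p ^ 4) * A ^ 18
    + (-2280 * p ^ 3 * q) * A ^ 15 * B ^ 3
    + (17100 * p ^ 3 * q) * A ^ 14 * B ^ 4
    + (-23940 * p ^ 3 * q) * A ^ 13 * B ^ 5
    + (-22230 * p ^ 2 * q ^ 2) * A ^ 10 * B ^ 8
    + (49400 * p ^ 2 * q ^ 2) * A ^ 9 * B ^ 9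
    + (-22230 * p ^ 2 * q ^ 2) * A ^ 8 * B ^ 10
    + (23940 * p * q ^ 3) * A ^ 5 * B ^ 13
    + (-17100 * p * q ^ 3) * A ^ 4 * B ^ 14
    + (2280 * p * q ^ 3) * A ^ 3 * B ^ 15
    + (-190 * q ^ 4) * B ^ 18

/-- Coefficient of `t ^ 19` in `hhf (p (1 + t A)⁵) (q (1 - t B)⁵)`. -/
def LH19 (p q A B : R) : R :=
    (-20 * p ^ 4) * A ^ 19
    + (1140 * p ^ 3 * q) * A ^ 15 * B ^ 4
    + (-3420 * p ^ 3 * q) * A ^ 14 * B ^ 5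
    + (4940 * p ^ 2 * q ^ 2) * A ^ 10 * B ^ 9
    + (-4940 * p ^ 2 * q ^ 2) * A ^ 9 * B ^ 10
    + (-3420 * p * q ^ 3) * A ^ 5 * B ^ 14
    + (1140 * p * q ^ 3) * A ^ 4 * B ^ 15
    + (20 * q ^ 4) * B ^ 19

/-- Coefficient of `t ^ 20` in `hhf (p (1 + t A)⁵) (q (1 - t B)⁵)`. -/
def LH20 (p q A B : R) : R :=
    (-p ^ 4) * A ^ 20
    + (-228 * p ^ 3 * q) * A ^ 15 * B ^ 5
    + (-494 * p ^ 2 * q ^ 2) * A ^ 10 * B ^ 10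
    + (228 * p * q ^ 3) * A ^ 5 * B ^ 15
    + (-q ^ 4) * B ^ 20

theorem hhf_binom (p q t A B : R) :
    hhf (p * (1 + t * A) ^ 5) (q * (1 - t * B) ^ 5) =
      LH0 p q A B
      + t * LH1 p q A B
      + t ^ 2 * LH2 p q A B
      + t ^ 3 * LH3 p q A B
      + t ^ 4 * LH4 p q A B
      + t ^ 5 * LH5 p q A B
      + t ^ 6 * LH6 p q A B
      + t ^ 7 * LH7 p q A B
      + t ^ 8 * LH8 p q A B
      + t ^ 9 * LH9 p q A B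
      + t ^ 10 * LH10 p q A B
      + t ^ 11 * LH11 p q A B
      + t ^ 12 * LH12 p q A B
      + t ^ 13 * LH13 p q A B
      + t ^ 14 * LH14 p q A B
      + t ^ 15 * LH15 p q A B
      + t ^ 16 * LH16 p q A B
      + t ^ 17 * LH17 p q A B
      + t ^ 18 * LH18 p q A B
      + t ^ 19 * LH19 p q A B
      + t ^ 20 * LH20 p q A B := by
  simp only [hhf, LH0, LH1, LH2, LH3, LH4, LH5, LH6, LH7, LH8, LH9, LH10, LH11, LH12, LH13, LH14, LH15, LH16, LH17, LH18, LH19, LH20]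
  ring

end Fermat.Agent.S52.helper135
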