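import Mathlib
import Fermat.Agent.S52.helper135_PencilBinomH

/-!
# S52 pencil LINK: coefficient identities (PencilCoefH0)
-/

set_option autoImplicit false

namespace Fermat.Agent.S52.helper135

variable {R : Type*} [CommRing R]

theorem LH0_eq (p q : R) :
    LH0 p q (p ^ 2 + 66 * p * q - 11 * q ^ 2) (11 * p ^ 2 + 66 * p * q - q ^ 2) =
      -Phi4c0 (-hhf p q) (-ttf p q) := by
  simp only [LH0, Phi4c0, hhf, ttf]
  ring

theorem LH1_eq (p q : R) :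
    LH1 p q (p ^ 2 + 66 * p * q - 11 * q ^ 2) (11 * p ^ 2 + 66 * p * q - q ^ 2) =
      -Phi4c1 (-hhf p q) (-ttf p q) := by
  simp only [LH1, Phi4c1, hhf, ttf]
  ring

theorem LH2_eq (p q : R) :
    LH2 p q (p ^ 2 + 66 * p * q - 11 * q ^ 2) (11 * p ^ 2 + 66 * p * q - q ^ 2) =
      -Phi4c2 (-hhf p q) (-ttf p q) := by
  simp only [LH2, Phi4c2, hhf, ttf]
  ring

theorem LH3_eq (p q : R) :
    LH3 p q (p ^ 2 + 66 * p * q - 11 * q ^ 2) (11 * p ^ 2 + 66 * p * q - q ^ 2) =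
      -Phi4c3 (-hhf p q) (-ttf p q) := by
  simp only [LH3, Phi4c3, hhf, ttf]
  ring

theorem LH4_eq (p q : R) :
    LH4 p q (p ^ 2 + 66 * p * q - 11 * q ^ 2) (11 * p ^ 2 + 66 * p * q - q ^ 2) =
      -Phi4c4 (-hhf p q) (-ttf p q) := by
  simp only [LH4, Phi4c4, hhf, ttf]
  ring

theorem LH5_eq (p q : R) :
    LH5 p q (p ^ 2 + 66 * p * q - 11 * q ^ 2) (11 * p ^ 2 + 66 * p * q - q ^ 2) =
      -Phi4c5 (-hhf p q) (-ttf p q) := by
  simp only [LH5, Phi4c5, hhf, ttf]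
  ring

theorem LH6_eq (p q : R) :
    LH6 p q (p ^ 2 + 66 * p * q - 11 * q ^ 2) (11 * p ^ 2 + 66 * p * q - q ^ 2) =
      -Phi4c6 (-hhf p q) (-ttf p q) := by
  simp only [LH6, Phi4c6, hhf, ttf]
  ring

theorem LH7_eq (p q : R) :
    LH7 p q (p ^ 2 + 66 * p * q - 11 * q ^ 2) (11 * p ^ 2 + 66 * p * q - q ^ 2) =
      -Phi4c7 (-hhf p q) (-ttf p q) := by
  simp only [LH7, Phi4c7, hhf, ttf]
  ring

theorem LH8_eq (p q : R) :
    LH8 p q (p ^ 2 + 66 * p * q - 11 * q ^ 2) (11 * p ^ 2 + 66 * p * q - q ^ 2) =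
      -Phi4c8 (-hhf p q) (-ttf p q) := by
  simp only [LH8, Phi4c8, hhf, ttf]
  ring

theorem LH9_eq (p q : R) :
    LH9 p q (p ^ 2 + 66 * p * q - 11 * q ^ 2) (11 * p ^ 2 + 66 * p * q - q ^ 2) =
      -Phi4c9 (-hhf p q) (-ttf p q) := by
  simp only [LH9, Phi4c9, hhf, ttf]
  ring

theorem LH10_eq (p q : R) :
    LH10 p q (p ^ 2 + 66 * p * q - 11 * q ^ 2) (11 * p ^ 2 + 66 * p * q - q ^ 2) =
      -Phi4c10 (-hhf p q) (-ttf p q) := by
  simp only [LH10, Phi4c10, hhf, ttf]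
  ring

end Fermat.Agent.S52.helper135
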