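import Mathlib
import Fermat.Agent.S52.helper135_PencilBinomH

/-!
# S52 pencil LINK: coefficient identities (PencilCoefH1)
-/

set_option autoImplicit false

namespace Fermat.Agent.S52.helper135

variable {R : Type*} [CommRing R]

theorem LH11_eq (p q : R) :
    LH11 p q (p ^ 2 + 66 * p * q - 11 * q ^ 2) (11 * p ^ 2 + 66 * p * q - q ^ 2) =
      -Phi4c11 (-hhf p q) (-ttf p q) := by
  simp only [LH11, Phi4c11, hhf, ttf]
  ring

theorem LH12_eq (p q : R) :
    LH12 p q (p ^ 2 + 66 * p * q - 11 * q ^ 2) (11 * p ^ 2 + 66 * p * q - q ^ 2) =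
      -Phi4c12 (-hhf p q) (-ttf p q) := by
  simp only [LH12, Phi4c12, hhf, ttf]
  ring

theorem LH13_eq (p q : R) :
    LH13 p q (p ^ 2 + 66 * p * q - 11 * q ^ 2) (11 * p ^ 2 + 66 * p * q - q ^ 2) =
      -Phi4c13 (-hhf p q) (-ttf p q) := by
  simp only [LH13, Phi4c13, hhf, ttf]
  ring

theorem LH14_eq (p q : R) :
    LH14 p q (p ^ 2 + 66 * p * q - 11 * q ^ 2) (11 * p ^ 2 + 66 * p * q - q ^ 2) =
      -Phi4c14 (-hhf p q) (-ttf p q) := by
  simp only [LH14, Phi4c14, hhf, ttf]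
  ring

theorem LH15_eq (p q : R) :
    LH15 p q (p ^ 2 + 66 * p * q - 11 * q ^ 2) (11 * p ^ 2 + 66 * p * q - q ^ 2) =
      -Phi4c15 (-hhf p q) (-ttf p q) := by
  simp only [LH15, Phi4c15, hhf, ttf]
  ring

end Fermat.Agent.S52.helper135
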