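import Mathlib
import Fermat.Agent.S52.helper135_PencilBinomH

/-!
# S52 pencil LINK: coefficient identities (PencilCoefH2)
-/

set_option autoImplicit false

namespace Fermat.Agent.S52.helper135

variable {R : Type*} [CommRing R]

theorem LH16_eq (p q : R) :
    LH16 p q (p ^ 2 + 66 * p * q - 11 * q ^ 2) (11 * p ^ 2 + 66 * p * q - q ^ 2) =
      -Phi4c16 (-hhf p q) (-ttf p q) := by
  simp only [LH16, Phi4c16, hhf, ttf]
  ring

theorem LH17_eq (p q : R) :
    LH17 p q (p ^ 2 + 66 * p * q - 11 * q ^ 2) (11 * p ^ 2 + 66 * p * q - q ^ 2) =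
      -Phi4c17 (-hhf p q) (-ttf p q) := by
  simp only [LH17, Phi4c17, hhf, ttf]
  ring

theorem LH18_eq (p q : R) :
    LH18 p q (p ^ 2 + 66 * p * q - 11 * q ^ 2) (11 * p ^ 2 + 66 * p * q - q ^ 2) =
      -Phi4c18 (-hhf p q) (-ttf p q) := by
  simp only [LH18, Phi4c18, hhf, ttf]
  ring

end Fermat.Agent.S52.helper135
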