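import Mathlib
import Fermat.Agent.S52.helper135_PencilData

/-!
# S52 pencil LINK: binomial expansion step for `ttf`
-/

set_option autoImplicit false

namespace Fermat.Agent.S52.helper135

variable {R : Type*} [CommRing R]

/-- Coefficient of `t ^ 0` in `ttf (p (1 + t A)⁵) (q (1 - t B)⁵)`. -/
def LT0 (p q A B : R) : R :=
    (p ^ 6 + 522 * p ^ 5 * q - 10005 * p ^ 4 * q ^ 2 - 10005 * p ^ 2 * q ^ 4 - 522 * p * q ^ 5 + q ^ 6)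

/-- Coefficient of `t ^ 1` in `ttf (p (1 + t A)⁵) (q (1 - t B)⁵)`. -/
def LT1 (p q A B : R) : R :=
    (30 * p ^ 6 + 13050 * p ^ 5 * q - 200100 * p ^ 4 * q ^ 2 - 100050 * p ^ 2 * q ^ 4 - 2610 * p * q ^ 5) * A
    + (-2610 * p ^ 5 * q + 100050 * p ^ 4 * q ^ 2 + 200100 * p ^ 2 * q ^ 4 + 13050 * p * q ^ 5 - 30 * q ^ 6) * B

/-- Coefficient of `t ^ 2` in `ttf (p (1 + t A)⁵) (q (1 - t B)⁵)`. -/
def LT2 (p q A B : R) : R :=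
    (435 * p ^ 6 + 156600 * p ^ 5 * q - 1900950 * p ^ 4 * q ^ 2 - 450225 * p ^ 2 * q ^ 4 - 5220 * p * q ^ 5) * A ^ 2
    + (-65250 * p ^ 5 * q + 2001000 * p ^ 4 * q ^ 2 + 2001000 * p ^ 2 * q ^ 4 + 65250 * p * q ^ 5) * A * B
    + (5220 * p ^ 5 * q - 450225 * p ^ 4 * q ^ 2 - 1900950 * p ^ 2 * q ^ 4 - 156600 * p * q ^ 5 + 435 * q ^ 6) * B ^ 2

/-- Coefficient of `t ^ 3` in `ttf (p (1 + t A)⁵) (q (1 - t B)⁵)`. -/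
def LT3 (p q A B : R) : R :=
    (4060 * p ^ 6 + 1200600 * p ^ 5 * q - 11405700 * p ^ 4 * q ^ 2 - 1200600 * p ^ 2 * q ^ 4 - 5220 * p * q ^ 5) * A ^ 3
    + (-783000 * p ^ 5 * q + 19009500 * p ^ 4 * q ^ 2 + 9004500 * p ^ 2 * q ^ 4 + 130500 * p * q ^ 5) * A ^ 2 * B
    + (130500 * p ^ 5 * q - 9004500 * p ^ 4 * q ^ 2 - 19009500 * p ^ 2 * q ^ 4 - 783000 * p * q ^ 5) * A * B ^ 2
    + (-5220 * p ^ 5 * q + 1200600 * p ^ 4 * q ^ 2 + 11405700 * p ^ 2 * q ^ 4 + 1200600 * p * q ^ 5 - 4060 * q ^ 6) * B ^ 3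

/-- Coefficient of `t ^ 4` in `ttf (p (1 + t A)⁵) (q (1 - t B)⁵)`. -/
def LT4 (p q A B : R) : R :=
    (27405 * p ^ 6 + 6603300 * p ^ 5 * q - 48474225 * p ^ 4 * q ^ 2 - 2101050 * p ^ 2 * q ^ 4 - 2610 * p * q ^ 5) * A ^ 4
    + (-6003000 * p ^ 5 * q + 114057000 * p ^ 4 * q ^ 2 + 24012000 * p ^ 2 * q ^ 4 + 130500 * p * q ^ 5) * A ^ 3 * B
    + (1566000 * p ^ 5 * q - 85542750 * p ^ 4 * q ^ 2 - 85542750 * p ^ 2 * q ^ 4 - 1566000 * p * q ^ 5) * A ^ 2 * B ^ 2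
    + (-130500 * p ^ 5 * q + 24012000 * p ^ 4 * q ^ 2 + 114057000 * p ^ 2 * q ^ 4 + 6003000 * p * q ^ 5) * A * B ^ 3
    + (2610 * p ^ 5 * q - 2101050 * p ^ 4 * q ^ 2 - 48474225 * p ^ 2 * q ^ 4 - 6603300 * p * q ^ 5 + 27405 * q ^ 6) * B ^ 4

/-- Coefficient of `t ^ 5` in `ttf (p (1 + t A)⁵) (q (1 - t B)⁵)`. -/
def LT5 (p q A B : R) : R :=
    (142506 * p ^ 6 + 27733860 * p ^ 5 * q - 155117520 * p ^ 4 * q ^ 2 - 2521260 * p ^ 2 * q ^ 4 - 522 * p * q ^ 5) * A ^ 5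
    + (-33016500 * p ^ 5 * q + 484742250 * p ^ 4 * q ^ 2 + 42021000 * p ^ 2 * q ^ 4 + 65250 * p * q ^ 5) * A ^ 4 * B
    + (12006000 * p ^ 5 * q - 513256500 * p ^ 4 * q ^ 2 - 228114000 * p ^ 2 * q ^ 4 - 1566000 * p * q ^ 5) * A ^ 3 * B ^ 2
    + (-1566000 * p ^ 5 * q + 228114000 * p ^ 4 * q ^ 2 + 513256500 * p ^ 2 * q ^ 4 + 12006000 * p * q ^ 5) * A ^ 2 * B ^ 3
    + (65250 * p ^ 5 * q - 42021000 * p ^ 4 * q ^ 2 - 484742250 * p ^ 2 * q ^ 4 - 33016500 * p * q ^ 5) * A * B ^ 4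
    + (-522 * p ^ 5 * q + 2521260 * p ^ 4 * q ^ 2 + 155117520 * p ^ 2 * q ^ 4 + 27733860 * p * q ^ 5 - 142506 * q ^ 6) * B ^ 5

/-- Coefficient of `t ^ 6` in `ttf (p (1 + t A)⁵) (q (1 - t B)⁵)`. -/
def LT6 (p q A B : R) : R :=
    (593775 * p ^ 6 + 92446200 * p ^ 5 * q - 387793800 * p ^ 4 * q ^ 2 - 2101050 * p ^ 2 * q ^ 4) * A ^ 6
    + (-138669300 * p ^ 5 * q + 1551175200 * p ^ 4 * q ^ 2 + 50425200 * p ^ 2 * q ^ 4 + 13050 * p * q ^ 5) * A ^ 5 * B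
    + (66033000 * p ^ 5 * q - 2181340125 * p ^ 4 * q ^ 2 - 399199500 * p ^ 2 * q ^ 4 - 783000 * p * q ^ 5) * A ^ 4 * B ^ 2
    + (-12006000 * p ^ 5 * q + 1368684000 * p ^ 4 * q ^ 2 + 1368684000 * p ^ 2 * q ^ 4 + 12006000 * p * q ^ 5) * A ^ 3 * B ^ 3
    + (783000 * p ^ 5 * q - 399199500 * p ^ 4 * q ^ 2 - 2181340125 * p ^ 2 * q ^ 4 - 66033000 * p * q ^ 5) * A ^ 2 * B ^ 4
    + (-13050 * p ^ 5 * q + 50425200 * p ^ 4 * q ^ 2 + 1551175200 * p ^ 2 * q ^ 4 + 138669300 * p * q ^ 5) * A * B ^ 5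
    + (-2101050 * p ^ 4 * q ^ 2 - 387793800 * p ^ 2 * q ^ 4 - 92446200 * p * q ^ 5 + 593775 * q ^ 6) * B ^ 6

/-- Coefficient of `t ^ 7` in `ttf (p (1 + t A)⁵) (q (1 - t B)⁵)`. -/
def LT7 (p q A B : R) : R :=
    (2035800 * p ^ 6 + 250925400 * p ^ 5 * q - 775587600 * p ^ 4 * q ^ 2 - 1200600 * p ^ 2 * q ^ 4) * A ^ 7
    + (-462231000 * p ^ 5 * q + 3877938000 * p ^ 4 * q ^ 2 + 42021000 * p ^ 2 * q ^ 4) * A ^ 6 * B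
    + (277338600 * p ^ 5 * q - 6980288400 * p ^ 4 * q ^ 2 - 479039400 * p ^ 2 * q ^ 4 - 156600 * p * q ^ 5) * A ^ 5 * B ^ 2
    + (-66033000 * p ^ 5 * q + 5816907000 * p ^ 4 * q ^ 2 + 2395197000 * p ^ 2 * q ^ 4 + 6003000 * p * q ^ 5) * A ^ 4 * B ^ 3
    + (6003000 * p ^ 5 * q - 2395197000 * p ^ 4 * q ^ 2 - 5816907000 * p ^ 2 * q ^ 4 - 66033000 * p * q ^ 5) * A ^ 3 * B ^ 4
    + (-156600 * p ^ 5 * q + 479039400 * p ^ 4 * q ^ 2 + 6980288400 * p ^ 2 * q ^ 4 + 277338600 * p * q ^ 5) * A ^ 2 * B ^ 5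
    + (-42021000 * p ^ 4 * q ^ 2 - 3877938000 * p ^ 2 * q ^ 4 - 462231000 * p * q ^ 5) * A * B ^ 6
    + (1200600 * p ^ 4 * q ^ 2 + 775587600 * p ^ 2 * q ^ 4 + 250925400 * p * q ^ 5 - 2035800 * q ^ 6) * B ^ 7

/-- Coefficient of `t ^ 8` in `ttf (p (1 + t A)⁵) (q (1 - t B)⁵)`. -/
def LT8 (p q A B : R) : R :=
    (5852925 * p ^ 6 + 564582150 * p ^ 5 * q - 1260329850 * p ^ 4 * q ^ 2 - 450225 * p ^ 2 * q ^ 4) * A ^ 8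
    + (-1254627000 * p ^ 5 * q + 7755876000 * p ^ 4 * q ^ 2 + 24012000 * p ^ 2 * q ^ 4) * A ^ 7 * B
    + (924462000 * p ^ 5 * q - 17450721000 * p ^ 4 * q ^ 2 - 399199500 * p ^ 2 * q ^ 4) * A ^ 6 * B ^ 2
    + (-277338600 * p ^ 5 * q + 18614102400 * p ^ 4 * q ^ 2 + 2874236400 * p ^ 2 * q ^ 4 + 1200600 * p * q ^ 5) * A ^ 5 * B ^ 3
    + (33016500 * p ^ 5 * q - 10179587250 * p ^ 4 * q ^ 2 - 10179587250 * p ^ 2 * q ^ 4 - 33016500 * p * q ^ 5) * A ^ 4 * B ^ 4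
    + (-1200600 * p ^ 5 * q + 2874236400 * p ^ 4 * q ^ 2 + 18614102400 * p ^ 2 * q ^ 4 + 277338600 * p * q ^ 5) * A ^ 3 * B ^ 5
    + (-399199500 * p ^ 4 * q ^ 2 - 17450721000 * p ^ 2 * q ^ 4 - 924462000 * p * q ^ 5) * A ^ 2 * B ^ 6
    + (24012000 * p ^ 4 * q ^ 2 + 7755876000 * p ^ 2 * q ^ 4 + 1254627000 * p * q ^ 5) * A * B ^ 7
    + (-450225 * p ^ 4 * q ^ 2 - 1260329850 * p ^ 2 * q ^ 4 - 564582150 * p * q ^ 5 + 5852925 * q ^ 6) * B ^ 8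

/-- Coefficient of `t ^ 9` in `ttf (p (1 + t A)⁵) (q (1 - t B)⁵)`. -/
def LT9 (p q A B : R) : R :=
    (14307150 * p ^ 6 + 1066432950 * p ^ 5 * q - 1680439800 * p ^ 4 * q ^ 2 - 100050 * p ^ 2 * q ^ 4) * A ^ 9
    + (-2822910750 * p ^ 5 * q + 12603298500 * p ^ 4 * q ^ 2 + 9004500 * p ^ 2 * q ^ 4) * A ^ 8 * B
    + (2509254000 * p ^ 5 * q - 34901442000 * p ^ 4 * q ^ 2 - 228114000 * p ^ 2 * q ^ 4) * A ^ 7 * B ^ 2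
    + (-924462000 * p ^ 5 * q + 46535256000 * p ^ 4 * q ^ 2 + 2395197000 * p ^ 2 * q ^ 4) * A ^ 6 * B ^ 3
    + (138669300 * p ^ 5 * q - 32574679200 * p ^ 4 * q ^ 2 - 12215504700 * p ^ 2 * q ^ 4 - 6603300 * p * q ^ 5) * A ^ 5 * B ^ 4
    + (-6603300 * p ^ 5 * q + 12215504700 * p ^ 4 * q ^ 2 + 32574679200 * p ^ 2 * q ^ 4 + 138669300 * p * q ^ 5) * A ^ 4 * B ^ 5
    + (-2395197000 * p ^ 4 * q ^ 2 - 46535256000 * p ^ 2 * q ^ 4 - 924462000 * p * q ^ 5) * A ^ 3 * B ^ 6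
    + (228114000 * p ^ 4 * q ^ 2 + 34901442000 * p ^ 2 * q ^ 4 + 2509254000 * p * q ^ 5) * A ^ 2 * B ^ 7
    + (-9004500 * p ^ 4 * q ^ 2 - 12603298500 * p ^ 2 * q ^ 4 - 2822910750 * p * q ^ 5) * A * B ^ 8
    + (100050 * p ^ 4 * q ^ 2 + 1680439800 * p ^ 2 * q ^ 4 + 1066432950 * p * q ^ 5 - 14307150 * q ^ 6) * B ^ 9

/-- Coefficient of `t ^ 10` in `ttf (p (1 + t A)⁵) (q (1 - t B)⁵)`. -/
def LT10 (p q A B : R) : R :=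
    (30045015 * p ^ 6 + 1706292720 * p ^ 5 * q - 1848483780 * p ^ 4 * q ^ 2 - 10005 * p ^ 2 * q ^ 4) * A ^ 10
    + (-5332164750 * p ^ 5 * q + 16804398000 * p ^ 4 * q ^ 2 + 2001000 * p ^ 2 * q ^ 4) * A ^ 9 * B
    + (5645821500 * p ^ 5 * q - 56714843250 * p ^ 4 * q ^ 2 - 85542750 * p ^ 2 * q ^ 4) * A ^ 8 * B ^ 2
    + (-2509254000 * p ^ 5 * q + 93070512000 * p ^ 4 * q ^ 2 + 1368684000 * p ^ 2 * q ^ 4) * A ^ 7 * B ^ 3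
    + (462231000 * p ^ 5 * q - 81436698000 * p ^ 4 * q ^ 2 - 10179587250 * p ^ 2 * q ^ 4) * A ^ 6 * B ^ 4
    + (-27733860 * p ^ 5 * q + 39089615040 * p ^ 4 * q ^ 2 + 39089615040 * p ^ 2 * q ^ 4 + 27733860 * p * q ^ 5) * A ^ 5 * B ^ 5
    + (-10179587250 * p ^ 4 * q ^ 2 - 81436698000 * p ^ 2 * q ^ 4 - 462231000 * p * q ^ 5) * A ^ 4 * B ^ 6
    + (1368684000 * p ^ 4 * q ^ 2 + 93070512000 * p ^ 2 * q ^ 4 + 2509254000 * p * q ^ 5) * A ^ 3 * B ^ 7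
    + (-85542750 * p ^ 4 * q ^ 2 - 56714843250 * p ^ 2 * q ^ 4 - 5645821500 * p * q ^ 5) * A ^ 2 * B ^ 8
    + (2001000 * p ^ 4 * q ^ 2 + 16804398000 * p ^ 2 * q ^ 4 + 5332164750 * p * q ^ 5) * A * B ^ 9
    + (-10005 * p ^ 4 * q ^ 2 - 1848483780 * p ^ 2 * q ^ 4 - 1706292720 * p * q ^ 5 + 30045015 * q ^ 6) * B ^ 10

/-- Coefficient of `t ^ 11` in `ttf (p (1 + t A)⁵) (q (1 - t B)⁵)`. -/
def LT11 (p q A B : R) : R :=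
    (54627300 * p ^ 6 + 2326762800 * p ^ 5 * q - 1680439800 * p ^ 4 * q ^ 2) * A ^ 11
    + (-8531463600 * p ^ 5 * q + 18484837800 * p ^ 4 * q ^ 2 + 200100 * p ^ 2 * q ^ 4) * A ^ 10 * B
    + (10664329500 * p ^ 5 * q - 75619791000 * p ^ 4 * q ^ 2 - 19009500 * p ^ 2 * q ^ 4) * A ^ 9 * B ^ 2
    + (-5645821500 * p ^ 5 * q + 151239582000 * p ^ 4 * q ^ 2 + 513256500 * p ^ 2 * q ^ 4) * A ^ 8 * B ^ 3
    + (1254627000 * p ^ 5 * q - 162873396000 * p ^ 4 * q ^ 2 - 5816907000 * p ^ 2 * q ^ 4) * A ^ 7 * B ^ 4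
    + (-92446200 * p ^ 5 * q + 97724037600 * p ^ 4 * q ^ 2 + 32574679200 * p ^ 2 * q ^ 4) * A ^ 6 * B ^ 5
    + (-32574679200 * p ^ 4 * q ^ 2 - 97724037600 * p ^ 2 * q ^ 4 - 92446200 * p * q ^ 5) * A ^ 5 * B ^ 6
    + (5816907000 * p ^ 4 * q ^ 2 + 162873396000 * p ^ 2 * q ^ 4 + 1254627000 * p * q ^ 5) * A ^ 4 * B ^ 7
    + (-513256500 * p ^ 4 * q ^ 2 - 151239582000 * p ^ 2 * q ^ 4 - 5645821500 * p * q ^ 5) * A ^ 3 * B ^ 8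
    + (19009500 * p ^ 4 * q ^ 2 + 75619791000 * p ^ 2 * q ^ 4 + 10664329500 * p * q ^ 5) * A ^ 2 * B ^ 9
    + (-200100 * p ^ 4 * q ^ 2 - 18484837800 * p ^ 2 * q ^ 4 - 8531463600 * p * q ^ 5) * A * B ^ 10
    + (1680439800 * p ^ 2 * q ^ 4 + 2326762800 * p * q ^ 5 - 54627300 * q ^ 6) * B ^ 11

/-- Coefficient of `t ^ 12` in `ttf (p (1 + t A)⁵) (q (1 - t B)⁵)`. -/
def LT12 (p q A B : R) : R :=
    (86493225 * p ^ 6 + 2714556600 * p ^ 5 * q - 1260329850 * p ^ 4 * q ^ 2) * A ^ 12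
    + (-11633814000 * p ^ 5 * q + 16804398000 * p ^ 4 * q ^ 2) * A ^ 11 * B
    + (17062927200 * p ^ 5 * q - 83181770100 * p ^ 4 * q ^ 2 - 1900950 * p ^ 2 * q ^ 4) * A ^ 10 * B ^ 2
    + (-10664329500 * p ^ 5 * q + 201652776000 * p ^ 4 * q ^ 2 + 114057000 * p ^ 2 * q ^ 4) * A ^ 9 * B ^ 3
    + (2822910750 * p ^ 5 * q - 264669268500 * p ^ 4 * q ^ 2 - 2181340125 * p ^ 2 * q ^ 4) * A ^ 8 * B ^ 4
    + (-250925400 * p ^ 5 * q + 195448075200 * p ^ 4 * q ^ 2 + 18614102400 * p ^ 2 * q ^ 4) * A ^ 7 * B ^ 5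
    + (-81436698000 * p ^ 4 * q ^ 2 - 81436698000 * p ^ 2 * q ^ 4) * A ^ 6 * B ^ 6
    + (18614102400 * p ^ 4 * q ^ 2 + 195448075200 * p ^ 2 * q ^ 4 + 250925400 * p * q ^ 5) * A ^ 5 * B ^ 7
    + (-2181340125 * p ^ 4 * q ^ 2 - 264669268500 * p ^ 2 * q ^ 4 - 2822910750 * p * q ^ 5) * A ^ 4 * B ^ 8
    + (114057000 * p ^ 4 * q ^ 2 + 201652776000 * p ^ 2 * q ^ 4 + 10664329500 * p * q ^ 5) * A ^ 3 * B ^ 9
    + (-1900950 * p ^ 4 * q ^ 2 - 83181770100 * p ^ 2 * q ^ 4 - 17062927200 * p * q ^ 5) * A ^ 2 * B ^ 10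
    + (16804398000 * p ^ 2 * q ^ 4 + 11633814000 * p * q ^ 5) * A * B ^ 11
    + (-1260329850 * p ^ 2 * q ^ 4 - 2714556600 * p * q ^ 5 + 86493225 * q ^ 6) * B ^ 12

/-- Coefficient of `t ^ 13` in `ttf (p (1 + t A)⁵) (q (1 - t B)⁵)`. -/
def LT13 (p q A B : R) : R :=
    (119759850 * p ^ 6 + 2714556600 * p ^ 5 * q - 775587600 * p ^ 4 * q ^ 2) * A ^ 13
    + (-13572783000 * p ^ 5 * q + 12603298500 * p ^ 4 * q ^ 2) * A ^ 12 * B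
    + (23267628000 * p ^ 5 * q - 75619791000 * p ^ 4 * q ^ 2) * A ^ 11 * B ^ 2
    + (-17062927200 * p ^ 5 * q + 221818053600 * p ^ 4 * q ^ 2 + 11405700 * p ^ 2 * q ^ 4) * A ^ 10 * B ^ 3
    + (5332164750 * p ^ 5 * q - 352892358000 * p ^ 4 * q ^ 2 - 484742250 * p ^ 2 * q ^ 4) * A ^ 9 * B ^ 4
    + (-564582150 * p ^ 5 * q + 317603122200 * p ^ 4 * q ^ 2 + 6980288400 * p ^ 2 * q ^ 4) * A ^ 8 * B ^ 5
    + (-162873396000 * p ^ 4 * q ^ 2 - 46535256000 * p ^ 2 * q ^ 4) * A ^ 7 * B ^ 6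
    + (46535256000 * p ^ 4 * q ^ 2 + 162873396000 * p ^ 2 * q ^ 4) * A ^ 6 * B ^ 7
    + (-6980288400 * p ^ 4 * q ^ 2 - 317603122200 * p ^ 2 * q ^ 4 - 564582150 * p * q ^ 5) * A ^ 5 * B ^ 8
    + (484742250 * p ^ 4 * q ^ 2 + 352892358000 * p ^ 2 * q ^ 4 + 5332164750 * p * q ^ 5) * A ^ 4 * B ^ 9
    + (-11405700 * p ^ 4 * q ^ 2 - 221818053600 * p ^ 2 * q ^ 4 - 17062927200 * p * q ^ 5) * A ^ 3 * B ^ 10
    + (75619791000 * p ^ 2 * q ^ 4 + 23267628000 * p * q ^ 5) * A ^ 2 * B ^ 11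
    + (-12603298500 * p ^ 2 * q ^ 4 - 13572783000 * p * q ^ 5) * A * B ^ 12
    + (775587600 * p ^ 2 * q ^ 4 + 2714556600 * p * q ^ 5 - 119759850 * q ^ 6) * B ^ 13

/-- Coefficient of `t ^ 14` in `ttf (p (1 + t A)⁵) (q (1 - t B)⁵)`. -/
def LT14 (p q A B : R) : R :=
    (145422675 * p ^ 6 + 2326762800 * p ^ 5 * q - 387793800 * p ^ 4 * q ^ 2) * A ^ 14
    + (-13572783000 * p ^ 5 * q + 7755876000 * p ^ 4 * q ^ 2) * A ^ 13 * B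
    + (27145566000 * p ^ 5 * q - 56714843250 * p ^ 4 * q ^ 2) * A ^ 12 * B ^ 2
    + (-23267628000 * p ^ 5 * q + 201652776000 * p ^ 4 * q ^ 2) * A ^ 11 * B ^ 3
    + (8531463600 * p ^ 5 * q - 388181593800 * p ^ 4 * q ^ 2 - 48474225 * p ^ 2 * q ^ 4) * A ^ 10 * B ^ 4
    + (-1066432950 * p ^ 5 * q + 423470829600 * p ^ 4 * q ^ 2 + 1551175200 * p ^ 2 * q ^ 4) * A ^ 9 * B ^ 5
    + (-264669268500 * p ^ 4 * q ^ 2 - 17450721000 * p ^ 2 * q ^ 4) * A ^ 8 * B ^ 6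
    + (93070512000 * p ^ 4 * q ^ 2 + 93070512000 * p ^ 2 * q ^ 4) * A ^ 7 * B ^ 7
    + (-17450721000 * p ^ 4 * q ^ 2 - 264669268500 * p ^ 2 * q ^ 4) * A ^ 6 * B ^ 8
    + (1551175200 * p ^ 4 * q ^ 2 + 423470829600 * p ^ 2 * q ^ 4 + 1066432950 * p * q ^ 5) * A ^ 5 * B ^ 9
    + (-48474225 * p ^ 4 * q ^ 2 - 388181593800 * p ^ 2 * q ^ 4 - 8531463600 * p * q ^ 5) * A ^ 4 * B ^ 10
    + (201652776000 * p ^ 2 * q ^ 4 + 23267628000 * p * q ^ 5) * A ^ 3 * B ^ 11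
    + (-56714843250 * p ^ 2 * q ^ 4 - 27145566000 * p * q ^ 5) * A ^ 2 * B ^ 12
    + (7755876000 * p ^ 2 * q ^ 4 + 13572783000 * p * q ^ 5) * A * B ^ 13
    + (-387793800 * p ^ 2 * q ^ 4 - 2326762800 * p * q ^ 5 + 145422675 * q ^ 6) * B ^ 14

/-- Coefficient of `t ^ 15` in `ttf (p (1 + t A)⁵) (q (1 - t B)⁵)`. -/
def LT15 (p q A B : R) : R :=
    (155117520 * p ^ 6 + 1706292720 * p ^ 5 * q - 155117520 * p ^ 4 * q ^ 2) * A ^ 15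
    + (-11633814000 * p ^ 5 * q + 3877938000 * p ^ 4 * q ^ 2) * A ^ 14 * B
    + (27145566000 * p ^ 5 * q - 34901442000 * p ^ 4 * q ^ 2) * A ^ 13 * B ^ 2
    + (-27145566000 * p ^ 5 * q + 151239582000 * p ^ 4 * q ^ 2) * A ^ 12 * B ^ 3
    + (11633814000 * p ^ 5 * q - 352892358000 * p ^ 4 * q ^ 2) * A ^ 11 * B ^ 4
    + (-1706292720 * p ^ 5 * q + 465817912560 * p ^ 4 * q ^ 2 + 155117520 * p ^ 2 * q ^ 4) * A ^ 10 * B ^ 5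
    + (-352892358000 * p ^ 4 * q ^ 2 - 3877938000 * p ^ 2 * q ^ 4) * A ^ 9 * B ^ 6
    + (151239582000 * p ^ 4 * q ^ 2 + 34901442000 * p ^ 2 * q ^ 4) * A ^ 8 * B ^ 7
    + (-34901442000 * p ^ 4 * q ^ 2 - 151239582000 * p ^ 2 * q ^ 4) * A ^ 7 * B ^ 8
    + (3877938000 * p ^ 4 * q ^ 2 + 352892358000 * p ^ 2 * q ^ 4) * A ^ 6 * B ^ 9
    + (-155117520 * p ^ 4 * q ^ 2 - 465817912560 * p ^ 2 * q ^ 4 - 1706292720 * p * q ^ 5) * A ^ 5 * B ^ 10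
    + (352892358000 * p ^ 2 * q ^ 4 + 11633814000 * p * q ^ 5) * A ^ 4 * B ^ 11
    + (-151239582000 * p ^ 2 * q ^ 4 - 27145566000 * p * q ^ 5) * A ^ 3 * B ^ 12
    + (34901442000 * p ^ 2 * q ^ 4 + 27145566000 * p * q ^ 5) * A ^ 2 * B ^ 13
    + (-3877938000 * p ^ 2 * q ^ 4 - 11633814000 * p * q ^ 5) * A * B ^ 14
    + (155117520 * p ^ 2 * q ^ 4 + 1706292720 * p * q ^ 5 - 155117520 * q ^ 6) * B ^ 15

/-- Coefficient of `t ^ 16` in `ttf (p (1 + t A)⁵) (q (1 - t B)⁵)`. -/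
def LT16 (p q A B : R) : R :=
    (145422675 * p ^ 6 + 1066432950 * p ^ 5 * q - 48474225 * p ^ 4 * q ^ 2) * A ^ 16
    + (-8531463600 * p ^ 5 * q + 1551175200 * p ^ 4 * q ^ 2) * A ^ 15 * B
    + (23267628000 * p ^ 5 * q - 17450721000 * p ^ 4 * q ^ 2) * A ^ 14 * B ^ 2
    + (-27145566000 * p ^ 5 * q + 93070512000 * p ^ 4 * q ^ 2) * A ^ 13 * B ^ 3
    + (13572783000 * p ^ 5 * q - 264669268500 * p ^ 4 * q ^ 2) * A ^ 12 * B ^ 4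
    + (-2326762800 * p ^ 5 * q + 423470829600 * p ^ 4 * q ^ 2) * A ^ 11 * B ^ 5
    + (-388181593800 * p ^ 4 * q ^ 2 - 387793800 * p ^ 2 * q ^ 4) * A ^ 10 * B ^ 6
    + (201652776000 * p ^ 4 * q ^ 2 + 7755876000 * p ^ 2 * q ^ 4) * A ^ 9 * B ^ 7
    + (-56714843250 * p ^ 4 * q ^ 2 - 56714843250 * p ^ 2 * q ^ 4) * A ^ 8 * B ^ 8
    + (7755876000 * p ^ 4 * q ^ 2 + 201652776000 * p ^ 2 * q ^ 4) * A ^ 7 * B ^ 9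
    + (-387793800 * p ^ 4 * q ^ 2 - 388181593800 * p ^ 2 * q ^ 4) * A ^ 6 * B ^ 10
    + (423470829600 * p ^ 2 * q ^ 4 + 2326762800 * p * q ^ 5) * A ^ 5 * B ^ 11
    + (-264669268500 * p ^ 2 * q ^ 4 - 13572783000 * p * q ^ 5) * A ^ 4 * B ^ 12
    + (93070512000 * p ^ 2 * q ^ 4 + 27145566000 * p * q ^ 5) * A ^ 3 * B ^ 13
    + (-17450721000 * p ^ 2 * q ^ 4 - 23267628000 * p * q ^ 5) * A ^ 2 * B ^ 14
    + (1551175200 * p ^ 2 * q ^ 4 + 8531463600 * p * q ^ 5) * A * B ^ 15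
    + (-48474225 * p ^ 2 * q ^ 4 - 1066432950 * p * q ^ 5 + 145422675 * q ^ 6) * B ^ 16

/-- Coefficient of `t ^ 17` in `ttf (p (1 + t A)⁵) (q (1 - t B)⁵)`. -/
def LT17 (p q A B : R) : R :=
    (119759850 * p ^ 6 + 564582150 * p ^ 5 * q - 11405700 * p ^ 4 * q ^ 2) * A ^ 17
    + (-5332164750 * p ^ 5 * q + 484742250 * p ^ 4 * q ^ 2) * A ^ 16 * B
    + (17062927200 * p ^ 5 * q - 6980288400 * p ^ 4 * q ^ 2) * A ^ 15 * B ^ 2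
    + (-23267628000 * p ^ 5 * q + 46535256000 * p ^ 4 * q ^ 2) * A ^ 14 * B ^ 3
    + (13572783000 * p ^ 5 * q - 162873396000 * p ^ 4 * q ^ 2) * A ^ 13 * B ^ 4
    + (-2714556600 * p ^ 5 * q + 317603122200 * p ^ 4 * q ^ 2) * A ^ 12 * B ^ 5
    + (-352892358000 * p ^ 4 * q ^ 2) * A ^ 11 * B ^ 6
    + (221818053600 * p ^ 4 * q ^ 2 + 775587600 * p ^ 2 * q ^ 4) * A ^ 10 * B ^ 7
    + (-75619791000 * p ^ 4 * q ^ 2 - 12603298500 * p ^ 2 * q ^ 4) * A ^ 9 * B ^ 8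
    + (12603298500 * p ^ 4 * q ^ 2 + 75619791000 * p ^ 2 * q ^ 4) * A ^ 8 * B ^ 9
    + (-775587600 * p ^ 4 * q ^ 2 - 221818053600 * p ^ 2 * q ^ 4) * A ^ 7 * B ^ 10
    + (352892358000 * p ^ 2 * q ^ 4) * A ^ 6 * B ^ 11
    + (-317603122200 * p ^ 2 * q ^ 4 - 2714556600 * p * q ^ 5) * A ^ 5 * B ^ 12
    + (162873396000 * p ^ 2 * q ^ 4 + 13572783000 * p * q ^ 5) * A ^ 4 * B ^ 13
    + (-46535256000 * p ^ 2 * q ^ 4 - 23267628000 * p * q ^ 5) * A ^ 3 * B ^ 14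
    + (6980288400 * p ^ 2 * q ^ 4 + 17062927200 * p * q ^ 5) * A ^ 2 * B ^ 15
    + (-484742250 * p ^ 2 * q ^ 4 - 5332164750 * p * q ^ 5) * A * B ^ 16
    + (11405700 * p ^ 2 * q ^ 4 + 564582150 * p * q ^ 5 - 119759850 * q ^ 6) * B ^ 17

/-- Coefficient of `t ^ 18` in `ttf (p (1 + t A)⁵) (q (1 - t B)⁵)`. -/
def LT18 (p q A B : R) : R :=
    (86493225 * p ^ 6 + 250925400 * p ^ 5 * q - 1900950 * p ^ 4 * q ^ 2) * A ^ 18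
    + (-2822910750 * p ^ 5 * q + 114057000 * p ^ 4 * q ^ 2) * A ^ 17 * B
    + (10664329500 * p ^ 5 * q - 2181340125 * p ^ 4 * q ^ 2) * A ^ 16 * B ^ 2
    + (-17062927200 * p ^ 5 * q + 18614102400 * p ^ 4 * q ^ 2) * A ^ 15 * B ^ 3
    + (11633814000 * p ^ 5 * q - 81436698000 * p ^ 4 * q ^ 2) * A ^ 14 * B ^ 4
    + (-2714556600 * p ^ 5 * q + 195448075200 * p ^ 4 * q ^ 2) * A ^ 13 * B ^ 5
    + (-264669268500 * p ^ 4 * q ^ 2) * A ^ 12 * B ^ 6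
    + (201652776000 * p ^ 4 * q ^ 2) * A ^ 11 * B ^ 7
    + (-83181770100 * p ^ 4 * q ^ 2 - 1260329850 * p ^ 2 * q ^ 4) * A ^ 10 * B ^ 8
    + (16804398000 * p ^ 4 * q ^ 2 + 16804398000 * p ^ 2 * q ^ 4) * A ^ 9 * B ^ 9
    + (-1260329850 * p ^ 4 * q ^ 2 - 83181770100 * p ^ 2 * q ^ 4) * A ^ 8 * B ^ 10
    + (201652776000 * p ^ 2 * q ^ 4) * A ^ 7 * B ^ 11
    + (-264669268500 * p ^ 2 * q ^ 4) * A ^ 6 * B ^ 12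
    + (195448075200 * p ^ 2 * q ^ 4 + 2714556600 * p * q ^ 5) * A ^ 5 * B ^ 13
    + (-81436698000 * p ^ 2 * q ^ 4 - 11633814000 * p * q ^ 5) * A ^ 4 * B ^ 14
    + (18614102400 * p ^ 2 * q ^ 4 + 17062927200 * p * q ^ 5) * A ^ 3 * B ^ 15
    + (-2181340125 * p ^ 2 * q ^ 4 - 10664329500 * p * q ^ 5) * A ^ 2 * B ^ 16
    + (114057000 * p ^ 2 * q ^ 4 + 2822910750 * p * q ^ 5) * A * B ^ 17
    + (-1900950 * p ^ 2 * q ^ 4 - 250925400 * p * q ^ 5 + 86493225 * q ^ 6) * B ^ 18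

/-- Coefficient of `t ^ 19` in `ttf (p (1 + t A)⁵) (q (1 - t B)⁵)`. -/
def LT19 (p q A B : R) : R :=
    (54627300 * p ^ 6 + 92446200 * p ^ 5 * q - 200100 * p ^ 4 * q ^ 2) * A ^ 19
    + (-1254627000 * p ^ 5 * q + 19009500 * p ^ 4 * q ^ 2) * A ^ 18 * B
    + (5645821500 * p ^ 5 * q - 513256500 * p ^ 4 * q ^ 2) * A ^ 17 * B ^ 2
    + (-10664329500 * p ^ 5 * q + 5816907000 * p ^ 4 * q ^ 2) * A ^ 16 * B ^ 3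
    + (8531463600 * p ^ 5 * q - 32574679200 * p ^ 4 * q ^ 2) * A ^ 15 * B ^ 4
    + (-2326762800 * p ^ 5 * q + 97724037600 * p ^ 4 * q ^ 2) * A ^ 14 * B ^ 5
    + (-162873396000 * p ^ 4 * q ^ 2) * A ^ 13 * B ^ 6
    + (151239582000 * p ^ 4 * q ^ 2) * A ^ 12 * B ^ 7
    + (-75619791000 * p ^ 4 * q ^ 2) * A ^ 11 * B ^ 8
    + (18484837800 * p ^ 4 * q ^ 2 + 1680439800 * p ^ 2 * q ^ 4) * A ^ 10 * B ^ 9
    + (-1680439800 * p ^ 4 * q ^ 2 - 18484837800 * p ^ 2 * q ^ 4) * A ^ 9 * B ^ 10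
    + (75619791000 * p ^ 2 * q ^ 4) * A ^ 8 * B ^ 11
    + (-151239582000 * p ^ 2 * q ^ 4) * A ^ 7 * B ^ 12
    + (162873396000 * p ^ 2 * q ^ 4) * A ^ 6 * B ^ 13
    + (-97724037600 * p ^ 2 * q ^ 4 - 2326762800 * p * q ^ 5) * A ^ 5 * B ^ 14
    + (32574679200 * p ^ 2 * q ^ 4 + 8531463600 * p * q ^ 5) * A ^ 4 * B ^ 15
    + (-5816907000 * p ^ 2 * q ^ 4 - 10664329500 * p * q ^ 5) * A ^ 3 * B ^ 16
    + (513256500 * p ^ 2 * q ^ 4 + 5645821500 * p * q ^ 5) * A ^ 2 * B ^ 17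
    + (-19009500 * p ^ 2 * q ^ 4 - 1254627000 * p * q ^ 5) * A * B ^ 18
    + (200100 * p ^ 2 * q ^ 4 + 92446200 * p * q ^ 5 - 54627300 * q ^ 6) * B ^ 19

/-- Coefficient of `t ^ 20` in `ttf (p (1 + t A)⁵) (q (1 - t B)⁵)`. -/
def LT20 (p q A B : R) : R :=
    (30045015 * p ^ 6 + 27733860 * p ^ 5 * q - 10005 * p ^ 4 * q ^ 2) * A ^ 20
    + (-462231000 * p ^ 5 * q + 2001000 * p ^ 4 * q ^ 2) * A ^ 19 * B
    + (2509254000 * p ^ 5 * q - 85542750 * p ^ 4 * q ^ 2) * A ^ 18 * B ^ 2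
    + (-5645821500 * p ^ 5 * q + 1368684000 * p ^ 4 * q ^ 2) * A ^ 17 * B ^ 3
    + (5332164750 * p ^ 5 * q - 10179587250 * p ^ 4 * q ^ 2) * A ^ 16 * B ^ 4
    + (-1706292720 * p ^ 5 * q + 39089615040 * p ^ 4 * q ^ 2) * A ^ 15 * B ^ 5
    + (-81436698000 * p ^ 4 * q ^ 2) * A ^ 14 * B ^ 6
    + (93070512000 * p ^ 4 * q ^ 2) * A ^ 13 * B ^ 7
    + (-56714843250 * p ^ 4 * q ^ 2) * A ^ 12 * B ^ 8
    + (16804398000 * p ^ 4 * q ^ 2) * A ^ 11 * B ^ 9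
    + (-1848483780 * p ^ 4 * q ^ 2 - 1848483780 * p ^ 2 * q ^ 4) * A ^ 10 * B ^ 10
    + (16804398000 * p ^ 2 * q ^ 4) * A ^ 9 * B ^ 11
    + (-56714843250 * p ^ 2 * q ^ 4) * A ^ 8 * B ^ 12
    + (93070512000 * p ^ 2 * q ^ 4) * A ^ 7 * B ^ 13
    + (-81436698000 * p ^ 2 * q ^ 4) * A ^ 6 * B ^ 14
    + (39089615040 * p ^ 2 * q ^ 4 + 1706292720 * p * q ^ 5) * A ^ 5 * B ^ 15
    + (-10179587250 * p ^ 2 * q ^ 4 - 5332164750 * p * q ^ 5) * A ^ 4 * B ^ 16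
    + (1368684000 * p ^ 2 * q ^ 4 + 5645821500 * p * q ^ 5) * A ^ 3 * B ^ 17
    + (-85542750 * p ^ 2 * q ^ 4 - 2509254000 * p * q ^ 5) * A ^ 2 * B ^ 18
    + (2001000 * p ^ 2 * q ^ 4 + 462231000 * p * q ^ 5) * A * B ^ 19
    + (-10005 * p ^ 2 * q ^ 4 - 27733860 * p * q ^ 5 + 30045015 * q ^ 6) * B ^ 20

/-- Coefficient of `t ^ 21` in `ttf (p (1 + t A)⁵) (q (1 - t B)⁵)`. -/
def LT21 (p q A B : R) : R :=
    (14307150 * p ^ 6 + 6603300 * p ^ 5 * q) * A ^ 21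
    + (-138669300 * p ^ 5 * q + 100050 * p ^ 4 * q ^ 2) * A ^ 20 * B
    + (924462000 * p ^ 5 * q - 9004500 * p ^ 4 * q ^ 2) * A ^ 19 * B ^ 2
    + (-2509254000 * p ^ 5 * q + 228114000 * p ^ 4 * q ^ 2) * A ^ 18 * B ^ 3
    + (2822910750 * p ^ 5 * q - 2395197000 * p ^ 4 * q ^ 2) * A ^ 17 * B ^ 4
    + (-1066432950 * p ^ 5 * q + 12215504700 * p ^ 4 * q ^ 2) * A ^ 16 * B ^ 5
    + (-32574679200 * p ^ 4 * q ^ 2) * A ^ 15 * B ^ 6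
    + (46535256000 * p ^ 4 * q ^ 2) * A ^ 14 * B ^ 7
    + (-34901442000 * p ^ 4 * q ^ 2) * A ^ 13 * B ^ 8
    + (12603298500 * p ^ 4 * q ^ 2) * A ^ 12 * B ^ 9
    + (-1680439800 * p ^ 4 * q ^ 2) * A ^ 11 * B ^ 10
    + (1680439800 * p ^ 2 * q ^ 4) * A ^ 10 * B ^ 11
    + (-12603298500 * p ^ 2 * q ^ 4) * A ^ 9 * B ^ 12
    + (34901442000 * p ^ 2 * q ^ 4) * A ^ 8 * B ^ 13
    + (-46535256000 * p ^ 2 * q ^ 4) * A ^ 7 * B ^ 14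
    + (32574679200 * p ^ 2 * q ^ 4) * A ^ 6 * B ^ 15
    + (-12215504700 * p ^ 2 * q ^ 4 - 1066432950 * p * q ^ 5) * A ^ 5 * B ^ 16
    + (2395197000 * p ^ 2 * q ^ 4 + 2822910750 * p * q ^ 5) * A ^ 4 * B ^ 17
    + (-228114000 * p ^ 2 * q ^ 4 - 2509254000 * p * q ^ 5) * A ^ 3 * B ^ 18
    + (9004500 * p ^ 2 * q ^ 4 + 924462000 * p * q ^ 5) * A ^ 2 * B ^ 19
    + (-100050 * p ^ 2 * q ^ 4 - 138669300 * p * q ^ 5) * A * B ^ 20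
    + (6603300 * p * q ^ 5 - 14307150 * q ^ 6) * B ^ 21

/-- Coefficient of `t ^ 22` in `ttf (p (1 + t A)⁵) (q (1 - t B)⁵)`. -/
def LT22 (p q A B : R) : R :=
    (5852925 * p ^ 6 + 1200600 * p ^ 5 * q) * A ^ 22
    + (-33016500 * p ^ 5 * q) * A ^ 21 * B
    + (277338600 * p ^ 5 * q - 450225 * p ^ 4 * q ^ 2) * A ^ 20 * B ^ 2
    + (-924462000 * p ^ 5 * q + 24012000 * p ^ 4 * q ^ 2) * A ^ 19 * B ^ 3
    + (1254627000 * p ^ 5 * q - 399199500 * p ^ 4 * q ^ 2) * A ^ 18 * B ^ 4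
    + (-564582150 * p ^ 5 * q + 2874236400 * p ^ 4 * q ^ 2) * A ^ 17 * B ^ 5
    + (-10179587250 * p ^ 4 * q ^ 2) * A ^ 16 * B ^ 6
    + (18614102400 * p ^ 4 * q ^ 2) * A ^ 15 * B ^ 7
    + (-17450721000 * p ^ 4 * q ^ 2) * A ^ 14 * B ^ 8
    + (7755876000 * p ^ 4 * q ^ 2) * A ^ 13 * B ^ 9
    + (-1260329850 * p ^ 4 * q ^ 2) * A ^ 12 * B ^ 10
    + (-1260329850 * p ^ 2 * q ^ 4) * A ^ 10 * B ^ 12
    + (7755876000 * p ^ 2 * q ^ 4) * A ^ 9 * B ^ 13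
    + (-17450721000 * p ^ 2 * q ^ 4) * A ^ 8 * B ^ 14
    + (18614102400 * p ^ 2 * q ^ 4) * A ^ 7 * B ^ 15
    + (-10179587250 * p ^ 2 * q ^ 4) * A ^ 6 * B ^ 16
    + (2874236400 * p ^ 2 * q ^ 4 + 564582150 * p * q ^ 5) * A ^ 5 * B ^ 17
    + (-399199500 * p ^ 2 * q ^ 4 - 1254627000 * p * q ^ 5) * A ^ 4 * B ^ 18
    + (24012000 * p ^ 2 * q ^ 4 + 924462000 * p * q ^ 5) * A ^ 3 * B ^ 19
    + (-450225 * p ^ 2 * q ^ 4 - 277338600 * p * q ^ 5) * A ^ 2 * B ^ 20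
    + (33016500 * p * q ^ 5) * A * B ^ 21
    + (-1200600 * p * q ^ 5 + 5852925 * q ^ 6) * B ^ 22

/-- Coefficient of `t ^ 23` in `ttf (p (1 + t A)⁵) (q (1 - t B)⁵)`. -/
def LT23 (p q A B : R) : R :=
    (2035800 * p ^ 6 + 156600 * p ^ 5 * q) * A ^ 23
    + (-6003000 * p ^ 5 * q) * A ^ 22 * B
    + (66033000 * p ^ 5 * q) * A ^ 21 * B ^ 2
    + (-277338600 * p ^ 5 * q + 1200600 * p ^ 4 * q ^ 2) * A ^ 20 * B ^ 3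
    + (462231000 * p ^ 5 * q - 42021000 * p ^ 4 * q ^ 2) * A ^ 19 * B ^ 4
    + (-250925400 * p ^ 5 * q + 479039400 * p ^ 4 * q ^ 2) * A ^ 18 * B ^ 5
    + (-2395197000 * p ^ 4 * q ^ 2) * A ^ 17 * B ^ 6
    + (5816907000 * p ^ 4 * q ^ 2) * A ^ 16 * B ^ 7
    + (-6980288400 * p ^ 4 * q ^ 2) * A ^ 15 * B ^ 8
    + (3877938000 * p ^ 4 * q ^ 2) * A ^ 14 * B ^ 9
    + (-775587600 * p ^ 4 * q ^ 2) * A ^ 13 * B ^ 10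
    + (775587600 * p ^ 2 * q ^ 4) * A ^ 10 * B ^ 13
    + (-3877938000 * p ^ 2 * q ^ 4) * A ^ 9 * B ^ 14
    + (6980288400 * p ^ 2 * q ^ 4) * A ^ 8 * B ^ 15
    + (-5816907000 * p ^ 2 * q ^ 4) * A ^ 7 * B ^ 16
    + (2395197000 * p ^ 2 * q ^ 4) * A ^ 6 * B ^ 17
    + (-479039400 * p ^ 2 * q ^ 4 - 250925400 * p * q ^ 5) * A ^ 5 * B ^ 18
    + (42021000 * p ^ 2 * q ^ 4 + 462231000 * p * q ^ 5) * A ^ 4 * B ^ 19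
    + (-1200600 * p ^ 2 * q ^ 4 - 277338600 * p * q ^ 5) * A ^ 3 * B ^ 20
    + (66033000 * p * q ^ 5) * A ^ 2 * B ^ 21
    + (-6003000 * p * q ^ 5) * A * B ^ 22
    + (156600 * p * q ^ 5 - 2035800 * q ^ 6) * B ^ 23

/-- Coefficient of `t ^ 24` in `ttf (p (1 + t A)⁵) (q (1 - t B)⁵)`. -/
def LT24 (p q A B : R) : R :=
    (593775 * p ^ 6 + 13050 * p ^ 5 * q) * A ^ 24
    + (-783000 * p ^ 5 * q) * A ^ 23 * B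
    + (12006000 * p ^ 5 * q) * A ^ 22 * B ^ 2
    + (-66033000 * p ^ 5 * q) * A ^ 21 * B ^ 3
    + (138669300 * p ^ 5 * q - 2101050 * p ^ 4 * q ^ 2) * A ^ 20 * B ^ 4
    + (-92446200 * p ^ 5 * q + 50425200 * p ^ 4 * q ^ 2) * A ^ 19 * B ^ 5
    + (-399199500 * p ^ 4 * q ^ 2) * A ^ 18 * B ^ 6
    + (1368684000 * p ^ 4 * q ^ 2) * A ^ 17 * B ^ 7
    + (-2181340125 * p ^ 4 * q ^ 2) * A ^ 16 * B ^ 8
    + (1551175200 * p ^ 4 * q ^ 2) * A ^ 15 * B ^ 9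
    + (-387793800 * p ^ 4 * q ^ 2) * A ^ 14 * B ^ 10
    + (-387793800 * p ^ 2 * q ^ 4) * A ^ 10 * B ^ 14
    + (1551175200 * p ^ 2 * q ^ 4) * A ^ 9 * B ^ 15
    + (-2181340125 * p ^ 2 * q ^ 4) * A ^ 8 * B ^ 16
    + (1368684000 * p ^ 2 * q ^ 4) * A ^ 7 * B ^ 17
    + (-399199500 * p ^ 2 * q ^ 4) * A ^ 6 * B ^ 18
    + (50425200 * p ^ 2 * q ^ 4 + 92446200 * p * q ^ 5) * A ^ 5 * B ^ 19
    + (-2101050 * p ^ 2 * q ^ 4 - 138669300 * p * q ^ 5) * A ^ 4 * B ^ 20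
    + (66033000 * p * q ^ 5) * A ^ 3 * B ^ 21
    + (-12006000 * p * q ^ 5) * A ^ 2 * B ^ 22
    + (783000 * p * q ^ 5) * A * B ^ 23
    + (-13050 * p * q ^ 5 + 593775 * q ^ 6) * B ^ 24

/-- Coefficient of `t ^ 25` in `ttf (p (1 + t A)⁵) (q (1 - t B)⁵)`. -/
def LT25 (p q A B : R) : R :=
    (142506 * p ^ 6 + 522 * p ^ 5 * q) * A ^ 25
    + (-65250 * p ^ 5 * q) * A ^ 24 * B
    + (1566000 * p ^ 5 * q) * A ^ 23 * B ^ 2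
    + (-12006000 * p ^ 5 * q) * A ^ 22 * B ^ 3
    + (33016500 * p ^ 5 * q) * A ^ 21 * B ^ 4
    + (-27733860 * p ^ 5 * q + 2521260 * p ^ 4 * q ^ 2) * A ^ 20 * B ^ 5
    + (-42021000 * p ^ 4 * q ^ 2) * A ^ 19 * B ^ 6
    + (228114000 * p ^ 4 * q ^ 2) * A ^ 18 * B ^ 7
    + (-513256500 * p ^ 4 * q ^ 2) * A ^ 17 * B ^ 8
    + (484742250 * p ^ 4 * q ^ 2) * A ^ 16 * B ^ 9
    + (-155117520 * p ^ 4 * q ^ 2) * A ^ 15 * B ^ 10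
    + (155117520 * p ^ 2 * q ^ 4) * A ^ 10 * B ^ 15
    + (-484742250 * p ^ 2 * q ^ 4) * A ^ 9 * B ^ 16
    + (513256500 * p ^ 2 * q ^ 4) * A ^ 8 * B ^ 17
    + (-228114000 * p ^ 2 * q ^ 4) * A ^ 7 * B ^ 18
    + (42021000 * p ^ 2 * q ^ 4) * A ^ 6 * B ^ 19
    + (-2521260 * p ^ 2 * q ^ 4 - 27733860 * p * q ^ 5) * A ^ 5 * B ^ 20
    + (33016500 * p * q ^ 5) * A ^ 4 * B ^ 21
    + (-12006000 * p * q ^ 5) * A ^ 3 * B ^ 22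
    + (1566000 * p * q ^ 5) * A ^ 2 * B ^ 23
    + (-65250 * p * q ^ 5) * A * B ^ 24
    + (522 * p * q ^ 5 - 142506 * q ^ 6) * B ^ 25

/-- Coefficient of `t ^ 26` in `ttf (p (1 + t A)⁵) (q (1 - t B)⁵)`. -/
def LT26 (p q A B : R) : R :=
    (27405 * p ^ 6) * A ^ 26
    + (-2610 * p ^ 5 * q) * A ^ 25 * B
    + (130500 * p ^ 5 * q) * A ^ 24 * B ^ 2
    + (-1566000 * p ^ 5 * q) * A ^ 23 * B ^ 3
    + (6003000 * p ^ 5 * q) * A ^ 22 * B ^ 4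
    + (-6603300 * p ^ 5 * q) * A ^ 21 * B ^ 5
    + (-2101050 * p ^ 4 * q ^ 2) * A ^ 20 * B ^ 6
    + (24012000 * p ^ 4 * q ^ 2) * A ^ 19 * B ^ 7
    + (-85542750 * p ^ 4 * q ^ 2) * A ^ 18 * B ^ 8
    + (114057000 * p ^ 4 * q ^ 2) * A ^ 17 * B ^ 9
    + (-48474225 * p ^ 4 * q ^ 2) * A ^ 16 * B ^ 10
    + (-48474225 * p ^ 2 * q ^ 4) * A ^ 10 * B ^ 16
    + (114057000 * p ^ 2 * q ^ 4) * A ^ 9 * B ^ 17
    + (-85542750 * p ^ 2 * q ^ 4) * A ^ 8 * B ^ 18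
    + (24012000 * p ^ 2 * q ^ 4) * A ^ 7 * B ^ 19
    + (-2101050 * p ^ 2 * q ^ 4) * A ^ 6 * B ^ 20
    + (6603300 * p * q ^ 5) * A ^ 5 * B ^ 21
    + (-6003000 * p * q ^ 5) * A ^ 4 * B ^ 22
    + (1566000 * p * q ^ 5) * A ^ 3 * B ^ 23
    + (-130500 * p * q ^ 5) * A ^ 2 * B ^ 24
    + (2610 * p * q ^ 5) * A * B ^ 25
    + (27405 * q ^ 6) * B ^ 26

/-- Coefficient of `t ^ 27` in `ttf (p (1 + t A)⁵) (q (1 - t B)⁵)`. -/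
def LT27 (p q A B : R) : R :=
    (4060 * p ^ 6) * A ^ 27
    + (5220 * p ^ 5 * q) * A ^ 25 * B ^ 2
    + (-130500 * p ^ 5 * q) * A ^ 24 * B ^ 3
    + (783000 * p ^ 5 * q) * A ^ 23 * B ^ 4
    + (-1200600 * p ^ 5 * q) * A ^ 22 * B ^ 5
    + (1200600 * p ^ 4 * q ^ 2) * A ^ 20 * B ^ 7
    + (-9004500 * p ^ 4 * q ^ 2) * A ^ 19 * B ^ 8
    + (19009500 * p ^ 4 * q ^ 2) * A ^ 18 * B ^ 9
    + (-11405700 * p ^ 4 * q ^ 2) * A ^ 17 * B ^ 10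
    + (11405700 * p ^ 2 * q ^ 4) * A ^ 10 * B ^ 17
    + (-19009500 * p ^ 2 * q ^ 4) * A ^ 9 * B ^ 18
    + (9004500 * p ^ 2 * q ^ 4) * A ^ 8 * B ^ 19
    + (-1200600 * p ^ 2 * q ^ 4) * A ^ 7 * B ^ 20
    + (-1200600 * p * q ^ 5) * A ^ 5 * B ^ 22
    + (783000 * p * q ^ 5) * A ^ 4 * B ^ 23
    + (-130500 * p * q ^ 5) * A ^ 3 * B ^ 24
    + (5220 * p * q ^ 5) * A ^ 2 * B ^ 25
    + (-4060 * q ^ 6) * B ^ 27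

/-- Coefficient of `t ^ 28` in `ttf (p (1 + t A)⁵) (q (1 - t B)⁵)`. -/
def LT28 (p q A B : R) : R :=
    (435 * p ^ 6) * A ^ 28
    + (-5220 * p ^ 5 * q) * A ^ 25 * B ^ 3
    + (65250 * p ^ 5 * q) * A ^ 24 * B ^ 4
    + (-156600 * p ^ 5 * q) * A ^ 23 * B ^ 5
    + (-450225 * p ^ 4 * q ^ 2) * A ^ 20 * B ^ 8
    + (2001000 * p ^ 4 * q ^ 2) * A ^ 19 * B ^ 9
    + (-1900950 * p ^ 4 * q ^ 2) * A ^ 18 * B ^ 10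
    + (-1900950 * p ^ 2 * q ^ 4) * A ^ 10 * B ^ 18
    + (2001000 * p ^ 2 * q ^ 4) * A ^ 9 * B ^ 19
    + (-450225 * p ^ 2 * q ^ 4) * A ^ 8 * B ^ 20
    + (156600 * p * q ^ 5) * A ^ 5 * B ^ 23
    + (-65250 * p * q ^ 5) * A ^ 4 * B ^ 24
    + (5220 * p * q ^ 5) * A ^ 3 * B ^ 25
    + (435 * q ^ 6) * B ^ 28

/-- Coefficient of `t ^ 29` in `ttf (p (1 + t A)⁵) (q (1 - t B)⁵)`. -/
def LT29 (p q A B : R) : R :=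
    (30 * p ^ 6) * A ^ 29
    + (2610 * p ^ 5 * q) * A ^ 25 * B ^ 4
    + (-13050 * p ^ 5 * q) * A ^ 24 * B ^ 5
    + (100050 * p ^ 4 * q ^ 2) * A ^ 20 * B ^ 9
    + (-200100 * p ^ 4 * q ^ 2) * A ^ 19 * B ^ 10
    + (200100 * p ^ 2 * q ^ 4) * A ^ 10 * B ^ 19
    + (-100050 * p ^ 2 * q ^ 4) * A ^ 9 * B ^ 20
    + (-13050 * p * q ^ 5) * A ^ 5 * B ^ 24
    + (2610 * p * q ^ 5) * A ^ 4 * B ^ 25
    + (-30 * q ^ 6) * B ^ 29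

/-- Coefficient of `t ^ 30` in `ttf (p (1 + t A)⁵) (q (1 - t B)⁵)`. -/
def LT30 (p q A B : R) : R :=
    (p ^ 6) * A ^ 30
    + (-522 * p ^ 5 * q) * A ^ 25 * B ^ 5
    + (-10005 * p ^ 4 * q ^ 2) * A ^ 20 * B ^ 10
    + (-10005 * p ^ 2 * q ^ 4) * A ^ 10 * B ^ 20
    + (522 * p * q ^ 5) * A ^ 5 * B ^ 25
    + (q ^ 6) * B ^ 30

theorem ttf_binom (p q t A B : R) :
    ttf (p * (1 + t * A) ^ 5) (q * (1 - t * B) ^ 5) =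
      LT0 p q A B
      + t * LT1 p q A B
      + t ^ 2 * LT2 p q A B
      + t ^ 3 * LT3 p q A B
      + t ^ 4 * LT4 p q A B
      + t ^ 5 * LT5 p q A B
      + t ^ 6 * LT6 p q A B
      + t ^ 7 * LT7 p q A B
      + t ^ 8 * LT8 p q A B
      + t ^ 9 * LT9 p q A B
      + t ^ 10 * LT10 p q A B
      + t ^ 11 * LT11 p q A B
      + t ^ 12 * LT12 p q A B
      + t ^ 13 * LT13 p q A B
      + t ^ 14 * LT14 p q A B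
      + t ^ 15 * LT15 p q A B
      + t ^ 16 * LT16 p q A B
      + t ^ 17 * LT17 p q A B
      + t ^ 18 * LT18 p q A B
      + t ^ 19 * LT19 p q A B
      + t ^ 20 * LT20 p q A B
      + t ^ 21 * LT21 p q A B
      + t ^ 22 * LT22 p q A B
      + t ^ 23 * LT23 p q A B
      + t ^ 24 * LT24 p q A B
      + t ^ 25 * LT25 p q A B
      + t ^ 26 * LT26 p q A B
      + t ^ 27 * LT27 p q A B
      + t ^ 28 * LT28 p q A B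
      + t ^ 29 * LT29 p q A B
      + t ^ 30 * LT30 p q A B := by
  simp only [ttf, LT0, LT1, LT2, LT3, LT4, LT5, LT6, LT7, LT8, LT9, LT10, LT11, LT12, LT13, LT14, LT15, LT16, LT17, LT18, LT19, LT20, LT21, LT22, LT23, LT24, LT25, LT26, LT27, LT28, LT29, LT30]
  ring

end Fermat.Agent.S52.helper135
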