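import Mathlib
import Fermat.Agent.S52.helper135_PencilBinomT

/-!
# S52 pencil LINK: coefficient identities (PencilCoefT0)
-/

set_option autoImplicit false

namespace Fermat.Agent.S52.helper135

variable {R : Type*} [CommRing R]

theorem LT0_eq (p q : R) :
    LT0 p q (p ^ 2 + 66 * p * q - 11 * q ^ 2) (11 * p ^ 2 + 66 * p * q - q ^ 2) =
      -Phi6c0 (-hhf p q) (-ttf p q) := by
  simp only [LT0, Phi6c0, hhf, ttf]
  ring

theorem LT1_eq (p q : R) :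
    LT1 p q (p ^ 2 + 66 * p * q - 11 * q ^ 2) (11 * p ^ 2 + 66 * p * q - q ^ 2) =
      -Phi6c1 (-hhf p q) (-ttf p q) := by
  simp only [LT1, Phi6c1, hhf, ttf]
  ring

theorem LT2_eq (p q : R) :
    LT2 p q (p ^ 2 + 66 * p * q - 11 * q ^ 2) (11 * p ^ 2 + 66 * p * q - q ^ 2) =
      -Phi6c2 (-hhf p q) (-ttf p q) := by
  simp only [LT2, Phi6c2, hhf, ttf]
  ring

theorem LT3_eq (p q : R) :
    LT3 p q (p ^ 2 + 66 * p * q - 11 * q ^ 2) (11 * p ^ 2 + 66 * p * q - q ^ 2) =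
      -Phi6c3 (-hhf p q) (-ttf p q) := by
  simp only [LT3, Phi6c3, hhf, ttf]
  ring

theorem LT4_eq (p q : R) :
    LT4 p q (p ^ 2 + 66 * p * q - 11 * q ^ 2) (11 * p ^ 2 + 66 * p * q - q ^ 2) =
      -Phi6c4 (-hhf p q) (-ttf p q) := by
  simp only [LT4, Phi6c4, hhf, ttf]
  ring

theorem LT5_eq (p q : R) :
    LT5 p q (p ^ 2 + 66 * p * q - 11 * q ^ 2) (11 * p ^ 2 + 66 * p * q - q ^ 2) =
      -Phi6c5 (-hhf p q) (-ttf p q) := by
  simp only [LT5, Phi6c5, hhf, ttf]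
  ring

theorem LT6_eq (p q : R) :
    LT6 p q (p ^ 2 + 66 * p * q - 11 * q ^ 2) (11 * p ^ 2 + 66 * p * q - q ^ 2) =
      -Phi6c6 (-hhf p q) (-ttf p q) := by
  simp only [LT6, Phi6c6, hhf, ttf]
  ring

theorem LT7_eq (p q : R) :
    LT7 p q (p ^ 2 + 66 * p * q - 11 * q ^ 2) (11 * p ^ 2 + 66 * p * q - q ^ 2) =
      -Phi6c7 (-hhf p q) (-ttf p q) := by
  simp only [LT7, Phi6c7, hhf, ttf]
  ring

theorem LT8_eq (p q : R) :
    LT8 p q (p ^ 2 + 66 * p * q - 11 * q ^ 2) (11 * p ^ 2 + 66 * p * q - q ^ 2) =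
      -Phi6c8 (-hhf p q) (-ttf p q) := by
  simp only [LT8, Phi6c8, hhf, ttf]
  ring

theorem LT9_eq (p q : R) :
    LT9 p q (p ^ 2 + 66 * p * q - 11 * q ^ 2) (11 * p ^ 2 + 66 * p * q - q ^ 2) =
      -Phi6c9 (-hhf p q) (-ttf p q) := by
  simp only [LT9, Phi6c9, hhf, ttf]
  ring

theorem LT10_eq (p q : R) :
    LT10 p q (p ^ 2 + 66 * p * q - 11 * q ^ 2) (11 * p ^ 2 + 66 * p * q - q ^ 2) =
      -Phi6c10 (-hhf p q) (-ttf p q) := by
  simp only [LT10, Phi6c10, hhf, ttf]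
  ring

theorem LT11_eq (p q : R) :
    LT11 p q (p ^ 2 + 66 * p * q - 11 * q ^ 2) (11 * p ^ 2 + 66 * p * q - q ^ 2) =
      -Phi6c11 (-hhf p q) (-ttf p q) := by
  simp only [LT11, Phi6c11, hhf, ttf]
  ring

theorem LT12_eq (p q : R) :
    LT12 p q (p ^ 2 + 66 * p * q - 11 * q ^ 2) (11 * p ^ 2 + 66 * p * q - q ^ 2) =
      -Phi6c12 (-hhf p q) (-ttf p q) := by
  simp only [LT12, Phi6c12, hhf, ttf]
  ring

end Fermat.Agent.S52.helper135
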