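import Mathlib
import Fermat.Agent.S52.helper135_PencilBinomT

/-!
# S52 pencil LINK: coefficient identities (PencilCoefT1)
-/

set_option autoImplicit false

namespace Fermat.Agent.S52.helper135

variable {R : Type*} [CommRing R]

theorem LT13_eq (p q : R) :
    LT13 p q (p ^ 2 + 66 * p * q - 11 * q ^ 2) (11 * p ^ 2 + 66 * p * q - q ^ 2) =
      -Phi6c13 (-hhf p q) (-ttf p q) := by
  simp only [LT13, Phi6c13, hhf, ttf]
  ring

theorem LT14_eq (p q : R) :
    LT14 p q (p ^ 2 + 66 * p * q - 11 * q ^ 2) (11 * p ^ 2 + 66 * p * q - q ^ 2) =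
      -Phi6c14 (-hhf p q) (-ttf p q) := by
  simp only [LT14, Phi6c14, hhf, ttf]
  ring

theorem LT15_eq (p q : R) :
    LT15 p q (p ^ 2 + 66 * p * q - 11 * q ^ 2) (11 * p ^ 2 + 66 * p * q - q ^ 2) =
      -Phi6c15 (-hhf p q) (-ttf p q) := by
  simp only [LT15, Phi6c15, hhf, ttf]
  ring

theorem LT16_eq (p q : R) :
    LT16 p q (p ^ 2 + 66 * p * q - 11 * q ^ 2) (11 * p ^ 2 + 66 * p * q - q ^ 2) =
      -Phi6c16 (-hhf p q) (-ttf p q) := by
  simp only [LT16, Phi6c16, hhf, ttf]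
  ring

theorem LT17_eq (p q : R) :
    LT17 p q (p ^ 2 + 66 * p * q - 11 * q ^ 2) (11 * p ^ 2 + 66 * p * q - q ^ 2) =
      -Phi6c17 (-hhf p q) (-ttf p q) := by
  simp only [LT17, Phi6c17, hhf, ttf]
  ring

end Fermat.Agent.S52.helper135
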