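import Mathlib
import Fermat.Agent.S52.helper135_PencilBinomT

/-!
# S52 pencil LINK: coefficient identities (PencilCoefT6)
-/

set_option autoImplicit false

namespace Fermat.Agent.S52.helper135

variable {R : Type*} [CommRing R]

theorem LT27_eq (p q : R) :
    LT27 p q (p ^ 2 + 66 * p * q - 11 * q ^ 2) (11 * p ^ 2 + 66 * p * q - q ^ 2) =
      -Phi6c27 (-hhf p q) (-ttf p q) := by
  simp only [LT27, Phi6c27, hhf, ttf]
  ring

end Fermat.Agent.S52.helper135
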