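import Mathlib
import Fermat.Agent.S52.helper135_PencilCoefH0
import Fermat.Agent.S52.helper135_PencilCoefH1
import Fermat.Agent.S52.helper135_PencilCoefH2
import Fermat.Agent.S52.helper135_PencilCoefH3
import Fermat.Agent.S52.helper135_PencilCoefT0
import Fermat.Agent.S52.helper135_PencilCoefT1
import Fermat.Agent.S52.helper135_PencilCoefT2
import Fermat.Agent.S52.helper135_PencilCoefT3
import Fermat.Agent.S52.helper135_PencilCoefT4
import Fermat.Agent.S52.helper135_PencilCoefT5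
import Fermat.Agent.S52.helper135_PencilCoefT6
import Fermat.Agent.S52.helper135_PencilCoefT7
import Fermat.Agent.S52.helper135_PencilCoefT8
import Fermat.Agent.S52.helper135_PencilCoefT9

/-!
# S52 pencil LINK: the core identities in `(p, q, t) = (u⁵, v⁵, t)`
-/

set_option autoImplicit false

namespace Fermat.Agent.S52.helper135

variable {R : Type*} [CommRing R]

/-- Core LINK identity for `H`. -/
theorem coreH (p q t : R) :
    hhf (p * (1 + t * (p ^ 2 + 66 * p * q - 11 * q ^ 2)) ^ 5) (q * (1 - t * (11 * p ^ 2 + 66 * p * q - q ^ 2)) ^ 5)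
      = -Phi4 (-hhf p q) (-ttf p q) t := by
  rw [hhf_binom, LH0_eq, LH1_eq, LH2_eq, LH3_eq, LH4_eq, LH5_eq, LH6_eq, LH7_eq, LH8_eq, LH9_eq, LH10_eq, LH11_eq, LH12_eq, LH13_eq, LH14_eq, LH15_eq, LH16_eq, LH17_eq, LH18_eq, LH19_eq, LH20_eq, Phi4]
  ring

/-- Core LINK identity for `T`. -/
theorem coreT (p q t : R) :
    ttf (p * (1 + t * (p ^ 2 + 66 * p * q - 11 * q ^ 2)) ^ 5) (q * (1 - t * (11 * p ^ 2 + 66 * p * q - q ^ 2)) ^ 5)
      = -Phi6 (-hhf p q) (-ttf p q) t := by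
  rw [ttf_binom, LT0_eq, LT1_eq, LT2_eq, LT3_eq, LT4_eq, LT5_eq, LT6_eq, LT7_eq, LT8_eq, LT9_eq, LT10_eq, LT11_eq, LT12_eq, LT13_eq, LT14_eq, LT15_eq, LT16_eq, LT17_eq, LT18_eq, LT19_eq, LT20_eq, LT21_eq, LT22_eq, LT23_eq, LT24_eq, LT25_eq, LT26_eq, LT27_eq, LT28_eq, LT29_eq, LT30_eq, Phi6]
  ring

end Fermat.Agent.S52.helper135
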