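/-
S52 helper module (helper2033): SHORT-FORM BRIDGE.

For a Weierstrass curve `E` over a field in which `6 ≠ 0`, with `c₄(E) = c4`, `c₆(E) = c6`, the
substitution `(X, Y) = (36 x + 3 b₂, 216 y + 108 a₁ x + 108 a₃)` identifies `E` with the short
model `shortModel c4 c6 : Y² = X³ - 27 c4 X - 54 c6`.  Using the landed S05 transfer library
(`Fermat.Agent.S05.helper725`: `IsVarChange`, `vcHom`) we obtain mutually inverse additive maps

  `toShort : (E⁄K).Point →+ ((shortModel c4 c6)⁄K).Point`,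
  `ofShort : ((shortModel c4 c6)⁄K).Point →+ (E⁄K).Point`,

both injective and equivariant for `K ≃ₐ[S] K` (e.g. `Gal(ℚ̄/ℚ)`), and the scaling maps
`scaleShort : (shortModel c4 c6⁄K).Point →+ (shortModel (u⁴ c4) (u⁶ c6)⁄K).Point`.
So the 5-torsion isomorphism of the 3–5 switch can be stated on short models and transported
to arbitrary integral models.
-/
import Mathlib
import Fermat.Agent.S05.helper725_Transfer

set_option autoImplicit false

namespace Fermat.Agent.S52.helper2033

open WeierstrassCurve WeierstrassCurve.Affine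
open Fermat.Agent.S05.helper725

/-- The short Weierstrass model `Y² = X³ - 27 c4 X - 54 c6`. -/
def shortModel {R : Type*} [CommRing R] (c4 c6 : R) : WeierstrassCurve R :=
  ⟨0, 0, 0, -27 * c4, -54 * c6⟩

section CommRing

variable {R : Type*} [CommRing R] (c4 c6 : R)

@[simp] lemma shortModel_a₁ : (shortModel c4 c6).a₁ = 0 := rfl
@[simp] lemma shortModel_a₂ : (shortModel c4 c6).a₂ = 0 := rfl
@[simp] lemma shortModel_a₃ : (shortModel c4 c6).a₃ = 0 := rfl
@[simp] lemma shortModel_a₄ : (shortModel c4 c6).a₄ = -27 * c4 := rfl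
@[simp] lemma shortModel_a₆ : (shortModel c4 c6).a₆ = -54 * c6 := rfl

lemma shortModel_b₂ : (shortModel c4 c6).b₂ = 0 := by
  simp [b₂]

lemma shortModel_b₄ : (shortModel c4 c6).b₄ = -54 * c4 := by
  simp only [b₄, shortModel_a₁, shortModel_a₃, shortModel_a₄]; ring

lemma shortModel_b₆ : (shortModel c4 c6).b₆ = -216 * c6 := by
  simp only [b₆, shortModel_a₃, shortModel_a₆]; ring

lemma shortModel_c₄ : (shortModel c4 c6).c₄ = 1296 * c4 := by
  simp only [c₄, shortModel_b₂, shortModel_b₄]; ring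

lemma shortModel_c₆ : (shortModel c4 c6).c₆ = 46656 * c6 := by
  simp only [c₆, shortModel_b₂, shortModel_b₄, shortModel_b₆]; ring

lemma shortModel_Δ : (shortModel c4 c6).Δ = 1259712 * (c4 ^ 3 - c6 ^ 2) := by
  simp only [Δ, b₈, shortModel_b₂, shortModel_b₄, shortModel_b₆, shortModel_a₁, shortModel_a₂,
    shortModel_a₃, shortModel_a₄, shortModel_a₆]
  ring

lemma shortModel_map {S : Type*} [CommRing S] (f : R →+* S) :
    (shortModel c4 c6).map f = shortModel (f c4) (f c6) := by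
  ext <;> simp [shortModel, map_ofNat]

end CommRing

section Field

variable {K : Type*} [Field K]

/-- `E → shortModel`: `(X, Y) = (36 x + 3 b₂, 216 y + 108 a₁ x + 108 a₃)`. -/
lemma isVarChange_toShort (E : WeierstrassCurve K) (c4 c6 : K) (h4 : E.c₄ = c4) (h6 : E.c₆ = c6)
    (hsix : (6 : K) ≠ 0) :
    IsVarChange E (shortModel c4 c6) 6 (3 * E.b₂) (3 * E.a₁) (108 * E.a₃) where
  hu := hsix
  h₁ := by simp only [shortModel_a₁]; ring
  h₂ := by simp only [shortModel_a₁, shortModel_a₂, b₂]; ring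
  h₃ := by simp only [shortModel_a₁, shortModel_a₃]; ring
  h₄ := by
    subst h4
    simp only [shortModel_a₁, shortModel_a₂, shortModel_a₃, shortModel_a₄, c₄, b₂, b₄]; ring
  h₆ := by
    subst h4 h6
    simp only [shortModel_a₁, shortModel_a₂, shortModel_a₃, shortModel_a₄, shortModel_a₆, c₄, c₆,
      b₂, b₄, b₆]
    ring

/-- `shortModel → E`: `(x, y) = ((X - 3 b₂)/36, Y/216 - a₁ (X - 3 b₂)/72 - a₃/2)`. -/
lemma isVarChange_ofShort (E : WeierstrassCurve K) (c4 c6 : K) (h4 : E.c₄ = c4) (h6 : E.c₆ = c6)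
    (hsix : (6 : K) ≠ 0) :
    IsVarChange (shortModel c4 c6) E (1 / 6) (-E.b₂ / 12) (-E.a₁ / 2)
      (E.a₁ * E.b₂ / 24 - E.a₃ / 2) := by
  have h2 : (2 : K) ≠ 0 := fun h => hsix (by linear_combination 3 * h)
  have h3 : (3 : K) ≠ 0 := fun h => hsix (by linear_combination 2 * h)
  have h12 : (12 : K) ≠ 0 := by
    have : (12 : K) = 2 * 6 := by norm_num
    rw [this]; exact mul_ne_zero h2 hsix
  have h24 : (24 : K) ≠ 0 := by
    have : (24 : K) = 2 * 12 := by norm_num
    rw [this]; exact mul_ne_zero h2 h12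
  subst h4 h6
  refine ⟨one_div_ne_zero hsix, ?_, ?_, ?_, ?_, ?_⟩
  · simp only [shortModel_a₁]; field_simp; ring
  · simp only [shortModel_a₂, b₂]; field_simp; ring
  · simp only [shortModel_a₃, b₂]; field_simp; ring
  · simp only [shortModel_a₄, c₄, b₂, b₄]; field_simp; ring
  · simp only [shortModel_a₆, c₄, c₆, b₂, b₄, b₆]; field_simp; ring

/-- Scaling of short models: `(X, Y) = (u² x, u³ y)`. -/
lemma isVarChange_scale (c4 c6 u : K) (hu : u ≠ 0) :
    IsVarChange (shortModel c4 c6) (shortModel (u ^ 4 * c4) (u ^ 6 * c6)) u 0 0 0 where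
  hu := hu
  h₁ := by simp
  h₂ := by simp
  h₃ := by simp
  h₄ := by simp only [shortModel_a₁, shortModel_a₂, shortModel_a₃, shortModel_a₄]; ring
  h₆ := by
    simp only [shortModel_a₁, shortModel_a₂, shortModel_a₃, shortModel_a₄, shortModel_a₆]; ring

end Field

section Points

variable {R S K : Type*} [Field R] [Field S] [Field K] [DecidableEq K]
  [Algebra R S] [Algebra R K] [Algebra S K] [IsScalarTower R S K]

/-- The additive map `(E⁄K).Point →+ ((shortModel c4 c6)⁄K).Point`,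
`(x, y) ↦ (36 x + 3 b₂, 216 y + 108 a₁ x + 108 a₃)`. -/
noncomputable def toShort (E : WeierstrassCurve R) (c4 c6 : R) (h4 : E.c₄ = c4) (h6 : E.c₆ = c6)
    (hsix : (6 : R) ≠ 0) : (E⁄K).Point →+ ((shortModel c4 c6)⁄K).Point :=
  vcHom ((isVarChange_toShort E c4 c6 h4 h6 hsix).map (algebraMap R K))

/-- The additive map `((shortModel c4 c6)⁄K).Point →+ (E⁄K).Point` inverse to `toShort`. -/
noncomputable def ofShort (E : WeierstrassCurve R) (c4 c6 : R) (h4 : E.c₄ = c4) (h6 : E.c₆ = c6)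
    (hsix : (6 : R) ≠ 0) : ((shortModel c4 c6)⁄K).Point →+ (E⁄K).Point :=
  vcHom ((isVarChange_ofShort E c4 c6 h4 h6 hsix).map (algebraMap R K))

/-- The scaling map `((shortModel c4 c6)⁄K).Point →+ ((shortModel (u⁴ c4) (u⁶ c6))⁄K).Point`,
`(x, y) ↦ (u² x, u³ y)`. -/
noncomputable def scaleShort (c4 c6 u : R) (hu : u ≠ 0) :
    ((shortModel c4 c6)⁄K).Point →+ ((shortModel (u ^ 4 * c4) (u ^ 6 * c6))⁄K).Point :=
  vcHom ((isVarChange_scale c4 c6 u hu).map (algebraMap R K))

variable (E : WeierstrassCurve R) (c4 c6 : R) (h4 : E.c₄ = c4) (h6 : E.c₆ = c6)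
  (hsix : (6 : R) ≠ 0)

lemma toShort_injective :
    Function.Injective (toShort (K := K) E c4 c6 h4 h6 hsix) :=
  vcHom_injective _

lemma ofShort_injective :
    Function.Injective (ofShort (K := K) E c4 c6 h4 h6 hsix) :=
  vcHom_injective _

lemma scaleShort_injective (u : R) (hu : u ≠ 0) :
    Function.Injective (scaleShort (K := K) c4 c6 u hu) :=
  vcHom_injective _

/-- Galois equivariance of `toShort`. -/
lemma toShort_smul (σ : K ≃ₐ[S] K) (P : (E⁄K).Point) :
    toShort (K := K) E c4 c6 h4 h6 hsix (σ • P) = σ • toShort (K := K) E c4 c6 h4 h6 hsix P :=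
  vcHom_smul _ σ P

/-- Galois equivariance of `ofShort`. -/
lemma ofShort_smul (σ : K ≃ₐ[S] K) (P : ((shortModel c4 c6)⁄K).Point) :
    ofShort (K := K) E c4 c6 h4 h6 hsix (σ • P) = σ • ofShort (K := K) E c4 c6 h4 h6 hsix P :=
  vcHom_smul _ σ P

/-- Galois equivariance of `scaleShort`. -/
lemma scaleShort_smul (u : R) (hu : u ≠ 0) (σ : K ≃ₐ[S] K) (P : ((shortModel c4 c6)⁄K).Point) :
    scaleShort (K := K) c4 c6 u hu (σ • P) = σ • scaleShort (K := K) c4 c6 u hu P :=
  vcHom_smul _ σ P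

omit [DecidableEq K] in
private lemma some_eq_some {W : WeierstrassCurve.Affine K} {x y x' y' : K}
    (h : W.Nonsingular x y) (h' : W.Nonsingular x' y') (hx : x = x') (hy : y = y') :
    Point.some x y h = Point.some x' y' h' := by
  subst hx hy; rfl

omit [DecidableEq K] in
private lemma six_ne_zero_K (hsix : (6 : R) ≠ 0) : (6 : K) ≠ 0 := by
  have := (map_ne_zero (algebraMap R K)).mpr hsix
  rwa [map_ofNat] at this

/-- Explicit formula for `toShort` on affine points. -/
lemma toShort_some {x y : K} (hxy : (E⁄K).toAffine.Nonsingular x y) :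
    ∃ hxy', toShort (K := K) E c4 c6 h4 h6 hsix (.some x y hxy) =
      .some (36 * x + 3 * (E⁄K).b₂) (216 * y + 108 * (E⁄K).a₁ * x + 108 * (E⁄K).a₃) hxy' := by
  have key : toShort (K := K) E c4 c6 h4 h6 hsix (.some x y hxy) = _ := vcHom_some _ hxy
  have e1 : (algebraMap R K 6) ^ 2 * x + algebraMap R K (3 * E.b₂) = 36 * x + 3 * (E⁄K).b₂ := by
    simp only [map_mul, map_ofNat, WeierstrassCurve.baseChange, WeierstrassCurve.map_b₂]; ring
  have e2 : (algebraMap R K 6) ^ 3 * y + (algebraMap R K 6) ^ 2 * algebraMap R K (3 * E.a₁) * x +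
      algebraMap R K (108 * E.a₃) = 216 * y + 108 * (E⁄K).a₁ * x + 108 * (E⁄K).a₃ := by
    simp only [map_mul, map_ofNat, WeierstrassCurve.baseChange, WeierstrassCurve.map_a₁,
      WeierstrassCurve.map_a₃]
    ring
  have hns := (((isVarChange_toShort E c4 c6 h4 h6 hsix).map (algebraMap R K)).nonsingular_iff
    x y).mpr hxy
  rw [e1, e2] at hns
  exact ⟨hns, key.trans (some_eq_some _ _ e1 e2)⟩

/-- `ofShort` is a left inverse of `toShort`. -/
lemma ofShort_toShort (P : (E⁄K).Point) :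
    ofShort (K := K) E c4 c6 h4 h6 hsix (toShort (K := K) E c4 c6 h4 h6 hsix P) = P := by
  have h6K : (6 : K) ≠ 0 := six_ne_zero_K (K := K) hsix
  have h2K : (2 : K) ≠ 0 := fun h => h6K (by linear_combination 3 * h)
  have h3K : (3 : K) ≠ 0 := fun h => h6K (by linear_combination 2 * h)
  have h12K : (12 : K) ≠ 0 := by
    have : (12 : K) = 2 * 6 := by norm_num
    rw [this]; exact mul_ne_zero h2K h6K
  have h24K : (24 : K) ≠ 0 := by
    have : (24 : K) = 2 * 12 := by norm_num
    rw [this]; exact mul_ne_zero h2K h12K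
  rcases P with _ | ⟨x, y, hxy⟩
  · rfl
  · have k1 : toShort (K := K) E c4 c6 h4 h6 hsix (.some x y hxy) = _ := vcHom_some _ hxy
    rw [k1]
    have k2 := vcHom_some ((isVarChange_ofShort E c4 c6 h4 h6 hsix).map (algebraMap R K))
      ((((isVarChange_toShort E c4 c6 h4 h6 hsix).map (algebraMap R K)).nonsingular_iff
        x y).mpr hxy)
    refine k2.trans (some_eq_some _ _ ?_ ?_)
    · simp only [map_mul, map_ofNat, map_div₀, map_neg, map_one]
      field_simp
      ring
    · simp only [map_mul, map_ofNat, map_div₀, map_neg, map_sub, map_one]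
      field_simp
      ring

/-- `toShort` is a left inverse of `ofShort`. -/
lemma toShort_ofShort (Q : ((shortModel c4 c6)⁄K).Point) :
    toShort (K := K) E c4 c6 h4 h6 hsix (ofShort (K := K) E c4 c6 h4 h6 hsix Q) = Q := by
  apply ofShort_injective (K := K) E c4 c6 h4 h6 hsix
  rw [ofShort_toShort]

/-- `toShort` as an additive equivalence. -/
noncomputable def toShortEquiv : (E⁄K).Point ≃+ ((shortModel c4 c6)⁄K).Point :=
  { toShort (K := K) E c4 c6 h4 h6 hsix with
    invFun := ofShort (K := K) E c4 c6 h4 h6 hsix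
    left_inv := ofShort_toShort (K := K) E c4 c6 h4 h6 hsix
    right_inv := toShort_ofShort (K := K) E c4 c6 h4 h6 hsix }

lemma toShortEquiv_apply (P : (E⁄K).Point) :
    toShortEquiv (K := K) E c4 c6 h4 h6 hsix P = toShort (K := K) E c4 c6 h4 h6 hsix P := rfl

lemma toShortEquiv_symm_apply (Q : ((shortModel c4 c6)⁄K).Point) :
    (toShortEquiv (K := K) E c4 c6 h4 h6 hsix).symm Q =
      ofShort (K := K) E c4 c6 h4 h6 hsix Q := rfl

end Points

section IntModel

/-! ### Integral models: `W : WeierstrassCurve ℤ`, base-changed to `ℚ` and then to `K` -/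

variable {K : Type*} [Field K] [DecidableEq K] [Algebra ℚ K]

lemma map_castQ_c₄ (W : WeierstrassCurve ℤ) :
    (W.map (Int.castRingHom ℚ)).c₄ = (W.c₄ : ℚ) := by
  rw [WeierstrassCurve.map_c₄]; rfl

lemma map_castQ_c₆ (W : WeierstrassCurve ℤ) :
    (W.map (Int.castRingHom ℚ)).c₆ = (W.c₆ : ℚ) := by
  rw [WeierstrassCurve.map_c₆]; rfl

/-- For an integral model `W`: the additive equivalence between the `K`-points of `W ⊗ ℚ` and the
`K`-points of the short model `Y² = X³ - 27 c₄(W) X - 54 c₆(W)` over `ℚ`. -/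
noncomputable def shortEquivQ (W : WeierstrassCurve ℤ) :
    ((W.map (Int.castRingHom ℚ))⁄K).Point ≃+
      ((shortModel (W.c₄ : ℚ) (W.c₆ : ℚ))⁄K).Point :=
  toShortEquiv (K := K) (W.map (Int.castRingHom ℚ)) (W.c₄ : ℚ) (W.c₆ : ℚ)
    (map_castQ_c₄ W) (map_castQ_c₆ W) (by norm_num)

/-- Galois equivariance of `shortEquivQ`. -/
lemma shortEquivQ_smul (W : WeierstrassCurve ℤ) (σ : K ≃ₐ[ℚ] K)
    (P : ((W.map (Int.castRingHom ℚ))⁄K).Point) :
    shortEquivQ (K := K) W (σ • P) = σ • shortEquivQ (K := K) W P :=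
  toShort_smul (S := ℚ) (K := K) (W.map (Int.castRingHom ℚ)) (W.c₄ : ℚ) (W.c₆ : ℚ)
    (map_castQ_c₄ W) (map_castQ_c₆ W) (by norm_num) σ P

/-- Galois equivariance of the inverse of `shortEquivQ`. -/
lemma shortEquivQ_symm_smul (W : WeierstrassCurve ℤ) (σ : K ≃ₐ[ℚ] K)
    (Q : ((shortModel (W.c₄ : ℚ) (W.c₆ : ℚ))⁄K).Point) :
    (shortEquivQ (K := K) W).symm (σ • Q) = σ • (shortEquivQ (K := K) W).symm Q :=
  ofShort_smul (S := ℚ) (K := K) (W.map (Int.castRingHom ℚ)) (W.c₄ : ℚ) (W.c₆ : ℚ)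
    (map_castQ_c₄ W) (map_castQ_c₆ W) (by norm_num) σ Q

/-- **Transport of a torsion comparison from short models to integral models.**
Let `W, W'` be integral models and `φ` an additive, injective, `Gal(K/ℚ)`-equivariant map between
the `K`-points of their short models (e.g. defined on all points, or extended from torsion).
Then `ι := (shortEquivQ W')⁻¹ ∘ φ ∘ shortEquivQ W` is additive, injective and equivariant. -/
theorem exists_iota_of_short (W W' : WeierstrassCurve ℤ)
    (φ : ((shortModel (W.c₄ : ℚ) (W.c₆ : ℚ))⁄K).Point →+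
      ((shortModel (W'.c₄ : ℚ) (W'.c₆ : ℚ))⁄K).Point)
    (hinj : Function.Injective φ)
    (hφ : ∀ (σ : K ≃ₐ[ℚ] K) (P : ((shortModel (W.c₄ : ℚ) (W.c₆ : ℚ))⁄K).Point),
      φ (σ • P) = σ • φ P) :
    ∃ ι : ((W.map (Int.castRingHom ℚ))⁄K).Point →+ ((W'.map (Int.castRingHom ℚ))⁄K).Point,
      Function.Injective ι ∧
      ∀ (σ : K ≃ₐ[ℚ] K) (P : ((W.map (Int.castRingHom ℚ))⁄K).Point), ι (σ • P) = σ • ι P := by
  refine ⟨((shortEquivQ (K := K) W').symm.toAddMonoidHom.comp φ).comp
    (shortEquivQ (K := K) W).toAddMonoidHom, ?_, ?_⟩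
  · intro P Q h
    simp only [AddMonoidHom.coe_comp, AddEquiv.coe_toAddMonoidHom, Function.comp_apply] at h
    exact (shortEquivQ (K := K) W).injective (hinj ((shortEquivQ (K := K) W').symm.injective h))
  · intro σ P
    simp only [AddMonoidHom.coe_comp, AddEquiv.coe_toAddMonoidHom, Function.comp_apply]
    rw [shortEquivQ_smul, hφ, shortEquivQ_symm_smul]

end IntModel

end Fermat.Agent.S52.helper2033
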