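import Mathlib

/-!
# S52: Klein's icosahedral forms, field-generic basics and existence of a parameter `w₀`

Klein forms `f` (degree 12), `H` (degree 20), `T` (degree 30) as plain functions over any
commutative ring (normalisation `T² + H³ = 1728 f⁵`).  Main result
`exists_klein_preimage`: over an algebraically closed field with `30 ≠ 0`, every pair
`(a, b)` with `a³ + b² ≠ 0` is of the form `(H(u,v), T(u,v))`.
-/

set_option autoImplicit false

namespace Fermat.Agent.S52.helper424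

open Polynomial

section Forms

variable {R : Type*} [CommRing R]

/-- Klein's icosahedral invariant `f` (degree 12). -/
def kF (u v : R) : R := u * v * (u ^ 10 + 11 * u ^ 5 * v ^ 5 - v ^ 10)

/-- Klein's invariant `H` (degree 20). -/
def kH (u v : R) : R :=
  -(u ^ 20 + v ^ 20) + 228 * (u ^ 15 * v ^ 5 - u ^ 5 * v ^ 15) - 494 * u ^ 10 * v ^ 10

/-- Klein's invariant `T` (degree 30). -/
def kT (u v : R) : R :=
  u ^ 30 + v ^ 30 + 522 * (u ^ 25 * v ^ 5 - u ^ 5 * v ^ 25)
    - 10005 * (u ^ 20 * v ^ 10 + u ^ 10 * v ^ 20)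

/-- The icosahedral syzygy. -/
theorem kT_sq_add_kH_cube (u v : R) : kT u v ^ 2 + kH u v ^ 3 = 1728 * kF u v ^ 5 := by
  simp only [kT, kH, kF]; ring

theorem kF_smul (c u v : R) : kF (c * u) (c * v) = c ^ 12 * kF u v := by
  simp only [kF]; ring

theorem kH_smul (c u v : R) : kH (c * u) (c * v) = c ^ 20 * kH u v := by
  simp only [kH]; ring

theorem kT_smul (c u v : R) : kT (c * u) (c * v) = c ^ 30 * kT u v := by
  simp only [kT]; ring

theorem map_kF {S : Type*} [CommRing S] (φ : R →+* S) (u v : R) :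
    φ (kF u v) = kF (φ u) (φ v) := by
  simp only [kF, map_mul, map_add, map_sub, map_pow, map_ofNat]

theorem map_kH {S : Type*} [CommRing S] (φ : R →+* S) (u v : R) :
    φ (kH u v) = kH (φ u) (φ v) := by
  simp only [kH, map_mul, map_add, map_sub, map_neg, map_pow, map_ofNat]

theorem map_kT {S : Type*} [CommRing S] (φ : R →+* S) (u v : R) :
    φ (kT u v) = kT (φ u) (φ v) := by
  simp only [kT, map_mul, map_add, map_sub, map_pow, map_ofNat]

/-- Division of `H` by the quadratic factor of `f` (in `u⁵, v⁵`): the remainder is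
`3125 v¹⁵ (11 u⁵ - v⁵)`. -/
theorem kH_eq_quot_add_rem (u v : R) :
    kH u v = (-u ^ 10 + 239 * u ^ 5 * v ^ 5 - 3124 * v ^ 10) * (u ^ 10 + 11 * u ^ 5 * v ^ 5 - v ^ 10)
      + 3125 * v ^ 15 * (11 * u ^ 5 - v ^ 5) := by
  simp only [kH]; ring

end Forms

section Field

variable {K : Type*} [Field K]

/-- `f` and `H` have no common zero off the origin (characteristic `≠ 5`). -/
theorem eq_zero_of_kF_eq_zero_of_kH_eq_zero (h5 : (5 : K) ≠ 0) {u v : K}
    (hf : kF u v = 0) (hH : kH u v = 0) : u = 0 ∧ v = 0 := by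
  by_cases hu : u = 0
  · subst hu
    refine ⟨rfl, ?_⟩
    have : v ^ 20 = 0 := by
      have := hH; simp only [kH] at this; linear_combination -this
    exact pow_eq_zero_iff (by norm_num) |>.mp this
  by_cases hv : v = 0
  · subst hv
    have : u ^ 20 = 0 := by
      have := hH; simp only [kH] at this; linear_combination -this
    exact absurd (pow_eq_zero_iff (by norm_num) |>.mp this) hu
  exfalso
  have hQ : u ^ 10 + 11 * u ^ 5 * v ^ 5 - v ^ 10 = 0 := by
    have := hf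
    simp only [kF] at this
    rcases mul_eq_zero.mp this with h | h
    · rcases mul_eq_zero.mp h with h | h
      · exact absurd h hu
      · exact absurd h hv
    · exact h
  have hrem : (3125 : K) * v ^ 15 * (11 * u ^ 5 - v ^ 5) = 0 := by
    have h := kH_eq_quot_add_rem u v
    rw [hH, hQ, mul_zero, zero_add] at h
    exact h.symm
  have h3125 : (3125 : K) ≠ 0 := by
    have : (3125 : K) = 5 ^ 5 := by norm_num
    rw [this]; exact pow_ne_zero _ h5
  have hv5 : v ^ 5 = 11 * u ^ 5 := by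
    rcases mul_eq_zero.mp hrem with h | h
    · rcases mul_eq_zero.mp h with h | h
      · exact absurd h h3125
      · exact absurd (pow_eq_zero_iff (by norm_num) |>.mp h) hv
    · linear_combination -h
  have hu10 : u ^ 10 = 0 := by
    linear_combination hQ + v ^ 5 * hv5
  exact hu (pow_eq_zero_iff (by norm_num) |>.mp hu10)

/-- `H` and `T` have no common zero off the origin (characteristic `∤ 30`). -/
theorem eq_zero_of_kH_eq_zero_of_kT_eq_zero (h2 : (2 : K) ≠ 0) (h3 : (3 : K) ≠ 0)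
    (h5 : (5 : K) ≠ 0) {u v : K} (hH : kH u v = 0) (hT : kT u v = 0) : u = 0 ∧ v = 0 := by
  have hs := kT_sq_add_kH_cube u v
  rw [hH, hT] at hs
  have h1728 : (1728 : K) ≠ 0 := by
    have : (1728 : K) = 2 ^ 6 * 3 ^ 3 := by norm_num
    rw [this]; exact mul_ne_zero (pow_ne_zero _ h2) (pow_ne_zero _ h3)
  have hf5 : kF u v ^ 5 = 0 := by
    have : (1728 : K) * kF u v ^ 5 = 0 := by rw [← hs]; ring
    exact (mul_eq_zero.mp this).resolve_left h1728
  exact eq_zero_of_kF_eq_zero_of_kH_eq_zero h5 (pow_eq_zero_iff (by norm_num) |>.mp hf5) hH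

/-- If `(H, T)(u, v) = (a, b)` with `a³ + b² ≠ 0` then `f(u, v) ≠ 0`. -/
theorem kF_ne_zero_of_eq {u v a b : K} (hH : kH u v = a) (hT : kT u v = b)
    (hab : a ^ 3 + b ^ 2 ≠ 0) : kF u v ≠ 0 := by
  intro hf
  apply hab
  have hs := kT_sq_add_kH_cube u v
  rw [hH, hT, hf] at hs
  linear_combination hs

end Field

section Exist

variable {K : Type*} [Field K]

/-- The dehomogenised form `H(X, 1)`. -/
noncomputable def kHpoly (K : Type*) [Field K] : K[X] :=
  -(X ^ 20 + 1) + 228 * (X ^ 15 - X ^ 5) - 494 * X ^ 10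

/-- The dehomogenised form `T(X, 1)`. -/
noncomputable def kTpoly (K : Type*) [Field K] : K[X] :=
  X ^ 30 + 1 + 522 * (X ^ 25 - X ^ 5) - 10005 * (X ^ 20 + X ^ 10)

theorem eval_kHpoly (z : K) : (kHpoly K).eval z = kH z 1 := by
  simp [kHpoly, kH]

theorem eval_kTpoly (z : K) : (kTpoly K).eval z = kT z 1 := by
  simp [kTpoly, kT]

theorem natDegree_kHpoly_le : (kHpoly K).natDegree ≤ 20 := by
  unfold kHpoly; compute_degree

theorem natDegree_kTpoly_le : (kTpoly K).natDegree ≤ 30 := by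
  unfold kTpoly; compute_degree

theorem coeff_kHpoly : (kHpoly K).coeff 20 = -1 := by
  simp [kHpoly, coeff_X_pow, coeff_one]

theorem coeff_kTpoly : (kTpoly K).coeff 30 = 1 := by
  simp [kTpoly, coeff_X_pow, coeff_one]

/-- The polynomial `b² H(X,1)³ - a³ T(X,1)²` whose roots give the fibre of `(H, T)`. -/
noncomputable def kFibrePoly (a b : K) : K[X] :=
  C (b ^ 2) * kHpoly K ^ 3 - C (a ^ 3) * kTpoly K ^ 2

theorem coeff_kFibrePoly (a b : K) : (kFibrePoly a b).coeff 60 = -(a ^ 3 + b ^ 2) := by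
  have h1 : (kHpoly K ^ 3).coeff (3 * 20) = (kHpoly K).coeff 20 ^ 3 :=
    coeff_pow_of_natDegree_le natDegree_kHpoly_le
  have h2 : (kTpoly K ^ 2).coeff (2 * 30) = (kTpoly K).coeff 30 ^ 2 :=
    coeff_pow_of_natDegree_le natDegree_kTpoly_le
  rw [kFibrePoly, coeff_sub, coeff_C_mul, coeff_C_mul]
  norm_num at h1 h2
  rw [h1, h2, coeff_kHpoly, coeff_kTpoly]
  ring

theorem degree_kFibrePoly_ne_zero {a b : K} (hab : a ^ 3 + b ^ 2 ≠ 0) :
    (kFibrePoly a b).degree ≠ 0 := by
  intro h0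
  have hle : (kFibrePoly a b).natDegree = 0 := natDegree_eq_zero_iff_degree_le_zero.mpr h0.le
  have : (kFibrePoly a b).coeff 60 = 0 := coeff_eq_zero_of_natDegree_lt (by rw [hle]; norm_num)
  rw [coeff_kFibrePoly] at this
  exact hab (by linear_combination -this)

/-- **Existence of a Klein parameter.**  Over an algebraically closed field in which
`2, 3, 5` are invertible, every `(a, b)` with `a³ + b² ≠ 0` is `(H(u,v), T(u,v))` for some
`(u, v)`. -/
theorem exists_klein_preimage [IsAlgClosed K] (h2 : (2 : K) ≠ 0) (h3 : (3 : K) ≠ 0)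
    (h5 : (5 : K) ≠ 0) (a b : K) (hab : a ^ 3 + b ^ 2 ≠ 0) :
    ∃ u v : K, kH u v = a ∧ kT u v = b := by
  obtain ⟨z, hz⟩ := IsAlgClosed.exists_root (kFibrePoly a b) (degree_kFibrePoly_ne_zero hab)
  have hrel : b ^ 2 * kH z 1 ^ 3 = a ^ 3 * kT z 1 ^ 2 := by
    have := hz
    rw [IsRoot.def, kFibrePoly, eval_sub, eval_mul, eval_mul, eval_C, eval_C, eval_pow, eval_pow,
      eval_kHpoly, eval_kTpoly] at this
    linear_combination this
  have hnot : ¬ (kH z 1 = 0 ∧ kT z 1 = 0) := by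
    rintro ⟨hH, hT⟩
    exact one_ne_zero (eq_zero_of_kH_eq_zero_of_kT_eq_zero h2 h3 h5 hH hT).2
  set h₀ := kH z 1 with hh₀
  set t₀ := kT z 1 with ht₀
  have key : ∀ c : K, kH (c * z) c = c ^ 20 * h₀ ∧ kT (c * z) c = c ^ 30 * t₀ := by
    intro c
    have e1 := kH_smul c z 1
    have e2 := kT_smul c z 1
    rw [mul_one] at e1 e2
    exact ⟨e1, e2⟩
  by_cases ha : a = 0
  · -- then `b ≠ 0`, `h₀ = 0`, `t₀ ≠ 0`
    subst ha
    have hb : b ≠ 0 := by
      rintro rfl; exact hab (by ring)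
    have hh : h₀ = 0 := by
      have : b ^ 2 * h₀ ^ 3 = 0 := by rw [hrel]; ring
      rcases mul_eq_zero.mp this with h | h
      · exact absurd (pow_eq_zero_iff (by norm_num) |>.mp h) hb
      · exact pow_eq_zero_iff (by norm_num) |>.mp h
    have ht : t₀ ≠ 0 := fun ht => hnot ⟨hh, ht⟩
    obtain ⟨c, hc⟩ := IsAlgClosed.exists_pow_nat_eq (b / t₀) (n := 30) (by norm_num)
    refine ⟨c * z, c, ?_, ?_⟩
    · rw [(key c).1, hh, mul_zero]
    · rw [(key c).2, hc, div_mul_cancel₀ _ ht]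
  by_cases hb : b = 0
  · subst hb
    have ht : t₀ = 0 := by
      have : a ^ 3 * t₀ ^ 2 = 0 := by rw [← hrel]; ring
      rcases mul_eq_zero.mp this with h | h
      · exact absurd (pow_eq_zero_iff (by norm_num) |>.mp h) ha
      · exact pow_eq_zero_iff (by norm_num) |>.mp h
    have hh : h₀ ≠ 0 := fun hh => hnot ⟨hh, ht⟩
    obtain ⟨c, hc⟩ := IsAlgClosed.exists_pow_nat_eq (a / h₀) (n := 20) (by norm_num)
    refine ⟨c * z, c, ?_, ?_⟩
    · rw [(key c).1, hc, div_mul_cancel₀ _ hh]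
    · rw [(key c).2, ht, mul_zero]
  -- generic case
  have hh : h₀ ≠ 0 := by
    intro hh
    have : a ^ 3 * t₀ ^ 2 = 0 := by rw [← hrel, hh]; ring
    rcases mul_eq_zero.mp this with h | h
    · exact absurd (pow_eq_zero_iff (by norm_num) |>.mp h) ha
    · exact hnot ⟨hh, pow_eq_zero_iff (by norm_num) |>.mp h⟩
  have ht : t₀ ≠ 0 := by
    intro ht
    have : b ^ 2 * h₀ ^ 3 = 0 := by rw [hrel, ht]; ring
    rcases mul_eq_zero.mp this with h | h
    · exact absurd (pow_eq_zero_iff (by norm_num) |>.mp h) hb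
    · exact hh (pow_eq_zero_iff (by norm_num) |>.mp h)
  obtain ⟨c, hc⟩ := IsAlgClosed.exists_pow_nat_eq (b * h₀ / (a * t₀)) (n := 10) (by norm_num)
  have hat : a * t₀ ≠ 0 := mul_ne_zero ha ht
  have hc' : c ^ 10 * (a * t₀) = b * h₀ := by rw [hc, div_mul_cancel₀ _ hat]
  refine ⟨c * z, c, ?_, ?_⟩
  · rw [(key c).1]
    have h20 : c ^ 20 * (a * t₀) ^ 2 = (b * h₀) ^ 2 := by
      rw [← hc']; ring
    have : (c ^ 20 * h₀ - a) * (a ^ 2 * t₀ ^ 2) = 0 := by
      linear_combination h₀ * h20 + hrel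
    rcases mul_eq_zero.mp this with h | h
    · linear_combination h
    · exact absurd h (mul_ne_zero (pow_ne_zero _ ha) (pow_ne_zero _ ht))
  · rw [(key c).2]
    have h30 : c ^ 30 * (a * t₀) ^ 3 = (b * h₀) ^ 3 := by
      rw [← hc']; ring
    have : (c ^ 30 * t₀ - b) * (a ^ 3 * t₀ ^ 2) = 0 := by
      linear_combination h30 + b * hrel
    rcases mul_eq_zero.mp this with h | h
    · linear_combination h
    · exact absurd h (mul_ne_zero (pow_ne_zero _ ha) (pow_ne_zero _ ht))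

/-- Form used by the `3–5` switch: for `c₄³ - c₆² ≠ 0` there is a Klein parameter `(u, v)`
with `(H, T)(u, v) = (-c₄, -c₆)`; automatically `f(u, v) ≠ 0` and `1728 f⁵ = c₆² - c₄³`. -/
theorem exists_klein_param [IsAlgClosed K] (h2 : (2 : K) ≠ 0) (h3 : (3 : K) ≠ 0)
    (h5 : (5 : K) ≠ 0) (c4 c6 : K) (hΔ : c4 ^ 3 - c6 ^ 2 ≠ 0) :
    ∃ u v : K, kH u v = -c4 ∧ kT u v = -c6 ∧ kF u v ≠ 0 ∧
      1728 * kF u v ^ 5 = c6 ^ 2 - c4 ^ 3 := by
  have hab : (-c4) ^ 3 + (-c6) ^ 2 ≠ 0 := by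
    intro h; exact hΔ (by linear_combination -h)
  obtain ⟨u, v, hH, hT⟩ := exists_klein_preimage h2 h3 h5 (-c4) (-c6) hab
  refine ⟨u, v, hH, hT, kF_ne_zero_of_eq hH hT hab, ?_⟩
  have hs := kT_sq_add_kH_cube u v
  rw [hH, hT] at hs
  linear_combination -hs

end Exist

end Fermat.Agent.S52.helper424
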