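/-
S52 helper (helper489): the LOCAL CERTIFICATE for irreducibility of the mod-3 representation.

If `W` is an integral Weierstrass model with `Δ ≠ 0`, `q ≥ 5` is a prime with `q ∣ c₆(W)`,
`q ∤ c₄(W)` and `3` is not a square modulo `q`, then `W.ModRepIsIrreducible 3`.

Proof: a Galois-stable line in `E[3]` gives a rational root `x₀` of the third division
polynomial (landed S51 lemma `helper2572.three_reducible_imp_root`).  With `n = 108 x₀ + 9 b₂`
one gets `n⁴ - 486 c₄ n² - 5832 c₆ n - 19683 c₄² = 0`; `n` is a rational number integral over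
`ℤ`, so an integer, and modulo `q` this reads `(n² - 243 c₄)² = 3 (162 c₄)²`, making `3` a square.
-/
import Mathlib
import Fermat.Prelude.Def_FLTPrelim_ModularRep
import Fermat.Agent.S51.helper2572_Three

set_option autoImplicit false

namespace Fermat.Agent.S52.helper489

open WeierstrassCurve

/-- The key polynomial identity: `ψ₃` in the coordinate `n = 108 x + 9 b₂` over any commutative
ring. -/
theorem psi3_shift_identity {R : Type*} [CommRing R] (W : WeierstrassCurve R) (x : R) :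
    (108 * x + 9 * W.b₂) ^ 4 - 486 * W.c₄ * (108 * x + 9 * W.b₂) ^ 2
        - 5832 * W.c₆ * (108 * x + 9 * W.b₂) - 19683 * W.c₄ ^ 2
      = 45349632 * (3 * x ^ 4 + W.b₂ * x ^ 3 + 3 * W.b₄ * x ^ 2 + 3 * W.b₆ * x + W.b₈) := by
  simp only [WeierstrassCurve.c₄, WeierstrassCurve.c₆, WeierstrassCurve.b₂, WeierstrassCurve.b₄,
    WeierstrassCurve.b₆, WeierstrassCurve.b₈]
  ring

/-- A rational number satisfying a monic quartic with integer coefficients is an integer. -/
theorem exists_int_of_quartic (y : ℚ) (a b c : ℤ)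
    (h : y ^ 4 - (a : ℚ) * y ^ 2 - (b : ℚ) * y - (c : ℚ) = 0) : ∃ n : ℤ, (n : ℚ) = y := by
  have hint : IsIntegral ℤ y := by
    refine ⟨Polynomial.X ^ (3 + 1) - (Polynomial.C a * Polynomial.X ^ 2
      + Polynomial.C b * Polynomial.X + Polynomial.C c), ?_, ?_⟩
    · apply Polynomial.monic_X_pow_sub
      compute_degree
      norm_num
    · rw [Polynomial.eval₂_sub, Polynomial.eval₂_add, Polynomial.eval₂_add, Polynomial.eval₂_mul,
        Polynomial.eval₂_mul, Polynomial.eval₂_pow, Polynomial.eval₂_pow, Polynomial.eval₂_X,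
        Polynomial.eval₂_C, Polynomial.eval₂_C, Polynomial.eval₂_C, eq_intCast, eq_intCast,
        eq_intCast]
      linear_combination h
  obtain ⟨n, hn⟩ := IsIntegrallyClosed.isIntegral_iff.mp hint
  exact ⟨n, by simpa using hn⟩

/-- The mod-`q` obstruction: if `a⁴ - 486 c a² - 19683 c² = 0` in a field where `162 c ≠ 0`,
then `3` is a square. -/
theorem isSquare_three_of_quartic {F : Type*} [Field F] (a c : F) (hc : (162 : F) * c ≠ 0)
    (h : a ^ 4 - 486 * c * a ^ 2 - 19683 * c ^ 2 = 0) : IsSquare (3 : F) := by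
  refine ⟨(a ^ 2 - 243 * c) / (162 * c), ?_⟩
  rw [div_mul_div_comm, eq_div_iff (mul_ne_zero hc hc)]
  linear_combination (-1 : F) * h

/-- **Local certificate (S52).** An integral Weierstrass model with `Δ ≠ 0` and an auxiliary prime
`q ≥ 5` with `q ∣ c₆`, `q ∤ c₄`, `3` a non-residue mod `q` has irreducible mod-3
representation. -/
theorem modRepIsIrreducible_three_of_prime (W : WeierstrassCurve ℤ) (hΔ : W.Δ ≠ 0)
    (q : ℕ) (hq : q.Prime) (hq2 : q ≠ 2) (hq3 : q ≠ 3)
    (h3 : ¬ IsSquare (3 : ZMod q))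
    (hc6 : (q : ℤ) ∣ W.c₆) (hc4 : ¬ (q : ℤ) ∣ W.c₄) :
    W.ModRepIsIrreducible 3 := by
  have : Fact q.Prime := ⟨hq⟩
  by_contra hred
  unfold WeierstrassCurve.ModRepIsIrreducible at hred
  have hΔ' : (W.map (Int.castRingHom ℚ)).Δ ≠ 0 := by
    rw [WeierstrassCurve.map_Δ]
    simpa using hΔ
  obtain ⟨x₀, hx₀⟩ := Fermat.Agent.S51.helper2572.three_reducible_imp_root
    (W.map (Int.castRingHom ℚ)) hΔ' hred
  -- the rational number `y = 108 x₀ + 9 b₂` satisfies a monic integral quartic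
  have hid := psi3_shift_identity (W.map (Int.castRingHom ℚ)) x₀
  rw [hx₀, mul_zero] at hid
  simp only [WeierstrassCurve.map_c₄, WeierstrassCurve.map_c₆, WeierstrassCurve.map_b₂,
    eq_intCast] at hid
  obtain ⟨n, hn⟩ := exists_int_of_quartic (108 * x₀ + 9 * (W.b₂ : ℚ)) (486 * W.c₄)
    (5832 * W.c₆) (19683 * W.c₄ ^ 2) (by push_cast; linear_combination hid)
  rw [← hn] at hid
  have hZ : n ^ 4 - 486 * W.c₄ * n ^ 2 - 5832 * W.c₆ * n - 19683 * W.c₄ ^ 2 = 0 := by
    exact_mod_cast hid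
  -- reduce modulo `q`
  have hq' : ((n : ZMod q)) ^ 4 - 486 * (W.c₄ : ZMod q) * (n : ZMod q) ^ 2
      - 5832 * (W.c₆ : ZMod q) * (n : ZMod q) - 19683 * (W.c₄ : ZMod q) ^ 2 = 0 := by
    have := congrArg (Int.cast : ℤ → ZMod q) hZ
    push_cast at this
    exact this
  have hc6' : (W.c₆ : ZMod q) = 0 := by
    rw [ZMod.intCast_zmod_eq_zero_iff_dvd]
    exact hc6
  have hc4' : (W.c₄ : ZMod q) ≠ 0 := by
    rw [Ne, ZMod.intCast_zmod_eq_zero_iff_dvd]
    exact hc4
  rw [hc6'] at hq'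
  have h162 : (162 : ZMod q) ≠ 0 := by
    have h2 : (2 : ZMod q) ≠ 0 := by
      intro h
      have : ((2 : ℕ) : ZMod q) = 0 := by exact_mod_cast h
      rw [ZMod.natCast_eq_zero_iff] at this
      exact hq2 ((Nat.prime_dvd_prime_iff_eq hq Nat.prime_two).mp this)
    have h3' : (3 : ZMod q) ≠ 0 := by
      intro h
      have : ((3 : ℕ) : ZMod q) = 0 := by exact_mod_cast h
      rw [ZMod.natCast_eq_zero_iff] at this
      exact hq3 ((Nat.prime_dvd_prime_iff_eq hq Nat.prime_three).mp this)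
    have : (162 : ZMod q) = 2 * 3 ^ 4 := by norm_num
    rw [this]
    exact mul_ne_zero h2 (pow_ne_zero _ h3')
  exact h3 (isSquare_three_of_quartic (n : ZMod q) (W.c₄ : ZMod q) (mul_ne_zero h162 hc4')
    (by linear_combination hq'))

/-- For a semistable model, `q ∣ c₆` with `q ≥ 5` already forces `q ∤ c₄`. -/
theorem not_dvd_c₄_of_semistable (W : WeierstrassCurve ℤ) (hW : W.IsSemistableModel)
    (q : ℕ) (hq : q.Prime) (hq2 : q ≠ 2) (hq3 : q ≠ 3) (hc6 : (q : ℤ) ∣ W.c₆) :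
    ¬ (q : ℤ) ∣ W.c₄ := by
  intro hc4
  have hqZ : Prime (q : ℤ) := Nat.prime_iff_prime_int.mp hq
  have h1728 : (1728 : ℤ) * W.Δ = W.c₄ ^ 3 - W.c₆ ^ 2 := by
    simp only [WeierstrassCurve.Δ, WeierstrassCurve.c₄, WeierstrassCurve.c₆, WeierstrassCurve.b₂,
      WeierstrassCurve.b₄, WeierstrassCurve.b₆, WeierstrassCurve.b₈]
    ring
  have hdvd : (q : ℤ) ∣ 1728 * W.Δ := by
    rw [h1728]
    exact dvd_sub (dvd_pow hc4 (by norm_num)) (dvd_pow hc6 (by norm_num))
  rcases hqZ.dvd_or_dvd hdvd with h | h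
  · have h' : (q : ℤ) ∣ 2 ^ 6 * 3 ^ 3 := by norm_num; exact h
    rcases hqZ.dvd_or_dvd h' with h2 | h3
    · have := hqZ.dvd_of_dvd_pow h2
      have : q ∣ 2 := by exact_mod_cast this
      exact hq2 ((Nat.prime_dvd_prime_iff_eq hq Nat.prime_two).mp this)
    · have := hqZ.dvd_of_dvd_pow h3
      have : q ∣ 3 := by exact_mod_cast this
      exact hq3 ((Nat.prime_dvd_prime_iff_eq hq Nat.prime_three).mp this)
  · exact hW q hq h hc4

/-- **Local certificate, semistable form.** -/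
theorem modRepIsIrreducible_three_of_semistable (W : WeierstrassCurve ℤ) (hΔ : W.Δ ≠ 0)
    (hW : W.IsSemistableModel) (q : ℕ) (hq : q.Prime) (hq2 : q ≠ 2) (hq3 : q ≠ 3)
    (h3 : ¬ IsSquare (3 : ZMod q)) (hc6 : (q : ℤ) ∣ W.c₆) :
    W.ModRepIsIrreducible 3 :=
  modRepIsIrreducible_three_of_prime W hΔ q hq hq2 hq3 h3 hc6
    (not_dvd_c₄_of_semistable W hW q hq hq2 hq3 hc6)

theorem not_isSquare_two_zmod_three : ¬ IsSquare (2 : ZMod 3) := by
  rintro ⟨r, hr⟩
  revert r
  decide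

/-- `3` is not a square modulo a prime `q ≡ 5, 7 (mod 12)`. -/
theorem not_isSquare_three_of_mod_twelve (q : ℕ) (hq : q.Prime)
    (h : q % 12 = 5 ∨ q % 12 = 7) : ¬ IsSquare (3 : ZMod q) := by
  have : Fact q.Prime := ⟨hq⟩
  have : Fact (Nat.Prime 3) := ⟨Nat.prime_three⟩
  rcases h with h | h
  · have h4 : q % 4 = 1 := by omega
    have h3 : q % 3 = 2 := by omega
    have key := ZMod.exists_sq_eq_prime_iff_of_mod_four_eq_one (p := q) (q := 3) h4 (by norm_num)
    have hcast : ((3 : ℕ) : ZMod q) = 3 := by norm_num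
    rw [hcast] at key
    rw [key]
    have hq3 : ((q : ℕ) : ZMod 3) = 2 := by
      have : ((q : ℕ) : ZMod 3) = ((q % 3 : ℕ) : ZMod 3) := by
        rw [ZMod.natCast_mod]
      rw [this, h3]
      rfl
    rw [hq3]
    exact not_isSquare_two_zmod_three
  · have h4 : q % 4 = 3 := by omega
    have h3 : q % 3 = 1 := by omega
    have hne : q ≠ 3 := by omega
    have key := ZMod.exists_sq_eq_prime_iff_of_mod_four_eq_three (p := q) (q := 3) h4
      (by norm_num) hne
    have hcast : ((3 : ℕ) : ZMod q) = 3 := by norm_num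
    rw [hcast] at key
    rw [key, not_not]
    have hq3 : ((q : ℕ) : ZMod 3) = 1 := by
      have : ((q : ℕ) : ZMod 3) = ((q % 3 : ℕ) : ZMod 3) := by
        rw [ZMod.natCast_mod]
      rw [this, h3]
      rfl
    rw [hq3]
    exact IsSquare.one

/-- **Local certificate, congruence form**: `q ≡ 5, 7 (mod 12)`, `q ∣ c₆`, semistable. -/
theorem modRepIsIrreducible_three_of_mod_twelve (W : WeierstrassCurve ℤ) (hΔ : W.Δ ≠ 0)
    (hW : W.IsSemistableModel) (q : ℕ) (hq : q.Prime) (h12 : q % 12 = 5 ∨ q % 12 = 7)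
    (hc6 : (q : ℤ) ∣ W.c₆) :
    W.ModRepIsIrreducible 3 :=
  modRepIsIrreducible_three_of_semistable W hΔ hW q hq (by omega) (by omega)
    (not_isSquare_three_of_mod_twelve q hq h12) hc6

end Fermat.Agent.S52.helper489
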