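/-
S52 (3-5 switch), leaf S52-MODEL + hypothesis-passing ENDGAME (helper712).

Pure `ℤ`-algebra, Mathlib + Prelude only.

* `perturb W d4 d6`      : the integral model `(a₁, a₂, a₃, a₄ + d4, a₆ + d6)`.
* `exists_perturb`       : targets `c4t ≡ c₄ (mod 576 M)`, `c6t ≡ c₆ (mod 864 M)` are realised by a
                           perturbation with both increments divisible by `M`.
* `reductionMod_perturb`, `apOfModel_perturb`, `dvd_Δ_perturb_iff`, `dvd_c₄_perturb_iff`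
                         : at the primes of `M` nothing changes.
* `isSemistableModel_perturb` : semistability is inherited, given "no common prime of `c₄, c₆`
                           outside `M`".
* `exists_den`           : a rational polynomial with integral constant term `c` takes integral
                           values `≡ c (mod K)` at the multiples of `D * K`.
* `endgame`              : the final assembly of the 3-5 switch from
                             (A1) the 5-congruence of the fibres of a polynomial family,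
                             (A2) no common prime of `c₄(t), c₆(t)` outside a finite set,
                             (A3) non-degeneracy of the family,
                             (B)  an auxiliary prime `q` with `3` a non-residue and a root of
                                  `c₆(t)` mod `q`,
                             (C)  the local certificate for irreducibility of the `3`-torsion.
-/
import Mathlib
import Fermat.Prelude.Def_FLTPrelim_Modularity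
import Fermat.Prelude.Def_FLTPrelim_ModularRep

set_option autoImplicit false

namespace Fermat.Agent.S52.helper712

open WeierstrassCurve Polynomial

/-- The integral model `(a₁, a₂, a₃, a₄ + d4, a₆ + d6)`. -/
def perturb (W : WeierstrassCurve ℤ) (d4 d6 : ℤ) : WeierstrassCurve ℤ :=
  ⟨W.a₁, W.a₂, W.a₃, W.a₄ + d4, W.a₆ + d6⟩

lemma perturb_c₄ (W : WeierstrassCurve ℤ) (d4 d6 : ℤ) :
    (perturb W d4 d6).c₄ = W.c₄ - 48 * d4 := by
  simp only [perturb, WeierstrassCurve.c₄, WeierstrassCurve.b₂, WeierstrassCurve.b₄]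
  ring

lemma perturb_c₆ (W : WeierstrassCurve ℤ) (d4 d6 : ℤ) :
    (perturb W d4 d6).c₆ = W.c₆ + 72 * W.b₂ * d4 - 864 * d6 := by
  simp only [perturb, WeierstrassCurve.c₆, WeierstrassCurve.b₂, WeierstrassCurve.b₄,
    WeierstrassCurve.b₆]
  ring

/-- (M1) Targets congruent to `c₄` mod `576 M` and to `c₆` mod `864 M` are the invariants of a
perturbation whose increments are divisible by `M`. -/
theorem exists_perturb (W : WeierstrassCurve ℤ) (M c4t c6t : ℤ)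
    (h4 : 576 * M ∣ c4t - W.c₄) (h6 : 864 * M ∣ c6t - W.c₆) :
    ∃ e4 e6 : ℤ, (perturb W (M * e4) (M * e6)).c₄ = c4t ∧
      (perturb W (M * e4) (M * e6)).c₆ = c6t := by
  obtain ⟨k4, hk4⟩ := h4
  obtain ⟨k6, hk6⟩ := h6
  refine ⟨-12 * k4, -(k6 + W.b₂ * k4), ?_, ?_⟩
  · rw [perturb_c₄]; linear_combination (-1 : ℤ) * hk4
  · rw [perturb_c₆]; linear_combination (-1 : ℤ) * hk6

/-- (M2) At a prime of `M` the reduction is unchanged. -/
lemma reductionMod_perturb (W : WeierstrassCurve ℤ) (M e4 e6 : ℤ) (p : ℕ)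
    (hp : (p : ℤ) ∣ M) :
    (perturb W (M * e4) (M * e6)).reductionMod p = W.reductionMod p := by
  have hM : ((M : ℤ) : ZMod p) = 0 := (ZMod.intCast_zmod_eq_zero_iff_dvd M p).mpr hp
  unfold WeierstrassCurve.reductionMod
  ext <;> simp [perturb, WeierstrassCurve.map, hM]

lemma apOfModel_perturb (W : WeierstrassCurve ℤ) (M e4 e6 : ℤ) (p : ℕ)
    (hp : (p : ℤ) ∣ M) :
    (perturb W (M * e4) (M * e6)).apOfModel p = W.apOfModel p := by
  unfold WeierstrassCurve.apOfModel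
  rw [reductionMod_perturb W M e4 e6 p hp]

lemma dvd_Δ_iff (W : WeierstrassCurve ℤ) (p : ℕ) :
    (p : ℤ) ∣ W.Δ ↔ (W.reductionMod p).Δ = 0 := by
  unfold WeierstrassCurve.reductionMod
  rw [WeierstrassCurve.map_Δ]
  exact (ZMod.intCast_zmod_eq_zero_iff_dvd W.Δ p).symm

lemma dvd_c₄_iff (W : WeierstrassCurve ℤ) (p : ℕ) :
    (p : ℤ) ∣ W.c₄ ↔ (W.reductionMod p).c₄ = 0 := by
  unfold WeierstrassCurve.reductionMod
  rw [WeierstrassCurve.map_c₄]
  exact (ZMod.intCast_zmod_eq_zero_iff_dvd W.c₄ p).symm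

lemma dvd_c₆_iff (W : WeierstrassCurve ℤ) (p : ℕ) :
    (p : ℤ) ∣ W.c₆ ↔ (W.reductionMod p).c₆ = 0 := by
  unfold WeierstrassCurve.reductionMod
  rw [WeierstrassCurve.map_c₆]
  exact (ZMod.intCast_zmod_eq_zero_iff_dvd W.c₆ p).symm

lemma dvd_Δ_perturb_iff (W : WeierstrassCurve ℤ) (M e4 e6 : ℤ) (p : ℕ) (hp : (p : ℤ) ∣ M) :
    (p : ℤ) ∣ (perturb W (M * e4) (M * e6)).Δ ↔ (p : ℤ) ∣ W.Δ := by
  rw [dvd_Δ_iff, dvd_Δ_iff, reductionMod_perturb W M e4 e6 p hp]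

lemma dvd_c₄_perturb_iff (W : WeierstrassCurve ℤ) (M e4 e6 : ℤ) (p : ℕ) (hp : (p : ℤ) ∣ M) :
    (p : ℤ) ∣ (perturb W (M * e4) (M * e6)).c₄ ↔ (p : ℤ) ∣ W.c₄ := by
  rw [dvd_c₄_iff, dvd_c₄_iff, reductionMod_perturb W M e4 e6 p hp]

lemma dvd_c₆_perturb_iff (W : WeierstrassCurve ℤ) (M e4 e6 : ℤ) (p : ℕ) (hp : (p : ℤ) ∣ M) :
    (p : ℤ) ∣ (perturb W (M * e4) (M * e6)).c₆ ↔ (p : ℤ) ∣ W.c₆ := by
  rw [dvd_c₆_iff, dvd_c₆_iff, reductionMod_perturb W M e4 e6 p hp]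

lemma isGoodPrimeFor_perturb_iff (W : WeierstrassCurve ℤ) (M e4 e6 : ℤ) (p : ℕ)
    (hp : (p : ℤ) ∣ M) :
    (perturb W (M * e4) (M * e6)).IsGoodPrimeFor p ↔ W.IsGoodPrimeFor p := by
  unfold WeierstrassCurve.IsGoodPrimeFor
  rw [dvd_Δ_perturb_iff W M e4 e6 p hp]

/-- For any integral model, a prime dividing `Δ` and `c₄` divides `c₆`. -/
lemma dvd_c₆_of_dvd_Δ_of_dvd_c₄ (W : WeierstrassCurve ℤ) (p : ℕ) (hp : p.Prime)
    (hΔ : (p : ℤ) ∣ W.Δ) (h4 : (p : ℤ) ∣ W.c₄) : (p : ℤ) ∣ W.c₆ := by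
  have hrel := W.c_relation
  have h2 : (p : ℤ) ∣ W.c₆ ^ 2 := by
    have e : W.c₆ ^ 2 = W.c₄ ^ 3 - 1728 * W.Δ := by linarith
    rw [e]
    exact dvd_sub (dvd_pow h4 (by norm_num)) (Dvd.dvd.mul_left hΔ _)
  exact Int.Prime.dvd_pow' hp h2

/-- (M3) Semistability is inherited by a perturbation that is trivial modulo `M`, provided
`c₄` and `c₆` of the new model have no common prime factor outside `M`. -/
theorem isSemistableModel_perturb (W : WeierstrassCurve ℤ) (hW : W.IsSemistableModel)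
    (M e4 e6 : ℤ)
    (hout : ∀ p : ℕ, p.Prime → ¬ (p : ℤ) ∣ M →
      ¬ ((p : ℤ) ∣ (perturb W (M * e4) (M * e6)).c₄ ∧
        (p : ℤ) ∣ (perturb W (M * e4) (M * e6)).c₆)) :
    (perturb W (M * e4) (M * e6)).IsSemistableModel := by
  intro p hp hΔ h4
  by_cases hpM : (p : ℤ) ∣ M
  · exact hW p hp ((dvd_Δ_perturb_iff W M e4 e6 p hpM).mp hΔ)
      ((dvd_c₄_perturb_iff W M e4 e6 p hpM).mp h4)
  · exact hout p hp hpM ⟨h4, dvd_c₆_of_dvd_Δ_of_dvd_c₄ _ p hp hΔ h4⟩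

lemma Δ_ne_zero_of_c (W : WeierstrassCurve ℤ) (h : W.c₄ ^ 3 ≠ W.c₆ ^ 2) : W.Δ ≠ 0 := by
  intro h0
  have hrel := W.c_relation
  rw [h0, mul_zero] at hrel
  exact h (by linarith)

/-- Clearing denominators of the values of a rational polynomial at integers. -/
lemma exists_den_aux (R : ℚ[X]) :
    ∃ D : ℤ, 0 < D ∧ ∀ x : ℤ, ∃ z : ℤ, (D : ℚ) * R.eval (x : ℚ) = z := by
  induction R using Polynomial.induction_on with
  | C a =>
    refine ⟨a.den, by exact_mod_cast a.den_pos, fun x => ⟨a.num, ?_⟩⟩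
    rw [eval_C]
    have := Rat.den_mul_eq_num a
    exact_mod_cast this
  | add p q hp hq =>
    obtain ⟨D1, hD1, h1⟩ := hp
    obtain ⟨D2, hD2, h2⟩ := hq
    refine ⟨D1 * D2, mul_pos hD1 hD2, fun x => ?_⟩
    obtain ⟨z1, hz1⟩ := h1 x
    obtain ⟨z2, hz2⟩ := h2 x
    refine ⟨D2 * z1 + D1 * z2, ?_⟩
    rw [eval_add]
    push_cast
    linear_combination (D2 : ℚ) * hz1 + (D1 : ℚ) * hz2
  | monomial n a h =>
    obtain ⟨D, hD, h1⟩ := h
    refine ⟨D, hD, fun x => ?_⟩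
    obtain ⟨z, hz⟩ := h1 x
    refine ⟨z * x, ?_⟩
    simp only [eval_mul, eval_C, eval_pow, eval_X] at hz ⊢
    push_cast
    linear_combination (x : ℚ) * hz

/-- (M5) A rational polynomial with integral constant term `c` takes integral values congruent
to `c` modulo `K` at all multiples of `D * K`. -/
theorem exists_den (P : ℚ[X]) (c : ℤ) (h0 : P.eval 0 = (c : ℚ)) :
    ∃ D : ℤ, 0 < D ∧ ∀ K s : ℤ, ∃ z : ℤ,
      P.eval (((D * K * s : ℤ)) : ℚ) = ((c + K * z : ℤ) : ℚ) := by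
  obtain ⟨D, hD, h⟩ := exists_den_aux P.divX
  refine ⟨D, hD, fun K s => ?_⟩
  obtain ⟨z, hz⟩ := h (D * K * s)
  refine ⟨s * z, ?_⟩
  have hP : P = P.divX * X + C (c : ℚ) := by
    have h1 := Polynomial.divX_mul_X_add P
    rw [Polynomial.coeff_zero_eq_eval_zero, h0] at h1
    exact h1.symm
  have key : ∀ x : ℚ, P.eval x = P.divX.eval x * x + (c : ℚ) := by
    intro x
    conv_lhs => rw [hP]
    simp only [eval_add, eval_mul, eval_X, eval_C]
  rw [key]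
  push_cast at hz ⊢
  linear_combination (K : ℚ) * (s : ℚ) * hz

/-- A prime not dividing `30` is at least `7`. -/
lemma seven_le_of_prime_of_not_dvd (ℓ : ℕ) (hℓ : ℓ.Prime) (h : ¬ (ℓ : ℤ) ∣ 30) : 7 ≤ ℓ := by
  by_contra hlt
  push Not at hlt
  interval_cases ℓ
  · exact Nat.not_prime_zero hℓ
  · exact Nat.not_prime_one hℓ
  · exact h (by norm_num)
  · exact h (by norm_num)
  · exact absurd hℓ (by norm_num)
  · exact h (by norm_num)
  · exact absurd hℓ (by norm_num)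

/-- **Endgame of the 3-5 switch** (hypothesis-passing).

`C4, C6 : ℚ[X]` is a polynomial family through `W` (`C4(0) = c₄(W)`, `C6(0) = c₆(W)`).
* `hA1` : every integral model with invariants `(C4(t), C6(t))`, `t : ℤ`, is `5`-congruent to
  `W` at the common good primes `ℓ ≥ 7`;
* `hA2` : outside a finite set of primes, integral values `C4(t), C6(t)` have no common prime;
* `hA3` : the family is not degenerate;
* `hB`  : auxiliary primes: outside any finite set there is a prime `q` with `3` a non-residue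
  and a residue class `tq` mod `q` on which `q ∣ C6(t)`, `q ∤ C4(t)`;
* `hC`  : the local certificate for irreducibility of the `3`-torsion.
-/
theorem endgame (W : WeierstrassCurve ℤ) (hW : W.IsSemistableModel)
    (C4 C6 : ℚ[X]) (h04 : C4.eval 0 = (W.c₄ : ℚ)) (h06 : C6.eval 0 = (W.c₆ : ℚ))
    (hA1 : ∀ (t : ℤ) (W' : WeierstrassCurve ℤ), W'.Δ ≠ 0 →
      (W'.c₄ : ℚ) = C4.eval (t : ℚ) → (W'.c₆ : ℚ) = C6.eval (t : ℚ) →
      ∀ ℓ : ℕ, ℓ.Prime → 7 ≤ ℓ → W.IsGoodPrimeFor ℓ → W'.IsGoodPrimeFor ℓ →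
        (5 : ℤ) ∣ (W'.apOfModel ℓ - W.apOfModel ℓ))
    (hA2 : ∃ N₀ : ℤ, N₀ ≠ 0 ∧ ∀ t z₄ z₆ : ℤ, C4.eval (t : ℚ) = (z₄ : ℚ) →
      C6.eval (t : ℚ) = (z₆ : ℚ) → ∀ p : ℕ, p.Prime → ¬ (p : ℤ) ∣ N₀ →
        ¬ ((p : ℤ) ∣ z₄ ∧ (p : ℤ) ∣ z₆))
    (hA3 : C4 ^ 3 - C6 ^ 2 ≠ 0)
    (hB : ∀ N₁ : ℤ, N₁ ≠ 0 → ∃ (q : ℕ) (tq : ℤ), q.Prime ∧ ¬ (q : ℤ) ∣ N₁ ∧
      ¬ IsSquare (3 : ZMod q) ∧ ∀ t z₄ z₆ : ℤ, t ≡ tq [ZMOD q] →
        C4.eval (t : ℚ) = (z₄ : ℚ) → C6.eval (t : ℚ) = (z₆ : ℚ) →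
          (q : ℤ) ∣ z₆ ∧ ¬ (q : ℤ) ∣ z₄)
    (hC : ∀ (W' : WeierstrassCurve ℤ) (q : ℕ), q.Prime → q ≠ 2 → q ≠ 3 → W'.Δ ≠ 0 →
      ¬ IsSquare (3 : ZMod q) → (q : ℤ) ∣ W'.c₆ → ¬ (q : ℤ) ∣ W'.c₄ →
        W'.ModRepIsIrreducible 3) :
    ∃ W' : WeierstrassCurve ℤ, W'.Δ ≠ 0 ∧ W'.IsSemistableModel ∧ W'.ModRepIsIrreducible 3 ∧
      ∀ ℓ : ℕ, ℓ.Prime → W.IsGoodPrimeFor ℓ → W'.IsGoodPrimeFor ℓ → ℓ ≠ 5 →
        (5 : ℤ) ∣ (W'.apOfModel ℓ - W.apOfModel ℓ) := by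
  obtain ⟨D4, hD4, hP4⟩ := exists_den C4 W.c₄ h04
  obtain ⟨D6, hD6, hP6⟩ := exists_den C6 W.c₆ h06
  obtain ⟨N₀, hN₀, hA2'⟩ := hA2
  set M : ℤ := 30 * N₀ with hM
  have hM0 : M ≠ 0 := mul_ne_zero (by norm_num) hN₀
  set K : ℤ := 1728 * M with hK
  have hK0 : K ≠ 0 := mul_ne_zero (by norm_num) hM0
  set L : ℤ := D4 * D6 * K with hL
  have hL0 : L ≠ 0 := mul_ne_zero (mul_ne_zero hD4.ne' hD6.ne') hK0
  obtain ⟨q, tq, hq, hqL, h3, hBq⟩ := hB L hL0
  have : Fact q.Prime := ⟨hq⟩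
  -- solve `L * s₀ ≡ tq (mod q)`
  have hLq : ((L : ℤ) : ZMod q) ≠ 0 := fun h =>
    hqL ((ZMod.intCast_zmod_eq_zero_iff_dvd L q).mp h)
  obtain ⟨s₀, hs₀⟩ : ∃ s₀ : ℤ, L * s₀ ≡ tq [ZMOD q] := by
    refine ⟨((((L : ℤ) : ZMod q)⁻¹ * ((tq : ℤ) : ZMod q)).val : ℤ), ?_⟩
    rw [← ZMod.intCast_eq_intCast_iff]
    push_cast
    rw [ZMod.natCast_val, ZMod.cast_id', id, ← mul_assoc, mul_inv_cancel₀ hLq, one_mul]
  -- the admissible parameters
  set tt : ℕ → ℤ := fun j => L * (s₀ + q * j) with htt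
  have htt_mod : ∀ j, tt j ≡ tq [ZMOD q] := by
    intro j
    have h1 : tt j = L * s₀ + q * (L * j) := by simp only [htt]; ring
    rw [h1]
    calc L * s₀ + q * (L * j) ≡ L * s₀ + 0 [ZMOD q] :=
          Int.ModEq.add_left _ ((Int.modEq_zero_iff_dvd).mpr (dvd_mul_right _ _))
      _ = L * s₀ := by ring
      _ ≡ tq [ZMOD q] := hs₀
  have hq0 : (q : ℤ) ≠ 0 := by exact_mod_cast hq.ne_zero
  have htt_inj : Function.Injective (fun j : ℕ => ((tt j : ℤ) : ℚ)) := by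
    intro i j hij
    have h0 : ((tt i : ℤ) : ℚ) = ((tt j : ℤ) : ℚ) := hij
    have h1 : tt i = tt j := by exact_mod_cast h0
    simp only [htt] at h1
    have h2 : (s₀ + q * (i : ℤ)) = s₀ + q * (j : ℤ) := mul_left_cancel₀ hL0 h1
    have h3 : (q : ℤ) * (i : ℤ) = q * (j : ℤ) := by linarith
    exact_mod_cast mul_left_cancel₀ hq0 h3
  -- choose `j` with non-vanishing discriminant
  obtain ⟨j, hj⟩ : ∃ j : ℕ, (C4 ^ 3 - C6 ^ 2).eval ((tt j : ℤ) : ℚ) ≠ 0 := by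
    by_contra hcon
    push Not at hcon
    exact hA3 (Polynomial.eq_zero_of_infinite_isRoot _
      (Set.infinite_of_injective_forall_mem htt_inj hcon))
  set t : ℤ := tt j with ht
  have htq : t ≡ tq [ZMOD q] := htt_mod j
  -- integrality of the values
  obtain ⟨z4, hz4⟩ := hP4 K (D6 * (s₀ + q * j))
  obtain ⟨z6, hz6⟩ := hP6 K (D4 * (s₀ + q * j))
  have e4 : D4 * K * (D6 * (s₀ + q * j)) = t := by simp only [ht, htt, hL]; ring
  have e6 : D6 * K * (D4 * (s₀ + q * j)) = t := by simp only [ht, htt, hL]; ring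
  rw [e4] at hz4
  rw [e6] at hz6
  set c4t : ℤ := W.c₄ + K * z4 with hc4t
  set c6t : ℤ := W.c₆ + K * z6 with hc6t
  obtain ⟨e4', e6', hW4, hW6⟩ := exists_perturb W M c4t c6t
    ⟨3 * z4, by simp only [hc4t, hK]; ring⟩ ⟨2 * z6, by simp only [hc6t, hK]; ring⟩
  set W' : WeierstrassCurve ℤ := perturb W (M * e4') (M * e6') with hW'
  have hΔ' : W'.Δ ≠ 0 := by
    apply Δ_ne_zero_of_c
    rw [hW4, hW6]
    intro hcon
    apply hj
    rw [eval_sub, eval_pow, eval_pow, hz4, hz6]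
    have : ((c4t : ℤ) : ℚ) ^ 3 = ((c6t : ℤ) : ℚ) ^ 2 := by exact_mod_cast hcon
    rw [this, sub_self]
  have h4Q : (W'.c₄ : ℚ) = C4.eval (t : ℚ) := by rw [hW4, hz4]
  have h6Q : (W'.c₆ : ℚ) = C6.eval (t : ℚ) := by rw [hW6, hz6]
  have hN₀M : N₀ ∣ M := Dvd.intro_left _ rfl
  have h30M : (30 : ℤ) ∣ M := Dvd.intro _ rfl
  refine ⟨W', hΔ', ?_, ?_, ?_⟩
  · -- semistable
    apply isSemistableModel_perturb W hW M e4' e6'
    intro p hp hpM
    rw [← hW', hW4, hW6]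
    exact hA2' t c4t c6t hz4 hz6 p hp (fun h => hpM (dvd_trans h hN₀M))
  · -- irreducible 3-torsion
    obtain ⟨hq6, hq4⟩ := hBq t c4t c6t htq hz4 hz6
    have h2L : (2 : ℤ) ∣ L := by
      refine Dvd.dvd.mul_left ?_ _
      exact ⟨864 * M, by simp only [hK]; ring⟩
    have h3L : (3 : ℤ) ∣ L := by
      refine Dvd.dvd.mul_left ?_ _
      exact ⟨576 * M, by simp only [hK]; ring⟩
    have hq2 : q ≠ 2 := by
      rintro rfl
      exact hqL (by exact_mod_cast h2L)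
    have hq3 : q ≠ 3 := by
      rintro rfl
      exact hqL (by exact_mod_cast h3L)
    exact hC W' q hq hq2 hq3 hΔ' h3 (by rw [hW6]; exact hq6) (by rw [hW4]; exact hq4)
  · -- the congruence of the `a_ℓ`
    intro ℓ hℓ hg hg' _
    by_cases hℓM : (ℓ : ℤ) ∣ M
    · rw [hW', apOfModel_perturb W M e4' e6' ℓ hℓM, sub_self]
      exact dvd_zero _
    · have h7 : 7 ≤ ℓ :=
        seven_le_of_prime_of_not_dvd ℓ hℓ (fun h => hℓM (dvd_trans h h30M))
      exact hA1 t W' hΔ' h4Q h6Q ℓ hℓ h7 hg hg'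

end Fermat.Agent.S52.helper712
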