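/-
S52 (3–5 switch) — captain's MIDDLE-LAYER SPEC for the direct ("local") route  (helper352).

Top assembly = `Fermat.Agent.S52.helper712.endgame` (on main).  This file fixes the canonical
normalisation of the Klein pencil and states the remaining inputs as `Prop`-valued leaves:

* Klein forms `kF, kH, kT` : `Fermat.Agent.S52.helper424` (on main), `kT² + kH³ = 1728 kF⁵`.
* curve of a Klein parameter `w = (u, v)` : `shortModel (-kH w) (-kT w)`
  (`Y² = X³ + 27 kH X + 54 kT`), `shortModel` from `helper2033_ShortForm`.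
* canonical pencil (degree 11) : `pen t (u, v) = (u + t f_v, v - t f_u)`.

Leaves (hypothesis-passing):
* `Stmt_Loc`   : the purely local `a_ℓ`-congruence over `ZMod ℓ`, `ℓ ≥ 7` (L3 over `F̄_ℓ` + Frobenius
                 Cayley–Hamilton).  No `ℚ̄`, no reduction map, no explicit family polynomials.
* `Stmt_W0`    : existence of Klein parameters over algebraically closed fields
                 (= `helper424.exists_klein_param`, proved below as `stmt_W0`).
* `Stmt_Short` : `apOfModel ℓ` of an integral model is the Frobenius trace of its short model.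
* `IsPencilData c4 c6 C4 C6` : the family polynomials `C4, C6 : ℤ[X]` compute `-kH, -kT` along the
                 pencil (LINK identities of the DATA block), with values `c4, c6` at `0`.
* `Stmt_Coprime C4 C6`, `Stmt_AuxP C4 C6` : the two remaining inputs of `helper712.endgame`.

Glue proved here: `cong_of` (`Stmt_Loc + Stmt_W0 + Stmt_Short + IsPencilData ⟹ hA1`) and
`switch_of` (everything ⟹ the frozen S52 statement, including the trivial branch).
-/
import Mathlib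
import Fermat.Prelude.Def_FLTPrelim_Modularity
import Fermat.Prelude.Def_FLTPrelim_ModularRep
import Fermat.Agent.S52.helper424_KleinExist
import Fermat.Agent.S52.helper2033_ShortForm
import Fermat.Agent.S52.helper712_ModelPerturb
import Fermat.Agent.S52.helper489_PsiThree

set_option autoImplicit false

namespace Fermat.Agent.S52.helper352

open Polynomial WeierstrassCurve
open Fermat.Agent.S52.helper424 (kF kH kT)
open Fermat.Agent.S52.helper2033 (shortModel)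

/-! ### The canonical pencil -/

section Pencil

variable {R : Type*} [CommRing R]

/-- `∂f/∂u` for the Klein form `f = kF`. -/
def kFu (u v : R) : R := 11 * u ^ 10 * v + 66 * u ^ 5 * v ^ 6 - v ^ 11

/-- `∂f/∂v` for the Klein form `f = kF`. -/
def kFv (u v : R) : R := u ^ 11 + 66 * u ^ 6 * v ^ 5 - 11 * u * v ^ 10

/-- First coordinate of the canonical pencil `pen t (u, v) = (u + t f_v, v - t f_u)`. -/
def penU (t u v : R) : R := u + t * kFv u v

/-- Second coordinate of the canonical pencil. -/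
def penV (t u v : R) : R := v - t * kFu u v

theorem penU_zero (u v : R) : penU 0 u v = u := by simp [penU]

theorem penV_zero (u v : R) : penV 0 u v = v := by simp [penV]

/-- Euler's identity for `kF` (degree 12). -/
theorem euler_kF (u v : R) : u * kFu u v + v * kFv u v = 12 * kF u v := by
  simp only [kFu, kFv, kF]; ring

/-- The pencil in "`u·α, v·β`" form: `penU = u * α`, with `α` a polynomial in `u⁵, v⁵, t`. -/
theorem penU_eq (t u v : R) :
    penU t u v = u * (1 + t * (u ^ 10 + 66 * u ^ 5 * v ^ 5 - 11 * v ^ 10)) := by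
  simp only [penU, kFv]; ring

theorem penV_eq (t u v : R) :
    penV t u v = v * (1 - t * (11 * u ^ 10 + 66 * u ^ 5 * v ^ 5 - v ^ 10)) := by
  simp only [penV, kFu]; ring

end Pencil

/-! ### Leaves -/

/-- **(LOC)** The local 5-congruence along the pencil, over `ZMod ℓ`, `ℓ ≥ 7`.
`a, b` resp. `a', b'` play the role of `(c₄, c₆)` of the two curves. -/
def Stmt_Loc : Prop :=
  ∀ (ℓ : ℕ) [Fact ℓ.Prime], 7 ≤ ℓ → ∀ (a b a' b' t : ZMod ℓ) (u v : AlgebraicClosure (ZMod ℓ)),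
    kH u v = -algebraMap (ZMod ℓ) (AlgebraicClosure (ZMod ℓ)) a →
    kT u v = -algebraMap (ZMod ℓ) (AlgebraicClosure (ZMod ℓ)) b →
    kH (penU (algebraMap (ZMod ℓ) (AlgebraicClosure (ZMod ℓ)) t) u v)
        (penV (algebraMap (ZMod ℓ) (AlgebraicClosure (ZMod ℓ)) t) u v)
      = -algebraMap (ZMod ℓ) (AlgebraicClosure (ZMod ℓ)) a' →
    kT (penU (algebraMap (ZMod ℓ) (AlgebraicClosure (ZMod ℓ)) t) u v)
        (penV (algebraMap (ZMod ℓ) (AlgebraicClosure (ZMod ℓ)) t) u v)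
      = -algebraMap (ZMod ℓ) (AlgebraicClosure (ZMod ℓ)) b' →
    a ^ 3 - b ^ 2 ≠ 0 → a' ^ 3 - b' ^ 2 ≠ 0 →
    (5 : ℤ) ∣ (shortModel a' b').traceOfFrobenius - (shortModel a b).traceOfFrobenius

/-- **(W0)** Existence of a Klein parameter over an algebraically closed field with `30 ≠ 0`. -/
def Stmt_W0 : Prop :=
  ∀ (K : Type) [Field K] [IsAlgClosed K], (2 : K) ≠ 0 → (3 : K) ≠ 0 → (5 : K) ≠ 0 →
    ∀ c4 c6 : K, c4 ^ 3 - c6 ^ 2 ≠ 0 → ∃ u v : K, kH u v = -c4 ∧ kT u v = -c6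

theorem stmt_W0 : Stmt_W0 := by
  intro K _ _ h2 h3 h5 c4 c6 hΔ
  obtain ⟨u, v, hH, hT, -, -⟩ := Fermat.Agent.S52.helper424.exists_klein_param h2 h3 h5 c4 c6 hΔ
  exact ⟨u, v, hH, hT⟩

/-- **(SHORT)** For `ℓ ≥ 5` good, `apOfModel ℓ` of an integral model is the Frobenius trace of the
short model `Y² = X³ - 27 c₄ X - 54 c₆` over `ZMod ℓ`. -/
def Stmt_Short : Prop :=
  ∀ (W : WeierstrassCurve ℤ) (ℓ : ℕ) [Fact ℓ.Prime], 5 ≤ ℓ → W.IsGoodPrimeFor ℓ →
    W.apOfModel ℓ = (shortModel ((W.c₄ : ℤ) : ZMod ℓ) ((W.c₆ : ℤ) : ZMod ℓ)).traceOfFrobenius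

/-- **(DATA / LINK)** `C4, C6 : ℤ[X]` are the family polynomials of the canonical pencil through a
curve with invariants `c4, c6`: over every field with `6 ≠ 0`, if `(kH, kT)(u, v) = (-c4, -c6)`
then `(kH, kT)(pen t (u, v)) = (-C4(t), -C6(t))`; and `C4(0) = c4`, `C6(0) = c6`. -/
def IsPencilData (c4 c6 : ℤ) (C4 C6 : ℤ[X]) : Prop :=
  C4.eval 0 = c4 ∧ C6.eval 0 = c6 ∧
  ∀ (K : Type) [Field K], (2 : K) ≠ 0 → (3 : K) ≠ 0 → ∀ u v t : K,
    kH u v = -(c4 : K) → kT u v = -(c6 : K) →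
      kH (penU t u v) (penV t u v) = -(aeval t C4 : K) ∧
      kT (penU t u v) (penV t u v) = -(aeval t C6 : K)

/-- **(COPRIME)** = `hA2` of `helper712.endgame`: no common prime of `C4(t), C6(t)` outside a
finite set. -/
def Stmt_Coprime (C4 C6 : ℤ[X]) : Prop :=
  ∃ N₀ : ℤ, N₀ ≠ 0 ∧ ∀ (t : ℤ) (p : ℕ), p.Prime → ¬ (p : ℤ) ∣ N₀ →
    ¬ ((p : ℤ) ∣ C4.eval t ∧ (p : ℤ) ∣ C6.eval t)

/-- **(AUXP)** = `hB` of `helper712.endgame`: auxiliary primes `q` (avoiding any given modulus)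
with `3` a non-residue and a parameter `tq` with `q ∣ C6(tq)`, `q ∤ C4(tq)`. -/
def Stmt_AuxP (C4 C6 : ℤ[X]) : Prop :=
  ∀ N₁ : ℤ, N₁ ≠ 0 → ∃ (q : ℕ) (tq : ℤ), q.Prime ∧ ¬ (q : ℤ) ∣ N₁ ∧ ¬ IsSquare (3 : ZMod q) ∧
    (q : ℤ) ∣ C6.eval tq ∧ ¬ (q : ℤ) ∣ C4.eval tq

/-- What the DATA + AUXP blocks deliver for every semistable `W`. -/
def Stmt_Family : Prop :=
  ∀ W : WeierstrassCurve ℤ, W.Δ ≠ 0 → W.IsSemistableModel → ¬ W.ModRepIsIrreducible 3 →
    ∃ C4 C6 : ℤ[X], IsPencilData W.c₄ W.c₆ C4 C6 ∧ Stmt_Coprime C4 C6 ∧ Stmt_AuxP C4 C6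

/-- The frozen S52 statement. -/
def Goal_S52 : Prop :=
  ∀ (W : WeierstrassCurve ℤ), W.Δ ≠ 0 → W.IsSemistableModel → W.ModRepIsIrreducible 5 →
    ∃ W' : WeierstrassCurve ℤ, W'.Δ ≠ 0 ∧ W'.IsSemistableModel ∧ W'.ModRepIsIrreducible 3 ∧
      ∀ ℓ : ℕ, ℓ.Prime → W.IsGoodPrimeFor ℓ → W'.IsGoodPrimeFor ℓ → ℓ ≠ 5 →
        (5 : ℤ) ∣ (W'.apOfModel ℓ - W.apOfModel ℓ)

/-! ### Glue -/

private lemma eval_map_intCast (C : ℤ[X]) (t : ℤ) :
    (C.map (Int.castRingHom ℚ)).eval (t : ℚ) = ((C.eval t : ℤ) : ℚ) := by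
  rw [Polynomial.eval_intCast_map]; rfl

private lemma aeval_intCast_field {K : Type} [Field K] (C : ℤ[X]) (t : ℤ) :
    (aeval ((t : ℤ) : K) C : K) = ((C.eval t : ℤ) : K) := by
  have h := Polynomial.aeval_algebraMap_apply K t C
  simpa [eq_intCast, Polynomial.coe_aeval_eq_eval] using h

private lemma dvd_eval_of_modEq (C : ℤ[X]) (q : ℤ) {t tq : ℤ} (h : t ≡ tq [ZMOD q]) :
    q ∣ C.eval t - C.eval tq :=
  (Int.ModEq.dvd h.symm).trans (Polynomial.sub_dvd_eval_sub t tq C)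

/-- **GLUE (hA1).** `Stmt_Loc + Stmt_Short + LINK ⟹` the 5-congruence of `a_ℓ` (`ℓ ≥ 7`) for every
integral model whose invariants are values of the family polynomials. -/
theorem cong_of (hLoc : Stmt_Loc) (hShort : Stmt_Short) (W : WeierstrassCurve ℤ)
    (C4 C6 : ℤ[X]) (hdata : IsPencilData W.c₄ W.c₆ C4 C6) :
    ∀ (t : ℤ) (W' : WeierstrassCurve ℤ), W'.c₄ = C4.eval t → W'.c₆ = C6.eval t →
      ∀ ℓ : ℕ, ℓ.Prime → 7 ≤ ℓ → W.IsGoodPrimeFor ℓ → W'.IsGoodPrimeFor ℓ →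
        (5 : ℤ) ∣ (W'.apOfModel ℓ - W.apOfModel ℓ) := by
  intro t W' h4 h6 ℓ hℓ h7 hg hg'
  have : Fact ℓ.Prime := ⟨hℓ⟩
  have hchar : ∀ n : ℕ, 0 < n → n < ℓ → ((n : ℕ) : AlgebraicClosure (ZMod ℓ)) ≠ 0 := by
    intro n hn0 hnl h
    rw [CharP.cast_eq_zero_iff (AlgebraicClosure (ZMod ℓ)) ℓ] at h
    exact absurd (Nat.le_of_dvd hn0 h) (not_le.mpr hnl)
  have h2 : (2 : AlgebraicClosure (ZMod ℓ)) ≠ 0 := by
    have := hchar 2 (by norm_num) (by omega); simpa using this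
  have h3 : (3 : AlgebraicClosure (ZMod ℓ)) ≠ 0 := by
    have := hchar 3 (by norm_num) (by omega); simpa using this
  have h5 : (5 : AlgebraicClosure (ZMod ℓ)) ≠ 0 := by
    have := hchar 5 (by norm_num) (by omega); simpa using this
  -- discriminants are nonzero mod `ℓ`
  have hdisc : ∀ V : WeierstrassCurve ℤ, V.IsGoodPrimeFor ℓ →
      ((V.c₄ : ℤ) : ZMod ℓ) ^ 3 - ((V.c₆ : ℤ) : ZMod ℓ) ^ 2 ≠ 0 := by
    intro V hV h0
    have h1 : (((V.c₄ ^ 3 - V.c₆ ^ 2 : ℤ)) : ZMod ℓ) = 0 := by push_cast; exact h0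
    rw [ZMod.intCast_zmod_eq_zero_iff_dvd, ← V.c_relation] at h1
    have hℓ' : Prime (ℓ : ℤ) := Nat.prime_iff_prime_int.mp hℓ
    rcases hℓ'.dvd_or_dvd h1 with h | h
    · have h1728 : (ℓ : ℤ) ∣ 2 ^ 6 * 3 ^ 3 := by norm_num; exact h
      rcases hℓ'.dvd_or_dvd h1728 with h | h
      · have := hℓ'.dvd_of_dvd_pow h
        have : ℓ ∣ 2 := by exact_mod_cast this
        have := Nat.le_of_dvd (by norm_num) this
        omega
      · have := hℓ'.dvd_of_dvd_pow h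
        have : ℓ ∣ 3 := by exact_mod_cast this
        have := Nat.le_of_dvd (by norm_num) this
        omega
    · exact hV h
  have hab := hdisc W hg
  have hab' := hdisc W' hg'
  obtain ⟨u, v, hH, hT⟩ := stmt_W0 (AlgebraicClosure (ZMod ℓ)) h2 h3 h5
    (algebraMap (ZMod ℓ) (AlgebraicClosure (ZMod ℓ)) ((W.c₄ : ℤ) : ZMod ℓ))
    (algebraMap (ZMod ℓ) (AlgebraicClosure (ZMod ℓ)) ((W.c₆ : ℤ) : ZMod ℓ))
    (by
      rw [← map_pow, ← map_pow, ← map_sub]
      exact fun h => hab ((injective_iff_map_eq_zero _).mp (algebraMap (ZMod ℓ)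
        (AlgebraicClosure (ZMod ℓ))).injective _ h))
  obtain ⟨-, -, hlink⟩ := hdata
  obtain ⟨hH', hT'⟩ := hlink (AlgebraicClosure (ZMod ℓ)) h2 h3 u v
    ((t : ℤ) : AlgebraicClosure (ZMod ℓ)) (by rw [hH, map_intCast]) (by rw [hT, map_intCast])
  rw [aeval_intCast_field, ← h4] at hH'
  rw [aeval_intCast_field, ← h6] at hT'
  have key := hLoc ℓ h7 ((W.c₄ : ℤ) : ZMod ℓ) ((W.c₆ : ℤ) : ZMod ℓ) ((W'.c₄ : ℤ) : ZMod ℓ)
    ((W'.c₆ : ℤ) : ZMod ℓ) ((t : ℤ) : ZMod ℓ) u v hH hT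
    (by rw [map_intCast, map_intCast]; exact hH') (by rw [map_intCast, map_intCast]; exact hT')
    hab hab'
  rw [hShort W ℓ (by omega) hg, hShort W' ℓ (by omega) hg']
  exact key

/-- **FINAL GLUE.** The frozen S52 statement from `Stmt_Loc`, `Stmt_Short` and `Stmt_Family`
(top assembly `helper712.endgame`, certificate `helper489`, trivial branch `W' = W`). -/
theorem switch_of (hLoc : Stmt_Loc) (hShort : Stmt_Short) (hFam : Stmt_Family) : Goal_S52 := by
  intro W hΔ hW _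
  by_cases h3 : W.ModRepIsIrreducible 3
  · exact ⟨W, hΔ, hW, h3, fun ℓ _ _ _ _ => by simp⟩
  obtain ⟨C4, C6, hdata, ⟨N₀, hN₀, hcop⟩, haux⟩ := hFam W hΔ hW h3
  have hA1 := cong_of hLoc hShort W C4 C6 hdata
  obtain ⟨h04, h06, -⟩ := hdata
  have e0 : ∀ C : ℤ[X], (C.map (Int.castRingHom ℚ)).eval 0 = ((C.eval 0 : ℤ) : ℚ) := by
    intro C
    have h := eval_map_intCast C 0
    rw [Int.cast_zero] at h
    exact h
  refine Fermat.Agent.S52.helper712.endgame W hW (C4.map (Int.castRingHom ℚ))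
    (C6.map (Int.castRingHom ℚ)) ?_ ?_ ?_ ?_ ?_ ?_ ?_
  · rw [e0, h04]
  · rw [e0, h06]
  · intro t W' _ h4 h6
    rw [eval_map_intCast] at h4 h6
    exact hA1 t W' (by exact_mod_cast h4) (by exact_mod_cast h6)
  · refine ⟨N₀, hN₀, ?_⟩
    intro t z₄ z₆ h4 h6 p hp hpN
    rw [eval_map_intCast] at h4 h6
    have h4' : C4.eval t = z₄ := by exact_mod_cast h4
    have h6' : C6.eval t = z₆ := by exact_mod_cast h6
    rw [← h4', ← h6']
    exact hcop t p hp hpN
  · intro h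
    have h' := congrArg (Polynomial.eval (0 : ℚ)) h
    rw [Polynomial.eval_sub, Polynomial.eval_pow, Polynomial.eval_pow, e0, e0, h04, h06,
      Polynomial.eval_zero] at h'
    have h'' : (W.c₄ : ℤ) ^ 3 - W.c₆ ^ 2 = 0 := by exact_mod_cast h'
    rw [← W.c_relation] at h''
    exact hΔ (by simpa using h'')
  · intro N₁ hN₁
    obtain ⟨q, tq, hq, hqN, hsq, hq6, hq4⟩ := haux N₁ hN₁
    refine ⟨q, tq, hq, hqN, hsq, ?_⟩
    intro t z₄ z₆ ht h4 h6
    rw [eval_map_intCast] at h4 h6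
    have h4' : C4.eval t = z₄ := by exact_mod_cast h4
    have h6' : C6.eval t = z₆ := by exact_mod_cast h6
    rw [← h4', ← h6']
    have d6 := dvd_eval_of_modEq C6 (q : ℤ) ht
    have d4 := dvd_eval_of_modEq C4 (q : ℤ) ht
    refine ⟨?_, fun h => hq4 ?_⟩
    · have := dvd_add d6 hq6
      simpa using this
    · have := dvd_sub h d4
      simpa using this
  · intro W' q hq hq2 hq3 hΔ' hsq h6 h4
    exact Fermat.Agent.S52.helper489.modRepIsIrreducible_three_of_prime W' hΔ' q hq hq2 hq3 hsq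
      h6 h4

end Fermat.Agent.S52.helper352
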