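import Mathlib
import Fermat.Agent.S52.helper352_Spec
import Fermat.Agent.S52.helper135_PencilCore

/-!
# S52: LINK identities for the canonical (degree-11) pencil and `IsPencilData`

With the explicit integer polynomials `Phi4`, `Phi6` of `helper135_PencilData`:

* `kH_pen : kH (penU t u v) (penV t u v) = -Phi4 (-kH u v) (-kT u v) t`,
* `kT_pen : kT (penU t u v) (penV t u v) = -Phi6 (-kH u v) (-kT u v) t`
  over every commutative ring (`penU`, `penV` = the captain's canonical pencil, `helper352`),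
* `isPencilData c4 c6 : helper352.IsPencilData c4 c6 (Phi4Poly c4 c6) (Phi6Poly c4 c6)`.
-/

set_option autoImplicit false

namespace Fermat.Agent.S52.helper135

open Polynomial
open Fermat.Agent.S52.helper424 (kF kH kT)
open Fermat.Agent.S52.helper352 (penU penV kFu kFv)

section Link

variable {R : Type*} [CommRing R]

theorem kH_eq_hhf (u v : R) : kH u v = hhf (u ^ 5) (v ^ 5) := by
  simp only [kH, hhf]; ring

theorem kT_eq_ttf (u v : R) : kT u v = ttf (u ^ 5) (v ^ 5) := by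
  simp only [kT, ttf]; ring

theorem kH_mul (u v x y : R) : kH (u * x) (v * y) = hhf (u ^ 5 * x ^ 5) (v ^ 5 * y ^ 5) := by
  simp only [kH, hhf]; ring

theorem kT_mul (u v x y : R) : kT (u * x) (v * y) = ttf (u ^ 5 * x ^ 5) (v ^ 5 * y ^ 5) := by
  simp only [kT, ttf]; ring

theorem penU_eq' (t u v : R) :
    penU t u v = u * (1 + t * ((u ^ 5) ^ 2 + 66 * u ^ 5 * v ^ 5 - 11 * (v ^ 5) ^ 2)) := by
  simp only [penU, kFv]; ring

theorem penV_eq' (t u v : R) :
    penV t u v = v * (1 - t * (11 * (u ^ 5) ^ 2 + 66 * u ^ 5 * v ^ 5 - (v ^ 5) ^ 2)) := by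
  simp only [penV, kFu]; ring

/-- **LINK (H)**: `kH` along the canonical pencil. -/
theorem kH_pen (t u v : R) :
    kH (penU t u v) (penV t u v) = -Phi4 (-kH u v) (-kT u v) t := by
  rw [penU_eq', penV_eq', kH_mul, kH_eq_hhf u v, kT_eq_ttf u v]
  exact coreH (u ^ 5) (v ^ 5) t

/-- **LINK (T)**: `kT` along the canonical pencil. -/
theorem kT_pen (t u v : R) :
    kT (penU t u v) (penV t u v) = -Phi6 (-kH u v) (-kT u v) t := by
  rw [penU_eq', penV_eq', kT_mul, kH_eq_hhf u v, kT_eq_ttf u v]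
  exact coreT (u ^ 5) (v ^ 5) t

end Link

/-! ### The family polynomials in `ℤ[X]` -/

/-- The family polynomial `C4(t) = Phi4 c4 c6 t` as an element of `ℤ[X]`. -/
noncomputable def Phi4Poly (c4 c6 : ℤ) : ℤ[X] :=
  Phi4 (C c4) (C c6) X

/-- The family polynomial `C6(t) = Phi6 c4 c6 t` as an element of `ℤ[X]`. -/
noncomputable def Phi6Poly (c4 c6 : ℤ) : ℤ[X] :=
  Phi6 (C c4) (C c6) X

section Hom

variable {R S : Type*} [CommRing R] [CommRing S]

theorem map_Phi4 (φ : R →+* S) (a b t : R) : φ (Phi4 a b t) = Phi4 (φ a) (φ b) (φ t) := by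
  simp only [Phi4, Phi4c0, Phi4c1, Phi4c2, Phi4c3, Phi4c4, Phi4c5, Phi4c6, Phi4c7, Phi4c8, Phi4c9,
    Phi4c10, Phi4c11, Phi4c12, Phi4c13, Phi4c14, Phi4c15, Phi4c16, Phi4c17, Phi4c18, Phi4c19,
    Phi4c20, map_add, map_sub, map_mul, map_neg, map_pow, map_ofNat]

theorem map_Phi6 (φ : R →+* S) (a b t : R) : φ (Phi6 a b t) = Phi6 (φ a) (φ b) (φ t) := by
  simp only [Phi6, Phi6c0, Phi6c1, Phi6c2, Phi6c3, Phi6c4, Phi6c5, Phi6c6, Phi6c7, Phi6c8, Phi6c9,
    Phi6c10, Phi6c11, Phi6c12, Phi6c13, Phi6c14, Phi6c15, Phi6c16, Phi6c17, Phi6c18, Phi6c19,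
    Phi6c20, Phi6c21, Phi6c22, Phi6c23, Phi6c24, Phi6c25, Phi6c26, Phi6c27, Phi6c28, Phi6c29,
    Phi6c30, map_add, map_sub, map_mul, map_neg, map_pow, map_ofNat]

end Hom

theorem eval_Phi4Poly (c4 c6 t : ℤ) : (Phi4Poly c4 c6).eval t = Phi4 c4 c6 t := by
  have h := map_Phi4 (Polynomial.evalRingHom t) (C c4) (C c6) X
  simpa [Phi4Poly] using h

theorem eval_Phi6Poly (c4 c6 t : ℤ) : (Phi6Poly c4 c6).eval t = Phi6 c4 c6 t := by
  have h := map_Phi6 (Polynomial.evalRingHom t) (C c4) (C c6) X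
  simpa [Phi6Poly] using h

theorem aeval_Phi4Poly {K : Type*} [CommRing K] (c4 c6 : ℤ) (t : K) :
    (aeval t (Phi4Poly c4 c6) : K) = Phi4 (c4 : K) (c6 : K) t := by
  have h := map_Phi4 (aeval t : ℤ[X] →ₐ[ℤ] K).toRingHom (C c4) (C c6) X
  simpa [Phi4Poly] using h

theorem aeval_Phi6Poly {K : Type*} [CommRing K] (c4 c6 : ℤ) (t : K) :
    (aeval t (Phi6Poly c4 c6) : K) = Phi6 (c4 : K) (c6 : K) t := by
  have h := map_Phi6 (aeval t : ℤ[X] →ₐ[ℤ] K).toRingHom (C c4) (C c6) X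
  simpa [Phi6Poly] using h

/-- **(DATA / LINK)** for the captain's Spec: the explicit family polynomials satisfy
`helper352.IsPencilData` for every pair of integers `(c4, c6)`. -/
theorem isPencilData (c4 c6 : ℤ) :
    Fermat.Agent.S52.helper352.IsPencilData c4 c6 (Phi4Poly c4 c6) (Phi6Poly c4 c6) := by
  refine ⟨?_, ?_, ?_⟩
  · rw [eval_Phi4Poly, Phi4_zero]
  · rw [eval_Phi6Poly, Phi6_zero]
  · intro K _ _ _ u v t hH hT
    refine ⟨?_, ?_⟩
    · rw [kH_pen, aeval_Phi4Poly, hH, hT, neg_neg, neg_neg]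
    · rw [kT_pen, aeval_Phi6Poly, hH, hT, neg_neg, neg_neg]

end Fermat.Agent.S52.helper135
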