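/-
S52 helper module (helper2033): (SHORT) — point counts / traces of Frobenius on short models.

For a Weierstrass curve `E` over a field `F` with `6 ≠ 0`, the substitution
`(X, Y) = (36 x + 3 b₂, 216 y + 108 a₁ x + 108 a₃)` is a bijection (indeed an additive equivalence)
between the `F`-points of `E` and of `shortModel c₄ c₆ : Y² = X³ - 27 c₄ X - 54 c₆`.  Hence, for an
integral model `W` and a prime `ℓ ≥ 5`,

  `W.apOfModel ℓ = (shortModel (c₄ mod ℓ) (c₆ mod ℓ)).traceOfFrobenius`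

(no good-reduction hypothesis is needed).
-/
import Mathlib
import Fermat.Prelude.Def_FLTPrelim_Modularity
import Fermat.Agent.S52.helper2033_ShortForm

set_option autoImplicit false

namespace Fermat.Agent.S52.helper2033

open WeierstrassCurve WeierstrassCurve.Affine
open Fermat.Agent.S05.helper725

section SameField

variable {F : Type*} [Field F] [DecidableEq F]

/-- `E(F) →+ (shortModel c4 c6)(F)`, `(x, y) ↦ (36 x + 3 b₂, 216 y + 108 a₁ x + 108 a₃)`. -/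
noncomputable def toShort₀ (E : WeierstrassCurve F) (c4 c6 : F) (h4 : E.c₄ = c4) (h6 : E.c₆ = c6)
    (hsix : (6 : F) ≠ 0) : E.toAffine.Point →+ (shortModel c4 c6).toAffine.Point :=
  vcHom (isVarChange_toShort E c4 c6 h4 h6 hsix)

/-- The inverse map `(shortModel c4 c6)(F) →+ E(F)`. -/
noncomputable def ofShort₀ (E : WeierstrassCurve F) (c4 c6 : F) (h4 : E.c₄ = c4) (h6 : E.c₆ = c6)
    (hsix : (6 : F) ≠ 0) : (shortModel c4 c6).toAffine.Point →+ E.toAffine.Point :=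
  vcHom (isVarChange_ofShort E c4 c6 h4 h6 hsix)

variable (E : WeierstrassCurve F) (c4 c6 : F) (h4 : E.c₄ = c4) (h6 : E.c₆ = c6)
  (hsix : (6 : F) ≠ 0)

lemma toShort₀_injective : Function.Injective (toShort₀ E c4 c6 h4 h6 hsix) :=
  vcHom_injective _

lemma ofShort₀_injective : Function.Injective (ofShort₀ E c4 c6 h4 h6 hsix) :=
  vcHom_injective _

omit [DecidableEq F] in
private lemma some_eq_some₀ {W : WeierstrassCurve.Affine F} {x y x' y' : F}
    (h : W.Nonsingular x y) (h' : W.Nonsingular x' y') (hx : x = x') (hy : y = y') :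
    Point.some x y h = Point.some x' y' h' := by
  subst hx hy; rfl

lemma ofShort₀_toShort₀ (P : E.toAffine.Point) :
    ofShort₀ E c4 c6 h4 h6 hsix (toShort₀ E c4 c6 h4 h6 hsix P) = P := by
  have h2 : (2 : F) ≠ 0 := fun h => hsix (by linear_combination 3 * h)
  have h3 : (3 : F) ≠ 0 := fun h => hsix (by linear_combination 2 * h)
  have h12 : (12 : F) ≠ 0 := by
    have : (12 : F) = 2 * 6 := by norm_num
    rw [this]; exact mul_ne_zero h2 hsix
  have h24 : (24 : F) ≠ 0 := by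
    have : (24 : F) = 2 * 12 := by norm_num
    rw [this]; exact mul_ne_zero h2 h12
  rcases P with _ | ⟨x, y, hxy⟩
  · rfl
  · have k1 : toShort₀ E c4 c6 h4 h6 hsix (.some x y hxy) = _ := vcHom_some _ hxy
    rw [k1]
    have k2 := vcHom_some (isVarChange_ofShort E c4 c6 h4 h6 hsix)
      (((isVarChange_toShort E c4 c6 h4 h6 hsix).nonsingular_iff x y).mpr hxy)
    refine k2.trans (some_eq_some₀ _ _ ?_ ?_)
    · field_simp
      ring
    · field_simp
      ring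

lemma toShort₀_ofShort₀ (Q : (shortModel c4 c6).toAffine.Point) :
    toShort₀ E c4 c6 h4 h6 hsix (ofShort₀ E c4 c6 h4 h6 hsix Q) = Q := by
  apply ofShort₀_injective E c4 c6 h4 h6 hsix
  rw [ofShort₀_toShort₀]

/-- The additive equivalence `E(F) ≃+ (shortModel c4 c6)(F)`. -/
noncomputable def shortEquiv₀ : E.toAffine.Point ≃+ (shortModel c4 c6).toAffine.Point :=
  { toShort₀ E c4 c6 h4 h6 hsix with
    invFun := ofShort₀ E c4 c6 h4 h6 hsix
    left_inv := ofShort₀_toShort₀ E c4 c6 h4 h6 hsix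
    right_inv := toShort₀_ofShort₀ E c4 c6 h4 h6 hsix }

end SameField

section Card

/-- Over a field with `6 ≠ 0`, a Weierstrass curve and its short model have the same number of
points. -/
theorem card_eq_card_shortModel {F : Type*} [Field F] (E : WeierstrassCurve F)
    (hsix : (6 : F) ≠ 0) : E.card = (shortModel E.c₄ E.c₆).card := by
  classical
  unfold WeierstrassCurve.card
  exact Nat.card_congr (shortEquiv₀ E E.c₄ E.c₆ rfl rfl hsix).toEquiv

/-- Over a field with `6 ≠ 0`, a Weierstrass curve and its short model have the same trace of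
Frobenius (in the sense of the Prelude: `#F + 1 - #E(F)`). -/
theorem traceOfFrobenius_eq_shortModel {F : Type*} [Field F] (E : WeierstrassCurve F)
    (hsix : (6 : F) ≠ 0) :
    E.traceOfFrobenius = (shortModel E.c₄ E.c₆).traceOfFrobenius := by
  unfold WeierstrassCurve.traceOfFrobenius
  rw [card_eq_card_shortModel E hsix]

private lemma six_ne_zero_zmod (ℓ : ℕ) (hℓ : ℓ.Prime) (h5 : 5 ≤ ℓ) : (6 : ZMod ℓ) ≠ 0 := by
  intro h
  have h' : ((6 : ℕ) : ZMod ℓ) = 0 := by exact_mod_cast h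
  rw [ZMod.natCast_eq_zero_iff] at h'
  have hle : ℓ ≤ 6 := Nat.le_of_dvd (by norm_num) h'
  interval_cases ℓ
  · norm_num at h'
  · exact absurd hℓ (by decide)

/-- **(SHORT)**: for an integral Weierstrass model `W` and a prime `ℓ ≥ 5`, `a_ℓ(W)` is the trace
of Frobenius of the short model `Y² = X³ - 27 c₄ X - 54 c₆` over `ZMod ℓ`. No good-reduction
hypothesis is needed. -/
theorem apOfModel_eq_short (W : WeierstrassCurve ℤ) (ℓ : ℕ) (hℓ : ℓ.Prime) (h5 : 5 ≤ ℓ) :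
    W.apOfModel ℓ =
      (shortModel ((W.c₄ : ℤ) : ZMod ℓ) ((W.c₆ : ℤ) : ZMod ℓ)).traceOfFrobenius := by
  have : Fact ℓ.Prime := ⟨hℓ⟩
  unfold WeierstrassCurve.apOfModel
  rw [traceOfFrobenius_eq_shortModel (W.reductionMod ℓ) (six_ne_zero_zmod ℓ hℓ h5)]
  have e4 : (W.reductionMod ℓ).c₄ = ((W.c₄ : ℤ) : ZMod ℓ) := by
    unfold WeierstrassCurve.reductionMod
    rw [WeierstrassCurve.map_c₄]; rfl
  have e6 : (W.reductionMod ℓ).c₆ = ((W.c₆ : ℤ) : ZMod ℓ) := by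
    unfold WeierstrassCurve.reductionMod
    rw [WeierstrassCurve.map_c₆]; rfl
  rw [e4, e6]

/-- The same statement with the short model written out (`rfl`-equal to any `short a b :=
⟨0, 0, 0, -27 * a, -54 * b⟩`). -/
theorem apOfModel_eq_short' (W : WeierstrassCurve ℤ) (ℓ : ℕ) (hℓ : ℓ.Prime) (h5 : 5 ≤ ℓ) :
    W.apOfModel ℓ =
      (⟨0, 0, 0, -27 * ((W.c₄ : ℤ) : ZMod ℓ), -54 * ((W.c₆ : ℤ) : ZMod ℓ)⟩ :
        WeierstrassCurve (ZMod ℓ)).traceOfFrobenius :=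
  apOfModel_eq_short W ℓ hℓ h5

/-- Free corollary: `a_ℓ` depends only on `(c₄, c₆)` modulo `ℓ` for `ℓ ≥ 5`. -/
theorem apOfModel_eq_of_invariants (W W' : WeierstrassCurve ℤ) (ℓ : ℕ) (hℓ : ℓ.Prime) (h5 : 5 ≤ ℓ)
    (h4 : (ℓ : ℤ) ∣ W'.c₄ - W.c₄) (h6 : (ℓ : ℤ) ∣ W'.c₆ - W.c₆) :
    W'.apOfModel ℓ = W.apOfModel ℓ := by
  rw [apOfModel_eq_short W ℓ hℓ h5, apOfModel_eq_short W' ℓ hℓ h5]
  have e4 : ((W'.c₄ : ℤ) : ZMod ℓ) = ((W.c₄ : ℤ) : ZMod ℓ) := by
    rw [← sub_eq_zero, ← Int.cast_sub]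
    exact (ZMod.intCast_zmod_eq_zero_iff_dvd _ ℓ).mpr h4
  have e6 : ((W'.c₆ : ℤ) : ZMod ℓ) = ((W.c₆ : ℤ) : ZMod ℓ) := by
    rw [← sub_eq_zero, ← Int.cast_sub]
    exact (ZMod.intCast_zmod_eq_zero_iff_dvd _ ℓ).mpr h6
  rw [e4, e6]

/-- Good primes `ℓ ≥ 5` in terms of the invariants of the short model: `ℓ ∤ Δ(W)` iff
`c₄³ ≠ c₆²` in `ZMod ℓ`. -/
theorem isGoodPrimeFor_iff_short (W : WeierstrassCurve ℤ) (ℓ : ℕ) (hℓ : ℓ.Prime) (h5 : 5 ≤ ℓ) :
    W.IsGoodPrimeFor ℓ ↔ ((W.c₄ : ℤ) : ZMod ℓ) ^ 3 ≠ ((W.c₆ : ℤ) : ZMod ℓ) ^ 2 := by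
  have : Fact ℓ.Prime := ⟨hℓ⟩
  unfold WeierstrassCurve.IsGoodPrimeFor
  have h6 := six_ne_zero_zmod ℓ hℓ h5
  have h1728 : (1728 : ZMod ℓ) ≠ 0 := by
    have : (1728 : ZMod ℓ) = 6 ^ 3 * 8 := by norm_num
    have h2 : (2 : ZMod ℓ) ≠ 0 := fun h => h6 (by linear_combination 3 * h)
    have h8 : (8 : ZMod ℓ) ≠ 0 := by
      have : (8 : ZMod ℓ) = 2 ^ 3 := by norm_num
      rw [this]; exact pow_ne_zero 3 h2
    rw [this]; exact mul_ne_zero (pow_ne_zero 3 h6) h8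
  have hrel : (1728 : ZMod ℓ) * ((W.Δ : ℤ) : ZMod ℓ) =
      ((W.c₄ : ℤ) : ZMod ℓ) ^ 3 - ((W.c₆ : ℤ) : ZMod ℓ) ^ 2 := by
    have := congrArg (Int.cast : ℤ → ZMod ℓ) W.c_relation
    push_cast at this
    exact this
  rw [← ZMod.intCast_zmod_eq_zero_iff_dvd]
  constructor
  · intro h hc
    apply h
    have : (1728 : ZMod ℓ) * ((W.Δ : ℤ) : ZMod ℓ) = 0 := by rw [hrel, hc, sub_self]
    exact (mul_eq_zero.mp this).resolve_left h1728
  · intro h hΔ
    apply h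
    rw [hΔ, mul_zero] at hrel
    exact (sub_eq_zero.mp hrel.symm)

end Card

end Fermat.Agent.S52.helper2033
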