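/-
S52 — adapter: the captain's Spec leaf `helper352.Stmt_Short` (SHORT), proved from
`helper2033.apOfModel_eq_short` (landed in `helper2033_ShortTrace`).  One-liner; the
good-reduction hypothesis of the Spec is not used.
-/
import Fermat.Agent.S52.helper352_Spec
import Fermat.Agent.S52.helper2033_ShortTrace

set_option autoImplicit false

namespace Fermat.Agent.S52.helper2033

/-- **(SHORT)** in the exact shape of `helper352_Spec`. -/
theorem stmt_Short : Fermat.Agent.S52.helper352.Stmt_Short := by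
  intro W ℓ hℓ h5 _
  exact apOfModel_eq_short W ℓ hℓ.out h5

/-- `hA1` of the captain's assembly with (SHORT) already discharged. -/
theorem cong_of_loc (hLoc : Fermat.Agent.S52.helper352.Stmt_Loc) (W : WeierstrassCurve ℤ)
    (C4 C6 : Polynomial ℤ) (hdata : Fermat.Agent.S52.helper352.IsPencilData W.c₄ W.c₆ C4 C6) :
    ∀ (t : ℤ) (W' : WeierstrassCurve ℤ), W'.c₄ = C4.eval t → W'.c₆ = C6.eval t →
      ∀ ℓ : ℕ, ℓ.Prime → 7 ≤ ℓ → W.IsGoodPrimeFor ℓ → W'.IsGoodPrimeFor ℓ →
        (5 : ℤ) ∣ (W'.apOfModel ℓ - W.apOfModel ℓ) :=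
  Fermat.Agent.S52.helper352.cong_of hLoc stmt_Short W C4 C6 hdata

/-- The frozen S52 statement from `Stmt_Loc` and `Stmt_Family` alone. -/
theorem switch_of_loc (hLoc : Fermat.Agent.S52.helper352.Stmt_Loc)
    (hFam : Fermat.Agent.S52.helper352.Stmt_Family) : Fermat.Agent.S52.helper352.Goal_S52 :=
  Fermat.Agent.S52.helper352.switch_of hLoc stmt_Short hFam

end Fermat.Agent.S52.helper2033
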