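import Mathlib

/-!
# S52, aux-prime-free irreducibility route, brick (B2)+(B3)

"The generic fibre of the 5-congruent pencil has no 3-isogeny."

* `no_tau` : for `c4, D ∈ K[X]` coprime, `D` non-constant, `κ ≠ 0`, there are no coprime
  `a, b` (`b ≠ 0`) with `c4^3 * a * b^3 = κ * D^5 * (a + 27 b) * (a + 3 b)^3`
  (i.e. no `τ = a / b ∈ K(X)` with `c4^3 τ = Δ (τ + 27) (τ + 3)^3`, `Δ = κ D^5`).
  Proof: coprimality forces `a ~ a₁^5`, `b ~ b₁^5`, `a + 27 b ~ e^3`, and Mathlib's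
  `Polynomial.flt_catalan` (Mason–Stothers) for exponents `(5, 5, 3)` makes them constant.
* `no_tau'` : the same without the coprimality assumption on numerator / denominator.
* `no_three_root_of_pow_five` : in the shape produced by a root of `ψ₃`:
  `κ D^5 = B4^3 - 27 B6^2` and `c4 * B6^2 = B4 * (B4^3 - 24 B6^2)` are impossible.
* `psi3_root_disc`, `psi3_root_c4` : the two ring identities (B3) for a general Weierstrass curve
  over a commutative ring: at a root `x₀` of `ψ₃`, with `B4 = 6x₀² + b₂x₀ + b₄`,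
  `B6 = 4x₀³ + b₂x₀² + 2b₄x₀ + b₆`: `Δ = B4³ - 27 B6²` and `c₄ B6² = B4 (B4³ - 24 B6²)`.
* `no_three_root_generic` : a Weierstrass curve over `K[X]` (`K` a field of characteristic zero)
  with `Δ = κ D^5`, `c₄` coprime to `D`, `D` non-constant has no root of `ψ₃` in `K[X]`.
-/

set_option autoImplicit false

namespace Fermat.Agent.S52.helper1047

open Polynomial

section Poly

variable {K : Type*} [Field K]

/-- If `b^3` is associated to a fifth power then so is `b`. -/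
theorem exists_associated_pow_five_of_cube {b d : K[X]} (hb : b ≠ 0)
    (h : Associated (d ^ 5) (b ^ 3)) : ∃ c : K[X], Associated (c ^ 5) b := by
  have h2 : Associated ((d ^ 2) ^ 5) (b ^ 5 * b) := by
    have h3 := h.pow_pow (n := 2)
    have e1 : (d ^ 5) ^ 2 = (d ^ 2) ^ 5 := by ring
    have e2 : (b ^ 3) ^ 2 = b ^ 5 * b := by ring
    rwa [e1, e2] at h3
  have hdvd : b ^ 5 ∣ (d ^ 2) ^ 5 := (Dvd.intro _ rfl).trans h2.symm.dvd
  have hbd : b ∣ d ^ 2 := (IsIntegrallyClosed.pow_dvd_pow_iff (by norm_num)).mp hdvd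
  obtain ⟨c, hc⟩ := hbd
  refine ⟨c, ?_⟩
  rw [hc, mul_pow] at h2
  exact Associated.of_mul_left h2 (Associated.refl _) (pow_ne_zero 5 hb)

/-- **(B2)** Mason–Stothers: no `τ = a / b` with `c4^3 τ = κ D^5 (τ + 27) (τ + 3)^3` when
`c4`, `D` are coprime and `D` is non-constant. -/
theorem no_tau [CharZero K] (c4 D : K[X]) (κ : K) (hκ : κ ≠ 0) (hcop : IsCoprime c4 D)
    (hD : D.natDegree ≠ 0) (a b : K[X]) (hab : IsCoprime a b) (hb : b ≠ 0)
    (h : c4 ^ 3 * a * b ^ 3 = C κ * D ^ 5 * (a + 27 * b) * (a + 3 * b) ^ 3) : False := by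
  classical
  have hD0 : D ≠ 0 := by
    rintro rfl
    simp at hD
  have hCκ : IsUnit (C κ : K[X]) := Polynomial.isUnit_C.mpr hκ.isUnit
  have hCκ0 : (C κ : K[X]) ≠ 0 := C_ne_zero.mpr hκ
  have e27 : (27 : K[X]) = C (27 : K) := (map_ofNat C 27).symm
  have e3 : (3 : K[X]) = C (3 : K) := (map_ofNat C 3).symm
  have h27 : IsUnit (27 : K[X]) := by
    rw [e27]; exact Polynomial.isUnit_C.mpr (by norm_num : (27 : K) ≠ 0).isUnit
  have h3 : IsUnit (3 : K[X]) := by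
    rw [e3]; exact Polynomial.isUnit_C.mpr (by norm_num : (3 : K) ≠ 0).isUnit
  have h27' : (27 : K[X]) ≠ 0 := h27.ne_zero
  have h3' : (3 : K[X]) ≠ 0 := h3.ne_zero
  -- nonvanishing
  have hc4 : c4 ≠ 0 := by
    rintro rfl
    exact hD (natDegree_eq_zero_of_isUnit (isCoprime_zero_left.mp hcop))
  have ha : a ≠ 0 := by
    rintro rfl
    have hne : C κ * D ^ 5 * ((0 : K[X]) + 27 * b) * (0 + 3 * b) ^ 3 ≠ 0 := by
      rw [zero_add, zero_add]
      exact mul_ne_zero (mul_ne_zero (mul_ne_zero hCκ0 (pow_ne_zero 5 hD0))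
        (mul_ne_zero h27' hb)) (pow_ne_zero 3 (mul_ne_zero h3' hb))
    apply hne
    rw [← h]; ring
  have hlhs : c4 ^ 3 * a * b ^ 3 ≠ 0 :=
    mul_ne_zero (mul_ne_zero (pow_ne_zero 3 hc4) ha) (pow_ne_zero 3 hb)
  have hs27 : a + 27 * b ≠ 0 := by
    intro h0
    apply hlhs
    rw [h, h0]; ring
  have hs3 : a + 3 * b ≠ 0 := by
    intro h0
    apply hlhs
    rw [h, h0]; ring
  -- coprimality
  have hc1 : IsCoprime a (a + 27 * b) := by
    have := ((isCoprime_mul_unit_left_right h27 a b).mpr hab).add_mul_left_right 1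
    rwa [mul_one, add_comm] at this
  have hc2 : IsCoprime a (a + 3 * b) := by
    have := ((isCoprime_mul_unit_left_right h3 a b).mpr hab).add_mul_left_right 1
    rwa [mul_one, add_comm] at this
  have hc3 : IsCoprime b (a + 27 * b) := by
    have := hab.symm.add_mul_left_right 27
    rwa [mul_comm b 27] at this
  have hc4' : IsCoprime b (a + 3 * b) := by
    have := hab.symm.add_mul_left_right 3
    rwa [mul_comm b 3] at this
  have hc5 : IsCoprime (a + 27 * b) (a + 3 * b) := by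
    obtain ⟨u, v, huv⟩ := hab
    have h24 : (C (1 / 24 : K)) * 24 = 1 := by
      have e24 : (24 : K[X]) = C (24 : K) := (map_ofNat C 24).symm
      rw [e24, ← C_mul]
      norm_num
    refine ⟨C (1 / 24 : K) * (-3 * u + v), C (1 / 24 : K) * (27 * u - v), ?_⟩
    linear_combination (C (1 / 24 : K) * 24) * huv + h24
  have haQ : IsCoprime a ((a + 27 * b) * (a + 3 * b) ^ 3) := hc1.mul_right hc2.pow_right
  have hbQ : IsCoprime b ((a + 27 * b) * (a + 3 * b) ^ 3) := hc3.mul_right hc4'.pow_right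
  have hPQ : IsCoprime (a * b ^ 3) ((a + 27 * b) * (a + 3 * b) ^ 3) := haQ.mul_left hbQ.pow_left
  have h' : c4 ^ 3 * (a * b ^ 3) = C κ * D ^ 5 * ((a + 27 * b) * (a + 3 * b) ^ 3) := by
    linear_combination h
  have hcop' : IsCoprime (c4 ^ 3) (D ^ 5) := hcop.pow
  -- `a * b^3 ~ D^5`
  have hDP : D ^ 5 ∣ a * b ^ 3 := by
    apply hcop'.symm.dvd_of_dvd_mul_left
    rw [h']
    exact ⟨C κ * ((a + 27 * b) * (a + 3 * b) ^ 3), by ring⟩
  have hPD : a * b ^ 3 ∣ D ^ 5 := by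
    have h1 : a * b ^ 3 ∣ (C κ * D ^ 5) * ((a + 27 * b) * (a + 3 * b) ^ 3) := by
      rw [← h']; exact dvd_mul_left _ _
    exact (IsUnit.dvd_mul_left hCκ).mp (hPQ.dvd_of_dvd_mul_right h1)
  have hP : Associated (D ^ 5) (a * b ^ 3) := associated_of_dvd_dvd hDP hPD
  -- `(a + 27 b) * (a + 3 b)^3 ~ c4^3`
  have hQc : (a + 27 * b) * (a + 3 * b) ^ 3 ∣ c4 ^ 3 := by
    have h1 : (a + 27 * b) * (a + 3 * b) ^ 3 ∣ c4 ^ 3 * (a * b ^ 3) := by
      rw [h']; exact dvd_mul_left _ _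
    exact hPQ.symm.dvd_of_dvd_mul_right h1
  have hcQ : c4 ^ 3 ∣ (a + 27 * b) * (a + 3 * b) ^ 3 := by
    have h1 : c4 ^ 3 ∣ (C κ * D ^ 5) * ((a + 27 * b) * (a + 3 * b) ^ 3) := by
      rw [← h']; exact dvd_mul_right _ _
    exact ((isCoprime_mul_unit_left_right hCκ _ _).mpr hcop').dvd_of_dvd_mul_left h1
  have hQ : Associated (c4 ^ 3) ((a + 27 * b) * (a + 3 * b) ^ 3) := associated_of_dvd_dvd hcQ hQc
  -- extraction of powers
  obtain ⟨a1, ha1⟩ := exists_associated_pow_of_associated_pow_mul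
    (hab.pow_right : IsCoprime a (b ^ 3)) hP
  obtain ⟨d, hd⟩ := exists_associated_pow_of_associated_pow_mul
    (hab.symm.pow_left : IsCoprime (b ^ 3) a) (c := D) (k := 5) (by rw [mul_comm]; exact hP)
  obtain ⟨b1, hb1⟩ := exists_associated_pow_five_of_cube hb hd
  obtain ⟨e, he⟩ := exists_associated_pow_of_associated_pow_mul
    (hc5.pow_right : IsCoprime (a + 27 * b) ((a + 3 * b) ^ 3)) hQ
  -- units are constants
  obtain ⟨ua, hua⟩ := ha1
  obtain ⟨ub, hub⟩ := hb1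
  obtain ⟨ue, hue⟩ := he
  obtain ⟨α, hα, hαu⟩ := Polynomial.isUnit_iff.mp ua.isUnit
  obtain ⟨β, hβ, hβu⟩ := Polynomial.isUnit_iff.mp ub.isUnit
  obtain ⟨γ, hγ, hγu⟩ := Polynomial.isUnit_iff.mp ue.isUnit
  have ha1' : a = C α * a1 ^ 5 := by rw [← hua, ← hαu]; ring
  have hb1' : b = C β * b1 ^ 5 := by rw [← hub, ← hβu]; ring
  have he' : a + 27 * b = C γ * e ^ 3 := by rw [← hue, ← hγu]; ring
  have ha10 : a1 ≠ 0 := by
    rintro rfl
    apply ha; rw [ha1']; ring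
  have hb10 : b1 ≠ 0 := by
    rintro rfl
    apply hb; rw [hb1']; ring
  have he0 : e ≠ 0 := by
    rintro rfl
    apply hs27; rw [he']; ring
  have hcop1 : IsCoprime a1 b1 := by
    refine IsCoprime.mono ?_ ?_ hab
    · rw [ha1']; exact Dvd.intro_left _ (by ring : (C α * a1 ^ 4) * a1 = C α * a1 ^ 5)
    · rw [hb1']; exact Dvd.intro_left _ (by ring : (C β * b1 ^ 4) * b1 = C β * b1 ^ 5)
  have heq : C α * a1 ^ 5 + C (27 * β) * b1 ^ 5 + C (-γ) * e ^ 3 = 0 := by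
    have : C (27 * β) = (27 : K[X]) * C β := by rw [C_mul, e27]
    rw [this, C_neg]
    linear_combination he' - ha1' - 27 * hb1'
  obtain ⟨hda, hdb, -⟩ := Polynomial.flt_catalan (p := 5) (q := 5) (r := 3) (by norm_num)
    (by norm_num) (by norm_num) (by norm_num) (by norm_num) (by norm_num) (by norm_num)
    ha10 hb10 he0 hcop1 hα.ne_zero
    (mul_ne_zero (by norm_num) hβ.ne_zero) (neg_ne_zero.mpr hγ.ne_zero) heq
  -- degrees
  have hdega : a.natDegree = 0 := by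
    rw [ha1']
    exact Nat.eq_zero_of_le_zero ((natDegree_C_mul_le _ _).trans (natDegree_pow_le.trans (by simp [hda])))
  have hdegb : b.natDegree = 0 := by
    rw [hb1']
    exact Nat.eq_zero_of_le_zero ((natDegree_C_mul_le _ _).trans (natDegree_pow_le.trans (by simp [hdb])))
  have hdeg : (D ^ 5).natDegree = 0 := by
    have h1 : (D ^ 5).natDegree ≤ (a * b ^ 3).natDegree :=
      natDegree_le_of_dvd hDP (mul_ne_zero ha (pow_ne_zero 3 hb))
    have h2 : (a * b ^ 3).natDegree ≤ 0 :=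
      natDegree_mul_le.trans (by
        have := natDegree_pow_le (p := b) (n := 3)
        omega)
    omega
  rw [natDegree_pow] at hdeg
  omega

/-- **(B2)**, without coprimality of numerator and denominator. -/
theorem no_tau' [CharZero K] (c4 D : K[X]) (κ : K) (hκ : κ ≠ 0) (hcop : IsCoprime c4 D)
    (hD : D.natDegree ≠ 0) (N M : K[X]) (hM : M ≠ 0)
    (h : c4 ^ 3 * N * M ^ 3 = C κ * D ^ 5 * (N + 27 * M) * (N + 3 * M) ^ 3) : False := by
  classical
  set g := EuclideanDomain.gcd N M with hg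
  have hg0 : g ≠ 0 := fun h0 => hM (EuclideanDomain.gcd_eq_zero_iff.mp h0).2
  obtain ⟨a, ha⟩ := EuclideanDomain.gcd_dvd_left N M
  obtain ⟨b, hb⟩ := EuclideanDomain.gcd_dvd_right N M
  rw [← hg] at ha hb
  have hb0 : b ≠ 0 := by
    rintro rfl
    apply hM; rw [hb]; ring
  have hab : IsCoprime a b := by
    obtain ⟨x, y, hxy⟩ : ∃ x y, g = N * x + M * y := by
      have := EuclideanDomain.gcd_eq_gcd_ab N M
      exact ⟨EuclideanDomain.gcdA N M, EuclideanDomain.gcdB N M, this⟩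
    refine ⟨x, y, ?_⟩
    have h1 : g * (x * a + y * b) = g * 1 := by
      calc g * (x * a + y * b) = (g * a) * x + (g * b) * y := by ring
        _ = g * 1 := by rw [← ha, ← hb, ← hxy, mul_one]
    exact mul_left_cancel₀ hg0 h1
  refine no_tau c4 D κ hκ hcop hD a b hab hb0 ?_
  have h4 : g ^ 4 ≠ 0 := pow_ne_zero 4 hg0
  apply mul_left_cancel₀ h4
  rw [ha, hb] at h
  linear_combination h

/-- **(B2)+(B3)** in the shape produced by a root of `ψ₃` on the generic fibre. -/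
theorem no_three_root_of_pow_five [CharZero K] (c4 D B4 B6 : K[X]) (κ : K) (hκ : κ ≠ 0)
    (hcop : IsCoprime c4 D) (hD : D.natDegree ≠ 0)
    (h1 : C κ * D ^ 5 = B4 ^ 3 - 27 * B6 ^ 2)
    (h2 : c4 * B6 ^ 2 = B4 * (B4 ^ 3 - 24 * B6 ^ 2)) : False := by
  have hD0 : D ≠ 0 := by
    rintro rfl
    simp at hD
  have hB6 : B6 ≠ 0 := by
    rintro rfl
    have hB4 : B4 = 0 := by
      have : B4 ^ 4 = 0 := by linear_combination -h2
      exact pow_eq_zero_iff (by norm_num) |>.mp this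
    rw [hB4] at h1
    have : C κ * D ^ 5 = 0 := by rw [h1]; ring
    exact mul_ne_zero (C_ne_zero.mpr hκ) (pow_ne_zero 5 hD0) this
  refine no_tau' c4 D κ hκ hcop hD (B4 ^ 3 - 27 * B6 ^ 2) (B6 ^ 2) (pow_ne_zero 2 hB6) ?_
  rw [← h1]
  have e1 : C κ * D ^ 5 + 27 * B6 ^ 2 = B4 ^ 3 := by rw [h1]; ring
  have e2 : C κ * D ^ 5 + 3 * B6 ^ 2 = B4 ^ 3 - 24 * B6 ^ 2 := by rw [h1]; ring
  rw [e1, e2]
  linear_combination (C κ * D ^ 5) * (c4 ^ 2 * B6 ^ 4 + c4 * B6 ^ 2 * (B4 * (B4 ^ 3 - 24 * B6 ^ 2))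
    + (B4 * (B4 ^ 3 - 24 * B6 ^ 2)) ^ 2) * h2

end Poly

section Weierstrass

variable {R : Type*} [CommRing R] (W : WeierstrassCurve R)

/-- **(B3a)** At a root `x₀` of `ψ₃`: `Δ = B4³ - 27 B6²` with `B4 = 6x₀² + b₂x₀ + b₄`,
`B6 = 4x₀³ + b₂x₀² + 2b₄x₀ + b₆` (the translated `b₄`, `b₆`). -/
theorem psi3_root_disc (x : R)
    (hx : 3 * x ^ 4 + W.b₂ * x ^ 3 + 3 * W.b₄ * x ^ 2 + 3 * W.b₆ * x + W.b₈ = 0) :
    W.Δ = (6 * x ^ 2 + W.b₂ * x + W.b₄) ^ 3
      - 27 * (4 * x ^ 3 + W.b₂ * x ^ 2 + 2 * W.b₄ * x + W.b₆) ^ 2 := by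
  have hrel := W.b_relation
  rw [WeierstrassCurve.Δ]
  linear_combination (36 * (6 * x ^ 2 + W.b₂ * x + W.b₄) - (W.b₂ + 12 * x) ^ 2) * hx
    + (6 * W.b₂ * x + 36 * x ^ 2 - 9 * (6 * x ^ 2 + W.b₂ * x + W.b₄)) * hrel

/-- **(B3b)** At a root `x₀` of `ψ₃`: `c₄ B6² = B4 (B4³ - 24 B6²)`. -/
theorem psi3_root_c4 (x : R)
    (hx : 3 * x ^ 4 + W.b₂ * x ^ 3 + 3 * W.b₄ * x ^ 2 + 3 * W.b₆ * x + W.b₈ = 0) :
    W.c₄ * (4 * x ^ 3 + W.b₂ * x ^ 2 + 2 * W.b₄ * x + W.b₆) ^ 2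
      = (6 * x ^ 2 + W.b₂ * x + W.b₄) * ((6 * x ^ 2 + W.b₂ * x + W.b₄) ^ 3
        - 24 * (4 * x ^ 3 + W.b₂ * x ^ 2 + 2 * W.b₄ * x + W.b₆) ^ 2) := by
  have hrel := W.b_relation
  rw [WeierstrassCurve.c₄]
  linear_combination
    (4 * ((6 * x ^ 2 + W.b₂ * x + W.b₄) ^ 2
      + (W.b₂ + 12 * x) * (4 * x ^ 3 + W.b₂ * x ^ 2 + 2 * W.b₄ * x + W.b₆))) * hx
    - ((6 * x ^ 2 + W.b₂ * x + W.b₄) ^ 2
      + (W.b₂ + 12 * x) * (4 * x ^ 3 + W.b₂ * x ^ 2 + 2 * W.b₄ * x + W.b₆)) * hrel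

/-- **(B2)+(B3)**: a Weierstrass curve over `K[X]` whose discriminant is a constant times a fifth
power `D^5` of a non-constant polynomial coprime to `c₄` has no root of `ψ₃` in `K[X]`
(the generic fibre has no rational 3-isogeny). -/
theorem no_three_root_generic {K : Type*} [Field K] [CharZero K] (W : WeierstrassCurve K[X])
    (x : K[X])
    (hx : 3 * x ^ 4 + W.b₂ * x ^ 3 + 3 * W.b₄ * x ^ 2 + 3 * W.b₆ * x + W.b₈ = 0)
    (κ : K) (hκ : κ ≠ 0) (D : K[X]) (hΔ : W.Δ = C κ * D ^ 5) (hcop : IsCoprime W.c₄ D)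
    (hD : D.natDegree ≠ 0) : False :=
  no_three_root_of_pow_five W.c₄ D (6 * x ^ 2 + W.b₂ * x + W.b₄)
    (4 * x ^ 3 + W.b₂ * x ^ 2 + 2 * W.b₄ * x + W.b₆) κ hκ hcop hD
    (by rw [← hΔ]; exact psi3_root_disc W x hx) (psi3_root_c4 W x hx)

/-- `no_three_root_generic` with the coefficient field enlarged: the family lives over `k[X]`
(e.g. `k = ℚ`), the factorisation `Δ = κ D^5` and the coprimality are only available over a
larger field `K` (e.g. `K = AlgebraicClosure ℚ`). -/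
theorem no_three_root_generic_map {k K : Type*} [Field k] [Field K] [CharZero K] (φ : k →+* K)
    (W : WeierstrassCurve k[X]) (x : k[X])
    (hx : 3 * x ^ 4 + W.b₂ * x ^ 3 + 3 * W.b₄ * x ^ 2 + 3 * W.b₆ * x + W.b₈ = 0)
    (κ : K) (hκ : κ ≠ 0) (D : K[X]) (hΔ : W.Δ.map φ = C κ * D ^ 5)
    (hcop : IsCoprime (W.c₄.map φ) D) (hD : D.natDegree ≠ 0) : False := by
  refine no_three_root_generic (W.map (mapRingHom φ)) (x.map φ) ?_ κ hκ D ?_ ?_ hD
  · have := congrArg (Polynomial.map φ) hx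
    simpa [WeierstrassCurve.map_b₂, WeierstrassCurve.map_b₄, WeierstrassCurve.map_b₆,
      WeierstrassCurve.map_b₈, Polynomial.map_add, Polynomial.map_mul, Polynomial.map_pow] using this
  · rw [WeierstrassCurve.map_Δ]; exact hΔ
  · rw [WeierstrassCurve.map_c₄]; exact hcop

/-- `no_three_root_generic` stated with Mathlib's 3-division polynomial `W.Ψ₃`. -/
theorem no_three_root_generic_Ψ₃ {K : Type*} [Field K] [CharZero K] (W : WeierstrassCurve K[X])
    (x : K[X]) (hx : W.Ψ₃.eval x = 0)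
    (κ : K) (hκ : κ ≠ 0) (D : K[X]) (hΔ : W.Δ = C κ * D ^ 5) (hcop : IsCoprime W.c₄ D)
    (hD : D.natDegree ≠ 0) : False := by
  refine no_three_root_generic W x ?_ κ hκ D hΔ hcop hD
  simpa [WeierstrassCurve.Ψ₃] using hx

end Weierstrass

end Fermat.Agent.S52.helper1047
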