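import Mathlib

set_option autoImplicit false

open Polynomial Finset

namespace Fermat.Agent.S52.helper267

/-- An `ℓ¹`-type size of an integer polynomial. -/
def l1 (f : ℤ[X]) : ℤ := ∑ k ∈ range (f.natDegree + 1), |f.coeff k|

lemma l1_nonneg (f : ℤ[X]) : 0 ≤ l1 f := Finset.sum_nonneg fun _ _ => abs_nonneg _

lemma abs_eval_le (f : ℤ[X]) (s : ℤ) (e : ℕ) (he : f.natDegree ≤ e) :
    |f.eval s| ≤ l1 f * (1 + |s|) ^ e := by
  rw [eval_eq_sum_range, l1, Finset.sum_mul]
  refine (Finset.abs_sum_le_sum_abs _ _).trans (Finset.sum_le_sum fun k hk => ?_)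
  rw [abs_mul, abs_pow]
  have hk' : k ≤ e := (Nat.lt_succ_iff.mp (mem_range.mp hk)).trans he
  have h1 : |s| ^ k ≤ (1 + |s|) ^ e := by
    calc |s| ^ k ≤ (1 + |s|) ^ k :=
          pow_le_pow_left₀ (abs_nonneg s) (by linarith [abs_nonneg s]) k
      _ ≤ (1 + |s|) ^ e := pow_le_pow_right₀ (by linarith [abs_nonneg s]) hk'
  exact mul_le_mul_of_nonneg_left h1 (abs_nonneg _)

lemma abs_root_le (P : ℤ[X]) (hP : P.Monic) (x : ℤ) (hx : P.eval x = 0) :
    |x| ≤ 1 + ∑ i ∈ range P.natDegree, |P.coeff i| := by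
  have hnn : 0 ≤ ∑ i ∈ range P.natDegree, |P.coeff i| :=
    Finset.sum_nonneg fun _ _ => abs_nonneg _
  by_cases hx0 : |x| ≤ 1
  · linarith
  push Not at hx0
  set n := P.natDegree with hn
  have h1 : x ^ n = - ∑ i ∈ range n, P.coeff i * x ^ i := by
    have := hx
    rw [eval_eq_sum_range, Finset.sum_range_succ, ← hn, hP.coeff_natDegree, one_mul] at this
    linarith
  rcases Nat.eq_zero_or_pos n with h0 | hpos
  · rw [h0] at h1
    simp at h1
  have h2 : |x| ^ n ≤ (∑ i ∈ range n, |P.coeff i|) * |x| ^ (n - 1) := by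
    rw [← abs_pow, h1, abs_neg, Finset.sum_mul]
    refine (Finset.abs_sum_le_sum_abs _ _).trans (Finset.sum_le_sum fun i hi => ?_)
    rw [abs_mul, abs_pow]
    have hi' : i ≤ n - 1 := Nat.le_sub_one_of_lt (mem_range.mp hi)
    exact mul_le_mul_of_nonneg_left (pow_le_pow_right₀ hx0.le hi') (abs_nonneg _)
  have h3 : |x| ^ n = |x| * |x| ^ (n - 1) := by
    rw [← pow_succ', Nat.sub_add_cancel hpos]
  rw [h3] at h2
  have hpos' : 0 < |x| ^ (n - 1) := pow_pos (by linarith) _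
  have := le_of_mul_le_mul_right h2 hpos'
  linarith

/-- A uniform polynomial size bound for the integer roots of a monic bivariate polynomial. -/
lemma root_bound (G : ℤ[X][X]) (hG : G.Monic) :
    ∃ A : ℤ, ∃ d : ℕ, 0 ≤ A ∧ ∀ s x : ℤ, G.evalEval s x = 0 → |x| ≤ A * (1 + |s|) ^ d := by
  set n := G.natDegree with hn
  set d := ∑ i ∈ range n, (G.coeff i).natDegree with hd
  have hl : 0 ≤ ∑ i ∈ range n, l1 (G.coeff i) := Finset.sum_nonneg fun _ _ => l1_nonneg _
  refine ⟨1 + ∑ i ∈ range n, l1 (G.coeff i), d, by linarith, ?_⟩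
  intro s x hx
  have hP : (G.map (evalRingHom s)).Monic := hG.map _
  have hx' : (G.map (evalRingHom s)).eval x = 0 := by
    rw [map_evalRingHom_eval]; exact hx
  have h1 := abs_root_le _ hP x hx'
  rw [hG.natDegree_map] at h1
  have h2 : ∑ i ∈ range n, |(G.map (evalRingHom s)).coeff i|
      ≤ (∑ i ∈ range n, l1 (G.coeff i)) * (1 + |s|) ^ d := by
    rw [Finset.sum_mul]
    refine Finset.sum_le_sum fun i hi => ?_
    rw [coeff_map, coe_evalRingHom]
    exact abs_eval_le _ s d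
      (Finset.single_le_sum (f := fun i => (G.coeff i).natDegree) (fun _ _ => Nat.zero_le _) hi)
  have h3 : (1 : ℤ) ≤ (1 + |s|) ^ d := one_le_pow₀ (by linarith [abs_nonneg s])
  calc |x| ≤ 1 + ∑ i ∈ range n, |(G.map (evalRingHom s)).coeff i| := h1
    _ ≤ 1 * (1 + |s|) ^ d + (∑ i ∈ range n, l1 (G.coeff i)) * (1 + |s|) ^ d := by linarith
    _ = _ := by ring


/-! ### The ideal `(p, y)` of `ℤ[y]` -/

/-- The ideal `(p, y)` of `ℤ[y]`. -/
noncomputable def Ipy (p : ℕ) : Ideal ℤ[X] := Ideal.span {C (p : ℤ), X}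

lemma Ipy_le_comap (p : ℕ) (t : ℤ) (ht : (p : ℤ) ∣ t) :
    Ipy p ≤ Ideal.comap (evalRingHom t) (Ideal.span {(p : ℤ)}) := by
  rw [Ipy, Ideal.span_le]
  rintro g (rfl | rfl)
  · simp
  · simpa [Ideal.mem_span_singleton] using ht

lemma mem_Ipy_iff (p : ℕ) (f : ℤ[X]) : f ∈ Ipy p ↔ (p : ℤ) ∣ f.eval 0 := by
  constructor
  · intro hf
    have := Ipy_le_comap p 0 (dvd_zero _) hf
    simpa [Ideal.mem_comap, Ideal.mem_span_singleton] using this
  · rintro ⟨c, hc⟩
    have h0 : f.coeff 0 = (p : ℤ) * c := by rw [coeff_zero_eq_eval_zero]; exact hc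
    have : f = f.divX * X + C (p : ℤ) * C c := by
      conv_lhs => rw [← divX_mul_X_add f]
      rw [h0, C_mul]
    rw [this]
    exact Ideal.add_mem _ (Ideal.mul_mem_left _ _ (Ideal.subset_span (by simp)))
      (Ideal.mul_mem_right _ _ (Ideal.subset_span (by simp)))

lemma dvd_eval_of_mem_pow (p : ℕ) (L : ℕ) (t : ℤ) (ht : (p : ℤ) ∣ t) (E : ℤ[X])
    (hE : E ∈ Ipy p ^ L) : (p : ℤ) ^ L ∣ E.eval t := by
  have h2 : Ipy p ^ L ≤ Ideal.comap (evalRingHom t) (Ideal.span {(p : ℤ) ^ L}) := by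
    rw [← Ideal.span_singleton_pow, ← Ideal.map_le_iff_le_comap, Ideal.map_pow]
    exact Ideal.pow_right_mono (Ideal.map_le_iff_le_comap.mpr (Ipy_le_comap p t ht)) L
  have := h2 hE
  simpa [Ideal.mem_comap, Ideal.mem_span_singleton] using this

/-! ### Substitution `s = s₀ + y` -/

/-- Substitute `s = s₀ + y` in the coefficients of a bivariate polynomial. -/
noncomputable def shift (G : ℤ[X][X]) (s0 : ℤ) : ℤ[X][X] :=
  G.map (compRingHom (C s0 + X))

lemma shift_eval_eval (G : ℤ[X][X]) (s0 : ℤ) (φ : ℤ[X]) (y0 : ℤ) :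
    ((shift G s0).eval φ).eval y0 = G.evalEval (s0 + y0) (φ.eval y0) := by
  have h1 : ((shift G s0).eval φ).eval y0
      = ((shift G s0).map (evalRingHom y0)).eval (φ.eval y0) := by
    rw [eval_map]
    show (evalRingHom y0) (eval₂ (RingHom.id _) φ (shift G s0)) = _
    rw [hom_eval₂, RingHom.comp_id]
    rfl
  rw [h1, shift, Polynomial.map_map, ← map_evalRingHom_eval]
  congr 2
  refine RingHom.ext fun f => ?_
  simp [eval_comp]

lemma shift_derivative (G : ℤ[X][X]) (s0 : ℤ) :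
    derivative (shift G s0) = shift (derivative G) s0 := by
  rw [shift, shift, derivative_map]

lemma evalEval_congr_left (G : ℤ[X][X]) (s s' x : ℤ) :
    s - s' ∣ G.evalEval s x - G.evalEval s' x :=
  sub_dvd_eval_sub s s' (G.eval (C x))

lemma evalEval_congr_right (G : ℤ[X][X]) (s x x' : ℤ) :
    x - x' ∣ G.evalEval s x - G.evalEval s x' := by
  rw [← map_evalRingHom_eval, ← map_evalRingHom_eval]
  exact sub_dvd_eval_sub x x' _

lemma evalEval_dvd_iff (G : ℤ[X][X]) (q s s' x x' : ℤ) (hs : q ∣ s - s') (hx : q ∣ x - x') :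
    q ∣ G.evalEval s x ↔ q ∣ G.evalEval s' x' := by
  have h1 : q ∣ G.evalEval s x - G.evalEval s' x := hs.trans (evalEval_congr_left G s s' x)
  have h2 : q ∣ G.evalEval s' x - G.evalEval s' x' := hx.trans (evalEval_congr_right G s' x x')
  have h3 : q ∣ G.evalEval s x - G.evalEval s' x' := by
    have := dvd_add h1 h2
    simpa using this
  exact ⟨fun h => by simpa using dvd_sub h h3, fun h => by simpa using dvd_add h3 h⟩

/-! ### Newton iteration in `ℤ[y]` modulo powers of `(p, y)` -/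

lemma exists_newton (G : ℤ[X][X]) (p : ℕ) [hp : Fact p.Prime] (s0 r : ℤ)
    (h0 : (p : ℤ) ∣ G.evalEval s0 r) (h1 : ¬ (p : ℤ) ∣ (derivative G).evalEval s0 r) (L : ℕ) :
    ∃ φ : ℤ[X], φ - C r ∈ Ipy p ∧ (shift G s0).eval φ ∈ Ipy p ^ (L + 1) := by
  induction L with
  | zero =>
    refine ⟨C r, by simp, ?_⟩
    rw [zero_add, pow_one, mem_Ipy_iff, shift_eval_eval]
    simpa using h0
  | succ L ih =>
    obtain ⟨φ, hφ, hE⟩ := ih
    set E := (shift G s0).eval φ with hEdef
    have hcop : IsCoprime (p : ℤ) ((derivative G).evalEval s0 r) :=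
      (Prime.coprime_iff_not_dvd (Nat.prime_iff_prime_int.mp hp.out)).mpr h1
    obtain ⟨u, c, huc⟩ := hcop
    have hEI : E ∈ Ipy p := Ideal.pow_le_self (Nat.succ_ne_zero L) hE
    refine ⟨φ - C c * E, ?_, ?_⟩
    · have : φ - C c * E - C r = (φ - C r) - C c * E := by ring
      rw [this]
      exact Ideal.sub_mem _ hφ (Ideal.mul_mem_left _ _ hEI)
    · obtain ⟨κ, hκ⟩ := binomExpansion (shift G s0) φ (-(C c * E))
      have hrw : φ - C c * E = φ + -(C c * E) := by ring
      rw [hrw, hκ, ← hEdef]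
      set D1 := (derivative (shift G s0)).eval φ with hD1
      have hsplit : E + D1 * -(C c * E) + κ * (-(C c * E)) ^ 2
          = E * (1 - C c * D1) + (κ * C c ^ 2) * (E * E) := by ring
      rw [hsplit]
      have hD1I : 1 - C c * D1 ∈ Ipy p := by
        rw [mem_Ipy_iff, eval_sub, eval_one, eval_mul, eval_C, hD1, shift_derivative,
          shift_eval_eval, add_zero]
        have hφ0 : (p : ℤ) ∣ φ.eval 0 - r := by
          have := (mem_Ipy_iff p _).mp hφ
          simpa using this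
        have h2 : (p : ℤ) ∣ (derivative G).evalEval s0 (φ.eval 0) - (derivative G).evalEval s0 r :=
          hφ0.trans (evalEval_congr_right _ s0 _ _)
        obtain ⟨w, hw⟩ := h2
        refine ⟨u - c * w, ?_⟩
        have : (derivative G).evalEval s0 (φ.eval 0) = (derivative G).evalEval s0 r + p * w := by
          linarith
        rw [this]
        linear_combination -huc
      have hpow : Ipy p ^ (L + 1 + 1) = Ipy p ^ (L + 1) * Ipy p := pow_succ _ _
      rw [hpow]
      exact Ideal.add_mem _ (Ideal.mul_mem_mul hE hD1I)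
        (Ideal.mul_mem_left _ _ (Ideal.mul_mem_mul hE hEI))

/-! ### Uniqueness of Hensel lifts -/

lemma hensel_unique (G : ℤ[X][X]) (p : ℕ) [hp : Fact p.Prime] (s x x' : ℤ) (L : ℕ)
    (hx : (p : ℤ) ^ L ∣ G.evalEval s x) (hx' : (p : ℤ) ^ L ∣ G.evalEval s x')
    (hxx : (p : ℤ) ∣ x' - x) (hd : ¬ (p : ℤ) ∣ (derivative G).evalEval s x) :
    (p : ℤ) ^ L ∣ x' - x := by
  set P := G.map (evalRingHom s) with hP
  have e1 : P.eval x = G.evalEval s x := map_evalRingHom_eval _ _ _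
  have e2 : P.eval x' = G.evalEval s x' := map_evalRingHom_eval _ _ _
  have e3 : (derivative P).eval x = (derivative G).evalEval s x := by
    rw [hP, derivative_map, map_evalRingHom_eval]
  obtain ⟨κ, hκ⟩ := binomExpansion P x (x' - x)
  have h : P.eval x' - P.eval x = (x' - x) * ((derivative P).eval x + κ * (x' - x)) := by
    have : x + (x' - x) = x' := by ring
    rw [this] at hκ
    rw [hκ]
    ring
  have hdvd : (p : ℤ) ^ L ∣ (x' - x) * ((derivative P).eval x + κ * (x' - x)) := by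
    rw [← h, e1, e2]
    exact dvd_sub hx' hx
  have hcop : IsCoprime ((p : ℤ) ^ L) ((derivative P).eval x + κ * (x' - x)) := by
    apply IsCoprime.pow_left
    rw [Prime.coprime_iff_not_dvd (Nat.prime_iff_prime_int.mp hp.out)]
    intro hcon
    apply hd
    rw [← e3]
    have h4 : (p : ℤ) ∣ κ * (x' - x) := Dvd.dvd.mul_left hxx κ
    exact (dvd_add_left h4).mp hcon
  exact hcop.dvd_of_dvd_mul_right hdvd

/-! ### Truncation -/

/-- The part of degree `< m` of `φ(p^k j)` as a polynomial in `j`. -/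
noncomputable def trunc (φ : ℤ[X]) (p k m : ℕ) : ℤ[X] :=
  ∑ i ∈ range m, C (φ.coeff i * (p : ℤ) ^ (k * i)) * X ^ i

lemma trunc_degree_lt (φ : ℤ[X]) (p k m : ℕ) : (trunc φ p k m).degree < m := by
  rw [degree_lt_iff_coeff_zero]
  intro i hi
  rw [trunc, finsetSum_coeff]
  refine Finset.sum_eq_zero fun l hl => ?_
  rw [coeff_C_mul_X_pow, if_neg]
  have := mem_range.mp hl
  omega

lemma trunc_eval_dvd (φ : ℤ[X]) (p k m : ℕ) (j : ℤ) :
    (p : ℤ) ^ (k * m) ∣ φ.eval ((p : ℤ) ^ k * j) - (trunc φ p k m).eval j := by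
  have hlt : φ.natDegree < m + (φ.natDegree + 1) := by omega
  rw [eval_eq_sum_range' hlt, Finset.sum_range_add, trunc, eval_finsetSum]
  have h1 : ∀ i ∈ range m, φ.coeff i * ((p : ℤ) ^ k * j) ^ i
      = (C (φ.coeff i * (p : ℤ) ^ (k * i)) * X ^ i).eval j := by
    intro i _
    simp only [eval_mul, eval_C, eval_pow, eval_X]
    rw [mul_pow, ← pow_mul]
    ring
  rw [Finset.sum_congr rfl h1, add_sub_cancel_left]
  refine Finset.dvd_sum fun i _ => ?_
  rw [mul_pow, ← pow_mul]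
  exact Dvd.dvd.mul_left (Dvd.dvd.mul_right (pow_dvd_pow _ (by nlinarith [Nat.zero_le i, Nat.zero_le k] : k * m ≤ k * (m + i))) _) _


/-! ### Integral Lagrange interpolation -/

/-- The product `∏_{l ≠ i} (i - l)` over the nodes. -/
def wt (S : Finset ℤ) (i : ℤ) : ℤ := ∏ l ∈ S.erase i, (i - l)

/-- The product of all the weights. -/
def bigD (S : Finset ℤ) : ℤ := ∏ i ∈ S, wt S i

/-- `bigD S` times the value at `j` of the `i`-th Lagrange basis polynomial. -/
def cof (S : Finset ℤ) (i j : ℤ) : ℤ := (∏ l ∈ S.erase i, (j - l)) * ∏ i' ∈ S.erase i, wt S i'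

lemma wt_ne_zero (S : Finset ℤ) (i : ℤ) : wt S i ≠ 0 :=
  Finset.prod_ne_zero_iff.mpr fun _ hl => sub_ne_zero.mpr (Finset.ne_of_mem_erase hl).symm

lemma bigD_ne_zero (S : Finset ℤ) : bigD S ≠ 0 :=
  Finset.prod_ne_zero_iff.mpr fun i _ => wt_ne_zero S i

lemma bigD_eq (S : Finset ℤ) {i : ℤ} (hi : i ∈ S) :
    bigD S = wt S i * ∏ i' ∈ S.erase i, wt S i' :=
  (Finset.mul_prod_erase S (wt S) hi).symm

lemma bigD_mul_basis_eval (S : Finset ℤ) {i : ℤ} (hi : i ∈ S) (j : ℤ) :
    (bigD S : ℚ) * (Lagrange.basis S (fun z : ℤ => (z : ℚ)) i).eval (j : ℚ) = (cof S i j : ℚ) := by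
  have hw : (∏ l ∈ S.erase i, ((i : ℚ) - (l : ℚ))) ≠ 0 :=
    Finset.prod_ne_zero_iff.mpr fun l hl =>
      sub_ne_zero.mpr (by exact_mod_cast (Finset.ne_of_mem_erase hl).symm)
  rw [bigD_eq S hi, Lagrange.basis, eval_prod]
  simp only [Lagrange.basisDivisor, eval_mul, eval_C, eval_sub, eval_X]
  rw [Finset.prod_mul_distrib, Finset.prod_inv_distrib, cof, wt]
  push_cast
  field_simp

lemma bigD_mul_interp_eval (S : Finset ℤ) (r : ℤ → ℚ) (j : ℤ) :
    (bigD S : ℚ) * (Lagrange.interpolate S (fun z : ℤ => (z : ℚ)) r).eval (j : ℚ)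
      = ∑ i ∈ S, r i * (cof S i j : ℚ) := by
  rw [Lagrange.interpolate_apply, eval_finsetSum, Finset.mul_sum]
  refine Finset.sum_congr rfl fun i hi => ?_
  rw [eval_mul, eval_C, ← bigD_mul_basis_eval S hi j]
  ring

lemma injOn_cast (S : Finset ℤ) : Set.InjOn (fun z : ℤ => (z : ℚ)) S :=
  fun _ _ _ _ h => Int.cast_injective h

lemma eval_map_cast (Q : ℤ[X]) (t : ℤ) :
    (Q.map (Int.castRingHom ℚ)).eval (t : ℚ) = ((Q.eval t : ℤ) : ℚ) := by
  rw [eval_map, ← eq_intCast (Int.castRingHom ℚ) t, eval₂_at_apply]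
  simp

lemma lagrange_exact_int (S : Finset ℤ) (Q : ℤ[X]) (hQ : Q.degree < #S) (j : ℤ) :
    bigD S * Q.eval j = ∑ i ∈ S, Q.eval i * cof S i j := by
  have hdeg : (Q.map (Int.castRingHom ℚ)).degree < #S := lt_of_le_of_lt degree_map_le hQ
  have h := Lagrange.eq_interpolate (injOn_cast S) hdeg
  have h2 : (bigD S : ℚ) * (Q.map (Int.castRingHom ℚ)).eval (j : ℚ)
      = ∑ i ∈ S, (Q.map (Int.castRingHom ℚ)).eval (i : ℚ) * (cof S i j : ℚ) := by
    conv_lhs => rw [h]
    rw [bigD_mul_interp_eval]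
  simp only [eval_map_cast] at h2
  exact_mod_cast h2

/-- Rigidity: values congruent to a polynomial of small degree modulo a large modulus
lie on the interpolating polynomial. -/
lemma rigidity (S : Finset ℤ) (x : ℤ → ℤ) (Q : ℤ[X]) (hQ : Q.degree < #S) (P : ℤ) (j : ℤ)
    (hS : ∀ i ∈ S, P ∣ x i - Q.eval i) (hj : P ∣ x j - Q.eval j)
    (hsmall : |bigD S * x j - ∑ i ∈ S, x i * cof S i j| < P) :
    (Lagrange.interpolate S (fun z : ℤ => (z : ℚ)) (fun i => (x i : ℚ))).eval (j : ℚ) = x j := by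
  have hZ : P ∣ bigD S * x j - ∑ i ∈ S, x i * cof S i j := by
    have h1 := lagrange_exact_int S Q hQ j
    have h2 : bigD S * x j - ∑ i ∈ S, x i * cof S i j
        = bigD S * (x j - Q.eval j) - ∑ i ∈ S, (x i - Q.eval i) * cof S i j := by
      rw [mul_sub, h1]
      simp only [sub_mul, Finset.sum_sub_distrib]
      ring
    rw [h2]
    exact dvd_sub (Dvd.dvd.mul_left hj _)
      (Finset.dvd_sum fun i hi => Dvd.dvd.mul_right (hS i hi) _)
  have hZ0 : bigD S * x j - ∑ i ∈ S, x i * cof S i j = 0 := Int.eq_zero_of_abs_lt_dvd hZ hsmall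
  have h3 := bigD_mul_interp_eval S (fun i => (x i : ℚ)) j
  have hD : (bigD S : ℚ) ≠ 0 := by exact_mod_cast bigD_ne_zero S
  have h4 : (bigD S : ℚ) * (x j : ℚ) = ∑ i ∈ S, (x i : ℚ) * (cof S i j : ℚ) := by
    have := congrArg (Int.cast : ℤ → ℚ) (sub_eq_zero.mp hZ0)
    push_cast at this
    exact this
  rw [← h4] at h3
  exact mul_left_cancel₀ hD h3

/-! ### Size bounds for the interpolation data -/

lemma abs_wt_le (S : Finset ℤ) (M : ℤ) (hM : 1 ≤ M) (hS : ∀ i ∈ S, 0 ≤ i ∧ i ≤ M) {i : ℤ}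
    (hi : i ∈ S) : |wt S i| ≤ M ^ #S := by
  rw [wt, Finset.abs_prod]
  calc ∏ l ∈ S.erase i, |i - l| ≤ ∏ _l ∈ S.erase i, M :=
        Finset.prod_le_prod (fun _ _ => abs_nonneg _) (fun l hl => by
          have h1 := hS l (Finset.mem_of_mem_erase hl)
          have h2 := hS i hi
          rw [abs_le]
          constructor <;> linarith)
    _ = M ^ #(S.erase i) := by rw [Finset.prod_const]
    _ ≤ M ^ #S := pow_le_pow_right₀ hM (Finset.card_le_card (Finset.erase_subset _ _))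

lemma abs_bigD_le (S : Finset ℤ) (M : ℤ) (hM : 1 ≤ M) (hS : ∀ i ∈ S, 0 ≤ i ∧ i ≤ M) :
    |bigD S| ≤ M ^ (#S * #S) := by
  rw [bigD, Finset.abs_prod]
  calc ∏ i ∈ S, |wt S i| ≤ ∏ _i ∈ S, M ^ #S :=
        Finset.prod_le_prod (fun _ _ => abs_nonneg _) (fun i hi => abs_wt_le S M hM hS hi)
    _ = M ^ (#S * #S) := by rw [Finset.prod_const, ← pow_mul]

lemma abs_cof_le (S : Finset ℤ) (M : ℤ) (hM : 1 ≤ M) (hS : ∀ i ∈ S, 0 ≤ i ∧ i ≤ M) {i : ℤ}
    (hi : i ∈ S) (j : ℤ) (hj : 0 ≤ j ∧ j ≤ M) : |cof S i j| ≤ M ^ (#S * #S) := by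
  have hM0 : (0 : ℤ) ≤ M := by linarith
  have hc : #(S.erase i) + 1 = #S := Finset.card_erase_add_one hi
  rw [cof, abs_mul, Finset.abs_prod, Finset.abs_prod]
  have h1 : ∏ l ∈ S.erase i, |j - l| ≤ M ^ #(S.erase i) := by
    calc ∏ l ∈ S.erase i, |j - l| ≤ ∏ _l ∈ S.erase i, M :=
          Finset.prod_le_prod (fun _ _ => abs_nonneg _) (fun l hl => by
            have h1 := hS l (Finset.mem_of_mem_erase hl)
            rw [abs_le]
            constructor <;> linarith)
      _ = M ^ #(S.erase i) := by rw [Finset.prod_const]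
  have h2 : ∏ i' ∈ S.erase i, |wt S i'| ≤ M ^ (#S * #(S.erase i)) := by
    calc ∏ i' ∈ S.erase i, |wt S i'| ≤ ∏ _i' ∈ S.erase i, M ^ #S :=
          Finset.prod_le_prod (fun _ _ => abs_nonneg _)
            (fun i' hi' => abs_wt_le S M hM hS (Finset.mem_of_mem_erase hi'))
      _ = M ^ (#S * #(S.erase i)) := by rw [Finset.prod_const, ← pow_mul]
  calc (∏ l ∈ S.erase i, |j - l|) * ∏ i' ∈ S.erase i, |wt S i'|
      ≤ M ^ #(S.erase i) * M ^ (#S * #(S.erase i)) :=
        mul_le_mul h1 h2 (Finset.prod_nonneg fun _ _ => abs_nonneg _) (pow_nonneg hM0 _)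
    _ = M ^ (#(S.erase i) + #S * #(S.erase i)) := by rw [pow_add]
    _ ≤ M ^ (#S * #S) := pow_le_pow_right₀ hM (by nlinarith)

lemma abs_defect_le (S : Finset ℤ) (M : ℤ) (hM : 1 ≤ M) (hS : ∀ i ∈ S, 0 ≤ i ∧ i ≤ M)
    (j : ℤ) (hj : 0 ≤ j ∧ j ≤ M) (x : ℤ → ℤ) (Xm : ℤ) (hXS : ∀ i ∈ S, |x i| ≤ Xm)
    (hXj : |x j| ≤ Xm) :
    |bigD S * x j - ∑ i ∈ S, x i * cof S i j| ≤ (#S + 1) * M ^ (#S * #S) * Xm := by
  have hX0 : 0 ≤ Xm := (abs_nonneg _).trans hXj
  have hMp : (0 : ℤ) ≤ M ^ (#S * #S) := pow_nonneg (by linarith) _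
  have h1 : |bigD S * x j| ≤ M ^ (#S * #S) * Xm := by
    rw [abs_mul]
    exact mul_le_mul (abs_bigD_le S M hM hS) hXj (abs_nonneg _) hMp
  have h2 : |∑ i ∈ S, x i * cof S i j| ≤ #S * (M ^ (#S * #S) * Xm) := by
    refine (Finset.abs_sum_le_sum_abs _ _).trans ?_
    calc ∑ i ∈ S, |x i * cof S i j| ≤ ∑ _i ∈ S, M ^ (#S * #S) * Xm :=
          Finset.sum_le_sum fun i hi => by
            rw [abs_mul, mul_comm]
            exact mul_le_mul (abs_cof_le S M hM hS hi j hj) (hXS i hi) (abs_nonneg _) hMp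
      _ = #S * (M ^ (#S * #S) * Xm) := by rw [Finset.sum_const, nsmul_eq_mul]
  calc |bigD S * x j - ∑ i ∈ S, x i * cof S i j|
      ≤ |bigD S * x j| + |∑ i ∈ S, x i * cof S i j| := abs_sub _ _
    _ ≤ M ^ (#S * #S) * Xm + #S * (M ^ (#S * #S) * Xm) := add_le_add h1 h2
    _ = (#S + 1) * M ^ (#S * #S) * Xm := by ring


/-! ### Auxiliary evaluation and degree lemmas over `ℚ` -/

lemma eval_eval_eq_evalEval (H : ℚ[X][X]) (g : ℚ[X]) (t : ℚ) :
    (H.eval g).eval t = H.evalEval t (g.eval t) := by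
  rw [← map_evalRingHom_eval, eval_map]
  show (evalRingHom t) (eval₂ (RingHom.id _) g H) = _
  rw [hom_eval₂, RingHom.comp_id]
  rfl

lemma natDegree_eval_le (H : ℚ[X][X]) (g : ℚ[X]) (n dc dg : ℕ) (hn : H.natDegree ≤ n)
    (hc : ∀ i ∈ range (n + 1), (H.coeff i).natDegree ≤ dc) (hg : g.natDegree ≤ dg) :
    (H.eval g).natDegree ≤ dc + n * dg := by
  rw [eval_eq_sum_range' (Nat.lt_succ_of_le hn)]
  refine natDegree_sum_le_of_forall_le _ _ fun i hi => ?_
  have hi' : i ≤ n := Nat.lt_succ_iff.mp (mem_range.mp hi)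
  calc (H.coeff i * g ^ i).natDegree ≤ (H.coeff i).natDegree + (g ^ i).natDegree :=
        natDegree_mul_le
    _ ≤ dc + i * g.natDegree := add_le_add (hc i hi) natDegree_pow_le
    _ ≤ dc + n * dg := by
        have := Nat.mul_le_mul hi' hg
        omega

lemma evalEval_map_cast (G : ℤ[X][X]) (s x : ℤ) :
    (G.map (mapRingHom (Int.castRingHom ℚ))).evalEval (s : ℚ) (x : ℚ)
      = ((G.evalEval s x : ℤ) : ℚ) := by
  have := map_mapRingHom_evalEval (Int.castRingHom ℚ) G s x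
  simpa using this

/-! ### The interpolation theorem -/

/-- **Integer roots in a residue class force a polynomial root.**
Let `G(s, X) ∈ ℤ[s][X]` be monic in `X`, let `p` be a prime and `s₀` an integer such that every
root modulo `p` of `G(s₀, X)` is simple. If `G(s, X)` has an integer root for every integer
`s ≡ s₀ (mod p)`, then `G` has a root in `ℚ[s]`. -/
theorem exists_polynomial_root (G : ℤ[X][X]) (hG : G.Monic) (p : ℕ) [hp : Fact p.Prime] (s0 : ℤ)
    (hsimple : ∀ r : ℤ, (p : ℤ) ∣ G.evalEval s0 r → ¬ (p : ℤ) ∣ (derivative G).evalEval s0 r)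
    (hroot : ∀ s : ℤ, (p : ℤ) ∣ s - s0 → ∃ x : ℤ, G.evalEval s x = 0) :
    ∃ g : ℚ[X], (G.map (mapRingHom (Int.castRingHom ℚ))).eval g = 0 := by
  classical
  obtain ⟨A, d, hA, hbound⟩ := root_bound G hG
  set n := G.natDegree with hn
  set dc := ∑ i ∈ range (n + 1), (G.coeff i).natDegree with hdc
  set m := d + 1 with hm
  set B := dc + n * m with hB
  set T := max m (B + 1) with hT
  set M : ℕ := p * T with hM
  have hp2 : 2 ≤ p := hp.out.two_le
  have hp0 : (0 : ℤ) < p := by exact_mod_cast hp.out.pos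
  have hmT : m ≤ T := le_max_left m (B + 1)
  have hBT : B + 1 ≤ T := le_max_right m (B + 1)
  have hT1 : 1 ≤ T := le_trans (by omega) hmT
  have hM1 : 1 ≤ M := Nat.mul_pos (by omega) hT1
  have hM1' : (1 : ℤ) ≤ (M : ℤ) := by exact_mod_cast hM1
  set C1 : ℤ := A * (1 + |s0| + M) ^ d with hC1
  set C2 : ℤ := ((m : ℤ) + 1) * (M : ℤ) ^ (m * m) * C1 with hC2
  set k : ℕ := C2.toNat + 1 with hk
  have hk1 : 1 ≤ k := by omega
  have hpk : C2 < (p : ℤ) ^ k := by
    have h1 : C2 ≤ (C2.toNat : ℤ) := Int.self_le_toNat C2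
    have h2 : (k : ℤ) < (p : ℤ) ^ k := by exact_mod_cast (Nat.lt_pow_self hp2 : k < p ^ k)
    have h3 : (C2.toNat : ℤ) < k := by rw [hk]; push_cast; linarith
    linarith
  have hpkpos : (0 : ℤ) < (p : ℤ) ^ k := pow_pos hp0 k
  have hpk1 : (1 : ℤ) ≤ (p : ℤ) ^ k := by linarith
  -- the parameters `s_j = s₀ + p^k j` and their integer roots
  set sj : ℕ → ℤ := fun j => s0 + (p : ℤ) ^ k * j with hsj
  have hsj0 : ∀ j, (p : ℤ) ∣ sj j - s0 := fun j => by
    simp only [hsj, add_sub_cancel_left]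
    exact Dvd.dvd.mul_right (dvd_pow_self _ (by omega)) _
  choose x hx using fun j : ℕ => hroot (sj j) (hsj0 j)
  -- pigeonhole on the residue of the root
  obtain ⟨y, -, hy⟩ := Finset.exists_le_card_fiber_of_mul_le_card_of_maps_to
    (s := range M) (t := (Finset.univ : Finset (ZMod p))) (f := fun j => ((x j : ℤ) : ZMod p))
    (fun _ _ => Finset.mem_univ _) Finset.univ_nonempty (n := T)
    (by rw [Finset.card_univ, ZMod.card, Finset.card_range])
  set J := {j ∈ range M | ((x j : ℤ) : ZMod p) = y} with hJ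
  have hJcard : T ≤ #J := hy
  obtain ⟨j0, hj0⟩ : J.Nonempty := Finset.card_pos.mp (lt_of_lt_of_le hT1 hJcard)
  set r := x j0 with hr
  have hJr : ∀ j ∈ J, (p : ℤ) ∣ x j - r := by
    intro j hj
    have h1 := (Finset.mem_filter.mp hj).2
    have h2 := (Finset.mem_filter.mp hj0).2
    rw [← ZMod.intCast_eq_intCast_iff_dvd_sub, h1, hr, h2]
  have hJM : ∀ j ∈ J, j < M := fun j hj => Finset.mem_range.mp (Finset.mem_filter.mp hj).1
  -- the Newton polynomial at the residue class `r`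
  have hr0 : (p : ℤ) ∣ G.evalEval s0 r :=
    (evalEval_dvd_iff G (p : ℤ) (sj j0) s0 r r (hsj0 j0) (by simp)).mp
      (by rw [hr, hx j0]; exact dvd_zero _)
  have hr1 : ¬ (p : ℤ) ∣ (derivative G).evalEval s0 r := hsimple r hr0
  obtain ⟨φ, hφ, hφE⟩ := exists_newton G p s0 r hr0 hr1 (k * m)
  set Q := trunc φ p k m with hQ
  have hcong : ∀ j ∈ J, (p : ℤ) ^ (k * m) ∣ x j - Q.eval (j : ℤ) := by
    intro j hj
    set t : ℤ := (p : ℤ) ^ k * j with ht
    have htp : (p : ℤ) ∣ t := Dvd.dvd.mul_right (dvd_pow_self _ (by omega)) _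
    have h1 : (p : ℤ) ^ (k * m) ∣ G.evalEval (sj j) (φ.eval t) := by
      have := dvd_eval_of_mem_pow p (k * m + 1) t htp _ hφE
      rw [shift_eval_eval] at this
      exact (pow_dvd_pow _ (Nat.le_succ _)).trans this
    have h2 : (p : ℤ) ∣ φ.eval t - r := by
      have := dvd_eval_of_mem_pow p 1 t htp _ (by rw [pow_one]; exact hφ)
      simpa using this
    have h3 : (p : ℤ) ∣ φ.eval t - x j := by
      have := dvd_sub h2 (hJr j hj)
      simpa using this
    have h4 : ¬ (p : ℤ) ∣ (derivative G).evalEval (sj j) (x j) := by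
      rw [evalEval_dvd_iff (derivative G) (p : ℤ) (sj j) s0 (x j) r (hsj0 j) (hJr j hj)]
      exact hr1
    have h5 := hensel_unique G p (sj j) (x j) (φ.eval t) (k * m)
      (by rw [hx j]; exact dvd_zero _) h1 h3 h4
    have h6 := trunc_eval_dvd φ p k m (j : ℤ)
    have h7 : x j - Q.eval (j : ℤ) = (φ.eval t - Q.eval (j : ℤ)) - (φ.eval t - x j) := by ring
    rw [h7]
    exact dvd_sub h6 h5
  -- size of the roots
  have hsize : ∀ j ∈ J, |x j| ≤ C1 * (p : ℤ) ^ (k * d) := by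
    intro j hj
    have h1 := hbound (sj j) (x j) (hx j)
    have hjM : (j : ℤ) ≤ M := by exact_mod_cast (hJM j hj).le
    have hj0' : (0 : ℤ) ≤ (j : ℤ) := by positivity
    have h2 : 1 + |sj j| ≤ (p : ℤ) ^ k * (1 + |s0| + M) := by
      have h3 : |sj j| ≤ |s0| + (p : ℤ) ^ k * j := by
        calc |sj j| ≤ |s0| + |(p : ℤ) ^ k * j| := abs_add_le _ _
          _ = |s0| + (p : ℤ) ^ k * j := by
              rw [abs_of_nonneg (show (0 : ℤ) ≤ (p : ℤ) ^ k * j by positivity)]
      have h4 : (p : ℤ) ^ k * j ≤ (p : ℤ) ^ k * M := mul_le_mul_of_nonneg_left hjM hpkpos.le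
      have h5 : 1 + |s0| ≤ (p : ℤ) ^ k * (1 + |s0|) :=
        le_mul_of_one_le_left (by positivity) hpk1
      nlinarith
    have h6 : (1 + |sj j|) ^ d ≤ ((p : ℤ) ^ k * (1 + |s0| + M)) ^ d :=
      pow_le_pow_left₀ (by positivity) h2 d
    calc |x j| ≤ A * (1 + |sj j|) ^ d := h1
      _ ≤ A * ((p : ℤ) ^ k * (1 + |s0| + M)) ^ d := mul_le_mul_of_nonneg_left h6 hA
      _ = C1 * (p : ℤ) ^ (k * d) := by rw [hC1, mul_pow, ← pow_mul]; ring
  -- interpolation nodes
  obtain ⟨S0, hS0J, hS0card⟩ := Finset.exists_subset_card_eq (hmT.trans hJcard)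
  set S : Finset ℤ := S0.map Nat.castEmbedding with hS
  have hScard : #S = m := by rw [hS, Finset.card_map, hS0card]
  set xz : ℤ → ℤ := fun z => x z.toNat with hxz
  have hxz' : ∀ j : ℕ, xz (j : ℤ) = x j := fun j => by simp [hxz]
  have hSmem : ∀ i ∈ S, ∃ j ∈ J, (j : ℤ) = i := by
    intro i hi
    obtain ⟨j, hj, rfl⟩ := Finset.mem_map.mp hi
    exact ⟨j, hS0J hj, rfl⟩
  have hSrange : ∀ i ∈ S, 0 ≤ i ∧ i ≤ (M : ℤ) := by
    intro i hi
    obtain ⟨j, hj, rfl⟩ := hSmem i hi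
    exact ⟨by positivity, by exact_mod_cast (hJM j hj).le⟩
  set g0 : ℚ[X] := Lagrange.interpolate S (fun z : ℤ => (z : ℚ)) (fun i => (xz i : ℚ)) with hg0
  have hQdeg : Q.degree < #S := by rw [hScard]; exact trunc_degree_lt φ p k m
  have hXm0 : 0 ≤ C1 * (p : ℤ) ^ (k * d) := by
    have := hsize j0 hj0
    exact (abs_nonneg _).trans this
  have hkey : ∀ j ∈ J, g0.eval ((j : ℤ) : ℚ) = x j := by
    intro j hj
    have h := rigidity S xz Q hQdeg ((p : ℤ) ^ (k * m)) (j : ℤ)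
      (fun i hi => by
        obtain ⟨j', hj', rfl⟩ := hSmem i hi
        rw [hxz']
        exact hcong j' hj')
      (by rw [hxz']; exact hcong j hj)
      (by
        have hb := abs_defect_le S (M : ℤ) hM1' hSrange (j : ℤ)
          ⟨by positivity, by exact_mod_cast (hJM j hj).le⟩ xz (C1 * (p : ℤ) ^ (k * d))
          (fun i hi => by
            obtain ⟨j', hj', rfl⟩ := hSmem i hi
            rw [hxz']
            exact hsize j' hj')
          (by rw [hxz']; exact hsize j hj)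
        rw [hScard] at hb
        have h8 : ((m : ℤ) + 1) * (M : ℤ) ^ (m * m) * (C1 * (p : ℤ) ^ (k * d))
            = C2 * (p : ℤ) ^ (k * d) := by rw [hC2]; ring
        have h9 : C2 * (p : ℤ) ^ (k * d) < (p : ℤ) ^ (k * m) := by
          have : (p : ℤ) ^ (k * m) = (p : ℤ) ^ k * (p : ℤ) ^ (k * d) := by
            rw [hm, ← pow_add]; congr 1; ring
          rw [this]
          exact mul_lt_mul_of_pos_right hpk (pow_pos hp0 _)
        calc _ ≤ ((m : ℤ) + 1) * (M : ℤ) ^ (m * m) * (C1 * (p : ℤ) ^ (k * d)) := hb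
          _ = C2 * (p : ℤ) ^ (k * d) := h8
          _ < (p : ℤ) ^ (k * m) := h9)
    rw [hxz'] at h
    exact h
  -- the polynomial root
  have hpkQ : ((p : ℚ) ^ k) ≠ 0 := pow_ne_zero _ (by exact_mod_cast hp.out.ne_zero)
  set lam : ℚ[X] := C ((p : ℚ) ^ k) * X + C (s0 : ℚ) with hlam
  set mu : ℚ[X] := C (((p : ℚ) ^ k)⁻¹) * (X - C (s0 : ℚ)) with hmu
  set g : ℚ[X] := g0.comp mu with hg
  set H : ℚ[X][X] := G.map (mapRingHom (Int.castRingHom ℚ)) with hH
  refine ⟨g, ?_⟩
  have hΨ : (H.eval g).comp lam = 0 := by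
    refine eq_zero_of_natDegree_lt_card_of_eval_eq_zero' _ (J.image (fun j : ℕ => (j : ℚ)))
      ?_ ?_
    · intro t ht
      obtain ⟨j, hj, rfl⟩ := Finset.mem_image.mp ht
      have e1 : lam.eval (j : ℚ) = ((sj j : ℤ) : ℚ) := by
        simp only [hlam, hsj, eval_add, eval_mul, eval_C, eval_X]
        push_cast
        ring
      have e2 : mu.eval ((sj j : ℤ) : ℚ) = (j : ℚ) := by
        simp only [hmu, hsj, eval_mul, eval_C, eval_sub, eval_X]
        push_cast
        field_simp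
        ring
      have e3 : g.eval ((sj j : ℤ) : ℚ) = ((x j : ℤ) : ℚ) := by
        rw [hg, eval_comp, e2]
        have := hkey j hj
        simpa using this
      rw [eval_comp, e1, eval_eval_eq_evalEval, e3, hH, evalEval_map_cast, hx j]
      simp
    · have hdg0 : g0.natDegree ≤ m := by
        have h1 := Lagrange.degree_interpolate_le (r := fun i => (xz i : ℚ)) (injOn_cast S)
        have h2 := natDegree_le_of_degree_le h1
        rw [hScard] at h2
        exact h2.trans (Nat.sub_le _ _)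
      have hdmu : mu.natDegree ≤ 1 :=
        (natDegree_C_mul_le _ _).trans (natDegree_X_sub_C_le _)
      have hdg : g.natDegree ≤ m := by
        calc g.natDegree ≤ g0.natDegree * mu.natDegree := natDegree_comp_le
          _ ≤ m * 1 := Nat.mul_le_mul hdg0 hdmu
          _ = m := mul_one m
      have hdH : (H.eval g).natDegree ≤ B := by
        refine natDegree_eval_le H g n dc m (natDegree_map_le) ?_ hdg
        intro i hi
        rw [hH, coeff_map, coe_mapRingHom]
        exact (natDegree_map_le).trans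
          (Finset.single_le_sum (f := fun i => (G.coeff i).natDegree)
            (fun _ _ => Nat.zero_le _) hi)
      have hdlam : lam.natDegree ≤ 1 := natDegree_linear_le
      calc ((H.eval g).comp lam).natDegree ≤ (H.eval g).natDegree * lam.natDegree :=
            natDegree_comp_le
        _ ≤ B * 1 := Nat.mul_le_mul hdH hdlam
        _ < #(J.image (fun j : ℕ => (j : ℚ))) := by
            rw [Finset.card_image_of_injective _ Nat.cast_injective]
            omega
  have hcomp : lam.comp mu = X := by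
    simp only [hlam, hmu, add_comp, mul_comp, C_comp, X_comp]
    rw [← mul_assoc, ← C_mul, mul_inv_cancel₀ hpkQ]
    simp
  calc H.eval g = (H.eval g).comp X := (comp_X).symm
    _ = (H.eval g).comp (lam.comp mu) := by rw [hcomp]
    _ = ((H.eval g).comp lam).comp mu := (comp_assoc _ _ _).symm
    _ = 0 := by rw [hΨ, zero_comp]

end Fermat.Agent.S52.helper267
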