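import Mathlib
import Fermat.Prelude.Def_FLTPrelim_ModularRep
import Fermat.Agent.S51.helper2572_Three
import Fermat.Agent.S52.helper489_PsiThree
import Fermat.Agent.S52.helper267_IntRoots
import Fermat.Agent.S52.helper1047_NoThreeIsog

/-!
# S52, aux-prime-free irreducibility route: the glue (B1)+(B2)+(B3)

* `exists_int_root_of_reducible` : an integral model with `Δ ≠ 0` whose mod-3 representation is
  not irreducible has an integer root `n` of `n⁴ - 486 c₄ n² - 5832 c₆ n - 19683 c₄²`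
  (`n = 108 x₀ + 9 b₂` for a rational root `x₀` of `ψ₃`; landed S51 + helper489 identity).
* `exists_no_int_root` : a polynomial family `(A4(s), A6(s))`, `A4, A6 ∈ ℤ[s]`, with
  `A4³ - A6² = κ D⁵` over a field of characteristic zero, `D` non-constant and coprime to `A4`,
  and one prime `p ≥ 5` not dividing `A4(0)³ - A6(0)²`: there is an integer `s ≡ 0 (mod p)` such
  that the quartic `n⁴ - 486 A4(s) n² - 5832 A6(s) n - 19683 A4(s)²` has no integer root.
  (helper267's interpolation lemma `exists_polynomial_root` + `no_three_root_generic`.)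
-/

set_option autoImplicit false

namespace Fermat.Agent.S52.helper1047

open Polynomial

/-- An integral Weierstrass model with `Δ ≠ 0` whose mod-3 representation is not irreducible has
an integer root of the quartic `n⁴ - 486 c₄ n² - 5832 c₆ n - 19683 c₄²`. -/
theorem exists_int_root_of_reducible (W : WeierstrassCurve ℤ) (hΔ : W.Δ ≠ 0)
    (hred : ¬ W.ModRepIsIrreducible 3) :
    ∃ n : ℤ, n ^ 4 - 486 * W.c₄ * n ^ 2 - 5832 * W.c₆ * n - 19683 * W.c₄ ^ 2 = 0 := by
  unfold WeierstrassCurve.ModRepIsIrreducible at hred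
  have hΔ' : (W.map (Int.castRingHom ℚ)).Δ ≠ 0 := by
    rw [WeierstrassCurve.map_Δ]
    simpa using hΔ
  obtain ⟨x₀, hx₀⟩ := Fermat.Agent.S51.helper2572.three_reducible_imp_root
    (W.map (Int.castRingHom ℚ)) hΔ' hred
  have hid := Fermat.Agent.S52.helper489.psi3_shift_identity (W.map (Int.castRingHom ℚ)) x₀
  rw [hx₀, mul_zero] at hid
  simp only [WeierstrassCurve.map_c₄, WeierstrassCurve.map_c₆, WeierstrassCurve.map_b₂,
    eq_intCast] at hid
  obtain ⟨n, hn⟩ := Fermat.Agent.S52.helper489.exists_int_of_quartic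
    (108 * x₀ + 9 * (W.b₂ : ℚ)) (486 * W.c₄) (5832 * W.c₆) (19683 * W.c₄ ^ 2)
    (by push_cast; linear_combination hid)
  rw [← hn] at hid
  exact ⟨n, by exact_mod_cast hid⟩

/-- The bivariate quartic `X⁴ - 486 A4 X² - 5832 A6 X - 19683 A4²` over `ℤ[s]`. -/
noncomputable def quartic (A4 A6 : ℤ[X]) : ℤ[X][X] :=
  X ^ (3 + 1) - (C (486 * A4) * X ^ 2 + C (5832 * A6) * X + C (19683 * A4 ^ 2))

theorem quartic_monic (A4 A6 : ℤ[X]) : (quartic A4 A6).Monic := by
  unfold quartic
  apply Polynomial.monic_X_pow_sub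
  compute_degree
  norm_num

theorem quartic_evalEval (A4 A6 : ℤ[X]) (s x : ℤ) :
    (quartic A4 A6).evalEval s x
      = x ^ 4 - 486 * A4.eval s * x ^ 2 - 5832 * A6.eval s * x - 19683 * (A4.eval s) ^ 2 := by
  simp only [quartic, Polynomial.evalEval, eval_sub, eval_add, eval_mul, eval_pow, eval_X, eval_C,
    eval_ofNat]
  ring

theorem quartic_derivative_evalEval (A4 A6 : ℤ[X]) (s x : ℤ) :
    (derivative (quartic A4 A6)).evalEval s x
      = 4 * (x ^ 3 - 243 * A4.eval s * x - 1458 * A6.eval s) := by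
  simp only [quartic, Polynomial.evalEval, derivative_sub, derivative_add, derivative_mul,
    derivative_X_pow, derivative_X, derivative_C, eval_sub, eval_add, eval_mul, eval_pow, eval_X,
    eval_C, eval_ofNat, eval_zero, eval_one, eval_natCast]
  push_cast
  ring

/-- **Route B core.** -/
theorem exists_no_int_root (A4 A6 : ℤ[X]) (p : ℕ) [hp : Fact p.Prime] (hp2 : p ≠ 2) (hp3 : p ≠ 3)
    (hpd : ¬ (p : ℤ) ∣ (A4.eval 0) ^ 3 - (A6.eval 0) ^ 2)
    {K : Type*} [Field K] [CharZero K] (κ : K) (hκ : κ ≠ 0) (D : K[X]) (hD : D.natDegree ≠ 0)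
    (hfact : (A4 ^ 3 - A6 ^ 2).map (Int.castRingHom K) = C κ * D ^ 5)
    (hcop : IsCoprime (A4.map (Int.castRingHom K)) D) :
    ∃ s : ℤ, (p : ℤ) ∣ s ∧
      ∀ n : ℤ, n ^ 4 - 486 * A4.eval s * n ^ 2 - 5832 * A6.eval s * n - 19683 * (A4.eval s) ^ 2 ≠ 0 := by
  by_contra hcon
  push Not at hcon
  have hpp : Prime (p : ℤ) := Nat.prime_iff_prime_int.mp hp.out
  have h2 : ¬ (p : ℤ) ∣ 2 := by
    intro h
    have : p ∣ 2 := by exact_mod_cast h
    exact hp2 ((Nat.prime_dvd_prime_iff_eq hp.out Nat.prime_two).mp this)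
  have h3 : ¬ (p : ℤ) ∣ 3 := by
    intro h
    have : p ∣ 3 := by exact_mod_cast h
    exact hp3 ((Nat.prime_dvd_prime_iff_eq hp.out Nat.prime_three).mp this)
  -- simple roots modulo `p` at `s₀ = 0`
  have hsimple : ∀ r : ℤ, (p : ℤ) ∣ (quartic A4 A6).evalEval 0 r →
      ¬ (p : ℤ) ∣ (derivative (quartic A4 A6)).evalEval 0 r := by
    intro r hG hG'
    rw [quartic_evalEval] at hG
    rw [quartic_derivative_evalEval] at hG'
    set α := A4.eval 0 with hα
    set β := A6.eval 0 with hβ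
    have hF : (p : ℤ) ∣ r ^ 3 - 243 * α * r - 1458 * β := by
      rcases hpp.dvd_or_dvd hG' with h | h
      · exfalso
        have h4 : (p : ℤ) ∣ 2 * 2 := by norm_num; exact h
        rcases hpp.dvd_or_dvd h4 with h | h <;> exact h2 h
      · exact h
    have hF'2 : (p : ℤ) ∣ (3 * r ^ 2 - 243 * α) ^ 2 := by
      have e : (3 * r ^ 2 - 243 * α) ^ 2 = 12 * r * (r ^ 3 - 243 * α * r - 1458 * β)
          - 3 * (r ^ 4 - 486 * α * r ^ 2 - 5832 * β * r - 19683 * α ^ 2) := by ring
      rw [e]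
      exact dvd_sub (Dvd.dvd.mul_left hF _) (Dvd.dvd.mul_left hG _)
    have hF' : (p : ℤ) ∣ 3 * r ^ 2 - 243 * α := hpp.dvd_of_dvd_pow hF'2
    have hdisc : (p : ℤ) ∣ 2 ^ 2 * 3 ^ 15 * (α ^ 3 - β ^ 2) := by
      have e : 2 ^ 2 * 3 ^ 15 * (α ^ 3 - β ^ 2)
          = -((27 * (-1458 * β) - 18 * (-243 * α) * r) * (r ^ 3 - 243 * α * r - 1458 * β)
            + (6 * (-243 * α) * r ^ 2 - 9 * (-1458 * β) * r + 4 * (-243 * α) ^ 2)
              * (3 * r ^ 2 - 243 * α)) := by ring
      rw [e]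
      exact (dvd_add (Dvd.dvd.mul_left hF _) (Dvd.dvd.mul_left hF' _)).neg_right
    rcases hpp.dvd_or_dvd hdisc with h | h
    · rcases hpp.dvd_or_dvd h with h | h
      · exact h2 (hpp.dvd_of_dvd_pow h)
      · exact h3 (hpp.dvd_of_dvd_pow h)
    · exact hpd h
  have hroot : ∀ s : ℤ, (p : ℤ) ∣ s - 0 → ∃ x : ℤ, (quartic A4 A6).evalEval s x = 0 := by
    intro s hs
    rw [sub_zero] at hs
    obtain ⟨n, hn⟩ := hcon s hs
    exact ⟨n, by rw [quartic_evalEval]; exact hn⟩
  obtain ⟨g, hg⟩ := Fermat.Agent.S52.helper267.exists_polynomial_root (quartic A4 A6)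
    (quartic_monic A4 A6) p 0 hsimple hroot
  -- transport the polynomial root to `K[X]`
  set φ : ℚ →+* K := algebraMap ℚ K with hφ
  have hcomp : φ.comp (Int.castRingHom ℚ) = Int.castRingHom K := RingHom.ext_int _ _
  set A4K : K[X] := A4.map (Int.castRingHom K) with hA4K
  set A6K : K[X] := A6.map (Int.castRingHom K) with hA6K
  have hm4 : (A4.map (Int.castRingHom ℚ)).map φ = A4K := by rw [Polynomial.map_map, hcomp]
  have hm6 : (A6.map (Int.castRingHom ℚ)).map φ = A6K := by rw [Polynomial.map_map, hcomp]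
  set gK : K[X] := g.map φ with hgK
  have hgK' : gK ^ 4 - (486 * A4K * gK ^ 2 + 5832 * A6K * gK + 19683 * A4K ^ 2) = 0 := by
    have h1 : g ^ 4 - (486 * A4.map (Int.castRingHom ℚ) * g ^ 2
        + 5832 * A6.map (Int.castRingHom ℚ) * g + 19683 * (A4.map (Int.castRingHom ℚ)) ^ 2) = 0 := by
      have := hg
      simp only [quartic, Polynomial.map_sub, Polynomial.map_add, Polynomial.map_mul,
        Polynomial.map_pow, Polynomial.map_X, Polynomial.map_C, coe_mapRingHom, eval_sub, eval_add,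
        eval_mul, eval_pow, eval_X, eval_C, Polynomial.map_ofNat] at this
      exact this
    have h2 := congrArg (Polynomial.map φ) h1
    simp only [Polynomial.map_sub, Polynomial.map_add, Polynomial.map_mul, Polynomial.map_pow,
      Polynomial.map_ofNat, Polynomial.map_zero, hm4, hm6] at h2
    exact h2
  -- the generic short Weierstrass curve and the root `x = g / 3` of its `ψ₃`
  set x : K[X] := C (1 / 3 : K) * gK with hx
  have hgx : gK = 3 * x := by
    rw [hx, ← mul_assoc, show (3 : K[X]) = C (3 : K) from (map_ofNat C 3).symm, ← C_mul]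
    norm_num
  let W : WeierstrassCurve K[X] := ⟨0, 0, 0, -27 * A4K, -54 * A6K⟩
  have hb2 : W.b₂ = 0 := by simp [W, WeierstrassCurve.b₂]
  have hb4 : W.b₄ = -54 * A4K := by simp [W, WeierstrassCurve.b₄]; ring
  have hb6 : W.b₆ = -216 * A6K := by simp [W, WeierstrassCurve.b₆]; ring
  have hb8 : W.b₈ = -729 * A4K ^ 2 := by simp [W, WeierstrassCurve.b₈]; ring
  have hc4 : W.c₄ = 1296 * A4K := by rw [WeierstrassCurve.c₄, hb2, hb4]; ring
  have hWΔ : W.Δ = C (1259712 * κ) * D ^ 5 := by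
    have h1 : W.Δ = 1259712 * (A4K ^ 3 - A6K ^ 2) := by
      rw [WeierstrassCurve.Δ, hb2, hb4, hb6, hb8]; ring
    have h2 : A4K ^ 3 - A6K ^ 2 = C κ * D ^ 5 := by
      rw [← hfact, Polynomial.map_sub, Polynomial.map_pow, Polynomial.map_pow]
    rw [h1, h2, C_mul, show (C (1259712 : K) : K[X]) = 1259712 from map_ofNat C 1259712]
    ring
  have hroot3 : 3 * x ^ 4 + W.b₂ * x ^ 3 + 3 * W.b₄ * x ^ 2 + 3 * W.b₆ * x + W.b₈ = 0 := by
    rw [hb2, hb4, hb6, hb8]
    have h27 : (27 : K[X]) ≠ 0 := by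
      rw [show (27 : K[X]) = C (27 : K) from (map_ofNat C 27).symm]
      exact C_ne_zero.mpr (by norm_num)
    apply mul_left_cancel₀ h27
    rw [hgx] at hgK'
    linear_combination hgK'
  have h1296 : IsUnit (1296 : K[X]) := by
    rw [show (1296 : K[X]) = C (1296 : K) from (map_ofNat C 1296).symm]
    exact Polynomial.isUnit_C.mpr (by norm_num : (1296 : K) ≠ 0).isUnit
  exact no_three_root_generic W x hroot3 (1259712 * κ) (mul_ne_zero (by norm_num) hκ) D hWΔ
    (by rw [hc4]; exact (isCoprime_mul_unit_left_left h1296 _ _).mpr hcop) hD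

end Fermat.Agent.S52.helper1047
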