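/-
S52 (3–5 switch): the closing glue of the auxiliary-prime-free route (helper267).

* `abc_data_of_isPencilData` : the LINK property `helper352.IsPencilData` alone yields, over any
  algebraically closed field of characteristic zero, the three facts consumed by the
  Mason–Stothers argument: `C4³ - C6² = κ D⁵`, `D` non-constant, `C4` coprime to `D`.
* `switch_of_abc` : `Stmt_Loc + Stmt_Short + (IsPencilData + Stmt_Coprime for every W)` imply the
  frozen S52 statement.  No auxiliary prime, no Galois theory of the `5`-torsion field.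
-/
import Mathlib
import Fermat.Agent.S52.helper352_Spec
import Fermat.Agent.S52.helper1047_IrrGlue

set_option autoImplicit false

namespace Fermat.Agent.S52.helper267

open Polynomial
open Fermat.Agent.S52.helper424 (kF kH kT)
open Fermat.Agent.S52.helper352 (kFu kFv penU penV)

/-! ### The family facts from the LINK property -/

section AbcData

variable (K : Type) [Field K] [IsAlgClosed K] [CharZero K]

omit [IsAlgClosed K] in
private lemma natCast_ne_zero' (n : ℕ) (hn : n ≠ 0) : ((n : ℕ) : K) ≠ 0 :=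
  Nat.cast_ne_zero.mpr hn

/-- The LINK property of the pencil gives the discriminant factorisation `C4³ - C6² = κ D⁵` with
`D` non-constant and coprime to `C4`, over any algebraically closed field of characteristic `0`. -/
theorem abc_data_of_isPencilData (c4 c6 : ℤ) (hΔ : c4 ^ 3 - c6 ^ 2 ≠ 0) (C4 C6 : ℤ[X])
    (hdata : Fermat.Agent.S52.helper352.IsPencilData c4 c6 C4 C6) :
    ∃ (κ : K) (D : K[X]), κ ≠ 0 ∧ D.natDegree ≠ 0 ∧
      (C4 ^ 3 - C6 ^ 2).map (Int.castRingHom K) = C κ * D ^ 5 ∧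
      IsCoprime (C4.map (Int.castRingHom K)) D := by
  have h2 : (2 : K) ≠ 0 := by exact_mod_cast natCast_ne_zero' K 2 (by norm_num)
  have h3 : (3 : K) ≠ 0 := by exact_mod_cast natCast_ne_zero' K 3 (by norm_num)
  have h5 : (5 : K) ≠ 0 := by exact_mod_cast natCast_ne_zero' K 5 (by norm_num)
  have h12 : (12 : K) ≠ 0 := by exact_mod_cast natCast_ne_zero' K 12 (by norm_num)
  have h1728 : (1728 : K) ≠ 0 := by exact_mod_cast natCast_ne_zero' K 1728 (by norm_num)
  have hΔK : ((c4 : ℤ) : K) ^ 3 - ((c6 : ℤ) : K) ^ 2 ≠ 0 := by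
    intro h
    apply hΔ
    have : (((c4 ^ 3 - c6 ^ 2 : ℤ)) : K) = 0 := by push_cast; exact h
    exact_mod_cast this
  obtain ⟨u, v, hH, hT, hF, -⟩ :=
    Fermat.Agent.S52.helper424.exists_klein_param h2 h3 h5 ((c4 : ℤ) : K) ((c6 : ℤ) : K) hΔK
  obtain ⟨-, -, hlink⟩ := hdata
  -- the pencil as polynomials in `t`
  set PU : K[X] := C u + X * C (kFv u v) with hPU
  set PV : K[X] := C v - X * C (kFu u v) with hPV
  set D : K[X] := kF PU PV with hDdef
  have hDeval : ∀ t : K, D.eval t = kF (penU t u v) (penV t u v) := by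
    intro t
    have h := Fermat.Agent.S52.helper424.map_kF (evalRingHom t) PU PV
    simp only [coe_evalRingHom] at h
    rw [hDdef, h]
    congr 1
    · rw [hPU]
      simp only [penU, eval_add, eval_C, eval_mul, eval_X]
    · rw [hPV]
      simp only [penV, eval_sub, eval_C, eval_mul, eval_X]
  have hevalmap : ∀ (P : ℤ[X]) (t : K), (P.map (Int.castRingHom K)).eval t = aeval t P := by
    intro P t
    rw [eval_map, aeval_def, algebraMap_int_eq]
  have hEuler := Fermat.Agent.S52.helper352.euler_kF u v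
  refine ⟨-1728, D, neg_ne_zero.mpr h1728, ?_, ?_, ?_⟩
  · -- `D` is not constant
    intro hdeg
    have hconst : ∀ t : K, D.eval t = D.eval 0 := by
      intro t
      rw [eq_C_of_natDegree_eq_zero hdeg, eval_C, eval_C]
    have h0 : D.eval 0 = kF u v := by
      rw [hDeval, Fermat.Agent.S52.helper352.penU_zero, Fermat.Agent.S52.helper352.penV_zero]
    have hne : ∀ t : K, kF (penU t u v) (penV t u v) ≠ 0 := by
      intro t
      rw [← hDeval, hconst, h0]
      exact hF
    by_cases hα : u ^ 10 + 66 * u ^ 5 * v ^ 5 - 11 * v ^ 10 = 0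
    · by_cases hβ : 11 * u ^ 10 + 66 * u ^ 5 * v ^ 5 - v ^ 10 = 0
      · apply hF
        have h12' : (12 : K) * kF u v = 0 := by
          rw [← hEuler]
          simp only [kFu, kFv]
          linear_combination u * v * hβ + u * v * hα
        exact (mul_eq_zero.mp h12').resolve_left h12
      · apply hne (11 * u ^ 10 + 66 * u ^ 5 * v ^ 5 - v ^ 10)⁻¹
        rw [Fermat.Agent.S52.helper352.penV_eq]
        have : (1 : K) - (11 * u ^ 10 + 66 * u ^ 5 * v ^ 5 - v ^ 10)⁻¹
            * (11 * u ^ 10 + 66 * u ^ 5 * v ^ 5 - v ^ 10) = 0 := by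
          rw [inv_mul_cancel₀ hβ, sub_self]
        rw [this, mul_zero]
        simp [kF]
    · apply hne (-(u ^ 10 + 66 * u ^ 5 * v ^ 5 - 11 * v ^ 10)⁻¹)
      rw [Fermat.Agent.S52.helper352.penU_eq]
      have : (1 : K) + -(u ^ 10 + 66 * u ^ 5 * v ^ 5 - 11 * v ^ 10)⁻¹
          * (u ^ 10 + 66 * u ^ 5 * v ^ 5 - 11 * v ^ 10) = 0 := by
        rw [neg_mul, inv_mul_cancel₀ hα, add_neg_cancel]
      rw [this, mul_zero]
      simp [kF]
  · -- the discriminant identity
    apply Polynomial.funext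
    intro t
    obtain ⟨hH', hT'⟩ := hlink K h2 h3 u v t hH hT
    have hsyz := Fermat.Agent.S52.helper424.kT_sq_add_kH_cube (penU t u v) (penV t u v)
    rw [Polynomial.map_sub, Polynomial.map_pow, Polynomial.map_pow, eval_sub, eval_pow, eval_pow,
      hevalmap, hevalmap, eval_mul, eval_C, eval_pow, hDeval]
    rw [hH', hT'] at hsyz
    linear_combination -hsyz
  · -- coprimality
    rw [Polynomial.isCoprime_iff_aeval_ne_zero_of_isAlgClosed (k := K) (K := K)]
    intro t
    by_contra hcon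
    push Not at hcon
    obtain ⟨hc4, hd⟩ := hcon
    rw [coe_aeval_eq_eval] at hc4 hd
    rw [hevalmap] at hc4
    rw [hDeval] at hd
    obtain ⟨hH', -⟩ := hlink K h2 h3 u v t hH hT
    rw [hc4, neg_zero] at hH'
    obtain ⟨hu0, hv0⟩ :=
      Fermat.Agent.S52.helper424.eq_zero_of_kF_eq_zero_of_kH_eq_zero h5 hd hH'
    apply hF
    have h12' : (12 : K) * kF u v = 0 := by
      rw [← hEuler]
      simp only [penU, penV] at hu0 hv0
      linear_combination kFu u v * hu0 + kFv u v * hv0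
    exact (mul_eq_zero.mp h12').resolve_left h12

end AbcData

/-! ### Degenerate fibres have an integer root -/

/-- If `a³ = b²` in `ℤ` then the quartic `n⁴ - 486 a n² - 5832 b n - 19683 a²` has an integer
root (`n = -9 b / a`). -/
theorem exists_root_of_cube_eq_sq (a b : ℤ) (h : a ^ 3 = b ^ 2) :
    ∃ n : ℤ, n ^ 4 - 486 * a * n ^ 2 - 5832 * b * n - 19683 * a ^ 2 = 0 := by
  by_cases ha : a = 0
  · subst ha
    have hb : b = 0 := by
      have : b ^ 2 = 0 := by rw [← h]; ring
      exact pow_eq_zero_iff (by norm_num) |>.mp this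
    subst hb
    exact ⟨0, by ring⟩
  · have hdvd : a ^ 2 ∣ b ^ 2 := ⟨a, by rw [← h]; ring⟩
    obtain ⟨m, hm⟩ : a ∣ b := (Int.pow_dvd_pow_iff (by norm_num)).mp hdvd
    have ham : a = m ^ 2 := by
      have h1 : a ^ 2 * a = a ^ 2 * m ^ 2 := by rw [hm] at h; linear_combination h
      exact mul_left_cancel₀ (pow_ne_zero 2 ha) h1
    refine ⟨-9 * m, ?_⟩
    rw [hm, ham]
    ring

/-! ### The switch -/

/-- **S52 from the local congruence and the pencil data only.**  No auxiliary prime: the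
irreducibility of the `3`-torsion of a fibre comes from `helper1047.exists_no_int_root`
(interpolation lemma + Mason–Stothers). -/
theorem switch_of_abc (hLoc : Fermat.Agent.S52.helper352.Stmt_Loc)
    (hShort : Fermat.Agent.S52.helper352.Stmt_Short)
    (hData : ∀ W : WeierstrassCurve ℤ, W.Δ ≠ 0 → W.IsSemistableModel →
      ¬ W.ModRepIsIrreducible 3 →
        ∃ C4 C6 : ℤ[X], Fermat.Agent.S52.helper352.IsPencilData W.c₄ W.c₆ C4 C6 ∧
          Fermat.Agent.S52.helper352.Stmt_Coprime C4 C6) :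
    Fermat.Agent.S52.helper352.Goal_S52 := by
  intro W hΔ hW _
  by_cases h3 : W.ModRepIsIrreducible 3
  · exact ⟨W, hΔ, hW, h3, fun ℓ _ _ _ _ => by simp⟩
  obtain ⟨C4, C6, hdata, ⟨N₀, hN₀, hcop⟩⟩ := hData W hΔ hW h3
  have hA1 := Fermat.Agent.S52.helper352.cong_of hLoc hShort W C4 C6 hdata
  have h04 : C4.eval 0 = W.c₄ := hdata.1
  have h06 : C6.eval 0 = W.c₆ := hdata.2.1
  have hdisc : W.c₄ ^ 3 - W.c₆ ^ 2 ≠ 0 := by
    rw [← W.c_relation]
    exact mul_ne_zero (by norm_num) hΔ
  obtain ⟨κ, D, hκ, hD, hfact, hcopD⟩ :=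
    abc_data_of_isPencilData (AlgebraicClosure ℚ) W.c₄ W.c₆ hdisc C4 C6 hdata
  set M : ℤ := 30 * N₀ with hM
  have hM0 : M ≠ 0 := mul_ne_zero (by norm_num) hN₀
  set K : ℤ := 1728 * M with hK
  have hK0 : K ≠ 0 := mul_ne_zero (by norm_num) hM0
  -- the reparametrised family `s ↦ (C4(K s), C6(K s))`
  set A4 : ℤ[X] := C4.comp (C K * X) with hA4
  set A6 : ℤ[X] := C6.comp (C K * X) with hA6
  have eA4 : ∀ s : ℤ, A4.eval s = C4.eval (K * s) := by
    intro s
    simp [hA4, eval_comp]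
  have eA6 : ∀ s : ℤ, A6.eval s = C6.eval (K * s) := by
    intro s
    simp [hA6, eval_comp]
  -- a prime `p ≥ 5` not dividing the discriminant
  obtain ⟨p, hp_ge, hp⟩ := Nat.exists_infinite_primes ((W.c₄ ^ 3 - W.c₆ ^ 2).natAbs + 4)
  have : Fact p.Prime := ⟨hp⟩
  have hp2 : p ≠ 2 := by omega
  have hp3 : p ≠ 3 := by omega
  have hpd : ¬ (p : ℤ) ∣ (A4.eval 0) ^ 3 - (A6.eval 0) ^ 2 := by
    rw [eA4, eA6, mul_zero, h04, h06]
    intro h
    have h1 : p ∣ (W.c₄ ^ 3 - W.c₆ ^ 2).natAbs := by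
      have := Int.natAbs_dvd_natAbs.mpr h
      simpa using this
    have h2 := Nat.le_of_dvd (Int.natAbs_pos.mpr hdisc) h1
    omega
  -- transport the family facts
  set ι : ℤ →+* AlgebraicClosure ℚ := Int.castRingHom (AlgebraicClosure ℚ) with hι
  set L : (AlgebraicClosure ℚ)[X] := C ((K : ℤ) : AlgebraicClosure ℚ) * X with hL
  have hmapcomp : ∀ P : ℤ[X], (P.comp (C K * X)).map ι = (P.map ι).comp L := by
    intro P
    rw [Polynomial.map_comp, Polynomial.map_mul, Polynomial.map_C, Polynomial.map_X, hL, hι,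
      eq_intCast]
  have hfact' : (A4 ^ 3 - A6 ^ 2).map ι = C κ * (D.comp L) ^ 5 := by
    have e : A4 ^ 3 - A6 ^ 2 = (C4 ^ 3 - C6 ^ 2).comp (C K * X) := by
      rw [hA4, hA6, sub_comp, pow_comp, pow_comp]
    rw [e, hmapcomp, hfact, mul_comp, C_comp, pow_comp]
  have hcop' : IsCoprime (A4.map ι) (D.comp L) := by
    rw [hA4, hmapcomp]
    exact hcopD.map (compRingHom L)
  have hD' : (D.comp L).natDegree ≠ 0 := by
    have hK' : ((K : ℤ) : AlgebraicClosure ℚ) ≠ 0 := by exact_mod_cast hK0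
    rw [natDegree_comp, hL, natDegree_C_mul_X _ hK', mul_one]
    exact hD
  obtain ⟨s, -, hs⟩ := Fermat.Agent.S52.helper1047.exists_no_int_root A4 A6 p hp2 hp3 hpd κ hκ
    (D.comp L) hD' hfact' hcop'
  -- the parameter and the integral model
  set t : ℤ := K * s with ht
  have hKdvd : ∀ P : ℤ[X], K ∣ P.eval t - P.eval 0 := by
    intro P
    have h1 := Polynomial.sub_dvd_eval_sub t 0 P
    rw [sub_zero] at h1
    exact (Dvd.intro s rfl : K ∣ t).trans h1
  obtain ⟨e4, e6, hW4, hW6⟩ := Fermat.Agent.S52.helper712.exists_perturb W M (C4.eval t)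
    (C6.eval t)
    (by
      rw [← h04]
      refine Dvd.dvd.trans ?_ (hKdvd C4)
      exact ⟨3, by rw [hK]; ring⟩)
    (by
      rw [← h06]
      refine Dvd.dvd.trans ?_ (hKdvd C6)
      exact ⟨2, by rw [hK]; ring⟩)
  set W' : WeierstrassCurve ℤ := Fermat.Agent.S52.helper712.perturb W (M * e4) (M * e6) with hW'
  have hnoroot : ∀ n : ℤ,
      n ^ 4 - 486 * W'.c₄ * n ^ 2 - 5832 * W'.c₆ * n - 19683 * W'.c₄ ^ 2 ≠ 0 := by
    intro n
    rw [hW4, hW6]
    have := hs n
    rwa [eA4, eA6] at this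
  have hΔ' : W'.Δ ≠ 0 := by
    intro h0
    have hrel := W'.c_relation
    rw [h0, mul_zero] at hrel
    obtain ⟨n, hn⟩ := exists_root_of_cube_eq_sq W'.c₄ W'.c₆ (by linarith)
    exact hnoroot n hn
  have hN₀M : N₀ ∣ M := Dvd.intro_left _ rfl
  have h30M : (30 : ℤ) ∣ M := Dvd.intro _ rfl
  refine ⟨W', hΔ', ?_, ?_, ?_⟩
  · -- semistable
    apply Fermat.Agent.S52.helper712.isSemistableModel_perturb W hW M e4 e6
    intro q hq hqM
    rw [← hW', hW4, hW6]
    exact hcop t q hq (fun h => hqM (dvd_trans h hN₀M))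
  · -- irreducible `3`-torsion
    by_contra hred
    obtain ⟨n, hn⟩ := Fermat.Agent.S52.helper1047.exists_int_root_of_reducible W' hΔ' hred
    exact hnoroot n hn
  · -- the congruence of the `a_ℓ`
    intro ℓ hℓ hg hg' _
    by_cases hℓM : (ℓ : ℤ) ∣ M
    · rw [hW', Fermat.Agent.S52.helper712.apOfModel_perturb W M e4 e6 ℓ hℓM, sub_self]
      exact dvd_zero _
    · have h7 : 7 ≤ ℓ := Fermat.Agent.S52.helper712.seven_le_of_prime_of_not_dvd ℓ hℓ
        (fun h => hℓM (dvd_trans h h30M))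
      exact hA1 t W' hW4 hW6 ℓ hℓ h7 hg hg'

end Fermat.Agent.S52.helper267
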