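import Mathlib
import Fermat.Agent.S52.helper424_KleinExist

/-!
# S52: the degree-11 Klein pencil has no additive fibre away from `30·Δ` (geometric proof)

For Klein's icosahedral forms `f, H, T` (`helper424.kF, kH, kT`) the degree-11 pencil is
`w_t = w + t·(f_v(w), -f_u(w))`.  If `f(w) ≠ 0` and `2, 3, 5` are invertible, then `H(w_t)` and
`T(w_t)` do not vanish simultaneously: a common zero forces `w_t = 0`, i.e. `u = -t f_v`,
`v = t f_u`, and Euler's identity `u f_u + v f_v = 12 f` gives `f(w) = 0`.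

Consequence (`not_dvd_both`): if `z₄, z₆ : ℤ` are the values of the fibre invariants
(given through the link identities `H(w_t) = -z₄`, `T(w_t) = -z₆` over `𝔽̄_p`), then no prime
`p ∉ {2, 3, 5}` with `p ∤ c₄³ - c₆²` divides both `z₄` and `z₆`.  No resultant / Bézout
certificate between the pencil polynomials is needed.
-/

set_option autoImplicit false

namespace Fermat.Agent.S52.helper7043

open Fermat.Agent.S52.helper424

section Forms

variable {R : Type*} [CommRing R]

/-- `∂f/∂u` for Klein's form `f = u v (u¹⁰ + 11 u⁵ v⁵ - v¹⁰)`. -/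
def kFu (u v : R) : R := 11 * u ^ 10 * v + 66 * u ^ 5 * v ^ 6 - v ^ 11

/-- `∂f/∂v` for Klein's form `f = u v (u¹⁰ + 11 u⁵ v⁵ - v¹⁰)`. -/
def kFv (u v : R) : R := u ^ 11 + 66 * u ^ 6 * v ^ 5 - 11 * u * v ^ 10

/-- Euler's identity for the form `f` of degree 12. -/
theorem euler_kF (u v : R) : u * kFu u v + v * kFv u v = 12 * kF u v := by
  simp only [kFu, kFv, kF]; ring

theorem map_kFu {S : Type*} [CommRing S] (φ : R →+* S) (u v : R) :
    φ (kFu u v) = kFu (φ u) (φ v) := by
  simp only [kFu, map_mul, map_add, map_sub, map_pow, map_ofNat]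

theorem map_kFv {S : Type*} [CommRing S] (φ : R →+* S) (u v : R) :
    φ (kFv u v) = kFv (φ u) (φ v) := by
  simp only [kFv, map_mul, map_add, map_sub, map_pow, map_ofNat]

/-- The first coordinate of the pencil point `w_t = w + t·(f_v(w), -f_u(w))`. -/
def pencilU (u v t : R) : R := u + t * kFv u v

/-- The second coordinate of the pencil point `w_t = w + t·(f_v(w), -f_u(w))`. -/
def pencilV (u v t : R) : R := v - t * kFu u v

theorem map_pencilU {S : Type*} [CommRing S] (φ : R →+* S) (u v t : R) :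
    φ (pencilU u v t) = pencilU (φ u) (φ v) (φ t) := by
  simp only [pencilU, map_add, map_mul, map_kFv]

theorem map_pencilV {S : Type*} [CommRing S] (φ : R →+* S) (u v t : R) :
    φ (pencilV u v t) = pencilV (φ u) (φ v) (φ t) := by
  simp only [pencilV, map_sub, map_mul, map_kFu]

@[simp] theorem pencilU_zero (u v : R) : pencilU u v 0 = u := by simp [pencilU]

@[simp] theorem pencilV_zero (u v : R) : pencilV u v 0 = v := by simp [pencilV]

/-- The pencil is transverse to the radial direction: `det [w, w_t] = -12 t f(w)`. -/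
theorem pencil_det (u v t : R) :
    u * pencilV u v t - v * pencilU u v t = -(12 * t * kF u v) := by
  have h := euler_kF u v
  simp only [pencilU, pencilV]
  linear_combination (-t) * h

/-- `f_u(w)·U(w_t) + f_v(w)·V(w_t) = 12 f(w)`: the pencil point never leaves the affine line
`{f_u(w) x + f_v(w) y = 12 f(w)}`. -/
theorem pencil_pairing (u v t : R) :
    kFu u v * pencilU u v t + kFv u v * pencilV u v t = 12 * kF u v := by
  have h := euler_kF u v
  simp only [pencilU, pencilV]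
  linear_combination h

end Forms

section Field

variable {K : Type*} [Field K]

/-- If `f(w) ≠ 0` (and `6 ≠ 0`) the pencil point `w_t` is never the origin. -/
theorem pencil_ne_zero (h2 : (2 : K) ≠ 0) (h3 : (3 : K) ≠ 0) (u v t : K) (hf : kF u v ≠ 0) :
    ¬ (pencilU u v t = 0 ∧ pencilV u v t = 0) := by
  rintro ⟨hU, hV⟩
  have h := pencil_pairing u v t
  rw [hU, hV, mul_zero, mul_zero, add_zero] at h
  have h12 : (12 : K) ≠ 0 := by
    have : (12 : K) = 2 ^ 2 * 3 := by norm_num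
    rw [this]; exact mul_ne_zero (pow_ne_zero _ h2) h3
  exact (mul_ne_zero h12 hf) h.symm

/-- **No additive fibre in the pencil.**  If `f(w) ≠ 0` and `2, 3, 5` are invertible, then
`H` and `T` do not vanish simultaneously at the pencil point `w_t`. -/
theorem pencil_no_common_zero (h2 : (2 : K) ≠ 0) (h3 : (3 : K) ≠ 0) (h5 : (5 : K) ≠ 0)
    (u v t : K) (hf : kF u v ≠ 0) :
    ¬ (kH (pencilU u v t) (pencilV u v t) = 0 ∧ kT (pencilU u v t) (pencilV u v t) = 0) := by
  rintro ⟨hH, hT⟩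
  exact pencil_ne_zero h2 h3 u v t hf (eq_zero_of_kH_eq_zero_of_kT_eq_zero h2 h3 h5 hH hT)

/-- Unfolded form of `pencil_no_common_zero`. -/
theorem pencil_no_common_zero' (h2 : (2 : K) ≠ 0) (h3 : (3 : K) ≠ 0) (h5 : (5 : K) ≠ 0)
    (u v t : K) (hf : kF u v ≠ 0) :
    ¬ (kH (u + t * kFv u v) (v - t * kFu u v) = 0 ∧
       kT (u + t * kFv u v) (v - t * kFu u v) = 0) :=
  pencil_no_common_zero h2 h3 h5 u v t hf

/-- `f` does not vanish at the pencil point as soon as one of `H`, `T` vanishes there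
(and `f(w) ≠ 0`): i.e. the fibre over a zero of `c₄(t)` or `c₆(t)` is never singular. -/
theorem kF_pencil_ne_zero_of_kT_eq_zero (h2 : (2 : K) ≠ 0) (h3 : (3 : K) ≠ 0) (h5 : (5 : K) ≠ 0)
    (u v t : K) (hf : kF u v ≠ 0) (hT : kT (pencilU u v t) (pencilV u v t) = 0) :
    kF (pencilU u v t) (pencilV u v t) ≠ 0 := by
  intro hF
  have hs := kT_sq_add_kH_cube (pencilU u v t) (pencilV u v t)
  rw [hT, hF] at hs
  have hH : kH (pencilU u v t) (pencilV u v t) = 0 := by
    have : kH (pencilU u v t) (pencilV u v t) ^ 3 = 0 := by linear_combination hs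
    exact pow_eq_zero_iff (by norm_num) |>.mp this
  exact pencil_no_common_zero h2 h3 h5 u v t hf ⟨hH, hT⟩

theorem kF_pencil_ne_zero_of_kH_eq_zero (h2 : (2 : K) ≠ 0) (h3 : (3 : K) ≠ 0) (h5 : (5 : K) ≠ 0)
    (u v t : K) (hf : kF u v ≠ 0) (hH : kH (pencilU u v t) (pencilV u v t) = 0) :
    kF (pencilU u v t) (pencilV u v t) ≠ 0 := by
  intro hF
  have hs := kT_sq_add_kH_cube (pencilU u v t) (pencilV u v t)
  rw [hH, hF] at hs
  have hT : kT (pencilU u v t) (pencilV u v t) = 0 := by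
    have : kT (pencilU u v t) (pencilV u v t) ^ 2 = 0 := by linear_combination hs
    exact pow_eq_zero_iff (by norm_num) |>.mp this
  exact pencil_no_common_zero h2 h3 h5 u v t hf ⟨hH, hT⟩

/-- Field form of the semistability statement: over an algebraically closed field with
`30 ≠ 0`, if `z₄, z₆` are the fibre invariants at parameter `t` of the pencil through a curve
with invariants `(c₄, c₆)`, `c₄³ ≠ c₆²` (link identities as hypothesis), then `z₄` and `z₆` do
not vanish simultaneously. -/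
theorem not_both_zero_of_link [IsAlgClosed K] (h2 : (2 : K) ≠ 0) (h3 : (3 : K) ≠ 0)
    (h5 : (5 : K) ≠ 0) (c4 c6 t z4 z6 : K) (hΔ : c4 ^ 3 - c6 ^ 2 ≠ 0)
    (hlink : ∀ u v : K, kH u v = -c4 → kT u v = -c6 →
      kH (u + t * kFv u v) (v - t * kFu u v) = -z4 ∧
      kT (u + t * kFv u v) (v - t * kFu u v) = -z6) :
    ¬ (z4 = 0 ∧ z6 = 0) := by
  rintro ⟨h4, h6⟩
  obtain ⟨u, v, hH, hT, hf, -⟩ := exists_klein_param h2 h3 h5 c4 c6 hΔ
  obtain ⟨e4, e6⟩ := hlink u v hH hT
  rw [h4, neg_zero] at e4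
  rw [h6, neg_zero] at e6
  exact pencil_no_common_zero' h2 h3 h5 u v t hf ⟨e4, e6⟩

end Field

section Integers

/-- **Semistability of the pencil away from `30·Δ`** (integer form).  Let `p ∉ {2, 3, 5}` be a
prime not dividing `c₄³ - c₆²`, and let `z₄, z₆ : ℤ` be the invariants of the fibre at the
integer parameter `t`, in the sense that the link identities `H(w_t) = -z₄`, `T(w_t) = -z₆`
hold over `𝔽̄_p` for every `w = (u, v)` with `(H, T)(w) = (-c₄, -c₆)`.  Then `p` does not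
divide both `z₄` and `z₆`. -/
theorem not_dvd_both (p : ℕ) [Fact p.Prime] (hp2 : p ≠ 2) (hp3 : p ≠ 3) (hp5 : p ≠ 5)
    (c4 c6 t z4 z6 : ℤ) (hΔ : ¬ (p : ℤ) ∣ c4 ^ 3 - c6 ^ 2)
    (hlink : ∀ u v : AlgebraicClosure (ZMod p),
      kH u v = -(c4 : AlgebraicClosure (ZMod p)) →
      kT u v = -(c6 : AlgebraicClosure (ZMod p)) →
      kH (u + (t : AlgebraicClosure (ZMod p)) * kFv u v)
          (v - (t : AlgebraicClosure (ZMod p)) * kFu u v) = -(z4 : AlgebraicClosure (ZMod p)) ∧
      kT (u + (t : AlgebraicClosure (ZMod p)) * kFv u v)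
          (v - (t : AlgebraicClosure (ZMod p)) * kFu u v) = -(z6 : AlgebraicClosure (ZMod p))) :
    ¬ ((p : ℤ) ∣ z4 ∧ (p : ℤ) ∣ z6) := by
  have hp : p.Prime := Fact.out
  set K := AlgebraicClosure (ZMod p) with hK
  have : CharP K p := by
    have : CharP (ZMod p) p := ZMod.charP p
    exact charP_of_injective_algebraMap (algebraMap (ZMod p) K).injective p
  have hcast : ∀ n : ℤ, ((n : K) = 0 ↔ (p : ℤ) ∣ n) := fun n => CharP.intCast_eq_zero_iff K p n
  have hnat : ∀ n : ℕ, n.Prime → p ≠ n → ((n : ℕ) : K) ≠ 0 := by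
    intro n hn hpn h0
    have : p ∣ n := (CharP.cast_eq_zero_iff K p n).mp h0
    exact hpn ((Nat.prime_dvd_prime_iff_eq hp hn).mp this)
  have h2 : (2 : K) ≠ 0 := by exact_mod_cast hnat 2 Nat.prime_two hp2
  have h3 : (3 : K) ≠ 0 := by exact_mod_cast hnat 3 Nat.prime_three hp3
  have h5 : (5 : K) ≠ 0 := by exact_mod_cast hnat 5 Nat.prime_five hp5
  have hΔ' : (c4 : K) ^ 3 - (c6 : K) ^ 2 ≠ 0 := by
    intro h
    apply hΔ
    rw [← hcast]
    push_cast
    exact h
  rintro ⟨h4, h6⟩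
  exact not_both_zero_of_link h2 h3 h5 (c4 : K) (c6 : K) (t : K) (z4 : K) (z6 : K) hΔ' hlink
    ⟨(hcast z4).mpr h4, (hcast z6).mpr h6⟩


/-- Variant of `not_both_zero_of_link` in which the link hypothesis may also use the value
`f(w)⁵ = -Δ` (where `c₄³ - c₆² = 1728 Δ`), as in link identities written in terms of
`(c₄, c₆, Δ)`. -/
theorem not_both_zero_of_link' {K : Type*} [Field K] [IsAlgClosed K] (h2 : (2 : K) ≠ 0)
    (h3 : (3 : K) ≠ 0) (h5 : (5 : K) ≠ 0) (c4 c6 D t z4 z6 : K)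
    (hrel : c4 ^ 3 - c6 ^ 2 = 1728 * D) (hD : D ≠ 0)
    (hlink : ∀ u v : K, kH u v = -c4 → kT u v = -c6 → kF u v ^ 5 = -D →
      kH (u + t * kFv u v) (v - t * kFu u v) = -z4 ∧
      kT (u + t * kFv u v) (v - t * kFu u v) = -z6) :
    ¬ (z4 = 0 ∧ z6 = 0) := by
  have h1728 : (1728 : K) ≠ 0 := by
    have : (1728 : K) = 2 ^ 6 * 3 ^ 3 := by norm_num
    rw [this]; exact mul_ne_zero (pow_ne_zero _ h2) (pow_ne_zero _ h3)
  have hΔ : c4 ^ 3 - c6 ^ 2 ≠ 0 := by
    rw [hrel]; exact mul_ne_zero h1728 hD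
  refine not_both_zero_of_link h2 h3 h5 c4 c6 t z4 z6 hΔ ?_
  intro u v hH hT
  refine hlink u v hH hT ?_
  have hs := kT_sq_add_kH_cube u v
  rw [hH, hT] at hs
  have : (1728 : K) * (kF u v ^ 5 + D) = 0 := by linear_combination -hs - hrel
  have := (mul_eq_zero.mp this).resolve_left h1728
  linear_combination this

/-- Variant of `not_dvd_both` with the discriminant `Δ` (`c₄³ - c₆² = 1728 Δ`) and the extra
fact `f(w)⁵ = -Δ` available in the link hypothesis. -/
theorem not_dvd_both' (p : ℕ) [Fact p.Prime] (hp2 : p ≠ 2) (hp3 : p ≠ 3) (hp5 : p ≠ 5)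
    (c4 c6 D t z4 z6 : ℤ) (hrel : c4 ^ 3 - c6 ^ 2 = 1728 * D) (hD : ¬ (p : ℤ) ∣ D)
    (hlink : ∀ u v : AlgebraicClosure (ZMod p),
      kH u v = -(c4 : AlgebraicClosure (ZMod p)) →
      kT u v = -(c6 : AlgebraicClosure (ZMod p)) →
      kF u v ^ 5 = -(D : AlgebraicClosure (ZMod p)) →
      kH (u + (t : AlgebraicClosure (ZMod p)) * kFv u v)
          (v - (t : AlgebraicClosure (ZMod p)) * kFu u v) = -(z4 : AlgebraicClosure (ZMod p)) ∧
      kT (u + (t : AlgebraicClosure (ZMod p)) * kFv u v)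
          (v - (t : AlgebraicClosure (ZMod p)) * kFu u v) = -(z6 : AlgebraicClosure (ZMod p))) :
    ¬ ((p : ℤ) ∣ z4 ∧ (p : ℤ) ∣ z6) := by
  have hp : p.Prime := Fact.out
  set K := AlgebraicClosure (ZMod p) with hK
  have : CharP K p := by
    have : CharP (ZMod p) p := ZMod.charP p
    exact charP_of_injective_algebraMap (algebraMap (ZMod p) K).injective p
  have hcast : ∀ n : ℤ, ((n : K) = 0 ↔ (p : ℤ) ∣ n) := fun n => CharP.intCast_eq_zero_iff K p n
  have hnat : ∀ n : ℕ, n.Prime → p ≠ n → ((n : ℕ) : K) ≠ 0 := by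
    intro n hn hpn h0
    have : p ∣ n := (CharP.cast_eq_zero_iff K p n).mp h0
    exact hpn ((Nat.prime_dvd_prime_iff_eq hp hn).mp this)
  have h2 : (2 : K) ≠ 0 := by exact_mod_cast hnat 2 Nat.prime_two hp2
  have h3 : (3 : K) ≠ 0 := by exact_mod_cast hnat 3 Nat.prime_three hp3
  have h5 : (5 : K) ≠ 0 := by exact_mod_cast hnat 5 Nat.prime_five hp5
  have hrel' : (c4 : K) ^ 3 - (c6 : K) ^ 2 = 1728 * (D : K) := by exact_mod_cast congrArg (Int.cast : ℤ → K) hrel
  have hD' : (D : K) ≠ 0 := fun h => hD ((hcast D).mp h)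
  rintro ⟨h4, h6⟩
  exact not_both_zero_of_link' h2 h3 h5 (c4 : K) (c6 : K) (D : K) (t : K) (z4 : K) (z6 : K)
    hrel' hD' hlink ⟨(hcast z4).mpr h4, (hcast z6).mpr h6⟩

end Integers

end Fermat.Agent.S52.helper7043
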