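import Mathlib
import Fermat.Agent.S52.helper352_Spec
import Fermat.Agent.S52.helper7043_NoAdditive

/-!
# S52: `IsPencilData ⟹ Stmt_Coprime` (the input `hA2` of the top assembly)

If `C4, C6 : ℤ[X]` are the family polynomials of the canonical pencil through a curve with
invariants `c4, c6` (`helper352.IsPencilData`, i.e. the two LINK identities for `kH`, `kT`) and
`c4³ ≠ c6²`, then no prime outside `30·(c4³ - c6²)` divides both `C4(t)` and `C6(t)`
(`helper352.Stmt_Coprime`).  The proof is geometric (`helper7043_NoAdditive`): no discriminant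
identity, no resultant and no Bézout certificate for the family polynomials is used.
-/

set_option autoImplicit false

namespace Fermat.Agent.S52.helper7043

open Polynomial
open Fermat.Agent.S52.helper424 (kF kH kT)

/-- The captain's pencil is literally the pencil of `helper7043_NoAdditive`. -/
theorem penU_eq_pencil {R : Type*} [CommRing R] (t u v : R) :
    Fermat.Agent.S52.helper352.penU t u v = u + t * kFv u v := rfl

theorem penV_eq_pencil {R : Type*} [CommRing R] (t u v : R) :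
    Fermat.Agent.S52.helper352.penV t u v = v - t * kFu u v := rfl

theorem aeval_intCast_eq {K : Type*} [Field K] (C : ℤ[X]) (t : ℤ) :
    (aeval ((t : ℤ) : K) C : K) = ((C.eval t : ℤ) : K) := by
  have h := Polynomial.aeval_algebraMap_apply K t C
  simpa [eq_intCast, Polynomial.coe_aeval_eq_eval] using h

/-- **Pointwise form.**  For pencil data through `(c4, c6)` and a prime `p ∉ {2, 3, 5}` with
`p ∤ c4³ - c6²`, `p` does not divide both `C4(t)` and `C6(t)`. -/
theorem not_dvd_both_of_isPencilData (c4 c6 : ℤ) (C4 C6 : ℤ[X])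
    (hdata : Fermat.Agent.S52.helper352.IsPencilData c4 c6 C4 C6) (t : ℤ) (p : ℕ)
    (hp : p.Prime) (hp2 : p ≠ 2) (hp3 : p ≠ 3) (hp5 : p ≠ 5)
    (hΔ : ¬ (p : ℤ) ∣ c4 ^ 3 - c6 ^ 2) :
    ¬ ((p : ℤ) ∣ C4.eval t ∧ (p : ℤ) ∣ C6.eval t) := by
  have : Fact p.Prime := ⟨hp⟩
  obtain ⟨-, -, hlink⟩ := hdata
  refine not_dvd_both p hp2 hp3 hp5 c4 c6 t (C4.eval t) (C6.eval t) hΔ ?_
  intro u v hH hT
  have hchar : ∀ n : ℕ, n.Prime → p ≠ n → ((n : ℕ) : AlgebraicClosure (ZMod p)) ≠ 0 := by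
    intro n hn hpn h0
    have : p ∣ n := (CharP.cast_eq_zero_iff (AlgebraicClosure (ZMod p)) p n).mp h0
    exact hpn ((Nat.prime_dvd_prime_iff_eq hp hn).mp this)
  have h2 : (2 : AlgebraicClosure (ZMod p)) ≠ 0 := by
    exact_mod_cast hchar 2 Nat.prime_two hp2
  have h3 : (3 : AlgebraicClosure (ZMod p)) ≠ 0 := by
    exact_mod_cast hchar 3 Nat.prime_three hp3
  obtain ⟨e4, e6⟩ := hlink (AlgebraicClosure (ZMod p)) h2 h3 u v
    ((t : ℤ) : AlgebraicClosure (ZMod p)) hH hT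
  rw [penU_eq_pencil, penV_eq_pencil, aeval_intCast_eq] at e4 e6
  exact ⟨e4, e6⟩

/-- **GLUE (hA2).** Pencil data through a nonsingular `(c4, c6)` satisfies `Stmt_Coprime`, with
`N₀ = 30·(c4³ - c6²)`. -/
theorem stmt_Coprime_of_isPencilData (c4 c6 : ℤ) (hΔ : c4 ^ 3 - c6 ^ 2 ≠ 0) (C4 C6 : ℤ[X])
    (hdata : Fermat.Agent.S52.helper352.IsPencilData c4 c6 C4 C6) :
    Fermat.Agent.S52.helper352.Stmt_Coprime C4 C6 := by
  refine ⟨30 * (c4 ^ 3 - c6 ^ 2), mul_ne_zero (by norm_num) hΔ, ?_⟩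
  intro t p hp hpN
  have hne : ∀ n : ℕ, (n : ℤ) ∣ 30 → p ≠ n := by
    rintro n hn rfl
    exact hpN (Dvd.dvd.mul_right hn _)
  refine not_dvd_both_of_isPencilData c4 c6 C4 C6 hdata t p hp (hne 2 (by norm_num))
    (hne 3 (by norm_num)) (hne 5 (by norm_num)) ?_
  intro h
  exact hpN (Dvd.dvd.mul_left h _)

/-- Version for an integral Weierstrass model: pencil data through `(W.c₄, W.c₆)` with `W.Δ ≠ 0`
satisfies `Stmt_Coprime`. -/
theorem stmt_Coprime_of_isPencilData_curve (W : WeierstrassCurve ℤ) (hΔ : W.Δ ≠ 0)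
    (C4 C6 : ℤ[X]) (hdata : Fermat.Agent.S52.helper352.IsPencilData W.c₄ W.c₆ C4 C6) :
    Fermat.Agent.S52.helper352.Stmt_Coprime C4 C6 := by
  refine stmt_Coprime_of_isPencilData W.c₄ W.c₆ ?_ C4 C6 hdata
  rw [← W.c_relation]
  exact mul_ne_zero (by norm_num) hΔ

end Fermat.Agent.S52.helper7043
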