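/-
S52 (3–5 switch) — captain's closing glue (helper352).

All leaves are on main:
* `helper135.kH_pen`, `helper135.kT_pen`, `helper135.isPencilData` (DATA / LINK);
* `helper3451.stmt_Loc_of_link` (LOC by the generic-fibre route, from the weak LINK property);
* `helper2033.stmt_Short` (SHORT), `helper7043.stmt_Coprime_of_isPencilData_curve` (COPRIME);
* `helper267.switch_of_abc` (top assembly; irreducibility of `W'[3]` by the abc route).
-/
import Mathlib
import Fermat.Agent.S52.helper352_Spec
import Fermat.Agent.S52.helper3451_LocGF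
import Fermat.Agent.S52.helper135_PencilLink
import Fermat.Agent.S52.helper2033_ShortStmt
import Fermat.Agent.S52.helper7043_Coprime
import Fermat.Agent.S52.helper267_AbcSwitch

set_option autoImplicit false

namespace Fermat.Agent.S52.helper352

/-- The weak LINK property, from the explicit LINK identities of `helper135`. -/
theorem stmt_WeakLink : Fermat.Agent.S52.helper3451.Stmt_WeakLink := by
  intro ℓ _ _ u v u' v' s hH hT
  refine ⟨?_, ?_⟩
  · rw [Fermat.Agent.S52.helper135.kH_pen, Fermat.Agent.S52.helper135.kH_pen, hH, hT]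
  · rw [Fermat.Agent.S52.helper135.kT_pen, Fermat.Agent.S52.helper135.kT_pen, hH, hT]

/-- **(LOC)** closed. -/
theorem stmt_Loc : Stmt_Loc :=
  Fermat.Agent.S52.helper3451.stmt_Loc_of_link stmt_WeakLink

/-- The frozen S52 statement (as `Goal_S52`). -/
theorem goal_S52 : Goal_S52 :=
  Fermat.Agent.S52.helper267.switch_of_abc stmt_Loc Fermat.Agent.S52.helper2033.stmt_Short
    (fun V hV _ _ =>
      ⟨_, _, Fermat.Agent.S52.helper135.isPencilData V.c₄ V.c₆,
        Fermat.Agent.S52.helper7043.stmt_Coprime_of_isPencilData_curve V hV _ _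
          (Fermat.Agent.S52.helper135.isPencilData V.c₄ V.c₆)⟩)

end Fermat.Agent.S52.helper352
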