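import Mathlib
import Fermat.Prelude.Def_FLTPrelim_ModularRep
import Fermat.Agent.S52.helper1047_IrrGlue

/-!
# S52, aux-prime-free irreducibility route: the `hChoose` surface

`hChoose_of_abc` : for a rational polynomial family `(C4, C6)` through `(c4, c6)`, `c4³ ≠ c6²`,
whose discriminant `C4³ - C6²` is `κ D⁵` over some field of characteristic zero with `D`
non-constant and coprime to `C4`: for every modulus `N₁ ≠ 0` there is an integer `t ≡ 0 (mod N₁)`
with `(C4³ - C6²)(t) ≠ 0` such that EVERY integral Weierstrass model `W'` with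
`c₄(W') = C4(t)`, `c₆(W') = C6(t)` has irreducible mod-3 representation.

No auxiliary prime, no zeta lemma, no Galois theory: only
`helper267.exists_polynomial_root` (interpolation) and `no_three_root_generic` (Mason–Stothers),
through `exists_no_int_root`.
-/

set_option autoImplicit false

namespace Fermat.Agent.S52.helper1047

open Polynomial

/-- Clearing denominators of a rational polynomial. -/
theorem exists_int_poly_clear (p : ℚ[X]) :
    ∃ (d : ℤ) (P : ℤ[X]), d ≠ 0 ∧ P.map (Int.castRingHom ℚ) = C (d : ℚ) * p := by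
  obtain ⟨b, hb, h⟩ := IsLocalization.integerNormalization_spec (nonZeroDivisors ℤ) p
  refine ⟨b, IsLocalization.integerNormalization (nonZeroDivisors ℤ) p,
    nonZeroDivisors.ne_zero hb, ?_⟩
  have hmap : algebraMap ℤ ℚ = Int.castRingHom ℚ := rfl
  rw [hmap] at h
  rw [h]
  ext n
  simp [zsmul_eq_mul]

/-- Evaluation of a cleared polynomial at an integer. -/
theorem eval_clear {p : ℚ[X]} {d : ℤ} {P : ℤ[X]}
    (hP : P.map (Int.castRingHom ℚ) = C (d : ℚ) * p) (s : ℤ) :
    ((P.eval s : ℤ) : ℚ) = d * p.eval (s : ℚ) := by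
  have := Polynomial.eval_intCast_map (Int.castRingHom ℚ) P s
  rw [hP] at this
  simpa using this.symm

/-- A degenerate pair `a³ = b²` always has an integer root of the quartic. -/
theorem exists_int_root_of_cube_eq_sq (a b : ℤ) (h : a ^ 3 = b ^ 2) :
    ∃ n : ℤ, n ^ 4 - 486 * a * n ^ 2 - 5832 * b * n - 19683 * a ^ 2 = 0 := by
  by_cases ha : a = 0
  · subst ha
    have hb : b = 0 := by
      have : b ^ 2 = 0 := by rw [← h]; ring
      exact pow_eq_zero_iff (by norm_num) |>.mp this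
    exact ⟨0, by rw [hb]; ring⟩
  · have hdvd : a ^ 2 ∣ b ^ 2 := ⟨a, by rw [← h]; ring⟩
    have hab : a ∣ b := (Int.pow_dvd_pow_iff (by norm_num)).mp hdvd
    obtain ⟨m, rfl⟩ := hab
    have hm : m ^ 2 = a := by
      have h1 : a ^ 2 * m ^ 2 = a ^ 2 * a := by linear_combination -h
      exact mul_left_cancel₀ (pow_ne_zero 2 ha) h1
    refine ⟨-9 * m, ?_⟩
    rw [← hm]
    ring

/-- **The abc hedge in `hChoose` form.** -/
theorem hChoose_of_abc {K : Type*} [Field K] [CharZero K] (C4 C6 : ℚ[X]) (c4 c6 : ℤ)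
    (h04 : C4.eval 0 = (c4 : ℚ)) (h06 : C6.eval 0 = (c6 : ℚ)) (hne : c4 ^ 3 ≠ c6 ^ 2)
    (κ : K) (hκ : κ ≠ 0) (D : K[X]) (hD : D.natDegree ≠ 0)
    (hdisc : (C4 ^ 3 - C6 ^ 2).map (algebraMap ℚ K) = C κ * D ^ 5)
    (hcop : IsCoprime (C4.map (algebraMap ℚ K)) D) :
    ∀ N₁ : ℤ, N₁ ≠ 0 → ∃ t : ℤ, N₁ ∣ t ∧ (C4 ^ 3 - C6 ^ 2).eval (t : ℚ) ≠ 0 ∧
      ∀ W' : WeierstrassCurve ℤ, W'.Δ ≠ 0 → (W'.c₄ : ℚ) = C4.eval (t : ℚ) →
        (W'.c₆ : ℚ) = C6.eval (t : ℚ) → W'.ModRepIsIrreducible 3 := by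
  intro N₁ hN₁
  obtain ⟨d4, P4, hd4, hP4⟩ := exists_int_poly_clear C4
  obtain ⟨d6, P6, hd6, hP6⟩ := exists_int_poly_clear C6
  set d : ℤ := d4 * d6 with hd
  have hd0 : d ≠ 0 := mul_ne_zero hd4 hd6
  -- the integral reparametrised family, weights (2, 3)
  set A4 : ℤ[X] := C (d4 * d6 ^ 2) * P4.comp (C N₁ * X) with hA4
  set A6 : ℤ[X] := C (d4 ^ 3 * d6 ^ 2) * P6.comp (C N₁ * X) with hA6
  have hA4eval : ∀ s : ℤ, ((A4.eval s : ℤ) : ℚ) = (d : ℚ) ^ 2 * C4.eval ((N₁ * s : ℤ) : ℚ) := by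
    intro s
    have h1 : A4.eval s = d4 * d6 ^ 2 * P4.eval (N₁ * s) := by
      simp [hA4, eval_comp]
    rw [h1]
    push_cast
    rw [eval_clear hP4 (N₁ * s), hd]
    push_cast
    ring
  have hA6eval : ∀ s : ℤ, ((A6.eval s : ℤ) : ℚ) = (d : ℚ) ^ 3 * C6.eval ((N₁ * s : ℤ) : ℚ) := by
    intro s
    have h1 : A6.eval s = d4 ^ 3 * d6 ^ 2 * P6.eval (N₁ * s) := by
      simp [hA6, eval_comp]
    rw [h1]
    push_cast
    rw [eval_clear hP6 (N₁ * s), hd]
    push_cast
    ring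
  have hA40 : A4.eval 0 = d ^ 2 * c4 := by
    have := hA4eval 0
    rw [mul_zero, Int.cast_zero, h04] at this
    exact_mod_cast this
  have hA60 : A6.eval 0 = d ^ 3 * c6 := by
    have := hA6eval 0
    rw [mul_zero, Int.cast_zero, h06] at this
    exact_mod_cast this
  -- the prime `p`
  set B : ℤ := d ^ 6 * (c4 ^ 3 - c6 ^ 2) with hB
  have hB0 : B ≠ 0 := mul_ne_zero (pow_ne_zero 6 hd0) (sub_ne_zero.mpr hne)
  obtain ⟨p, hpge, hp⟩ := Nat.exists_infinite_primes (B.natAbs + 4)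
  have : Fact p.Prime := ⟨hp⟩
  have hp2 : p ≠ 2 := by omega
  have hp3 : p ≠ 3 := by omega
  have hpd : ¬ (p : ℤ) ∣ (A4.eval 0) ^ 3 - (A6.eval 0) ^ 2 := by
    have e : (A4.eval 0) ^ 3 - (A6.eval 0) ^ 2 = B := by rw [hA40, hA60, hB]; ring
    rw [e]
    intro hdvd
    have h1 := Int.natAbs_le_of_dvd_ne_zero hdvd hB0
    simp only [Int.natAbs_natCast] at h1
    omega
  -- the factorisation over `K`
  set φ : ℚ →+* K := algebraMap ℚ K with hφ
  have hcomp : φ.comp (Int.castRingHom ℚ) = Int.castRingHom K := RingHom.ext_int _ _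
  set lin : K[X] := C (N₁ : K) * X with hlin
  have hN₁K : (N₁ : K) ≠ 0 := Int.cast_ne_zero.mpr hN₁
  have hP4K : P4.map (Int.castRingHom K) = C (d4 : K) * C4.map φ := by
    rw [← hcomp, ← Polynomial.map_map, hP4, Polynomial.map_mul, Polynomial.map_C]
    simp [hφ]
  have hP6K : P6.map (Int.castRingHom K) = C (d6 : K) * C6.map φ := by
    rw [← hcomp, ← Polynomial.map_map, hP6, Polynomial.map_mul, Polynomial.map_C]
    simp [hφ]
  have hA4K : A4.map (Int.castRingHom K) = C ((d : K) ^ 2) * (C4.map φ).comp lin := by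
    rw [hA4, Polynomial.map_mul, Polynomial.map_C, Polynomial.map_comp, hP4K, Polynomial.map_mul,
      Polynomial.map_C, Polynomial.map_X, mul_comp, C_comp, hd]
    simp only [eq_intCast, Int.cast_mul, Int.cast_pow, hlin, C_mul, C_pow]
    ring
  have hA6K : A6.map (Int.castRingHom K) = C ((d : K) ^ 3) * (C6.map φ).comp lin := by
    rw [hA6, Polynomial.map_mul, Polynomial.map_C, Polynomial.map_comp, hP6K, Polynomial.map_mul,
      Polynomial.map_C, Polynomial.map_X, mul_comp, C_comp, hd]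
    simp only [eq_intCast, Int.cast_mul, Int.cast_pow, hlin, C_mul, C_pow]
    ring
  have hdisc' : (C4.map φ) ^ 3 - (C6.map φ) ^ 2 = C κ * D ^ 5 := by
    rw [← hdisc, Polynomial.map_sub, Polynomial.map_pow, Polynomial.map_pow]
  have hfact : (A4 ^ 3 - A6 ^ 2).map (Int.castRingHom K)
      = C ((d : K) ^ 6 * κ) * (D.comp lin) ^ 5 := by
    rw [Polynomial.map_sub, Polynomial.map_pow, Polynomial.map_pow, hA4K, hA6K]
    have h1 : ((C4.map φ) ^ 3 - (C6.map φ) ^ 2).comp lin = (C κ * D ^ 5).comp lin := by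
      rw [hdisc']
    simp only [sub_comp, pow_comp, mul_comp, C_comp] at h1
    simp only [C_mul, C_pow]
    linear_combination (C (d : K)) ^ 6 * h1
  have hcop' : IsCoprime (A4.map (Int.castRingHom K)) (D.comp lin) := by
    rw [hA4K]
    have hu : IsUnit (C ((d : K) ^ 2) : K[X]) :=
      Polynomial.isUnit_C.mpr (pow_ne_zero 2 (Int.cast_ne_zero.mpr hd0)).isUnit
    refine (isCoprime_mul_unit_left_left hu _ _).mpr ?_
    exact hcop.map (Polynomial.compRingHom lin)
  have hD' : (D.comp lin).natDegree ≠ 0 := by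
    rw [natDegree_comp, hlin, natDegree_C_mul_X _ hN₁K, mul_one]
    exact hD
  obtain ⟨s, -, hs⟩ := exists_no_int_root A4 A6 p hp2 hp3 hpd ((d : K) ^ 6 * κ)
    (mul_ne_zero (pow_ne_zero 6 (Int.cast_ne_zero.mpr hd0)) hκ) (D.comp lin) hD' hfact hcop'
  refine ⟨N₁ * s, dvd_mul_right _ _, ?_, ?_⟩
  · -- nonvanishing of the discriminant
    intro h0
    have h1 : (A4.eval s) ^ 3 = (A6.eval s) ^ 2 := by
      have h2 : (((A4.eval s) ^ 3 - (A6.eval s) ^ 2 : ℤ) : ℚ) = 0 := by
        push_cast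
        rw [hA4eval, hA6eval]
        rw [eval_sub, eval_pow, eval_pow] at h0
        linear_combination (d : ℚ) ^ 6 * h0
      have h3 : (A4.eval s) ^ 3 - (A6.eval s) ^ 2 = 0 := by exact_mod_cast h2
      linarith
    obtain ⟨n, hn⟩ := exists_int_root_of_cube_eq_sq _ _ h1
    exact hs n hn
  · -- irreducibility of the 3-torsion
    intro W' hΔ' h4 h6
    by_contra hred
    obtain ⟨n, hn⟩ := exists_int_root_of_reducible W' hΔ' hred
    apply hs (d * n)
    have e4 : A4.eval s = d ^ 2 * W'.c₄ := by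
      have := hA4eval s
      rw [← h4] at this
      exact_mod_cast this
    have e6 : A6.eval s = d ^ 3 * W'.c₆ := by
      have := hA6eval s
      rw [← h6] at this
      exact_mod_cast this
    rw [e4, e6]
    linear_combination d ^ 4 * hn

end Fermat.Agent.S52.helper1047
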