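/-
S52 (3–5 switch) — captain's final glue (helper352).

`goal_of : Stmt_L3 → Stmt_Data → Goal_S52`.  Everything else is on main:
* `stmt_Loc_of_L3` (`helper352_Loc`): L3 + Frobenius Cayley–Hamilton ⟹ the local congruence;
* `helper2033.stmt_Short`: `apOfModel` via the short model;
* `helper7043.stmt_Coprime_of_isPencilData_curve`: no additive fibre outside `30 Δ`;
* `helper267.switch_of_abc`: the top assembly (irreducibility of `W'[3]` by the abc route).
-/
import Mathlib
import Fermat.Agent.S52.helper352_Spec
import Fermat.Agent.S52.helper352_Loc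
import Fermat.Agent.S52.helper2033_ShortStmt
import Fermat.Agent.S52.helper7043_Coprime
import Fermat.Agent.S52.helper267_AbcSwitch

set_option autoImplicit false

namespace Fermat.Agent.S52.helper352

open Polynomial

/-- **(DATA)** The family polynomials of the canonical pencil exist for all integers `c4, c6`. -/
def Stmt_Data : Prop := ∀ c4 c6 : ℤ, ∃ C4 C6 : ℤ[X], IsPencilData c4 c6 C4 C6

/-- **FINAL GLUE**: the frozen S52 statement from the two remaining leaves `Stmt_L3` and
`Stmt_Data`. -/
theorem goal_of (hL3 : Stmt_L3) (hData : Stmt_Data) : Goal_S52 :=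
  Fermat.Agent.S52.helper267.switch_of_abc (stmt_Loc_of_L3 hL3)
    Fermat.Agent.S52.helper2033.stmt_Short (fun W hΔ _ _ => by
      obtain ⟨C4, C6, h⟩ := hData W.c₄ W.c₆
      exact ⟨C4, C6, h,
        Fermat.Agent.S52.helper7043.stmt_Coprime_of_isPencilData_curve W hΔ C4 C6 h⟩)

end Fermat.Agent.S52.helper352
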