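/-
S52 — the captain's `Stmt_Data` leaf, closed (helper135).
`stmt_Data : helper352.Stmt_Data` from `helper135.isPencilData`.
-/
import Fermat.Agent.S52.helper352_Final
import Fermat.Agent.S52.helper135_PencilLink

set_option autoImplicit false

namespace Fermat.Agent.S52.helper135

/-- **(DATA)**, the captain's leaf `Stmt_Data`: the family polynomials of the canonical pencil
exist for all integers `c4, c6` (they are `Phi4Poly c4 c6`, `Phi6Poly c4 c6`). -/
theorem stmt_Data : Fermat.Agent.S52.helper352.Stmt_Data :=
  fun c4 c6 => ⟨Phi4Poly c4 c6, Phi6Poly c4 c6, isPencilData c4 c6⟩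

end Fermat.Agent.S52.helper135
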