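/-
S52 (3–5 switch) — block (L3), field `conj` of `helper4741.KleinDatum` (helper1570).

Explicit universal point of order `5` on `E_w : y² = x³ + 27 kH(w) x + 54 kT(w)` in the captain's
normalisation (data of chat #186, machine-checked):

  `X = -15 (p² + q²) + (18/5) √5 (p² + 11 p q - q²)`,  `p = u⁵`, `q = v⁵`, `√5 = z + z⁴ - z² - z³`,
  `Y = (108/5) (c₀ p³ + c₁ p² q + c₂ p q² + c₃ q³)`,
  `J (u, v) = (-v, u)`.

Main result `conj_field`: every ring endomorphism `σ` of a field `K` containing a root `z` of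
`Φ₅` acts on the universal point through a power of `J`:
`σ (X w) = X (J^[k] (σ w))`, `σ (Y w) = Y (J^[k] (σ w))`, with `k = 0, 1, 3, 2` for
`σ z = z, z², z³, z⁴`.  (No hypothesis on the characteristic.)
-/
import Mathlib

set_option autoImplicit false

namespace Fermat.Agent.S52.helper1570

section KleinConj

variable {K : Type*} [Field K]

/-- The `x`-coordinate of the universal `5`-torsion point as a function of `p = u⁵`, `q = v⁵`. -/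
def fX (z p q : K) : K :=
  -15 * (p ^ 2 + q ^ 2) + 18 / 5 * (z + z ^ 4 - z ^ 2 - z ^ 3) * (p ^ 2 + 11 * p * q - q ^ 2)

/-- The `y`-coordinate of the universal `5`-torsion point as a function of `p = u⁵`, `q = v⁵`. -/
def fY (z p q : K) : K :=
  108 / 5 * ((-1 - 2 * z + z ^ 2 - 3 * z ^ 3) * p ^ 3
    + (-9 - 18 * z + 14 * z ^ 2 - 32 * z ^ 3) * p ^ 2 * q
    + (23 + 46 * z + 32 * z ^ 2 + 14 * z ^ 3) * p * q ^ 2
    + (-2 - 4 * z - 3 * z ^ 2 - z ^ 3) * q ^ 3)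

/-- `X` of the universal point at the Klein parameter `w = (u, v)`. -/
def kPX (z : K) (w : K × K) : K := fX z (w.1 ^ 5) (w.2 ^ 5)

/-- `Y` of the universal point at the Klein parameter `w = (u, v)`. -/
def kPY (z : K) (w : K × K) : K := fY z (w.1 ^ 5) (w.2 ^ 5)

/-- The doubling substitution `J (u, v) = (-v, u)`. -/
def kJ (w : K × K) : K × K := (-w.2, w.1)

theorem map_fX (σ : K →+* K) (z p q : K) : σ (fX z p q) = fX (σ z) (σ p) (σ q) := by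
  simp only [fX, map_add, map_sub, map_mul, map_neg, map_pow, map_div₀, map_ofNat]

theorem map_fY (σ : K →+* K) (z p q : K) : σ (fY z p q) = fY (σ z) (σ p) (σ q) := by
  simp only [fY, map_add, map_sub, map_mul, map_neg, map_pow, map_div₀, map_ofNat, map_one]

/-- The roots of `Φ₅` in a field are the powers of a given root. -/
theorem zeta_cases (z x : K) (hz : z ^ 4 + z ^ 3 + z ^ 2 + z + 1 = 0)
    (hx : x ^ 4 + x ^ 3 + x ^ 2 + x + 1 = 0) :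
    x = z ∨ x = z ^ 2 ∨ x = z ^ 3 ∨ x = z ^ 4 := by
  have h : (x - z) * (x - z ^ 2) * (x - z ^ 3) * (x - z ^ 4) = 0 := by
    linear_combination hx + (-x ^ 3 + x ^ 2 * z ^ 3 + x ^ 2 * z - x ^ 2 - x * z ^ 5 + x * z - x + z ^ 6 - z ^ 5 + z - 1) * hz
  rcases mul_eq_zero.mp h with h | h
  · rcases mul_eq_zero.mp h with h | h
    · rcases mul_eq_zero.mp h with h | h
      · exact Or.inl (sub_eq_zero.mp h)
      · exact Or.inr (Or.inl (sub_eq_zero.mp h))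
    · exact Or.inr (Or.inr (Or.inl (sub_eq_zero.mp h)))
  · exact Or.inr (Or.inr (Or.inr (sub_eq_zero.mp h)))

theorem fX_pow_two (z p q : K) (hz : z ^ 4 + z ^ 3 + z ^ 2 + z + 1 = 0) :
    fX (z ^ 2) p q = fX z (-q) p := by
  unfold fX
  linear_combination (18 / 5 * (z ^ 4 * p ^ 2 + 11 * z ^ 4 * p * q - z ^ 4 * q ^ 2 - z ^ 3 * p ^ 2 - 11 * z ^ 3 * p * q + z ^ 3 * q ^ 2 - z ^ 2 * p ^ 2 - 11 * z ^ 2 * p * q + z ^ 2 * q ^ 2 + z * p ^ 2 + 11 * z * p * q - z * q ^ 2)) * hz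

theorem fY_pow_two (z p q : K) (hz : z ^ 4 + z ^ 3 + z ^ 2 + z + 1 = 0) :
    fY (z ^ 2) p q = fY z (-q) p := by
  unfold fY
  linear_combination (108 / 5 * (-3 * z ^ 2 * p ^ 3 - 32 * z ^ 2 * p ^ 2 * q + 14 * z ^ 2 * p * q ^ 2 - z ^ 2 * q ^ 3 + 3 * z * p ^ 3 + 32 * z * p ^ 2 * q - 14 * z * p * q ^ 2 + z * q ^ 3 + p ^ 3 + 14 * p ^ 2 * q + 32 * p * q ^ 2 - 3 * q ^ 3)) * hz

theorem fX_pow_three (z p q : K) (hz : z ^ 4 + z ^ 3 + z ^ 2 + z + 1 = 0) :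
    fX (z ^ 3) p q = fX z q (-p) := by
  unfold fX
  linear_combination (18 / 5 * (z ^ 8 * p ^ 2 + 11 * z ^ 8 * p * q - z ^ 8 * q ^ 2 - z ^ 7 * p ^ 2 - 11 * z ^ 7 * p * q + z ^ 7 * q ^ 2 - z ^ 5 * p ^ 2 - 11 * z ^ 5 * p * q + z ^ 5 * q ^ 2 + z ^ 4 * p ^ 2 + 11 * z ^ 4 * p * q - z ^ 4 * q ^ 2 + z ^ 3 * p ^ 2 + 11 * z ^ 3 * p * q - z ^ 3 * q ^ 2 - 2 * z ^ 2 * p ^ 2 - 22 * z ^ 2 * p * q + 2 * z ^ 2 * q ^ 2 + z * p ^ 2 + 11 * z * p * q - z * q ^ 2)) * hz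

theorem fY_pow_three (z p q : K) (hz : z ^ 4 + z ^ 3 + z ^ 2 + z + 1 = 0) :
    fY (z ^ 3) p q = fY z q (-p) := by
  unfold fY
  linear_combination (108 / 5 * (-3 * z ^ 5 * p ^ 3 - 32 * z ^ 5 * p ^ 2 * q + 14 * z ^ 5 * p * q ^ 2 - z ^ 5 * q ^ 3 + 3 * z ^ 4 * p ^ 3 + 32 * z ^ 4 * p ^ 2 * q - 14 * z ^ 4 * p * q ^ 2 + z ^ 4 * q ^ 3 + z ^ 2 * p ^ 3 + 14 * z ^ 2 * p ^ 2 * q + 32 * z ^ 2 * p * q ^ 2 - 3 * z ^ 2 * q ^ 3 - z * p ^ 3 - 14 * z * p ^ 2 * q - 32 * z * p * q ^ 2 + 3 * z * q ^ 3 - 3 * p ^ 3 - 32 * p ^ 2 * q + 14 * p * q ^ 2 - q ^ 3)) * hz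

theorem fX_pow_four (z p q : K) (hz : z ^ 4 + z ^ 3 + z ^ 2 + z + 1 = 0) :
    fX (z ^ 4) p q = fX z (-p) (-q) := by
  unfold fX
  linear_combination (18 / 5 * (z ^ 12 * p ^ 2 + 11 * z ^ 12 * p * q - z ^ 12 * q ^ 2 - z ^ 11 * p ^ 2 - 11 * z ^ 11 * p * q + z ^ 11 * q ^ 2 - z ^ 8 * p ^ 2 - 11 * z ^ 8 * p * q + z ^ 8 * q ^ 2 + 2 * z ^ 7 * p ^ 2 + 22 * z ^ 7 * p * q - 2 * z ^ 7 * q ^ 2 - z ^ 6 * p ^ 2 - 11 * z ^ 6 * p * q + z ^ 6 * q ^ 2 - z ^ 4 * p ^ 2 - 11 * z ^ 4 * p * q + z ^ 4 * q ^ 2 + 2 * z ^ 2 * p ^ 2 + 22 * z ^ 2 * p * q - 2 * z ^ 2 * q ^ 2 - z * p ^ 2 - 11 * z * p * q + z * q ^ 2)) * hz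

theorem fY_pow_four (z p q : K) (hz : z ^ 4 + z ^ 3 + z ^ 2 + z + 1 = 0) :
    fY (z ^ 4) p q = fY z (-p) (-q) := by
  unfold fY
  linear_combination (108 / 5 * (-3 * z ^ 8 * p ^ 3 - 32 * z ^ 8 * p ^ 2 * q + 14 * z ^ 8 * p * q ^ 2 - z ^ 8 * q ^ 3 + 3 * z ^ 7 * p ^ 3 + 32 * z ^ 7 * p ^ 2 * q - 14 * z ^ 7 * p * q ^ 2 + z ^ 7 * q ^ 3 + z ^ 4 * p ^ 3 + 14 * z ^ 4 * p ^ 2 * q + 32 * z ^ 4 * p * q ^ 2 - 3 * z ^ 4 * q ^ 3 - 4 * z ^ 3 * p ^ 3 - 46 * z ^ 3 * p ^ 2 * q - 18 * z ^ 3 * p * q ^ 2 + 2 * z ^ 3 * q ^ 3 + 3 * z ^ 2 * p ^ 3 + 32 * z ^ 2 * p ^ 2 * q - 14 * z ^ 2 * p * q ^ 2 + z ^ 2 * q ^ 3 - 2 * p ^ 3 - 18 * p ^ 2 * q + 46 * p * q ^ 2 - 4 * q ^ 3)) * hz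

theorem kPX_J (z : K) (w : K × K) : kPX z (kJ w) = fX z (-(w.2 ^ 5)) (w.1 ^ 5) := by
  simp only [kPX, kJ]
  congr 1
  ring

theorem kPY_J (z : K) (w : K × K) : kPY z (kJ w) = fY z (-(w.2 ^ 5)) (w.1 ^ 5) := by
  simp only [kPY, kJ]
  congr 1
  ring

theorem kPX_JJ (z : K) (w : K × K) : kPX z (kJ (kJ w)) = fX z (-(w.1 ^ 5)) (-(w.2 ^ 5)) := by
  simp only [kPX, kJ]
  congr 1 <;> ring

theorem kPY_JJ (z : K) (w : K × K) : kPY z (kJ (kJ w)) = fY z (-(w.1 ^ 5)) (-(w.2 ^ 5)) := by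
  simp only [kPY, kJ]
  congr 1 <;> ring

theorem kPX_JJJ (z : K) (w : K × K) : kPX z (kJ (kJ (kJ w))) = fX z (w.2 ^ 5) (-(w.1 ^ 5)) := by
  simp only [kPX, kJ]
  congr 1 <;> ring

theorem kPY_JJJ (z : K) (w : K × K) : kPY z (kJ (kJ (kJ w))) = fY z (w.2 ^ 5) (-(w.1 ^ 5)) := by
  simp only [kPY, kJ]
  congr 1 <;> ring

/-- **The `conj` field of `helper4741.KleinDatum`** for the explicit data `kPX z`, `kPY z`, `kJ`:
every ring endomorphism acts on the universal point through a power of `J`. -/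
theorem conj_field (z : K) (hz : z ^ 4 + z ^ 3 + z ^ 2 + z + 1 = 0) (σ : K →+* K) :
    ∃ k : ℕ, ∀ w : K × K, σ (kPX z w) = kPX z (kJ^[k] (Prod.map σ σ w)) ∧
      σ (kPY z w) = kPY z (kJ^[k] (Prod.map σ σ w)) := by
  have hσz : σ z ^ 4 + σ z ^ 3 + σ z ^ 2 + σ z + 1 = 0 := by
    have h := congrArg σ hz
    simpa only [map_add, map_pow, map_one, map_zero] using h
  rcases zeta_cases z (σ z) hz hσz with h | h | h | h
  · refine ⟨0, fun w => ?_⟩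
    simp only [Function.iterate_zero, id]
    constructor
    · show σ (fX z (w.1 ^ 5) (w.2 ^ 5)) = fX z ((Prod.map σ σ w).1 ^ 5) ((Prod.map σ σ w).2 ^ 5)
      rw [map_fX, h, map_pow, map_pow]; rfl
    · show σ (fY z (w.1 ^ 5) (w.2 ^ 5)) = fY z ((Prod.map σ σ w).1 ^ 5) ((Prod.map σ σ w).2 ^ 5)
      rw [map_fY, h, map_pow, map_pow]; rfl
  · refine ⟨1, fun w => ?_⟩
    simp only [Function.iterate_succ, Function.iterate_zero, Function.comp, id]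
    constructor
    · rw [kPX_J]
      show σ (fX z (w.1 ^ 5) (w.2 ^ 5)) = _
      rw [map_fX, h, map_pow, map_pow, fX_pow_two z _ _ hz]; rfl
    · rw [kPY_J]
      show σ (fY z (w.1 ^ 5) (w.2 ^ 5)) = _
      rw [map_fY, h, map_pow, map_pow, fY_pow_two z _ _ hz]; rfl
  · refine ⟨3, fun w => ?_⟩
    simp only [Function.iterate_succ, Function.iterate_zero, Function.comp, id]
    constructor
    · rw [kPX_JJJ]
      show σ (fX z (w.1 ^ 5) (w.2 ^ 5)) = _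
      rw [map_fX, h, map_pow, map_pow, fX_pow_three z _ _ hz]; rfl
    · rw [kPY_JJJ]
      show σ (fY z (w.1 ^ 5) (w.2 ^ 5)) = _
      rw [map_fY, h, map_pow, map_pow, fY_pow_three z _ _ hz]; rfl
  · refine ⟨2, fun w => ?_⟩
    simp only [Function.iterate_succ, Function.iterate_zero, Function.comp, id]
    constructor
    · rw [kPX_JJ]
      show σ (fX z (w.1 ^ 5) (w.2 ^ 5)) = _
      rw [map_fX, h, map_pow, map_pow, fX_pow_four z _ _ hz]; rfl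
    · rw [kPY_JJ]
      show σ (fY z (w.1 ^ 5) (w.2 ^ 5)) = _
      rw [map_fY, h, map_pow, map_pow, fY_pow_four z _ _ hz]; rfl

end KleinConj

end Fermat.Agent.S52.helper1570
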