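/-
S52 / (L1) Frobenius Cayley–Hamilton: final surface (helper8312, L1 architect).

This file pins the interface between the mid-assembly of (L1) (the theorem `frob_CH_short`
announced in the S52 chat: `φ² − a φ + q = 0` on the points of `y² = x³ + A x + B` over an
algebraically closed field, `a = q + 1 − #E(F_q)`) and its consumers
(`helper3731.CHShort`, `helper3731.CHGeneral`, `helper3731.dvd_apOfModel_sub`).

Everything is hypothesis-passing on the short-model statement `ShortRel`, so it can be applied to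
whichever mid-assembly lands first.
-/
import Mathlib
import Fermat.Prelude.Def_FLTPrelim_Modularity
import Fermat.Agent.S52.helper3731_FrobAdapter

set_option autoImplicit false

namespace Fermat.Agent.S52.helper8312

open WeierstrassCurve WeierstrassCurve.Affine
open Fermat.Agent.S52.helper3731

section

variable (ℓ : ℕ) [Fact ℓ.Prime] {K : Type*} [Field K] [DecidableEq K] [Algebra (ZMod ℓ) K]

/-- The short-model relation in the exact shape delivered by the mid-assembly (`frob_CH_short`
specialised to `F = ZMod ℓ`): trace written as `q + 1 − Nat.card E(F)`, `q = Fintype.card F`. -/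
def ShortRel (frob : K →ₐ[ZMod ℓ] K) : Prop :=
  ∀ A B : ZMod ℓ, 4 * A ^ 3 + 27 * B ^ 2 ≠ 0 →
    ∀ P : ((⟨0, 0, 0, A, B⟩ : WeierstrassCurve (ZMod ℓ))⁄K).Point,
      Point.map (W' := (⟨0, 0, 0, A, B⟩ : WeierstrassCurve (ZMod ℓ))) frob
          (Point.map (W' := (⟨0, 0, 0, A, B⟩ : WeierstrassCurve (ZMod ℓ))) frob P)
        - ((Fintype.card (ZMod ℓ) : ℤ) + 1
            - (Nat.card (⟨0, 0, 0, A, B⟩ : WeierstrassCurve (ZMod ℓ)).toAffine.Point : ℤ))
          • Point.map (W' := (⟨0, 0, 0, A, B⟩ : WeierstrassCurve (ZMod ℓ))) frob P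
        + (Fintype.card (ZMod ℓ) : ℤ) • P = 0

variable {ℓ}

/-- The mid-assembly shape implies `helper3731.CHShort`. -/
theorem chShort_of_shortRel (frob : K →ₐ[ZMod ℓ] K) (h : ShortRel ℓ frob) : CHShort ℓ frob := by
  intro A B hAB P
  have key := h A B hAB P
  have e1 : (shortModel ℓ A B).traceOfFrobenius
      = (Fintype.card (ZMod ℓ) : ℤ) + 1
        - (Nat.card (⟨0, 0, 0, A, B⟩ : WeierstrassCurve (ZMod ℓ)).toAffine.Point : ℤ) := by
    unfold WeierstrassCurve.traceOfFrobenius WeierstrassCurve.card shortModel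
    rw [Nat.card_eq_fintype_card]
  have e2 : (ℓ : ℤ) = (Fintype.card (ZMod ℓ) : ℤ) := by rw [ZMod.card]
  rw [e1, e2]
  exact key

/-- The mid-assembly shape implies Cayley–Hamilton for every Weierstrass model over `ZMod ℓ` with
`Δ ≠ 0` (`ℓ ≥ 5`), with the Prelude `traceOfFrobenius`. -/
theorem chGeneral_of_shortRel (hℓ : 5 ≤ ℓ) (frob : K →ₐ[ZMod ℓ] K) (h : ShortRel ℓ frob) :
    CHGeneral ℓ frob :=
  cayleyHamilton_general_of_short hℓ frob (chShort_of_shortRel frob h)

end

/-- The `ℓ`-power Frobenius of a `ZMod ℓ`-algebra, as an algebra endomorphism. -/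
noncomputable def frobAlgHom (ℓ : ℕ) [Fact ℓ.Prime] (K : Type*) [Field K] [Algebra (ZMod ℓ) K] :
    K →ₐ[ZMod ℓ] K :=
  haveI : CharP K ℓ := by
    have hinj : Function.Injective (algebraMap (ZMod ℓ) K) := (algebraMap (ZMod ℓ) K).injective
    exact charP_of_injective_algebraMap hinj ℓ
  { frobenius K ℓ with
    commutes' := fun r => by
      change (algebraMap (ZMod ℓ) K r) ^ ℓ = algebraMap (ZMod ℓ) K r
      rw [← map_pow, ZMod.pow_card] }

theorem frobAlgHom_apply (ℓ : ℕ) [Fact ℓ.Prime] (K : Type*) [Field K] [Algebra (ZMod ℓ) K]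
    (x : K) : frobAlgHom ℓ K x = x ^ ℓ := rfl

theorem frobAlgHom_apply' (ℓ : ℕ) [Fact ℓ.Prime] (K : Type*) [Field K] [Algebra (ZMod ℓ) K]
    (x : K) : frobAlgHom ℓ K x = x ^ Fintype.card (ZMod ℓ) := by
  rw [ZMod.card]; rfl

end Fermat.Agent.S52.helper8312
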