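/-
S52 (3–5 switch) — block (LOC) of the captain's plan (helper1570, LOC owner).

`helper352.Stmt_Loc` (the purely local `a_ℓ`-congruence along the Klein pencil, over `ZMod ℓ`,
`ℓ ≥ 7`) is reduced here, hypothesis-passing, to two leaves:

* `Stmt_CHLoc` : Frobenius Cayley–Hamilton for short models over `ZMod ℓ` on the points over
  `AlgebraicClosure (ZMod ℓ)` (block (L1); = `helper3731.CHShort` for the `ℓ`-power map
  `helper8312.frobAlgHom`).
* `Stmt_L3` : the pencil transport of `5`-torsion (block (L3)): a Frobenius-stable subgroup `M` of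
  the points of `E_w` containing a nonzero element killed by `5`, and an injective additive
  Frobenius-equivariant map `M → E_{pen t w}`.

Also provided: the same leaf in the `torsionBy` shape (`Stmt_L3Tors`), a field-generic shape
(`Stmt_L3Gen`, for any algebra endomorphism of any algebraically closed field), the `θ`-free
consumer shape (`Stmt_L3Cons`), and the adapters between them.
-/
import Mathlib
import Fermat.Prelude.Def_FLTPrelim_Modularity
import Fermat.Agent.S52.helper352_Spec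
import Fermat.Agent.S52.helper3731_FrobAdapter
import Fermat.Agent.S52.helper8312_FrobFinal

set_option autoImplicit false

namespace Fermat.Agent.S52.helper1570

open WeierstrassCurve WeierstrassCurve.Affine
open Fermat.Agent.S52.helper424 (kF kH kT)
open Fermat.Agent.S52.helper2033 (shortModel)
open Fermat.Agent.S52.helper352 (penU penV)

/-- The `ℓ`-power Frobenius of `AlgebraicClosure (ZMod ℓ)` as a `ZMod ℓ`-algebra endomorphism. -/
noncomputable abbrev frobBar (ℓ : ℕ) [Fact ℓ.Prime] :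
    AlgebraicClosure (ZMod ℓ) →ₐ[ZMod ℓ] AlgebraicClosure (ZMod ℓ) :=
  Fermat.Agent.S52.helper8312.frobAlgHom ℓ (AlgebraicClosure (ZMod ℓ))

/-! ### The leaves -/

/-- **(L1 / CH)** Frobenius Cayley–Hamilton for the short models over `ZMod ℓ`, on the points over
the algebraic closure. -/
def Stmt_CHLoc : Prop :=
  ∀ (ℓ : ℕ) [Fact ℓ.Prime], 7 ≤ ℓ → ∀ [DecidableEq (AlgebraicClosure (ZMod ℓ))],
    Fermat.Agent.S52.helper3731.CHShort ℓ (frobBar ℓ)

/-- **(L3), field-generic, subgroup shape.**  `k ⊆ K` fields, `K` algebraically closed with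
`30 ≠ 0`, `σ` any `k`-algebra endomorphism of `K`; `w = (u, v)` a Klein parameter of the curve
with invariants `(a, b)` over `k`, `pen t w` a Klein parameter of the curve with invariants
`(a', b')`, both nonsingular.  Then there are a `σ`-stable subgroup `M` of the points of
`shortModel a b` over `K` containing a nonzero element killed by `5` and an injective additive
`σ`-equivariant map `M → (shortModel a' b')(K)`. -/
def Stmt_L3Gen : Prop :=
  ∀ (k K : Type) [Field k] [Field K] [Algebra k K] [IsAlgClosed K] [DecidableEq K],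
    (2 : K) ≠ 0 → (3 : K) ≠ 0 → (5 : K) ≠ 0 →
    ∀ (σ : K →ₐ[k] K) (a b a' b' t : k) (u v : K),
      kH u v = -algebraMap k K a → kT u v = -algebraMap k K b →
      kH (penU (algebraMap k K t) u v) (penV (algebraMap k K t) u v) = -algebraMap k K a' →
      kT (penU (algebraMap k K t) u v) (penV (algebraMap k K t) u v) = -algebraMap k K b' →
      a ^ 3 - b ^ 2 ≠ 0 → a' ^ 3 - b' ^ 2 ≠ 0 →
      ∃ (M : AddSubgroup ((shortModel a b)⁄K).Point)
        (hM : ∀ x ∈ M, Point.map (W' := shortModel a b) σ x ∈ M)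
        (θ : M →+ ((shortModel a' b')⁄K).Point),
        Function.Injective θ ∧
        (∀ x : M, θ ⟨Point.map (W' := shortModel a b) σ x, hM x x.2⟩
            = Point.map (W' := shortModel a' b') σ (θ x)) ∧
        ∃ x : M, x ≠ 0 ∧ 5 • x = 0

/-- **(L3), subgroup shape over `ZMod ℓ`** (what `loc_of` consumes). -/
def Stmt_L3 : Prop :=
  ∀ (ℓ : ℕ) [Fact ℓ.Prime], 7 ≤ ℓ → ∀ [DecidableEq (AlgebraicClosure (ZMod ℓ))]
    (a b a' b' t : ZMod ℓ) (u v : AlgebraicClosure (ZMod ℓ)),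
    kH u v = -algebraMap (ZMod ℓ) (AlgebraicClosure (ZMod ℓ)) a →
    kT u v = -algebraMap (ZMod ℓ) (AlgebraicClosure (ZMod ℓ)) b →
    kH (penU (algebraMap (ZMod ℓ) (AlgebraicClosure (ZMod ℓ)) t) u v)
        (penV (algebraMap (ZMod ℓ) (AlgebraicClosure (ZMod ℓ)) t) u v)
      = -algebraMap (ZMod ℓ) (AlgebraicClosure (ZMod ℓ)) a' →
    kT (penU (algebraMap (ZMod ℓ) (AlgebraicClosure (ZMod ℓ)) t) u v)
        (penV (algebraMap (ZMod ℓ) (AlgebraicClosure (ZMod ℓ)) t) u v)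
      = -algebraMap (ZMod ℓ) (AlgebraicClosure (ZMod ℓ)) b' →
    a ^ 3 - b ^ 2 ≠ 0 → a' ^ 3 - b' ^ 2 ≠ 0 →
    ∃ (M : AddSubgroup ((shortModel a b)⁄(AlgebraicClosure (ZMod ℓ))).Point)
      (hM : ∀ x ∈ M, Point.map (W' := shortModel a b) (frobBar ℓ) x ∈ M)
      (θ : M →+ ((shortModel a' b')⁄(AlgebraicClosure (ZMod ℓ))).Point),
      Function.Injective θ ∧
      (∀ x : M, θ ⟨Point.map (W' := shortModel a b) (frobBar ℓ) x, hM x x.2⟩
          = Point.map (W' := shortModel a' b') (frobBar ℓ) (θ x)) ∧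
      ∃ x : M, x ≠ 0 ∧ 5 • x = 0

/-- **(L3), `torsionBy` shape over `ZMod ℓ`** (the hypotheses of
`helper3731.dvd_traceOfFrobenius_sub`). -/
def Stmt_L3Tors : Prop :=
  ∀ (ℓ : ℕ) [Fact ℓ.Prime], 7 ≤ ℓ → ∀ [DecidableEq (AlgebraicClosure (ZMod ℓ))]
    (a b a' b' t : ZMod ℓ) (u v : AlgebraicClosure (ZMod ℓ)),
    kH u v = -algebraMap (ZMod ℓ) (AlgebraicClosure (ZMod ℓ)) a →
    kT u v = -algebraMap (ZMod ℓ) (AlgebraicClosure (ZMod ℓ)) b →
    kH (penU (algebraMap (ZMod ℓ) (AlgebraicClosure (ZMod ℓ)) t) u v)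
        (penV (algebraMap (ZMod ℓ) (AlgebraicClosure (ZMod ℓ)) t) u v)
      = -algebraMap (ZMod ℓ) (AlgebraicClosure (ZMod ℓ)) a' →
    kT (penU (algebraMap (ZMod ℓ) (AlgebraicClosure (ZMod ℓ)) t) u v)
        (penV (algebraMap (ZMod ℓ) (AlgebraicClosure (ZMod ℓ)) t) u v)
      = -algebraMap (ZMod ℓ) (AlgebraicClosure (ZMod ℓ)) b' →
    a ^ 3 - b ^ 2 ≠ 0 → a' ^ 3 - b' ^ 2 ≠ 0 →
    ∃ θ : Submodule.torsionBy ℤ ((shortModel a b)⁄(AlgebraicClosure (ZMod ℓ))).Point (5 : ℕ) →+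
        ((shortModel a' b')⁄(AlgebraicClosure (ZMod ℓ))).Point,
      Function.Injective θ ∧
      (∀ x y : Submodule.torsionBy ℤ ((shortModel a b)⁄(AlgebraicClosure (ZMod ℓ))).Point (5 : ℕ),
        (y : ((shortModel a b)⁄(AlgebraicClosure (ZMod ℓ))).Point)
            = Point.map (W' := shortModel a b) (frobBar ℓ) x →
          θ y = Point.map (W' := shortModel a' b') (frobBar ℓ) (θ x)) ∧
      ∃ x : Submodule.torsionBy ℤ ((shortModel a b)⁄(AlgebraicClosure (ZMod ℓ))).Point (5 : ℕ),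
        x ≠ 0

/-- **(L3), `θ`-free consumer shape over `ZMod ℓ`**: any two integers `c, c'` for which Frobenius
satisfies `φ² - c φ + ℓ = 0` on `E_w`, resp. `φ² - c' φ + ℓ = 0` on `E_{pen t w}`, are congruent
modulo `5`. -/
def Stmt_L3Cons : Prop :=
  ∀ (ℓ : ℕ) [Fact ℓ.Prime], 7 ≤ ℓ → ∀ [DecidableEq (AlgebraicClosure (ZMod ℓ))]
    (a b a' b' t : ZMod ℓ) (u v : AlgebraicClosure (ZMod ℓ)),
    kH u v = -algebraMap (ZMod ℓ) (AlgebraicClosure (ZMod ℓ)) a →
    kT u v = -algebraMap (ZMod ℓ) (AlgebraicClosure (ZMod ℓ)) b →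
    kH (penU (algebraMap (ZMod ℓ) (AlgebraicClosure (ZMod ℓ)) t) u v)
        (penV (algebraMap (ZMod ℓ) (AlgebraicClosure (ZMod ℓ)) t) u v)
      = -algebraMap (ZMod ℓ) (AlgebraicClosure (ZMod ℓ)) a' →
    kT (penU (algebraMap (ZMod ℓ) (AlgebraicClosure (ZMod ℓ)) t) u v)
        (penV (algebraMap (ZMod ℓ) (AlgebraicClosure (ZMod ℓ)) t) u v)
      = -algebraMap (ZMod ℓ) (AlgebraicClosure (ZMod ℓ)) b' →
    a ^ 3 - b ^ 2 ≠ 0 → a' ^ 3 - b' ^ 2 ≠ 0 →
    ∀ c c' : ℤ,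
      (∀ P : ((shortModel a b)⁄(AlgebraicClosure (ZMod ℓ))).Point,
        Point.map (W' := shortModel a b) (frobBar ℓ) (Point.map (W' := shortModel a b) (frobBar ℓ) P)
          - c • Point.map (W' := shortModel a b) (frobBar ℓ) P + (ℓ : ℤ) • P = 0) →
      (∀ P : ((shortModel a' b')⁄(AlgebraicClosure (ZMod ℓ))).Point,
        Point.map (W' := shortModel a' b') (frobBar ℓ)
            (Point.map (W' := shortModel a' b') (frobBar ℓ) P)
          - c' • Point.map (W' := shortModel a' b') (frobBar ℓ) P + (ℓ : ℤ) • P = 0) →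
      (5 : ℤ) ∣ c' - c

/-! ### Adapters between the shapes of (L3) -/

/-- The field-generic leaf specialises to `ZMod ℓ ⊆ AlgebraicClosure (ZMod ℓ)` and Frobenius. -/
theorem stmt_L3_of_gen (h : Stmt_L3Gen) : Stmt_L3 := by
  intro ℓ _ h7 _ a b a' b' t u v hH hT hH' hT' hab hab'
  have hchar : ∀ n : ℕ, 0 < n → n < ℓ → ((n : ℕ) : AlgebraicClosure (ZMod ℓ)) ≠ 0 := by
    intro n hn0 hnl hn
    rw [CharP.cast_eq_zero_iff (AlgebraicClosure (ZMod ℓ)) ℓ] at hn
    exact absurd (Nat.le_of_dvd hn0 hn) (not_le.mpr hnl)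
  have h2 : (2 : AlgebraicClosure (ZMod ℓ)) ≠ 0 := by
    have := hchar 2 (by norm_num) (by omega); simpa using this
  have h3 : (3 : AlgebraicClosure (ZMod ℓ)) ≠ 0 := by
    have := hchar 3 (by norm_num) (by omega); simpa using this
  have h5 : (5 : AlgebraicClosure (ZMod ℓ)) ≠ 0 := by
    have := hchar 5 (by norm_num) (by omega); simpa using this
  exact h (ZMod ℓ) (AlgebraicClosure (ZMod ℓ)) h2 h3 h5 (frobBar ℓ) a b a' b' t u v hH hT hH' hT'
    hab hab'

/-- The `torsionBy` shape implies the subgroup shape (`M` = the `5`-torsion). -/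
theorem stmt_L3_of_tors (h : Stmt_L3Tors) : Stmt_L3 := by
  intro ℓ _ h7 _ a b a' b' t u v hH hT hH' hT' hab hab'
  obtain ⟨θ, hθ, hθφ, v, hv⟩ := h ℓ h7 a b a' b' t u v hH hT hH' hT' hab hab'
  set M : AddSubgroup ((shortModel a b)⁄(AlgebraicClosure (ZMod ℓ))).Point :=
    (Submodule.torsionBy ℤ ((shortModel a b)⁄(AlgebraicClosure (ZMod ℓ))).Point (5 : ℕ)).toAddSubgroup
    with hMdef
  have hM : ∀ x ∈ M, Point.map (W' := shortModel a b) (frobBar ℓ) x ∈ M := by
    intro x hx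
    have hx' : ((5 : ℕ) : ℤ) • x = 0 := (Submodule.mem_torsionBy_iff _ _).mp hx
    have : ((5 : ℕ) : ℤ) • Point.map (W' := shortModel a b) (frobBar ℓ) x = 0 := by
      rw [← map_zsmul, hx', map_zero]
    exact (Submodule.mem_torsionBy_iff _ _).mpr this
  refine ⟨M, hM, θ, hθ, fun x => hθφ x ⟨_, hM x x.2⟩ rfl, v, hv, ?_⟩
  apply Subtype.ext
  have hv' : ((5 : ℕ) : ℤ) • (v : ((shortModel a b)⁄(AlgebraicClosure (ZMod ℓ))).Point) = 0 :=
    (Submodule.mem_torsionBy_iff _ _).mp v.2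
  rw [natCast_zsmul] at hv'
  rw [AddSubmonoidClass.coe_nsmul]
  exact hv'

/-- The subgroup shape implies the `θ`-free consumer shape. -/
theorem stmt_L3Cons_of_L3 (h : Stmt_L3) : Stmt_L3Cons := by
  intro ℓ _ h7 _ a b a' b' t u v hH hT hH' hT' hab hab' c c' hc hc'
  obtain ⟨M, hM, θ, hθ, hθφ, x, hx, h5x⟩ := h ℓ h7 a b a' b' t u v hH hT hH' hT' hab hab'
  have key := Fermat.Agent.S52.helper3731.dvd_sub_of_equivariant
    (G := ((shortModel a b)⁄(AlgebraicClosure (ZMod ℓ))).Point)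
    (G' := ((shortModel a' b')⁄(AlgebraicClosure (ZMod ℓ))).Point)
    (Point.map (W' := shortModel a b) (frobBar ℓ))
    (Point.map (W' := shortModel a' b') (frobBar ℓ)) (Point.map_injective (frobBar ℓ))
    c c' (ℓ : ℤ) 5 Nat.prime_five M hM θ hθ hθφ (fun y _ => hc y) hc' x hx h5x
  rw [← neg_sub]
  exact (dvd_neg).mpr (by exact_mod_cast key)

/-! ### (LOC) -/

private lemma disc_ne {ℓ : ℕ} [Fact ℓ.Prime] (h7 : 7 ≤ ℓ) (a b : ZMod ℓ) (hab : a ^ 3 - b ^ 2 ≠ 0) :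
    4 * (-27 * a) ^ 3 + 27 * (-54 * b) ^ 2 ≠ 0 := by
  have hℓ : ℓ.Prime := Fact.out
  have e : 4 * (-27 * a) ^ 3 + 27 * (-54 * b) ^ 2 = -(2 ^ 2 * 3 ^ 9) * (a ^ 3 - b ^ 2) := by ring
  rw [e]
  refine mul_ne_zero (neg_ne_zero.mpr ?_) hab
  have h2 : (2 : ZMod ℓ) ≠ 0 := by
    intro h
    have h' : ((2 : ℕ) : ZMod ℓ) = 0 := by exact_mod_cast h
    rw [ZMod.natCast_eq_zero_iff] at h'
    have := Nat.le_of_dvd (by norm_num) h'
    omega
  have h3 : (3 : ZMod ℓ) ≠ 0 := by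
    intro h
    have h' : ((3 : ℕ) : ZMod ℓ) = 0 := by exact_mod_cast h
    rw [ZMod.natCast_eq_zero_iff] at h'
    have := Nat.le_of_dvd (by norm_num) h'
    omega
  exact mul_ne_zero (pow_ne_zero _ h2) (pow_ne_zero _ h3)

/-- **(LOC) from the consumer shape of (L3) and Cayley–Hamilton.** -/
theorem loc_of_cons (hL3 : Stmt_L3Cons) (hCH : Stmt_CHLoc) :
    Fermat.Agent.S52.helper352.Stmt_Loc := by
  classical
  intro ℓ _ h7 a b a' b' t u v hH hT hH' hT' hab hab'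
  have hch := @hCH ℓ _ h7 (Classical.decEq _)
  have h1 := hch (-27 * a) (-54 * b) (disc_ne h7 a b hab)
  have h2 := hch (-27 * a') (-54 * b') (disc_ne h7 a' b' hab')
  exact @hL3 ℓ _ h7 (Classical.decEq _) a b a' b' t u v hH hT hH' hT' hab hab'
    (shortModel a b).traceOfFrobenius (shortModel a' b').traceOfFrobenius h1 h2

/-- **(LOC) from (L3) (subgroup shape) and Cayley–Hamilton.** -/
theorem loc_of (hL3 : Stmt_L3) (hCH : Stmt_CHLoc) : Fermat.Agent.S52.helper352.Stmt_Loc :=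
  loc_of_cons (stmt_L3Cons_of_L3 hL3) hCH

/-- **(LOC) from the field-generic (L3) and Cayley–Hamilton.** -/
theorem loc_of_gen (hL3 : Stmt_L3Gen) (hCH : Stmt_CHLoc) : Fermat.Agent.S52.helper352.Stmt_Loc :=
  loc_of (stmt_L3_of_gen hL3) hCH

/-- **(LOC) from the `torsionBy` shape of (L3) and Cayley–Hamilton.** -/
theorem loc_of_tors (hL3 : Stmt_L3Tors) (hCH : Stmt_CHLoc) : Fermat.Agent.S52.helper352.Stmt_Loc :=
  loc_of (stmt_L3_of_tors hL3) hCH

/-- `Stmt_CHLoc` from the mid-assembly shape `helper8312.ShortRel`. -/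
theorem stmt_CHLoc_of_shortRel
    (h : ∀ (ℓ : ℕ) [Fact ℓ.Prime], 7 ≤ ℓ → ∀ [DecidableEq (AlgebraicClosure (ZMod ℓ))],
      Fermat.Agent.S52.helper8312.ShortRel ℓ (frobBar ℓ)) : Stmt_CHLoc := by
  intro ℓ _ h7 _
  exact Fermat.Agent.S52.helper8312.chShort_of_shortRel (frobBar ℓ) (h ℓ h7)

end Fermat.Agent.S52.helper1570
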