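/-
S52 (3–5 switch) — block (LOC), closing glue (helper1570, LOC owner).

With (L1) closed on main (`helper2957.chShort_frobAlgHom`), the leaf `Stmt_CHLoc` of
`helper1570_Loc` is discharged here, so that

  `stmt_Loc_of_L3 : Stmt_L3 → helper352.Stmt_Loc`

(and the same from each of the other shapes of (L3): `Stmt_L3Gen`, `Stmt_L3Tors`, `Stmt_L3Cons`,
and the relational shape `Stmt_L3Rel` of the captain's update #2).
-/
import Mathlib
import Fermat.Prelude.Def_FLTPrelim_Modularity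
import Fermat.Agent.S52.helper1570_Loc
import Fermat.Agent.S52.helper2957_FrobCHFinal

set_option autoImplicit false

namespace Fermat.Agent.S52.helper1570

open WeierstrassCurve WeierstrassCurve.Affine
open Fermat.Agent.S52.helper424 (kF kH kT)
open Fermat.Agent.S52.helper2033 (shortModel)
open Fermat.Agent.S52.helper352 (penU penV)

/-- **(L1) is closed**: Frobenius Cayley–Hamilton for short models over `ZMod ℓ` on the points over
`AlgebraicClosure (ZMod ℓ)`. -/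
theorem stmt_CHLoc : Stmt_CHLoc := by
  intro ℓ _ h7 _
  exact Fermat.Agent.S52.helper2957.chShort_frobAlgHom (by omega)

/-- **(L3), relational subgroup shape** (captain's update #2): `M` a Frobenius-stable subgroup,
`θ : M →+ E'` injective, equivariance stated for pairs `x y : M` with `y = φ x`. -/
def Stmt_L3Rel : Prop :=
  ∀ (ℓ : ℕ) [Fact ℓ.Prime], 7 ≤ ℓ → ∀ [DecidableEq (AlgebraicClosure (ZMod ℓ))]
    (a b a' b' t : ZMod ℓ) (u v : AlgebraicClosure (ZMod ℓ)),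
    kH u v = -algebraMap (ZMod ℓ) (AlgebraicClosure (ZMod ℓ)) a →
    kT u v = -algebraMap (ZMod ℓ) (AlgebraicClosure (ZMod ℓ)) b →
    kH (penU (algebraMap (ZMod ℓ) (AlgebraicClosure (ZMod ℓ)) t) u v)
        (penV (algebraMap (ZMod ℓ) (AlgebraicClosure (ZMod ℓ)) t) u v)
      = -algebraMap (ZMod ℓ) (AlgebraicClosure (ZMod ℓ)) a' →
    kT (penU (algebraMap (ZMod ℓ) (AlgebraicClosure (ZMod ℓ)) t) u v)
        (penV (algebraMap (ZMod ℓ) (AlgebraicClosure (ZMod ℓ)) t) u v)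
      = -algebraMap (ZMod ℓ) (AlgebraicClosure (ZMod ℓ)) b' →
    a ^ 3 - b ^ 2 ≠ 0 → a' ^ 3 - b' ^ 2 ≠ 0 →
    ∃ (M : AddSubgroup ((shortModel a b)⁄(AlgebraicClosure (ZMod ℓ))).Point)
      (θ : M →+ ((shortModel a' b')⁄(AlgebraicClosure (ZMod ℓ))).Point),
      (∀ x ∈ M, Point.map (W' := shortModel a b) (frobBar ℓ) x ∈ M) ∧
      Function.Injective θ ∧
      (∀ x y : M, (y : ((shortModel a b)⁄(AlgebraicClosure (ZMod ℓ))).Point)
            = Point.map (W' := shortModel a b) (frobBar ℓ) x →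
          θ y = Point.map (W' := shortModel a' b') (frobBar ℓ) (θ x)) ∧
      ∃ x : M, x ≠ 0 ∧ 5 • x = 0

theorem stmt_L3_of_rel (h : Stmt_L3Rel) : Stmt_L3 := by
  intro ℓ _ h7 _ a b a' b' t u v hH hT hH' hT' hab hab'
  obtain ⟨M, θ, hM, hθ, hθφ, x, hx, h5x⟩ := h ℓ h7 a b a' b' t u v hH hT hH' hT' hab hab'
  exact ⟨M, hM, θ, hθ, fun y => hθφ y ⟨_, hM y y.2⟩ rfl, x, hx, h5x⟩

theorem stmt_L3Rel_of_L3 (h : Stmt_L3) : Stmt_L3Rel := by
  intro ℓ _ h7 _ a b a' b' t u v hH hT hH' hT' hab hab'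
  obtain ⟨M, hM, θ, hθ, hθφ, x, hx, h5x⟩ := h ℓ h7 a b a' b' t u v hH hT hH' hT' hab hab'
  refine ⟨M, θ, hM, hθ, ?_, x, hx, h5x⟩
  intro y z hz
  have : z = ⟨Point.map (W' := shortModel a b) (frobBar ℓ) y, hM y y.2⟩ := Subtype.ext hz
  rw [this]
  exact hθφ y

/-- **(LOC) from (L3)**, subgroup shape. -/
theorem stmt_Loc_of_L3 (h : Stmt_L3) : Fermat.Agent.S52.helper352.Stmt_Loc :=
  loc_of h stmt_CHLoc

/-- **(LOC) from (L3)**, relational subgroup shape. -/
theorem stmt_Loc_of_L3Rel (h : Stmt_L3Rel) : Fermat.Agent.S52.helper352.Stmt_Loc :=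
  loc_of (stmt_L3_of_rel h) stmt_CHLoc

/-- **(LOC) from (L3)**, field-generic shape. -/
theorem stmt_Loc_of_L3Gen (h : Stmt_L3Gen) : Fermat.Agent.S52.helper352.Stmt_Loc :=
  loc_of_gen h stmt_CHLoc

/-- **(LOC) from (L3)**, `torsionBy` shape. -/
theorem stmt_Loc_of_L3Tors (h : Stmt_L3Tors) : Fermat.Agent.S52.helper352.Stmt_Loc :=
  loc_of_tors h stmt_CHLoc

/-- **(LOC) from (L3)**, `θ`-free consumer shape. -/
theorem stmt_Loc_of_L3Cons (h : Stmt_L3Cons) : Fermat.Agent.S52.helper352.Stmt_Loc :=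
  loc_of_cons h stmt_CHLoc

end Fermat.Agent.S52.helper1570
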