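/-
S52 (3–5 switch) — captain's interface for the last local leaf (helper352).

`Stmt_L3` is the ONE target of every "L3" route (torsor route, torsor-free route, generic-fibre
route, rigidity route): over `K = AlgebraicClosure (ZMod ℓ)`, `ℓ ≥ 7`, with `φ` the `ℓ`-power
Frobenius, a nonzero `φ`-stable subgroup `M` of the points of `shortModel a b` containing a point
of order `5`, and an injective additive `φ`-equivariant map `θ` from `M` to the points of
`shortModel a' b'`, whenever `(a', b')` lies on the canonical pencil through `(a, b)`.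

`stmt_Loc_of_L3 : Stmt_L3 → Stmt_Loc` is proved here from the landed Frobenius Cayley–Hamilton
relation (`helper2957.frob_CH_short`) and the abstract consumer lemma
(`helper3731.dvd_sub_of_equivariant`).
-/
import Mathlib
import Fermat.Prelude.Def_FLTPrelim_Modularity
import Fermat.Agent.S52.helper352_Spec
import Fermat.Agent.S52.helper2957_FrobCH
import Fermat.Agent.S52.helper3731_FrobAdapter
import Fermat.Agent.S52.helper8312_FrobFinal

set_option autoImplicit false

namespace Fermat.Agent.S52.helper352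

open WeierstrassCurve WeierstrassCurve.Affine
open Fermat.Agent.S52.helper424 (kF kH kT)
open Fermat.Agent.S52.helper2033 (shortModel)
open Fermat.Agent.S52.helper8312 (frobAlgHom)

noncomputable section

attribute [local instance] Classical.propDecidable

/-- **(L3)** The Frobenius-equivariant transfer of `5`-torsion along the canonical pencil, over
`AlgebraicClosure (ZMod ℓ)`, `ℓ ≥ 7`.  (The `DecidableEq` instance on the field is the classical
one; `frobAlgHom ℓ K` is `x ↦ x ^ ℓ`.) -/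
def Stmt_L3 : Prop :=
  ∀ (ℓ : ℕ) [Fact ℓ.Prime], 7 ≤ ℓ → ∀ (a b a' b' t : ZMod ℓ) (u v : AlgebraicClosure (ZMod ℓ)),
    kH u v = -algebraMap (ZMod ℓ) (AlgebraicClosure (ZMod ℓ)) a →
    kT u v = -algebraMap (ZMod ℓ) (AlgebraicClosure (ZMod ℓ)) b →
    kH (penU (algebraMap (ZMod ℓ) (AlgebraicClosure (ZMod ℓ)) t) u v)
        (penV (algebraMap (ZMod ℓ) (AlgebraicClosure (ZMod ℓ)) t) u v)
      = -algebraMap (ZMod ℓ) (AlgebraicClosure (ZMod ℓ)) a' →
    kT (penU (algebraMap (ZMod ℓ) (AlgebraicClosure (ZMod ℓ)) t) u v)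
        (penV (algebraMap (ZMod ℓ) (AlgebraicClosure (ZMod ℓ)) t) u v)
      = -algebraMap (ZMod ℓ) (AlgebraicClosure (ZMod ℓ)) b' →
    a ^ 3 - b ^ 2 ≠ 0 → a' ^ 3 - b' ^ 2 ≠ 0 →
    ∃ (M : AddSubgroup ((shortModel a b)⁄(AlgebraicClosure (ZMod ℓ))).Point)
      (θ : M →+ ((shortModel a' b')⁄(AlgebraicClosure (ZMod ℓ))).Point),
      (∀ x ∈ M, Point.map (W' := shortModel a b)
          (frobAlgHom ℓ (AlgebraicClosure (ZMod ℓ))) x ∈ M) ∧
      Function.Injective θ ∧
      (∀ x y : M, (y : ((shortModel a b)⁄(AlgebraicClosure (ZMod ℓ))).Point)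
            = Point.map (W' := shortModel a b) (frobAlgHom ℓ (AlgebraicClosure (ZMod ℓ)))
                (x : ((shortModel a b)⁄(AlgebraicClosure (ZMod ℓ))).Point) →
          θ y = Point.map (W' := shortModel a' b') (frobAlgHom ℓ (AlgebraicClosure (ZMod ℓ)))
                  (θ x)) ∧
      ∃ x : M, x ≠ 0 ∧ 5 • x = 0

/-- Frobenius Cayley–Hamilton on `shortModel a b` over `AlgebraicClosure (ZMod ℓ)`, with the
Prelude `traceOfFrobenius` (from `helper2957.frob_CH_short`). -/
theorem frob_CH_shortModel (ℓ : ℕ) [Fact ℓ.Prime] (h7 : 7 ≤ ℓ) (a b : ZMod ℓ)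
    (hab : a ^ 3 - b ^ 2 ≠ 0)
    (P : ((shortModel a b)⁄(AlgebraicClosure (ZMod ℓ))).Point) :
    Point.map (W' := shortModel a b) (frobAlgHom ℓ (AlgebraicClosure (ZMod ℓ)))
        (Point.map (W' := shortModel a b) (frobAlgHom ℓ (AlgebraicClosure (ZMod ℓ))) P)
      - (shortModel a b).traceOfFrobenius •
          Point.map (W' := shortModel a b) (frobAlgHom ℓ (AlgebraicClosure (ZMod ℓ))) P
      + (ℓ : ℤ) • P = 0 := by
  have hℓ : ℓ.Prime := Fact.out
  have hodd : ℓ ≠ 2 := by omega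
  have hc : (78732 : ZMod ℓ) ≠ 0 := by
    intro h
    have h' : ((78732 : ℕ) : ZMod ℓ) = 0 := by exact_mod_cast h
    rw [ZMod.natCast_eq_zero_iff] at h'
    have h2 : (78732 : ℕ) = 2 ^ 2 * 3 ^ 9 := by norm_num
    rw [h2] at h'
    rcases (Nat.Prime.dvd_mul hℓ).mp h' with h | h
    · have := Nat.le_of_dvd (by norm_num) (hℓ.dvd_of_dvd_pow h); omega
    · have := Nat.le_of_dvd (by norm_num) (hℓ.dvd_of_dvd_pow h); omega
  have hΔ : 4 * (-27 * a) ^ 3 + 27 * (-54 * b) ^ 2 ≠ 0 := by
    have e : 4 * (-27 * a) ^ 3 + 27 * (-54 * b) ^ 2 = -(78732 * (a ^ 3 - b ^ 2)) := by ring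
    rw [e, neg_ne_zero]
    exact mul_ne_zero hc hab
  have key := Fermat.Agent.S52.helper2957.frob_CH_short (ℓ := ℓ) (A := -27 * a) (B := -54 * b)
    (K := AlgebraicClosure (ZMod ℓ)) hodd hΔ (frobAlgHom ℓ (AlgebraicClosure (ZMod ℓ)))
    (fun x => rfl) P
  have e1 : (shortModel a b).traceOfFrobenius
      = (ℓ : ℤ) + 1
        - (Nat.card (⟨0, 0, 0, -27 * a, -54 * b⟩ : WeierstrassCurve (ZMod ℓ)).toAffine.Point : ℤ) := by
    unfold WeierstrassCurve.traceOfFrobenius WeierstrassCurve.card shortModel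
    rw [Nat.card_zmod]
  rw [e1]
  exact key

/-- **LOC from L3.** -/
theorem stmt_Loc_of_L3 (h : Stmt_L3) : Stmt_Loc := by
  intro ℓ _ h7 a b a' b' t u v hH hT hH' hT' hab hab'
  obtain ⟨M, θ, hM, hθ, hθφ, x, hx0, hx5⟩ := h ℓ h7 a b a' b' t u v hH hT hH' hT' hab hab'
  have key := Fermat.Agent.S52.helper3731.dvd_sub_of_equivariant
    (G := ((shortModel a b)⁄(AlgebraicClosure (ZMod ℓ))).Point)
    (G' := ((shortModel a' b')⁄(AlgebraicClosure (ZMod ℓ))).Point)
    (Point.map (W' := shortModel a b) (frobAlgHom ℓ (AlgebraicClosure (ZMod ℓ))))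
    (Point.map (W' := shortModel a' b') (frobAlgHom ℓ (AlgebraicClosure (ZMod ℓ))))
    (Point.map_injective _)
    (shortModel a b).traceOfFrobenius (shortModel a' b').traceOfFrobenius (ℓ : ℤ) 5
    Nat.prime_five M hM θ hθ (fun x => hθφ x ⟨_, hM x x.2⟩ rfl)
    (fun x _ => frob_CH_shortModel ℓ h7 a b hab x)
    (fun y => frob_CH_shortModel ℓ h7 a' b' hab' y) x hx0 hx5
  have : ((5 : ℕ) : ℤ) ∣ (shortModel a' b').traceOfFrobenius - (shortModel a b).traceOfFrobenius := by
    rw [← neg_sub]; exact (dvd_neg).mpr key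
  exact_mod_cast this

end

end Fermat.Agent.S52.helper352
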