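/-
S52 (3–5 switch) — block (LOC): adapter from the landed L3 logic `helper4741.KleinDatum`
(helper1570, LOC owner).

`helper4741.KleinDatum.exists_torsion_hom` (on main) produces, from a `KleinDatum K`, exactly the
`torsionBy` shape `Stmt_L3Tors` of (L3).  Hence (LOC) = `helper352.Stmt_Loc` follows from the mere
existence of a Klein datum over `AlgebraicClosure (ZMod ℓ)` (`ℓ ≥ 7`) in the captain's
normalisation:

  `A w = 27 * kH w`, `B w = 54 * kT w`, `R t w = (penU t w, penV t w)`.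

* `stmt_L3Tors_of_kleinDatum`, `stmt_Loc_of_kleinDatum` : per-`ℓ` form.
* `stmt_Loc_of_kleinDatum_gen` : from a field-generic instance
  `(e : K) (he : e^4+e^3+e^2+e+1 = 0) (h30 : (30 : K) ≠ 0) ↦ KleinDatum K`.
* `stmt_L3cap_of_*` : the same conclusions in the captain's shape `helper352.Stmt_L3`.
-/
import Mathlib
import Fermat.Prelude.Def_FLTPrelim_Modularity
import Fermat.Agent.S52.helper1570_LocFinal
import Fermat.Agent.S52.helper352_Loc
import Fermat.Agent.S52.helper4741_KleinLogic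

set_option autoImplicit false

namespace Fermat.Agent.S52.helper1570

open WeierstrassCurve WeierstrassCurve.Affine
open Fermat.Agent.S52.helper424 (kF kH kT)
open Fermat.Agent.S52.helper2033 (shortModel)
open Fermat.Agent.S52.helper352 (penU penV)
open Fermat.Agent.S52.helper4741 (KleinDatum)

/-- A Klein datum over `K` in the captain's normalisation. -/
def IsCanonical {K : Type*} [Field K] (d : KleinDatum K) : Prop :=
  (∀ w : K × K, d.A w = 27 * kH w.1 w.2) ∧ (∀ w : K × K, d.B w = 54 * kT w.1 w.2) ∧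
    ∀ (t : K) (w : K × K), d.R t w = (penU t w.1 w.2, penV t w.1 w.2)

private lemma natCast_ne_zero_bar {ℓ : ℕ} [Fact ℓ.Prime] (n : ℕ) (hn0 : 0 < n) (hnl : n < ℓ) :
    ((n : ℕ) : AlgebraicClosure (ZMod ℓ)) ≠ 0 := by
  intro hn
  rw [CharP.cast_eq_zero_iff (AlgebraicClosure (ZMod ℓ)) ℓ] at hn
  exact absurd (Nat.le_of_dvd hn0 hn) (not_le.mpr hnl)

private lemma disc_ne' {ℓ : ℕ} [Fact ℓ.Prime] (h7 : 7 ≤ ℓ) (a b : ZMod ℓ)
    (hab : a ^ 3 - b ^ 2 ≠ 0) : 4 * (-27 * a) ^ 3 + 27 * (-54 * b) ^ 2 ≠ 0 := by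
  have e : 4 * (-27 * a) ^ 3 + 27 * (-54 * b) ^ 2 = -(2 ^ 2 * 3 ^ 9) * (a ^ 3 - b ^ 2) := by ring
  rw [e]
  refine mul_ne_zero (neg_ne_zero.mpr ?_) hab
  have h2 : (2 : ZMod ℓ) ≠ 0 := by
    intro h
    have h' : ((2 : ℕ) : ZMod ℓ) = 0 := by exact_mod_cast h
    rw [ZMod.natCast_eq_zero_iff] at h'
    have := Nat.le_of_dvd (by norm_num) h'
    omega
  have h3 : (3 : ZMod ℓ) ≠ 0 := by
    intro h
    have h' : ((3 : ℕ) : ZMod ℓ) = 0 := by exact_mod_cast h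
    rw [ZMod.natCast_eq_zero_iff] at h'
    have := Nat.le_of_dvd (by norm_num) h'
    omega
  exact mul_ne_zero (pow_ne_zero _ h2) (pow_ne_zero _ h3)

/-- **(L3), `torsionBy` shape, from Klein data** over the fields `AlgebraicClosure (ZMod ℓ)`. -/
theorem stmt_L3Tors_of_kleinDatum
    (hd : ∀ (ℓ : ℕ) [Fact ℓ.Prime], 7 ≤ ℓ →
      ∃ d : KleinDatum (AlgebraicClosure (ZMod ℓ)), IsCanonical d) : Stmt_L3Tors := by
  intro ℓ _ h7 _ a b a' b' t u v hH hT hH' hT' hab hab'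
  obtain ⟨d, hA, hB, hR⟩ := hd ℓ h7
  have h2 : (2 : AlgebraicClosure (ZMod ℓ)) ≠ 0 := by
    have := natCast_ne_zero_bar (ℓ := ℓ) 2 (by norm_num) (by omega); simpa using this
  have h5 : (5 : AlgebraicClosure (ZMod ℓ)) ≠ 0 := by
    have := natCast_ne_zero_bar (ℓ := ℓ) 5 (by norm_num) (by omega); simpa using this
  have hw₀ : d.Mem (algebraMap (ZMod ℓ) (AlgebraicClosure (ZMod ℓ)) (-27 * a))
      (algebraMap (ZMod ℓ) (AlgebraicClosure (ZMod ℓ)) (-54 * b)) (u, v) := by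
    refine ⟨?_, ?_⟩
    · rw [hA, hH, map_mul, map_neg, map_ofNat]; ring
    · rw [hB, hT, map_mul, map_neg, map_ofNat]; ring
  have hw₀' : d.Mem (algebraMap (ZMod ℓ) (AlgebraicClosure (ZMod ℓ)) (-27 * a'))
      (algebraMap (ZMod ℓ) (AlgebraicClosure (ZMod ℓ)) (-54 * b'))
      (d.R (algebraMap (ZMod ℓ) (AlgebraicClosure (ZMod ℓ)) t) (u, v)) := by
    rw [hR]
    refine ⟨?_, ?_⟩
    · rw [hA, hH', map_mul, map_neg, map_ofNat]; ring
    · rw [hB, hT', map_mul, map_neg, map_ofNat]; ring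
  obtain ⟨θ, hθ, hθφ, hnt⟩ := d.exists_torsion_hom h2 h5 (disc_ne' h7 a b hab)
    (disc_ne' h7 a' b' hab') hw₀ hw₀' (shortModel a b) (shortModel a' b') rfl rfl
  exact ⟨θ, hθ, hθφ (frobBar ℓ), hnt⟩

/-- **(LOC) from Klein data** over the fields `AlgebraicClosure (ZMod ℓ)`, `ℓ ≥ 7`. -/
theorem stmt_Loc_of_kleinDatum
    (hd : ∀ (ℓ : ℕ) [Fact ℓ.Prime], 7 ≤ ℓ →
      ∃ d : KleinDatum (AlgebraicClosure (ZMod ℓ)), IsCanonical d) :
    Fermat.Agent.S52.helper352.Stmt_Loc :=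
  stmt_Loc_of_L3Tors (stmt_L3Tors_of_kleinDatum hd)

/-- A primitive fifth root of unity exists in `AlgebraicClosure (ZMod ℓ)`. -/
theorem exists_zeta_bar (ℓ : ℕ) [Fact ℓ.Prime] :
    ∃ e : AlgebraicClosure (ZMod ℓ), e ^ 4 + e ^ 3 + e ^ 2 + e + 1 = 0 := by
  have hdeg : (Polynomial.X ^ 4 + Polynomial.X ^ 3 + Polynomial.X ^ 2 + Polynomial.X + 1 :
      Polynomial (AlgebraicClosure (ZMod ℓ))).degree ≠ 0 := by
    have : (Polynomial.X ^ 4 + Polynomial.X ^ 3 + Polynomial.X ^ 2 + Polynomial.X + 1 :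
        Polynomial (AlgebraicClosure (ZMod ℓ))).degree = 4 := by
      compute_degree!
    rw [this]
    norm_num
  obtain ⟨e, he⟩ := IsAlgClosed.exists_root _ hdeg
  refine ⟨e, ?_⟩
  simpa using he

/-- **(LOC) from a field-generic Klein datum** (the instance shape announced by the L3 owners). -/
theorem stmt_Loc_of_kleinDatum_gen
    (hd : ∀ (K : Type) [Field K] (e : K), e ^ 4 + e ^ 3 + e ^ 2 + e + 1 = 0 → (30 : K) ≠ 0 →
      ∃ d : KleinDatum K, IsCanonical d) :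
    Fermat.Agent.S52.helper352.Stmt_Loc := by
  refine stmt_Loc_of_kleinDatum ?_
  intro ℓ _ h7
  obtain ⟨e, he⟩ := exists_zeta_bar ℓ
  have h30 : (30 : AlgebraicClosure (ZMod ℓ)) ≠ 0 := by
    have h2 := natCast_ne_zero_bar (ℓ := ℓ) 2 (by norm_num) (by omega)
    have h3 := natCast_ne_zero_bar (ℓ := ℓ) 3 (by norm_num) (by omega)
    have h5 := natCast_ne_zero_bar (ℓ := ℓ) 5 (by norm_num) (by omega)
    have e30 : (30 : AlgebraicClosure (ZMod ℓ)) = ((2 : ℕ) : AlgebraicClosure (ZMod ℓ))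
        * ((3 : ℕ) : AlgebraicClosure (ZMod ℓ)) * ((5 : ℕ) : AlgebraicClosure (ZMod ℓ)) := by
      push_cast; norm_num
    rw [e30]
    exact mul_ne_zero (mul_ne_zero h2 h3) h5
  exact hd (AlgebraicClosure (ZMod ℓ)) e he h30

/-! ### The same in the captain's shape `helper352.Stmt_L3` -/

/-- Any of the binder-general shapes gives the captain's `helper352.Stmt_L3` (classical
`DecidableEq` instance). -/
theorem stmt_L3cap_of_rel (h : Stmt_L3Rel) : Fermat.Agent.S52.helper352.Stmt_L3 := by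
  intro ℓ _ h7 a b a' b' t u v hH hT hH' hT' hab hab'
  exact @h ℓ _ h7 (fun x y => Classical.propDecidable (x = y)) a b a' b' t u v hH hT hH' hT'
    hab hab'

theorem stmt_L3cap_of_L3 (h : Stmt_L3) : Fermat.Agent.S52.helper352.Stmt_L3 :=
  stmt_L3cap_of_rel (stmt_L3Rel_of_L3 h)

theorem stmt_L3cap_of_tors (h : Stmt_L3Tors) : Fermat.Agent.S52.helper352.Stmt_L3 :=
  stmt_L3cap_of_L3 (stmt_L3_of_tors h)

theorem stmt_L3cap_of_gen (h : Stmt_L3Gen) : Fermat.Agent.S52.helper352.Stmt_L3 :=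
  stmt_L3cap_of_L3 (stmt_L3_of_gen h)

theorem stmt_L3cap_of_kleinDatum
    (hd : ∀ (ℓ : ℕ) [Fact ℓ.Prime], 7 ≤ ℓ →
      ∃ d : KleinDatum (AlgebraicClosure (ZMod ℓ)), IsCanonical d) :
    Fermat.Agent.S52.helper352.Stmt_L3 :=
  stmt_L3cap_of_tors (stmt_L3Tors_of_kleinDatum hd)

end Fermat.Agent.S52.helper1570
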