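import Fermat.Agent.S52.helper1663_Unip
import Fermat.Agent.S05.helper2200_Inertia
import Fermat.Agent.S05.helper1205_Ker
import Fermat.Agent.S05.helper1745_GoodMult
import Fermat.Prelude.Def_FLTPrelim_Modularity

/-!
# Semistable at an odd prime `q` ⟹ unipotent inertia on `W[p]` (helper1663, S52)

For an integral Weierstrass model `W : WeierstrassCurve ℤ` with `Δ ≠ 0`, an odd prime `q` at which
`W` is semistable (`q ∣ Δ → q ∤ c₄`), a valuation subring `A` of `ℚ̄` over `q`, `σ` in the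
inertia group of `A`, and a prime `p ≠ 2, q`:

* `unipotent_point`: `σ • (σ • P - P) = σ • P - P` for every `P` of order dividing `p` on
  `W` over `ℚ̄` (good reduction: `σ • P = P`; multiplicative reduction: `σ P - P` lies in the
  identity component, on whose `p`-torsion inertia is trivial).

Method: complete the square (`2` is a unit at `q`), pick a root `e` of the 2-division cubic in
`ℚ̄` sitting at the node (if any): shape coordinates `η² = ξ(ξ² + al ξ + be)` of the S05 library;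
then `helper1663_Unip` (which does not require `σ e = e`: inertia may swap the two 2-torsion
points reducing to the node), S05 `ker` and `good_of_ker`.
-/

set_option autoImplicit false

namespace Fermat.Agent.S52.helper1663

open WeierstrassCurve WeierstrassCurve.Affine WeierstrassCurve.Affine.Point
open Fermat.Agent.S05.helper305
open Fermat.Agent.S05.helper2200 (valuation_two_eq_one valuation_intCast_le_one
  valuation_intCast_lt_one_iff valuation_intCast_eq_one valuation_apply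
  valuation_apply_sub_lt_one)
open Fermat.Agent.S05.helper1205 (val_natCast_le_one val_mul_lt_one_of_le_of_lt
  val_mul_lt_one_of_lt_of_le)

local notation "Qbar" => AlgebraicClosure ℚ

/-- The base change to `ℚ̄` of an integral Weierstrass model. -/
noncomputable abbrev barCurve (W : WeierstrassCurve ℤ) : WeierstrassCurve Qbar :=
  WeierstrassCurve.baseChange (W.map (Int.castRingHom ℚ)) Qbar

example (W : WeierstrassCurve ℤ) : (barCurve W).toAffine.Point = (((W.map (Int.castRingHom ℚ)).toAffine)⁄Qbar).Point := rfl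

theorem bar_eq_map (W : WeierstrassCurve ℤ) : barCurve W = W.map (Int.castRingHom Qbar) := by
  simp only [barCurve, WeierstrassCurve.baseChange, WeierstrassCurve.map_map]
  rw [show (algebraMap ℚ Qbar).comp (Int.castRingHom ℚ) = Int.castRingHom Qbar from
    RingHom.ext_int _ _]

theorem bar_a₁ (W : WeierstrassCurve ℤ) : (barCurve W).a₁ = ((W.a₁ : ℤ) : Qbar) := by
  rw [bar_eq_map]; simp
theorem bar_a₃ (W : WeierstrassCurve ℤ) : (barCurve W).a₃ = ((W.a₃ : ℤ) : Qbar) := by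
  rw [bar_eq_map]; simp
theorem bar_b₂ (W : WeierstrassCurve ℤ) : (barCurve W).b₂ = ((W.b₂ : ℤ) : Qbar) := by
  rw [bar_eq_map]; simp
theorem bar_b₄ (W : WeierstrassCurve ℤ) : (barCurve W).b₄ = ((W.b₄ : ℤ) : Qbar) := by
  rw [bar_eq_map]; simp
theorem bar_b₆ (W : WeierstrassCurve ℤ) : (barCurve W).b₆ = ((W.b₆ : ℤ) : Qbar) := by
  rw [bar_eq_map]; simp
theorem bar_c₄ (W : WeierstrassCurve ℤ) : (barCurve W).c₄ = ((W.c₄ : ℤ) : Qbar) := by
  rw [bar_eq_map]; simp
theorem bar_Δ (W : WeierstrassCurve ℤ) : (barCurve W).Δ = ((W.Δ : ℤ) : Qbar) := by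
  rw [bar_eq_map]; simp

section shape

variable {K : Type*} [Field K]

theorem four_ne_zero_of_two (h2 : (2 : K) ≠ 0) : (4 : K) ≠ 0 := by
  have : (4 : K) = 2 * 2 := by norm_num
  rw [this]; exact mul_ne_zero h2 h2

/-- Shape coordinates attached to a root `e` of the 2-division cubic. -/
theorem shape_of_root (W : WeierstrassCurve K) (h2 : (2 : K) ≠ 0) {e : K}
    (he : 4 * e ^ 3 + W.b₂ * e ^ 2 + 2 * W.b₄ * e + W.b₆ = 0) :
    Shape W e ((W.b₂ + 12 * e) / 4) ((W.b₄ + 6 * e ^ 2 + W.b₂ * e) / 2) := by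
  have h4 : (4 : K) ≠ 0 := four_ne_zero_of_two h2
  refine ⟨h2, ?_, ?_, ?_⟩
  · field_simp; ring
  · field_simp; ring
  · have h1 : -4 * e ^ 3 + 4 * ((W.b₂ + 12 * e) / 4) * e ^ 2
        - 4 * ((W.b₄ + 6 * e ^ 2 + W.b₂ * e) / 2) * e
        = -4 * e ^ 3 + (W.b₂ + 12 * e) * e ^ 2 - 2 * (W.b₄ + 6 * e ^ 2 + W.b₂ * e) * e := by
      field_simp
      ring
    rw [h1]
    linear_combination he

variable {W : WeierstrassCurve K} {e al be : K}

theorem shape_Δ (hS : Shape W e al be) : W.Δ = 16 * be ^ 2 * (al ^ 2 - 4 * be) := by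
  have h4 : (4 : K) ≠ 0 := four_ne_zero_of_two hS.two_ne
  have hrel := W.b_relation
  have hΔ : W.Δ = -W.b₂ ^ 2 * W.b₈ - 8 * W.b₄ ^ 3 - 27 * W.b₆ ^ 2 + 9 * W.b₂ * W.b₄ * W.b₆ :=
    rfl
  apply mul_left_cancel₀ h4
  have h1 : 4 * W.Δ = -W.b₂ ^ 2 * (4 * W.b₈) - 32 * W.b₄ ^ 3 - 108 * W.b₆ ^ 2
      + 36 * W.b₂ * W.b₄ * W.b₆ := by rw [hΔ]; ring
  rw [h1, hrel, hS.hb2, hS.hb4, hS.hb6]
  ring

theorem shape_c₄ (hS : Shape W e al be) : W.c₄ = 16 * (al ^ 2 - 3 * be) := by
  have h1 : W.c₄ = W.b₂ ^ 2 - 24 * W.b₄ := rfl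
  rw [h1, hS.hb2, hS.hb4]; ring

theorem shape_cubic (hS : Shape W e al be) (X : K) :
    4 * X ^ 3 + W.b₂ * X ^ 2 + 2 * W.b₄ * X + W.b₆ =
      4 * (X - e) * ((X - e) ^ 2 + al * (X - e) + be) := by
  rw [hS.hb2, hS.hb4, hS.hb6]; ring

variable {Γ₀ : Type*} [LinearOrderedCommGroupWithZero Γ₀]

/-- Roots of the 2-division cubic are integral when `4` is a unit. -/
theorem val_root_le_one (v : Valuation K Γ₀) (hv4 : v 4 = 1) {b2 b4 b6 e : K} (hb2 : v b2 ≤ 1)
    (hb4 : v (2 * b4) ≤ 1) (hb6 : v b6 ≤ 1)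
    (he : 4 * e ^ 3 + b2 * e ^ 2 + 2 * b4 * e + b6 = 0) : v e ≤ 1 := by
  by_contra hcon
  have hcon : 1 < v e := not_le.mp hcon
  have h1 : 4 * e ^ 3 = -(b2 * e ^ 2 + 2 * b4 * e + b6) := by linear_combination he
  have hL : v (4 * e ^ 3) = v e ^ 3 := by rw [map_mul, hv4, one_mul, map_pow]
  have hR : v (b2 * e ^ 2 + 2 * b4 * e + b6) ≤ v e ^ 2 := by
    refine v.map_add_le (v.map_add_le ?_ ?_) ?_
    · rw [map_mul, map_pow]
      calc v b2 * v e ^ 2 ≤ 1 * v e ^ 2 := mul_le_mul' hb2 le_rfl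
        _ = v e ^ 2 := one_mul _
    · rw [map_mul]
      calc v (2 * b4) * v e ≤ 1 * v e := mul_le_mul' hb4 le_rfl
        _ = v e * 1 := by rw [one_mul, mul_one]
        _ ≤ v e * v e := mul_le_mul' le_rfl hcon.le
        _ = v e ^ 2 := (sq _).symm
    · exact hb6.trans (one_le_pow₀ hcon.le)
  have h3 : v e ^ 3 ≤ v e ^ 2 := by rw [← hL, h1, Valuation.map_neg]; exact hR
  have hpos : 0 < v e ^ 2 := pow_pos (lt_trans zero_lt_one hcon) 2
  have h4 : v e ^ 2 * 1 < v e ^ 2 * v e := mul_lt_mul_of_pos_left hcon hpos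
  rw [mul_one, ← pow_succ] at h4
  exact absurd h3 (not_le.mpr h4)

end shape

section localAt

variable (W : WeierstrassCurve ℤ) (A : ValuationSubring Qbar) {q : ℕ}

theorem exists_root : ∃ e : Qbar, 4 * e ^ 3 + (barCurve W).b₂ * e ^ 2
    + 2 * (barCurve W).b₄ * e + (barCurve W).b₆ = 0 := by
  let P : Cubic Qbar := ⟨4, (barCurve W).b₂, 2 * (barCurve W).b₄, (barCurve W).b₆⟩
  have ha : P.a ≠ 0 := by show (4 : Qbar) ≠ 0; norm_num
  have hdeg : P.toPoly.degree ≠ 0 := by
    rw [Cubic.degree_of_a_ne_zero ha]; decide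
  obtain ⟨e, he⟩ := IsAlgClosed.exists_root P.toPoly hdeg
  refine ⟨e, ?_⟩
  simpa [Cubic.toPoly, P] using he

theorem exists_shape (hΔ : W.Δ ≠ 0) (hq : q.Prime) (hq2 : q ≠ 2) (hA : A.LiesOverPrime q) :
    ∃ e al be : Qbar, Shape (barCurve W) e al be ∧ A.valuation e ≤ 1 ∧ A.valuation al ≤ 1 ∧
      A.valuation be ≤ 1 ∧ be ≠ 0 ∧ ((q : ℤ) ∣ W.Δ → A.valuation be < 1) := by
  set v := A.valuation with hvdef
  have hv2 : v 2 = 1 := valuation_two_eq_one A hq hq2 hA
  have h2 : (2 : Qbar) ≠ 0 := two_ne_zero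
  have hv4 : v 4 = 1 := val_four v hv2
  have hvb2 : v (barCurve W).b₂ ≤ 1 := by rw [bar_b₂]; exact valuation_intCast_le_one A _
  have hvb4 : v (barCurve W).b₄ ≤ 1 := by rw [bar_b₄]; exact valuation_intCast_le_one A _
  have hvb6 : v (barCurve W).b₆ ≤ 1 := by rw [bar_b₆]; exact valuation_intCast_le_one A _
  have hv2b4 : v (2 * (barCurve W).b₄) ≤ 1 := by rw [map_mul, hv2, one_mul]; exact hvb4
  have hv12 : v 12 ≤ 1 := by
    have := val_natCast_le_one v 12
    simpa using this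
  have hv6 : v 6 ≤ 1 := by
    have := val_natCast_le_one v 6
    simpa using this
  -- integrality for an arbitrary root
  have key : ∀ e : Qbar, 4 * e ^ 3 + (barCurve W).b₂ * e ^ 2 + 2 * (barCurve W).b₄ * e
      + (barCurve W).b₆ = 0 →
      v e ≤ 1 ∧ v (((barCurve W).b₂ + 12 * e) / 4) ≤ 1 ∧
        v (((barCurve W).b₄ + 6 * e ^ 2 + (barCurve W).b₂ * e) / 2) ≤ 1 := by
    intro e he
    have hve := val_root_le_one v hv4 hvb2 hv2b4 hvb6 he
    refine ⟨hve, ?_, ?_⟩
    · rw [map_div₀, hv4, div_one]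
      exact v.map_add_le hvb2 (by rw [map_mul]; exact mul_le_one' hv12 hve)
    · rw [map_div₀, hv2, div_one]
      refine v.map_add_le (v.map_add_le hvb4 ?_) ?_
      · rw [map_mul, map_pow]; exact mul_le_one' hv6 (pow_le_one₀ zero_le hve)
      · rw [map_mul]; exact mul_le_one' hvb2 hve
  have hΔ' : (barCurve W).Δ ≠ 0 := by rw [bar_Δ]; exact_mod_cast hΔ
  have hbe0 : ∀ {e al be : Qbar}, Shape (barCurve W) e al be → be ≠ 0 := by
    intro e al be hS hbe
    apply hΔ'
    rw [shape_Δ hS, hbe]; ring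
  obtain ⟨e0, he0⟩ := exists_root W
  have hS0 := shape_of_root (barCurve W) h2 he0
  obtain ⟨hve0, hval0, hvbe0⟩ := key e0 he0
  set al0 := ((barCurve W).b₂ + 12 * e0) / 4 with hal0
  set be0 := ((barCurve W).b₄ + 6 * e0 ^ 2 + (barCurve W).b₂ * e0) / 2 with hbe0def
  by_cases hlt : v be0 < 1
  · exact ⟨e0, al0, be0, hS0, hve0, hval0, hvbe0, hbe0 hS0, fun _ => hlt⟩
  by_cases hdvd : (q : ℤ) ∣ W.Δ
  swap
  · exact ⟨e0, al0, be0, hS0, hve0, hval0, hvbe0, hbe0 hS0, fun h => absurd h hdvd⟩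
  -- switch to the root at the node
  have hbe1 : v be0 = 1 := le_antisymm hvbe0 (not_lt.mp hlt)
  have hvΔ : v (barCurve W).Δ < 1 := by
    rw [bar_Δ]; exact (valuation_intCast_lt_one_iff A hq hA _).mpr hdvd
  have hv16 : v 16 = 1 := by
    have : (16 : Qbar) = 4 * 4 := by norm_num
    rw [this, map_mul, hv4, one_mul]
  have hdisc : v (al0 ^ 2 - 4 * be0) < 1 := by
    rw [shape_Δ hS0, map_mul, map_mul, hv16, one_mul, map_pow, hbe1, one_pow, one_mul] at hvΔ
    exact hvΔ
  obtain ⟨s, hs⟩ := IsAlgClosed.exists_pow_nat_eq (al0 ^ 2 - 4 * be0) (n := 2) (by norm_num)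
  have hvs : v s < 1 := by
    by_contra hcon
    have : 1 ≤ v s ^ 2 := one_le_pow₀ (not_lt.mp hcon)
    rw [← map_pow, hs] at this
    exact absurd hdisc (not_lt.mpr this)
  set ξ0 : Qbar := (-al0 + s) / 2 with hξ0
  have hq0 : ξ0 ^ 2 + al0 * ξ0 + be0 = 0 := by
    have h1 : ξ0 ^ 2 + al0 * ξ0 + be0 = (s ^ 2 - (al0 ^ 2 - 4 * be0)) / 4 := by
      rw [hξ0]; field_simp; ring
    rw [h1, hs, sub_self, zero_div]
  have he : 4 * (e0 + ξ0) ^ 3 + (barCurve W).b₂ * (e0 + ξ0) ^ 2
      + 2 * (barCurve W).b₄ * (e0 + ξ0) + (barCurve W).b₆ = 0 := by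
    rw [shape_cubic hS0, add_sub_cancel_left, hq0, mul_zero]
  have hS := shape_of_root (barCurve W) h2 he
  obtain ⟨hve, hval, hvbe⟩ := key _ he
  have hbe_eq : ((barCurve W).b₄ + 6 * (e0 + ξ0) ^ 2 + (barCurve W).b₂ * (e0 + ξ0)) / 2
      = ξ0 * s := by
    have h2ξ : s = 2 * ξ0 + al0 := by rw [hξ0]; field_simp; ring
    have h1 : ((6 * e0 ^ 2 - 4 * al0 * e0 + 2 * be0) + 6 * (e0 + ξ0) ^ 2
        + (4 * al0 - 12 * e0) * (e0 + ξ0)) / 2 = be0 + 3 * ξ0 ^ 2 + 2 * al0 * ξ0 := by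
      field_simp; ring
    rw [hS0.hb2, hS0.hb4, h1, h2ξ]
    linear_combination hq0
  have hvξ0 : v ξ0 ≤ 1 := by
    rw [hξ0, map_div₀, hv2, div_one]
    exact v.map_add_le (by rw [Valuation.map_neg]; exact hval0) hvs.le
  refine ⟨e0 + ξ0, _, _, hS, hve, hval, hvbe, hbe0 hS, fun _ => ?_⟩
  rw [hbe_eq, map_mul]
  calc v ξ0 * v s ≤ 1 * v s := mul_le_mul' hvξ0 le_rfl
    _ = v s := one_mul _
    _ < 1 := hvs

end localAt

section unip

variable (W : WeierstrassCurve ℤ) (A : ValuationSubring Qbar) {q : ℕ}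

theorem smul_some (σ : Qbar ≃ₐ[ℚ] Qbar) {x y : Qbar}
    (h : (barCurve W).toAffine.Nonsingular x y) :
    ∃ h' : (barCurve W).toAffine.Nonsingular (σ x) (σ y),
      σ • (Point.some x y h : (barCurve W).toAffine.Point) = Point.some (σ x) (σ y) h' :=
  ⟨(WeierstrassCurve.Affine.baseChange_nonsingular (W := (W.map (Int.castRingHom ℚ)))
      (f := σ.toAlgHom) σ.toAlgHom.injective x y).mpr h, rfl⟩

theorem smul_zero_point (σ : Qbar ≃ₐ[ℚ] Qbar) :
    σ • (0 : (barCurve W).toAffine.Point) = 0 := rfl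

/-- **Semistable ⟹ unipotent inertia.**  For an integral Weierstrass model `W` with `Δ ≠ 0`
which is semistable at the odd prime `q` (`q ∣ Δ → q ∤ c₄`), a valuation subring `A` of `ℚ̄`
over `q`, `σ` in the inertia group of `A` and a point `P` of prime order `p ≠ 2, q`:
`σ (σ P - P) = σ P - P`. -/
theorem unipotent_point (hΔ : W.Δ ≠ 0) (hq : q.Prime) (hq2 : q ≠ 2) {p : ℕ} (hp : p.Prime)
    (hp2 : p ≠ 2) (hpq : p ≠ q) (hss : (q : ℤ) ∣ W.Δ → ¬ (q : ℤ) ∣ W.c₄)
    (hA : A.LiesOverPrime q) {σ : Qbar ≃ₐ[ℚ] Qbar} (hσ : σ ∈ A.inertiaSubgroupIn ℚ)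
    (P : (barCurve W).toAffine.Point) (hP : p • P = 0) :
    σ • (σ • P - P) = σ • P - P := by
  rcases P with _ | ⟨x, y, h⟩
  · change σ • (σ • (0 : (barCurve W).toAffine.Point) - 0)
      = σ • (0 : (barCurve W).toAffine.Point) - 0
    rw [smul_zero_point, sub_zero, smul_zero_point]
  obtain ⟨e, al, be, hSh, he, hal, hbe, hbe0, hnode⟩ := exists_shape W A hΔ hq hq2 hA
  set v := A.valuation with hvdef
  have hv2 : v 2 = 1 := valuation_two_eq_one A hq hq2 hA
  have hv4 : v 4 = 1 := val_four v hv2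
  have hv16 : v 16 = 1 := by
    have : (16 : Qbar) = 4 * 4 := by norm_num
    rw [this, map_mul, hv4, one_mul]
  have hvp : v (p : Qbar) = 1 := by
    have hnd : ¬ (q : ℤ) ∣ (p : ℤ) := by
      intro hd
      have hd' : q ∣ p := by exact_mod_cast hd
      exact hpq ((Nat.prime_dvd_prime_iff_eq hq hp).mp hd').symm
    have := valuation_intCast_eq_one A hq hA hnd
    simpa using this
  let τ : Qbar →+* Qbar := σ.toAlgHom.toRingHom
  have hτ : ∀ z : Qbar, v z ≤ 1 → v (τ z - z) < 1 := fun z hz =>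
    valuation_apply_sub_lt_one A hσ z hz
  have hτv : ∀ z : Qbar, v (τ z) = v z := fun z => valuation_apply A hσ z
  have hτint : ∀ n : ℤ, τ (n : Qbar) = n := fun n => map_intCast σ n
  have hτa1 : τ (barCurve W).a₁ = (barCurve W).a₁ := by rw [bar_a₁]; exact hτint _
  have hτa3 : τ (barCurve W).a₃ = (barCurve W).a₃ := by rw [bar_a₃]; exact hτint _
  -- `δ = τ e - e` satisfies `δ (δ² + al δ + be) = 0`
  have hroot : (τ e - e) * ((τ e - e) ^ 2 + al * (τ e - e) + be) = 0 := by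
    have h1 := shape_cubic hSh (τ e)
    have h0 := shape_cubic hSh e
    rw [sub_self, mul_zero, zero_mul] at h0
    have h3 : 4 * τ e ^ 3 + (barCurve W).b₂ * τ e ^ 2 + 2 * (barCurve W).b₄ * τ e
        + (barCurve W).b₆ = 0 := by
      have hτ4 : τ 4 = 4 := map_ofNat τ 4
      have hτ2 : τ 2 = 2 := map_ofNat τ 2
      have := congrArg τ h0
      rw [bar_b₂, bar_b₄, bar_b₆] at this ⊢
      simpa [hτint, hτ4, hτ2] using this
    rw [h3] at h1
    have h4 : (4 : Qbar) ≠ 0 := by norm_num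
    have h5 : 4 * ((τ e - e) * ((τ e - e) ^ 2 + al * (τ e - e) + be)) = 0 := by
      rw [h1]; ring
    exact (mul_eq_zero.mp h5).resolve_left h4
  have hker : ∀ (x y : Qbar) (h : (barCurve W).toAffine.Nonsingular x y), 1 < v (x - e) →
      p • (Point.some x y h : (barCurve W).toAffine.Point) ≠ 0 := fun x y h hx =>
    Fermat.Agent.S05.helper1205.ker Qbar _ v (barCurve W) e al be hSh hv2 hal hbe p hp hp2 hvp
      x y h hx
  have hcomm : ∀ Q : (barCurve W).toAffine.Point, p • Q = 0 → p • (σ • Q) = 0 := by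
    intro Q hQ
    have h1 : σ • (p • Q) = p • (σ • Q) :=
      map_nsmul (Point.map (W' := (W.map (Int.castRingHom ℚ))) σ.toAlgHom) p Q
    rw [← h1, hQ, smul_zero_point]
  obtain ⟨h', hsmul⟩ := smul_some W σ h
  have hP' : p • (Point.some (σ x) (σ y) h' : (barCurve W).toAffine.Point) = 0 := by
    rw [← hsmul]; exact hcomm _ hP
  have hδlt : v (τ e - e) < 1 := hτ e he
  by_cases hdvd : (q : ℤ) ∣ W.Δ
  · -- multiplicative reduction
    have hbelt := hnode hdvd
    have hvc4 : v (barCurve W).c₄ = 1 := by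
      rw [bar_c₄]; exact valuation_intCast_eq_one A hq hA (hss hdvd)
    have hval1 : v al = 1 := by
      rw [shape_c₄ hSh, map_mul, hv16, one_mul] at hvc4
      apply val_eq_one_of_sq v
      have : al ^ 2 = (al ^ 2 - 3 * be) + 3 * be := by ring
      rw [this]
      exact val_add_eq_one v hvc4 (val_mul_lt_one_of_le_of_lt v (val_three_le v hv2) hbelt)
    have hdisc : v (al ^ 2 - 4 * be) = 1 := by
      have h4be : v (4 * be) < 1 := by rw [map_mul, hv4, one_mul]; exact hbelt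
      exact val_sub_eq_one v (by rw [map_pow, hval1, one_pow]) h4be
    have hδ : v (τ e - e) ≤ v be := by
      rcases mul_eq_zero.mp hroot with h0 | h0
      · rw [h0, _root_.map_zero]; exact zero_le
      · have hbe_eq : be = -((τ e - e) * (al + (τ e - e))) := by linear_combination h0
        have h1 : v (al + (τ e - e)) = 1 := val_add_eq_one v hval1 hδlt
        have h3 : v be = v (τ e - e) := by
          conv_lhs => rw [hbe_eq]
          rw [Valuation.map_neg, map_mul, h1, mul_one]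
        exact h3.ge
    obtain ⟨r, hr⟩ := IsAlgClosed.exists_pow_nat_eq al (n := 2) (by norm_num)
    have hE0 : InE0 v (barCurve W).toAffine e
        (Point.some (σ x) (σ y) h' - Point.some x y h) :=
      sub_inE0 (p := p) (hp.odd_of_ne_two hp2) hSh hv2 hval1 hbelt hbe0 τ hτ hτv hδ
        hτa1 hτa3 hr h h' hP
    rw [hsmul]
    have hpQ : p • (Point.some (σ x) (σ y) h' - Point.some x y h :
        (barCurve W).toAffine.Point) = 0 := by
      rw [nsmul_sub, hP', hP, sub_zero]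
    rcases hE0 with h0 | ⟨ξ, η, ⟨xq, yq, hq', hQeq, rfl, rfl⟩, hv⟩
    · rw [h0, smul_zero_point]
    · rw [hQeq] at hpQ ⊢
      obtain ⟨hq'', hsmulQ⟩ := smul_some W σ hq'
      have hpQ' : p • (Point.some (σ xq) (σ yq) hq'' : (barCurve W).toAffine.Point) = 0 := by
        rw [← hsmulQ]; exact hcomm _ hpQ
      obtain ⟨hx, hy⟩ := fixed_of_unit hSh hv2 hal hbe hdisc hker τ hτ hδlt hτa1 hτa3 hq' hq''
        hv hpQ hpQ'
      rw [hsmulQ]
      have hx' : σ xq = xq := hx
      have hy' : σ yq = yq := hy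
      simp only [Point.some.injEq]
      exact ⟨hx', hy'⟩
  · -- good reduction
    have hvΔ : v (barCurve W).Δ = 1 := by
      rw [bar_Δ]; exact valuation_intCast_eq_one A hq hA hdvd
    rw [shape_Δ hSh, map_mul, map_mul, hv16, one_mul, map_pow] at hvΔ
    have hvdisc_le : v (al ^ 2 - 4 * be) ≤ 1 :=
      v.map_sub_le (by rw [map_pow]; exact pow_le_one₀ zero_le hal)
        (by rw [map_mul, hv4, one_mul]; exact hbe)
    have hbe2 : v be ^ 2 = 1 :=
      eq_one_of_mul_ge_one (pow_le_one₀ zero_le hbe) hvdisc_le hvΔ.ge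
    have hbe1 : v be = 1 := val_eq_one_of_sq v (by rw [map_pow]; exact hbe2)
    have hdisc : v (al ^ 2 - 4 * be) = 1 := by rw [hbe2, one_mul] at hvΔ; exact hvΔ
    have hτe : τ e = e := by
      rcases mul_eq_zero.mp hroot with h0 | h0
      · exact sub_eq_zero.mp h0
      · exfalso
        have hbe_eq : be = -((τ e - e) * (al + (τ e - e))) := by linear_combination h0
        have hlt : v be < 1 := by
          rw [hbe_eq, Valuation.map_neg]
          exact val_mul_lt_one_of_lt_of_le v hδlt (v.map_add_le hal hδlt.le)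
        rw [hbe1] at hlt; exact lt_irrefl _ hlt
    have hgood := Fermat.Agent.S05.helper1745.good_of_ker Fermat.Agent.S05.helper1205.ker Qbar _
      v (barCurve W) e al be hSh hv2 hal hbe1 hdisc p hp hp2 hvp τ hτ hτe hτa1 hτa3 x y h h'
      hP hP'
    have hfix : σ • (Point.some x y h : (barCurve W).toAffine.Point) = Point.some x y h := by
      rw [hsmul]
      have hx' : σ x = x := hgood.1
      have hy' : σ y = y := hgood.2
      simp only [Point.some.injEq]
      exact ⟨hx', hy'⟩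
    rw [hfix, sub_self, smul_zero_point]

end unip

end Fermat.Agent.S52.helper1663
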