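/-
S52 (the 3–5 switch): TOP-LEVEL SPEC and FINAL ASSEMBLY  (helper52, S52 architect).

Hypothesis-passing blueprint.  Every block of the project proves ONE of the `Stmt_*` propositions
below; the theorems at the end of the file assemble them into the frozen statement S52
(`Goal_S52`).  Nothing in this file is specific to the Klein forms: the family block only has to
deliver two rational polynomials `C4 C6 : ℚ[X]` (the `c₄`, `c₆` of the pencil through `W`).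

Blocks:
* `Stmt_Family`  (L3, Klein pencil)          : the 5-congruent polynomial family + `FixRoot`.
* `Stmt_Sigma`   ((I), inertia at 3)          : an automorphism fixing `W[5]` and `ζ₂₀`, moving `√-3`.
* `Stmt_FamilyAlt`                            : what the assembly really consumes
                                               (= `Stmt_Family` + `Stmt_Sigma`, or a direct proof).
* `Stmt_AuxMonic` / `Stmt_Aux` (zeta lemma)   : curve-free auxiliary prime.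
* `Stmt_Irr`     (local certificate)          : `q ∣ c₆`, `q ∤ c₄`, `3` a non-residue ⟹ `W[3]` irreducible.
* `Stmt_Bridge`  (L1 + L2)                    : a 5-congruence gives `5 ∣ a_ℓ(W') - a_ℓ(W)` for `ℓ ≥ 7`.
* `Stmt_Model`   (integral model)             : perturbation of `a₄, a₆` realising prescribed `c₄, c₆`.
-/
import Mathlib
import Fermat.Prelude.Def_FLTPrelim_ModularRep

set_option autoImplicit false

open Polynomial WeierstrassCurve

namespace Fermat.Agent.S52.helper52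

/-- The algebraic closure of `ℚ` used by the frozen statement. -/
abbrev Qb : Type := AlgebraicClosure ℚ

/-- The absolute Galois group of `ℚ`. -/
abbrev GQ : Type := Qb ≃ₐ[ℚ] Qb

/-- The `n`-torsion of an integral model over `Qb`: exactly the module of the frozen
`WeierstrassCurve.ModRepIsIrreducible W n`. -/
noncomputable abbrev Tors (W : WeierstrassCurve ℤ) (n : ℕ) : Type :=
  Submodule.torsionBy ℤ ((W.map (Int.castRingHom ℚ))⁄Qb).toAffine.Point n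

/-- The frozen statement S52. -/
def Goal_S52 : Prop :=
  ∀ (W : WeierstrassCurve ℤ), W.Δ ≠ 0 → W.IsSemistableModel → W.ModRepIsIrreducible 5 →
    ∃ W' : WeierstrassCurve ℤ, W'.Δ ≠ 0 ∧ W'.IsSemistableModel ∧ W'.ModRepIsIrreducible 3 ∧
      ∀ ℓ : ℕ, ℓ.Prime → W.IsGoodPrimeFor ℓ → W'.IsGoodPrimeFor ℓ → ℓ ≠ 5 →
        (5 : ℤ) ∣ (W'.apOfModel ℓ - W.apOfModel ℓ)

/-- Weak 5-congruence: an injective, Galois-equivariant, additive map `W[5] → W'[5]`. -/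
def Congr5 (W W' : WeierstrassCurve ℤ) : Prop :=
  ∃ θ : Tors W 5 →+ Tors W' 5, Function.Injective θ ∧
    ∀ (σ : GQ) (x : Tors W 5), θ (σ • x) = σ • θ x

/-- `C4, C6` are the `c₄, c₆` of a one-parameter family of curves through `W`, all of whose integral
members are 5-congruent to `W`, and which never has `c₄ = c₆ = 0`. -/
def IsFamily (W : WeierstrassCurve ℤ) (C4 C6 : ℚ[X]) : Prop :=
  C4.eval 0 = (W.c₄ : ℚ) ∧ C6.eval 0 = (W.c₆ : ℚ) ∧
  (∀ t : Qb, aeval t C4 ≠ 0 ∨ aeval t C6 ≠ 0) ∧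
  ∀ (s : ℤ) (W' : WeierstrassCurve ℤ), W'.Δ ≠ 0 →
    (W'.c₄ : ℚ) = C4.eval (s : ℚ) → (W'.c₆ : ℚ) = C6.eval (s : ℚ) → Congr5 W W'

/-- Some root of `C6` is fixed by every automorphism fixing `W[5]` pointwise and the 20th roots
of unity. -/
def FixRoot (W : WeierstrassCurve ℤ) (C6 : ℚ[X]) : Prop :=
  ∃ θ : Qb, aeval θ C6 = 0 ∧
    ∀ σ : GQ, (∀ x : Tors W 5, σ • x = x) → (∀ z : Qb, z ^ 20 = 1 → σ z = z) → σ θ = θ

/-- Some root of `C6` generates a field not containing `√3`. -/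
def MovesSqrt3 (C6 : ℚ[X]) : Prop :=
  ∃ θ : Qb, aeval θ C6 = 0 ∧ ∃ σ : GQ, σ θ = θ ∧ ∃ r : Qb, r ^ 2 = 3 ∧ σ r ≠ r

/-- BLOCK L3 (Klein pencil). -/
def Stmt_Family : Prop :=
  ∀ W : WeierstrassCurve ℤ, W.Δ ≠ 0 → W.c₄ ≠ 0 → W.c₆ ≠ 0 →
    ∃ C4 C6 : ℚ[X], IsFamily W C4 C6 ∧ FixRoot W C6

/-- BLOCK (I) (inertia at 3). -/
def Stmt_Sigma : Prop :=
  ∀ W : WeierstrassCurve ℤ, W.Δ ≠ 0 → W.IsSemistableModel →
    ∃ σ : GQ, (∀ x : Tors W 5, σ • x = x) ∧ (∀ z : Qb, z ^ 20 = 1 → σ z = z) ∧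
      (∀ r : Qb, r ^ 2 = -3 → σ r = -r)

/-- What the assembly consumes from L3 + (I). -/
def Stmt_FamilyAlt : Prop :=
  ∀ W : WeierstrassCurve ℤ, W.Δ ≠ 0 → W.IsSemistableModel →
    ∃ C4 C6 : ℚ[X], IsFamily W C4 C6 ∧ MovesSqrt3 C6

/-- BLOCK AUX (zeta lemma adapter), general form. -/
def Stmt_Aux : Prop :=
  ∀ (P : ℤ[X]) (θ : Qb), P ≠ 0 → aeval θ P = 0 →
    (∃ σ : GQ, σ θ = θ ∧ ∃ r : Qb, r ^ 2 = 3 ∧ σ r ≠ r) →
    ∀ B : ℕ, ∃ q : ℕ, q.Prime ∧ B < q ∧ ¬ IsSquare (3 : ZMod q) ∧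
      ∃ s0 : ℤ, (q : ℤ) ∣ P.eval s0

/-- BLOCK AUX, monic form (the natural target of the zeta lemma: `θ` is an algebraic integer). -/
def Stmt_AuxMonic : Prop :=
  ∀ (P : ℤ[X]) (θ : Qb), P.Monic → aeval θ P = 0 →
    (∃ σ : GQ, σ θ = θ ∧ ∃ r : Qb, r ^ 2 = 3 ∧ σ r ≠ r) →
    ∀ B : ℕ, ∃ q : ℕ, q.Prime ∧ B < q ∧ ¬ IsSquare (3 : ZMod q) ∧
      ∃ s0 : ℤ, (q : ℤ) ∣ P.eval s0

/-- BLOCK IRR (local certificate; `helper489_PsiThree.modRepIsIrreducible_three_of_prime`). -/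
def Stmt_Irr : Prop :=
  ∀ (W : WeierstrassCurve ℤ), W.Δ ≠ 0 → ∀ q : ℕ, q.Prime → q ≠ 2 → q ≠ 3 →
    ¬ IsSquare (3 : ZMod q) → (q : ℤ) ∣ W.c₆ → ¬ (q : ℤ) ∣ W.c₄ → W.ModRepIsIrreducible 3

/-- BLOCK BRIDGE (L1 Frobenius Cayley–Hamilton + L2 good reduction). -/
def Stmt_Bridge : Prop :=
  ∀ (W W' : WeierstrassCurve ℤ), W.Δ ≠ 0 → W'.Δ ≠ 0 → Nontrivial (Tors W 5) → Congr5 W W' →
    ∀ ℓ : ℕ, ℓ.Prime → 5 < ℓ → W.IsGoodPrimeFor ℓ → W'.IsGoodPrimeFor ℓ →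
      (5 : ℤ) ∣ (W'.apOfModel ℓ - W.apOfModel ℓ)

/-- BLOCK MODEL (integral model with prescribed `c₄, c₆`, semistability, equal reductions at the
primes of the modulus). -/
def Stmt_Model : Prop :=
  ∀ (W : WeierstrassCurve ℤ), W.Δ ≠ 0 → W.IsSemistableModel → ∀ N : ℤ,
    (∀ ℓ : ℕ, ℓ.Prime → (ℓ : ℤ) ∣ 6 * W.Δ → (ℓ : ℤ) ∣ N) → ∀ c4' c6' : ℤ,
    1728 * N ∣ c4' - W.c₄ → 1728 * N ∣ c6' - W.c₆ → c4' ^ 3 ≠ c6' ^ 2 →
    (∀ ℓ : ℕ, ℓ.Prime → ¬ (ℓ : ℤ) ∣ N → (ℓ : ℤ) ∣ c4' ^ 3 - c6' ^ 2 → ¬ (ℓ : ℤ) ∣ c4') →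
    ∃ W' : WeierstrassCurve ℤ, W'.c₄ = c4' ∧ W'.c₆ = c6' ∧ W'.Δ ≠ 0 ∧ W'.IsSemistableModel ∧
      ∀ ℓ : ℕ, ℓ.Prime → (ℓ : ℤ) ∣ N → W'.apOfModel ℓ = W.apOfModel ℓ

/-! ### Elementary lemmas used by the assembly -/

/-- An integer not divisible by any prime is a unit. -/
theorem isUnit_of_no_prime_dvd (n : ℤ) (h : ∀ p : ℕ, p.Prime → ¬ (p : ℤ) ∣ n) : IsUnit n := by
  rw [Int.isUnit_iff_natAbs_eq]
  by_contra hne
  obtain ⟨p, hp, hpn⟩ := Nat.exists_prime_and_dvd hne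
  exact h p hp (Int.natCast_dvd.mpr hpn)

/-- A semistable integral model with `Δ ≠ 0` has `c₄ ≠ 0`. -/
theorem c4_ne_zero_of_semistable (W : WeierstrassCurve ℤ) (hW : W.IsSemistableModel) :
    W.c₄ ≠ 0 := by
  intro h4
  have hu : IsUnit W.Δ := by
    apply isUnit_of_no_prime_dvd
    intro p hp hpd
    exact hW p hp hpd (by rw [h4]; exact dvd_zero _)
  have hrel := W.c_relation
  rw [h4] at hrel
  rcases Int.isUnit_iff.mp hu with h | h
  · rw [h] at hrel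
    nlinarith [sq_nonneg W.c₆]
  · rw [h] at hrel
    have h6 : W.c₆ ^ 2 = 1728 := by linarith
    have hlt : |W.c₆| < 42 := by
      by_contra hge
      rw [not_lt] at hge
      have : (42 : ℤ) ^ 2 ≤ |W.c₆| ^ 2 := by gcongr
      rw [sq_abs] at this
      omega
    have hgt : 41 < |W.c₆| := by
      by_contra hle
      rw [not_lt] at hle
      have : |W.c₆| ^ 2 ≤ (41 : ℤ) ^ 2 := by gcongr
      rw [sq_abs] at this
      omega
    omega

/-- A semistable integral model with `Δ ≠ 0` has `c₆ ≠ 0`. -/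
theorem c6_ne_zero_of_semistable (W : WeierstrassCurve ℤ) (hW : W.IsSemistableModel) :
    W.c₆ ≠ 0 := by
  intro h6
  have hrel := W.c_relation
  rw [h6] at hrel
  have hu : IsUnit W.Δ := by
    apply isUnit_of_no_prime_dvd
    intro p hp hpd
    apply hW p hp hpd
    have h3 : (p : ℤ) ∣ W.c₄ ^ 3 := by
      have : (p : ℤ) ∣ 1728 * W.Δ := Dvd.dvd.mul_left hpd _
      rw [hrel] at this
      simpa using this
    exact (Nat.prime_iff_prime_int.mp hp).dvd_of_dvd_pow h3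
  -- now `c₄ ^ 3 = ± 1728`, so `c₄ = ± 12`, impossible modulo 16
  have h12 : W.c₄ = 12 ∨ W.c₄ = -12 := by
    rcases Int.isUnit_iff.mp hu with h | h
    · left
      rw [h] at hrel
      have h3 : W.c₄ ^ 3 = 12 ^ 3 := by linarith
      have hodd : Odd 3 := by decide
      exact hodd.strictMono_pow.injective h3
    · right
      rw [h] at hrel
      have h3 : W.c₄ ^ 3 = (-12) ^ 3 := by linarith
      have hodd : Odd 3 := by decide
      exact hodd.strictMono_pow.injective h3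
  have hc4 : W.c₄ = (W.a₁ ^ 2 + 4 * W.a₂) ^ 2 - 24 * (2 * W.a₄ + W.a₁ * W.a₃) := by
    simp only [WeierstrassCurve.c₄, WeierstrassCurve.b₂, WeierstrassCurve.b₄]
  rcases Int.even_or_odd' W.a₁ with ⟨k, hk | hk⟩
  · have : W.c₄ = 16 * ((k ^ 2 + W.a₂) ^ 2 - 3 * (W.a₄ + k * W.a₃)) := by
      rw [hc4, hk]; ring
    omega
  · have : W.c₄ = 2 * (8 * k ^ 4 + 16 * k ^ 3 + 12 * k ^ 2 + 4 * k + 4 * W.a₂ * (2 * k + 1) ^ 2
        + 8 * W.a₂ ^ 2 - 12 * (2 * W.a₄ + (2 * k + 1) * W.a₃)) + 1 := by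
      rw [hc4, hk]; ring
    omega

/-- Clearing denominators of a rational polynomial. -/
theorem exists_int_poly (p : ℚ[X]) :
    ∃ (d : ℤ) (P : ℤ[X]), d ≠ 0 ∧ P.map (Int.castRingHom ℚ) = C (d : ℚ) * p := by
  obtain ⟨b, hb, h⟩ := IsLocalization.integerNormalization_spec (nonZeroDivisors ℤ) p
  refine ⟨b, IsLocalization.integerNormalization (nonZeroDivisors ℤ) p,
    nonZeroDivisors.ne_zero hb, ?_⟩
  have hmap : algebraMap ℤ ℚ = Int.castRingHom ℚ := rfl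
  rw [hmap] at h
  rw [h]
  ext n
  simp [zsmul_eq_mul]

/-- Evaluation of a cleared polynomial at an integer. -/
theorem eval_cleared {p : ℚ[X]} {d : ℤ} {P : ℤ[X]}
    (hP : P.map (Int.castRingHom ℚ) = C (d : ℚ) * p) (s : ℤ) :
    ((P.eval s : ℤ) : ℚ) = d * p.eval (s : ℚ) := by
  have := Polynomial.eval_intCast_map (Int.castRingHom ℚ) P s
  rw [hP] at this
  simpa using this.symm

/-- `Stmt_Family` and `Stmt_Sigma` give `Stmt_FamilyAlt`. -/
theorem familyAlt_of_family_sigma (hF : Stmt_Family) (hS : Stmt_Sigma) : Stmt_FamilyAlt := by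
  intro W hΔ hW
  obtain ⟨C4, C6, hfam, θ, hθ, hfix⟩ :=
    hF W hΔ (c4_ne_zero_of_semistable W hW) (c6_ne_zero_of_semistable W hW)
  obtain ⟨σ, hσ5, hσ20, hσ3⟩ := hS W hΔ hW
  refine ⟨C4, C6, hfam, θ, hθ, σ, hfix σ hσ5 hσ20, ?_⟩
  obtain ⟨i, hi⟩ := IsAlgClosed.exists_pow_nat_eq (-1 : Qb) (n := 2) (by norm_num)
  obtain ⟨r, hr⟩ := IsAlgClosed.exists_pow_nat_eq (3 : Qb) (n := 2) (by norm_num)
  refine ⟨r, hr, ?_⟩
  have hi20 : i ^ 20 = 1 := by
    have : i ^ 20 = (i ^ 2) ^ 10 := by ring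
    rw [this, hi]; norm_num
  have hσi : σ i = i := hσ20 i hi20
  have hir : (i * r) ^ 2 = -3 := by rw [mul_pow, hi, hr]; ring
  have h1 : σ (i * r) = -(i * r) := hσ3 _ hir
  rw [map_mul, hσi] at h1
  have hi0 : i ≠ 0 := by
    rintro rfl
    norm_num at hi
  have h2 : σ r = -r := by
    have : i * σ r = i * (-r) := by rw [h1]; ring
    exact mul_left_cancel₀ hi0 this
  intro h3
  rw [h2] at h3
  have hr0 : r = 0 := by
    have : (2 : Qb) * r = 0 := by linear_combination -h3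
    rcases mul_eq_zero.mp this with h | h
    · norm_num at h
    · exact h
  rw [hr0] at hr
  norm_num at hr

/-! ### The final assembly -/

/-- **S52 from the blocks.** -/
theorem S52_of_core (hFam : Stmt_FamilyAlt) (hAux : Stmt_Aux) (hIrr : Stmt_Irr)
    (hBridge : Stmt_Bridge) (hModel : Stmt_Model) : Goal_S52 := by
  intro W hΔ hW h5
  by_cases h3 : W.ModRepIsIrreducible 3
  · exact ⟨W, hΔ, hW, h3, fun ℓ _ _ _ _ => by simp⟩
  have hc6W : W.c₆ ≠ 0 := c6_ne_zero_of_semistable W hW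
  obtain ⟨C4, C6, ⟨h40, h60, hcop, hcongr⟩, θ, hθ, hσ⟩ := hFam W hΔ hW
  -- coprimality over `ℚ`
  have hcop' : IsCoprime C4 C6 :=
    (Polynomial.isCoprime_iff_aeval_ne_zero_of_isAlgClosed ℚ Qb C4 C6).mpr hcop
  obtain ⟨U, V, hUV⟩ := hcop'
  -- clear denominators
  obtain ⟨d4, P4, hd4, hP4⟩ := exists_int_poly C4
  obtain ⟨d6, P6, hd6, hP6⟩ := exists_int_poly C6
  obtain ⟨dU, PU, hdU, hPU⟩ := exists_int_poly U
  obtain ⟨dV, PV, hdV, hPV⟩ := exists_int_poly V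
  -- the integer Bezout relation
  set E : ℤ := dU * d4 * dV * d6 with hE
  have hE0 : E ≠ 0 := by
    rw [hE]; exact mul_ne_zero (mul_ne_zero (mul_ne_zero hdU hd4) hdV) hd6
  have hbez : C (dV * d6) * PU * P4 + C (dU * d4) * PV * P6 = C E := by
    apply Polynomial.map_injective (Int.castRingHom ℚ) Int.cast_injective
    rw [Polynomial.map_add, Polynomial.map_mul, Polynomial.map_mul, Polynomial.map_mul,
      Polynomial.map_mul, Polynomial.map_C, Polynomial.map_C, Polynomial.map_C, hPU, hP4, hPV,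
      hP6, hE]
    simp only [eq_intCast, Int.cast_mul, C_mul]
    linear_combination (C (dU : ℚ) * C (d4 : ℚ) * C (dV : ℚ) * C (d6 : ℚ)) * hUV
  have hnocommon : ∀ (s : ℤ) (ℓ : ℕ), ℓ.Prime → (ℓ : ℤ) ∣ P4.eval s → (ℓ : ℤ) ∣ P6.eval s →
      (ℓ : ℤ) ∣ E := by
    intro s ℓ _ h4 h6
    have := congrArg (Polynomial.eval s) hbez
    simp only [eval_add, eval_mul, eval_C] at this
    rw [← this]
    exact dvd_add (Dvd.dvd.mul_left h4 _) (Dvd.dvd.mul_left h6 _)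
  -- the modulus
  set N : ℤ := 12 * W.Δ * E * d4 * d6 with hN
  have hN0 : N ≠ 0 := by
    rw [hN]
    exact mul_ne_zero (mul_ne_zero (mul_ne_zero (mul_ne_zero (by norm_num) hΔ) hE0) hd4) hd6
  have hNΔ : ¬ N ∣ W.Δ := by
    intro hdvd
    have h1 := Int.natAbs_le_of_dvd_ne_zero hdvd hΔ
    have h2 : N.natAbs = 12 * W.Δ.natAbs * (E * d4 * d6).natAbs := by
      rw [hN, show 12 * W.Δ * E * d4 * d6 = 12 * W.Δ * (E * d4 * d6) by ring, Int.natAbs_mul,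
        Int.natAbs_mul]
      rfl
    have h3 : 1 ≤ (E * d4 * d6).natAbs :=
      Int.natAbs_pos.mpr (mul_ne_zero (mul_ne_zero hE0 hd4) hd6)
    have h4 : 1 ≤ W.Δ.natAbs := Int.natAbs_pos.mpr hΔ
    nlinarith
  have hEN : E ∣ N := ⟨12 * W.Δ * d4 * d6, by rw [hN]; ring⟩
  have hd4N : d4 ∣ N := ⟨12 * W.Δ * E * d6, by rw [hN]; ring⟩
  have hd6N : d6 ∣ N := ⟨12 * W.Δ * E * d4, by rw [hN]; ring⟩
  have h6ΔN : 6 * W.Δ ∣ N := ⟨2 * E * d4 * d6, by rw [hN]; ring⟩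
  -- the auxiliary prime
  have hP60 : P6 ≠ 0 := by
    intro h0
    have := eval_cleared hP6 0
    rw [h0] at this
    simp only [eval_zero, Int.cast_zero] at this
    rw [h60] at this
    have : (d6 : ℚ) * (W.c₆ : ℚ) ≠ 0 :=
      mul_ne_zero (Int.cast_ne_zero.mpr hd6) (Int.cast_ne_zero.mpr hc6W)
    simp_all
  have hθ6 : aeval θ P6 = 0 := by
    have h1 : aeval θ (P6.map (Int.castRingHom ℚ)) = aeval θ P6 := by
      rw [show (Int.castRingHom ℚ) = algebraMap ℤ ℚ from rfl, Polynomial.aeval_map_algebraMap]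
    rw [← h1, hP6, map_mul, hθ, mul_zero]
  obtain ⟨q, hq, hBq, hq3, s0, hs0⟩ := hAux P6 θ hP60 hθ6 hσ (1728 * N).natAbs
  have hqN : ¬ (q : ℤ) ∣ 1728 * N := by
    intro hdvd
    have h1 := Int.natAbs_le_of_dvd_ne_zero hdvd (mul_ne_zero (by norm_num) hN0)
    simp only [Int.natAbs_natCast] at h1
    omega
  have hqN' : ¬ (q : ℤ) ∣ N := fun h => hqN (Dvd.dvd.mul_left h _)
  have hqprime : Prime (q : ℤ) := Nat.prime_iff_prime_int.mp hq
  have hq2 : q ≠ 2 := by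
    rintro rfl
    exact hqN ⟨864 * N, by push_cast; ring⟩
  have hq3' : q ≠ 3 := by
    rintro rfl
    exact hqN ⟨576 * N, by push_cast; ring⟩
  -- the parameter `s`: `s ≡ s0 mod q`, `s ≡ 0 mod 1728 * N * N`
  set M : ℤ := 1728 * N * N with hM
  have hcopqM : IsCoprime (q : ℤ) M := by
    rw [hM]
    refine IsCoprime.mul_right (IsCoprime.mul_right ?_ ?_) ?_
    · exact (hqprime.coprime_iff_not_dvd).mpr (fun h => hqN (Dvd.dvd.mul_right h _))
    · exact (hqprime.coprime_iff_not_dvd).mpr hqN'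
    · exact (hqprime.coprime_iff_not_dvd).mpr hqN'
  obtain ⟨a, b, hab⟩ := hcopqM
  set s : ℤ := b * M * s0 with hs
  have hMs : M ∣ s := ⟨b * s0, by rw [hs]; ring⟩
  have hqs : (q : ℤ) ∣ s - s0 := ⟨-a * s0, by rw [hs]; linear_combination s0 * hab⟩
  -- the values `c4' , c6'`
  have key : ∀ (p : ℚ[X]) (d : ℤ) (P : ℤ[X]) (c : ℤ), d ≠ 0 → d ∣ N →
      P.map (Int.castRingHom ℚ) = C (d : ℚ) * p → p.eval 0 = (c : ℚ) →
      ∃ c' : ℤ, 1728 * N ∣ c' - c ∧ (c' : ℚ) = p.eval (s : ℚ) ∧ P.eval s = d * c' := by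
    intro p d P c hd hdN hP h0
    have hP0 : P.eval 0 = d * c := by
      have := eval_cleared hP 0
      rw [Int.cast_zero, h0] at this
      exact_mod_cast this
    have hdvd : d * (1728 * N) ∣ P.eval s - P.eval 0 := by
      have h1 : s - 0 ∣ P.eval s - P.eval 0 := Polynomial.sub_dvd_eval_sub s 0 P
      rw [sub_zero] at h1
      refine dvd_trans ?_ h1
      refine dvd_trans ?_ hMs
      rw [hM]
      obtain ⟨k, hk⟩ := hdN
      exact ⟨k, by rw [hk]; ring⟩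
    obtain ⟨k, hk⟩ := hdvd
    refine ⟨c + 1728 * N * k, ⟨k, by ring⟩, ?_, ?_⟩
    · have h2 := eval_cleared hP s
      have h3 : P.eval s = d * (c + 1728 * N * k) := by rw [hP0] at hk; linarith
      rw [h3] at h2
      have hdq : (d : ℚ) ≠ 0 := Int.cast_ne_zero.mpr hd
      push_cast at h2
      have := mul_left_cancel₀ hdq h2
      push_cast
      linarith
    · rw [hP0] at hk; linarith
  obtain ⟨c4', h4c, h4q, h4P⟩ := key C4 d4 P4 W.c₄ hd4 hd4N hP4 h40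
  obtain ⟨c6', h6c, h6q, h6P⟩ := key C6 d6 P6 W.c₆ hd6 hd6N hP6 h60
  -- `q ∣ c6'`, `q ∤ c4'`
  have hqd6 : ¬ (q : ℤ) ∣ d6 := fun h => hqN' (dvd_trans h hd6N)
  have hqd4 : ¬ (q : ℤ) ∣ d4 := fun h => hqN' (dvd_trans h hd4N)
  have hqP6 : (q : ℤ) ∣ P6.eval s := by
    have h1 : s - s0 ∣ P6.eval s - P6.eval s0 := Polynomial.sub_dvd_eval_sub s s0 P6
    have h2 : (q : ℤ) ∣ P6.eval s - P6.eval s0 := dvd_trans hqs h1
    have := dvd_add h2 hs0
    simpa using this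
  have hqc6 : (q : ℤ) ∣ c6' := by
    rw [h6P] at hqP6
    exact (hqprime.dvd_or_dvd hqP6).resolve_left hqd6
  have hqc4 : ¬ (q : ℤ) ∣ c4' := by
    intro h
    have h1 : (q : ℤ) ∣ P4.eval s := by rw [h4P]; exact Dvd.dvd.mul_left h _
    exact hqN' (dvd_trans (hnocommon s q hq h1 hqP6) hEN)
  -- discriminant
  have hdisc : c4' ^ 3 ≠ c6' ^ 2 := by
    intro heq
    obtain ⟨k4, hk4⟩ := h4c
    obtain ⟨k6, hk6⟩ := h6c
    have hrel := W.c_relation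
    have h4' : c4' = W.c₄ + 1728 * N * k4 := by linarith
    have h6' : c6' = W.c₆ + 1728 * N * k6 := by linarith
    apply hNΔ
    refine ⟨-(3 * W.c₄ ^ 2 * k4 + 3 * W.c₄ * 1728 * N * k4 ^ 2 + 1728 ^ 2 * N ^ 2 * k4 ^ 3
      - 2 * W.c₆ * k6 - 1728 * N * k6 ^ 2), ?_⟩
    rw [h4', h6'] at heq
    have h1728 : (1728 : ℤ) ≠ 0 := by norm_num
    apply mul_left_cancel₀ h1728
    linear_combination hrel + heq
  -- no common prime outside `N`
  have hout : ∀ ℓ : ℕ, ℓ.Prime → ¬ (ℓ : ℤ) ∣ N → (ℓ : ℤ) ∣ c4' ^ 3 - c6' ^ 2 →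
      ¬ (ℓ : ℤ) ∣ c4' := by
    intro ℓ hℓ hℓN hℓd hℓ4
    have hℓprime : Prime (ℓ : ℤ) := Nat.prime_iff_prime_int.mp hℓ
    have hℓ6 : (ℓ : ℤ) ∣ c6' := by
      have h1 : (ℓ : ℤ) ∣ c6' ^ 2 := by
        have h2 : (ℓ : ℤ) ∣ c4' ^ 3 := dvd_pow hℓ4 (by norm_num)
        have := dvd_sub h2 hℓd
        simpa using this
      exact hℓprime.dvd_of_dvd_pow h1
    have h1 : (ℓ : ℤ) ∣ P4.eval s := by rw [h4P]; exact Dvd.dvd.mul_left hℓ4 _
    have h2 : (ℓ : ℤ) ∣ P6.eval s := by rw [h6P]; exact Dvd.dvd.mul_left hℓ6 _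
    exact hℓN (dvd_trans (hnocommon s ℓ hℓ h1 h2) hEN)
  -- the model
  obtain ⟨W', hW'4, hW'6, hW'Δ, hW'ss, hW'ap⟩ := hModel W hΔ hW N
    (fun ℓ _ h => dvd_trans h h6ΔN) c4' c6' h4c h6c hdisc hout
  refine ⟨W', hW'Δ, hW'ss, ?_, ?_⟩
  · exact hIrr W' hW'Δ q hq hq2 hq3' hq3 (by rw [hW'6]; exact hqc6) (by rw [hW'4]; exact hqc4)
  · intro ℓ hℓ hgood hgood' hℓ5
    by_cases hℓN : (ℓ : ℤ) ∣ N
    · rw [hW'ap ℓ hℓ hℓN]; simp
    · have hℓ2 : ℓ ≠ 2 := by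
        rintro rfl
        exact hℓN (dvd_trans ⟨3 * W.Δ, by push_cast; ring⟩ h6ΔN)
      have hℓ3 : ℓ ≠ 3 := by
        rintro rfl
        exact hℓN (dvd_trans ⟨2 * W.Δ, by push_cast; ring⟩ h6ΔN)
      have hℓgt : 5 < ℓ := by
        by_contra hle
        rw [not_lt] at hle
        have h2 := hℓ.two_le
        interval_cases ℓ
        · exact hℓ2 rfl
        · exact hℓ3 rfl
        · exact absurd hℓ (by decide)
        · exact hℓ5 rfl
      have hcong : Congr5 W W' := hcongr s W' hW'Δ (by rw [hW'4]; exact h4q)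
        (by rw [hW'6]; exact h6q)
      exact hBridge W W' hΔ hW'Δ h5.1 hcong ℓ hℓ hℓgt hgood hgood'

/-- **S52 from the blocks**, main route. -/
theorem S52_of_stmts (hFam : Stmt_Family) (hSig : Stmt_Sigma) (hAux : Stmt_Aux)
    (hIrr : Stmt_Irr) (hBridge : Stmt_Bridge) (hModel : Stmt_Model) : Goal_S52 :=
  S52_of_core (familyAlt_of_family_sigma hFam hSig) hAux hIrr hBridge hModel

end Fermat.Agent.S52.helper52
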