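import Fermat.Agent.S52.helper1663_SqrtNegThree
import Fermat.Agent.S52.helper52_Spec

/-!
# Block (I) of the S52 architect's spec (helper1663)

`stmt_Sigma : helper52.Stmt_Sigma` — for every semistable integral model `W` with `Δ ≠ 0` there
is `σ ∈ Gal(ℚ̄/ℚ)` fixing `W[5](ℚ̄)` pointwise and all 20th roots of unity, with `σ r = -r` for
`r² = -3`.  Direct corollary of `exists_galois_fixing_five_torsion`.
-/

set_option autoImplicit false

namespace Fermat.Agent.S52.helper1663

/-- **Block (I)** (`helper52.Stmt_Sigma`). -/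
theorem stmt_Sigma : Fermat.Agent.S52.helper52.Stmt_Sigma := by
  intro W hΔ hW
  obtain ⟨σ, h1, h2, h3⟩ := exists_galois_fixing_five_torsion W hΔ hW
  exact ⟨σ, h1, fun z hz => h2 20 (by norm_num) z hz, h3⟩

end Fermat.Agent.S52.helper1663
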