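import Fermat.Agent.S52.helper1663_LocalUnip
import Fermat.Agent.Lib.helper2053_MinkowskiInertia

/-!
# `√-3 ∉ ℚ(W[5], μ_n)` (`3 ∤ n`) for a semistable integral model, in Galois form (helper1663, S52)

Main results (`W : WeierstrassCurve ℤ`, `Δ ≠ 0`, `W.IsSemistableModel`; only semistability at `3`
is used):

* `exists_galois_fixing_five_torsion`: there is `σ ∈ Gal(ℚ̄/ℚ)` with `σ • x = x` for all
  `x ∈ W[5](ℚ̄)`, `σ ζ = ζ` for every root of unity of order prime to `3`, and `σ s = -s` for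
  every `s` with `s² = -3`.
* `exists_galois_fixing_five_torsion'`: the same with `i`, `ζ₅`, `ζ₂₀` fixed and `√3 ↦ -√3`.

Ingredients:
* `exists_inertia_neg`: some inertia element `τ` at a place `A` over `3` has `τ √-3 = -√-3`
  (Minkowski in inertia form, `Lib/helper2053`, applied to the stabiliser of `√-3`; the place is
  over `3` because `τ ω - ω = -√-3` must be a nonunit, `ω = (-1+√-3)/2`);
* `inertia_fixes_root_of_unity`: inertia at `q` fixes roots of unity of order prime to `q`;
* `unipotent_torsion` (`helper1663_LocalUnip.unipotent_point`): `(τ - 1)² = 0` on `W[5]`, hence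
  `τ⁵ = 1` on `W[5]`; take `σ = τ⁵`.
-/

set_option autoImplicit false

namespace Fermat.Agent.S52.helper1663

open WeierstrassCurve WeierstrassCurve.Affine WeierstrassCurve.Affine.Point
open Fermat.Agent.S05.helper2200 (valuation_two_eq_one valuation_intCast_le_one
  valuation_intCast_lt_one_iff valuation_intCast_eq_one valuation_apply
  valuation_apply_sub_lt_one)

local notation "Qbar" => AlgebraicClosure ℚ
local notation "GQ" => (AlgebraicClosure ℚ ≃ₐ[ℚ] AlgebraicClosure ℚ)

attribute [local instance] Fermat.Agent.Lib.helper54.isAlgebraic_Qbar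
  Fermat.Agent.Lib.helper54.isAlgClosure_Qbar Fermat.Agent.Lib.helper54.isGalois_Qbar
  Fermat.Agent.Lib.helper54.isIntegral_Qbar

section generalities

/-- Iterating a unipotent operator. -/
theorem pow_smul_eq_of_unipotent {G M : Type*} [Group G] [AddCommGroup M] [DistribMulAction G M]
    (τ : G) (x : M) (hu : τ • (τ • x - x) = τ • x - x) (k : ℕ) :
    τ ^ k • x = x + k • (τ • x - x) := by
  induction k with
  | zero => simp
  | succ k ih =>
    have h1 : τ • (k • (τ • x - x)) = k • (τ • (τ • x - x)) :=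
      map_nsmul (DistribSMul.toAddMonoidHom M τ) k (τ • x - x)
    rw [pow_succ', mul_smul, ih, smul_add, h1, hu, succ_nsmul]
    abel

theorem pow_apply_of_fixed (τ : GQ) {x : Qbar} (h : τ x = x) (k : ℕ) : (τ ^ k) x = x := by
  induction k with
  | zero => rfl
  | succ k ih => rw [pow_succ', AlgEquiv.mul_apply, ih, h]

theorem pow_apply_of_neg (τ : GQ) {x : Qbar} (h : τ x = -x) (k : ℕ) :
    (τ ^ k) x = (-1) ^ k * x := by
  induction k with
  | zero => simp
  | succ k ih => rw [pow_succ', AlgEquiv.mul_apply, ih, map_mul, map_pow, map_neg, map_one, h]; ring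

variable {K : Type*} [Field K] {Γ₀ : Type*} [LinearOrderedCommGroupWithZero Γ₀]

theorem val_pow_sub_one_lt_one (v : Valuation K Γ₀) {u : K} (hu : v u ≤ 1)
    (h : v (u - 1) < 1) (i : ℕ) : v (u ^ i - 1) < 1 := by
  induction i with
  | zero => simp
  | succ i ih =>
    have : u ^ (i + 1) - 1 = u ^ i * (u - 1) + (u ^ i - 1) := by ring
    rw [this]
    refine v.map_add_lt ?_ ih
    rw [map_mul, map_pow]
    calc v u ^ i * v (u - 1) ≤ 1 * v (u - 1) := mul_le_mul' (pow_le_one₀ zero_le hu) le_rfl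
      _ = v (u - 1) := one_mul _
      _ < 1 := h

end generalities

/-- Inertia at `q` fixes the roots of unity of order prime to `q`. -/
theorem inertia_fixes_root_of_unity (A : ValuationSubring Qbar) {q : ℕ} (hq : q.Prime)
    (hA : A.LiesOverPrime q) {τ : GQ} (hτ : τ ∈ A.inertiaSubgroupIn ℚ) {n : ℕ} (hn : ¬ q ∣ n)
    {ζ : Qbar} (hζ : ζ ^ n = 1) : τ ζ = ζ := by
  set v := A.valuation with hvdef
  have hn0 : n ≠ 0 := fun h => hn (h ▸ dvd_zero q)
  have hζ0 : ζ ≠ 0 := by
    rintro rfl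
    rw [zero_pow hn0] at hζ
    exact zero_ne_one hζ
  have hvζ : v ζ = 1 := by
    have h1 : v ζ ^ n = 1 := by rw [← map_pow, hζ, map_one]
    rcases lt_trichotomy (v ζ) 1 with h | h | h
    · exact absurd h1 (pow_lt_one₀ zero_le h hn0).ne
    · exact h
    · exact absurd h1 (one_lt_pow₀ h hn0).ne'
  by_contra hne
  set u : Qbar := τ ζ / ζ with hudef
  have hun : u ^ n = 1 := by
    rw [hudef, div_pow, ← map_pow, hζ, map_one, div_one]
  have hu1 : u ≠ 1 := by
    intro h
    apply hne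
    rw [hudef, div_eq_one_iff_eq hζ0] at h
    exact h
  have hvu : v u ≤ 1 := by
    rw [hudef, map_div₀, hvζ, div_one, valuation_apply A hτ]
    exact hvζ.le
  have hvu1 : v (u - 1) < 1 := by
    have h1 : u - 1 = (τ ζ - ζ) / ζ := by rw [hudef]; field_simp
    rw [h1, map_div₀, hvζ, div_one]
    exact valuation_apply_sub_lt_one A hτ ζ hvζ.le
  have hsum : ∑ i ∈ Finset.range n, u ^ i = 0 := by
    have h1 := mul_geom_sum u n
    rw [hun, sub_self] at h1
    exact (mul_eq_zero.mp h1).resolve_left (sub_ne_zero.mpr hu1)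
  have hnval : v (n : Qbar) < 1 := by
    have h1 : (n : Qbar) = -∑ i ∈ Finset.range n, (u ^ i - 1) := by
      rw [Finset.sum_sub_distrib, hsum]
      simp
    rw [h1, Valuation.map_neg]
    exact v.map_sum_lt one_ne_zero (fun i _ => val_pow_sub_one_lt_one v hvu hvu1 i)
  have h2 : (q : ℤ) ∣ (n : ℤ) := by
    have h3 := (valuation_intCast_lt_one_iff A hq hA (n : ℤ)).mp (by simpa using hnval)
    exact h3
  exact hn (by exact_mod_cast h2)

/-- Some inertia element at a place over `3` moves `√-3`. -/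
theorem exists_inertia_neg (s0 : Qbar) (hs0 : s0 ^ 2 = -3) :
    ∃ (A : ValuationSubring Qbar) (τ : GQ), A.LiesOverPrime 3 ∧ τ ∈ A.inertiaSubgroupIn ℚ ∧
      τ s0 = -s0 := by
  by_contra hcon
  push Not at hcon
  -- the stabiliser of `s0` is open
  let H : Subgroup GQ := MulAction.stabilizer GQ s0
  have hHmem : ∀ σ : GQ, σ ∈ H ↔ σ s0 = s0 := fun σ => MulAction.mem_stabilizer_iff
  have hopen : IsOpen (H : Set GQ) := by
    have hfin : FiniteDimensional ℚ (IntermediateField.adjoin ℚ ({s0} : Set Qbar)) :=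
      IntermediateField.finiteDimensional_adjoin
        (fun z _ => (Algebra.IsAlgebraic.isAlgebraic z).isIntegral)
    have hopen := IntermediateField.fixingSubgroup_isOpen
      (IntermediateField.adjoin ℚ ({s0} : Set Qbar))
    refine Subgroup.isOpen_mono
      (H₁ := (IntermediateField.adjoin ℚ ({s0} : Set Qbar)).fixingSubgroup) ?_ hopen
    intro σ hσ
    rw [IntermediateField.mem_fixingSubgroup_iff] at hσ
    exact (hHmem σ).mpr (hσ s0 (IntermediateField.subset_adjoin ℚ _ (by simp)))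
  have htop : H = ⊤ := by
    apply Fermat.Agent.Lib.helper2053.minkowski_inertia H hopen
    intro q hq A hA τ hτ
    rw [hHmem]
    by_contra hne
    have hτs : τ s0 = -s0 := by
      have h1 : (τ s0 - s0) * (τ s0 + s0) = 0 := by
        have h2 : τ s0 ^ 2 = -3 := by
          rw [← map_pow, hs0, map_neg]
          congr 1
          exact map_ofNat τ 3
        linear_combination h2 - hs0
      rcases mul_eq_zero.mp h1 with h | h
      · exact absurd (sub_eq_zero.mp h) hne
      · exact eq_neg_of_add_eq_zero_left h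
    set v := A.valuation with hvdef
    set ω : Qbar := (-1 + s0) / 2 with hω
    have hω2 : ω ^ 2 = -(ω + 1) := by
      have h1 : ω ^ 2 + ω + 1 = (s0 ^ 2 + 3) / 4 := by rw [hω]; field_simp; ring
      have h2 : ω ^ 2 + ω + 1 = 0 := by rw [h1, hs0]; norm_num
      linear_combination h2
    have hvω : v ω ≤ 1 := by
      by_contra hgt
      have hgt : 1 < v ω := not_le.mp hgt
      have h1 : v ω ^ 2 ≤ v ω := by
        rw [← map_pow, hω2, Valuation.map_neg]
        exact v.map_add_le le_rfl (by rw [map_one]; exact hgt.le)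
      have hpos : 0 < v ω := lt_trans zero_lt_one hgt
      have h2 : v ω * 1 < v ω * v ω := mul_lt_mul_of_pos_left hgt hpos
      rw [mul_one, ← sq] at h2
      exact absurd h1 (not_le.mpr h2)
    have hdiff : τ ω - ω = -s0 := by
      have h2 : τ 2 = 2 := map_ofNat τ 2
      rw [hω, map_div₀, map_add, map_neg, map_one, hτs, h2]
      field_simp
      ring
    have hvs : v s0 < 1 := by
      have h1 := valuation_apply_sub_lt_one A hτ ω hvω
      rw [hdiff, Valuation.map_neg] at h1
      exact h1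
    have hv3 : v ((3 : ℤ) : Qbar) < 1 := by
      have h1 : ((3 : ℤ) : Qbar) = -(s0 ^ 2) := by rw [hs0]; norm_num
      rw [h1, Valuation.map_neg, map_pow]
      exact pow_lt_one₀ zero_le hvs (by norm_num)
    have hq3 : q = 3 := by
      have h1 := (valuation_intCast_lt_one_iff A hq hA 3).mp hv3
      have h2 : q ∣ 3 := by exact_mod_cast h1
      exact (Nat.prime_dvd_prime_iff_eq hq Nat.prime_three).mp h2
    subst hq3
    exact hcon A τ hA hτ hτs
  -- hence `s0` is rational: contradiction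
  have hfix : ∀ σ : GQ, σ s0 = s0 := fun σ => (hHmem σ).mp (htop ▸ Subgroup.mem_top σ)
  have hbot : s0 ∈ (⊥ : IntermediateField ℚ Qbar) := (InfiniteGalois.mem_bot_iff_fixed s0).mpr hfix
  rw [IntermediateField.mem_bot] at hbot
  obtain ⟨r, hr⟩ := hbot
  have h1 : algebraMap ℚ Qbar (r ^ 2) = algebraMap ℚ Qbar (-3) := by
    rw [map_pow, hr, hs0, map_neg, map_ofNat]
  have h2 : r ^ 2 = -3 := (algebraMap ℚ Qbar).injective h1
  nlinarith [sq_nonneg r]

section final

variable (W : WeierstrassCurve ℤ)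

/-- **Semistable ⟹ unipotent inertia**, on the `p`-torsion module of the frozen statements. -/
theorem unipotent_torsion (A : ValuationSubring Qbar) {q : ℕ} (hΔ : W.Δ ≠ 0) (hq : q.Prime)
    (hq2 : q ≠ 2) {p : ℕ} (hp : p.Prime) (hp2 : p ≠ 2) (hpq : p ≠ q)
    (hss : (q : ℤ) ∣ W.Δ → ¬ (q : ℤ) ∣ W.c₄)
    (hA : A.LiesOverPrime q) {σ : GQ} (hσ : σ ∈ A.inertiaSubgroupIn ℚ)
    (x : Submodule.torsionBy ℤ (((W.map (Int.castRingHom ℚ)).toAffine)⁄Qbar).Point p) :
    σ • (σ • x - x) = σ • x - x := by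
  apply Subtype.ext
  have hx : p • (x : (barCurve W).toAffine.Point) = 0 := by
    have h1 := x.2
    rw [Submodule.mem_torsionBy_iff] at h1
    rw [← natCast_zsmul]; exact h1
  exact unipotent_point W A hΔ hq hq2 hp hp2 hpq hss hA hσ x.1 hx

/-- **`√-3 ∉ ℚ(W[5], μ_n)` for `3 ∤ n`, in Galois form.**  For a semistable integral model `W`
(only semistability at `3` is used) there is `σ ∈ Gal(ℚ̄/ℚ)` acting trivially on `W[5](ℚ̄)` and
on all roots of unity of order prime to `3`, with `σ(√-3) = -√-3`. -/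
theorem exists_galois_fixing_five_torsion (hΔ : W.Δ ≠ 0) (hW : W.IsSemistableModel) :
    ∃ σ : GQ,
      (∀ x : Submodule.torsionBy ℤ (((W.map (Int.castRingHom ℚ)).toAffine)⁄Qbar).Point (5 : ℕ),
        σ • x = x) ∧
      (∀ n : ℕ, ¬ 3 ∣ n → ∀ ζ : Qbar, ζ ^ n = 1 → σ ζ = ζ) ∧
      (∀ s : Qbar, s ^ 2 = -3 → σ s = -s) := by
  obtain ⟨s0, hs0⟩ := IsAlgClosed.exists_pow_nat_eq (-3 : Qbar) (n := 2) (by norm_num)
  obtain ⟨A, τ, hA, hτ, hτs⟩ := exists_inertia_neg s0 hs0
  refine ⟨τ ^ 5, ?_, ?_, ?_⟩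
  · intro x
    have hu := unipotent_torsion W A hΔ Nat.prime_three (by norm_num) Nat.prime_five
      (by norm_num) (by norm_num) (hW 3 Nat.prime_three) hA hτ x
    rw [pow_smul_eq_of_unipotent τ x hu 5]
    have h5 : (5 : ℕ) • (τ • x - x) = 0 := by
      have h1 := Submodule.smul_torsionBy ((5 : ℕ) : ℤ) (τ • x - x)
      rw [← natCast_zsmul]; exact h1
    rw [h5, add_zero]
  · intro n hn ζ hζ
    exact pow_apply_of_fixed τ (inertia_fixes_root_of_unity A Nat.prime_three hA hτ hn hζ) 5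
  · intro s hs
    have hτs' : τ s = -s := by
      have h1 : (s - s0) * (s + s0) = 0 := by linear_combination hs - hs0
      rcases mul_eq_zero.mp h1 with h | h
      · rw [sub_eq_zero.mp h]; exact hτs
      · have h2 : s = -s0 := eq_neg_of_add_eq_zero_left h
        rw [h2, map_neg, hτs]
    rw [pow_apply_of_neg τ hτs' 5]; ring

/-- Variant: `σ` fixes `W[5]`, `i` and `ζ₅`-type roots of unity, and negates both `√-3` and
`√3`. -/
theorem exists_galois_fixing_five_torsion' (hΔ : W.Δ ≠ 0) (hW : W.IsSemistableModel) :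
    ∃ σ : GQ,
      (∀ x : Submodule.torsionBy ℤ (((W.map (Int.castRingHom ℚ)).toAffine)⁄Qbar).Point (5 : ℕ),
        σ • x = x) ∧
      (∀ z : Qbar, z ^ 2 = -1 → σ z = z) ∧
      (∀ ζ : Qbar, ζ ^ 5 = 1 → σ ζ = ζ) ∧
      (∀ ζ : Qbar, ζ ^ 20 = 1 → σ ζ = ζ) ∧
      (∀ s : Qbar, s ^ 2 = -3 → σ s = -s) ∧
      (∀ r : Qbar, r ^ 2 = 3 → σ r = -r) := by
  obtain ⟨σ, h1, h2, h3⟩ := exists_galois_fixing_five_torsion W hΔ hW
  have hi : ∀ z : Qbar, z ^ 2 = -1 → σ z = z := by
    intro z hz
    refine h2 4 (by norm_num) z ?_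
    have : z ^ 4 = (z ^ 2) ^ 2 := by ring
    rw [this, hz]; norm_num
  refine ⟨σ, h1, hi, fun ζ hζ => h2 5 (by norm_num) ζ hζ, fun ζ hζ => h2 20 (by norm_num) ζ hζ,
    h3, ?_⟩
  intro r hr
  obtain ⟨z, hz⟩ := IsAlgClosed.exists_pow_nat_eq (-1 : Qbar) (n := 2) (by norm_num)
  have hz0 : z ≠ 0 := by
    rintro rfl
    norm_num at hz
  have h4 : σ (z * r) = -(z * r) := h3 (z * r) (by rw [mul_pow, hz, hr]; norm_num)
  rw [map_mul, hi z hz] at h4
  have h5 : z * (σ r + r) = 0 := by linear_combination h4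
  exact eq_neg_of_add_eq_zero_left ((mul_eq_zero.mp h5).resolve_left hz0)

end final

end Fermat.Agent.S52.helper1663
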