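import Fermat.Agent.S13.helper1663_LocalP

/-!
# Unipotent inertia at a node, in shape coordinates (helper1663, S52)

Setting: a Weierstrass curve `W` over a field `K` in the shape coordinates of `helper305_Shape`,
`η² = ξ(ξ² + al ξ + be)`, a valuation `v` on `K` with `v 2 = 1`, and an "inertia-like" ring
endomorphism `σ` of `K` (`v z ≤ 1 → v (σ z - z) < 1`) fixing `a₁`, `a₃`.  In contrast with the
S05/S13 lemmas, `σ` is NOT assumed to fix the 2-torsion abscissa `e`: only `v (σ e - e) < 1`,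
resp. `v (σ e - e) ≤ v be`, is needed (in a node, inertia may swap the two 2-torsion points
that reduce to the node).

* `sub_inE1_of_unit`: if `P = (x, y)` has `1 ≤ v (x - e)` then `σ P - P` lies in the kernel of
  reduction `E₁`.
* `fixed_of_unit`: hence a point of `E₀` (`1 ≤ v ξ`) of prime order `p`, where `E₁` has no
  `p`-torsion, is fixed by `σ`.
* `sub_inE0`: in the node case (`v al = 1`, `v be < 1`), for a point `P` of odd order,
  `σ P - P` lies in `E₀` (no assumption that `be` is a `p`-th power).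

Together: `(σ - 1)² = 0` on the `p`-torsion at a node (semistable ⟹ unipotent inertia).
-/

set_option autoImplicit false
set_option linter.unusedSectionVars false

namespace Fermat.Agent.S52.helper1663

open WeierstrassCurve WeierstrassCurve.Affine
open Fermat.Agent.S05.helper305
open Fermat.Agent.S13.helper1663 (sigma_lt_one sigma_eq_one sigma_le_one sigma_one_lt inE1_zero
  inE0_zero inE1_sub inE0_nsmul not_inE0_T odd_nsmul_of_add_self eq_T_of_xi_eq_zero)

variable {K : Type*} [Field K] [DecidableEq K]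
variable {Γ₀ : Type*} [LinearOrderedCommGroupWithZero Γ₀]
variable {v : Valuation K Γ₀} {W : WeierstrassCurve K} {e al be : K}

/-- **Inertia moves points of `E₀` only inside the kernel of reduction** (`σ` need not fix
`e`). -/
theorem sub_inE1_of_unit (hS : Shape W e al be) (hv2 : v 2 = 1) (hal : v al ≤ 1)
    (hbe : v be ≤ 1) (hdisc : v (al ^ 2 - 4 * be) = 1)
    (σ : K →+* K) (hσ : ∀ z : K, v z ≤ 1 → v (σ z - z) < 1)
    (hσe : v (σ e - e) < 1) (hσa1 : σ W.a₁ = W.a₁) (hσa3 : σ W.a₃ = W.a₃)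
    {x y : K} (h : W.toAffine.Nonsingular x y) (h' : W.toAffine.Nonsingular (σ x) (σ y))
    (hx : 1 ≤ v (x - e)) :
    InE1 v W e (Point.some (σ x) (σ y) h' - Point.some x y h) := by
  have h2 : (2 : K) ≠ 0 := hS.two_ne
  set ξ : K := x - e with hξdef
  set η : K := eta W x y with hηdef
  set ξ' : K := σ x - e with hξ'def
  set η' : K := eta W (σ x) (σ y) with hη'def
  have hPt : IsPt W e (Point.some x y h) ξ η := ⟨x, y, h, rfl, rfl, rfl⟩
  have hPt' : IsPt W e (Point.some (σ x) (σ y) h') ξ' η' := ⟨σ x, σ y, h', rfl, rfl, rfl⟩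
  have hσξ : ξ' = σ ξ + (σ e - e) := by rw [hξdef, hξ'def, map_sub]; ring
  have hσ2 : σ 2 = 2 := map_ofNat σ 2
  have hση : σ η = η' := by
    simp only [hηdef, hη'def, eta, map_add, map_mul, map_div₀, hσa1, hσa3, hσ2]
  have hcurve : η ^ 2 = ξ * (ξ ^ 2 + al * ξ + be) := hPt.curve hS
  rcases eq_or_lt_of_le hx with heq | hgt
  · -- `v ξ = 1`
    have heq : v ξ = 1 := heq.symm
    have hξ'1 : v ξ' = 1 := by
      rw [hσξ]; exact val_add_eq_one v (sigma_eq_one hσ heq) hσe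
    have hdiff : v (ξ' - ξ) < 1 := by
      have : ξ' - ξ = (σ ξ - ξ) + (σ e - e) := by rw [hσξ]; ring
      rw [this]; exact v.map_add_lt (hσ ξ heq.le) hσe
    have hηle : v η ≤ 1 := by
      apply val_le_one_of_sq v
      rw [hcurve, map_mul, heq, one_mul]
      refine v.map_add_le (v.map_add_le ?_ ?_) hbe
      · rw [map_pow, heq, one_pow]
      · rw [map_mul, heq, mul_one]; exact hal
    have hηdiff : v (η' - η) < 1 := hση ▸ hσ η hηle
    by_cases hPP : ξ' = ξ ∧ η' = η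
    · have hPt'' : IsPt W e (Point.some (σ x) (σ y) h') ξ η := by
        rw [← hPP.1, ← hPP.2]; exact hPt'
      rw [hPt''.ext hPt, sub_self]
      exact inE1_zero
    · have hneg : IsPt W e (-(Point.some x y h)) ξ (-η) := hPt.neg h2
      have hne : ¬(ξ' = ξ ∧ η' = -(-η)) := by rw [neg_neg]; exact hPP
      obtain ⟨ξ₃, η₃, lam, hP₃, hrel⟩ := hPt'.add hS hneg hne
      have h1 : 1 < v ξ₃ :=
        hrel.unit_sub hv2 hal hbe hdisc hξ'1 heq hdiff (by rw [← sub_eq_add_neg]; exact hηdiff)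
      rw [sub_eq_add_neg]
      exact Or.inr ⟨ξ₃, η₃, hP₃, h1⟩
  · -- `1 < v ξ`
    have hgtσ : 1 < v (σ ξ) := sigma_one_lt hσ hgt
    have hgt' : 1 < v ξ' := by
      rw [hσξ, Valuation.map_add_eq_of_lt_left v (lt_trans hσe hgtσ)]
      exact hgtσ
    exact inE1_sub hS hv2 hal hbe (Or.inr ⟨ξ', η', hPt', hgt'⟩) (Or.inr ⟨ξ, η, hPt, hgt⟩)

/-- A point of `E₀` of order `p` is fixed by inertia, when the kernel of reduction has no
`p`-torsion. -/
theorem fixed_of_unit {p : ℕ} (hS : Shape W e al be) (hv2 : v 2 = 1) (hal : v al ≤ 1)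
    (hbe : v be ≤ 1) (hdisc : v (al ^ 2 - 4 * be) = 1)
    (hker : ∀ (x y : K) (h : W.toAffine.Nonsingular x y), 1 < v (x - e) →
      p • (Point.some x y h : W.toAffine.Point) ≠ 0)
    (σ : K →+* K) (hσ : ∀ z : K, v z ≤ 1 → v (σ z - z) < 1)
    (hσe : v (σ e - e) < 1) (hσa1 : σ W.a₁ = W.a₁) (hσa3 : σ W.a₃ = W.a₃)
    {x y : K} (h : W.toAffine.Nonsingular x y) (h' : W.toAffine.Nonsingular (σ x) (σ y))
    (hx : 1 ≤ v (x - e))
    (hP : p • (Point.some x y h : W.toAffine.Point) = 0)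
    (hP' : p • (Point.some (σ x) (σ y) h' : W.toAffine.Point) = 0) :
    σ x = x ∧ σ y = y := by
  have hD := sub_inE1_of_unit hS hv2 hal hbe hdisc σ hσ hσe hσa1 hσa3 h h' hx
  have hpD : p • (Point.some (σ x) (σ y) h' - Point.some x y h : W.toAffine.Point) = 0 := by
    rw [smul_sub, hP, hP', sub_zero]
  rcases hD with h0 | ⟨ξ, η, ⟨x₃, y₃, h₃, hQ, rfl, rfl⟩, hv⟩
  · have heq : (Point.some (σ x) (σ y) h' : W.toAffine.Point) = Point.some x y h :=
      sub_eq_zero.mp h0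
    simpa using heq
  · rw [hQ] at hpD
    exact absurd hpD (hker x₃ y₃ h₃ hv)

/-- **Node case: inertia moves points of odd order only inside `E₀`.** -/
theorem sub_inE0 {p : ℕ} (hp : Odd p)
    (hS : Shape W e al be) (hv2 : v 2 = 1) (hal : v al = 1) (hbe : v be < 1) (hbe0 : be ≠ 0)
    (σ : K →+* K) (hσ : ∀ z : K, v z ≤ 1 → v (σ z - z) < 1) (hσv : ∀ z : K, v (σ z) = v z)
    (hσe : v (σ e - e) ≤ v be) (hσa1 : σ W.a₁ = W.a₁) (hσa3 : σ W.a₃ = W.a₃)
    {r : K} (hr : r ^ 2 = al)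
    {x y : K} (h : W.toAffine.Nonsingular x y) (h' : W.toAffine.Nonsingular (σ x) (σ y))
    (hP : p • (Point.some x y h : W.toAffine.Point) = 0) :
    InE0 v W e (Point.some (σ x) (σ y) h' - Point.some x y h) := by
  have h2 : (2 : K) ≠ 0 := hS.two_ne
  have hdisc : v (al ^ 2 - 4 * be) = 1 := by
    have h4be : v (4 * be) < 1 := by rw [map_mul, val_four v hv2, one_mul]; exact hbe
    exact val_sub_eq_one v (by rw [map_pow, hal, one_pow]) h4be
  have hσe' : v (σ e - e) < 1 := lt_of_le_of_lt hσe hbe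
  rcases lt_or_ge (v (x - e)) 1 with hlt | hge
  swap
  · exact (sub_inE1_of_unit hS hv2 hal.le hbe.le hdisc σ hσ hσe' hσa1 hσa3 h h' hge).inE0
  -- the middle region `v ξ < 1`
  set ξ : K := x - e with hξdef
  set η : K := eta W x y with hηdef
  set ξ' : K := σ x - e with hξ'def
  set η' : K := eta W (σ x) (σ y) with hη'def
  set δ : K := σ e - e with hδdef
  have hPt : IsPt W e (Point.some x y h) ξ η := ⟨x, y, h, rfl, rfl, rfl⟩
  have hPt' : IsPt W e (Point.some (σ x) (σ y) h') ξ' η' := ⟨σ x, σ y, h', rfl, rfl, rfl⟩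
  have hσξ : ξ' = σ ξ + δ := by rw [hξdef, hξ'def, hδdef, map_sub]; ring
  have hσ2 : σ 2 = 2 := map_ofNat σ 2
  have hση : σ η = η' := by
    simp only [hηdef, hη'def, eta, map_add, map_mul, map_div₀, hσa1, hσa3, hσ2]
  have hcurve : η ^ 2 = ξ * (ξ ^ 2 + al * ξ + be) := hPt.curve hS
  obtain ⟨T, hT⟩ := exists_T hS hbe0
  have hTT : T + T = 0 := T_add_T hS hT
  have hvr : v r = 1 := val_eq_one_of_sq v (by rw [hr]; exact hal)
  have hbepos : 0 < v be := zero_lt_iff.mpr ((Valuation.ne_zero_iff v).mpr hbe0)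
  -- `ξ ≠ 0`
  have hξ0 : ξ ≠ 0 := by
    intro hξ0
    have hPT : Point.some x y h = T := by
      have hPt0 : IsPt W e (Point.some x y h) 0 η := by rw [← hξ0]; exact hPt
      exact eq_T_of_xi_eq_zero hS hPt0 hT
    rw [hPT, odd_nsmul_of_add_self hTT hp] at hP
    exact hT.ne_zero hP
  have hξpos : 0 < v ξ := zero_lt_iff.mpr ((Valuation.ne_zero_iff v).mpr hξ0)
  -- (i) `v be < v ξ`
  have hdepth : v be < v ξ := by
    by_contra hcon
    have hle : v ξ ≤ v be := not_lt.mp hcon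
    have hne : ¬(ξ = 0 ∧ η = -0) := fun h => hξ0 h.1
    obtain ⟨ξ₃, η₃, lam, hP₃, hrel⟩ := hPt.add hS hT hne
    obtain ⟨h1, -⟩ := hrel.add_T hξ0
    have hE0 : InE0 v W e (Point.some x y h + T) := by
      refine Or.inr ⟨ξ₃, η₃, hP₃, ?_⟩
      rw [h1, map_div₀]
      exact (one_le_div₀ hξpos).mpr hle
    have hE0' := inE0_nsmul hS hv2 hal.le hbe hE0 p
    rw [smul_add, hP, zero_add, odd_nsmul_of_add_self hTT hp] at hE0'
    exact not_inE0_T hT hE0'
  -- (ii) the branch of `P`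
  set ρ : K := η / ξ with hρdef
  have hρ2 : ρ ^ 2 = ξ + al + be / ξ := by
    rw [hρdef, div_pow, hcurve]
    field_simp
  have hbeξ : v (be / ξ) < 1 := by
    rw [map_div₀]; exact (div_lt_one₀ hξpos).mpr hdepth
  have hρle : v ρ ≤ 1 := by
    apply val_le_one_of_sq v
    rw [hρ2]
    exact v.map_add_le (v.map_add_le hlt.le hal.le) hbeξ.le
  have hprod : v ((ρ - r) * (ρ + r)) < 1 := by
    have : (ρ - r) * (ρ + r) = ξ + be / ξ := by
      have : (ρ - r) * (ρ + r) = ρ ^ 2 - r ^ 2 := by ring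
      rw [this, hρ2, hr]; ring
    rw [this]
    exact v.map_add_lt hlt hbeξ
  obtain ⟨r', hvr', hbr⟩ : ∃ r' : K, v r' = 1 ∧ v (ρ - r') < 1 := by
    by_cases hb : v (ρ - r) < 1
    · exact ⟨r, hvr, hb⟩
    · refine ⟨-r, by rw [Valuation.map_neg]; exact hvr, ?_⟩
      rw [sub_neg_eq_add]
      by_contra hb'
      have h1 : 1 ≤ v (ρ - r) := not_lt.mp hb
      have h3 : 1 ≤ v (ρ + r) := not_lt.mp hb'
      have : 1 ≤ v ((ρ - r) * (ρ + r)) := by
        rw [map_mul]; exact one_le_mul_of_one_le_of_one_le h1 h3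
      exact absurd hprod (not_lt.mpr this)
  have h2r' : v (2 * r') = 1 := by rw [map_mul, hv2, hvr', one_mul]
  -- (iii) the image point has the same `v ξ` ...
  have hδξ : v δ < v ξ := lt_of_le_of_lt hσe hdepth
  have hvσξ : v (σ ξ) = v ξ := hσv ξ
  have hξ'v : v ξ' = v ξ := by
    rw [hσξ, Valuation.map_add_eq_of_lt_left v (by rw [hvσξ]; exact hδξ), hvσξ]
  have hξ'0 : ξ' ≠ 0 := by
    rw [← Valuation.ne_zero_iff v, hξ'v]; exact hξpos.ne'
  have hσξ0 : σ ξ ≠ 0 := (map_ne_zero σ).mpr hξ0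
  -- ... and the same branch
  set ρ' : K := η' / ξ' with hρ'def
  have hσρ : σ ρ = η' / σ ξ := by rw [hρdef, map_div₀, hση]
  have hρ'σ : v (ρ' - σ ρ) < 1 := by
    have h1 : ρ' - σ ρ = -(σ ρ * (δ / ξ')) := by
      rw [hσρ, hρ'def, hσξ]
      have hne : σ ξ + δ ≠ 0 := by rw [← hσξ]; exact hξ'0
      field_simp
      ring
    have hvσρ : v (σ ρ) ≤ 1 := by rw [hσv]; exact hρle
    have hvδξ' : v (δ / ξ') < 1 := by
      rw [map_div₀, hξ'v]; exact (div_lt_one₀ hξpos).mpr hδξ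
    rw [h1, Valuation.map_neg, map_mul]
    calc v (σ ρ) * v (δ / ξ') ≤ 1 * v (δ / ξ') := mul_le_mul' hvσρ le_rfl
      _ = v (δ / ξ') := one_mul _
      _ < 1 := hvδξ'
  have hbr' : v (ρ' - r') < 1 := by
    have : ρ' - r' = (ρ' - σ ρ) + ((σ ρ - ρ) + (ρ - r')) := by ring
    rw [this]
    exact v.map_add_lt hρ'σ (v.map_add_lt (hσ ρ hρle) hbr)
  by_cases hPP : ξ' = ξ ∧ η' = η
  · have hPt'' : IsPt W e (Point.some (σ x) (σ y) h') ξ η := by
      rw [← hPP.1, ← hPP.2]; exact hPt'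
    rw [hPt''.ext hPt, sub_self]
    exact inE0_zero
  · have hneg : IsPt W e (-(Point.some x y h)) ξ (-η) := hPt.neg h2
    have hne : ¬(ξ' = ξ ∧ η' = -(-η)) := by rw [neg_neg]; exact hPP
    obtain ⟨ξ₃, η₃, lam, hP₃, hrel⟩ := hPt'.add hS hneg hne
    have hsum : v (ρ' + ρ) = 1 := by
      have : ρ' + ρ = 2 * r' + ((ρ' - r') + (ρ - r')) := by ring
      rw [this]
      exact val_add_eq_one v h2r' (v.map_add_lt hbr' hbr)
    have hξne : ξ' ≠ ξ := by
      intro he
      obtain ⟨h12, -, -⟩ := hrel.lam_tangent h2 he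
      have : ρ' + ρ = 0 := by
        rw [hρ'def, hρdef, he, h12]; ring
      rw [this, map_zero] at hsum
      exact zero_ne_one hsum
    have hF3 := hrel.F3 hξne
    have hnum : η' * ξ - -η * ξ' = ξ' * ξ * (ρ' + ρ) := by
      rw [hρ'def, hρdef]; field_simp; ring
    rw [hnum] at hF3
    have hv := congrArg v hF3
    simp only [map_mul, map_pow, hsum, mul_one, hξ'v] at hv
    have hv' : v ξ₃ * v (ξ' - ξ) ^ 2 = v ξ ^ 2 := by
      have hne2 : v ξ * v ξ ≠ 0 := mul_ne_zero hξpos.ne' hξpos.ne'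
      apply mul_right_cancel₀ hne2
      calc v ξ₃ * v (ξ' - ξ) ^ 2 * (v ξ * v ξ)
          = v ξ₃ * v ξ * v ξ * v (ξ' - ξ) ^ 2 := by ac_rfl
        _ = (v ξ * v ξ) ^ 2 := hv
        _ = v ξ ^ 2 * (v ξ * v ξ) := by rw [sq, sq]
    have hdiff : v (ξ' - ξ) ≤ v ξ := by
      have := v.map_sub ξ' ξ
      rw [hξ'v, max_self] at this
      exact this
    have h1 : 1 ≤ v ξ₃ := one_le_of_mul_sq hξpos.ne' hdiff hv'
    rw [sub_eq_add_neg]
    exact Or.inr ⟨ξ₃, η₃, hP₃, h1⟩

end Fermat.Agent.S52.helper1663
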