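/-
S52 helper (helper1678): the AUXILIARY PRIME from the landed S14 zeta lemma
(`Fermat.Agent.S14.helper694.exists_prime_atMostOne_above`).

Main result `exists_aux_prime`: if `θ` is an algebraic number fixed by an automorphism `σ` of
`AlgebraicClosure ℚ` that moves a square root `s` of the integer `D`, then for all integer
polynomials `P`, `Q` with `P(θ) = 0`, `Q(θ) ≠ 0` and every finite set `T` there are a prime
`q ∉ T` such that `D` is not a square modulo `q`, and an integer `t` with `q ∣ P(t)`, `q ∤ Q(t)`.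

Route: `E' = ℚ(θ, s)`, `E` = the subfield of `E'` fixed by `σ`.  A degree-one prime `𝔮` of `E`
(outside a finite set) modulo which `D` is a square has two distinct degree-one primes `𝔔 ≠ σ𝔔`
above it (`s ≡ c` versus `s ≡ -c`), contradicting the zeta lemma.
-/
import Mathlib
import Fermat.Agent.S14.helper694_ZetaLemma

set_option autoImplicit false

namespace Fermat.Agent.S52.helper1678

open Polynomial NumberField

/-! ## Abstract core (commutative rings only) -/

section Core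

variable {O O' : Type*} [CommRing O] [CommRing O']

/-- An ideal `q` is "of degree one over `ℓ`": every element is congruent to an integer, and an
integer lies in `q` iff it is divisible by `ℓ`. -/
def IsDegOne (q : Ideal O) (ℓ : ℕ) : Prop :=
  (∀ x : O, ∃ n : ℤ, x - (n : O) ∈ q) ∧ ∀ n : ℤ, (n : O) ∈ q ↔ (ℓ : ℤ) ∣ n

theorem IsDegOne.natCast_mem {q : Ideal O} {ℓ : ℕ} (h : IsDegOne q ℓ) : (ℓ : O) ∈ q := by
  have := (h.2 (ℓ : ℤ)).mpr dvd_rfl
  simpa using this

/-- Evaluation of integer polynomials at the residue of `α / a` modulo a degree-one ideal. -/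
theorem IsDegOne.exists_eval {q : Ideal O} {ℓ : ℕ} (h : IsDegOne q ℓ) (hℓ : ℓ.Prime)
    (a : ℤ) (ha : ¬ (ℓ : ℤ) ∣ a) (α : O) :
    ∃ t : ℤ, ∀ R : ℤ[X], (aeval α (R.scaleRoots a) ∈ q ↔ (ℓ : ℤ) ∣ R.eval t) := by
  have hℓZ : Prime (ℓ : ℤ) := Nat.prime_iff_prime_int.mp hℓ
  obtain ⟨n, hn⟩ := h.1 α
  have hcop : IsCoprime a (ℓ : ℤ) := by
    rw [isCoprime_comm]
    exact (Prime.coprime_iff_not_dvd hℓZ).mpr ha
  obtain ⟨u, v, huv⟩ := hcop
  refine ⟨u * n, fun R => ?_⟩
  -- `α ≡ a * (u * n)` modulo `q`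
  have hα : α - ((a * (u * n) : ℤ) : O) ∈ q := by
    have h1 : α - ((a * (u * n) : ℤ) : O) = (α - (n : O)) + ((n * v : ℤ) : O) * (ℓ : O) := by
      have : (n : ℤ) = n * (u * a + v * ℓ) := by rw [huv, mul_one]
      have h2 : ((n : ℤ) : O) = ((n * (u * a + v * ℓ) : ℤ) : O) := congrArg _ this
      push_cast at h2 ⊢
      linear_combination h2
    rw [h1]
    exact q.add_mem hn (q.mul_mem_left _ h.natCast_mem)
  -- hence the values of any polynomial are congruent
  have hdiff : aeval α (R.scaleRoots a) - aeval ((a * (u * n) : ℤ) : O) (R.scaleRoots a) ∈ q := by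
    have := sub_dvd_eval_sub α ((a * (u * n) : ℤ) : O) ((R.scaleRoots a).map (Int.castRingHom O))
    rw [eval_map, eval_map] at this
    obtain ⟨w, hw⟩ := this
    have h3 : aeval α (R.scaleRoots a) - aeval ((a * (u * n) : ℤ) : O) (R.scaleRoots a)
        = (α - ((a * (u * n) : ℤ) : O)) * w := by
      rw [← hw]; rfl
    rw [h3]
    exact q.mul_mem_right _ hα
  have hval : aeval ((a * (u * n) : ℤ) : O) (R.scaleRoots a)
      = ((a ^ R.natDegree * R.eval (u * n) : ℤ) : O) := by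
    have h4 := scaleRoots_eval₂_mul (p := R) (RingHom.id ℤ) (u * n) a
    simp only [RingHom.id_apply, eval₂_id] at h4
    rw [← h4]
    have h5 : aeval ((a * (u * n) : ℤ) : O) (R.scaleRoots a)
        = (Int.castRingHom O) ((R.scaleRoots a).eval (a * (u * n))) := by
      have h6 := hom_eval₂ (R.scaleRoots a) (RingHom.id ℤ) (Int.castRingHom O) (a * (u * n))
      rw [eval₂_id] at h6
      rw [h6, aeval_def, algebraMap_int_eq]
      rfl
    rw [h5]; rfl
  have hiff : aeval α (R.scaleRoots a) ∈ q ↔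
      ((a ^ R.natDegree * R.eval (u * n) : ℤ) : O) ∈ q := by
    rw [← hval]
    constructor
    · intro hmem
      have := q.sub_mem hmem hdiff
      simpa using this
    · intro hmem
      have := q.add_mem hdiff hmem
      simpa using this
  rw [hiff, h.2]
  constructor
  · intro hd
    rcases hℓZ.dvd_or_dvd hd with h6 | h6
    · exact absurd (hℓZ.dvd_of_dvd_pow h6) ha
    · exact h6
  · intro hd
    exact Dvd.dvd.mul_left hd _

/-- Transport of the degree-one property along a ring hom `j` to a prime `Q` above `q`, when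
`D ≡ c²` modulo `ℓ`: every element of `O'` is congruent to an integer modulo `Q`, and the conjugate
prime `g⁻¹ Q` is different from `Q`.  Here `g` is an involution of `O'` whose fixed points are
the image of `j`, and `g s = -s` with `s² = D`. -/
theorem IsDegOne.above {q : Ideal O} {ℓ : ℕ} (h : IsDegOne q ℓ) (hℓ : ℓ.Prime)
    (j : O →+* O') (g : O' →+* O') (hfix : ∀ y, g y = y → ∃ x, j x = y)
    (hinv : ∀ y, g (g y) = y) (D : ℤ) (s : O') (hs : s ^ 2 = (D : O')) (hgs : g s = -s)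
    (c : ℤ) (hc : (ℓ : ℤ) ∣ D - c ^ 2) (hc2 : ¬ (ℓ : ℤ) ∣ 2 * c)
    (Q : Ideal O') [Q.IsPrime] (hQ : Q.comap j = q) :
    IsDegOne Q ℓ ∧ Q.comap g ≠ Q := by
  -- integers in `Q`
  have hint : ∀ n : ℤ, (n : O') ∈ Q ↔ (ℓ : ℤ) ∣ n := by
    intro n
    rw [← h.2 n, ← hQ, Ideal.mem_comap, map_intCast]
  have hℓQ : (ℓ : O') ∈ Q := by
    have := (hint (ℓ : ℤ)).mpr dvd_rfl
    simpa using this
  -- elements of the image of `j` are congruent to integers
  have himg : ∀ x : O, ∃ n : ℤ, j x - (n : O') ∈ Q := by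
    intro x
    obtain ⟨n, hn⟩ := h.1 x
    refine ⟨n, ?_⟩
    have : x - (n : O) ∈ Q.comap j := hQ ▸ hn
    rw [Ideal.mem_comap, map_sub, map_intCast] at this
    exact this
  have hDc : ((D : ℤ) : O') - (c : O') ^ 2 ∈ Q := by
    obtain ⟨m, hm⟩ := hc
    have h1 : ((D : ℤ) : O') - (c : O') ^ 2 = (ℓ : O') * (m : O') := by
      have := congrArg (Int.cast : ℤ → O') hm
      push_cast at this
      exact this
    rw [h1]
    exact Q.mul_mem_right _ hℓQ
  -- inverse of `2c` modulo `ℓ`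
  have hℓZ : Prime (ℓ : ℤ) := Nat.prime_iff_prime_int.mp hℓ
  have hcop : IsCoprime (2 * c) (ℓ : ℤ) := by
    rw [isCoprime_comm]
    exact (Prime.coprime_iff_not_dvd hℓZ).mpr hc2
  obtain ⟨e, f, hef⟩ := hcop
  refine ⟨⟨?_, hint⟩, ?_⟩
  · intro x
    -- the three `g`-invariant elements
    obtain ⟨u, hu⟩ := hfix (x + g x) (by rw [map_add, hinv]; ring)
    obtain ⟨w, hw⟩ := hfix ((x - g x) * s) (by rw [map_mul, map_sub, hinv, hgs]; ring)
    obtain ⟨nu, hnu⟩ := himg u
    obtain ⟨nw, hnw⟩ := himg w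
    rw [hu] at hnu
    rw [hw] at hnw
    -- the product `(c(2x - U) - W)(c(2x - U) + W)` lies in `Q`
    have hprod : ((c : O') * (2 * x - (x + g x)) - (x - g x) * s) *
        ((c : O') * (2 * x - (x + g x)) + (x - g x) * s) ∈ Q := by
      have h1 : ((c : O') * (2 * x - (x + g x)) - (x - g x) * s) *
          ((c : O') * (2 * x - (x + g x)) + (x - g x) * s)
          = -(((D : ℤ) : O') - (c : O') ^ 2) * (x - g x) ^ 2 := by
        linear_combination (-(x - g x) ^ 2) * hs
      rw [h1]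
      exact Q.mul_mem_right _ (Q.neg_mem hDc)
    -- in both cases `2c x` is congruent to an integer
    have key : ∃ m : ℤ, ((2 * c : ℤ) : O') * x - (m : O') ∈ Q := by
      rcases (Ideal.IsPrime.mem_or_mem inferInstance hprod) with h1 | h1
      · refine ⟨c * nu + nw, ?_⟩
        have h2 : ((2 * c : ℤ) : O') * x - ((c * nu + nw : ℤ) : O')
            = ((c : O') * (2 * x - (x + g x)) - (x - g x) * s)
              + (c : O') * ((x + g x) - (nu : O')) + ((x - g x) * s - (nw : O')) := by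
          push_cast; ring
        rw [h2]
        exact Q.add_mem (Q.add_mem h1 (Q.mul_mem_left _ hnu)) hnw
      · refine ⟨c * nu - nw, ?_⟩
        have h2 : ((2 * c : ℤ) : O') * x - ((c * nu - nw : ℤ) : O')
            = ((c : O') * (2 * x - (x + g x)) + (x - g x) * s)
              + (c : O') * ((x + g x) - (nu : O')) - ((x - g x) * s - (nw : O')) := by
          push_cast; ring
        rw [h2]
        exact Q.sub_mem (Q.add_mem h1 (Q.mul_mem_left _ hnu)) hnw
    obtain ⟨m, hm⟩ := key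
    refine ⟨e * m, ?_⟩
    have h3 : x - ((e * m : ℤ) : O')
        = (e : O') * (((2 * c : ℤ) : O') * x - (m : O')) + ((f : ℤ) : O') * x * (ℓ : O') := by
      have h4 := congrArg (Int.cast : ℤ → O') hef
      push_cast at h4 ⊢
      linear_combination (-x) * h4
    rw [h3]
    exact Q.add_mem (Q.mul_mem_left _ hm) (Q.mul_mem_left _ hℓQ)
  · intro hcomap
    have hmem : ∀ y, y ∈ Q → g y ∈ Q := by
      intro y hy
      have : y ∈ Q.comap g := by rw [hcomap]; exact hy
      exact this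
    have hsc : (s - (c : O')) * (s + (c : O')) ∈ Q := by
      have h1 : (s - (c : O')) * (s + (c : O')) = ((D : ℤ) : O') - (c : O') ^ 2 := by
        linear_combination hs
      rw [h1]; exact hDc
    have h2c : ((2 * c : ℤ) : O') ∈ Q := by
      rcases (Ideal.IsPrime.mem_or_mem inferInstance hsc) with h1 | h1
      · have h2 := hmem _ h1
        rw [map_sub, hgs, map_intCast] at h2
        have h3 := Q.add_mem h1 h2
        have h4 : ((2 * c : ℤ) : O') = -((s - (c : O')) + (-s - (c : O'))) := by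
          push_cast; ring
        rw [h4]
        exact Q.neg_mem h3
      · have h2 := hmem _ h1
        rw [map_add, hgs, map_intCast] at h2
        have h3 := Q.add_mem h1 h2
        have h4 : ((2 * c : ℤ) : O') = (s + (c : O')) + (-s + (c : O')) := by
          push_cast; ring
        rw [h4]
        exact h3
    exact hc2 ((hint _).mp h2c)

/-- A degree-one ideal has residue ring of cardinality `ℓ`. -/
theorem IsDegOne.card_quotient {q : Ideal O} {ℓ : ℕ} (h : IsDegOne q ℓ) :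
    Nat.card (O ⧸ q) = ℓ := by
  let f : {f : ℤ →+ O ⧸ q // f ℓ = 0} :=
    ⟨(Int.castAddHom (O ⧸ q)), by
      have := h.natCast_mem
      rw [← Ideal.Quotient.eq_zero_iff_mem] at this
      simpa using this⟩
  have hbij : Function.Bijective (ZMod.lift ℓ f) := by
    constructor
    · rw [ZMod.lift_injective]
      intro m hm
      have h1 : ((m : ℤ) : O ⧸ q) = 0 := hm
      have h2 : (Ideal.Quotient.mk q) (m : O) = 0 := by simpa using h1
      rw [Ideal.Quotient.eq_zero_iff_mem, h.2] at h2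
      exact (ZMod.intCast_zmod_eq_zero_iff_dvd m ℓ).mpr h2
    · intro y
      obtain ⟨x, rfl⟩ := Ideal.Quotient.mk_surjective y
      obtain ⟨n, hn⟩ := h.1 x
      refine ⟨(n : ZMod ℓ), ?_⟩
      rw [ZMod.lift_coe]
      have h1 : (Ideal.Quotient.mk q) (x - (n : O)) = 0 := Ideal.Quotient.eq_zero_iff_mem.mpr hn
      rw [map_sub, sub_eq_zero] at h1
      rw [h1]
      simp [f]
  rw [← Nat.card_eq_of_bijective _ hbij, Nat.card_zmod]

/-- An ideal with residue ring of prime cardinality `ℓ` is of degree one. -/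
theorem isDegOne_of_card {q : Ideal O} {ℓ : ℕ} (hℓ : ℓ.Prime) (hcard : Nat.card (O ⧸ q) = ℓ) :
    IsDegOne q ℓ := by
  have hfin : Finite (O ⧸ q) := Nat.finite_of_card_ne_zero (by rw [hcard]; exact hℓ.ne_zero)
  let _ : Fintype (O ⧸ q) := Fintype.ofFinite _
  have hcard' : Fintype.card (O ⧸ q) = ℓ := by rw [← Nat.card_eq_fintype_card, hcard]
  let e : ZMod ℓ ≃+* (O ⧸ q) := ZMod.ringEquivOfPrime (O ⧸ q) hℓ hcard'
  have hmem : ∀ n : ℤ, (n : O) ∈ q ↔ (ℓ : ℤ) ∣ n := by
    intro n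
    rw [← Ideal.Quotient.eq_zero_iff_mem, ← ZMod.intCast_zmod_eq_zero_iff_dvd n ℓ]
    have h1 : (Ideal.Quotient.mk q) (n : O) = e (n : ZMod ℓ) := by
      rw [map_intCast, map_intCast]
    rw [h1]
    exact e.map_eq_zero_iff
  refine ⟨fun x => ?_, hmem⟩
  refine ⟨((e.symm (Ideal.Quotient.mk q x)).cast : ℤ), ?_⟩
  rw [← Ideal.Quotient.eq_zero_iff_mem, map_sub, sub_eq_zero]
  have h1 : (Ideal.Quotient.mk q) ((((e.symm (Ideal.Quotient.mk q x)).cast : ℤ) : O))
      = e ((((e.symm (Ideal.Quotient.mk q x)).cast : ℤ) : ZMod ℓ)) := by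
    rw [map_intCast, map_intCast]
  rw [h1, ZMod.intCast_zmod_cast, RingEquiv.apply_symm_apply]

end Core

/-! ## The two number fields -/

section Fields

local notation "Qb" => AlgebraicClosure ℚ

theorem mem_fixedField_zpowers (τ : Qb ≃ₐ[ℚ] Qb) (x : Qb) :
    x ∈ IntermediateField.fixedField (Subgroup.zpowers τ) ↔ τ x = x := by
  rw [IntermediateField.mem_fixedField_iff]
  constructor
  · intro h
    exact h τ (Subgroup.mem_zpowers τ)
  · intro h f hf
    have hle : Subgroup.zpowers τ ≤ MulAction.stabilizer (Qb ≃ₐ[ℚ] Qb) x :=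
      Subgroup.zpowers_le.mpr (by rw [MulAction.mem_stabilizer_iff]; exact h)
    have h2 := hle hf
    rw [MulAction.mem_stabilizer_iff] at h2
    exact h2

/-- Integrality over `ℤ` can be checked in `Qb`. -/
theorem isIntegral_of_coe (K : IntermediateField ℚ Qb) (x : K) (hx : IsIntegral ℤ (x : Qb)) :
    IsIntegral ℤ x :=
  (isIntegral_algebraMap_iff (R := ℤ) (A := K) (B := Qb) (x := x)
    (algebraMap K Qb).injective).mp hx

/-- The embedding of the ring of integers of a subfield of `Qb` into `Qb`. -/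
noncomputable def toQb (K : IntermediateField ℚ Qb) : 𝓞 K →+* Qb :=
  (algebraMap K Qb).comp (algebraMap (𝓞 K) K)

theorem toQb_injective (K : IntermediateField ℚ Qb) : Function.Injective (toQb K) :=
  (algebraMap K Qb).injective.comp RingOfIntegers.coe_injective

theorem isIntegral_toQb (K : IntermediateField ℚ Qb) (y : 𝓞 K) : IsIntegral ℤ (toQb K y) :=
  (RingOfIntegers.isIntegral_coe y).algebraMap

theorem toQb_mem (K : IntermediateField ℚ Qb) (y : 𝓞 K) : toQb K y ∈ K :=
  (algebraMap (𝓞 K) K y).2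

theorem exists_toQb_eq (K : IntermediateField ℚ Qb) (x : Qb) (hx : x ∈ K)
    (hint : IsIntegral ℤ x) : ∃ y : 𝓞 K, toQb K y = x :=
  ⟨⟨⟨x, hx⟩, isIntegral_of_coe K ⟨x, hx⟩ hint⟩, rfl⟩

theorem toQb_aeval (K : IntermediateField ℚ Qb) (x : 𝓞 K) (R : ℤ[X]) :
    toQb K (aeval x R) = aeval (toQb K x) R := by
  have h := hom_eval₂ R (algebraMap ℤ (𝓞 K)) (toQb K) x
  have h2 : (toQb K).comp (algebraMap ℤ (𝓞 K)) = algebraMap ℤ Qb := RingHom.ext_int _ _
  rw [h2] at h
  exact h

variable (θ s : Qb) (σ : Qb ≃ₐ[ℚ] Qb)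

/-- `E' = ℚ(θ, s)`. -/
noncomputable def bigField : IntermediateField ℚ Qb := IntermediateField.adjoin ℚ {θ, s}

/-- The subfield of `E'` fixed by `σ`. -/
noncomputable def smallField : IntermediateField ℚ Qb :=
  bigField θ s ⊓ IntermediateField.fixedField (Subgroup.zpowers σ)

theorem theta_mem_bigField : θ ∈ bigField θ s :=
  IntermediateField.subset_adjoin ℚ _ (Set.mem_insert θ {s})

theorem s_mem_bigField : s ∈ bigField θ s :=
  IntermediateField.subset_adjoin ℚ _ (Set.mem_insert_of_mem θ (Set.mem_singleton s))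

theorem smallField_le : smallField θ s σ ≤ bigField θ s := inf_le_left

theorem mem_smallField {x : Qb} : x ∈ smallField θ s σ ↔ x ∈ bigField θ s ∧ σ x = x := by
  unfold smallField
  rw [IntermediateField.mem_inf, mem_fixedField_zpowers]

instance instFiniteDimensionalBigField : FiniteDimensional ℚ (bigField θ s) := by
  unfold bigField
  have : Finite ({θ, s} : Set Qb) := Set.Finite.to_subtype (Set.toFinite _)
  exact IntermediateField.finiteDimensional_adjoin
    (fun x _ => (AlgebraicClosure.isAlgebraic ℚ).isIntegral.isIntegral x)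

instance instNumberFieldBigField : NumberField (bigField θ s) := NumberField.mk

instance instFiniteDimensionalSmallField : FiniteDimensional ℚ (smallField θ s σ) :=
  FiniteDimensional.of_injective (IntermediateField.inclusion (smallField_le θ s σ)).toLinearMap
    (IntermediateField.inclusion (smallField_le θ s σ)).injective

instance instNumberFieldSmallField : NumberField (smallField θ s σ) := NumberField.mk

variable {θ s σ}

theorem sigma_mem_bigField (hθ : σ θ = θ) (hσs : σ s = -s) {x : Qb} (hx : x ∈ bigField θ s) :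
    σ x ∈ bigField θ s := by
  have hle : bigField θ s ≤ (bigField θ s).comap (σ : Qb →ₐ[ℚ] Qb) := by
    have h1 : ({θ, s} : Set Qb) ⊆ ((bigField θ s).comap (σ : Qb →ₐ[ℚ] Qb) : Set Qb) := by
      rintro y (rfl | rfl)
      · show σ y ∈ bigField y s
        rw [hθ]
        exact theta_mem_bigField y s
      · show σ y ∈ bigField θ y
        rw [hσs]
        exact neg_mem (s_mem_bigField θ y)
    exact IntermediateField.adjoin_le_iff.mpr h1
  exact hle hx

theorem sigma_sigma (hθ : σ θ = θ) (hσs : σ s = -s) {x : Qb} (hx : x ∈ bigField θ s) :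
    σ (σ x) = x := by
  have hle : bigField θ s ≤ IntermediateField.fixedField (Subgroup.zpowers (σ * σ)) := by
    have h1 : ({θ, s} : Set Qb) ⊆
        (IntermediateField.fixedField (Subgroup.zpowers (σ * σ)) : Set Qb) := by
      rintro y (rfl | rfl)
      · rw [SetLike.mem_coe, mem_fixedField_zpowers]
        show σ (σ y) = y
        rw [hθ, hθ]
      · rw [SetLike.mem_coe, mem_fixedField_zpowers]
        show σ (σ y) = y
        rw [hσs, map_neg, hσs, neg_neg]
    exact IntermediateField.adjoin_le_iff.mpr h1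
  have h2 := hle hx
  rw [mem_fixedField_zpowers] at h2
  exact h2

/-- The restriction of `σ` to `E'`. -/
noncomputable def conjField (hθ : σ θ = θ) (hσs : σ s = -s) : bigField θ s →+* bigField θ s where
  toFun x := ⟨σ x, sigma_mem_bigField hθ hσs x.2⟩
  map_one' := Subtype.ext (map_one σ)
  map_mul' x y := Subtype.ext (map_mul σ (x : Qb) (y : Qb))
  map_zero' := Subtype.ext (map_zero σ)
  map_add' x y := Subtype.ext (map_add σ (x : Qb) (y : Qb))

/-- The inclusion `𝓞 E → 𝓞 E'`. -/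
noncomputable def jInt (θ s : Qb) (σ : Qb ≃ₐ[ℚ] Qb) : 𝓞 (smallField θ s σ) →+* 𝓞 (bigField θ s) :=
  RingOfIntegers.mapRingHom
    ((IntermediateField.inclusion (smallField_le θ s σ)) : smallField θ s σ →+* bigField θ s)

/-- The conjugation on `𝓞 E'`. -/
noncomputable def gInt (hθ : σ θ = θ) (hσs : σ s = -s) : 𝓞 (bigField θ s) →+* 𝓞 (bigField θ s) :=
  RingOfIntegers.mapRingHom (conjField hθ hσs)

theorem toQb_jInt (x : 𝓞 (smallField θ s σ)) :
    toQb (bigField θ s) (jInt θ s σ x) = toQb (smallField θ s σ) x := by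
  unfold jInt toQb
  rw [RingHom.comp_apply, ← RingOfIntegers.coe_eq_algebraMap, RingOfIntegers.mapRingHom_apply]
  rfl

theorem toQb_gInt (hθ : σ θ = θ) (hσs : σ s = -s) (y : 𝓞 (bigField θ s)) :
    toQb (bigField θ s) (gInt hθ hσs y) = σ (toQb (bigField θ s) y) := by
  unfold gInt toQb
  rw [RingHom.comp_apply, ← RingOfIntegers.coe_eq_algebraMap, RingOfIntegers.mapRingHom_apply]
  rfl

theorem jInt_injective : Function.Injective (jInt θ s σ) := by
  intro x y h
  apply toQb_injective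
  rw [← toQb_jInt, ← toQb_jInt, h]

/-- Lying over for `𝓞 E → 𝓞 E'`. -/
theorem exists_prime_above (𝔮 : Ideal (𝓞 (smallField θ s σ))) [𝔮.IsPrime] :
    ∃ 𝔔 : Ideal (𝓞 (bigField θ s)), 𝔔.IsPrime ∧ 𝔔.comap (jInt θ s σ) = 𝔮 := by
  let _ : Algebra (𝓞 (smallField θ s σ)) (𝓞 (bigField θ s)) := (jInt θ s σ).toAlgebra
  have hint : Algebra.IsIntegral (𝓞 (smallField θ s σ)) (𝓞 (bigField θ s)) :=
    ⟨fun y => (RingOfIntegers.isIntegral y).tower_top⟩
  have hker : RingHom.ker (algebraMap (𝓞 (smallField θ s σ)) (𝓞 (bigField θ s))) ≤ 𝔮 := by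
    have h1 : RingHom.ker (jInt θ s σ) = ⊥ :=
      (RingHom.injective_iff_ker_eq_bot _).mp jInt_injective
    show RingHom.ker (jInt θ s σ) ≤ 𝔮
    rw [h1]
    exact bot_le
  exact Ideal.exists_ideal_over_prime_of_isIntegral_of_isDomain 𝔮 hker

/-- **Auxiliary prime.**  Let `θ` be an algebraic number fixed by an automorphism `σ` which moves
a square root `s` of the integer `D`.  Then for all `P, Q ∈ ℤ[X]` with `P(θ) = 0 ≠ Q(θ)` and
every finite set `T` of natural numbers there is a prime `q ∉ T` modulo which `D` is not a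
square, together with an integer `t` such that `q ∣ P(t)` and `q ∤ Q(t)`. -/
theorem exists_aux_prime (θ : Qb) (σ : Qb ≃ₐ[ℚ] Qb) (hθ : σ θ = θ) (D : ℤ) (s : Qb)
    (hs : s ^ 2 = (D : Qb)) (hσs : σ s ≠ s) (P Q : ℤ[X]) (hP : aeval θ P = 0)
    (hQ : aeval θ Q ≠ 0) (T : Finset ℕ) :
    ∃ q : ℕ, q.Prime ∧ q ∉ T ∧ ¬ IsSquare ((D : ℤ) : ZMod q) ∧
      ∃ t : ℤ, (q : ℤ) ∣ P.eval t ∧ ¬ (q : ℤ) ∣ Q.eval t := by
  -- `σ s = -s`, `s ≠ 0`, `D ≠ 0`
  have hσs' : σ s = -s := by
    have h1 : (σ s) ^ 2 = s ^ 2 := by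
      rw [← map_pow, hs, map_intCast]
    have h2 : (σ s - s) * (σ s + s) = 0 := by linear_combination h1
    rcases mul_eq_zero.mp h2 with h3 | h3
    · exact absurd (sub_eq_zero.mp h3) hσs
    · exact eq_neg_of_add_eq_zero_left h3
  have hs0 : s ≠ 0 := by
    rintro rfl
    exact hσs (map_zero σ)
  have hD0 : D ≠ 0 := by
    rintro rfl
    apply hs0
    have h1 : s ^ 2 = 0 := by rw [hs]; simp
    exact pow_eq_zero_iff (two_ne_zero) |>.mp h1
  -- an integer `a ≠ 0` with `a θ` integral, and `α ∈ 𝓞 E` representing `a θ`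
  obtain ⟨a, ha0, haint⟩ : ∃ a : ℤ, a ≠ 0 ∧ IsIntegral ℤ (a • θ) := by
    have h1 := (AlgebraicClosure.isAlgebraic ℚ).isAlgebraic θ
    have h2 : IsAlgebraic ℤ θ := (IsFractionRing.isAlgebraic_iff ℤ ℚ Qb).mpr h1
    obtain ⟨y, hy, h⟩ := h2.exists_integral_multiple
    exact ⟨y, hy, h⟩
  have hθE : θ ∈ smallField θ s σ := (mem_smallField θ s σ).mpr ⟨theta_mem_bigField θ s, hθ⟩
  obtain ⟨α, hα⟩ := exists_toQb_eq (smallField θ s σ) (a • θ) (zsmul_mem hθE a) haint
  have hαθ : toQb (smallField θ s σ) α = algebraMap ℤ Qb a * θ := by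
    rw [hα, zsmul_eq_mul]; rfl
  -- the two polynomial values at `α`
  have hPα : aeval α (P.scaleRoots a) = 0 := by
    apply toQb_injective
    rw [toQb_aeval, hαθ, map_zero]
    exact scaleRoots_aeval_eq_zero hP
  set β : 𝓞 (smallField θ s σ) := aeval α (Q.scaleRoots a) with hβdef
  have hβ : β ≠ 0 := by
    intro h0
    have h1 : toQb (smallField θ s σ) β = 0 := by rw [h0, map_zero]
    rw [hβdef, toQb_aeval, hαθ] at h1
    have h2 := scaleRoots_eval₂_mul (p := Q) (algebraMap ℤ Qb) θ a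
    have h3 : aeval (algebraMap ℤ Qb a * θ) (Q.scaleRoots a)
        = algebraMap ℤ Qb a ^ Q.natDegree * aeval θ Q := h2
    rw [h3] at h1
    have h5 : algebraMap ℤ Qb a ≠ 0 := by
      rw [eq_intCast]
      exact Int.cast_ne_zero.mpr ha0
    rcases mul_eq_zero.mp h1 with h4 | h4
    · exact pow_ne_zero _ h5 h4
    · exact hQ h4
  -- the integral square root of `D` in `𝓞 E'`
  have hsint : IsIntegral ℤ s := by
    refine ⟨X ^ 2 - C D, monic_X_pow_sub_C D (by norm_num), ?_⟩
    rw [eval₂_sub, eval₂_pow, eval₂_X, eval₂_C, hs, eq_intCast, sub_self]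
  obtain ⟨sI, hsI⟩ := exists_toQb_eq (bigField θ s) s (s_mem_bigField θ s) hsint
  have hsI2 : sI ^ 2 = (D : 𝓞 (bigField θ s)) := by
    apply toQb_injective
    rw [map_pow, hsI, hs, map_intCast]
  have hgsI : gInt hθ hσs' sI = -sI := by
    apply toQb_injective
    rw [toQb_gInt, map_neg, hsI, hσs']
  have hfix : ∀ y : 𝓞 (bigField θ s), gInt hθ hσs' y = y → ∃ x, jInt θ s σ x = y := by
    intro y hy
    have h1 : σ (toQb (bigField θ s) y) = toQb (bigField θ s) y := by
      rw [← toQb_gInt hθ hσs', hy]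
    have h2 : toQb (bigField θ s) y ∈ smallField θ s σ :=
      (mem_smallField θ s σ).mpr ⟨toQb_mem _ y, h1⟩
    obtain ⟨x, hx⟩ := exists_toQb_eq (smallField θ s σ) _ h2 (isIntegral_toQb _ y)
    refine ⟨x, ?_⟩
    apply toQb_injective
    rw [toQb_jInt, hx]
  have hinv : ∀ y : 𝓞 (bigField θ s), gInt hθ hσs' (gInt hθ hσs' y) = y := by
    intro y
    apply toQb_injective
    rw [toQb_gInt, toQb_gInt]
    exact sigma_sigma hθ hσs' (toQb_mem _ y)
  have hgj : ∀ x : 𝓞 (smallField θ s σ), gInt hθ hσs' (jInt θ s σ x) = jInt θ s σ x := by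
    intro x
    apply toQb_injective
    rw [toQb_gInt, toQb_jInt]
    exact ((mem_smallField θ s σ).mp (toQb_mem _ x)).2
  -- the finite set of excluded primes
  set nβ : ℕ := Ideal.absNorm (Ideal.span {β}) with hnβ
  have hnβ0 : nβ ≠ 0 := by
    rw [hnβ, Ne, Ideal.absNorm_eq_zero_iff, Ideal.span_singleton_eq_bot]
    exact hβ
  let T' : Finset ℕ := T ∪ a.natAbs.primeFactors ∪ (2 * D).natAbs.primeFactors ∪ nβ.primeFactors
  have hFfin : {I : Ideal (𝓞 (smallField θ s σ)) | Ideal.absNorm I ∈ T'}.Finite := by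
    have h1 : {I : Ideal (𝓞 (smallField θ s σ)) | Ideal.absNorm I ∈ T'}
        = ⋃ n ∈ (T' : Set ℕ), {I | Ideal.absNorm I = n} := by
      ext I
      simp
    rw [h1]
    exact Set.Finite.biUnion T'.finite_toSet (fun n _ => Ideal.finite_setOfPred_absNorm_eq n)
  obtain ⟨𝔮, h𝔮p, -, h𝔮F, hℓ, huniq⟩ :=
    Fermat.Agent.S14.helper694.exists_prime_atMostOne_above (smallField θ s σ) (bigField θ s)
      hFfin.toFinset (Ideal.comap (jInt θ s σ))
  set ℓ : ℕ := Ideal.absNorm 𝔮 with hℓdef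
  have hℓT' : ℓ ∉ T' := fun h => h𝔮F (hFfin.mem_toFinset.mpr h)
  simp only [T', Finset.mem_union, not_or] at hℓT'
  obtain ⟨⟨⟨hℓT, hℓa⟩, hℓD⟩, hℓβ⟩ := hℓT'
  have hℓZ : Prime (ℓ : ℤ) := Nat.prime_iff_prime_int.mp hℓ
  have hℓa' : ¬ (ℓ : ℤ) ∣ a := by
    intro h
    apply hℓa
    rw [Nat.mem_primeFactors]
    exact ⟨hℓ, Int.natCast_dvd.mp h, Int.natAbs_ne_zero.mpr ha0⟩
  have hℓD' : ¬ (ℓ : ℤ) ∣ 2 * D := by
    intro h
    apply hℓD
    rw [Nat.mem_primeFactors]
    exact ⟨hℓ, Int.natCast_dvd.mp h, Int.natAbs_ne_zero.mpr (mul_ne_zero two_ne_zero hD0)⟩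
  have hℓβ' : ¬ ℓ ∣ nβ := by
    intro h
    apply hℓβ
    rw [Nat.mem_primeFactors]
    exact ⟨hℓ, h, hnβ0⟩
  -- `𝔮` is of degree one
  have hdeg : IsDegOne 𝔮 ℓ := isDegOne_of_card hℓ (by
    rw [hℓdef, Ideal.absNorm_apply, Submodule.cardQuot_apply])
  obtain ⟨t, ht⟩ := hdeg.exists_eval hℓ a hℓa' α
  refine ⟨ℓ, hℓ, hℓT, ?_, t, ?_, ?_⟩
  · -- `D` is not a square modulo `ℓ`
    rintro ⟨r, hr⟩
    set c : ℤ := (r.cast : ℤ) with hcdef
    have hcr : ((c : ℤ) : ZMod ℓ) = r := ZMod.intCast_zmod_cast r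
    have hc : (ℓ : ℤ) ∣ D - c ^ 2 := by
      rw [← ZMod.intCast_zmod_eq_zero_iff_dvd]
      push_cast
      rw [hcr, hr]
      ring
    have hc2 : ¬ (ℓ : ℤ) ∣ 2 * c := by
      intro h
      apply hℓD'
      rcases hℓZ.dvd_or_dvd h with h2 | h2
      · exact Dvd.dvd.mul_right h2 D
      · have h3 : (ℓ : ℤ) ∣ D := by
          have h4 : D = (D - c ^ 2) + c * c := by ring
          rw [h4]
          exact dvd_add hc (Dvd.dvd.mul_right h2 c)
        exact Dvd.dvd.mul_left h3 2
    obtain ⟨𝔔, h𝔔p, h𝔔c⟩ := exists_prime_above (θ := θ) (s := s) (σ := σ) 𝔮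
    obtain ⟨hdeg1, hne⟩ := hdeg.above hℓ (jInt θ s σ) (gInt hθ hσs') hfix hinv D sI hsI2 hgsI
      c hc hc2 𝔔 h𝔔c
    have h𝔔2p : (𝔔.comap (gInt hθ hσs')).IsPrime := Ideal.comap_isPrime _ _
    have h𝔔2c : (𝔔.comap (gInt hθ hσs')).comap (jInt θ s σ) = 𝔮 := by
      rw [Ideal.comap_comap]
      have h1 : (gInt hθ hσs').comp (jInt θ s σ) = jInt θ s σ := RingHom.ext hgj
      rw [h1, h𝔔c]
    obtain ⟨hdeg2, -⟩ := hdeg.above hℓ (jInt θ s σ) (gInt hθ hσs') hfix hinv D sI hsI2 hgsI
      c hc hc2 (𝔔.comap (gInt hθ hσs')) h𝔔2c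
    have hn1 : Ideal.absNorm 𝔔 = Ideal.absNorm 𝔮 := by
      rw [Ideal.absNorm_apply, Submodule.cardQuot_apply, hdeg1.card_quotient]
    have hn2 : Ideal.absNorm (𝔔.comap (gInt hθ hσs')) = Ideal.absNorm 𝔮 := by
      rw [Ideal.absNorm_apply, Submodule.cardQuot_apply, hdeg2.card_quotient]
    exact hne (huniq _ _ h𝔔2p h𝔔p h𝔔2c h𝔔c hn2 hn1)
  · -- `ℓ ∣ P(t)`
    rw [← ht, hPα]
    exact 𝔮.zero_mem
  · -- `ℓ ∤ Q(t)`
    intro h
    rw [← ht] at h
    have h1 : Ideal.span {β} ≤ 𝔮 := (Ideal.span_singleton_le_iff_mem 𝔮).mpr h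
    exact hℓβ' (Ideal.absNorm_dvd_absNorm_of_le h1)

end Fields

end Fermat.Agent.S52.helper1678
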