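/-
S52, block (AUXP) = hypothesis `hB` of `Fermat.Agent.S52.helper712.endgame`  (helper52).

Hypothesis-passing glue, family-agnostic (`C4 C6 : ℚ[X]` arbitrary):

* `RootData C4 C6`   : what block ROOT delivers (a root `θ` of `C6` with `C4 θ ≠ 0`, fixed by an
                       automorphism moving `√3`).
* `Stmt_AuxPQ`       : block AUX in the surface of `exists_aux_prime` (zeta lemma adapter).
* `HB C4 C6`         : literally the hypothesis `hB` of `helper712.endgame`.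

Compiled glue:
* `hB_of_rootData   : Stmt_AuxPQ → RootData C4 C6 → HB C4 C6`
* `hB_of_coprime    : Stmt_Aux → IsCoprime C4 C6 → C6 ≠ 0 → MovesSqrt3 C6 → HB C4 C6`
* `rootData_of_line : ` the output of the ROOT lemmas on a line `s ↦ A + s B` of `Qb²`
                       + the LINK identities ⟹ `RootData C4 C6`.
* `aux_of_auxPQ     : Stmt_AuxPQ → Stmt_Aux`.
-/
import Mathlib
import Fermat.Agent.S52.helper52_Spec

set_option autoImplicit false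

open Polynomial

namespace Fermat.Agent.S52.helper52

/-- Output of block ROOT for the family `(C4, C6)`: a root `θ` of `C6` which is not a root of
`C4`, fixed by some automorphism which moves a square root of `3`. -/
def RootData (C4 C6 : ℚ[X]) : Prop :=
  ∃ (θ : Qb) (σ : GQ), aeval θ C6 = 0 ∧ aeval θ C4 ≠ 0 ∧ σ θ = θ ∧
    ∃ r : Qb, r ^ 2 = 3 ∧ σ r ≠ r

/-- Literally the hypothesis `hB` of `Fermat.Agent.S52.helper712.endgame`. -/
def HB (C4 C6 : ℚ[X]) : Prop :=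
  ∀ N₁ : ℤ, N₁ ≠ 0 → ∃ (q : ℕ) (tq : ℤ), q.Prime ∧ ¬ (q : ℤ) ∣ N₁ ∧
    ¬ IsSquare (3 : ZMod q) ∧ ∀ t z₄ z₆ : ℤ, t ≡ tq [ZMOD q] →
      C4.eval (t : ℚ) = (z₄ : ℚ) → C6.eval (t : ℚ) = (z₆ : ℚ) →
        (q : ℤ) ∣ z₆ ∧ ¬ (q : ℤ) ∣ z₄

/-- BLOCK AUX in the `exists_aux_prime` surface (curve-free zeta lemma adapter). -/
def Stmt_AuxPQ : Prop :=
  ∀ (θ : Qb) (σ : GQ), σ θ = θ → ∀ (D : ℤ) (s : Qb), s ^ 2 = (D : Qb) → σ s ≠ s →
    ∀ P Q : ℤ[X], aeval θ P = 0 → aeval θ Q ≠ 0 → ∀ T : Finset ℕ,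
      ∃ q : ℕ, q.Prime ∧ q ∉ T ∧ ¬ IsSquare ((D : ℤ) : ZMod q) ∧
        ∃ t : ℤ, (q : ℤ) ∣ P.eval t ∧ ¬ (q : ℤ) ∣ Q.eval t

/-- `aeval` of a cleared polynomial. -/
theorem aeval_cleared {p : ℚ[X]} {d : ℤ} {P : ℤ[X]}
    (hP : P.map (Int.castRingHom ℚ) = C (d : ℚ) * p) (θ : Qb) :
    aeval θ P = (d : Qb) * aeval θ p := by
  have h1 : aeval θ P = aeval θ (P.map (Int.castRingHom ℚ)) := by
    have : Int.castRingHom ℚ = algebraMap ℤ ℚ := rfl
    rw [this, aeval_map_algebraMap]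
  rw [h1, hP, map_mul, aeval_C]
  simp

/-- Divisibility of an integer value of a rational polynomial, read on the cleared polynomial. -/
theorem dvd_cleared_iff {p : ℚ[X]} {d : ℤ} {P : ℤ[X]}
    (hP : P.map (Int.castRingHom ℚ) = C (d : ℚ) * p) {q : ℕ} (hq : q.Prime)
    (hqd : ¬ (q : ℤ) ∣ d) (t z : ℤ) (hz : p.eval (t : ℚ) = (z : ℚ)) :
    (q : ℤ) ∣ P.eval t ↔ (q : ℤ) ∣ z := by
  have h1 : P.eval t = d * z := by
    have := eval_cleared hP t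
    rw [hz] at this
    exact_mod_cast this
  rw [h1]
  constructor
  · intro h
    exact ((Nat.prime_iff_prime_int.mp hq).dvd_or_dvd h).resolve_left hqd
  · intro h
    exact Dvd.dvd.mul_left h d

/-- Divisibility of `P.eval t` by `q` only depends on `t` modulo `q`. -/
theorem dvd_eval_congr (P : ℤ[X]) (q : ℕ) {t t0 : ℤ} (h : t ≡ t0 [ZMOD q]) :
    (q : ℤ) ∣ P.eval t ↔ (q : ℤ) ∣ P.eval t0 := by
  have h1 : (q : ℤ) ∣ P.eval t - P.eval t0 :=
    dvd_trans (Int.ModEq.dvd h.symm) (Polynomial.sub_dvd_eval_sub t t0 P)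
  constructor
  · intro h2
    have := dvd_sub h2 h1
    simpa using this
  · intro h2
    have := dvd_add h1 h2
    simpa using this

/-- **(AUXP) glue, main form**: ROOT + AUX ⟹ `hB` of `helper712.endgame`. -/
theorem hB_of_rootData (hAux : Stmt_AuxPQ) (C4 C6 : ℚ[X]) (hroot : RootData C4 C6) :
    HB C4 C6 := by
  obtain ⟨θ, σ, h6, h4, hσ, r, hr, hσr⟩ := hroot
  obtain ⟨d4, P4, hd4, hP4⟩ := exists_int_poly C4
  obtain ⟨d6, P6, hd6, hP6⟩ := exists_int_poly C6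
  intro N₁ hN₁
  have hP6θ : aeval θ P6 = 0 := by rw [aeval_cleared hP6, h6, mul_zero]
  have hP4θ : aeval θ P4 ≠ 0 := by
    rw [aeval_cleared hP4]
    exact mul_ne_zero (by exact_mod_cast hd4) h4
  have hne : N₁ * d4 * d6 ≠ 0 := mul_ne_zero (mul_ne_zero hN₁ hd4) hd6
  obtain ⟨q, hq, hqT, hsq, t0, ht6, ht4⟩ :=
    hAux θ σ hσ 3 r (by rw [hr]; norm_num) hσr P6 P4 hP6θ hP4θ
      (N₁ * d4 * d6).natAbs.primeFactors
  have hqdvd : ¬ (q : ℤ) ∣ N₁ * d4 * d6 := by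
    intro h
    apply hqT
    rw [Nat.mem_primeFactors]
    exact ⟨hq, Int.natCast_dvd.mp h, Int.natAbs_ne_zero.mpr hne⟩
  have hqN : ¬ (q : ℤ) ∣ N₁ := fun h => hqdvd (Dvd.dvd.mul_right (Dvd.dvd.mul_right h d4) d6)
  have hq4 : ¬ (q : ℤ) ∣ d4 := fun h => hqdvd (Dvd.dvd.mul_right (Dvd.dvd.mul_left h N₁) d6)
  have hq6 : ¬ (q : ℤ) ∣ d6 := fun h => hqdvd (Dvd.dvd.mul_left h (N₁ * d4))
  refine ⟨q, t0, hq, hqN, by simpa using hsq, ?_⟩
  intro t z₄ z₆ ht hz4 hz6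
  constructor
  · rw [← dvd_cleared_iff hP6 hq hq6 t z₆ hz6, dvd_eval_congr P6 q ht]
    exact ht6
  · rw [← dvd_cleared_iff hP4 hq hq4 t z₄ hz4, dvd_eval_congr P4 q ht]
    exact ht4

/-- `Stmt_AuxPQ` implies the `P`-only form `Stmt_Aux` of `helper52_Spec`. -/
theorem aux_of_auxPQ (hAux : Stmt_AuxPQ) : Stmt_Aux := by
  intro P θ _ hPθ ⟨σ, hσ, r, hr, hσr⟩ B
  obtain ⟨q, hq, hqT, hsq, t0, ht, -⟩ :=
    hAux θ σ hσ 3 r (by rw [hr]; norm_num) hσr P 1 hPθ (by simp) (Finset.range (B + 1))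
  refine ⟨q, hq, ?_, by simpa using hsq, t0, ht⟩
  rw [Finset.mem_range] at hqT
  omega

/-- **(AUXP) glue, coprime form**: the `P`-only AUX statement + coprimality of `C4`, `C6`
+ a root of `C6` fixed by an automorphism moving `√3` ⟹ `hB`. -/
theorem hB_of_coprime (hAux : Stmt_Aux) (C4 C6 : ℚ[X]) (hcop : IsCoprime C4 C6)
    (hC6 : C6 ≠ 0) (hroot : MovesSqrt3 C6) : HB C4 C6 := by
  obtain ⟨θ, hθ, σ, hσ, r, hr, hσr⟩ := hroot
  obtain ⟨A, B, hAB⟩ := hcop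
  obtain ⟨d4, P4, hd4, hP4⟩ := exists_int_poly C4
  obtain ⟨d6, P6, hd6, hP6⟩ := exists_int_poly C6
  obtain ⟨dA, PA, hdA, hPA⟩ := exists_int_poly A
  obtain ⟨dB, PB, hdB, hPB⟩ := exists_int_poly B
  intro N₁ hN₁
  have hP6ne : P6 ≠ 0 := by
    rintro rfl
    rw [Polynomial.map_zero] at hP6
    rcases mul_eq_zero.mp hP6.symm with h | h
    · rw [C_eq_zero] at h
      exact hd6 (by exact_mod_cast h)
    · exact hC6 h
  have hP6θ : aeval θ P6 = 0 := by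
    rw [aeval_cleared hP6]
    rw [hθ, mul_zero]
  -- the integral Bezout identity
  have hbez : ∀ t : ℤ, dB * d6 * (PA.eval t * P4.eval t) + dA * d4 * (PB.eval t * P6.eval t)
      = dA * d4 * dB * d6 := by
    intro t
    have h1 := eval_cleared hP4 t
    have h2 := eval_cleared hP6 t
    have h3 := eval_cleared hPA t
    have h4 := eval_cleared hPB t
    have h5 : A.eval (t : ℚ) * C4.eval (t : ℚ) + B.eval (t : ℚ) * C6.eval (t : ℚ) = 1 := by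
      have := congrArg (Polynomial.eval (t : ℚ)) hAB
      simpa using this
    have : ((dB * d6 * (PA.eval t * P4.eval t) + dA * d4 * (PB.eval t * P6.eval t) : ℤ) : ℚ)
        = ((dA * d4 * dB * d6 : ℤ) : ℚ) := by
      push_cast
      rw [h1, h2, h3, h4]
      linear_combination (dA : ℚ) * d4 * dB * d6 * h5
    exact_mod_cast this
  set M : ℤ := N₁ * (dA * d4 * dB * d6) with hM
  have hM0 : M ≠ 0 :=
    mul_ne_zero hN₁ (mul_ne_zero (mul_ne_zero (mul_ne_zero hdA hd4) hdB) hd6)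
  obtain ⟨q, hq, hqB, hsq, t0, ht6⟩ := hAux P6 θ hP6ne hP6θ ⟨σ, hσ, r, hr, hσr⟩ M.natAbs
  have hqM : ¬ (q : ℤ) ∣ M := by
    intro h
    have h1 : q ∣ M.natAbs := Int.natCast_dvd.mp h
    have h2 := Nat.le_of_dvd (Nat.pos_of_ne_zero (Int.natAbs_ne_zero.mpr hM0)) h1
    omega
  have hqN : ¬ (q : ℤ) ∣ N₁ := fun h => hqM (Dvd.dvd.mul_right h _)
  have hqd : ¬ (q : ℤ) ∣ dA * d4 * dB * d6 := fun h => hqM (Dvd.dvd.mul_left h _)
  have hq4 : ¬ (q : ℤ) ∣ d4 := fun h =>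
    hqd (Dvd.dvd.mul_right (Dvd.dvd.mul_right (Dvd.dvd.mul_left h dA) dB) d6)
  have hq6 : ¬ (q : ℤ) ∣ d6 := fun h => hqd (Dvd.dvd.mul_left h _)
  refine ⟨q, t0, hq, hqN, hsq, ?_⟩
  intro t z₄ z₆ ht hz4 hz6
  have h6t : (q : ℤ) ∣ P6.eval t := (dvd_eval_congr P6 q ht).mpr ht6
  constructor
  · exact (dvd_cleared_iff hP6 hq hq6 t z₆ hz6).mp h6t
  · intro h4
    have h4t : (q : ℤ) ∣ P4.eval t := (dvd_cleared_iff hP4 hq hq4 t z₄ hz4).mpr h4
    apply hqd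
    rw [← hbez t]
    exact dvd_add (Dvd.dvd.mul_left (Dvd.dvd.mul_left h4t _) _)
      (Dvd.dvd.mul_left (Dvd.dvd.mul_left h6t _) _)

/-- **ROOT ⟹ `RootData`**: the conclusion of the ROOT lemmas (a zero of the form `kT` on the
line `s ↦ A + s B`, fixed by an automorphism moving `√3`) together with the LINK identities
(`kH`, `kT` along the line are `C4`, `C6` up to nonzero constants), the fact that `kH`, `kT` have
no common nontrivial zero, and `det [A, B] ≠ 0`. -/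
theorem rootData_of_line (C4 C6 : ℚ[X]) (kH kT : Qb → Qb → Qb) (a1 a2 b1 b2 κ4 κ6 : Qb)
    (hlink4 : ∀ t : Qb, aeval t C4 = κ4 * kH (a1 + t * b1) (a2 + t * b2))
    (hlink6 : ∀ t : Qb, aeval t C6 = κ6 * kT (a1 + t * b1) (a2 + t * b2))
    (hzero : ∀ u v : Qb, kH u v = 0 → kT u v = 0 → u = 0 ∧ v = 0)
    (hdet : a1 * b2 - a2 * b1 ≠ 0)
    (hκ4 : κ4 ≠ 0)
    (hroot : ∃ (θ : Qb) (σ : GQ), kT (a1 + θ * b1) (a2 + θ * b2) = 0 ∧ σ θ = θ ∧
      ∃ r : Qb, r ^ 2 = 3 ∧ σ r ≠ r) :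
    RootData C4 C6 := by
  obtain ⟨θ, σ, hT, hσ, hr⟩ := hroot
  refine ⟨θ, σ, ?_, ?_, hσ, hr⟩
  · rw [hlink6, hT, mul_zero]
  · rw [hlink4]
    intro h
    have hH : kH (a1 + θ * b1) (a2 + θ * b2) = 0 := (mul_eq_zero.mp h).resolve_left hκ4
    obtain ⟨h1, h2⟩ := hzero _ _ hH hT
    apply hdet
    linear_combination b2 * h1 - b1 * h2

end Fermat.Agent.S52.helper52
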