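/-
S52 helper (helper1678): block AUX of the S52 plan, in the surfaces of `helper52_AuxP` /
`helper52_Spec`, discharged by `helper1678.exists_aux_prime` (zeta lemma adapter).
-/
import Mathlib
import Fermat.Agent.S52.helper1678_AuxPrime
import Fermat.Agent.S52.helper52_AuxP

set_option autoImplicit false

namespace Fermat.Agent.S52.helper1678

open Polynomial

/-- Block AUX in the `exists_aux_prime` surface. -/
theorem stmt_AuxPQ : Fermat.Agent.S52.helper52.Stmt_AuxPQ :=
  fun θ σ hθ D s hs hσs P Q hP hQ T => exists_aux_prime θ σ hθ D s hs hσs P Q hP hQ T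

/-- Block AUX in the surface of `helper52_Spec`. -/
theorem stmt_Aux : Fermat.Agent.S52.helper52.Stmt_Aux :=
  Fermat.Agent.S52.helper52.aux_of_auxPQ stmt_AuxPQ

/-- The hypothesis `hB` of `helper712.endgame` from the output of block ROOT. -/
theorem hB_of_rootData (C4 C6 : ℚ[X]) (hroot : Fermat.Agent.S52.helper52.RootData C4 C6) :
    Fermat.Agent.S52.helper52.HB C4 C6 :=
  Fermat.Agent.S52.helper52.hB_of_rootData stmt_AuxPQ C4 C6 hroot

end Fermat.Agent.S52.helper1678
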