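/-
S52 / (L1) Frobenius Cayley–Hamilton, leaf H4 (backup copy): the CURVE-LEVEL PARALLELOGRAM LAW

For a twisted short Weierstrass curve `Y² = X³ + A λ² X + B λ³` over an arbitrary field `K` of
characteristic `≠ 2`, and an arbitrary function `ht : K → ℕ` which satisfies the two `x`-level
laws (H2: parallelogram, H3: duplication) and vanishes on the roots of `x³ + A x + B`, the
function `ptHt P := ht (X(P)/λ)` (`0` at the point at infinity) satisfies
`ptHt (P + Q) + ptHt (P - Q) = 2 ptHt P + 2 ptHt Q` for ALL points `P`, `Q`.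

Everything is hypothesis-passing: no rational functions appear, so the result plugs into any
`x`-level height file.  The curve is an arbitrary `W` with prescribed coefficients (so that any
literal spelling of the twisted curve is accepted by `rfl`/`ring` side goals).
-/
import Mathlib
import Fermat.Agent.S05.helper1745_XOnly

set_option autoImplicit false

namespace Fermat.Agent.S52.helper1844

open WeierstrassCurve WeierstrassCurve.Affine

variable {K : Type*} [Field K]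

/-- Height of a point in twist coordinates: `0` at infinity, `ht (X / λ)` at `(X, Y)`. -/
def ptHt {W : Affine K} (lam : K) (ht : K → ℕ) : W.Point → ℕ
  | .zero => 0
  | .some X _ _ => ht (X / lam)

@[simp] theorem ptHt_zero {W : Affine K} (lam : K) (ht : K → ℕ) :
    ptHt lam ht (0 : W.Point) = 0 := rfl

@[simp] theorem ptHt_some {W : Affine K} (lam : K) (ht : K → ℕ) {X Y : K}
    (h : W.Nonsingular X Y) : ptHt lam ht (Point.some X Y h) = ht (X / lam) := rfl

@[simp] theorem ptHt_neg {W : Affine K} (lam : K) (ht : K → ℕ) (P : W.Point) :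
    ptHt lam ht (-P) = ptHt lam ht P := by
  rcases P with _ | ⟨X, Y, h⟩
  · rfl
  · rw [Point.neg_some]; rfl

section law

variable [DecidableEq K] {W : Affine K} {A B lam : K}

omit [DecidableEq K] in
/-- The `b`-invariants of the twisted short curve. -/
private theorem b_invs (h1 : W.a₁ = 0) (h2 : W.a₂ = 0) (h3 : W.a₃ = 0)
    (h4 : W.a₄ = A * lam ^ 2) (h6 : W.a₆ = B * lam ^ 3) :
    W.b₂ = 0 ∧ W.b₄ = 2 * (A * lam ^ 2) ∧ W.b₆ = 4 * (B * lam ^ 3) ∧
      W.b₈ = -(A * lam ^ 2) ^ 2 := by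
  refine ⟨?_, ?_, ?_, ?_⟩
  · simp only [WeierstrassCurve.b₂, h1, h2]; ring
  · simp only [WeierstrassCurve.b₄, h1, h3, h4]; ring
  · simp only [WeierstrassCurve.b₆, h3, h6]; ring
  · simp only [WeierstrassCurve.b₈, h1, h2, h3, h4]; ring

/-- **Duplication at the curve level**: `ptHt (P + P) = 4 ptHt P` for every point. -/
theorem ptHt_add_self (hlam : lam ≠ 0) (htwo : (2 : K) ≠ 0)
    (h1 : W.a₁ = 0) (h2 : W.a₂ = 0) (h3 : W.a₃ = 0)
    (h4 : W.a₄ = A * lam ^ 2) (h6 : W.a₆ = B * lam ^ 3) (ht : K → ℕ)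
    (H3 : ∀ x x' : K, x ^ 3 + A * x + B ≠ 0 →
      x' * (4 * (x ^ 3 + A * x + B)) = (x ^ 2 - A) ^ 2 - 8 * B * x → ht x' = 4 * ht x)
    (H0 : ∀ x : K, x ^ 3 + A * x + B = 0 → ht x = 0) (P : W.Point) :
    ptHt lam ht (P + P) = 4 * ptHt lam ht P := by
  obtain ⟨hb2, hb4, hb6, hb8⟩ := b_invs (W := W) h1 h2 h3 h4 h6
  have h4ne : (4 : K) ≠ 0 := by
    have : (4 : K) = 2 * 2 := by norm_num
    rw [this]; exact mul_ne_zero htwo htwo
  rcases P with _ | ⟨X, Y, h⟩
  · change ptHt lam ht ((0 : W.Point) + 0) = 4 * ptHt lam ht (0 : W.Point)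
    simp
  · -- the cubic factor in twist coordinates
    have hcub : 4 * X ^ 3 + W.b₂ * X ^ 2 + 2 * W.b₄ * X + W.b₆ =
        4 * lam ^ 3 * ((X / lam) ^ 3 + A * (X / lam) + B) := by
      rw [hb2, hb4, hb6]; field_simp; ring
    by_cases hy : Y = W.negY X Y
    · -- 2-torsion: `P + P = 0` and `x(P)` is a root of the cubic
      have h0 : 4 * X ^ 3 + W.b₂ * X ^ 2 + 2 * W.b₄ * X + W.b₆ = 0 :=
        (Fermat.Agent.S05.helper1745.y_eq_negY_iff h.left).mp hy
      rw [hcub] at h0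
      have hroot : (X / lam) ^ 3 + A * (X / lam) + B = 0 := by
        rcases mul_eq_zero.mp h0 with h' | h'
        · exact absurd h' (mul_ne_zero h4ne (pow_ne_zero 3 hlam))
        · exact h'
      rw [Point.add_self_of_Y_eq hy, ptHt_zero, ptHt_some, H0 _ hroot]
    · obtain ⟨X', Y', h', hadd, hX', hne⟩ :=
        Fermat.Agent.S05.helper1745.exists_add_self_some h hy
      rw [hadd, ptHt_some, ptHt_some]
      rw [hcub] at hne hX'
      have hroot : (X / lam) ^ 3 + A * (X / lam) + B ≠ 0 := fun h0 => hne (by rw [h0, mul_zero])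
      refine H3 _ _ hroot ?_
      rw [hb4, hb6, hb8] at hX'
      have hl4 : lam ^ 4 ≠ 0 := pow_ne_zero 4 hlam
      apply mul_left_cancel₀ hl4
      have e1 : lam ^ 4 * ((X / lam) ^ 2 - A) ^ 2 = (X ^ 2 - A * lam ^ 2) ^ 2 := by
        field_simp
      have e2 : lam ^ 4 * (8 * B * (X / lam)) = 8 * B * lam ^ 3 * X := by
        field_simp
      have e3 : lam ^ 4 * (X' / lam * (4 * ((X / lam) ^ 3 + A * (X / lam) + B))) =
          X' * (4 * lam ^ 3 * ((X / lam) ^ 3 + A * (X / lam) + B)) := by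
        field_simp
      rw [e3, hX', mul_sub, e1, e2]; ring

/-- **Curve-level parallelogram law** (leaf H4), hypothesis-passing on the `x`-level laws. -/
theorem ptHt_parallelogram (hlam : lam ≠ 0) (htwo : (2 : K) ≠ 0)
    (h1 : W.a₁ = 0) (h2 : W.a₂ = 0) (h3 : W.a₃ = 0)
    (h4 : W.a₄ = A * lam ^ 2) (h6 : W.a₆ = B * lam ^ 3) (ht : K → ℕ)
    (H2 : ∀ x1 x2 x3 x4 : K, x1 ≠ x2 →
      (x3 + x4) * (x1 - x2) ^ 2 = 2 * ((x1 * x2 + A) * (x1 + x2) + 2 * B) →
      x3 * x4 * (x1 - x2) ^ 2 = (x1 * x2 - A) ^ 2 - 4 * B * (x1 + x2) →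
      ht x3 + ht x4 = 2 * ht x1 + 2 * ht x2)
    (H3 : ∀ x x' : K, x ^ 3 + A * x + B ≠ 0 →
      x' * (4 * (x ^ 3 + A * x + B)) = (x ^ 2 - A) ^ 2 - 8 * B * x → ht x' = 4 * ht x)
    (H0 : ∀ x : K, x ^ 3 + A * x + B = 0 → ht x = 0) (P Q : W.Point) :
    ptHt lam ht (P + Q) + ptHt lam ht (P - Q) = 2 * ptHt lam ht P + 2 * ptHt lam ht Q := by
  obtain ⟨hb2, hb4, hb6, hb8⟩ := b_invs (W := W) h1 h2 h3 h4 h6
  have hdbl := ptHt_add_self (W := W) hlam htwo h1 h2 h3 h4 h6 ht H3 H0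
  rcases P with _ | ⟨x₁, y₁, hP⟩
  · change ptHt lam ht ((0 : W.Point) + Q) + ptHt lam ht ((0 : W.Point) - Q) =
      2 * ptHt lam ht (0 : W.Point) + 2 * ptHt lam ht Q
    rw [zero_add, zero_sub, ptHt_neg, ptHt_zero]; ring
  rcases Q with _ | ⟨x₂, y₂, hQ⟩
  · change ptHt lam ht (Point.some x₁ y₁ hP + 0) + ptHt lam ht (Point.some x₁ y₁ hP - 0) =
      2 * ptHt lam ht (Point.some x₁ y₁ hP) + 2 * ptHt lam ht (0 : W.Point)
    rw [add_zero, sub_zero, ptHt_zero]; ring
  by_cases hx : x₁ = x₂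
  · -- `Q = ± P`
    rcases (Point.X_eq_iff (h₁ := hP) (h₂ := hQ)).mp hx with hPQ | hPQ
    · rw [hPQ, sub_self, ptHt_zero, hdbl]; ring
    · rw [hPQ, neg_add_cancel, ptHt_zero, sub_eq_add_neg, ← hPQ, hdbl, hPQ, ptHt_neg]; ring
  · obtain ⟨Xp, Yp, Xm, Ym, hp, hm, hadd, hsub, hprod, hsum⟩ :=
      Fermat.Agent.S05.helper1745.exists_add_sub_some hP hQ hx
    rw [hadd, hsub, ptHt_some, ptHt_some, ptHt_some, ptHt_some]
    have hl3 : lam ^ 3 ≠ 0 := pow_ne_zero 3 hlam
    have hl4 : lam ^ 4 ≠ 0 := pow_ne_zero 4 hlam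
    have hne : x₁ / lam ≠ x₂ / lam := fun h => hx (by
      have := congrArg (· * lam) h
      simpa [div_mul_cancel₀ _ hlam] using this)
    rw [hb4, hb6, hb8] at hprod
    rw [hb2, hb4, hb6] at hsum
    refine H2 _ _ _ _ hne ?_ ?_
    · apply mul_left_cancel₀ hl3
      have e1 : lam ^ 3 * ((Xp / lam + Xm / lam) * (x₁ / lam - x₂ / lam) ^ 2) =
          (Xp + Xm) * (x₁ - x₂) ^ 2 := by
        field_simp
      rw [e1, hsum]; field_simp; ring
    · apply mul_left_cancel₀ hl4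
      have e1 : lam ^ 4 * (Xp / lam * (Xm / lam) * (x₁ / lam - x₂ / lam) ^ 2) =
          Xp * Xm * (x₁ - x₂) ^ 2 := by
        field_simp
      rw [e1, hprod]; field_simp; ring

/-- `ptHt (2 • P) = 4 ptHt P`. -/
theorem ptHt_two_nsmul (hlam : lam ≠ 0) (htwo : (2 : K) ≠ 0)
    (h1 : W.a₁ = 0) (h2 : W.a₂ = 0) (h3 : W.a₃ = 0)
    (h4 : W.a₄ = A * lam ^ 2) (h6 : W.a₆ = B * lam ^ 3) (ht : K → ℕ)
    (H3 : ∀ x x' : K, x ^ 3 + A * x + B ≠ 0 →
      x' * (4 * (x ^ 3 + A * x + B)) = (x ^ 2 - A) ^ 2 - 8 * B * x → ht x' = 4 * ht x)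
    (H0 : ∀ x : K, x ^ 3 + A * x + B = 0 → ht x = 0) (P : W.Point) :
    ptHt lam ht (2 • P) = 4 * ptHt lam ht P := by
  rw [two_nsmul]
  exact ptHt_add_self hlam htwo h1 h2 h3 h4 h6 ht H3 H0 P

end law

/-! ### The instance `K = RatFunc k`, `ht r = max (deg num) (deg denom)` -/

section ratfunc

variable {k : Type*} [Field k]

/-- A rational function which is a root of a cubic `x³ + a x + b` with constant coefficients is
constant, hence has height `0`.  (This is hypothesis `H0` of `ptHt_parallelogram`.) -/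
theorem ratFunc_ht_eq_zero_of_cubic (a b : k) (x : RatFunc k)
    (h : x ^ 3 + RatFunc.C a * x + RatFunc.C b = 0) :
    max x.num.natDegree x.denom.natDegree = 0 := by
  have hC : ∃ c, x = RatFunc.C c := by
    by_contra hC
    have htr : Transcendental k x := RatFunc.transcendental_of_ne_C x hC
    apply htr
    refine ⟨Polynomial.X ^ 3 + Polynomial.C a * Polynomial.X + Polynomial.C b, ?_, ?_⟩
    · intro h0
      have hdeg : (Polynomial.X ^ 3 + Polynomial.C a * Polynomial.X + Polynomial.C b :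
          Polynomial k).natDegree = 3 := by
        compute_degree!
      rw [h0] at hdeg
      simp at hdeg
    · simpa [RatFunc.algebraMap_eq_C] using h
  obtain ⟨c, rfl⟩ := hC
  simp

/-- **Curve-level parallelogram law over `RatFunc k`** with the standard height written out
inline; hypothesis-passing on the two `x`-level laws H2 (parallelogram) and H3 (duplication). -/
theorem ratFunc_ptHt_parallelogram [DecidableEq (RatFunc k)] (htwo : (2 : k) ≠ 0) (a b : k)
    {lam : RatFunc k} (hlam : lam ≠ 0) {W : Affine (RatFunc k)}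
    (h1 : W.a₁ = 0) (h2 : W.a₂ = 0) (h3 : W.a₃ = 0)
    (h4 : W.a₄ = RatFunc.C a * lam ^ 2) (h6 : W.a₆ = RatFunc.C b * lam ^ 3)
    (H2 : ∀ x1 x2 x3 x4 : RatFunc k, x1 ≠ x2 →
      (x3 + x4) * (x1 - x2) ^ 2 = 2 * ((x1 * x2 + RatFunc.C a) * (x1 + x2) + 2 * RatFunc.C b) →
      x3 * x4 * (x1 - x2) ^ 2 = (x1 * x2 - RatFunc.C a) ^ 2 - 4 * RatFunc.C b * (x1 + x2) →
      max x3.num.natDegree x3.denom.natDegree + max x4.num.natDegree x4.denom.natDegree =
        2 * max x1.num.natDegree x1.denom.natDegree +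
          2 * max x2.num.natDegree x2.denom.natDegree)
    (H3 : ∀ x x' : RatFunc k, x ^ 3 + RatFunc.C a * x + RatFunc.C b ≠ 0 →
      x' * (4 * (x ^ 3 + RatFunc.C a * x + RatFunc.C b)) =
        (x ^ 2 - RatFunc.C a) ^ 2 - 8 * RatFunc.C b * x →
      max x'.num.natDegree x'.denom.natDegree = 4 * max x.num.natDegree x.denom.natDegree)
    (P Q : W.Point) :
    ptHt lam (fun r : RatFunc k => max r.num.natDegree r.denom.natDegree) (P + Q) +
        ptHt lam (fun r : RatFunc k => max r.num.natDegree r.denom.natDegree) (P - Q) =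
      2 * ptHt lam (fun r : RatFunc k => max r.num.natDegree r.denom.natDegree) P +
        2 * ptHt lam (fun r : RatFunc k => max r.num.natDegree r.denom.natDegree) Q := by
  have htwo' : (2 : RatFunc k) ≠ 0 := by
    have h2C : (2 : RatFunc k) = RatFunc.C (2 : k) := (map_ofNat (RatFunc.C (K := k)) 2).symm
    rw [h2C]
    exact fun h0 => htwo (RatFunc.C_injective (by rw [h0, map_zero]))
  exact ptHt_parallelogram hlam htwo' h1 h2 h3 h4 h6 _ H2 H3
    (fun x hx => ratFunc_ht_eq_zero_of_cubic a b x hx) P Q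

end ratfunc

end Fermat.Agent.S52.helper1844
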