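/-
S52 helper module (helper2033): INTEGRAL MODEL + SEMISTABILITY for the 3–5 switch.

Family-agnostic, hypothesis-passing.  Given a semistable integral Weierstrass model `W` and
target invariants `(c4', c6')` that are congruent to `(c₄(W), c₆(W))` modulo `1728 * N`, we build
an integral model `W'` with *exactly* these invariants by perturbing only `a₄` and `a₆`:

  `W' = (a₁, a₂, a₃, a₄ - (c4' - c₄)/48, a₆ - (3 b₂ (c4' - c₄) + 2 (c6' - c₆))/1728)`.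

Then `W' ≡ W` coefficientwise modulo `N`, hence for every prime `ℓ ∣ N` the reductions agree
(`reductionMod`, `apOfModel`, good primes), and `W'` is semistable as soon as `c4'` and
`c4'^3 - c6'^2` have no common prime factor outside `N`.

Main results (namespace `Fermat.Agent.S52.helper2033`):
* `perturb`, `perturb_c₄`, `perturb_c₆`
* `exists_model` : the packaged existence statement.
-/
import Mathlib
import Fermat.Prelude.Def_FLTPrelim_Modularity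

set_option autoImplicit false

namespace Fermat.Agent.S52.helper2033

open WeierstrassCurve

/-- Perturb the coefficients `a₄`, `a₆` of an integral Weierstrass model. -/
def perturb (W : WeierstrassCurve ℤ) (d4 d6 : ℤ) : WeierstrassCurve ℤ :=
  ⟨W.a₁, W.a₂, W.a₃, W.a₄ + d4, W.a₆ + d6⟩

@[simp] lemma perturb_a₁ (W : WeierstrassCurve ℤ) (d4 d6 : ℤ) : (perturb W d4 d6).a₁ = W.a₁ := rfl
@[simp] lemma perturb_a₂ (W : WeierstrassCurve ℤ) (d4 d6 : ℤ) : (perturb W d4 d6).a₂ = W.a₂ := rfl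
@[simp] lemma perturb_a₃ (W : WeierstrassCurve ℤ) (d4 d6 : ℤ) : (perturb W d4 d6).a₃ = W.a₃ := rfl
@[simp] lemma perturb_a₄ (W : WeierstrassCurve ℤ) (d4 d6 : ℤ) :
    (perturb W d4 d6).a₄ = W.a₄ + d4 := rfl
@[simp] lemma perturb_a₆ (W : WeierstrassCurve ℤ) (d4 d6 : ℤ) :
    (perturb W d4 d6).a₆ = W.a₆ + d6 := rfl

lemma perturb_b₂ (W : WeierstrassCurve ℤ) (d4 d6 : ℤ) : (perturb W d4 d6).b₂ = W.b₂ := by
  simp only [b₂, perturb_a₁, perturb_a₂]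

lemma perturb_b₄ (W : WeierstrassCurve ℤ) (d4 d6 : ℤ) :
    (perturb W d4 d6).b₄ = W.b₄ + 2 * d4 := by
  simp only [b₄, perturb_a₁, perturb_a₃, perturb_a₄]; ring

lemma perturb_b₆ (W : WeierstrassCurve ℤ) (d4 d6 : ℤ) :
    (perturb W d4 d6).b₆ = W.b₆ + 4 * d6 := by
  simp only [b₆, perturb_a₃, perturb_a₆]; ring

lemma perturb_c₄ (W : WeierstrassCurve ℤ) (d4 d6 : ℤ) :
    (perturb W d4 d6).c₄ = W.c₄ - 48 * d4 := by
  simp only [c₄, perturb_b₂, perturb_b₄]; ring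

lemma perturb_c₆ (W : WeierstrassCurve ℤ) (d4 d6 : ℤ) :
    (perturb W d4 d6).c₆ = W.c₆ + 72 * W.b₂ * d4 - 864 * d6 := by
  simp only [c₆, perturb_b₂, perturb_b₄, perturb_b₆]; ring

/-- If `ℓ` divides both perturbations, the reductions modulo `ℓ` agree. -/
lemma reductionMod_perturb (W : WeierstrassCurve ℤ) (d4 d6 : ℤ) (ℓ : ℕ)
    (h4 : (ℓ : ℤ) ∣ d4) (h6 : (ℓ : ℤ) ∣ d6) :
    (perturb W d4 d6).reductionMod ℓ = W.reductionMod ℓ := by
  have e4 : ((d4 : ℤ) : ZMod ℓ) = 0 := (ZMod.intCast_zmod_eq_zero_iff_dvd d4 ℓ).mpr h4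
  have e6 : ((d6 : ℤ) : ZMod ℓ) = 0 := (ZMod.intCast_zmod_eq_zero_iff_dvd d6 ℓ).mpr h6
  unfold WeierstrassCurve.reductionMod
  ext
  · rfl
  · rfl
  · rfl
  · simp [perturb, e4]
  · simp [perturb, e6]

/-- Equal reductions give equal `apOfModel`. -/
lemma apOfModel_eq_of_reductionMod_eq (W W' : WeierstrassCurve ℤ) (ℓ : ℕ)
    (h : W'.reductionMod ℓ = W.reductionMod ℓ) : W'.apOfModel ℓ = W.apOfModel ℓ := by
  unfold WeierstrassCurve.apOfModel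
  rw [h]

/-- Equal reductions give the same divisibility of the discriminant. -/
lemma dvd_Δ_iff_of_reductionMod_eq (W W' : WeierstrassCurve ℤ) (ℓ : ℕ)
    (h : W'.reductionMod ℓ = W.reductionMod ℓ) : (ℓ : ℤ) ∣ W'.Δ ↔ (ℓ : ℤ) ∣ W.Δ := by
  have h1 : ((W'.Δ : ℤ) : ZMod ℓ) = ((W.Δ : ℤ) : ZMod ℓ) := by
    have := congrArg WeierstrassCurve.Δ h
    simpa [WeierstrassCurve.reductionMod, WeierstrassCurve.map_Δ] using this
  rw [← ZMod.intCast_zmod_eq_zero_iff_dvd, ← ZMod.intCast_zmod_eq_zero_iff_dvd, h1]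

/-- Equal reductions give the same divisibility of `c₄`. -/
lemma dvd_c₄_iff_of_reductionMod_eq (W W' : WeierstrassCurve ℤ) (ℓ : ℕ)
    (h : W'.reductionMod ℓ = W.reductionMod ℓ) : (ℓ : ℤ) ∣ W'.c₄ ↔ (ℓ : ℤ) ∣ W.c₄ := by
  have h1 : ((W'.c₄ : ℤ) : ZMod ℓ) = ((W.c₄ : ℤ) : ZMod ℓ) := by
    have := congrArg WeierstrassCurve.c₄ h
    simpa [WeierstrassCurve.reductionMod, WeierstrassCurve.map_c₄] using this
  rw [← ZMod.intCast_zmod_eq_zero_iff_dvd, ← ZMod.intCast_zmod_eq_zero_iff_dvd, h1]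

/-- Equal reductions give the same divisibility of `c₆`. -/
lemma dvd_c₆_iff_of_reductionMod_eq (W W' : WeierstrassCurve ℤ) (ℓ : ℕ)
    (h : W'.reductionMod ℓ = W.reductionMod ℓ) : (ℓ : ℤ) ∣ W'.c₆ ↔ (ℓ : ℤ) ∣ W.c₆ := by
  have h1 : ((W'.c₆ : ℤ) : ZMod ℓ) = ((W.c₆ : ℤ) : ZMod ℓ) := by
    have := congrArg WeierstrassCurve.c₆ h
    simpa [WeierstrassCurve.reductionMod, WeierstrassCurve.map_c₆] using this
  rw [← ZMod.intCast_zmod_eq_zero_iff_dvd, ← ZMod.intCast_zmod_eq_zero_iff_dvd, h1]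

/-- **Integral model with prescribed invariants.**
`W` an integral Weierstrass model, `(c4', c6')` integers congruent to `(c₄, c₆)` modulo `1728 * N`.
Then there is an integral model `W'` with the same `a₁, a₂, a₃`, with `c₄ = c4'`, `c₆ = c6'`,
and with `a₄, a₆` changed by multiples of `N`. -/
theorem exists_perturb (W : WeierstrassCurve ℤ) (N c4' c6' : ℤ)
    (h4 : 1728 * N ∣ c4' - W.c₄) (h6 : 1728 * N ∣ c6' - W.c₆) :
    ∃ d4 d6 : ℤ, N ∣ d4 ∧ N ∣ d6 ∧ (perturb W d4 d6).c₄ = c4' ∧ (perturb W d4 d6).c₆ = c6' := by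
  obtain ⟨k4, hk4⟩ := h4
  obtain ⟨k6, hk6⟩ := h6
  refine ⟨-(36 * N * k4), -(N * (2 * k6 + 3 * W.b₂ * k4)), ?_, ?_, ?_, ?_⟩
  · exact (Dvd.intro _ (by ring : N * (36 * k4) = 36 * N * k4)).neg_right
  · exact (Dvd.intro _ rfl).neg_right
  · rw [perturb_c₄]; linarith
  · rw [perturb_c₆]; linear_combination (-1 : ℤ) * hk6

/-- **S52-MODEL.**  Let `W` be a semistable integral Weierstrass model, `N : ℤ`, and let
`c4' c6' : ℤ` satisfy `c4' ≡ c₄(W)`, `c6' ≡ c₆(W)` modulo `1728 * N`, `c4'^3 ≠ c6'^2`, and: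
no prime outside `N` divides both `c4'^3 - c6'^2` and `c4'`.
Then there is an integral model `W'` with `c₄(W') = c4'`, `c₆(W') = c6'`, nonzero discriminant,
semistable, and with the same reduction as `W` at every prime dividing `N` (in particular the
same `apOfModel` and the same good primes among the primes dividing `N`). -/
theorem exists_model (W : WeierstrassCurve ℤ) (hW : W.IsSemistableModel) (N c4' c6' : ℤ)
    (h4 : 1728 * N ∣ c4' - W.c₄) (h6 : 1728 * N ∣ c6' - W.c₆) (hne : c4' ^ 3 ≠ c6' ^ 2)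
    (hout : ∀ ℓ : ℕ, ℓ.Prime → ¬ (ℓ : ℤ) ∣ N → (ℓ : ℤ) ∣ c4' ^ 3 - c6' ^ 2 → ¬ (ℓ : ℤ) ∣ c4') :
    ∃ W' : WeierstrassCurve ℤ, W'.c₄ = c4' ∧ W'.c₆ = c6' ∧ W'.Δ ≠ 0 ∧ W'.IsSemistableModel ∧
      W'.a₁ = W.a₁ ∧ W'.a₂ = W.a₂ ∧ W'.a₃ = W.a₃ ∧ N ∣ W'.a₄ - W.a₄ ∧ N ∣ W'.a₆ - W.a₆ ∧
      ∀ ℓ : ℕ, (ℓ : ℤ) ∣ N →
        (W'.reductionMod ℓ = W.reductionMod ℓ ∧ W'.apOfModel ℓ = W.apOfModel ℓ ∧
          (W'.IsGoodPrimeFor ℓ ↔ W.IsGoodPrimeFor ℓ)) := by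
  obtain ⟨d4, d6, hd4, hd6, hc4, hc6⟩ := exists_perturb W N c4' c6' h4 h6
  have hred : ∀ ℓ : ℕ, (ℓ : ℤ) ∣ N →
      (perturb W d4 d6).reductionMod ℓ = W.reductionMod ℓ := fun ℓ hℓ =>
    reductionMod_perturb W d4 d6 ℓ (hℓ.trans hd4) (hℓ.trans hd6)
  have hrel : 1728 * (perturb W d4 d6).Δ = c4' ^ 3 - c6' ^ 2 := by
    rw [(perturb W d4 d6).c_relation, hc4, hc6]
  refine ⟨perturb W d4 d6, hc4, hc6, ?_, ?_, rfl, rfl, rfl, ?_, ?_, ?_⟩
  · intro h0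
    rw [h0, mul_zero] at hrel
    exact hne (sub_eq_zero.mp hrel.symm)
  · intro p hp hpΔ
    by_cases hpN : (p : ℤ) ∣ N
    · have h1 := (dvd_Δ_iff_of_reductionMod_eq W _ p (hred p hpN)).mp hpΔ
      have h2 := hW p hp h1
      exact fun h3 => h2 ((dvd_c₄_iff_of_reductionMod_eq W _ p (hred p hpN)).mp h3)
    · rw [hc4]
      apply hout p hp hpN
      rw [← hrel]
      exact Dvd.dvd.mul_left hpΔ _
  · simpa using hd4
  · simpa using hd6
  · intro ℓ hℓ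
    refine ⟨hred ℓ hℓ, apOfModel_eq_of_reductionMod_eq W _ ℓ (hred ℓ hℓ), ?_⟩
    unfold WeierstrassCurve.IsGoodPrimeFor
    rw [dvd_Δ_iff_of_reductionMod_eq W _ ℓ (hred ℓ hℓ)]

end Fermat.Agent.S52.helper2033
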