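import Mathlib
import Fermat.Agent.S52.helper424_KleinExist

set_option autoImplicit false

/-!
# S52: the universal integral 5-torsion point of the Klein family, and independence data

Normalisation of the captain's Spec (`helper424`): `kF, kH, kT` with `kT² + kH³ = 1728 kF⁵`,
curve of `w = (u, v)` : `y² = x³ + 27 kH(w) x + 54 kT(w)`.

* `kX, kY` : the coordinates of a universal point of order `5` with integer coefficients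
  (`kY_sq`: on the curve; `kX_dbl`: the `x`-coordinate of its double is `kX (-v) u`;
  `kX_sub`: `kX u v - kX (-v) u` divides `36 kF`).
* `cert_a`, `cert_b` : for `z` a root of `Φ₅`, the point at `(z u, v)` (which lies on the same
  curve) has an `x`-coordinate different from those of the point at `(u, v)` and of its double,
  wherever `kF ≠ 0`.  So the points at `(u, v)` and `(z u, v)` form a basis of the `5`-torsion.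
-/

namespace Fermat.Agent.S52.helper2276

open Fermat.Agent.S52.helper424 (kF kH kT)

section Data

variable {R : Type*} [CommRing R]

/-- `x`-coordinate of the universal integral 5-torsion point. -/
def kX (u v : R) : R :=
  3 * (u ^ 10 + 12 * u ^ 8 * v ^ 2 - 12 * u ^ 7 * v ^ 3 + 24 * u ^ 6 * v ^ 4 + 30 * u ^ 5 * v ^ 5
    + 60 * u ^ 4 * v ^ 6 + 36 * u ^ 3 * v ^ 7 + 24 * u ^ 2 * v ^ 8 + 12 * u * v ^ 9 + v ^ 10)

/-- `y`-coordinate of the universal integral 5-torsion point. -/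
def kY (u v : R) : R :=
  108 * (u * v ^ 14 + 4 * u ^ 2 * v ^ 13 + 9 * u ^ 3 * v ^ 12 + 15 * u ^ 4 * v ^ 11
    + 25 * u ^ 5 * v ^ 10 + 29 * u ^ 6 * v ^ 9 + 21 * u ^ 7 * v ^ 8 + 6 * u ^ 8 * v ^ 7
    + 5 * u ^ 9 * v ^ 6 + 4 * u ^ 11 * v ^ 4 + u ^ 12 * v ^ 3 + u ^ 13 * v ^ 2)

theorem map_kX {S : Type*} [CommRing S] (φ : R →+* S) (u v : R) :
    φ (kX u v) = kX (φ u) (φ v) := by
  simp only [kX, map_mul, map_add, map_sub, map_pow, map_ofNat]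

theorem map_kY {S : Type*} [CommRing S] (φ : R →+* S) (u v : R) :
    φ (kY u v) = kY (φ u) (φ v) := by
  simp only [kY, map_mul, map_add, map_pow, map_ofNat]

/-- The universal point lies on the curve. -/
theorem kY_sq (u v : R) :
    kY u v ^ 2 = kX u v ^ 3 + 27 * kH u v * kX u v + 54 * kT u v := by
  simp only [kY, kX, kH, kT]; ring

/-- Duplication: the `x`-coordinate of the double of the universal point is `kX (-v) u`. -/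
theorem kX_dbl (u v : R) :
    4 * kY u v ^ 2 * kX (-v) u = (kX u v ^ 2 - 27 * kH u v) ^ 2 - 432 * kT u v * kX u v := by
  simp only [kY, kX, kH, kT]; ring

/-- The point and its double have different `x`-coordinates where `kF ≠ 0`. -/
theorem kX_sub (u v : R) :
    36 * kF u v = (kX u v - kX (-v) u) * (u ^ 2 + u * v - v ^ 2) := by
  simp only [kX, kF]; ring

theorem kX_neg_neg (u v : R) : kX (-u) (-v) = kX u v := by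
  simp only [kX]; ring

theorem kH_rot (u v : R) : kH (-v) u = kH u v := by
  simp only [kH]; ring

theorem kT_rot (u v : R) : kT (-v) u = kT u v := by
  simp only [kT]; ring

theorem kF_rot (u v : R) : kF (-v) u = kF u v := by
  simp only [kF]; ring

theorem kH_zmul (z u v : R) (hz : z ^ 5 = 1) : kH (z * u) v = kH u v := by
  simp only [kH]
  linear_combination (-(u ^ 20 * (z ^ 15 + z ^ 10 + z ^ 5 + 1)) + 228 * u ^ 15 * v ^ 5 * (z ^ 10 + z ^ 5 + 1)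
    - 228 * u ^ 5 * v ^ 15 - 494 * u ^ 10 * v ^ 10 * (z ^ 5 + 1)) * hz

theorem kT_zmul (z u v : R) (hz : z ^ 5 = 1) : kT (z * u) v = kT u v := by
  simp only [kT]
  linear_combination (u ^ 30 * (z ^ 25 + z ^ 20 + z ^ 15 + z ^ 10 + z ^ 5 + 1)
    + 522 * u ^ 25 * v ^ 5 * (z ^ 20 + z ^ 15 + z ^ 10 + z ^ 5 + 1) - 522 * u ^ 5 * v ^ 25
    - 10005 * u ^ 20 * v ^ 10 * (z ^ 15 + z ^ 10 + z ^ 5 + 1)
    - 10005 * u ^ 10 * v ^ 20 * (z ^ 5 + 1)) * hz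

theorem kF_zmul (z u v : R) (hz : z ^ 5 = 1) : kF (z * u) v = z * kF u v := by
  simp only [kF]
  linear_combination (z * u ^ 11 * v * (z ^ 5 + 1) + 11 * z * u ^ 6 * v ^ 6) * hz

private def cofA0 (z u v : R) : R :=
  (-3 - z + z ^ 2 - 2 * z ^ 3) * u ^ 14
    + (3 + z + 4 * z ^ 2 + 2 * z ^ 3) * u ^ 13 * v
    + (4 + 8 * z - 3 * z ^ 2 + 11 * z ^ 3) * u ^ 12 * v ^ 2
    + (-26 - 7 * z - 13 * z ^ 2 - 19 * z ^ 3) * u ^ 11 * v ^ 3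

private def cofA1 (z u v : R) : R :=
  (15 - 20 * z + 20 * z ^ 2 - 15 * z ^ 3) * u ^ 10 * v ^ 4
    + (22 + 24 * z + 26 * z ^ 2 + 48 * z ^ 3) * u ^ 9 * v ^ 5
    + (-57 + 31 * z - 26 * z ^ 2 - 13 * z ^ 3) * u ^ 8 * v ^ 6
    + (-11 - 22 * z + 2 * z ^ 2 - 24 * z ^ 3) * u ^ 7 * v ^ 7

private def cofA2 (z u v : R) : R :=
  (4 - 22 * z + 2 * z ^ 2 + 26 * z ^ 3) * u ^ 6 * v ^ 8
    + (20 + 15 * z - 15 * z ^ 2 - 20 * z ^ 3) * u ^ 5 * v ^ 9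
    + (-7 + 6 * z + 19 * z ^ 2 + 12 * z ^ 3) * u ^ 4 * v ^ 10
    + (2 - 16 * z - 14 * z ^ 2 - 7 * z ^ 3) * u ^ 3 * v ^ 11

private def cofA3 (z u v : R) : R :=
  (6 + 12 * z + 8 * z ^ 2 + 4 * z ^ 3) * u ^ 2 * v ^ 12
    + (-4 - 3 * z - 2 * z ^ 2 - z ^ 3) * u * v ^ 13

/-- Cofactor of the independence certificate (a). -/
def cofA (z u v : R) : R :=
  cofA0 z u v
    + cofA1 z u v
    + cofA2 z u v
    + cofA3 z u v

private def quoA0 (z u v : R) : R :=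
  (9 - 6 * z - 6 * z ^ 2 + 9 * z ^ 3 - 6 * z ^ 4 + 9 * z ^ 5 - 6 * z ^ 6 - 6 * z ^ 7 + 9 * z ^ 8 - 6 * z ^ 9) * u ^ 24
    + (-9 + 6 * z - 9 * z ^ 2 + 6 * z ^ 3 + 6 * z ^ 4 - 9 * z ^ 5 + 6 * z ^ 6 - 9 * z ^ 7 + 6 * z ^ 8 + 6 * z ^ 9) * u ^ 23 * v
    + (-84 + 96 * z - 39 * z ^ 2 + 66 * z ^ 3 - 39 * z ^ 4 - 84 * z ^ 5 + 96 * z ^ 6 - 39 * z ^ 7 - 42 * z ^ 8 + 33 * z ^ 9) * u ^ 22 * v ^ 2
    + (-138 + 87 * z - 18 * z ^ 2 - 18 * z ^ 3 + 87 * z ^ 4 - 138 * z ^ 5 + 87 * z ^ 6 + 90 * z ^ 7 + 18 * z ^ 8 - 57 * z ^ 9) * u ^ 21 * v ^ 3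

private def quoA1 (z u v : R) : R :=
  (135 - 255 * z + 240 * z ^ 2 - 255 * z ^ 3 + 135 * z ^ 4 + 135 * z ^ 5 - 471 * z ^ 6 + 276 * z ^ 7 + 105 * z ^ 8 - 45 * z ^ 9) * u ^ 20 * v ^ 4
    + (1068 - 582 * z - 582 * z ^ 2 + 1068 * z ^ 3 - 972 * z ^ 4 + 798 * z ^ 5 - 186 * z ^ 6 - 690 * z ^ 7 - 66 * z ^ 8 + 144 * z ^ 9) * u ^ 19 * v ^ 5
    + (-1323 + 1212 * z - 1323 * z ^ 2 + 717 * z ^ 3 + 177 * z ^ 4 - 693 * z ^ 5 + 1680 * z ^ 6 - 369 * z ^ 7 - 39 * z ^ 8 - 39 * z ^ 9) * u ^ 18 * v ^ 6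
    + (-2883 + 1077 * z + 1962 * z ^ 2 - 2442 * z ^ 3 + 2718 * z ^ 4 - 2667 * z ^ 5 - 219 * z ^ 6 + 1656 * z ^ 7 + 78 * z ^ 8 - 72 * z ^ 9) * u ^ 17 * v ^ 7

private def quoA2 (z u v : R) : R :=
  (3264 - 2856 * z + 1008 * z ^ 2 + 1692 * z ^ 3 - 2208 * z ^ 4 + 1752 * z ^ 5 - 2118 * z ^ 6 - 540 * z ^ 7 - 72 * z ^ 8 + 78 * z ^ 9) * u ^ 16 * v ^ 8
    + (-510 + 2697 * z - 4302 * z ^ 2 + 3165 * z ^ 3 - 4650 * z ^ 4 + 3000 * z ^ 5 + 1419 * z ^ 6 - 774 * z ^ 7 + 15 * z ^ 8 - 60 * z ^ 9) * u ^ 15 * v ^ 9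
    + (1317 - 1875 * z - 1767 * z ^ 2 - 1095 * z ^ 3 + 5220 * z ^ 4 - 2715 * z ^ 5 - 39 * z ^ 6 + 897 * z ^ 7 + 21 * z ^ 8 + 36 * z ^ 9) * u ^ 14 * v ^ 10
    + (1488 - 5778 * z - 240 * z ^ 2 + 4065 * z ^ 3 + 1725 * z ^ 4 + 210 * z ^ 5 - 702 * z ^ 6 - 726 * z ^ 7 - 21 * z ^ 8 - 21 * z ^ 9) * u ^ 13 * v ^ 11

private def quoA3 (z u v : R) : R :=
  (-12024 + 8460 * z + 3720 * z ^ 2 - 1644 * z ^ 3 - 5424 * z ^ 4 + 1206 * z ^ 5 + 954 * z ^ 6 + 444 * z ^ 7 + 12 * z ^ 8 + 12 * z ^ 9) * u ^ 12 * v ^ 12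
    + (3900 - 2055 * z + 969 * z ^ 2 - 3927 * z ^ 3 + 3813 * z ^ 4 - 1752 * z ^ 5 - 687 * z ^ 6 - 255 * z ^ 7 - 3 * z ^ 8 - 3 * z ^ 9) * u ^ 11 * v ^ 13
    + (2340 - 1098 * z - 4932 * z ^ 2 + 3330 * z ^ 3 - 1440 * z ^ 4 + 1260 * z ^ 5 + 396 * z ^ 6 + 144 * z ^ 7) * u ^ 10 * v ^ 14
    + (-342 - 414 * z + 4014 * z ^ 2 - 2754 * z ^ 3 + 396 * z ^ 4 - 684 * z ^ 5 - 180 * z ^ 6 - 36 * z ^ 7) * u ^ 9 * v ^ 15

private def quoA4 (z u v : R) : R :=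
  (-1548 + 1296 * z - 1656 * z ^ 2 + 1854 * z ^ 3 - 306 * z ^ 4 + 324 * z ^ 5 + 36 * z ^ 6) * u ^ 8 * v ^ 16
    + (2520 - 1296 * z + 324 * z ^ 2 - 972 * z ^ 3 + 288 * z ^ 4 - 72 * z ^ 5) * u ^ 7 * v ^ 17
    + (-1152 + 738 * z - 126 * z ^ 2 + 630 * z ^ 3 - 90 * z ^ 4) * u ^ 6 * v ^ 18
    + (180 - 252 * z + 252 * z ^ 2 - 180 * z ^ 3) * u ^ 5 * v ^ 19

private def quoA5 (z u v : R) : R :=
  (-72 + 180 * z - 108 * z ^ 2) * u ^ 4 * v ^ 20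
    + (72 - 72 * z) * u ^ 3 * v ^ 21
    + (-36) * u ^ 2 * v ^ 22

/-- Quotient by `Φ₅(z)` in the independence certificate (a). -/
def quoA (z u v : R) : R :=
  quoA0 z u v
    + quoA1 z u v
    + quoA2 z u v
    + quoA3 z u v
    + quoA4 z u v
    + quoA5 z u v

private def cofB0 (z u v : R) : R :=
  (1) * u ^ 13 * v
    + (2 - z ^ 3) * u ^ 12 * v ^ 2
    + (1 + z + z ^ 2 - 4 * z ^ 3) * u ^ 11 * v ^ 3
    + (5 * z + 5 * z ^ 2 - 5 * z ^ 3) * u ^ 10 * v ^ 4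

private def cofB1 (z u v : R) : R :=
  (-5 + 10 * z + 10 * z ^ 2) * u ^ 9 * v ^ 5
    + (-4 + 10 * z + 10 * z ^ 2 + 10 * z ^ 3) * u ^ 8 * v ^ 6
    + (-3 + 14 * z ^ 3) * u ^ 7 * v ^ 7
    + (-14 - 14 * z - 14 * z ^ 2 - 4 * z ^ 3) * u ^ 6 * v ^ 8

private def cofB2 (z u v : R) : R :=
  (-10 * z - 10 * z ^ 2 - 15 * z ^ 3) * u ^ 5 * v ^ 9
    + (10 + 5 * z + 5 * z ^ 2) * u ^ 4 * v ^ 10
    + (4 + 5 * z + 5 * z ^ 2 + 5 * z ^ 3) * u ^ 3 * v ^ 11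
    + (-2 + z ^ 3) * u ^ 2 * v ^ 12

private def cofB3 (z u v : R) : R :=
  (-1 - z - z ^ 2 - z ^ 3) * u * v ^ 13

/-- Cofactor of the independence certificate (b). -/
def cofB (z u v : R) : R :=
  cofB0 z u v
    + cofB1 z u v
    + cofB2 z u v
    + cofB3 z u v

private def quoB0 (z u v : R) : R :=
  (-3 + 3 * z - 3 * z ^ 5 + 3 * z ^ 6) * u ^ 23 * v
    + (-6 + 6 * z + 3 * z ^ 3 - 3 * z ^ 4 - 6 * z ^ 5 + 6 * z ^ 6 + 3 * z ^ 8 - 3 * z ^ 9) * u ^ 22 * v ^ 2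
    + (-3 - 21 * z ^ 3 + 24 * z ^ 4 - 3 * z ^ 5 + 15 * z ^ 8 - 12 * z ^ 9) * u ^ 21 * v ^ 3
    + (21 * z - 78 * z ^ 3 + 57 * z ^ 4 + 21 * z ^ 6 - 36 * z ^ 7 + 30 * z ^ 8 - 15 * z ^ 9) * u ^ 20 * v ^ 4

private def quoB1 (z u v : R) : R :=
  (-21 + 99 * z - 78 * z ^ 3 - 21 * z ^ 5 + 171 * z ^ 6 - 144 * z ^ 7 + 30 * z ^ 8) * u ^ 19 * v ^ 5
    + (-330 + 408 * z - 78 * z ^ 4 - 240 * z ^ 5 + 462 * z ^ 6 - 180 * z ^ 7 + 30 * z ^ 9) * u ^ 18 * v ^ 6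
    + (-639 + 639 * z + 408 * z ^ 3 - 228 * z ^ 4 - 639 * z ^ 5 + 531 * z ^ 6 - 42 * z ^ 8 + 42 * z ^ 9) * u ^ 17 * v ^ 7
    + (-408 + 924 * z ^ 3 - 156 * z ^ 4 - 678 * z ^ 5 + 360 * z ^ 7 - 30 * z ^ 8 - 12 * z ^ 9) * u ^ 16 * v ^ 8

private def quoB2 (z u v : R) : R :=
  (-816 * z + 72 * z ^ 2 + 807 * z ^ 3 + 117 * z ^ 4 - 834 * z ^ 6 + 504 * z ^ 7 + 15 * z ^ 8 - 45 * z ^ 9) * u ^ 15 * v ^ 9
    + (816 - 1443 * z + 108 * z ^ 2 + 627 * z ^ 3 + 1194 * z ^ 5 - 849 * z ^ 6 - 144 * z ^ 7 + 15 * z ^ 8) * u ^ 14 * v ^ 10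
    + (-660 + 69 * z + 267 * z ^ 4 + 1356 * z ^ 5 + 321 * z ^ 6 - 540 * z ^ 7 + 15 * z ^ 9) * u ^ 13 * v ^ 11
    + (-2136 + 2172 * z - 183 * z ^ 3 + 723 * z ^ 4 - 462 * z ^ 5 + 714 * z ^ 6 - 3 * z ^ 8 + 3 * z ^ 9) * u ^ 12 * v ^ 12

private def quoB3 (z u v : R) : R :=
  (3 - 180 * z ^ 2 + 1296 * z ^ 3 - 39 * z ^ 4 - 1257 * z ^ 5 + 180 * z ^ 7 - 3 * z ^ 9) * u ^ 11 * v ^ 13
    + (-828 * z + 252 * z ^ 2 - 162 * z ^ 3 - 1062 * z ^ 4 - 216 * z ^ 6 + 36 * z ^ 7) * u ^ 10 * v ^ 14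
    + (648 + 54 * z + 288 * z ^ 2 - 2142 * z ^ 3 + 396 * z ^ 5 - 36 * z ^ 6 - 36 * z ^ 7) * u ^ 9 * v ^ 15
    + (396 + 342 * z - 900 * z ^ 2 + 378 * z ^ 4 + 72 * z ^ 5 + 36 * z ^ 6) * u ^ 8 * v ^ 16

private def quoB4 (z u v : R) : R :=
  (144 - 648 * z + 810 * z ^ 3 + 90 * z ^ 4 - 72 * z ^ 5) * u ^ 7 * v ^ 17
    + (-450 + 360 * z ^ 2 + 180 * z ^ 3 - 90 * z ^ 4) * u ^ 6 * v ^ 18
    + (252 * z + 108 * z ^ 2 - 180 * z ^ 3) * u ^ 5 * v ^ 19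
    + (108 + 72 * z - 108 * z ^ 2) * u ^ 4 * v ^ 20

private def quoB5 (z u v : R) : R :=
  (36 - 72 * z) * u ^ 3 * v ^ 21
    + (-36) * u ^ 2 * v ^ 22

/-- Quotient by `Φ₅(z)` in the independence certificate (b). -/
def quoB (z u v : R) : R :=
  quoB0 z u v
    + quoB1 z u v
    + quoB2 z u v
    + quoB3 z u v
    + quoB4 z u v
    + quoB5 z u v

/-- Independence certificate (a), before reduction modulo `Φ₅(z)`. -/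
theorem cert_a_aux (z u v : R) :
    (kX (z * u) v - kX u v) * cofA z u v - 180 * kF u v ^ 2
      = quoA z u v * (z ^ 4 + z ^ 3 + z ^ 2 + z + 1) := by
  simp only [kX, kF, cofA, cofA0, cofA1, cofA2, cofA3, quoA, quoA0, quoA1, quoA2, quoA3, quoA4, quoA5]
  ring

/-- Independence certificate (a). -/
theorem cert_a (z u v : R) (hz : z ^ 4 + z ^ 3 + z ^ 2 + z + 1 = 0) :
    (kX (z * u) v - kX u v) * cofA z u v = 180 * kF u v ^ 2 := by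
  have key := cert_a_aux z u v
  rw [hz, mul_zero] at key
  linear_combination key

/-- Independence certificate (b), before reduction modulo `Φ₅(z)`. -/
theorem cert_b_aux (z u v : R) :
    (kX (z * u) v - kX (-v) u) * cofB z u v - 36 * kF u v ^ 2
      = quoB z u v * (z ^ 4 + z ^ 3 + z ^ 2 + z + 1) := by
  simp only [kX, kF, cofB, cofB0, cofB1, cofB2, cofB3, quoB, quoB0, quoB1, quoB2, quoB3, quoB4, quoB5]
  ring

/-- Independence certificate (b). -/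
theorem cert_b (z u v : R) (hz : z ^ 4 + z ^ 3 + z ^ 2 + z + 1 = 0) :
    (kX (z * u) v - kX (-v) u) * cofB z u v = 36 * kF u v ^ 2 := by
  have key := cert_b_aux z u v
  rw [hz, mul_zero] at key
  linear_combination key

end Data

end Fermat.Agent.S52.helper2276
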