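import Mathlib

set_option autoImplicit false
set_option linter.unusedSectionVars false
set_option linter.unusedVariables false

/-!
# Constancy of torsion coordinates along a one-parameter family of Weierstrass curves

`K` is a field, `E : K → WeierstrassCurve.Affine K` a family of Weierstrass curves whose
coefficients are polynomial in the parameter (`IsPolyFam`).  A *rational section* over a set
`U ⊆ K` of parameters (`IsRatSec`) is a family of points `Q s ∈ E s` which is either zero on `U`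
or has coordinates `xn(s)/d(s)`, `yn(s)/d(s)` for polynomials `xn yn d` with `d` nonvanishing
on `U`.

* rational sections are closed under negation, chord addition (when the two sections are never
  equal or opposite on `U`) and doubling (when the double never vanishes on `U`);
* two rational sections which agree on an infinite subset of `U` agree on `U`;
* `lineConst`: if `P1, P2` are rational sections which are independent points of order `5`
  at every parameter of the infinite set `U`, and `Q` is a rational section lying in their span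
  at every parameter of `U`, then the coordinates of `Q` in the basis `(P1, P2)` are constant
  modulo `5` along `U`.

This is the "Zariski in the pencil parameter" engine for the five-congruent pencil: no group
theory, no torsor property.
-/

namespace Fermat.Agent.S52.helper2276

open Polynomial WeierstrassCurve WeierstrassCurve.Affine

section FieldLemmas

variable {K : Type*} [Field K]

private theorem chord_x (a d a' d' N D a1 a2 : K) (hd : d ≠ 0) (hd' : d' ≠ 0) (hD : D ≠ 0) :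
    (N / D) ^ 2 + a1 * (N / D) - a2 - a / d - a' / d' =
      (((N ^ 2 + a1 * N * D - a2 * D ^ 2) * d * d' - (a * d' + a' * d) * D ^ 2) * D) /
        (D ^ 3 * d * d') := by
  field_simp
  ring

private theorem chord_y (a b d d' N D a1 a3 X3 : K) (hd : d ≠ 0) (hd' : d' ≠ 0) (hD : D ≠ 0) :
    -((N / D) * (X3 * D / (D ^ 3 * d * d') - a / d) + b / d)
        - a1 * (X3 * D / (D ^ 3 * d * d')) - a3 =
      (-N * (X3 - a * D ^ 2 * d') - b * D ^ 3 * d' - a1 * X3 * D - a3 * D ^ 3 * d * d') /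
        (D ^ 3 * d * d') := by
  field_simp
  ring

private theorem slope_chord (a b d a' b' d' : K) (hd : d ≠ 0) (hd' : d' ≠ 0)
    (hD : a * d' - a' * d ≠ 0) :
    (b / d - b' / d') / (a / d - a' / d') = (b * d' - b' * d) / (a * d' - a' * d) := by
  have : a / d - a' / d' = (a * d' - a' * d) / (d * d') := by field_simp
  rw [this]
  field_simp

private theorem slope_tangent (a b d a1 a2 a3 a4 : K) (hd : d ≠ 0)
    (hM : 2 * b + a1 * a + a3 * d ≠ 0) :
    (3 * (a / d) ^ 2 + 2 * a2 * (a / d) + a4 - a1 * (b / d)) /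
        (b / d - (-(b / d) - a1 * (a / d) - a3)) =
      (3 * a ^ 2 + 2 * a2 * a * d + a4 * d ^ 2 - a1 * b * d) /
        (d * (2 * b + a1 * a + a3 * d)) := by
  have : b / d - (-(b / d) - a1 * (a / d) - a3) = (2 * b + a1 * a + a3 * d) / d := by
    field_simp; ring
  rw [this]
  field_simp

private theorem tangent_x (a d N M a1 a2 : K) (hd : d ≠ 0) (hM : M ≠ 0) :
    (N / (d * M)) ^ 2 + a1 * (N / (d * M)) - a2 - a / d - a / d =
      ((N ^ 2 + a1 * N * d * M - a2 * d ^ 2 * M ^ 2 - 2 * a * d * M ^ 2) * (d * M)) /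
        (d ^ 3 * M ^ 3) := by
  field_simp
  ring

private theorem tangent_y (a b d N M a1 a3 X3 : K) (hd : d ≠ 0) (hM : M ≠ 0) :
    -((N / (d * M)) * (X3 * (d * M) / (d ^ 3 * M ^ 3) - a / d) + b / d)
        - a1 * (X3 * (d * M) / (d ^ 3 * M ^ 3)) - a3 =
      (-N * (X3 - a * d * M ^ 2) - b * d ^ 2 * M ^ 3 - a1 * X3 * d * M - a3 * d ^ 3 * M ^ 3) /
        (d ^ 3 * M ^ 3) := by
  field_simp
  ring

end FieldLemmas

variable {K : Type*} [Field K] [DecidableEq K]

/-- The coefficients of the family are polynomial in the parameter. -/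
def IsPolyFam (E : K → Affine K) : Prop :=
  ∃ a1 a2 a3 a4 a6 : K[X], ∀ s, (E s).a₁ = a1.eval s ∧ (E s).a₂ = a2.eval s ∧
    (E s).a₃ = a3.eval s ∧ (E s).a₄ = a4.eval s ∧ (E s).a₆ = a6.eval s

/-- A rational section of the family over the parameter set `U`. -/
def IsRatSec (E : K → Affine K) (U : Set K) (Q : ∀ s, (E s).Point) : Prop :=
  (∀ s ∈ U, Q s = 0) ∨
  ∃ xn yn d : K[X], ∀ s ∈ U, d.eval s ≠ 0 ∧
    ∃ h : (E s).Nonsingular (xn.eval s / d.eval s) (yn.eval s / d.eval s),
      Q s = Point.some _ _ h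

variable {E : K → Affine K} {U : Set K}

theorem isRatSec_zero : IsRatSec E U (fun _ => 0) := Or.inl fun _ _ => rfl

/-- A section with polynomial coordinates is rational. -/
theorem isRatSec_of_poly {Q : ∀ s, (E s).Point} (xp yp : K[X])
    (h : ∀ s ∈ U, ∃ h : (E s).Nonsingular (xp.eval s) (yp.eval s), Q s = Point.some _ _ h) :
    IsRatSec E U Q := by
  refine Or.inr ⟨xp, yp, 1, fun s hs => ⟨by simp, ?_⟩⟩
  obtain ⟨h1, h2⟩ := h s hs
  have e1 : xp.eval s / (1 : K[X]).eval s = xp.eval s := by simp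
  have e2 : yp.eval s / (1 : K[X]).eval s = yp.eval s := by simp
  rw [e1, e2]
  exact ⟨h1, h2⟩

private theorem some_congr {W : Affine K} {x y x' y' : K} (h : W.Nonsingular x y)
    (hx : x = x') (hy : y = y') :
    ∃ h' : W.Nonsingular x' y', Point.some x y h = Point.some x' y' h' := by
  subst hx; subst hy; exact ⟨h, rfl⟩

theorem IsRatSec.congr {Q Q' : ∀ s, (E s).Point} (hQ : IsRatSec E U Q)
    (h : ∀ s ∈ U, Q s = Q' s) : IsRatSec E U Q' := by
  rcases hQ with h0 | ⟨xn, yn, d, hd⟩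
  · exact Or.inl fun s hs => (h s hs) ▸ h0 s hs
  · refine Or.inr ⟨xn, yn, d, fun s hs => ?_⟩
    obtain ⟨hd1, hns, he⟩ := hd s hs
    exact ⟨hd1, hns, (h s hs) ▸ he⟩

theorem IsRatSec.neg (hE : IsPolyFam E) {Q : ∀ s, (E s).Point} (hQ : IsRatSec E U Q) :
    IsRatSec E U (fun s => -Q s) := by
  obtain ⟨a1, a2, a3, a4, a6, hE⟩ := hE
  rcases hQ with h0 | ⟨xn, yn, d, hd⟩
  · exact Or.inl fun s hs => by simp [h0 s hs]
  · refine Or.inr ⟨xn, -yn - a1 * xn - a3 * d, d, fun s hs => ?_⟩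
    obtain ⟨hd1, hns, he⟩ := hd s hs
    refine ⟨hd1, ?_⟩
    beta_reduce
    rw [he, Point.neg_some]
    refine some_congr _ rfl ?_
    simp only [negY, (hE s).1, (hE s).2.2.1, eval_sub, eval_neg, eval_mul]
    field_simp

/-- Chord addition of rational sections. -/
theorem IsRatSec.add (hE : IsPolyFam E) {Q Q' : ∀ s, (E s).Point} (hQ : IsRatSec E U Q)
    (hQ' : IsRatSec E U Q')
    (hne : ∀ s ∈ U, Q s ≠ 0 → Q' s ≠ 0 → Q s ≠ Q' s ∧ Q s ≠ -Q' s) :
    IsRatSec E U (fun s => Q s + Q' s) := by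
  obtain ⟨a1, a2, a3, a4, a6, hE⟩ := hE
  rcases hQ with h0 | ⟨a, b, d, hd⟩
  · exact hQ'.congr fun s hs => by simp [h0 s hs]
  rcases hQ' with h0' | ⟨a', b', d', hd'⟩
  · exact IsRatSec.congr (Q := Q) (Or.inr ⟨a, b, d, hd⟩) fun s hs => by simp [h0' s hs]
  -- both affine
  refine Or.inr ⟨(((b * d' - b' * d) ^ 2 + a1 * (b * d' - b' * d) * (a * d' - a' * d)
        - a2 * (a * d' - a' * d) ^ 2) * d * d' - (a * d' + a' * d) * (a * d' - a' * d) ^ 2)
        * (a * d' - a' * d),
    -(b * d' - b' * d) * ((((b * d' - b' * d) ^ 2 + a1 * (b * d' - b' * d) * (a * d' - a' * d)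
        - a2 * (a * d' - a' * d) ^ 2) * d * d' - (a * d' + a' * d) * (a * d' - a' * d) ^ 2)
        - a * (a * d' - a' * d) ^ 2 * d') - b * (a * d' - a' * d) ^ 3 * d'
      - a1 * (((b * d' - b' * d) ^ 2 + a1 * (b * d' - b' * d) * (a * d' - a' * d)
        - a2 * (a * d' - a' * d) ^ 2) * d * d' - (a * d' + a' * d) * (a * d' - a' * d) ^ 2)
        * (a * d' - a' * d) - a3 * (a * d' - a' * d) ^ 3 * d * d',
    (a * d' - a' * d) ^ 3 * d * d', fun s hs => ?_⟩
  obtain ⟨hd1, hns, he⟩ := hd s hs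
  obtain ⟨hd1', hns', he'⟩ := hd' s hs
  have hx : a.eval s / d.eval s ≠ a'.eval s / d'.eval s := by
    intro hx
    have hne' := hne s hs (by rw [he]; exact Point.some_ne_zero _)
      (by rw [he']; exact Point.some_ne_zero _)
    rw [he, he'] at hne'
    rcases (Point.X_eq_iff (h₁ := hns) (h₂ := hns')).1 hx with h | h
    · exact hne'.1 h
    · exact hne'.2 h
  have hDs : a.eval s * d'.eval s - a'.eval s * d.eval s ≠ 0 := by
    intro h0
    apply hx
    rw [sub_eq_zero] at h0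
    rw [div_eq_div_iff hd1 hd1']
    exact h0
  refine ⟨by simp [hd1, hd1', hDs], ?_⟩
  beta_reduce
  rw [he, he', Point.add_of_X_ne hx]
  have hL := slope_chord (a.eval s) (b.eval s) (d.eval s) (a'.eval s) (b'.eval s) (d'.eval s)
    hd1 hd1' hDs
  refine some_congr _ ?_ ?_
  · simp only [addX, slope_of_X_ne hx, (hE s).1, (hE s).2.1, eval_sub, eval_add,
      eval_mul, eval_pow]
    rw [hL]
    exact chord_x _ _ _ _ _ _ _ _ hd1 hd1' hDs
  · simp only [addY, negAddY, negY, addX, slope_of_X_ne hx, (hE s).1, (hE s).2.1, (hE s).2.2.1,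
      eval_sub, eval_add, eval_mul, eval_pow, eval_neg]
    rw [hL, chord_x _ _ _ _ _ _ _ _ hd1 hd1' hDs]
    exact chord_y _ _ _ _ _ _ _ _ _ hd1 hd1' hDs

/-- Doubling of a rational section. -/
theorem IsRatSec.double (hE : IsPolyFam E) {Q : ∀ s, (E s).Point} (hQ : IsRatSec E U Q)
    (h2 : ∀ s ∈ U, Q s ≠ 0 → Q s + Q s ≠ 0) :
    IsRatSec E U (fun s => Q s + Q s) := by
  obtain ⟨a1, a2, a3, a4, a6, hE⟩ := hE
  rcases hQ with h0 | ⟨a, b, d, hd⟩
  · exact Or.inl fun s hs => by simp [h0 s hs]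
  refine Or.inr ⟨((3 * a ^ 2 + 2 * a2 * a * d + a4 * d ^ 2 - a1 * b * d) ^ 2
        + a1 * (3 * a ^ 2 + 2 * a2 * a * d + a4 * d ^ 2 - a1 * b * d) * d * (2 * b + a1 * a + a3 * d)
        - a2 * d ^ 2 * (2 * b + a1 * a + a3 * d) ^ 2 - 2 * a * d * (2 * b + a1 * a + a3 * d) ^ 2)
        * (d * (2 * b + a1 * a + a3 * d)),
    -(3 * a ^ 2 + 2 * a2 * a * d + a4 * d ^ 2 - a1 * b * d)
        * (((3 * a ^ 2 + 2 * a2 * a * d + a4 * d ^ 2 - a1 * b * d) ^ 2
        + a1 * (3 * a ^ 2 + 2 * a2 * a * d + a4 * d ^ 2 - a1 * b * d) * d * (2 * b + a1 * a + a3 * d)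
        - a2 * d ^ 2 * (2 * b + a1 * a + a3 * d) ^ 2 - 2 * a * d * (2 * b + a1 * a + a3 * d) ^ 2)
          - a * d * (2 * b + a1 * a + a3 * d) ^ 2)
      - b * d ^ 2 * (2 * b + a1 * a + a3 * d) ^ 3
      - a1 * ((3 * a ^ 2 + 2 * a2 * a * d + a4 * d ^ 2 - a1 * b * d) ^ 2
        + a1 * (3 * a ^ 2 + 2 * a2 * a * d + a4 * d ^ 2 - a1 * b * d) * d * (2 * b + a1 * a + a3 * d)
        - a2 * d ^ 2 * (2 * b + a1 * a + a3 * d) ^ 2 - 2 * a * d * (2 * b + a1 * a + a3 * d) ^ 2)
        * d * (2 * b + a1 * a + a3 * d)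
      - a3 * d ^ 3 * (2 * b + a1 * a + a3 * d) ^ 3,
    d ^ 3 * (2 * b + a1 * a + a3 * d) ^ 3, fun s hs => ?_⟩
  obtain ⟨hd1, hns, he⟩ := hd s hs
  have hy : b.eval s / d.eval s ≠ (E s).negY (a.eval s / d.eval s) (b.eval s / d.eval s) := by
    intro hy
    have := h2 s hs (by rw [he]; exact Point.some_ne_zero _)
    rw [he] at this
    exact this (Point.add_self_of_Y_eq hy)
  have hM : 2 * b.eval s + a1.eval s * a.eval s + a3.eval s * d.eval s ≠ 0 := by
    intro h0
    apply hy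
    simp only [negY, (hE s).1, (hE s).2.2.1]
    field_simp
    linear_combination h0
  refine ⟨by simp [hd1, hM], ?_⟩
  beta_reduce
  rw [he, Point.add_self_of_Y_ne hy]
  have hL := slope_tangent (a.eval s) (b.eval s) (d.eval s) (a1.eval s) (a2.eval s) (a3.eval s)
    (a4.eval s) hd1 hM
  refine some_congr _ ?_ ?_
  · simp only [addX, slope_of_Y_ne rfl hy, negY, (hE s).1, (hE s).2.1, (hE s).2.2.1,
      (hE s).2.2.2.1, eval_sub, eval_add, eval_mul, eval_pow, eval_ofNat]
    rw [hL]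
    exact tangent_x _ _ _ _ _ _ hd1 hM
  · simp only [addY, negAddY, negY, addX, slope_of_Y_ne rfl hy, (hE s).1, (hE s).2.1,
      (hE s).2.2.1, (hE s).2.2.2.1, eval_sub, eval_add, eval_mul, eval_pow, eval_neg, eval_ofNat]
    rw [hL, tangent_x _ _ _ _ _ _ hd1 hM]
    exact tangent_y _ _ _ _ _ _ _ _ hd1 hM

/-- Two rational sections which agree on an infinite set of parameters of `U` agree on `U`. -/
theorem IsRatSec.eqOn {Q Q' : ∀ s, (E s).Point} (hQ : IsRatSec E U Q) (hQ' : IsRatSec E U Q')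
    {S : Set K} (hS : S.Infinite) (hSU : S ⊆ U) (h : ∀ s ∈ S, Q s = Q' s) :
    ∀ s ∈ U, Q s = Q' s := by
  obtain ⟨s₀, hs₀⟩ := hS.nonempty
  rcases hQ with h0 | ⟨a, b, d, hd⟩ <;> rcases hQ' with h0' | ⟨a', b', d', hd'⟩
  · intro s hs; rw [h0 s hs, h0' s hs]
  · exfalso
    obtain ⟨-, hns, he⟩ := hd' s₀ (hSU hs₀)
    have := h s₀ hs₀
    rw [h0 s₀ (hSU hs₀), he] at this
    exact Point.some_ne_zero _ this.symm
  · exfalso
    obtain ⟨-, hns, he⟩ := hd s₀ (hSU hs₀)
    have := h s₀ hs₀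
    rw [h0' s₀ (hSU hs₀), he] at this
    exact Point.some_ne_zero _ this
  · have hp : a * d' - a' * d = 0 := by
      refine Polynomial.eq_zero_of_infinite_isRoot _ (hS.mono fun s hs => ?_)
      obtain ⟨hd1, hns, he⟩ := hd s (hSU hs)
      obtain ⟨hd1', hns', he'⟩ := hd' s (hSU hs)
      have := h s hs
      rw [he, he', Point.some.injEq] at this
      have h1 := this.1
      rw [div_eq_div_iff hd1 hd1'] at h1
      simp only [Set.mem_ofPred_eq, IsRoot, eval_sub, eval_mul]
      linear_combination h1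
    have hq : b * d' - b' * d = 0 := by
      refine Polynomial.eq_zero_of_infinite_isRoot _ (hS.mono fun s hs => ?_)
      obtain ⟨hd1, hns, he⟩ := hd s (hSU hs)
      obtain ⟨hd1', hns', he'⟩ := hd' s (hSU hs)
      have := h s hs
      rw [he, he', Point.some.injEq] at this
      have h1 := this.2
      rw [div_eq_div_iff hd1 hd1'] at h1
      simp only [Set.mem_ofPred_eq, IsRoot, eval_sub, eval_mul]
      linear_combination h1
    intro s hs
    obtain ⟨hd1, hns, he⟩ := hd s hs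
    obtain ⟨hd1', hns', he'⟩ := hd' s hs
    have e1 : a.eval s / d.eval s = a'.eval s / d'.eval s := by
      rw [div_eq_div_iff hd1 hd1']
      have := congrArg (eval s) hp
      simp only [eval_sub, eval_mul, eval_zero] at this
      linear_combination this
    have e2 : b.eval s / d.eval s = b'.eval s / d'.eval s := by
      rw [div_eq_div_iff hd1 hd1']
      have := congrArg (eval s) hq
      simp only [eval_sub, eval_mul, eval_zero] at this
      linear_combination this
    rw [he, he', Point.some.injEq]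
    exact ⟨e1, e2⟩

/-- Integer multiples of a rational section of exact order `5`. -/
theorem IsRatSec.zsmul_of_order_five (hE : IsPolyFam E) {P : ∀ s, (E s).Point}
    (hP : IsRatSec E U P) (h5 : ∀ s ∈ U, (5 : ℤ) • P s = 0) (hne : ∀ s ∈ U, P s ≠ 0) (m : ℤ) :
    IsRatSec E U (fun s => m • P s) := by
  have hmod : ∀ s ∈ U, (m % 5) • P s = m • P s := by
    intro s hs
    have : m = m % 5 + (m / 5) * 5 := by omega
    conv_rhs => rw [this]
    rw [add_smul, mul_smul, h5 s hs, smul_zero, add_zero]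
  have hdouble : IsRatSec E U (fun s => P s + P s) := by
    refine hP.double hE fun s hs _ h0 => hne s hs ?_
    have h2 : (2 : ℤ) • P s = 0 := by rw [two_smul]; exact h0
    have : P s = (5 : ℤ) • P s - (2 : ℤ) • ((2 : ℤ) • P s) := by
      rw [smul_smul, ← sub_smul]; norm_num
    rw [this, h5 s hs, h2, smul_zero, sub_zero]
  have hm := Int.emod_nonneg m (by norm_num : (5 : ℤ) ≠ 0)
  have hm' := Int.emod_lt_of_pos m (by norm_num : (0 : ℤ) < 5)
  have key : ∀ r : ℤ, 0 ≤ r → r < 5 → IsRatSec E U (fun s => r • P s) := by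
    intro r hr0 hr5
    interval_cases r
    · exact (isRatSec_zero (E := E) (U := U)).congr fun s hs => by simp
    · exact hP.congr fun s hs => by simp
    · exact hdouble.congr fun s hs => by rw [two_smul]
    · refine (hdouble.neg hE).congr fun s hs => ?_
      have : (3 : ℤ) • P s = (5 : ℤ) • P s - (2 : ℤ) • P s := by
        rw [← sub_smul]; norm_num
      rw [this, h5 s hs, two_smul, zero_sub]
    · refine (hP.neg hE).congr fun s hs => ?_
      have : (4 : ℤ) • P s = (5 : ℤ) • P s - (1 : ℤ) • P s := by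
        rw [← sub_smul]; norm_num
      rw [this, h5 s hs, one_smul, zero_sub]
  exact (key (m % 5) hm hm').congr hmod

/-- Integer combinations of two independent rational sections of order `5`. -/
theorem IsRatSec.comb (hE : IsPolyFam E) {P1 P2 : ∀ s, (E s).Point}
    (hP1 : IsRatSec E U P1) (hP2 : IsRatSec E U P2)
    (h5 : ∀ s ∈ U, (5 : ℤ) • P1 s = 0 ∧ (5 : ℤ) • P2 s = 0)
    (hind : ∀ s ∈ U, ∀ m n : ℤ, m • P1 s + n • P2 s = 0 → (5 : ℤ) ∣ m ∧ (5 : ℤ) ∣ n)
    (m n : ℤ) : IsRatSec E U (fun s => m • P1 s + n • P2 s) := by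
  have hne1 : ∀ s ∈ U, P1 s ≠ 0 := by
    intro s hs h0
    have := (hind s hs 1 0 (by simp [h0])).1
    norm_num at this
  have hne2 : ∀ s ∈ U, P2 s ≠ 0 := by
    intro s hs h0
    have := (hind s hs 0 1 (by simp [h0])).2
    norm_num at this
  have hz : ∀ s ∈ U, ∀ k : ℤ, (5 : ℤ) ∣ k → k • P1 s = 0 := by
    rintro s hs k ⟨c, rfl⟩
    rw [mul_comm, mul_smul, (h5 s hs).1, smul_zero]
  refine IsRatSec.add hE (hP1.zsmul_of_order_five hE (fun s hs => (h5 s hs).1) hne1 m)
    (hP2.zsmul_of_order_five hE (fun s hs => (h5 s hs).2) hne2 n) fun s hs h1 h2 => ⟨?_, ?_⟩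
  · intro he
    apply h1
    refine hz s hs m (hind s hs m (-n) ?_).1
    rw [neg_smul, he, add_neg_cancel]
  · intro he
    apply h1
    refine hz s hs m (hind s hs m n ?_).1
    rw [he, neg_add_cancel]

/-- **Constancy along the line.**  Let `P1, P2` be rational sections which, at every parameter
of the infinite set `U`, are independent points of order `5`, and let `Q` be a rational section
lying in their span at every parameter of `U`.  If `Q = m • P1 + n • P2` at one parameter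
`s₀ ∈ U`, then the same relation holds at every parameter of `U`. -/
theorem lineConst (hE : IsPolyFam E) (hU : U.Infinite) {P1 P2 Q : ∀ s, (E s).Point}
    (hP1 : IsRatSec E U P1) (hP2 : IsRatSec E U P2) (hQ : IsRatSec E U Q)
    (h5 : ∀ s ∈ U, (5 : ℤ) • P1 s = 0 ∧ (5 : ℤ) • P2 s = 0)
    (hind : ∀ s ∈ U, ∀ m n : ℤ, m • P1 s + n • P2 s = 0 → (5 : ℤ) ∣ m ∧ (5 : ℤ) ∣ n)
    (hspan : ∀ s ∈ U, ∃ m n : ℤ, Q s = m • P1 s + n • P2 s)
    {s₀ : K} (hs₀ : s₀ ∈ U) {m n : ℤ} (h0 : Q s₀ = m • P1 s₀ + n • P2 s₀) :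
    ∀ s ∈ U, Q s = m • P1 s + n • P2 s := by
  classical
  -- reduce coefficients modulo 5
  have hred : ∀ s ∈ U, ∀ i j : ℤ, (i % 5) • P1 s + (j % 5) • P2 s = i • P1 s + j • P2 s := by
    intro s hs i j
    have hi : i = i % 5 + (i / 5) * 5 := by omega
    have hj : j = j % 5 + (j / 5) * 5 := by omega
    conv_rhs => rw [hi, hj]
    rw [add_smul, add_smul, mul_smul, mul_smul, (h5 s hs).1, (h5 s hs).2, smul_zero, smul_zero,
      add_zero, add_zero]
  -- the finite index set
  let I : Finset (ℤ × ℤ) := (Finset.Ico (0 : ℤ) 5) ×ˢ (Finset.Ico (0 : ℤ) 5)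
  let Z : ℤ × ℤ → Set K := fun ij => {s | s ∈ U ∧ Q s = ij.1 • P1 s + ij.2 • P2 s}
  have hcover : U ⊆ ⋃ ij ∈ I, Z ij := by
    intro s hs
    obtain ⟨i, j, hij⟩ := hspan s hs
    refine Set.mem_iUnion₂.2 ⟨(i % 5, j % 5), ?_, hs, ?_⟩
    · simp only [I, Finset.mem_product, Finset.mem_Ico]
      refine ⟨⟨Int.emod_nonneg _ (by norm_num), Int.emod_lt_of_pos _ (by norm_num)⟩,
        ⟨Int.emod_nonneg _ (by norm_num), Int.emod_lt_of_pos _ (by norm_num)⟩⟩
    · rw [hij]; exact (hred s hs i j).symm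
  obtain ⟨ij, -, hinf⟩ : ∃ ij ∈ I, (Z ij).Infinite := by
    by_contra hcon
    have hcon' : ∀ ij ∈ I, (Z ij).Finite := fun ij hij =>
      Set.not_infinite.1 fun h => hcon ⟨ij, hij, h⟩
    have : (⋃ ij ∈ I, Z ij).Finite :=
      Set.Finite.biUnion I.finite_toSet hcon'
    exact hU (this.subset hcover)
  have hall := hQ.eqOn (IsRatSec.comb hE hP1 hP2 h5 hind ij.1 ij.2) hinf (fun s hs => hs.1)
    (fun s hs => hs.2)
  -- identify the coefficients at `s₀`
  have h00 := hall s₀ hs₀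
  rw [h0] at h00
  have hdiff : (m - ij.1) • P1 s₀ + (n - ij.2) • P2 s₀ = 0 := by
    rw [sub_smul, sub_smul]
    have : m • P1 s₀ - ij.1 • P1 s₀ + (n • P2 s₀ - ij.2 • P2 s₀)
        = (m • P1 s₀ + n • P2 s₀) - (ij.1 • P1 s₀ + ij.2 • P2 s₀) := by abel
    rw [this, h00, sub_self]
  obtain ⟨⟨c1, hc1⟩, ⟨c2, hc2⟩⟩ := hind s₀ hs₀ _ _ hdiff
  intro s hs
  rw [hall s hs]
  have e1 : ij.1 = m - c1 * 5 := by omega
  have e2 : ij.2 = n - c2 * 5 := by omega
  rw [e1, e2, sub_smul, sub_smul, mul_smul, mul_smul, (h5 s hs).1, (h5 s hs).2, smul_zero,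
    smul_zero, sub_zero, sub_zero]

end Fermat.Agent.S52.helper2276
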