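import Mathlib

/-!
# S52, leaf 4(f): symmetries of Klein's icosahedral forms and equivariance of the pencil

Captain's normalisation (`team_s52_chat` #108, item 0):
`kf = u v (u¹⁰ + 11 u⁵ v⁵ - v¹⁰)`, `kH`, `kT` (`kT² + kH³ = 1728 kf⁵`), partials `fu`, `fv` of `kf`,
degree-11 pencil `pen t (u,v) = (u + t * fv, v - t * fu)`.

`KleinCov α β γ δ` says that the linear map `(u,v) ↦ (α u + β v, γ u + δ v)` satisfies
`kf ∘ g = det g * kf`, `kH ∘ g = kH`, `kT ∘ g = kT` and `n ∘ g = g ∘ n` for `n = (fv, -fu)`;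
hence `pen t ∘ g = g ∘ pen t` (`KleinCov.penU_eq`, `KleinCov.penV_eq`).  It is proved for
* `J = (0 1; -1 0)`, its negative, the identity,
* scalars `lam` with `lam ^ 10 = 1`,
* diagonal matrices `diag(c, d)` with `c ^ 5 = d ^ 5 = 1`,
* Klein's matrix `K = (a, b; b, -a)`, `b = -τ a`, `τ² + τ - 1 = 0`, `(2 - τ) a² = -1`
  (division free, any commutative ring), and in the form `a = (-1-2z-3z²+z³)/5`,
  `b = (2+4z+z²+3z³)/5` for a root `z` of the fifth cyclotomic polynomial in a field,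
and it is closed under composition (`KleinCov.mul`).  The four orbit shapes of
`helper6116.fibre_subset_orbit` are instances (`OrbitRel.exists_cov`, `OrbitRel.pen`).
-/

set_option autoImplicit false

namespace Fermat.Agent.S52.helper2534

section Defs

variable {R : Type*} [CommRing R]

/-- Klein's icosahedral invariant `f` (degree 12). -/
def kf (u v : R) : R := u * v * (u ^ 10 + 11 * u ^ 5 * v ^ 5 - v ^ 10)

/-- Klein's invariant `H` (degree 20). -/
def kH (u v : R) : R :=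
  -(u ^ 20 + v ^ 20) + 228 * (u ^ 15 * v ^ 5 - u ^ 5 * v ^ 15) - 494 * u ^ 10 * v ^ 10

/-- Klein's invariant `T` (degree 30). -/
def kT (u v : R) : R :=
  u ^ 30 + v ^ 30 + 522 * (u ^ 25 * v ^ 5 - u ^ 5 * v ^ 25)
    - 10005 * (u ^ 20 * v ^ 10 + u ^ 10 * v ^ 20)

/-- `∂kf/∂u`. -/
def fu (u v : R) : R := 11 * u ^ 10 * v + 66 * u ^ 5 * v ^ 6 - v ^ 11

/-- `∂kf/∂v`. -/
def fv (u v : R) : R := u ^ 11 + 66 * u ^ 6 * v ^ 5 - 11 * u * v ^ 10

/-- First coordinate of the degree-11 pencil `pen t (u,v) = (u + t * fv, v - t * fu)`. -/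
def penU (t u v : R) : R := u + t * fv u v

/-- Second coordinate of the degree-11 pencil. -/
def penV (t u v : R) : R := v - t * fu u v

theorem penU_zero (u v : R) : penU 0 u v = u := by simp [penU]

theorem penV_zero (u v : R) : penV 0 u v = v := by simp [penV]

/-- The icosahedral syzygy. -/
theorem kT_sq_add_kH_cube (u v : R) : kT u v ^ 2 + kH u v ^ 3 = 1728 * kf u v ^ 5 := by
  simp only [kT, kH, kf]; ring

/-- Euler's identity for `kf`. -/
theorem euler_kf (u v : R) : u * fu u v + v * fv u v = 12 * kf u v := by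
  simp only [fu, fv, kf]; ring

/-- `det [w, n(w)] = -12 kf(w)` for the pencil direction `n(w) = (fv, -fu)`. -/
theorem det_dir (u v : R) : u * (-(fu u v)) - v * fv u v = -12 * kf u v := by
  simp only [fu, fv, kf]; ring

/-- `det [pen t w, n(w)] = -12 kf(w)`: the pencil is a genuine line through `w` with
direction `n(w)` whenever `12 * kf w ≠ 0`. -/
theorem det_pen_dir (t u v : R) :
    penU t u v * (-(fu u v)) - penV t u v * fv u v = -12 * kf u v := by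
  simp only [penU, penV, fu, fv, kf]; ring

theorem map_kf {S : Type*} [CommRing S] (φ : R →+* S) (u v : R) :
    φ (kf u v) = kf (φ u) (φ v) := by
  simp only [kf, map_mul, map_add, map_sub, map_pow, map_ofNat]

theorem map_kH {S : Type*} [CommRing S] (φ : R →+* S) (u v : R) :
    φ (kH u v) = kH (φ u) (φ v) := by
  simp only [kH, map_mul, map_add, map_sub, map_neg, map_pow, map_ofNat]

theorem map_kT {S : Type*} [CommRing S] (φ : R →+* S) (u v : R) :
    φ (kT u v) = kT (φ u) (φ v) := by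
  simp only [kT, map_mul, map_add, map_sub, map_pow, map_ofNat]

theorem map_fu {S : Type*} [CommRing S] (φ : R →+* S) (u v : R) :
    φ (fu u v) = fu (φ u) (φ v) := by
  simp only [fu, map_mul, map_add, map_sub, map_pow, map_ofNat]

theorem map_fv {S : Type*} [CommRing S] (φ : R →+* S) (u v : R) :
    φ (fv u v) = fv (φ u) (φ v) := by
  simp only [fv, map_mul, map_add, map_sub, map_pow, map_ofNat]

theorem map_penU {S : Type*} [CommRing S] (φ : R →+* S) (t u v : R) :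
    φ (penU t u v) = penU (φ t) (φ u) (φ v) := by
  simp only [penU, map_add, map_mul, map_fv]

theorem map_penV {S : Type*} [CommRing S] (φ : R →+* S) (t u v : R) :
    φ (penV t u v) = penV (φ t) (φ u) (φ v) := by
  simp only [penV, map_sub, map_mul, map_fu]

/-! ### The forms as functions of `p = u⁵`, `q = v⁵` -/

/-- `kf u v = u * v * ffq (u^5) (v^5)`. -/
def ffq (p q : R) : R := p ^ 2 + 11 * p * q - q ^ 2

/-- `kH u v = hhq (u^5) (v^5)`. -/
def hhq (p q : R) : R := -(p ^ 4 + q ^ 4) + 228 * (p ^ 3 * q - p * q ^ 3) - 494 * p ^ 2 * q ^ 2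

/-- `kT u v = ttq (u^5) (v^5)`. -/
def ttq (p q : R) : R :=
  p ^ 6 + q ^ 6 + 522 * (p ^ 5 * q - p * q ^ 5) - 10005 * (p ^ 4 * q ^ 2 + p ^ 2 * q ^ 4)

/-- `fu u v = v * guq (u^5) (v^5)`. -/
def guq (p q : R) : R := 11 * p ^ 2 + 66 * p * q - q ^ 2

/-- `fv u v = u * gvq (u^5) (v^5)`. -/
def gvq (p q : R) : R := p ^ 2 + 66 * p * q - 11 * q ^ 2

theorem kf_eq_ffq (u v : R) : kf u v = u * v * ffq (u ^ 5) (v ^ 5) := by
  simp only [kf, ffq]; ring

theorem kH_eq_hhq (u v : R) : kH u v = hhq (u ^ 5) (v ^ 5) := by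
  simp only [kH, hhq]; ring

theorem kT_eq_ttq (u v : R) : kT u v = ttq (u ^ 5) (v ^ 5) := by
  simp only [kT, ttq]; ring

theorem fu_eq_guq (u v : R) : fu u v = v * guq (u ^ 5) (v ^ 5) := by
  simp only [fu, guq]; ring

theorem fv_eq_gvq (u v : R) : fv u v = u * gvq (u ^ 5) (v ^ 5) := by
  simp only [fv, gvq]; ring

end Defs

/-! ### The covariance predicate -/

section Cov

variable {R : Type*} [CommRing R]

/-- The linear map `(u,v) ↦ (α u + β v, γ u + δ v)` is a symmetry of Klein's forms: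
`kf ∘ g = det g * kf`, `kH ∘ g = kH`, `kT ∘ g = kT`, and the direction field `n = (fv, -fu)`
of the pencil satisfies `n ∘ g = g ∘ n`. -/
structure KleinCov (α β γ δ : R) : Prop where
  kf_eq : ∀ u v : R, kf (α * u + β * v) (γ * u + δ * v) = (α * δ - β * γ) * kf u v
  kH_eq : ∀ u v : R, kH (α * u + β * v) (γ * u + δ * v) = kH u v
  kT_eq : ∀ u v : R, kT (α * u + β * v) (γ * u + δ * v) = kT u v
  fv_eq : ∀ u v : R, fv (α * u + β * v) (γ * u + δ * v) = α * fv u v - β * fu u v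
  fu_eq : ∀ u v : R, fu (α * u + β * v) (γ * u + δ * v) = δ * fu u v - γ * fv u v

namespace KleinCov

variable {α β γ δ : R}

/-- Equivariance of the pencil, first coordinate. -/
theorem penU_eq (h : KleinCov α β γ δ) (t u v : R) :
    penU t (α * u + β * v) (γ * u + δ * v) = α * penU t u v + β * penV t u v := by
  simp only [penU, penV, h.fv_eq]; ring

/-- Equivariance of the pencil, second coordinate. -/
theorem penV_eq (h : KleinCov α β γ δ) (t u v : R) :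
    penV t (α * u + β * v) (γ * u + δ * v) = γ * penU t u v + δ * penV t u v := by
  simp only [penU, penV, h.fu_eq]; ring

/-- `kf` along the pencil transforms like `kf`. -/
theorem kf_pen (h : KleinCov α β γ δ) (t u v : R) :
    kf (penU t (α * u + β * v) (γ * u + δ * v)) (penV t (α * u + β * v) (γ * u + δ * v))
      = (α * δ - β * γ) * kf (penU t u v) (penV t u v) := by
  rw [h.penU_eq, h.penV_eq, h.kf_eq]

/-- `kH` along the pencil is invariant. -/
theorem kH_pen (h : KleinCov α β γ δ) (t u v : R) :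
    kH (penU t (α * u + β * v) (γ * u + δ * v)) (penV t (α * u + β * v) (γ * u + δ * v))
      = kH (penU t u v) (penV t u v) := by
  rw [h.penU_eq, h.penV_eq, h.kH_eq]

/-- `kT` along the pencil is invariant. -/
theorem kT_pen (h : KleinCov α β γ δ) (t u v : R) :
    kT (penU t (α * u + β * v) (γ * u + δ * v)) (penV t (α * u + β * v) (γ * u + δ * v))
      = kT (penU t u v) (penV t u v) := by
  rw [h.penU_eq, h.penV_eq, h.kT_eq]

/-- Composition (matrix product). -/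
theorem mul {α' β' γ' δ' : R} (h : KleinCov α β γ δ) (h' : KleinCov α' β' γ' δ') :
    KleinCov (α * α' + β * γ') (α * β' + β * δ') (γ * α' + δ * γ') (γ * β' + δ * δ') := by
  have e1 : ∀ u v : R, (α * α' + β * γ') * u + (α * β' + β * δ') * v
      = α * (α' * u + β' * v) + β * (γ' * u + δ' * v) := fun u v => by ring
  have e2 : ∀ u v : R, (γ * α' + δ * γ') * u + (γ * β' + δ * δ') * v
      = γ * (α' * u + β' * v) + δ * (γ' * u + δ' * v) := fun u v => by ring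
  refine ⟨fun u v => ?_, fun u v => ?_, fun u v => ?_, fun u v => ?_, fun u v => ?_⟩
  · rw [e1, e2, h.kf_eq, h'.kf_eq]; ring
  · rw [e1, e2, h.kH_eq, h'.kH_eq]
  · rw [e1, e2, h.kT_eq, h'.kT_eq]
  · rw [e1, e2, h.fv_eq, h'.fv_eq, h'.fu_eq]; ring
  · rw [e1, e2, h.fu_eq, h'.fu_eq, h'.fv_eq]; ring

/-- Congruence in the four entries. -/
theorem congr {α' β' γ' δ' : R} (h : KleinCov α β γ δ) (hα : α = α') (hβ : β = β')
    (hγ : γ = γ') (hδ : δ = δ') : KleinCov α' β' γ' δ' := by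
  subst hα hβ hγ hδ; exact h

end KleinCov

/-- The identity. -/
theorem kleinCov_one : KleinCov (1 : R) 0 0 1 :=
  ⟨fun u v => by simp, fun u v => by simp, fun u v => by simp, fun u v => by simp,
   fun u v => by simp⟩

/-- `J (u, v) = (v, -u)`. -/
theorem kleinCov_J : KleinCov (0 : R) 1 (-1) 0 :=
  ⟨fun u v => by simp only [kf]; ring, fun u v => by simp only [kH]; ring,
   fun u v => by simp only [kT]; ring, fun u v => by simp only [fv, fu]; ring,
   fun u v => by simp only [fv, fu]; ring⟩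

/-- `-J (u, v) = (-v, u)`. -/
theorem kleinCov_J' : KleinCov (0 : R) (-1) 1 0 :=
  ⟨fun u v => by simp only [kf]; ring, fun u v => by simp only [kH]; ring,
   fun u v => by simp only [kT]; ring, fun u v => by simp only [fv, fu]; ring,
   fun u v => by simp only [fv, fu]; ring⟩

/-- Scalars `lam` with `lam ^ 10 = 1`. -/
theorem kleinCov_scalar (lam : R) (h : lam ^ 10 = 1) : KleinCov lam 0 0 lam := by
  refine ⟨fun u v => ?_, fun u v => ?_, fun u v => ?_, fun u v => ?_, fun u v => ?_⟩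
  · simp only [kf]
    linear_combination (lam ^ 2 * (u * v * (u ^ 10 + 11 * u ^ 5 * v ^ 5 - v ^ 10))) * h
  · simp only [kH]
    linear_combination ((lam ^ 10 + 1) * (-(u ^ 20 + v ^ 20) + 228 * (u ^ 15 * v ^ 5 - u ^ 5 * v ^ 15)
      - 494 * u ^ 10 * v ^ 10)) * h
  · simp only [kT]
    linear_combination ((lam ^ 20 + lam ^ 10 + 1) * (u ^ 30 + v ^ 30
      + 522 * (u ^ 25 * v ^ 5 - u ^ 5 * v ^ 25) - 10005 * (u ^ 20 * v ^ 10 + u ^ 10 * v ^ 20))) * h
  · simp only [fv, fu]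
    linear_combination (lam * (u ^ 11 + 66 * u ^ 6 * v ^ 5 - 11 * u * v ^ 10)) * h
  · simp only [fv, fu]
    linear_combination (lam * (11 * u ^ 10 * v + 66 * u ^ 5 * v ^ 6 - v ^ 11)) * h

/-- Diagonal matrices `diag(c, d)` with `c ^ 5 = d ^ 5 = 1`. -/
theorem kleinCov_diag (c d : R) (hc : c ^ 5 = 1) (hd : d ^ 5 = 1) : KleinCov c 0 0 d := by
  have e1 : ∀ u v : R, c * u + 0 * v = c * u := fun u v => by ring
  have e2 : ∀ u v : R, 0 * u + d * v = d * v := fun u v => by ring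
  have ec : ∀ u : R, (c * u) ^ 5 = u ^ 5 := fun u => by rw [mul_pow, hc, one_mul]
  have ed : ∀ v : R, (d * v) ^ 5 = v ^ 5 := fun v => by rw [mul_pow, hd, one_mul]
  refine ⟨fun u v => ?_, fun u v => ?_, fun u v => ?_, fun u v => ?_, fun u v => ?_⟩
  · rw [e1, e2, kf_eq_ffq (c * u) (d * v), ec, ed, kf_eq_ffq u v]; ring
  · rw [e1, e2, kH_eq_hhq (c * u) (d * v), ec, ed, kH_eq_hhq u v]
  · rw [e1, e2, kT_eq_ttq (c * u) (d * v), ec, ed, kT_eq_ttq u v]
  · rw [e1, e2, fv_eq_gvq (c * u) (d * v), ec, ed, fv_eq_gvq u v]; ring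
  · rw [e1, e2, fu_eq_guq (c * u) (d * v), ec, ed, fu_eq_guq u v]; ring

end Cov

/-! ### Klein's matrix `K`

`T0' (u, v) = (u - τ v, -(τ u + v))` with `τ² + τ - 1 = 0` scales the forms by powers of
`κ = 2 - τ`; `K = a • T0'` with `κ a² = -1` is a genuine symmetry. -/

section KleinK

variable {R : Type*} [CommRing R]

theorem pow5_sub (τ u v : R) (hτ : τ ^ 2 + τ - 1 = 0) :
    (u - τ * v) ^ 5 = 3 * v^5 + 10 * u * v^4 + 10 * u^2 * v^3 + 10 * u^3 * v^2 + u^5 + (-5) * τ * v^5 + (-15) * τ * u * v^4 + (-20) * τ * u^2 * v^3 + (-10) * τ * u^3 * v^2 + (-5) * τ * u^4 * v := by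
  linear_combination (3 * v^5 + 10 * u * v^4 + 10 * u^2 * v^3 + 10 * u^3 * v^2 + (-2) * τ * v^5 + (-5) * τ * u * v^4 + (-10) * τ * u^2 * v^3 + τ^2 * v^5 + 5 * τ^2 * u * v^4 + (-τ^3 * v^5)) * hτ

theorem pow5_neg (τ u v : R) (hτ : τ ^ 2 + τ - 1 = 0) :
    (-(τ * u + v)) ^ 5 = (-v^5) + (-10) * u^2 * v^3 + 10 * u^3 * v^2 + (-10) * u^4 * v + 3 * u^5 + (-5) * τ * u * v^4 + 10 * τ * u^2 * v^3 + (-20) * τ * u^3 * v^2 + 15 * τ * u^4 * v + (-5) * τ * u^5 := by
  linear_combination ((-10) * u^2 * v^3 + 10 * u^3 * v^2 + (-10) * u^4 * v + 3 * u^5 + (-10) * τ * u^3 * v^2 + 5 * τ * u^4 * v + (-2) * τ * u^5 + (-5) * τ^2 * u^4 * v + τ^2 * u^5 + (-τ^3 * u^5)) * hτ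

theorem kappa_pow5 (τ : R) (hτ : τ ^ 2 + τ - 1 = 0) : (2 - τ) ^ 5 = 175 + (-275) * τ := by
  linear_combination (143 + (-52) * τ + 11 * τ^2 + (-τ^3)) * hτ

theorem kappa_pow6 (τ : R) (hτ : τ ^ 2 + τ - 1 = 0) : (2 - τ) ^ 6 = 625 + (-1000) * τ := by
  linear_combination (561 + (-247) * τ + 74 * τ^2 + (-13) * τ^3 + τ^4) * hτ

theorem kappa_pow10 (τ : R) (hτ : τ ^ 2 + τ - 1 = 0) : (2 - τ) ^ 10 = 106250 + (-171875) * τ := by
  linear_combination (105226 + (-61529) * τ + 32177 * τ^2 + (-13992) * τ^3 + 4745 * τ^4 + (-1183) * τ^5 + 202 * τ^6 + (-21) * τ^7 + τ^8) * hτ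

theorem kappa_pow15 (τ : R) (hτ : τ ^ 2 + τ - 1 = 0) : (2 - τ) ^ 15 = 65859375 + (-106562500) * τ := by
  linear_combination (65826607 + (-40490133) * τ + 24476314 * τ^2 + (-14150139) * τ^3 + 7530655 * τ^4 + (-3544412) * τ^5 + 1423683 * τ^6 + (-473369) * τ^7 + 126634 * τ^8 + (-26415) * τ^9 + 4123 * τ^10 + (-452) * τ^11 + 31 * τ^12 + (-τ^13)) * hτ

/-- `kf ∘ T0' = κ⁶ kf`. -/
theorem kf_T0 (τ u v : R) (hτ : τ ^ 2 + τ - 1 = 0) :
    kf (u - τ * v) (-(τ * u + v)) = (2 - τ) ^ 6 * kf u v := by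
  rw [kf_eq_ffq (u - τ * v) (-(τ * u + v)), pow5_sub τ u v hτ, pow5_neg τ u v hτ, kappa_pow6 τ hτ]
  simp only [ffq, kf]
  linear_combination ((-650) * u * v^11 + (-50) * u^2 * v^10 + (-300) * u^3 * v^9 + (-600) * u^4 * v^8 + (-150) * u^5 * v^7 + 6275 * u^6 * v^6 + 150 * u^7 * v^5 + (-600) * u^8 * v^4 + 300 * u^9 * v^3 + (-50) * u^10 * v^2 + 650 * u^11 * v + 25 * τ * v^12 + 425 * τ * u * v^11 + 25 * τ * u^2 * v^10 + 300 * τ * u^3 * v^9 + (-650) * τ * u^4 * v^8 + (-750) * τ * u^5 * v^7 + (-5675) * τ * u^6 * v^6 + 750 * τ * u^7 * v^5 + (-650) * τ * u^8 * v^4 + (-300) * τ * u^9 * v^3 + 25 * τ * u^10 * v^2 + (-425) * τ * u^11 * v + 25 * τ * u^12 + 25 * τ^2 * u * v^11 + 425 * τ^2 * u^2 * v^10 + 675 * τ^2 * u^3 * v^9 + 1350 * τ^2 * u^4 * v^8 + 1275 * τ^2 * u^5 * v^7 + 2475 * τ^2 * u^6 * v^6 + (-1275) * τ^2 * u^7 * v^5 + 1350 * τ^2 * u^8 * v^4 + (-675) * τ^2 * u^9 * v^3 + 425 * τ^2 * u^10 * v^2 + (-25) * τ^2 * u^11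 * v) * hτ

/-- `kH ∘ T0' = κ¹⁰ kH`. -/
theorem kH_T0 (τ u v : R) (hτ : τ ^ 2 + τ - 1 = 0) :
    kH (u - τ * v) (-(τ * u + v)) = (2 - τ) ^ 10 * kH u v := by
  rw [kH_eq_hhq (u - τ * v) (-(τ * u + v)), pow5_sub τ u v hτ, pow5_neg τ u v hτ, kappa_pow10 τ hτ]
  simp only [hhq, kH]
  linear_combination ((-96250) * v^20 + 90000 * u * v^19 + 480000 * u^2 * v^18 + 1860000 * u^3 * v^17 + 4920000 * u^4 * v^16 + (-13995000) * u^5 * v^15 + 15090000 * u^6 * v^14 + 17580000 * u^7 * v^13 + 21060000 * u^8 * v^12 + 8970000 * u^9 * v^11 + (-29997500) * u^10 * v^10 + (-8970000) * u^11 * v^9 + 21060000 * u^12 * v^8 + (-17580000) * u^13 * v^7 + 15090000 * u^14 * v^6 + 13995000 * u^15 * v^5 + 4920000 * u^16 * v^4 + (-1860000) * u^17 * v^3 + 480000 * u^18 * v^2 + (-90000) * u^19 * v + (-96250) * u^20 + 30625 * τ * v^20 + (-240000) * τ * u * v^19 + (-1230000) * τ * u^2 * v^18 + (-4860000) * τ * u^3 * v^17 + (-12870000) * τ * u^4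 * v^16 + (-13717500) * τ * u^5 * v^15 + (-39240000) * τ * u^6 * v^14 + (-46080000) * τ * u^7 * v^13 + (-54810000) * τ * u^8 * v^12 + (-22920000) * τ * u^9 * v^11 + (-30921250) * τ * u^10 * v^10 + 22920000 * τ * u^11 * v^9 + (-54810000) * τ * u^12 * v^8 + 46080000 * τ * u^13 * v^7 + (-39240000) * τ * u^14 * v^6 + 13717500 * τ * u^15 * v^5 + (-12870000) * τ * u^16 * v^4 + 4860000 * τ * u^17 * v^3 + (-1230000) * τ * u^18 * v^2 + 240000 * τ * u^19 * v + 30625 * τ * u^20 + (-625) * τ^2 * v^20 + 135000 * τ^2 * u * v^19 + 645000 * τ^2 * u^2 * v^18 + 2640000 * τ^2 * u^3 * v^17 + 7005000 * τ^2 * u^4 * v^16 + 11032500 * τ^2 * u^5 * v^15 + 21135000 * τ^2 * u^6 * v^14 + 25170000 * τ^2 * u^7 * v^13 + 29565000 * τ^2 * u^8 * v^12 + 11955000 * τ^2 * u^9 * v^11 + 24891250 * τ^2 * u^10 * v^10 + (-11955000) * τ^2 * u^11 * v^9 + 29565000 * τ^2 * u^12 * v^8 + (-25170000) * τ^2 * u^13 * v^7 + 21135000 * τ^2 * u^14 * v^6 + (-11032500)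 * τ^2 * u^15 * v^5 + 7005000 * τ^2 * u^16 * v^4 + (-2640000) * τ^2 * u^17 * v^3 + 645000 * τ^2 * u^18 * v^2 + (-135000) * τ^2 * u^19 * v + (-625) * τ^2 * u^20) * hτ

/-- `kT ∘ T0' = -κ¹⁵ kT`. -/
theorem kT_T0 (τ u v : R) (hτ : τ ^ 2 + τ - 1 = 0) :
    kT (u - τ * v) (-(τ * u + v)) = -((2 - τ) ^ 15 * kT u v) := by
  rw [kT_eq_ttq (u - τ * v) (-(τ * u + v)), pow5_sub τ u v hτ, pow5_neg τ u v hτ, kappa_pow15 τ hτ]
  simp only [ttq, kT]
  linear_combination ((-64834375) * v^30 + 13500000 * u * v^29 + 103500000 * u^2 * v^28 + 558000000 * u^3 * v^27 + 2299500000 * u^4 * v^26 + 41831043750 * u^5 * v^25 + 19552500000 * u^6 * v^24 + 41940000000 * u^7 * v^23 + 73777500000 * u^8 * v^22 + 111622500000 * u^9 * v^21 + 799867921875 * u^10 * v^20 + 159255000000 * u^11 * v^19 + 163305000000 * u^12 * v^18 + 119700000000 * u^13 * v^17 + 145350000000 * u^14 * v^16 + 145350000000 * u^16 * v^14 + (-119700000000) * u^17 * v^13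 + 163305000000 * u^18 * v^12 + (-159255000000) * u^19 * v^11 + 799867921875 * u^20 * v^10 + (-111622500000) * u^21 * v^9 + 73777500000 * u^22 * v^8 + (-41940000000) * u^23 * v^7 + 19552500000 * u^24 * v^6 + (-41831043750) * u^25 * v^5 + 2299500000 * u^26 * v^4 + (-558000000) * u^27 * v^3 + 103500000 * u^28 * v^2 + (-13500000) * u^29 * v + (-64834375) * u^30 + 34978125 * τ * v^30 + (-65250000) * τ * u * v^29 + (-470250000) * τ * u^2 * v^28 + (-2457000000) * τ * u^3 * v^27 + (-10064250000) * τ * u^4 * v^26 + (-53864831250) * τ * u^5 * v^25 + (-86703750000) * τ * u^6 * v^24 + (-187110000000) * τ * u^7 * v^23 + (-327341250000) * τ * u^8 * v^22 + (-496608750000) * τ * u^9 * v^21 + (-1020006140625) * τ * u^10 * v^20 + (-707332500000) * τ * u^11 * v^19 + (-715207500000) * τ * u^12 * v^18 + (-538650000000) * τ * u^13 * v^17 + (-654075000000) * τ * u^14 * v^16 + (-654075000000) * τ * u^16 * v^14 + 538650000000 * τ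 * u^17 * v^13 + (-715207500000) * τ * u^18 * v^12 + 707332500000 * τ * u^19 * v^11 + (-1020006140625) * τ * u^20 * v^10 + 496608750000 * τ * u^21 * v^9 + (-327341250000) * τ * u^22 * v^8 + 187110000000 * τ * u^23 * v^7 + (-86703750000) * τ * u^24 * v^6 + 53864831250 * τ * u^25 * v^5 + (-10064250000) * τ * u^26 * v^4 + 2457000000 * τ * u^27 * v^3 + (-470250000) * τ * u^28 * v^2 + 65250000 * τ * u^29 * v + 34978125 * τ * u^30 + (-12606250) * τ^2 * v^30 + 111375000 * τ^2 * u * v^29 + 718875000 * τ^2 * u^2 * v^28 + 3523500000 * τ^2 * u^3 * v^27 + 14245875000 * τ^2 * u^4 * v^26 + 58977337500 * τ^2 * u^5 * v^25 + 126208125000 * τ^2 * u^6 * v^24 + 275805000000 * τ^2 * u^7 * v^23 + 477039375000 * τ^2 * u^8 * v^22 + 727835625000 * τ^2 * u^9 * v^21 + 1100150531250 * τ^2 * u^10 * v^20 + 1033053750000 * τ^2 * u^11 * v^19 + 1013816250000 * τ^2 * u^12 * v^18 + 807975000000 * τ^2 * u^13 * v^17 + 981112500000 * τ^2 * u^14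 * v^16 + 981112500000 * τ^2 * u^16 * v^14 + (-807975000000) * τ^2 * u^17 * v^13 + 1013816250000 * τ^2 * u^18 * v^12 + (-1033053750000) * τ^2 * u^19 * v^11 + 1100150531250 * τ^2 * u^20 * v^10 + (-727835625000) * τ^2 * u^21 * v^9 + 477039375000 * τ^2 * u^22 * v^8 + (-275805000000) * τ^2 * u^23 * v^7 + 126208125000 * τ^2 * u^24 * v^6 + (-58977337500) * τ^2 * u^25 * v^5 + 14245875000 * τ^2 * u^26 * v^4 + (-3523500000) * τ^2 * u^27 * v^3 + 718875000 * τ^2 * u^28 * v^2 + (-111375000) * τ^2 * u^29 * v + (-12606250) * τ^2 * u^30 + 1559375 * τ^3 * v^30 + (-72000000) * τ^3 * u * v^29 + (-342000000) * τ^3 * u^2 * v^28 + (-1296000000) * τ^3 * u^3 * v^27 + (-4914000000) * τ^3 * u^4 * v^26 + (-22413993750) * τ^3 * u^5 * v^25 + (-49680000000) * τ^3 * u^6 * v^24 + (-114480000000) * τ^3 * u^7 * v^23 + (-188730000000) * τ^3 * u^8 * v^22 + (-295020000000) * τ^3 * u^9 * v^21 + (-396751546875) * τ^3 * u^10 * v^20 + (-412560000000)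 * τ^3 * u^11 * v^19 + (-352260000000) * τ^3 * u^12 * v^18 + (-359100000000) * τ^3 * u^13 * v^17 + (-436050000000) * τ^3 * u^14 * v^16 + (-436050000000) * τ^3 * u^16 * v^14 + 359100000000 * τ^3 * u^17 * v^13 + (-352260000000) * τ^3 * u^18 * v^12 + 412560000000 * τ^3 * u^19 * v^11 + (-396751546875) * τ^3 * u^20 * v^10 + 295020000000 * τ^3 * u^21 * v^9 + (-188730000000) * τ^3 * u^22 * v^8 + 114480000000 * τ^3 * u^23 * v^7 + (-49680000000) * τ^3 * u^24 * v^6 + 22413993750 * τ^3 * u^25 * v^5 + (-4914000000) * τ^3 * u^26 * v^4 + 1296000000 * τ^3 * u^27 * v^3 + (-342000000) * τ^3 * u^28 * v^2 + 72000000 * τ^3 * u^29 * v + 1559375 * τ^3 * u^30 + 15625 * τ^4 * v^30 + 8437500 * τ^4 * u * v^29 + (-47812500) * τ^4 * u^2 * v^28 + (-551250000) * τ^4 * u^3 * v^27 + (-2500312500) * τ^4 * u^4 * v^26 + (-6265968750) * τ^4 * u^5 * v^25 + (-17029687500) * τ^4 * u^6 * v^24 + (-32287500000) * τ^4 * u^7 * v^23 + (-63576562500)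 * τ^4 * u^8 * v^22 + (-91110937500) * τ^4 * u^9 * v^21 + (-133468828125) * τ^4 * u^10 * v^20 + (-134465625000) * τ^4 * u^11 * v^19 + (-175809375000) * τ^4 * u^12 * v^18 + (-74812500000) * τ^4 * u^13 * v^17 + (-90843750000) * τ^4 * u^14 * v^16 + (-90843750000) * τ^4 * u^16 * v^14 + 74812500000 * τ^4 * u^17 * v^13 + (-175809375000) * τ^4 * u^18 * v^12 + 134465625000 * τ^4 * u^19 * v^11 + (-133468828125) * τ^4 * u^20 * v^10 + 91110937500 * τ^4 * u^21 * v^9 + (-63576562500) * τ^4 * u^22 * v^8 + 32287500000 * τ^4 * u^23 * v^7 + (-17029687500) * τ^4 * u^24 * v^6 + 6265968750 * τ^4 * u^25 * v^5 + (-2500312500) * τ^4 * u^26 * v^4 + 551250000 * τ^4 * u^27 * v^3 + (-47812500) * τ^4 * u^28 * v^2 + (-8437500) * τ^4 * u^29 * v + 15625 * τ^4 * u^30) * hτ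

/-- `fv ∘ T0' = -κ⁵ (fv + τ fu)`. -/
theorem fv_T0 (τ u v : R) (hτ : τ ^ 2 + τ - 1 = 0) :
    fv (u - τ * v) (-(τ * u + v)) = -((2 - τ) ^ 5 * (fv u v + τ * fu u v)) := by
  rw [fv_eq_gvq (u - τ * v) (-(τ * u + v)), pow5_sub τ u v hτ, pow5_neg τ u v hτ, kappa_pow5 τ hτ]
  simp only [gvq, fv, fu]
  linear_combination (2125 * u * v^10 + 600 * u^2 * v^9 + 2700 * u^3 * v^8 + 4800 * u^4 * v^7 + 3000 * u^5 * v^6 + (-7950) * u^6 * v^5 + 1200 * u^7 * v^4 + 2400 * u^8 * v^3 + (-900) * u^9 * v^2 + (-275) * u^11 + (-25) * τ * v^11 + (-1800) * τ * u * v^10 + (-1800) * τ * u^2 * v^9 + (-5100) * τ * u^3 * v^8 + (-2400) * τ * u^4 * v^7 + (-14850) * τ * u^5 * v^6 + 12900 * τ * u^6 * v^5 + (-11100) * τ * u^7 * v^4 + 6300 * τ * u^8 * v^3 + (-3300) * τ * u^9 * v^2 + 275 * τ * u^10 * v) * hτ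

/-- `fu ∘ T0' = κ⁵ (fu - τ fv)`. -/
theorem fu_T0 (τ u v : R) (hτ : τ ^ 2 + τ - 1 = 0) :
    fu (u - τ * v) (-(τ * u + v)) = (2 - τ) ^ 5 * (fu u v - τ * fv u v) := by
  rw [fu_eq_guq (u - τ * v) (-(τ * u + v)), pow5_sub τ u v hτ, pow5_neg τ u v hτ, kappa_pow5 τ hτ]
  simp only [guq, fv, fu]
  linear_combination ((-275) * v^11 + (-900) * u^2 * v^9 + (-2400) * u^3 * v^8 + 1200 * u^4 * v^7 + 7950 * u^5 * v^6 + 3000 * u^6 * v^5 + (-4800) * u^7 * v^4 + 2700 * u^8 * v^3 + (-600) * u^9 * v^2 + 2125 * u^10 * v + (-275) * τ * u * v^10 + (-3300) * τ * u^2 * v^9 + (-6300) * τ * u^3 * v^8 + (-11100) * τ * u^4 * v^7 + (-12900) * τ * u^5 * v^6 + (-14850) * τ * u^6 * v^5 + 2400 * τ * u^7 * v^4 + (-5100) * τ * u^8 * v^3 + 1800 * τ * u^9 * v^2 + (-1800) * τ * u^10 * v + 25 * τ * u^11) * hτ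

/-- **Klein's matrix** `K = (a, b; b, -a)` with `b = -τ a`, `τ² + τ - 1 = 0`,
`(2 - τ) a² = -1` is a symmetry of Klein's forms (division free). -/
theorem kleinCov_K (τ a : R) (hτ : τ ^ 2 + τ - 1 = 0) (ha : (2 - τ) * a ^ 2 = -1) :
    KleinCov a (-(τ * a)) (-(τ * a)) (-a) := by
  have e1 : ∀ u v : R, a * u + -(τ * a) * v = a * (u - τ * v) := fun u v => by ring
  have e2 : ∀ u v : R, -(τ * a) * u + -a * v = a * (-(τ * u + v)) := fun u v => by ring
  have h5 : ((2 - τ) * a ^ 2) ^ 5 = -1 := by rw [ha]; norm_num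
  have h6 : ((2 - τ) * a ^ 2) ^ 6 = 1 := by rw [ha]; norm_num
  have h10 : ((2 - τ) * a ^ 2) ^ 10 = 1 := by rw [ha]; norm_num
  have h15 : ((2 - τ) * a ^ 2) ^ 15 = -1 := by rw [ha]; norm_num
  have sf : ∀ c x y : R, kf (c * x) (c * y) = c ^ 12 * kf x y := fun c x y => by
    simp only [kf]; ring
  have sH : ∀ c x y : R, kH (c * x) (c * y) = c ^ 20 * kH x y := fun c x y => by
    simp only [kH]; ring
  have sT : ∀ c x y : R, kT (c * x) (c * y) = c ^ 30 * kT x y := fun c x y => by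
    simp only [kT]; ring
  have sv : ∀ c x y : R, fv (c * x) (c * y) = c ^ 11 * fv x y := fun c x y => by
    simp only [fv]; ring
  have su : ∀ c x y : R, fu (c * x) (c * y) = c ^ 11 * fu x y := fun c x y => by
    simp only [fu]; ring
  refine ⟨fun u v => ?_, fun u v => ?_, fun u v => ?_, fun u v => ?_, fun u v => ?_⟩
  · rw [e1, e2, sf, kf_T0 τ u v hτ]
    linear_combination (kf u v) * h6 + (kf u v) * ha + (a ^ 2 * kf u v) * hτ
  · rw [e1, e2, sH, kH_T0 τ u v hτ]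
    linear_combination (kH u v) * h10
  · rw [e1, e2, sT, kT_T0 τ u v hτ]
    linear_combination (-(kT u v)) * h15
  · rw [e1, e2, sv, fv_T0 τ u v hτ]
    linear_combination (-(a * (fv u v + τ * fu u v))) * h5
  · rw [e1, e2, su, fu_T0 τ u v hτ]
    linear_combination (a * (fu u v - τ * fv u v)) * h5

end KleinK

/-! ### Klein's matrix in terms of a fifth root of unity, and the orbit shapes -/

section Field

variable {K : Type*} [Field K]

/-- Klein's matrix `K = (a, b; b, -a)` with `a = (-1-2z-3z²+z³)/5`, `b = (2+4z+z²+3z³)/5`,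
`z` a root of the fifth cyclotomic polynomial (normalisation of `helper6116`). -/
theorem kleinCov_K_zeta (z : K) (hz : z ^ 4 + z ^ 3 + z ^ 2 + z + 1 = 0) (h5 : (5 : K) ≠ 0) :
    KleinCov ((-1 - 2 * z - 3 * z ^ 2 + z ^ 3) / 5) ((2 + 4 * z + z ^ 2 + 3 * z ^ 3) / 5)
      ((2 + 4 * z + z ^ 2 + 3 * z ^ 3) / 5) (-((-1 - 2 * z - 3 * z ^ 2 + z ^ 3) / 5)) := by
  have h25 : (25 : K) ≠ 0 := by
    have e : (25 : K) = 5 * 5 := by norm_num
    rw [e]; exact mul_ne_zero h5 h5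
  have hτ : (z + z ^ 4) ^ 2 + (z + z ^ 4) - 1 = 0 := by
    linear_combination ((-1) + 2 * z + (-z^3) + z^4) * hz
  have hb0 : 2 + 4 * z + z ^ 2 + 3 * z ^ 3 = -((z + z ^ 4) * (-1 - 2 * z - 3 * z ^ 2 + z ^ 3)) := by
    linear_combination (2 + z + (-4) * z^2 + z^3) * hz
  have hb : (2 + 4 * z + z ^ 2 + 3 * z ^ 3) / 5
      = -((z + z ^ 4) * ((-1 - 2 * z - 3 * z ^ 2 + z ^ 3) / 5)) := by
    rw [hb0]; ring
  have ha0 : (2 - (z + z ^ 4)) * (-1 - 2 * z - 3 * z ^ 2 + z ^ 3) ^ 2 = -25 := by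
    linear_combination (27 + (-20) * z + 9 * z^2 + (-6) * z^3 + (-11) * z^4 + 7 * z^5 + (-z^6)) * hz
  have ha : (2 - (z + z ^ 4)) * ((-1 - 2 * z - 3 * z ^ 2 + z ^ 3) / 5) ^ 2 = -1 := by
    have e5 : (5 : K) ^ 2 = 25 := by norm_num
    rw [div_pow, ← mul_div_assoc, ha0, e5, neg_div, div_self h25]
  exact (kleinCov_K (z + z ^ 4) ((-1 - 2 * z - 3 * z ^ 2 + z ^ 3) / 5) hτ ha).congr rfl hb.symm
    hb.symm rfl

/-- Determinant of Klein's matrix: `a² + b² = -1`. -/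
theorem kleinK_det (z : K) (hz : z ^ 4 + z ^ 3 + z ^ 2 + z + 1 = 0) (h5 : (5 : K) ≠ 0) :
    ((-1 - 2 * z - 3 * z ^ 2 + z ^ 3) / 5) ^ 2 + ((2 + 4 * z + z ^ 2 + 3 * z ^ 3) / 5) ^ 2 = -1 := by
  have h25 : (25 : K) ≠ 0 := by
    have e : (25 : K) = 5 * 5 := by norm_num
    rw [e]; exact mul_ne_zero h5 h5
  have h0 : (-1 - 2 * z - 3 * z ^ 2 + z ^ 3) ^ 2 + (2 + 4 * z + z ^ 2 + 3 * z ^ 3) ^ 2 = -25 := by
    linear_combination (30 + (-10) * z + 10 * z^2) * hz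
  have e5 : (5 : K) ^ 2 = 25 := by norm_num
  rw [div_pow, div_pow, ← add_div, h0, e5, neg_div, div_self h25]

/-- The four orbit shapes of `helper6116.fibre_subset_orbit`:
`w = lam * diag(ze, 1) * g * diag(1, ze') * w₀` with `g ∈ {1, J, K, J K}`. -/
def OrbitRel (a b lam ze ze' u0 v0 u v : K) : Prop :=
  (u = lam * ze * u0 ∧ v = lam * v0) ∨
  (u = lam * ze * v0 ∧ v = -(lam * u0)) ∨
  (u = lam * ze * (a * u0 + b * ze' * v0) ∧ v = lam * (b * u0 - a * ze' * v0)) ∨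
  (u = lam * ze * (b * u0 - a * ze' * v0) ∧ v = -(lam * (a * u0 + b * ze' * v0)))

/-- Shape 1: `lam * diag(ze, 1)`. -/
theorem kleinCov_shape1 {lam ze : K} (hlam : lam ^ 10 = 1) (hze : ze ^ 5 = 1) :
    KleinCov (lam * ze) 0 0 lam :=
  ((kleinCov_scalar lam hlam).mul (kleinCov_diag ze 1 hze (one_pow 5))).congr
    (by ring) (by ring) (by ring) (by ring)

/-- Shape 2: `lam * diag(ze, 1) * J`. -/
theorem kleinCov_shape2 {lam ze : K} (hlam : lam ^ 10 = 1) (hze : ze ^ 5 = 1) :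
    KleinCov 0 (lam * ze) (-lam) 0 :=
  ((kleinCov_shape1 hlam hze).mul kleinCov_J).congr (by ring) (by ring) (by ring) (by ring)

/-- Shape 3: `lam * diag(ze, 1) * K * diag(1, ze')`. -/
theorem kleinCov_shape3 {a b : K} (hK : KleinCov a b b (-a)) {lam ze ze' : K}
    (hlam : lam ^ 10 = 1) (hze : ze ^ 5 = 1) (hze' : ze' ^ 5 = 1) :
    KleinCov (lam * ze * a) (lam * ze * b * ze') (lam * b) (-(lam * a * ze')) :=
  (((kleinCov_shape1 hlam hze).mul hK).mul (kleinCov_diag 1 ze' (one_pow 5) hze')).congr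
    (by ring) (by ring) (by ring) (by ring)

/-- Shape 4: `lam * diag(ze, 1) * J * K * diag(1, ze')`. -/
theorem kleinCov_shape4 {a b : K} (hK : KleinCov a b b (-a)) {lam ze ze' : K}
    (hlam : lam ^ 10 = 1) (hze : ze ^ 5 = 1) (hze' : ze' ^ 5 = 1) :
    KleinCov (lam * ze * b) (-(lam * ze * a * ze')) (-(lam * a)) (-(lam * b * ze')) :=
  (((kleinCov_shape2 hlam hze).mul hK).mul (kleinCov_diag 1 ze' (one_pow 5) hze')).congr
    (by ring) (by ring) (by ring) (by ring)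

/-- Each orbit shape is a linear map satisfying `KleinCov` (for any `a, b` such that Klein's
matrix `(a, b; b, -a)` satisfies `KleinCov`, e.g. by `kleinCov_K_zeta`). -/
theorem OrbitRel.exists_cov {a b : K} (hK : KleinCov a b b (-a)) {lam ze ze' : K}
    (hlam : lam ^ 10 = 1) (hze : ze ^ 5 = 1) (hze' : ze' ^ 5 = 1) {u0 v0 u v : K}
    (h : OrbitRel a b lam ze ze' u0 v0 u v) :
    ∃ α β γ δ : K, KleinCov α β γ δ ∧ u = α * u0 + β * v0 ∧ v = γ * u0 + δ * v0 := by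
  rcases h with ⟨hu, hv⟩ | ⟨hu, hv⟩ | ⟨hu, hv⟩ | ⟨hu, hv⟩
  · exact ⟨_, _, _, _, kleinCov_shape1 hlam hze, by rw [hu]; ring, by rw [hv]; ring⟩
  · exact ⟨_, _, _, _, kleinCov_shape2 hlam hze, by rw [hu]; ring, by rw [hv]; ring⟩
  · exact ⟨_, _, _, _, kleinCov_shape3 hK hlam hze hze', by rw [hu]; ring, by rw [hv]; ring⟩
  · exact ⟨_, _, _, _, kleinCov_shape4 hK hlam hze hze', by rw [hu]; ring, by rw [hv]; ring⟩

/-- Points in the same orbit have the same `kH`, `kT`, also along the pencil. -/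
theorem OrbitRel.forms {a b : K} (hK : KleinCov a b b (-a)) {lam ze ze' : K}
    (hlam : lam ^ 10 = 1) (hze : ze ^ 5 = 1) (hze' : ze' ^ 5 = 1) {u0 v0 u v : K}
    (h : OrbitRel a b lam ze ze' u0 v0 u v) :
    kH u v = kH u0 v0 ∧ kT u v = kT u0 v0 ∧
      ∀ t : K, kH (penU t u v) (penV t u v) = kH (penU t u0 v0) (penV t u0 v0) ∧
        kT (penU t u v) (penV t u v) = kT (penU t u0 v0) (penV t u0 v0) := by
  obtain ⟨α, β, γ, δ, hc, rfl, rfl⟩ := h.exists_cov hK hlam hze hze'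
  exact ⟨hc.kH_eq u0 v0, hc.kT_eq u0 v0, fun t => ⟨hc.kH_pen t u0 v0, hc.kT_pen t u0 v0⟩⟩

/-- **Equivariance of the pencil on orbits**: if `w` is in the orbit of `w₀` (shape of
`helper6116.fibre_subset_orbit`), then `pen t w` is in the orbit of `pen t w₀`, with the same
parameters `lam, ze, ze'` and the same shape. -/
theorem OrbitRel.pen {a b : K} (hK : KleinCov a b b (-a)) {lam ze ze' : K}
    (hlam : lam ^ 10 = 1) (hze : ze ^ 5 = 1) (hze' : ze' ^ 5 = 1) {u0 v0 u v : K} (t : K)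
    (h : OrbitRel a b lam ze ze' u0 v0 u v) :
    OrbitRel a b lam ze ze' (penU t u0 v0) (penV t u0 v0) (penU t u v) (penV t u v) := by
  rcases h with ⟨hu, hv⟩ | ⟨hu, hv⟩ | ⟨hu, hv⟩ | ⟨hu, hv⟩
  · have hc := kleinCov_shape1 hlam hze
    have eu : u = lam * ze * u0 + 0 * v0 := by rw [hu]; ring
    have ev : v = 0 * u0 + lam * v0 := by rw [hv]; ring
    refine Or.inl ⟨?_, ?_⟩
    · rw [eu, ev, hc.penU_eq]; ring
    · rw [eu, ev, hc.penV_eq]; ring
  · have hc := kleinCov_shape2 hlam hze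
    have eu : u = 0 * u0 + lam * ze * v0 := by rw [hu]; ring
    have ev : v = -lam * u0 + 0 * v0 := by rw [hv]; ring
    refine Or.inr (Or.inl ⟨?_, ?_⟩)
    · rw [eu, ev, hc.penU_eq]; ring
    · rw [eu, ev, hc.penV_eq]; ring
  · have hc := kleinCov_shape3 hK hlam hze hze'
    have eu : u = lam * ze * a * u0 + lam * ze * b * ze' * v0 := by rw [hu]; ring
    have ev : v = lam * b * u0 + -(lam * a * ze') * v0 := by rw [hv]; ring
    refine Or.inr (Or.inr (Or.inl ⟨?_, ?_⟩))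
    · rw [eu, ev, hc.penU_eq]; ring
    · rw [eu, ev, hc.penV_eq]; ring
  · have hc := kleinCov_shape4 hK hlam hze hze'
    have eu : u = lam * ze * b * u0 + -(lam * ze * a * ze') * v0 := by rw [hu]; ring
    have ev : v = -(lam * a) * u0 + -(lam * b * ze') * v0 := by rw [hv]; ring
    refine Or.inr (Or.inr (Or.inr ⟨?_, ?_⟩))
    · rw [eu, ev, hc.penU_eq]; ring
    · rw [eu, ev, hc.penV_eq]; ring

end Field

end Fermat.Agent.S52.helper2534
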