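import Mathlib

set_option autoImplicit false

open Polynomial

namespace Fermat.Agent.S52.helper267

/-! ### The `τ`-identity: a root of the 3-division quartic gives a point of `X₀(3)` -/

section Identity

variable {R : Type*} [CommRing R]

/-- If `x⁴ - 486 a x² - 5832 b x - 19683 a² = 0` (the 3-division quartic of a curve with
invariants `c₄ = a`, `c₆ = b` in the coordinate `x = 108 x₀ + 9 b₂`), then the pair
`(n, d) = (27 (A₄³ - 2 A₆²), 2 A₆²)`, `A₄ = x² - 81 a`, `A₆ = x³ - 243 a x - 1458 b`, satisfies the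
homogeneous form of `j = (τ + 27)(τ + 3)³ / τ` with `τ = n / d`. -/
theorem tau_identity (a b x : R)
    (hR : x ^ 4 - 486 * a * x ^ 2 - 5832 * b * x - 19683 * a ^ 2 = 0) :
    1728 * a ^ 3 * (27 * ((x ^ 2 - 81 * a) ^ 3 - 2 * (x ^ 3 - 243 * a * x - 1458 * b) ^ 2))
        * (2 * (x ^ 3 - 243 * a * x - 1458 * b) ^ 2) ^ 3
      = (a ^ 3 - b ^ 2)
        * (27 * ((x ^ 2 - 81 * a) ^ 3 - 2 * (x ^ 3 - 243 * a * x - 1458 * b) ^ 2)
            + 27 * (2 * (x ^ 3 - 243 * a * x - 1458 * b) ^ 2))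
        * (27 * ((x ^ 2 - 81 * a) ^ 3 - 2 * (x ^ 3 - 243 * a * x - 1458 * b) ^ 2)
            + 3 * (2 * (x ^ 3 - 243 * a * x - 1458 * b) ^ 2)) ^ 3 := by
  have h2 : (x ^ 2 - 81 * a) ^ 3 - 2 * (x ^ 3 - 243 * a * x - 1458 * b) ^ 2
      = 4251528 * (a ^ 3 - b ^ 2) := by
    linear_combination (-x ^ 2 + 243 * a) * hR
  have h3 : (x ^ 2 - 81 * a)
        * (9 * (x ^ 2 - 81 * a) ^ 3 - 16 * (x ^ 3 - 243 * a * x - 1458 * b) ^ 2)
      = 1296 * a * (x ^ 3 - 243 * a * x - 1458 * b) ^ 2 := by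
    linear_combination (-7 * x ^ 4 + 1458 * x ^ 2 * a + 5832 * x * b - 19683 * a ^ 2) * hR
  generalize x ^ 2 - 81 * a = A4 at h2 h3 ⊢
  generalize x ^ 3 - 243 * a * x - 1458 * b = A6 at h2 h3 ⊢
  have e1 : 27 * (A4 ^ 3 - 2 * A6 ^ 2) + 27 * (2 * A6 ^ 2) = 27 * A4 ^ 3 := by ring
  have e2 : 27 * (A4 ^ 3 - 2 * A6 ^ 2) + 3 * (2 * A6 ^ 2)
      = 3 * (9 * A4 ^ 3 - 16 * A6 ^ 2) := by ring
  rw [e1, e2, h2]
  have h3' : (A4 * (9 * A4 ^ 3 - 16 * A6 ^ 2)) ^ 3 = (1296 * a * A6 ^ 2) ^ 3 := by rw [h3]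
  linear_combination (-729 * (a ^ 3 - b ^ 2)) * h3'

/-- The denominator `2 A₆²` does not vanish when `a³ ≠ b²`. -/
theorem tau_denom_ne_zero [IsDomain R] [CharZero R] (a b x : R)
    (hR : x ^ 4 - 486 * a * x ^ 2 - 5832 * b * x - 19683 * a ^ 2 = 0)
    (hΔ : a ^ 3 - b ^ 2 ≠ 0) : 2 * (x ^ 3 - 243 * a * x - 1458 * b) ^ 2 ≠ 0 := by
  intro h
  have hA6 : x ^ 3 - 243 * a * x - 1458 * b = 0 := by
    have h2 : (2 : R) ≠ 0 := by
      exact_mod_cast (Nat.cast_ne_zero (R := R)).mpr (by norm_num : (2 : ℕ) ≠ 0)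
    exact pow_eq_zero_iff (by norm_num : (2 : ℕ) ≠ 0) |>.mp ((mul_eq_zero.mp h).resolve_left h2)
  have h1 : 3 * (x ^ 2 - 81 * a) ^ 2 = 0 := by
    linear_combination (4 * x) * hA6 - hR
  have hA4 : x ^ 2 - 81 * a = 0 := by
    have h3 : (3 : R) ≠ 0 := by
      exact_mod_cast (Nat.cast_ne_zero (R := R)).mpr (by norm_num : (3 : ℕ) ≠ 0)
    exact pow_eq_zero_iff (by norm_num : (2 : ℕ) ≠ 0) |>.mp ((mul_eq_zero.mp h1).resolve_left h3)
  have h2 : (4251528 : R) * (a ^ 3 - b ^ 2) = 0 := by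
    linear_combination (x ^ 2 - 81 * a) ^ 2 * hA4
      - 2 * (x ^ 3 - 243 * a * x - 1458 * b) * hA6 - (-x ^ 2 + 243 * a) * hR
  have h4 : (4251528 : R) ≠ 0 := by
    exact_mod_cast (Nat.cast_ne_zero (R := R)).mpr (by norm_num : (4251528 : ℕ) ≠ 0)
  exact hΔ ((mul_eq_zero.mp h2).resolve_left h4)

end Identity

/-! ### No point of `X₀(3)` over `K(s)` above a `j`-invariant with poles of exact order five -/

section NoTau

variable {K : Type*} [Field K] [CharZero K]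

private lemma isUnit_ofNat_poly (m : ℕ) (hm : m ≠ 0) : IsUnit ((m : ℕ) : K[X]) := by
  rw [← C_eq_natCast]
  exact isUnit_C.mpr (isUnit_iff_ne_zero.mpr (Nat.cast_ne_zero.mpr hm))

omit [CharZero K] in
private lemma exists_C_mul_of_associated {x y : K[X]} (h : Associated x y) :
    ∃ u : K, u ≠ 0 ∧ y = C u * x := by
  obtain ⟨w, hw⟩ := h
  obtain ⟨r, hr, hrw⟩ := Polynomial.isUnit_iff.mp w.isUnit
  exact ⟨r, hr.ne_zero, by rw [← hw, ← hrw, mul_comm]⟩

/-- Coprime version. -/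
theorem no_tau_coprime (a b F n d : K[X]) (κ : K) (hκ : κ ≠ 0) (hF : F.natDegree ≠ 0)
    (hΔ : a ^ 3 - b ^ 2 = C κ * F ^ 5) (hcop : IsCoprime a F) (hnd : IsCoprime n d) (hd : d ≠ 0)
    (heq : 1728 * a ^ 3 * n * d ^ 3 = (a ^ 3 - b ^ 2) * (n + 27 * d) * (n + 3 * d) ^ 3) :
    False := by
  have hF0 : F ≠ 0 := fun h => hF (by rw [h, natDegree_zero])
  have ha0 : a ≠ 0 := by
    rintro rfl
    exact hF (natDegree_eq_zero_of_isUnit (isCoprime_zero_left.mp hcop))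
  have hu27 : IsUnit (27 : K[X]) := by exact_mod_cast isUnit_ofNat_poly (K := K) 27 (by norm_num)
  have hu24 : IsUnit (24 : K[X]) := by exact_mod_cast isUnit_ofNat_poly (K := K) 24 (by norm_num)
  have hu3 : IsUnit (3 : K[X]) := by exact_mod_cast isUnit_ofNat_poly (K := K) 3 (by norm_num)
  have hu1728 : IsUnit (1728 : K[X]) := by
    exact_mod_cast isUnit_ofNat_poly (K := K) 1728 (by norm_num)
  have hκu : IsUnit (C κ : K[X]) := isUnit_C.mpr (isUnit_iff_ne_zero.mpr hκ)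
  have hn0 : n ≠ 0 := by
    rintro rfl
    have h0 : C κ * F ^ 5 * (27 * d) * (3 * d) ^ 3 = 0 := by
      rw [← hΔ]; linear_combination -heq
    have hne : C κ * F ^ 5 * (27 * d) * (3 * d) ^ 3 ≠ 0 :=
      mul_ne_zero (mul_ne_zero (mul_ne_zero hκu.ne_zero (pow_ne_zero _ hF0))
        (mul_ne_zero hu27.ne_zero hd)) (pow_ne_zero _ (mul_ne_zero hu3.ne_zero hd))
    exact hne h0
  have hL0 : 1728 * a ^ 3 * n * d ^ 3 ≠ 0 :=
    mul_ne_zero (mul_ne_zero (mul_ne_zero hu1728.ne_zero (pow_ne_zero _ ha0)) hn0)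
      (pow_ne_zero _ hd)
  have hp0 : n + 27 * d ≠ 0 := by
    intro h
    apply hL0
    rw [heq, h]
    ring
  -- coprimality relations
  have c1 : IsCoprime (n + 27 * d) d := by
    have := hnd.add_mul_left_left 27
    rwa [mul_comm] at this
  have c2 : IsCoprime (n + 3 * d) d := by
    have := hnd.add_mul_left_left 3
    rwa [mul_comm] at this
  have c3 : IsCoprime n (n + 27 * d) := by
    have h := (isCoprime_mul_unit_left_right hu27 n d).mpr hnd
    have h' := h.add_mul_left_right 1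
    have e : 27 * d + n * 1 = n + 27 * d := by ring
    rwa [e] at h'
  have c4 : IsCoprime n (n + 3 * d) := by
    have h := (isCoprime_mul_unit_left_right hu3 n d).mpr hnd
    have h' := h.add_mul_left_right 1
    have e : 3 * d + n * 1 = n + 3 * d := by ring
    rwa [e] at h'
  have c5 : IsCoprime (n + 27 * d) (n + 3 * d) := by
    have h := (isCoprime_mul_unit_left_right hu24 (n + 3 * d) d).mpr c2
    have h' := h.add_mul_left_right 1
    have e : 24 * d + (n + 3 * d) * 1 = n + 27 * d := by ring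
    rw [e] at h'
    exact h'.symm
  have cL : IsCoprime (n * d ^ 3) ((n + 27 * d) * (n + 3 * d) ^ 3) :=
    IsCoprime.mul_left (IsCoprime.mul_right c3 c4.pow_right)
      (IsCoprime.mul_right c1.symm c2.symm.pow_right).pow_left
  have hA : 1728 * a ^ 3 * (n * d ^ 3) = C κ * F ^ 5 * ((n + 27 * d) * (n + 3 * d) ^ 3) := by
    rw [← hΔ]; linear_combination heq
  -- `n d³` is associated to `F⁵`
  have hd1 : F ^ 5 ∣ n * d ^ 3 := by
    have h1 : F ^ 5 ∣ (1728 * a ^ 3) * (n * d ^ 3) :=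
      ⟨C κ * ((n + 27 * d) * (n + 3 * d) ^ 3), by rw [hA]; ring⟩
    have hc : IsCoprime (F ^ 5) (1728 * a ^ 3) :=
      (isCoprime_mul_unit_left_right hu1728 _ _).mpr hcop.symm.pow
    exact hc.dvd_of_dvd_mul_left h1
  have hd2 : n * d ^ 3 ∣ F ^ 5 := by
    have h1 : n * d ^ 3 ∣ (F ^ 5 * C κ) * ((n + 27 * d) * (n + 3 * d) ^ 3) :=
      ⟨1728 * a ^ 3, by rw [mul_comm (F ^ 5) (C κ), ← hA]; ring⟩
    have h2 : n * d ^ 3 ∣ F ^ 5 * C κ := cL.dvd_of_dvd_mul_right h1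
    exact (hκu.dvd_mul_right).mp h2
  have hassoc1 : Associated (F ^ 5) (n * d ^ 3) := associated_of_dvd_dvd hd1 hd2
  -- `(n + 27 d)(n + 3 d)³` is associated to `a³`
  have hd3 : a ^ 3 ∣ (n + 27 * d) * (n + 3 * d) ^ 3 := by
    have h1 : a ^ 3 ∣ (C κ * F ^ 5) * ((n + 27 * d) * (n + 3 * d) ^ 3) :=
      ⟨1728 * (n * d ^ 3), by rw [← hA]; ring⟩
    have hc : IsCoprime (a ^ 3) (C κ * F ^ 5) :=
      (isCoprime_mul_unit_left_right hκu _ _).mpr hcop.pow
    exact hc.dvd_of_dvd_mul_left h1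
  have hd4 : (n + 27 * d) * (n + 3 * d) ^ 3 ∣ a ^ 3 := by
    have h1 : (n + 27 * d) * (n + 3 * d) ^ 3 ∣ (a ^ 3 * 1728) * (n * d ^ 3) :=
      ⟨C κ * F ^ 5, by rw [mul_comm (a ^ 3) 1728, hA]; ring⟩
    have h2 : (n + 27 * d) * (n + 3 * d) ^ 3 ∣ a ^ 3 * 1728 := cL.symm.dvd_of_dvd_mul_right h1
    exact (hu1728.dvd_mul_right).mp h2
  have hassoc2 : Associated (a ^ 3) ((n + 27 * d) * (n + 3 * d) ^ 3) :=
    associated_of_dvd_dvd hd3 hd4
  -- extract fifth powers and a cube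
  obtain ⟨α, hα⟩ := exists_associated_pow_of_associated_pow_mul
    (hnd.pow_right : IsCoprime n (d ^ 3)) hassoc1
  obtain ⟨e, he⟩ := exists_associated_pow_of_associated_pow_mul
    (hnd.symm.pow_left : IsCoprime (d ^ 3) n) (by rwa [mul_comm] at hassoc1)
  obtain ⟨ε, hε⟩ := exists_associated_pow_of_associated_pow_mul
    (c5.pow_right : IsCoprime (n + 27 * d) ((n + 3 * d) ^ 3)) hassoc2
  -- `d` itself is a fifth power up to a unit
  obtain ⟨β, hβ⟩ : ∃ β, Associated (β ^ 5) d := by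
    have h1 : d ^ 3 ∣ (e ^ 2) ^ 3 := by
      have : d ^ 3 ∣ e ^ 5 := he.symm.dvd
      exact this.trans ⟨e, by ring⟩
    have h2 : d ∣ e ^ 2 := (IsIntegrallyClosed.pow_dvd_pow_iff (by norm_num)).mp h1
    obtain ⟨β, hβ⟩ := h2
    refine ⟨β, ?_⟩
    have h3 : Associated ((e ^ 5) ^ 2) ((d ^ 3) ^ 2) := he.pow_pow
    have e1 : (e ^ 5) ^ 2 = d ^ 5 * β ^ 5 := by
      rw [← pow_mul, mul_comm 5 2, pow_mul, hβ, mul_pow]
    have e2 : (d ^ 3) ^ 2 = d ^ 5 * d := by ring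
    rw [e1, e2] at h3
    exact h3.of_mul_left (Associated.refl _) (pow_ne_zero _ hd)
  obtain ⟨u1, hu1, hn⟩ := exists_C_mul_of_associated hα
  obtain ⟨u2, hu2, hdβ⟩ := exists_C_mul_of_associated hβ
  obtain ⟨u3, hu3', hpε⟩ := exists_C_mul_of_associated hε
  have hα0 : α ≠ 0 := by
    rintro rfl
    apply hn0
    rw [hn]
    simp
  have hβ0 : β ≠ 0 := by
    rintro rfl
    apply hd
    rw [hdβ]
    simp
  have hε0 : ε ≠ 0 := by
    rintro rfl
    apply hp0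
    rw [hpε]
    simp
  have hαβ : IsCoprime α β := by
    have h1 : IsCoprime (C u1 * α ^ 5) (C u2 * β ^ 5) := by rw [← hn, ← hdβ]; exact hnd
    have h2 : IsCoprime (α ^ 5) (β ^ 5) :=
      (isCoprime_mul_unit_left_left (isUnit_C.mpr (isUnit_iff_ne_zero.mpr hu1)) _ _).mp
        ((isCoprime_mul_unit_left_right (isUnit_C.mpr (isUnit_iff_ne_zero.mpr hu2)) _ _).mp h1)
    exact (IsCoprime.pow_iff (by norm_num) (by norm_num)).mp h2
  have hcat : C u1 * α ^ 5 + C (27 * u2) * β ^ 5 + C (-u3) * ε ^ 3 = 0 := by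
    have h1 : n + 27 * d = C u3 * ε ^ 3 := hpε
    rw [hn, hdβ] at h1
    have h27 : (C (27 * u2) : K[X]) = 27 * C u2 := by
      rw [C_mul]
      congr 1
    rw [h27, C_neg]
    linear_combination h1
  obtain ⟨hdα, hdβ', -⟩ := Polynomial.flt_catalan (p := 5) (q := 5) (r := 3) (by norm_num)
    (by norm_num) (by norm_num) (by norm_num) (by norm_num) (by norm_num) (by norm_num)
    hα0 hβ0 hε0 hαβ hu1 (mul_ne_zero (by norm_num) hu2) (neg_ne_zero.mpr hu3') hcat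
  -- degrees
  have hdn : n.natDegree = 0 := by
    rw [hn, natDegree_C_mul hu1]
    exact Nat.eq_zero_of_le_zero ((natDegree_pow_le).trans (by rw [hdα]))
  have hdd : d.natDegree = 0 := by
    rw [hdβ, natDegree_C_mul hu2]
    exact Nat.eq_zero_of_le_zero ((natDegree_pow_le).trans (by rw [hdβ']))
  have hnd0 : n * d ^ 3 ≠ 0 := mul_ne_zero hn0 (pow_ne_zero _ hd)
  have h5 : (F ^ 5).natDegree ≤ (n * d ^ 3).natDegree := natDegree_le_of_dvd hd1 hnd0
  have h6 : (n * d ^ 3).natDegree = 0 := by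
    have := natDegree_mul_le (p := n) (q := d ^ 3)
    have h7 : (d ^ 3).natDegree ≤ 3 * d.natDegree := natDegree_pow_le
    omega
  rw [natDegree_pow, h6] at h5
  omega

/-- **No `X₀(3)`-point over `K(s)`.** If `a³ - b² = κ F⁵` with `F` non-constant and coprime to `a`
(so the `j`-invariant `1728 a³ / (a³ - b²)` has all its finite poles of order divisible by five
and at least one pole), there is no `τ = n / d` with `j = (τ + 27)(τ + 3)³ / τ`. -/
theorem no_tau (a b F n d : K[X]) (κ : K) (hκ : κ ≠ 0) (hF : F.natDegree ≠ 0)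
    (hΔ : a ^ 3 - b ^ 2 = C κ * F ^ 5) (hcop : IsCoprime a F) (hd : d ≠ 0)
    (heq : 1728 * a ^ 3 * n * d ^ 3 = (a ^ 3 - b ^ 2) * (n + 27 * d) * (n + 3 * d) ^ 3) :
    False := by
  classical
  obtain ⟨g, hg⟩ : ∃ g, g = EuclideanDomain.gcd n d := ⟨_, rfl⟩
  have hg0 : g ≠ 0 := by
    intro h
    rw [hg] at h
    exact hd (EuclideanDomain.gcd_eq_zero_iff.mp h).2
  obtain ⟨n', hn'⟩ : g ∣ n := hg ▸ EuclideanDomain.gcd_dvd_left n d
  obtain ⟨d', hd'⟩ : g ∣ d := hg ▸ EuclideanDomain.gcd_dvd_right n d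
  have hbez : g = n * EuclideanDomain.gcdA n d + d * EuclideanDomain.gcdB n d :=
    hg ▸ EuclideanDomain.gcd_eq_gcd_ab n d
  have hcop' : IsCoprime n' d' := by
    refine ⟨EuclideanDomain.gcdA n d, EuclideanDomain.gcdB n d, ?_⟩
    apply mul_left_cancel₀ hg0
    rw [mul_one]
    conv_rhs => rw [hbez]
    rw [hn', hd']
    ring
  have hd'0 : d' ≠ 0 := by
    rintro rfl
    apply hd
    rw [hd', mul_zero]
  refine no_tau_coprime a b F n' d' κ hκ hF hΔ hcop hcop' hd'0 ?_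
  apply mul_left_cancel₀ (pow_ne_zero 4 hg0)
  rw [hn', hd'] at heq
  linear_combination heq

end NoTau

end Fermat.Agent.S52.helper267
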