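import Mathlib

/-!
# S52-ROOT: a root of the pencil's `T`-polynomial fixed by an element of `G_ℚ` moving `√3`

Family-agnostic, hypothesis-passing.  The pencil is the line `s ↦ A + s • B` in `ℚ̄²`
(`A = (a1,a2)`, `B = (b1,b2)` linearly independent).  The only input is the
*torsor + covariance* statement `hcov`: every `σ ∈ G_ℚ` fixing the 20th roots of unity acts on
`A` and `B` through `ε • g` with `g ∈ SL₂(ℚ̄)`, `g ^ 60 = 1`, entries of `g` fixed by `σ`,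
`ε ^ 5 = 1`, and `g` preserving Klein's form `T`.

Conclusion (`exists_root_fixed`): there are `θ` with `T (A + θ • B) = 0` and `σ ∈ G_ℚ` with
`σ θ = θ`, `σ r ≠ r` for some `r` with `r ^ 2 = 3`.  No torsion points, no inertia.
-/

set_option autoImplicit false

namespace Fermat.Agent.S52.helper2922

open Polynomial

/-- `ℚ̄`. -/
abbrev Qb : Type := AlgebraicClosure ℚ

/-- The absolute Galois group of `ℚ`. -/
abbrev GQ : Type := Qb ≃ₐ[ℚ] Qb

/-- Klein's icosahedral invariant `T` of degree 30. -/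
def kT {R : Type*} [CommRing R] (u v : R) : R :=
  u ^ 30 + v ^ 30 + 522 * (u ^ 25 * v ^ 5 - u ^ 5 * v ^ 25)
    - 10005 * (u ^ 20 * v ^ 10 + u ^ 10 * v ^ 20)

theorem kT_smul {R : Type*} [CommRing R] (c u v : R) :
    kT (c * u) (c * v) = c ^ 30 * kT u v := by
  unfold kT
  simp only [mul_pow]
  ring

theorem kT_I {R : Type*} [CommRing R] (i : R) (hi : i ^ 2 = -1) : kT i 1 = 0 := by
  have h4 : i ^ 4 = 1 := by linear_combination (i ^ 2 - 1) * hi
  have h5 : i ^ 5 = i := by linear_combination i * h4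
  have h10 : i ^ 10 = -1 := by
    calc i ^ 10 = (i ^ 5) ^ 2 := by ring
      _ = -1 := by rw [h5, hi]
  have h20 : i ^ 20 = 1 := by
    calc i ^ 20 = (i ^ 10) ^ 2 := by ring
      _ = 1 := by rw [h10]; ring
  have h25 : i ^ 25 = i := by
    calc i ^ 25 = i ^ 20 * i ^ 5 := by ring
      _ = i := by rw [h20, h5]; ring
  have h30 : i ^ 30 = -1 := by
    calc i ^ 30 = i ^ 20 * i ^ 10 := by ring
      _ = -1 := by rw [h20, h10]; ring
  unfold kT
  rw [h30, h25, h5, h20, h10]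
  ring

theorem kT_negI {R : Type*} [CommRing R] (i : R) (hi : i ^ 2 = -1) : kT (-i) 1 = 0 :=
  kT_I (-i) (by linear_combination hi)


section core

variable {K : Type*} [Field K]

/-- A vector parallel to a zero of `T` is a zero of `T`. -/
theorem kT_eq_zero_of_parallel (x y e1 e2 : K) (h : x * e2 = y * e1) (hT : kT e1 e2 = 0)
    (he : e1 ≠ 0 ∨ e2 ≠ 0) : kT x y = 0 := by
  rcases he with he | he
  · have h1 : e1 ^ 30 * kT x y = 0 := by
      calc e1 ^ 30 * kT x y = kT (e1 * x) (e1 * y) := (kT_smul e1 x y).symm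
        _ = kT (x * e1) (x * e2) := by rw [mul_comm e1 x, mul_comm e1 y, ← h]
        _ = x ^ 30 * kT e1 e2 := kT_smul x e1 e2
        _ = 0 := by rw [hT, mul_zero]
    exact (mul_eq_zero.mp h1).resolve_left (pow_ne_zero _ he)
  · have h1 : e2 ^ 30 * kT x y = 0 := by
      calc e2 ^ 30 * kT x y = kT (e2 * x) (e2 * y) := (kT_smul e2 x y).symm
        _ = kT (y * e1) (y * e2) := by rw [mul_comm e2 x, mul_comm e2 y, h]
        _ = y ^ 30 * kT e1 e2 := kT_smul y e1 e2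
        _ = 0 := by rw [hT, mul_zero]
    exact (mul_eq_zero.mp h1).resolve_left (pow_ne_zero _ he)

/-- **Eigenvector step.**  If `σ` acts on `A`, `B` through `δ = !![p, q; r, s]` (`det δ = 1`) and
`e` is a `σ`-fixed eigenvector of `δ` which is a zero of `T` and is not parallel to `B`, then the
parameter `θ` with `A + θ • B ∥ e` is a `σ`-fixed root of `s ↦ T (A + s • B)`. -/
theorem root_of_eigen (σ : K →+* K) (a1 a2 b1 b2 p q r s e1 e2 c : K)
    (hdet : p * s - q * r = 1)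
    (hδe1 : p * e1 + q * e2 = c * e1) (hδe2 : r * e1 + s * e2 = c * e2)
    (he1 : σ e1 = e1) (he2 : σ e2 = e2)
    (hT : kT e1 e2 = 0) (hB : b1 * e2 - b2 * e1 ≠ 0)
    (ha1 : σ a1 = p * a1 + q * a2) (ha2 : σ a2 = r * a1 + s * a2)
    (hb1 : σ b1 = p * b1 + q * b2) (hb2 : σ b2 = r * b1 + s * b2) :
    ∃ θ : K, kT (a1 + θ * b1) (a2 + θ * b2) = 0 ∧ σ θ = θ := by
  set θ : K := -(a1 * e2 - a2 * e1) / (b1 * e2 - b2 * e1) with hθdef
  have hθ0 : θ * (b1 * e2 - b2 * e1) = -(a1 * e2 - a2 * e1) := by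
    rw [hθdef, div_mul_cancel₀ _ hB]
  have hθ : (a1 + θ * b1) * e2 = (a2 + θ * b2) * e1 := by
    linear_combination hθ0
  refine ⟨θ, kT_eq_zero_of_parallel _ _ e1 e2 hθ hT ?_, ?_⟩
  · by_contra hcon
    push Not at hcon
    apply hB
    rw [hcon.1, hcon.2]; ring
  · -- `σ θ = θ`
    have hσ := congrArg σ hθ
    simp only [map_mul, map_add, ha1, ha2, hb1, hb2, he1, he2] at hσ
    have hG : (a1 + σ θ * b1) * e2 - (a2 + σ θ * b2) * e1 = 0 := by
      linear_combination c * hσ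
        - ((a1 + σ θ * b1) * e2 - (a2 + σ θ * b2) * e1) * hdet
        + (p * (a1 + σ θ * b1) + q * (a2 + σ θ * b2)) * hδe2
        - (r * (a1 + σ θ * b1) + s * (a2 + σ θ * b2)) * hδe1
    have hdiff : (σ θ - θ) * (b1 * e2 - b2 * e1) = 0 := by
      linear_combination hG - hθ
    have := (mul_eq_zero.mp hdiff).resolve_right hB
    exact sub_eq_zero.mp this

/-- **Core (δ-form).**  `σ` fixes `i` (`i² = -1`) and acts on `A`, `B` through a `σ`-fixed matrix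
`δ = !![p, q; r, s]` of determinant one which is `±1` or has trace zero (`δ² = -1`) and preserves
`T`.  Then some root `θ` of `s ↦ T (A + s • B)` is fixed by `σ`. -/
theorem exists_root_of_delta [CharZero K] (σ : K →+* K) (i : K) (hi : i ^ 2 = -1) (hσi : σ i = i)
    (a1 a2 b1 b2 p q r s : K) (hAB : a1 * b2 - a2 * b1 ≠ 0)
    (hdet : p * s - q * r = 1)
    (h4 : (p = 1 ∧ q = 0 ∧ r = 0 ∧ s = 1) ∨ (p = -1 ∧ q = 0 ∧ r = 0 ∧ s = -1) ∨ p + s = 0)
    (hp : σ p = p) (hq : σ q = q) (hr : σ r = r) (hs : σ s = s)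
    (hT : ∀ u v : K, kT (p * u + q * v) (r * u + s * v) = kT u v)
    (ha1 : σ a1 = p * a1 + q * a2) (ha2 : σ a2 = r * a1 + s * a2)
    (hb1 : σ b1 = p * b1 + q * b2) (hb2 : σ b2 = r * b1 + s * b2) :
    ∃ θ : K, kT (a1 + θ * b1) (a2 + θ * b2) = 0 ∧ σ θ = θ := by
  have h2 : (2 : K) ≠ 0 := two_ne_zero
  have hi0 : i ≠ 0 := by
    intro h; rw [h] at hi; norm_num at hi
  have hB0 : ¬ (b1 = 0 ∧ b2 = 0) := by
    rintro ⟨h1, h2'⟩; apply hAB; rw [h1, h2']; ring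
  -- scalar case: `δ = c • 1`, `c = ±1`
  have scalar : ∀ c : K, p = c → q = 0 → r = 0 → s = c →
      ∃ θ : K, kT (a1 + θ * b1) (a2 + θ * b2) = 0 ∧ σ θ = θ := by
    intro c hpc hq0 hr0 hsc
    by_cases hB1 : b1 * 1 - b2 * i ≠ 0
    · exact root_of_eigen σ a1 a2 b1 b2 p q r s i 1 c hdet (by rw [hpc, hq0]; ring)
        (by rw [hr0, hsc]; ring) hσi (map_one σ) (kT_I i hi) hB1 ha1 ha2 hb1 hb2
    · have hB2 : b1 * 1 - b2 * (-i) ≠ 0 := by
        intro h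
        push Not at hB1
        apply hB0
        have hb2' : b2 = 0 := by
          have : 2 * i * b2 = 0 := by linear_combination h - hB1
          rcases mul_eq_zero.mp this with h' | h'
          · exact absurd h' (mul_ne_zero h2 hi0)
          · exact h'
        refine ⟨?_, hb2'⟩
        rw [hb2'] at h; linear_combination h
      exact root_of_eigen σ a1 a2 b1 b2 p q r s (-i) 1 c hdet (by rw [hpc, hq0]; ring)
        (by rw [hr0, hsc]; ring) (by rw [map_neg, hσi]) (map_one σ) (kT_negI i hi) hB2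
        ha1 ha2 hb1 hb2
  rcases h4 with ⟨h1, h2', h3, h4'⟩ | ⟨h1, h2', h3, h4'⟩ | htr
  · exact scalar 1 h1 h2' h3 h4'
  · exact scalar (-1) h1 h2' h3 h4'
  · -- `δ² = -1`
    have hs' : s = -p := by linear_combination htr
    have hpp : p ^ 2 + q * r = -1 := by rw [hs'] at hdet; linear_combination -hdet
    -- an eigenvector for eigenvalue `c` (`c² = -1`) is a zero of `T`
    have eigen : ∀ c e1 e2 : K, c ^ 2 = -1 → σ c = c → σ e1 = e1 → σ e2 = e2 →
        p * e1 + q * e2 = c * e1 → r * e1 + s * e2 = c * e2 → b1 * e2 - b2 * e1 ≠ 0 →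
        ∃ θ : K, kT (a1 + θ * b1) (a2 + θ * b2) = 0 ∧ σ θ = θ := by
      intro c e1 e2 hc hσc he1 he2 h1 h2' hB
      have hTe : kT e1 e2 = 0 := by
        have h := hT e1 e2
        rw [h1, h2', kT_smul] at h
        have hc30 : c ^ 30 = -1 := by
          calc c ^ 30 = (c ^ 2) ^ 15 := by ring
            _ = -1 := by rw [hc]; ring
        rw [hc30] at h
        have : 2 * kT e1 e2 = 0 := by linear_combination -h
        exact (mul_eq_zero.mp this).resolve_left h2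
      exact root_of_eigen σ a1 a2 b1 b2 p q r s e1 e2 c hdet h1 h2' he1 he2 hTe hB
        ha1 ha2 hb1 hb2
    have hni : (-i) ^ 2 = -1 := by linear_combination hi
    have hσni : σ (-i) = -i := by rw [map_neg, hσi]
    -- four candidates
    by_cases c1 : b1 * r - b2 * (p + i) ≠ 0
    · exact eigen i (p + i) r hi hσi (by rw [map_add, hp, hσi]) hr
        (by linear_combination hpp - hi) (by rw [hs']; ring) c1
    by_cases c2 : b1 * (s + i) - b2 * q ≠ 0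
    · exact eigen i q (s + i) hi hσi hq (by rw [map_add, hs, hσi])
        (by rw [hs']; ring) (by rw [hs']; linear_combination hpp - hi) c2
    by_cases c3 : b1 * r - b2 * (p + -i) ≠ 0
    · exact eigen (-i) (p + -i) r hni hσni (by rw [map_add, hp, hσni]) hr
        (by linear_combination hpp - hi) (by rw [hs']; ring) c3
    by_cases c4 : b1 * (s + -i) - b2 * q ≠ 0
    · exact eigen (-i) q (s + -i) hni hσni hq (by rw [map_add, hs, hσni])
        (by rw [hs']; ring) (by rw [hs']; linear_combination hpp - hi) c4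
    push Not at c1 c2 c3 c4
    exfalso
    apply hB0
    constructor
    · have : 2 * i * b1 = 0 := by linear_combination c2 - c4
      rcases mul_eq_zero.mp this with h' | h'
      · exact absurd h' (mul_ne_zero h2 hi0)
      · exact h'
    · have : 2 * i * b2 = 0 := by linear_combination c3 - c1
      rcases mul_eq_zero.mp this with h' | h'
      · exact absurd h' (mul_ne_zero h2 hi0)
      · exact h'

/-- A `2 × 2` matrix of determinant one with `M ^ 4 = 1` is `1`, `-1`, or has trace zero. -/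
theorem two_by_two_pow_four (M : Matrix (Fin 2) (Fin 2) K) (hdet : M.det = 1) (h4 : M ^ 4 = 1) :
    (M 0 0 = 1 ∧ M 0 1 = 0 ∧ M 1 0 = 0 ∧ M 1 1 = 1) ∨
      (M 0 0 = -1 ∧ M 0 1 = 0 ∧ M 1 0 = 0 ∧ M 1 1 = -1) ∨ M 0 0 + M 1 1 = 0 := by
  rw [Matrix.det_fin_two] at hdet
  have e00 := congrFun (congrFun h4 0) 0
  have e01 := congrFun (congrFun h4 0) 1
  have e10 := congrFun (congrFun h4 1) 0
  have e11 := congrFun (congrFun h4 1) 1
  simp only [pow_succ, pow_zero, Matrix.one_mul, Matrix.mul_apply, Fin.sum_univ_two,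
    Matrix.one_apply_eq, ne_eq, zero_ne_one, one_ne_zero, not_false_eq_true,
    Matrix.one_apply_ne] at e00 e01 e10 e11
  generalize M 0 0 = p at *
  generalize M 0 1 = q at *
  generalize M 1 0 = r at *
  generalize M 1 1 = s at *
  have k01 : ((p + s) ^ 3 - 2 * (p + s)) * q = 0 := by
    linear_combination e01 + 2 * (p + s) * q * hdet
  have k10 : ((p + s) ^ 3 - 2 * (p + s)) * r = 0 := by
    linear_combination e10 + 2 * (p + s) * r * hdet
  have k00 : ((p + s) ^ 3 - 2 * (p + s)) * p = (p + s) ^ 2 := by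
    linear_combination e00 + (2 * (p + s) * p + (p + s) ^ 2 - (p * s - q * r + 1)) * hdet
  have k11 : ((p + s) ^ 3 - 2 * (p + s)) * s = (p + s) ^ 2 := by
    linear_combination e11 + (2 * (p + s) * s + (p + s) ^ 2 - (p * s - q * r + 1)) * hdet
  by_cases hτ : p + s = 0
  · exact Or.inr (Or.inr hτ)
  have hκ : (p + s) ^ 3 - 2 * (p + s) ≠ 0 := by
    intro h
    rw [h, zero_mul] at k00
    exact hτ (pow_eq_zero_iff (two_ne_zero) |>.mp k00.symm)
  have hq : q = 0 := (mul_eq_zero.mp k01).resolve_left hκ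
  have hr : r = 0 := (mul_eq_zero.mp k10).resolve_left hκ
  have hps : p = s := by
    have : ((p + s) ^ 3 - 2 * (p + s)) * (p - s) = 0 := by linear_combination k00 - k11
    exact sub_eq_zero.mp ((mul_eq_zero.mp this).resolve_left hκ)
  have hpp : (p - 1) * (p + 1) = 0 := by
    rw [hq, ← hps] at hdet
    linear_combination hdet
  rcases mul_eq_zero.mp hpp with h | h
  · left
    have hp1 : p = 1 := sub_eq_zero.mp h
    exact ⟨hp1, hq, hr, by rw [← hps, hp1]⟩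
  · right; left
    have hp1 : p = -1 := by linear_combination h
    exact ⟨hp1, hq, hr, by rw [← hps, hp1]⟩

end core

section galois

theorem isAlgClosure_Qb : IsAlgClosure ℚ (AlgebraicClosure ℚ) :=
  ⟨inferInstance, AlgebraicClosure.isAlgebraic ℚ⟩

theorem isGalois_Qb : IsGalois ℚ (AlgebraicClosure ℚ) :=
  haveI := isAlgClosure_Qb
  inferInstance

attribute [local instance] isAlgClosure_Qb isGalois_Qb

/-- Elements fixed by `σ` are fixed by `σ ^ k`. -/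
theorem pow_apply_of_fixed (σ : GQ) {x : Qb} (hx : σ x = x) (k : ℕ) : (σ ^ k) x = x := by
  induction k with
  | zero => rfl
  | succ k ih => rw [pow_succ, AlgEquiv.mul_apply, hx, ih]

/-- Entries of powers of a `σ`-fixed matrix are `σ`-fixed. -/
theorem map_pow_entry (σ : GQ) (g : Matrix (Fin 2) (Fin 2) Qb) (hg : ∀ i j, σ (g i j) = g i j)
    (k : ℕ) (i j : Fin 2) : σ ((g ^ k) i j) = (g ^ k) i j := by
  induction k generalizing i j with
  | zero =>
    rw [pow_zero]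
    by_cases h : i = j
    · rw [h, Matrix.one_apply_eq, map_one]
    · rw [Matrix.one_apply_ne h, map_zero]
  | succ k ih =>
    rw [pow_succ, Matrix.mul_apply, map_sum]
    refine Finset.sum_congr rfl fun l _ => ?_
    rw [map_mul, ih, hg]

/-- Powers of a matrix preserving `T` preserve `T`. -/
theorem kT_pow_invariant (g : Matrix (Fin 2) (Fin 2) Qb)
    (hT : ∀ u v : Qb, kT (g 0 0 * u + g 0 1 * v) (g 1 0 * u + g 1 1 * v) = kT u v) (k : ℕ)
    (u v : Qb) :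
    kT ((g ^ k) 0 0 * u + (g ^ k) 0 1 * v) ((g ^ k) 1 0 * u + (g ^ k) 1 1 * v) = kT u v := by
  induction k generalizing u v with
  | zero => simp
  | succ k ih =>
    have h := ih (g 0 0 * u + g 0 1 * v) (g 1 0 * u + g 1 1 * v)
    rw [hT] at h
    rw [← h, pow_succ]
    simp only [Matrix.mul_apply, Fin.sum_univ_two]
    congr 1 <;> ring

/-- Iterating the `σ`-action `x ↦ ε • g x` on a vector. -/
theorem iterate_rel (σ : GQ) (g : Matrix (Fin 2) (Fin 2) Qb) (ε : Qb) (hε : σ ε = ε)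
    (hg : ∀ i j, σ (g i j) = g i j) (x1 x2 : Qb)
    (h1 : σ x1 = ε * (g 0 0 * x1 + g 0 1 * x2)) (h2 : σ x2 = ε * (g 1 0 * x1 + g 1 1 * x2))
    (k : ℕ) :
    (σ ^ k) x1 = ε ^ k * ((g ^ k) 0 0 * x1 + (g ^ k) 0 1 * x2) ∧
      (σ ^ k) x2 = ε ^ k * ((g ^ k) 1 0 * x1 + (g ^ k) 1 1 * x2) := by
  induction k with
  | zero => simp
  | succ k ih =>
    obtain ⟨ih1, ih2⟩ := ih
    have hεk : (σ ^ k) ε = ε := pow_apply_of_fixed σ hε k
    have hgk : ∀ i j, (σ ^ k) (g i j) = g i j := fun i j => pow_apply_of_fixed σ (hg i j) k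
    constructor
    · rw [pow_succ, AlgEquiv.mul_apply, h1, map_mul, map_add, map_mul, map_mul, hεk, hgk, hgk,
        ih1, ih2, pow_succ' g, Matrix.mul_apply, Matrix.mul_apply]
      simp only [Fin.sum_univ_two]
      ring
    · rw [pow_succ, AlgEquiv.mul_apply, h2, map_mul, map_add, map_mul, map_mul, hεk, hgk, hgk,
        ih1, ih2, pow_succ' g, Matrix.mul_apply, Matrix.mul_apply]
      simp only [Fin.sum_univ_two]
      ring

/-- A primitive 60th root of unity `ζ` and `σ₀ ∈ G_ℚ` with `σ₀ ζ = ζ ^ 41`. -/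
theorem exists_sigma0 : ∃ (ζ : Qb) (σ : GQ), IsPrimitiveRoot ζ 60 ∧ σ ζ = ζ ^ 41 := by
  obtain ⟨ζ, hζ⟩ := HasEnoughRootsOfUnity.exists_primitiveRoot Qb 60
  have h41 : IsPrimitiveRoot (ζ ^ 41) 60 := hζ.pow_of_coprime 41 (by decide)
  have hm1 := cyclotomic_eq_minpoly_rat hζ (by norm_num)
  have hm2 := cyclotomic_eq_minpoly_rat h41 (by norm_num)
  have hroot : aeval ζ (minpoly ℚ (ζ ^ 41)) = 0 := by
    rw [← hm2, hm1]; exact minpoly.aeval ℚ ζ
  obtain ⟨σ, hσ⟩ := minpoly.exists_algEquiv_of_root (K := ℚ) (L := Qb) (x := ζ) (y := ζ ^ 41)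
    (Algebra.IsAlgebraic.isAlgebraic _) hroot
  exact ⟨ζ, σ, hζ, hσ⟩

/-- The arithmetic of a primitive 60th root of unity that we need: `i = ζ ^ 15`,
`r = ζ ^ 5 + ζ ^ 55` is a square root of `3`, and `σ₀ : ζ ↦ ζ ^ 41` fixes the 20th roots of unity
and sends `r` to `-r`. -/
theorem sigma0_facts {ζ : Qb} (hζ : IsPrimitiveRoot ζ 60) (σ : GQ) (hσ : σ ζ = ζ ^ 41) :
    (ζ ^ 15) ^ 2 = -1 ∧ (ζ ^ 5 + ζ ^ 55) ^ 2 = 3 ∧ (∀ z : Qb, z ^ 20 = 1 → σ z = z) ∧
      σ (ζ ^ 5 + ζ ^ 55) = -(ζ ^ 5 + ζ ^ 55) := by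
  have h60 : ζ ^ 60 = 1 := hζ.pow_eq_one
  have h30 : ζ ^ 30 = -1 := by
    have h := hζ.pow_of_dvd (p := 30) (by norm_num) (by norm_num)
    exact IsPrimitiveRoot.eq_neg_one_of_two_right h
  have h20 : ζ ^ 20 ≠ 1 := hζ.pow_ne_one_of_pos_of_lt (by norm_num) (by norm_num)
  -- `ω = ζ ^ 10` is a primitive 6th root of unity: `ω² - ω + 1 = 0`
  have hω : (ζ ^ 10) ^ 2 - ζ ^ 10 + 1 = 0 := by
    have h1 : (ζ ^ 10 + 1) * ((ζ ^ 10) ^ 2 - ζ ^ 10 + 1) = 0 := by
      linear_combination h30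
    rcases mul_eq_zero.mp h1 with h | h
    · exfalso
      apply h20
      have : ζ ^ 10 = -1 := by linear_combination h
      calc ζ ^ 20 = (ζ ^ 10) ^ 2 := by ring
        _ = 1 := by rw [this]; ring
    · exact h
  refine ⟨?_, ?_, ?_, ?_⟩
  · calc (ζ ^ 15) ^ 2 = ζ ^ 30 := by ring
      _ = -1 := h30
  · -- `r² = ζ^10 + 2 ζ^60 + ζ^110`
    have h50 : ζ ^ 50 = 1 - ζ ^ 10 := by
      -- `ζ^50 = ζ^30 * ζ^20 = -(ζ^10)^2`
      have : ζ ^ 50 = -(ζ ^ 10) ^ 2 := by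
        calc ζ ^ 50 = ζ ^ 30 * (ζ ^ 10) ^ 2 := by ring
          _ = -(ζ ^ 10) ^ 2 := by rw [h30]; ring
      rw [this]; linear_combination -hω
    calc (ζ ^ 5 + ζ ^ 55) ^ 2 = ζ ^ 10 + 2 * ζ ^ 60 + ζ ^ 60 * ζ ^ 50 := by ring
      _ = 3 := by rw [h60, h50]; ring
  · intro z hz
    have hζ3 : IsPrimitiveRoot (ζ ^ 3) 20 := hζ.pow_of_dvd (p := 3) (by norm_num) (by norm_num)
    obtain ⟨j, -, rfl⟩ := hζ3.eq_pow_of_pow_eq_one hz
    have h123 : (ζ ^ 41) ^ 3 = ζ ^ 3 := by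
      calc (ζ ^ 41) ^ 3 = (ζ ^ 60) ^ 2 * ζ ^ 3 := by ring
        _ = ζ ^ 3 := by rw [h60]; ring
    rw [map_pow, map_pow, hσ, h123]
  · rw [map_add, map_pow, map_pow, hσ]
    have e1 : (ζ ^ 41) ^ 5 = -ζ ^ 55 := by
      calc (ζ ^ 41) ^ 5 = (ζ ^ 60) ^ 2 * ζ ^ 30 * ζ ^ 55 := by ring
        _ = -ζ ^ 55 := by rw [h60, h30]; ring
    have e2 : (ζ ^ 41) ^ 55 = -ζ ^ 5 := by
      have h35 : ζ ^ 35 = -ζ ^ 5 := by
        calc ζ ^ 35 = ζ ^ 30 * ζ ^ 5 := by ring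
          _ = -ζ ^ 5 := by rw [h30]; ring
      rw [← pow_mul, show 41 * 55 = 60 * 37 + 35 from rfl, pow_add, pow_mul, h60, one_pow,
        one_mul, h35]
    rw [e1, e2]; ring

/-- **S52-ROOT.**  Torsor + covariance of the pencil `s ↦ A + s • B` give a root `θ` of
`s ↦ T (A + s • B)` and `σ ∈ G_ℚ` with `σ θ = θ` which moves a square root of `3`. -/
theorem exists_root_fixed (a1 a2 b1 b2 : Qb) (hdet : a1 * b2 - a2 * b1 ≠ 0)
    (hcov : ∀ σ : GQ, (∀ z : Qb, z ^ 20 = 1 → σ z = z) →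
      ∃ (g : Matrix (Fin 2) (Fin 2) Qb) (ε : Qb), g.det = 1 ∧ g ^ 60 = 1 ∧ ε ^ 5 = 1 ∧
        (∀ i j, σ (g i j) = g i j) ∧
        (∀ u v : Qb, kT (g 0 0 * u + g 0 1 * v) (g 1 0 * u + g 1 1 * v) = kT u v) ∧
        σ a1 = ε * (g 0 0 * a1 + g 0 1 * a2) ∧ σ a2 = ε * (g 1 0 * a1 + g 1 1 * a2) ∧
        σ b1 = ε * (g 0 0 * b1 + g 0 1 * b2) ∧ σ b2 = ε * (g 1 0 * b1 + g 1 1 * b2)) :
    ∃ (θ : Qb) (σ : GQ), kT (a1 + θ * b1) (a2 + θ * b2) = 0 ∧ σ θ = θ ∧
      ∃ r : Qb, r ^ 2 = 3 ∧ σ r ≠ r := by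
  obtain ⟨ζ, σ₀, hζ, hσ₀⟩ := exists_sigma0
  obtain ⟨hi, hr, hfix, hσr⟩ := sigma0_facts hζ σ₀ hσ₀
  obtain ⟨g, ε, hgdet, hg60, hε, hgσ, hgT, ha1, ha2, hb1, hb2⟩ := hcov σ₀ hfix
  have hεσ : σ₀ ε = ε := hfix ε (by
    calc ε ^ 20 = (ε ^ 5) ^ 4 := by ring
      _ = 1 := by rw [hε]; ring)
  have hε15 : ε ^ 15 = 1 := by
    calc ε ^ 15 = (ε ^ 5) ^ 3 := by ring
      _ = 1 := by rw [hε]; ring
  -- `σ := σ₀ ^ 15`, `δ := g ^ 15`
  obtain ⟨hA1, hA2⟩ := iterate_rel σ₀ g ε hεσ hgσ a1 a2 ha1 ha2 15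
  obtain ⟨hB1, hB2⟩ := iterate_rel σ₀ g ε hεσ hgσ b1 b2 hb1 hb2 15
  rw [hε15, one_mul] at hA1 hA2 hB1 hB2
  have hδdet : (g ^ 15).det = 1 := by rw [Matrix.det_pow, hgdet, one_pow]
  have hδ4 : (g ^ 15) ^ 4 = 1 := by rw [← pow_mul]; exact hg60
  have hδfix : ∀ i j, (σ₀ ^ 15) ((g ^ 15) i j) = (g ^ 15) i j := fun i j =>
    pow_apply_of_fixed σ₀ (map_pow_entry σ₀ g hgσ 15 i j) 15
  have hi15 : (σ₀ ^ 15) (ζ ^ 15) = ζ ^ 15 :=
    pow_apply_of_fixed σ₀ (hfix _ (by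
      calc (ζ ^ 15) ^ 20 = (ζ ^ 60) ^ 5 := by ring
        _ = 1 := by rw [hζ.pow_eq_one]; ring)) 15
  have hdet' : (g ^ 15) 0 0 * (g ^ 15) 1 1 - (g ^ 15) 0 1 * (g ^ 15) 1 0 = 1 := by
    rw [← Matrix.det_fin_two]; exact hδdet
  obtain ⟨θ, hθ, hσθ⟩ := exists_root_of_delta ((σ₀ ^ 15 : GQ) : Qb →+* Qb) (ζ ^ 15) hi hi15
    a1 a2 b1 b2 ((g ^ 15) 0 0) ((g ^ 15) 0 1) ((g ^ 15) 1 0) ((g ^ 15) 1 1) hdet hdet'
    (two_by_two_pow_four (g ^ 15) hδdet hδ4) (hδfix 0 0) (hδfix 0 1) (hδfix 1 0) (hδfix 1 1)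
    (kT_pow_invariant g hgT 15) hA1 hA2 hB1 hB2
  refine ⟨θ, σ₀ ^ 15, hθ, hσθ, ζ ^ 5 + ζ ^ 55, hr, ?_⟩
  -- `σ₀ ^ 15` sends `r` to `-r`
  have hneg : ∀ k : ℕ, (σ₀ ^ k) (ζ ^ 5 + ζ ^ 55) = (-1) ^ k * (ζ ^ 5 + ζ ^ 55) := by
    intro k
    induction k with
    | zero => simp
    | succ k ih => rw [pow_succ, AlgEquiv.mul_apply, hσr, map_neg, ih]; ring
  rw [hneg 15]
  intro h
  have hr0 : ζ ^ 5 + ζ ^ 55 ≠ 0 := by
    intro h0; rw [h0] at hr; norm_num at hr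
  have : (2 : Qb) * (ζ ^ 5 + ζ ^ 55) = 0 := by linear_combination -h
  rcases mul_eq_zero.mp this with h' | h'
  · exact two_ne_zero h'
  · exact hr0 h'

end galois

end Fermat.Agent.S52.helper2922
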