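/-
S52 / (L1) Frobenius Cayley–Hamilton, leaf H8 (= R3): the MANIN COUNT.

For a finite field `F` of odd characteristic with `q` elements, `f = X^3 + A X + B` with
`4 A^3 + 27 B^2 ≠ 0`, and `2 m + 1 = q`, the rational function

    f * ((f^m + 1) / (X^q - X))^2 - X^q - X        (= x(Frob P₀ - P₀) on the twisted curve)

has a reduced fraction `n / d` with `deg n = deg d + 1 = #E(F)`.  The statement is proved over
`F` and transported to every field `K` that is an `F`-algebra.
Proof: explicit reduced fraction; the roots of `X^q - X` are split into the three classes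
`f(c) = 0`, `f(c)^m = 1`, `f(c)^m = -1`.
-/
import Mathlib

namespace Fermat.Agent.S52.helper3070

open Polynomial

section Lin

variable {F : Type*} [Field F]

/-- The product of the linear factors `X - c`, `c ∈ s`. -/
noncomputable def lin (s : Finset F) : F[X] := ∏ c ∈ s, (X - C c)

theorem lin_monic (s : Finset F) : (lin s).Monic :=
  monic_prod_of_monic _ _ (fun c _ => monic_X_sub_C c)

theorem lin_ne_zero (s : Finset F) : lin s ≠ 0 := (lin_monic s).ne_zero

theorem lin_natDegree (s : Finset F) : (lin s).natDegree = s.card := by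
  unfold lin
  rw [natDegree_prod_of_monic _ _ (fun c _ => monic_X_sub_C c)]
  simp

theorem lin_dvd (s : Finset F) (P : F[X]) (h : ∀ c ∈ s, P.eval c = 0) : lin s ∣ P := by
  unfold lin
  refine Finset.prod_dvd_of_coprime (fun a _ b _ hab => ?_) (fun c hc => ?_)
  · exact isCoprime_X_sub_C_of_isUnit_sub (sub_ne_zero_of_ne hab).isUnit
  · exact dvd_iff_isRoot.mpr (h c hc)

theorem lin_eval_eq_zero (s : Finset F) {c : F} (hc : c ∈ s) : (lin s).eval c = 0 := by
  unfold lin
  rw [eval_prod]
  exact Finset.prod_eq_zero hc (by simp)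

theorem isCoprime_lin (s : Finset F) (P : F[X]) (h : ∀ c ∈ s, P.eval c ≠ 0) :
    IsCoprime P (lin s) := by
  unfold lin
  refine IsCoprime.prod_right (fun c hc => ?_)
  refine IsCoprime.symm ?_
  exact (irreducible_X_sub_C c).coprime_iff_not_dvd.mpr
    (fun hd => h c hc (dvd_iff_isRoot.mp hd))

end Lin

/-- The purely formal identity behind the reduced fraction. -/
theorem key_identity {R : Type*} [CommRing R] (g0 gp gm f0 u Y f S D : R)
    (hD : D = g0 * gp * gm) (hf : f = g0 * f0) (hS : S = gm * u) :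
    (f0 * u ^ 2 - Y * (gp ^ 2 * g0)) * D ^ 2 = (gp ^ 2 * g0) * (f * S ^ 2 - Y * D ^ 2) := by
  subst hD hf hS; ring

/-- A cubic `c^3 + A c + B` with a root at which the derivative vanishes has zero discriminant. -/
theorem disc_eq_zero_of_double_root {R : Type*} [CommRing R] (A B c : R)
    (h1 : c ^ 3 + A * c + B = 0) (h2 : 3 * c ^ 2 + A = 0) : 4 * A ^ 3 + 27 * B ^ 2 = 0 := by
  linear_combination 27 * (B - c ^ 3 - A * c) * h1 + (9 * c ^ 4 + 15 * c ^ 2 * A + 4 * A ^ 2) * h2

section Finite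

variable {F : Type*} [Field F] [Fintype F]

/-- The cubic polynomial `X^3 + A X + B`. -/
noncomputable def cub (A B : F) : F[X] := X ^ 3 + C A * X + C B

/-- The value `c^3 + A c + B`. -/
def fv (A B c : F) : F := c ^ 3 + A * c + B

omit [Fintype F] in
theorem cub_eval (A B c : F) : (cub A B).eval c = fv A B c := by
  simp [cub, fv]

open scoped Classical in
/-- Roots of the cubic in `F`. -/
noncomputable def S0 (A B : F) : Finset F := Finset.univ.filter (fun c => fv A B c = 0)

open scoped Classical in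
/-- Points of `F` where the cubic is a nonzero square. -/
noncomputable def Sp (A B : F) (m : ℕ) : Finset F :=
  Finset.univ.filter (fun c => fv A B c ^ m = 1)

open scoped Classical in
/-- Points of `F` where the cubic is a non-square. -/
noncomputable def Sm (A B : F) (m : ℕ) : Finset F :=
  Finset.univ.filter (fun c => fv A B c ^ m = -1)

theorem mem_S0 {A B c : F} : c ∈ S0 A B ↔ fv A B c = 0 := by simp [S0]
theorem mem_Sp {A B c : F} {m : ℕ} : c ∈ Sp A B m ↔ fv A B c ^ m = 1 := by simp [Sp]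
theorem mem_Sm {A B c : F} {m : ℕ} : c ∈ Sm A B m ↔ fv A B c ^ m = -1 := by simp [Sm]

omit [Field F] in
theorem card_eq_two_mul_add_one_div {m : ℕ} (hm : 2 * m + 1 = Fintype.card F) :
    Fintype.card F / 2 = m := by omega

omit [Fintype F] in
theorem one_ne_neg_one (hF : ringChar F ≠ 2) : (1 : F) ≠ -1 := by
  intro h
  have h2 : (2 : F) = 0 := by linear_combination h
  exact (Ring.two_ne_zero hF) h2

theorem m_pos {m : ℕ} (hm : 2 * m + 1 = Fintype.card F) : 0 < m := by
  have := Fintype.one_lt_card (α := F)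
  omega

/-- Exactly one of the three classes contains a given element. -/
theorem trichotomy (hF : ringChar F ≠ 2) {m : ℕ} (hm : 2 * m + 1 = Fintype.card F)
    (A B c : F) :
    (fv A B c = 0 ∧ fv A B c ^ m ≠ 1 ∧ fv A B c ^ m ≠ -1) ∨
    (fv A B c ≠ 0 ∧ fv A B c ^ m = 1 ∧ fv A B c ^ m ≠ -1) ∨
    (fv A B c ≠ 0 ∧ fv A B c ^ m ≠ 1 ∧ fv A B c ^ m = -1) := by
  have hm0 : m ≠ 0 := (m_pos hm).ne'
  have h11 := one_ne_neg_one hF
  by_cases h0 : fv A B c = 0
  · left
    refine ⟨h0, ?_, ?_⟩
    · rw [h0, zero_pow hm0]; exact zero_ne_one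
    · rw [h0, zero_pow hm0]
      intro h
      have : (1 : F) = 0 := by linear_combination h
      exact one_ne_zero this
  · right
    have hd := FiniteField.pow_dichotomy hF h0
    rw [card_eq_two_mul_add_one_div hm] at hd
    rcases hd with h | h
    · left; exact ⟨h0, h, by rw [h]; exact h11⟩
    · right; exact ⟨h0, by rw [h]; exact fun h' => h11 h'.symm, h⟩

theorem X_pow_card_sub_X_eq_lin :
    (X ^ Fintype.card F - X : F[X]) = lin (Finset.univ : Finset F) := by
  have hmonic : (X ^ Fintype.card F - X : F[X]).Monic := by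
    apply monic_X_pow_sub
    rw [degree_X]
    exact_mod_cast Fintype.one_lt_card
  have hroots := FiniteField.roots_X_pow_card_sub_X F
  have hcard : Multiset.card (X ^ Fintype.card F - X : F[X]).roots
      = (X ^ Fintype.card F - X : F[X]).natDegree := by
    rw [hroots, FiniteField.X_pow_card_sub_X_natDegree_eq F Fintype.one_lt_card]
    simp
  have h := prod_multiset_X_sub_C_of_monic_of_roots_card_eq hmonic hcard
  rw [hroots] at h
  rw [← h]
  rfl

theorem lin_univ_eq (hF : ringChar F ≠ 2) {m : ℕ} (hm : 2 * m + 1 = Fintype.card F)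
    (A B : F) :
    lin (Finset.univ : Finset F) = lin (S0 A B) * lin (Sp A B m) * lin (Sm A B m) := by
  classical
  unfold lin S0 Sp Sm
  rw [Finset.prod_filter, Finset.prod_filter, Finset.prod_filter, ← Finset.prod_mul_distrib,
    ← Finset.prod_mul_distrib]
  refine Finset.prod_congr rfl (fun c _ => ?_)
  rcases trichotomy hF hm A B c with ⟨h1, h2, h3⟩ | ⟨h1, h2, h3⟩ | ⟨h1, h2, h3⟩
  · rw [if_pos h1, if_neg h2, if_neg h3]; ring
  · rw [if_neg h1, if_pos h2, if_neg h3]; ring
  · rw [if_neg h1, if_neg h2, if_pos h3]; ring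


/-- The numerator `f (f^m+1)^2 - (X^q+X)(X^q-X)^2` has degree `2q+1`. -/
theorem natDegree_N {m : ℕ} (hm : 2 * m + 1 = Fintype.card F) (A B : F) :
    (cub A B * (cub A B ^ m + 1) ^ 2
      - (X ^ Fintype.card F + X) * (X ^ Fintype.card F - X) ^ 2 : F[X]).natDegree
      = 2 * Fintype.card F + 1 := by
  have hq1 : 1 < Fintype.card F := Fintype.one_lt_card
  have hm0 : 0 < m := m_pos hm
  have hexp : cub A B ^ Fintype.card F
      = X ^ (3 * Fintype.card F) + C A * X ^ Fintype.card F + C B := by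
    rw [← FiniteField.expand_card]
    simp only [cub, map_add, map_mul, map_pow, expand_X, expand_C]
    ring
  have hN : cub A B * (cub A B ^ m + 1) ^ 2
      - (X ^ Fintype.card F + X) * (X ^ Fintype.card F - X) ^ 2
      = X ^ (2 * Fintype.card F + 1) + (X ^ (Fintype.card F + 2) + 2 * cub A B ^ (m + 1)
          + C A * X ^ Fintype.card F + C A * X + 2 * C B) := by
    have h1 : cub A B * (cub A B ^ m + 1) ^ 2
        = cub A B ^ Fintype.card F + 2 * cub A B ^ (m + 1) + cub A B := by
      rw [← hm]; ring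
    rw [h1, hexp]
    unfold cub
    ring
  rw [hN]
  have hR : (X ^ (Fintype.card F + 2) + 2 * cub A B ^ (m + 1)
          + C A * X ^ Fintype.card F + C A * X + 2 * C B : F[X]).natDegree
          ≤ 2 * Fintype.card F := by
    unfold cub
    compute_degree
    omega
  rw [natDegree_add_eq_left_of_natDegree_lt, natDegree_X_pow]
  rw [natDegree_X_pow]
  omega

open scoped Classical in
/-- Number of square roots in terms of the Euler criterion. -/
theorem card_sqrt (hF : ringChar F ≠ 2) {m : ℕ} (hm : 2 * m + 1 = Fintype.card F) (a : F) :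
    Nat.card {y : F // y ^ 2 = a}
      = (if a = 0 then 1 else 0) + 2 * (if a ^ m = 1 then 1 else 0) := by
  classical
  have h := quadraticChar_card_sqrts hF a
  have hcard : Nat.card {y : F // y ^ 2 = a} = ({x : F | x ^ 2 = a}.toFinset).card := by
    rw [Nat.card_eq_fintype_card, Set.toFinset_card]
    rfl
  have hm0 : m ≠ 0 := (m_pos hm).ne'
  by_cases ha : a = 0
  · have h1 : ¬ (a ^ m = 1) := by
      rw [ha, zero_pow hm0]; exact zero_ne_one
    rw [if_pos ha, if_neg h1, hcard]
    rw [ha, quadraticChar_zero] at h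
    have : (({x : F | x ^ 2 = 0}.toFinset).card : ℤ) = 1 := by rw [h]; ring
    subst ha
    exact_mod_cast this
  · rw [quadraticChar_eq_pow_of_char_ne_two hF ha, card_eq_two_mul_add_one_div hm] at h
    by_cases h1 : a ^ m = 1
    · rw [if_neg ha, if_pos h1, hcard]
      rw [if_pos h1] at h
      have : (({x : F | x ^ 2 = a}.toFinset).card : ℤ) = 2 := by rw [h]; ring
      exact_mod_cast this
    · rw [if_neg ha, if_neg h1, hcard]
      rw [if_neg h1] at h
      have : (({x : F | x ^ 2 = a}.toFinset).card : ℤ) = 0 := by rw [h]; ring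
      exact_mod_cast this

/-- The number of points of `y^2 = x^3 + A x + B` over `F`. -/
theorem point_count (hF : ringChar F ≠ 2) {m : ℕ} (hm : 2 * m + 1 = Fintype.card F) (A B : F)
    (hΔ : 4 * A ^ 3 + 27 * B ^ 2 ≠ 0) :
    Nat.card (⟨0, 0, 0, A, B⟩ : WeierstrassCurve F).toAffine.Point
      = 2 * (Sp A B m).card + (S0 A B).card + 1 := by
  classical
  have hΔW : (⟨0, 0, 0, A, B⟩ : WeierstrassCurve F).Δ ≠ 0 := by
    have h2 : (2 : F) ≠ 0 := Ring.two_ne_zero hF
    have hΔeq : (⟨0, 0, 0, A, B⟩ : WeierstrassCurve F).Δ = -(2 ^ 4 * (4 * A ^ 3 + 27 * B ^ 2)) := by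
      simp only [WeierstrassCurve.Δ, WeierstrassCurve.b₂, WeierstrassCurve.b₄,
        WeierstrassCurve.b₆, WeierstrassCurve.b₈]
      ring
    rw [hΔeq]
    exact neg_ne_zero.mpr (mul_ne_zero (pow_ne_zero 4 h2) hΔ)
  have e1 := (⟨0, 0, 0, A, B⟩ : WeierstrassCurve F).toAffine.nonsingularPointEquiv
  have e2 : {xy : F × F // (⟨0, 0, 0, A, B⟩ : WeierstrassCurve F).toAffine.Nonsingular xy.1 xy.2}
      ≃ {xy : F × F // xy.2 ^ 2 = fv A B xy.1} :=
    Equiv.subtypeEquivRight (fun xy => by
      rw [← WeierstrassCurve.Affine.equation_iff_nonsingular_of_Δ_ne_zero hΔW,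
        WeierstrassCurve.Affine.equation_iff]
      simp [fv])
  have e3 := Equiv.subtypeProdEquivSigmaSubtype (fun (x y : F) => y ^ 2 = fv A B x)
  rw [Nat.card_congr (e1.trans ((Equiv.optionCongr e2).trans (Equiv.optionCongr e3))),
    Finite.card_option, Nat.card_sigma]
  congr 1
  have hsum : ∀ x : F, Nat.card {y : F // y ^ 2 = fv A B x}
      = (if fv A B x = 0 then 1 else 0) + 2 * (if fv A B x ^ m = 1 then 1 else 0) :=
    fun x => card_sqrt hF hm (fv A B x)
  rw [Finset.sum_congr rfl (fun x _ => hsum x), Finset.sum_add_distrib, ← Finset.mul_sum,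
    Finset.sum_boole, Finset.sum_boole]
  unfold S0 Sp
  simp only [Nat.cast_id]
  ring

/-- MANIN COUNT, polynomial form over the finite field itself. -/
theorem manin_count_core (hF : ringChar F ≠ 2) {m : ℕ} (hm : 2 * m + 1 = Fintype.card F)
    (A B : F) (hΔ : 4 * A ^ 3 + 27 * B ^ 2 ≠ 0) :
    ∃ n d : F[X], IsCoprime n d ∧ d ≠ 0 ∧
      n * (X ^ Fintype.card F - X) ^ 2
        = d * (cub A B * (cub A B ^ m + 1) ^ 2
            - (X ^ Fintype.card F + X) * (X ^ Fintype.card F - X) ^ 2) ∧
      n.natDegree = d.natDegree + 1 ∧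
      d.natDegree + 1 = Nat.card (⟨0, 0, 0, A, B⟩ : WeierstrassCurve F).toAffine.Point := by
  classical
  have hD : (X ^ Fintype.card F - X : F[X])
      = lin (S0 A B) * lin (Sp A B m) * lin (Sm A B m) := by
    rw [X_pow_card_sub_X_eq_lin, lin_univ_eq hF hm A B]
  obtain ⟨f0, hf0⟩ : lin (S0 A B) ∣ cub A B :=
    lin_dvd _ _ (fun c hc => by rw [cub_eval]; exact mem_S0.mp hc)
  obtain ⟨u, hu⟩ : lin (Sm A B m) ∣ cub A B ^ m + 1 := lin_dvd _ _ (fun c hc => by
    rw [eval_add, eval_pow, cub_eval, eval_one, mem_Sm.mp hc]; ring)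
  have hm0 : m ≠ 0 := (m_pos hm).ne'
  have hf0_S0 : ∀ c ∈ S0 A B, f0.eval c ≠ 0 := by
    intro c hc h0
    have hc0 := mem_S0.mp hc
    have hder : (derivative (cub A B)).eval c = 0 := by
      rw [hf0, derivative_mul, eval_add, eval_mul, eval_mul, h0, lin_eval_eq_zero _ hc]; ring
    have hder' : (derivative (cub A B)).eval c = 3 * c ^ 2 + A := by
      simp [cub]
      left; norm_num
    exact hΔ (disc_eq_zero_of_double_root A B c hc0 (by rw [← hder', hder]))
  have hf0_Sp : ∀ c ∈ Sp A B m, f0.eval c ≠ 0 := by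
    intro c hc h0
    have h1 := mem_Sp.mp hc
    have : fv A B c = 0 := by rw [← cub_eval, hf0, eval_mul, h0, mul_zero]
    rw [this, zero_pow hm0] at h1
    exact zero_ne_one h1
  have hu_S0 : ∀ c ∈ S0 A B, u.eval c ≠ 0 := by
    intro c hc h0
    have hc0 := mem_S0.mp hc
    have h := congrArg (eval c) hu
    rw [eval_add, eval_pow, eval_one, eval_mul, h0, mul_zero, cub_eval, hc0, zero_pow hm0,
      zero_add] at h
    exact one_ne_zero h
  have hu_Sp : ∀ c ∈ Sp A B m, u.eval c ≠ 0 := by
    intro c hc h0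
    have h1 := mem_Sp.mp hc
    have h := congrArg (eval c) hu
    rw [eval_add, eval_pow, eval_one, eval_mul, h0, mul_zero, cub_eval, h1] at h
    exact one_ne_neg_one hF (by linear_combination h)
  have hcop0 : IsCoprime (f0 * u ^ 2) (lin (Sp A B m) ^ 2 * lin (S0 A B)) := by
    apply IsCoprime.mul_right
    · apply IsCoprime.pow_right
      apply isCoprime_lin
      intro c hc
      rw [eval_mul, eval_pow]
      exact mul_ne_zero (hf0_Sp c hc) (pow_ne_zero 2 (hu_Sp c hc))
    · apply isCoprime_lin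
      intro c hc
      rw [eval_mul, eval_pow]
      exact mul_ne_zero (hf0_S0 c hc) (pow_ne_zero 2 (hu_S0 c hc))
  have hd0 : lin (Sp A B m) ^ 2 * lin (S0 A B) ≠ 0 :=
    mul_ne_zero (pow_ne_zero 2 (lin_ne_zero _)) (lin_ne_zero _)
  have hcop : IsCoprime (f0 * u ^ 2 - (X ^ Fintype.card F + X)
      * (lin (Sp A B m) ^ 2 * lin (S0 A B))) (lin (Sp A B m) ^ 2 * lin (S0 A B)) := by
    have : f0 * u ^ 2 - (X ^ Fintype.card F + X) * (lin (Sp A B m) ^ 2 * lin (S0 A B))
        = f0 * u ^ 2 + (-(X ^ Fintype.card F + X)) * (lin (Sp A B m) ^ 2 * lin (S0 A B)) := by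
      ring
    rw [this]
    exact hcop0.add_mul_right_left _
  have hkey := key_identity (lin (S0 A B)) (lin (Sp A B m)) (lin (Sm A B m)) f0 u
    (X ^ Fintype.card F + X) (cub A B) (cub A B ^ m + 1) (X ^ Fintype.card F - X) hD hf0 hu
  have hNdeg := natDegree_N hm A B
  have hq1 : 1 < Fintype.card F := Fintype.one_lt_card
  have hDne : (X ^ Fintype.card F - X : F[X]) ≠ 0 := FiniteField.X_pow_card_sub_X_ne_zero F hq1
  have hDdeg : ((X ^ Fintype.card F - X : F[X]) ^ 2).natDegree = 2 * Fintype.card F := by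
    rw [natDegree_pow, FiniteField.X_pow_card_sub_X_natDegree_eq F hq1]
  refine ⟨_, _, hcop, hd0, hkey, ?_, ?_⟩
  · have hN0 : (cub A B * (cub A B ^ m + 1) ^ 2
        - (X ^ Fintype.card F + X) * (X ^ Fintype.card F - X) ^ 2 : F[X]) ≠ 0 := by
      intro h0
      rw [h0] at hNdeg
      simp at hNdeg
    have hn0 : f0 * u ^ 2 - (X ^ Fintype.card F + X)
        * (lin (Sp A B m) ^ 2 * lin (S0 A B)) ≠ 0 := by
      intro h0
      rw [h0, zero_mul] at hkey
      exact (mul_ne_zero hd0 hN0) hkey.symm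
    have h := congrArg natDegree hkey
    rw [natDegree_mul hn0 (pow_ne_zero 2 hDne), natDegree_mul hd0 hN0, hDdeg, hNdeg] at h
    omega
  · rw [point_count hF hm A B hΔ, natDegree_mul (pow_ne_zero 2 (lin_ne_zero _)) (lin_ne_zero _),
      natDegree_pow, lin_natDegree, lin_natDegree]

end Finite

section Transfer

variable {F : Type*} [Field F] [Fintype F] {K : Type*} [Field K] [Algebra F K]

/-- MANIN COUNT, polynomial form over any field `K` that is an algebra over the finite
field `F`: the rational function `f (f^m+1)^2/(X^q-X)^2 - (X^q+X)` is `n/d` with `n`, `d`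
coprime, `deg n = deg d + 1 = #E(F)`. -/
theorem manin_count_poly (hF : ringChar F ≠ 2) {m : ℕ} (hm : 2 * m + 1 = Fintype.card F)
    (A B : F) (hΔ : 4 * A ^ 3 + 27 * B ^ 2 ≠ 0) :
    ∃ n d : K[X], IsCoprime n d ∧ d ≠ 0 ∧
      n * (X ^ Fintype.card F - X) ^ 2
        = d * ((X ^ 3 + C (algebraMap F K A) * X + C (algebraMap F K B))
              * ((X ^ 3 + C (algebraMap F K A) * X + C (algebraMap F K B)) ^ m + 1) ^ 2
            - (X ^ Fintype.card F + X) * (X ^ Fintype.card F - X) ^ 2) ∧
      n.natDegree = d.natDegree + 1 ∧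
      d.natDegree + 1 = Nat.card (⟨0, 0, 0, A, B⟩ : WeierstrassCurve F).toAffine.Point := by
  obtain ⟨n, d, hcop, hd0, hkey, hdeg, hcard⟩ := manin_count_core hF hm A B hΔ
  have hinj : Function.Injective (algebraMap F K) := (algebraMap F K).injective
  refine ⟨n.map (algebraMap F K), d.map (algebraMap F K),
    hcop.map (mapRingHom (algebraMap F K)), ?_, ?_, ?_, ?_⟩
  · exact (Polynomial.map_ne_zero_iff hinj).mpr hd0
  · have h := congrArg (Polynomial.map (algebraMap F K)) hkey
    simpa [cub] using h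
  · rw [natDegree_map_eq_of_injective hinj, natDegree_map_eq_of_injective hinj, hdeg]
  · rw [natDegree_map_eq_of_injective hinj, hcard]

end Transfer

section RatFuncForm

/-- A rational function equal to a coprime fraction `n/d` has `num`, `denom` of the same
degrees as `n`, `d`. -/
theorem natDegree_num_denom_of_isCoprime {K : Type*} [Field K] (n d : K[X])
    (hcop : IsCoprime n d) (hd : d ≠ 0) (r : RatFunc K)
    (hr : r * algebraMap K[X] (RatFunc K) d = algebraMap K[X] (RatFunc K) n) :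
    r.num.natDegree = n.natDegree ∧ r.denom.natDegree = d.natDegree := by
  have hden0 : r.denom ≠ 0 := r.denom_ne_zero
  have hden0' : algebraMap K[X] (RatFunc K) r.denom ≠ 0 := by
    intro h
    exact hden0 ((RatFunc.algebraMap_injective K) (by rw [h, map_zero]))
  have h1 : r.num * d = n * r.denom := by
    apply RatFunc.algebraMap_injective K
    rw [map_mul, map_mul]
    have h2 := r.num_div_denom
    rw [← hr]
    nth_rewrite 2 [← h2]
    field_simp
  have hcop' := r.isCoprime_num_denom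
  have hnum_dvd : r.num ∣ n := hcop'.dvd_of_dvd_mul_right ⟨d, h1.symm⟩
  have hn_dvd : n ∣ r.num := hcop.dvd_of_dvd_mul_right ⟨r.denom, h1⟩
  have hden_dvd : r.denom ∣ d := hcop'.symm.dvd_of_dvd_mul_left ⟨n, by rw [h1]; ring⟩
  have hd_dvd : d ∣ r.denom := hcop.symm.dvd_of_dvd_mul_left ⟨r.num, by rw [← h1]; ring⟩
  refine ⟨?_, le_antisymm (natDegree_le_of_dvd hden_dvd hd) (natDegree_le_of_dvd hd_dvd hden0)⟩
  by_cases hn0 : n = 0
  · rw [hn0] at hn_dvd ⊢
    rw [zero_dvd_iff.mp hn_dvd]
  · have hnum0 : r.num ≠ 0 := by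
      intro h0
      rw [h0] at hnum_dvd
      exact hn0 (zero_dvd_iff.mp hnum_dvd)
    exact le_antisymm (natDegree_le_of_dvd hnum_dvd hn0) (natDegree_le_of_dvd hn_dvd hnum0)

variable {F : Type*} [Field F] [Fintype F] {K : Type*} [Field K] [Algebra F K]

/-- MANIN COUNT, `RatFunc` form (division-free hypothesis).  With `x = RatFunc.X`,
`lam = x^3 + A x + B`, `2 m + 1 = q = #F`: the rational function `r` with
`r (x^q - x)^2 = lam (lam^m + 1)^2 - (x^q + x)(x^q - x)^2`
(i.e. `r = lam ((lam^m+1)/(x^q-x))^2 - x^q - x`, the `x`-coordinate of `Frob P₀ - P₀`)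
has numerator of degree `#E(F)` and denominator of degree `#E(F) - 1`. -/
theorem manin_count_num_denom (hF : ringChar F ≠ 2) {m : ℕ}
    (hm : 2 * m + 1 = Fintype.card F) (A B : F) (hΔ : 4 * A ^ 3 + 27 * B ^ 2 ≠ 0)
    (r : RatFunc K)
    (hr : r * (RatFunc.X ^ Fintype.card F - RatFunc.X) ^ 2
      = (RatFunc.X ^ 3 + RatFunc.C (algebraMap F K A) * RatFunc.X
            + RatFunc.C (algebraMap F K B))
          * ((RatFunc.X ^ 3 + RatFunc.C (algebraMap F K A) * RatFunc.X
            + RatFunc.C (algebraMap F K B)) ^ m + 1) ^ 2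
        - (RatFunc.X ^ Fintype.card F + RatFunc.X)
          * (RatFunc.X ^ Fintype.card F - RatFunc.X) ^ 2) :
    r.num.natDegree = Nat.card (⟨0, 0, 0, A, B⟩ : WeierstrassCurve F).toAffine.Point ∧
    r.denom.natDegree + 1
      = Nat.card (⟨0, 0, 0, A, B⟩ : WeierstrassCurve F).toAffine.Point := by
  obtain ⟨n, d, hcop, hd0, hkey, hdeg, hcard⟩ := manin_count_poly (K := K) hF hm A B hΔ
  have hq1 : 1 < Fintype.card F := Fintype.one_lt_card
  have hDne : (X ^ Fintype.card F - X : K[X]) ≠ 0 := FiniteField.X_pow_card_sub_X_ne_zero K hq1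
  have hDne' : (RatFunc.X ^ Fintype.card F - RatFunc.X : RatFunc K) ≠ 0 := by
    intro h
    apply hDne
    apply RatFunc.algebraMap_injective K
    rw [map_zero, ← h]
    simp
  have h := congrArg (algebraMap K[X] (RatFunc K)) hkey
  simp only [map_mul, map_pow, map_sub, map_add, map_one, RatFunc.algebraMap_X,
    RatFunc.algebraMap_C] at h
  rw [← hr] at h
  have hr' : r * algebraMap K[X] (RatFunc K) d = algebraMap K[X] (RatFunc K) n := by
    have h2 : (r * algebraMap K[X] (RatFunc K) d - algebraMap K[X] (RatFunc K) n)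
        * (RatFunc.X ^ Fintype.card F - RatFunc.X) ^ 2 = 0 := by
      linear_combination -h
    rcases mul_eq_zero.mp h2 with h3 | h3
    · exact sub_eq_zero.mp h3
    · exact absurd ((pow_eq_zero_iff (two_ne_zero)).mp h3) hDne'
  obtain ⟨h1, h2⟩ := natDegree_num_denom_of_isCoprime n d hcop hd0 r hr'
  rw [h1, h2, hdeg]
  exact ⟨hcard, hcard⟩

/-- MANIN COUNT, height form: `max (deg num) (deg denom) = #E(F)`. -/
theorem manin_count (hF : ringChar F ≠ 2) {m : ℕ}
    (hm : 2 * m + 1 = Fintype.card F) (A B : F) (hΔ : 4 * A ^ 3 + 27 * B ^ 2 ≠ 0)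
    (r : RatFunc K)
    (hr : r * (RatFunc.X ^ Fintype.card F - RatFunc.X) ^ 2
      = (RatFunc.X ^ 3 + RatFunc.C (algebraMap F K A) * RatFunc.X
            + RatFunc.C (algebraMap F K B))
          * ((RatFunc.X ^ 3 + RatFunc.C (algebraMap F K A) * RatFunc.X
            + RatFunc.C (algebraMap F K B)) ^ m + 1) ^ 2
        - (RatFunc.X ^ Fintype.card F + RatFunc.X)
          * (RatFunc.X ^ Fintype.card F - RatFunc.X) ^ 2) :
    max r.num.natDegree r.denom.natDegree
      = Nat.card (⟨0, 0, 0, A, B⟩ : WeierstrassCurve F).toAffine.Point := by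
  obtain ⟨h1, h2⟩ := manin_count_num_denom hF hm A B hΔ r hr
  omega

/-- MANIN COUNT for the explicit expression `lam ((lam^m+1)/(x^q-x))^2 - x^q - x`. -/
theorem manin_count_explicit (hF : ringChar F ≠ 2) {m : ℕ}
    (hm : 2 * m + 1 = Fintype.card F) (A B : F) (hΔ : 4 * A ^ 3 + 27 * B ^ 2 ≠ 0) :
    max ((RatFunc.X ^ 3 + RatFunc.C (algebraMap F K A) * RatFunc.X
            + RatFunc.C (algebraMap F K B))
          * (((RatFunc.X ^ 3 + RatFunc.C (algebraMap F K A) * RatFunc.X
            + RatFunc.C (algebraMap F K B)) ^ m + 1)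
              / (RatFunc.X ^ Fintype.card F - RatFunc.X)) ^ 2
        - RatFunc.X ^ Fintype.card F - RatFunc.X : RatFunc K).num.natDegree
      ((RatFunc.X ^ 3 + RatFunc.C (algebraMap F K A) * RatFunc.X
            + RatFunc.C (algebraMap F K B))
          * (((RatFunc.X ^ 3 + RatFunc.C (algebraMap F K A) * RatFunc.X
            + RatFunc.C (algebraMap F K B)) ^ m + 1)
              / (RatFunc.X ^ Fintype.card F - RatFunc.X)) ^ 2
        - RatFunc.X ^ Fintype.card F - RatFunc.X : RatFunc K).denom.natDegree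
      = Nat.card (⟨0, 0, 0, A, B⟩ : WeierstrassCurve F).toAffine.Point := by
  have hq1 : 1 < Fintype.card F := Fintype.one_lt_card
  have hDne : (X ^ Fintype.card F - X : K[X]) ≠ 0 := FiniteField.X_pow_card_sub_X_ne_zero K hq1
  have hDne' : (RatFunc.X ^ Fintype.card F - RatFunc.X : RatFunc K) ≠ 0 := by
    intro h
    apply hDne
    apply RatFunc.algebraMap_injective K
    rw [map_zero, ← h]
    simp
  apply manin_count hF hm A B hΔ
  field_simp
  ring

/-- MANIN COUNT over `ZMod l` (`l` an odd prime), exponent `(l-1)/2`, any field `K` of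
characteristic `l` (as a `ZMod l`-algebra): numerator and denominator degrees. -/
theorem manin_count_zmod_num_denom (l : ℕ) [Fact l.Prime] (hl : l ≠ 2)
    {K : Type*} [Field K] [Algebra (ZMod l) K] (A B : ZMod l)
    (hΔ : 4 * A ^ 3 + 27 * B ^ 2 ≠ 0) (r : RatFunc K)
    (hr : r * (RatFunc.X ^ l - RatFunc.X) ^ 2
      = (RatFunc.X ^ 3 + RatFunc.C (algebraMap (ZMod l) K A) * RatFunc.X
            + RatFunc.C (algebraMap (ZMod l) K B))
          * ((RatFunc.X ^ 3 + RatFunc.C (algebraMap (ZMod l) K A) * RatFunc.X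
            + RatFunc.C (algebraMap (ZMod l) K B)) ^ ((l - 1) / 2) + 1) ^ 2
        - (RatFunc.X ^ l + RatFunc.X) * (RatFunc.X ^ l - RatFunc.X) ^ 2) :
    r.num.natDegree
      = Nat.card (⟨0, 0, 0, A, B⟩ : WeierstrassCurve (ZMod l)).toAffine.Point ∧
    r.denom.natDegree + 1
      = Nat.card (⟨0, 0, 0, A, B⟩ : WeierstrassCurve (ZMod l)).toAffine.Point := by
  have hcard : Fintype.card (ZMod l) = l := ZMod.card l
  have hF : ringChar (ZMod l) ≠ 2 := by rw [ZMod.ringChar_zmod_n]; exact hl
  have hodd : l % 2 = 1 := by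
    rcases (Fact.out : l.Prime).eq_two_or_odd with h | h
    · exact absurd h hl
    · exact h
  have hm : 2 * ((l - 1) / 2) + 1 = Fintype.card (ZMod l) := by rw [hcard]; omega
  exact manin_count_num_denom (F := ZMod l) (K := K) hF hm A B hΔ r (by rw [hcard]; exact hr)

/-- MANIN COUNT over `ZMod l`, height form. -/
theorem manin_count_zmod (l : ℕ) [Fact l.Prime] (hl : l ≠ 2)
    {K : Type*} [Field K] [Algebra (ZMod l) K] (A B : ZMod l)
    (hΔ : 4 * A ^ 3 + 27 * B ^ 2 ≠ 0) (r : RatFunc K)
    (hr : r * (RatFunc.X ^ l - RatFunc.X) ^ 2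
      = (RatFunc.X ^ 3 + RatFunc.C (algebraMap (ZMod l) K A) * RatFunc.X
            + RatFunc.C (algebraMap (ZMod l) K B))
          * ((RatFunc.X ^ 3 + RatFunc.C (algebraMap (ZMod l) K A) * RatFunc.X
            + RatFunc.C (algebraMap (ZMod l) K B)) ^ ((l - 1) / 2) + 1) ^ 2
        - (RatFunc.X ^ l + RatFunc.X) * (RatFunc.X ^ l - RatFunc.X) ^ 2) :
    max r.num.natDegree r.denom.natDegree
      = Nat.card (⟨0, 0, 0, A, B⟩ : WeierstrassCurve (ZMod l)).toAffine.Point := by
  obtain ⟨h1, h2⟩ := manin_count_zmod_num_denom l hl A B hΔ r hr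
  omega

end RatFuncForm

end Fermat.Agent.S52.helper3070
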