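/-
S52 / LOC, generic-fibre engine (helper3451).

Specialisation of 5-torsion points of a short Weierstrass curve `y² = x³ + A x + B` with
coefficients in an integrally closed domain `R` (fraction field `K`) along an arbitrary ring
homomorphism `e : R →+* k` to a field at which the curve stays nonsingular.

The specialisation is expressed by a relation `Spec e A B P Q` ("`Q` is the coordinatewise image
of `P`"); on 5-torsion it is additive (`Spec.add`), compatible with negation and multiples, and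
injective (`Spec.eq_zero_left`).  The consumer `five_dvd_of_spec` turns two Cayley–Hamilton
relations on two special fibres into a congruence of traces modulo `5`.
-/
import Mathlib
import Fermat.Agent.Lib.helper853_TorsionLadder

set_option autoImplicit false

namespace Fermat.Agent.S52.helper3451

open WeierstrassCurve WeierstrassCurve.Affine

/-- The short Weierstrass curve `y² = x³ + A x + B`. -/
def sw {F : Type*} [CommRing F] (A B : F) : WeierstrassCurve F := ⟨0, 0, 0, A, B⟩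

section Basic

variable {F : Type*} [CommRing F] (A B : F)

theorem sw_equation_iff (x y : F) :
    (sw A B).toAffine.Equation x y ↔ y ^ 2 = x ^ 3 + A * x + B := by
  rw [equation_iff]; simp [sw]

theorem sw_negY (x y : F) : (sw A B).toAffine.negY x y = -y := by
  simp [negY, sw]

theorem sw_nonsingular_iff (x y : F) :
    (sw A B).toAffine.Nonsingular x y ↔
      y ^ 2 = x ^ 3 + A * x + B ∧ (3 * x ^ 2 + A ≠ 0 ∨ y ≠ -y) := by
  rw [nonsingular_iff, sw_equation_iff]
  simp [sw, eq_comm]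

theorem sw_Δ : (sw A B).Δ = -16 * (4 * A ^ 3 + 27 * B ^ 2) := by
  simp [sw, WeierstrassCurve.Δ, WeierstrassCurve.b₂, WeierstrassCurve.b₄, WeierstrassCurve.b₆,
    WeierstrassCurve.b₈]
  ring

theorem sw_addX (x₁ x₂ l : F) : (sw A B).toAffine.addX x₁ x₂ l = l ^ 2 - x₁ - x₂ := by
  simp [addX, sw]

theorem sw_addY (x₁ x₂ y₁ l : F) :
    (sw A B).toAffine.addY x₁ x₂ y₁ l = -(l * (l ^ 2 - x₁ - x₂ - x₁) + y₁) := by
  simp [addY, negY, negAddY, addX, sw]

end Basic

section Field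

variable {F : Type*} [Field F] {A B : F}

theorem sw_nonsingular_of_equation (h2 : (2 : F) ≠ 0) (hΔ : 4 * A ^ 3 + 27 * B ^ 2 ≠ 0)
    {x y : F} (h : y ^ 2 = x ^ 3 + A * x + B) : (sw A B).toAffine.Nonsingular x y := by
  have hΔ' : (sw A B).toAffine.Δ ≠ 0 := by
    change (sw A B).Δ ≠ 0
    rw [sw_Δ]
    have h16 : (16 : F) ≠ 0 := by
      have : (16 : F) = 2 ^ 4 := by norm_num
      rw [this]; exact pow_ne_zero _ h2
    exact mul_ne_zero (neg_ne_zero.mpr h16) hΔ
  exact (equation_iff_nonsingular_of_Δ_ne_zero hΔ').mp ((sw_equation_iff A B x y).mpr h)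

theorem some_eq_of_eq {W : Affine F} {x y x' y' : F} (h : W.Nonsingular x y) (hx : x' = x)
    (hy : y' = y) : ∃ h' : W.Nonsingular x' y', Point.some x y h = Point.some x' y' h' := by
  subst hx hy; exact ⟨h, rfl⟩

theorem sw_neg_some {x₁ y₁ : F} (h₁ : (sw A B).toAffine.Nonsingular x₁ y₁) :
    ∃ h₂ : (sw A B).toAffine.Nonsingular x₁ (-y₁), -Point.some x₁ y₁ h₁ = Point.some x₁ (-y₁) h₂ := by
  rw [Point.neg_some]
  exact some_eq_of_eq _ rfl (sw_negY A B x₁ y₁).symm

variable [DecidableEq F]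

/-- chord addition on a short curve, in coordinates -/
theorem sw_add_of_X_ne {x₁ y₁ x₂ y₂ : F} (h₁ : (sw A B).toAffine.Nonsingular x₁ y₁)
    (h₂ : (sw A B).toAffine.Nonsingular x₂ y₂) (hx : x₁ ≠ x₂) {l : F}
    (hl : l * (x₁ - x₂) = y₁ - y₂) :
    ∃ h₃ : (sw A B).toAffine.Nonsingular (l ^ 2 - x₁ - x₂) (-(l * (l ^ 2 - x₁ - x₂ - x₁) + y₁)),
      Point.some x₁ y₁ h₁ + Point.some x₂ y₂ h₂ = Point.some _ _ h₃ := by
  have hs : (sw A B).toAffine.slope x₁ x₂ y₁ y₂ = l := by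
    rw [slope_of_X_ne hx, div_eq_iff (sub_ne_zero.mpr hx)]; exact hl.symm
  rw [Point.add_of_X_ne hx]
  refine some_eq_of_eq _ ?_ ?_
  · rw [sw_addX, hs]
  · rw [sw_addY, hs]

/-- tangent addition (doubling) on a short curve, in coordinates -/
theorem sw_add_self {x₁ y₁ : F} (h₁ : (sw A B).toAffine.Nonsingular x₁ y₁)
    (hy : y₁ ≠ -y₁) {l : F} (hl : l * (2 * y₁) = 3 * x₁ ^ 2 + A) :
    ∃ h₃ : (sw A B).toAffine.Nonsingular (l ^ 2 - x₁ - x₁) (-(l * (l ^ 2 - x₁ - x₁ - x₁) + y₁)),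
      Point.some x₁ y₁ h₁ + Point.some x₁ y₁ h₁ = Point.some _ _ h₃ := by
  have hy' : y₁ ≠ (sw A B).toAffine.negY x₁ y₁ := by rw [sw_negY]; exact hy
  have h2y : 2 * y₁ ≠ 0 := by
    intro h; apply hy; linear_combination h
  have hs : (sw A B).toAffine.slope x₁ x₁ y₁ y₁ = l := by
    rw [slope_of_Y_ne rfl hy', sw_negY, div_eq_iff (by intro h; apply h2y; linear_combination h)]
    simp only [sw]
    linear_combination -hl
  rw [Point.add_self_of_Y_ne hy']
  refine some_eq_of_eq _ ?_ ?_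
  · rw [sw_addX, hs]
  · rw [sw_addY, hs]

theorem sw_add_of_Y_eq {x₁ y₁ y₂ : F} (h₁ : (sw A B).toAffine.Nonsingular x₁ y₁)
    (h₂ : (sw A B).toAffine.Nonsingular x₁ y₂) (hy : y₁ = -y₂) :
    Point.some x₁ y₁ h₁ + Point.some x₁ y₂ h₂ = 0 := by
  apply Point.add_of_Y_eq rfl
  rw [sw_negY]; exact hy

end Field


/-! ### Specialisation of 5-torsion along a ring homomorphism -/

section Spec

variable {R K k : Type*} [CommRing R] [IsDomain R] [IsIntegrallyClosed R] [Field K] [Algebra R K]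
  [IsFractionRing R K] [Field k] [DecidableEq K] [DecidableEq k]

/-- `Spec e A B P Q`: the point `Q` of the special fibre `y² = x³ + e(A) x + e(B)` is the
coordinatewise image under `e` of the point `P` of the generic fibre `y² = x³ + A x + B`. -/
def Spec (e : R →+* k) (A B : R)
    (P : (sw (algebraMap R K A) (algebraMap R K B)).toAffine.Point)
    (Q : (sw (e A) (e B)).toAffine.Point) : Prop :=
  (P = 0 ∧ Q = 0) ∨
    ∃ (x y : R) (hK : (sw (algebraMap R K A) (algebraMap R K B)).toAffine.Nonsingular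
        (algebraMap R K x) (algebraMap R K y))
      (hk : (sw (e A) (e B)).toAffine.Nonsingular (e x) (e y)),
      P = Point.some _ _ hK ∧ Q = Point.some _ _ hk

omit [IsDomain R] [IsIntegrallyClosed R] [IsFractionRing R K] [DecidableEq K] [DecidableEq k] in
theorem Spec.zero (e : R →+* k) (A B : R) : Spec (K := K) e A B 0 0 := Or.inl ⟨rfl, rfl⟩

omit [IsDomain R] [IsIntegrallyClosed R] [IsFractionRing R K] [DecidableEq K] [DecidableEq k] in
theorem Spec.eq_zero_left {e : R →+* k} {A B : R}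
    {P : (sw (algebraMap R K A) (algebraMap R K B)).toAffine.Point}
    (s : Spec e A B P 0) : P = 0 := by
  rcases s with ⟨h, -⟩ | ⟨x, y, hK, hk, -, h⟩
  · exact h
  · exact absurd h.symm (Point.some_ne_zero _)

omit [IsDomain R] [IsIntegrallyClosed R] [IsFractionRing R K] [DecidableEq K] [DecidableEq k] in
theorem Spec.eq_zero_right {e : R →+* k} {A B : R} {Q : (sw (e A) (e B)).toAffine.Point}
    (s : Spec (K := K) e A B 0 Q) : Q = 0 := by
  rcases s with ⟨-, h⟩ | ⟨x, y, hK, hk, h, -⟩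
  · exact h
  · exact absurd h.symm (Point.some_ne_zero _)

omit [IsDomain R] [IsIntegrallyClosed R] [IsFractionRing R K] [DecidableEq K] [DecidableEq k] in
theorem Spec.neg {e : R →+* k} {A B : R}
    {P : (sw (algebraMap R K A) (algebraMap R K B)).toAffine.Point}
    {Q : (sw (e A) (e B)).toAffine.Point} (s : Spec e A B P Q) : Spec e A B (-P) (-Q) := by
  rcases s with ⟨rfl, rfl⟩ | ⟨x, y, hK, hk, rfl, rfl⟩
  · left; exact ⟨rfl, rfl⟩
  · right
    obtain ⟨h1, e1⟩ := sw_neg_some hK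
    obtain ⟨h2, e2⟩ := sw_neg_some hk
    obtain ⟨h3, e3⟩ := some_eq_of_eq h1 (x' := algebraMap R K x) (y' := algebraMap R K (-y)) rfl
      (map_neg _ _)
    obtain ⟨h4, e4⟩ := some_eq_of_eq h2 (x' := e x) (y' := e (-y)) rfl (map_neg _ _)
    exact ⟨x, -y, h3, h4, e1.trans e3, e2.trans e4⟩

omit [DecidableEq K] in
theorem exists_int_of_sq {z : K} {r : R} (h : z ^ 2 = algebraMap R K r) :
    ∃ m : R, algebraMap R K m = z := by
  have hi : IsIntegral R z := by
    apply IsIntegral.of_pow (n := 2) (by norm_num)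
    rw [h]; exact isIntegral_algebraMap
  exact IsIntegrallyClosed.isIntegral_iff.mp hi

omit [IsIntegrallyClosed R] [DecidableEq K] in
theorem eq_of_nonsingular {A B x y : R}
    (h : (sw (algebraMap R K A) (algebraMap R K B)).toAffine.Nonsingular
      (algebraMap R K x) (algebraMap R K y)) : y ^ 2 = x ^ 3 + A * x + B := by
  have h1 := ((sw_nonsingular_iff _ _ _ _).mp h).1
  apply IsFractionRing.injective R K
  rw [map_pow, map_add, map_add, map_mul, map_pow]; exact h1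

/-- A 5-torsion point of the generic fibre has integral coordinates. -/
theorem exists_int_of_torsion (h5 : IsUnit (5 : R)) {A B : R} {X Y : K}
    (h : (sw (algebraMap R K A) (algebraMap R K B)).toAffine.Nonsingular X Y)
    (ht : 5 • Point.some X Y h = 0) :
    ∃ x y : R, algebraMap R K x = X ∧ algebraMap R K y = Y := by
  have hpsi := (Fermat.Agent.Lib.helper853.nsmul_eq_zero_iff_psiP _ h 2).mp ht
  set p : Polynomial R := Fermat.Agent.Lib.helper853.psiP (0 : R) (2 * A) (4 * B) (-(A ^ 2)) 2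
    with hp
  have hb₂ : (sw (algebraMap R K A) (algebraMap R K B)).toAffine.b₂ = algebraMap R K 0 := by
    simp [sw, WeierstrassCurve.b₂]
  have hb₄ : (sw (algebraMap R K A) (algebraMap R K B)).toAffine.b₄ = algebraMap R K (2 * A) := by
    rw [map_mul, map_ofNat]; simp [sw, WeierstrassCurve.b₄]
  have hb₆ : (sw (algebraMap R K A) (algebraMap R K B)).toAffine.b₆ = algebraMap R K (4 * B) := by
    rw [map_mul, map_ofNat]; simp [sw, WeierstrassCurve.b₆]
  have hb₈ : (sw (algebraMap R K A) (algebraMap R K B)).toAffine.b₈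
      = algebraMap R K (-(A ^ 2)) := by
    rw [map_neg, map_pow]; simp [sw, WeierstrassCurve.b₈]
  rw [hb₂, hb₄, hb₆, hb₈, ← Fermat.Agent.Lib.helper853.psiP_map, ← hp] at hpsi
  have hLC := Fermat.Agent.Lib.helper853.psiP_isLC (0 : R) (2 * A) (4 * B) (-(A ^ 2)) 2
  rw [← hp] at hLC
  have hval : (-(2 * ((2 : ℕ) : R) + 1)) = -5 := by push_cast; ring
  rw [hval] at hLC
  have h5ne : (-5 : R) ≠ 0 := neg_ne_zero.mpr h5.ne_zero
  have hdeg := Fermat.Agent.Lib.helper853.IsLC.natDegree_eq hLC h5ne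
  have hlead : p.leadingCoeff = -5 := by
    rw [Polynomial.leadingCoeff, hdeg]; exact hLC.2
  obtain ⟨u, hu⟩ := h5.exists_right_inv
  have hmonic : (Polynomial.C (-u) * p).Monic := by
    apply Polynomial.monic_C_mul_of_mul_leadingCoeff_eq_one
    rw [hlead]; linear_combination hu
  have hX : IsIntegral R X := by
    refine ⟨_, hmonic, ?_⟩
    rw [Polynomial.eval₂_mul, Polynomial.eval₂_eq_eval_map (p := p), hpsi, mul_zero]
  obtain ⟨x, hx⟩ := IsIntegrallyClosed.isIntegral_iff.mp hX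
  have hY2 := ((sw_nonsingular_iff _ _ _ _).mp h).1
  obtain ⟨y, hy⟩ := exists_int_of_sq (z := Y) (r := x ^ 3 + A * x + B) (by
    rw [hY2, map_add, map_add, map_mul, map_pow, hx])
  exact ⟨x, y, hx, hy⟩

omit [IsDomain R] [IsIntegrallyClosed R] [IsFractionRing R K] in
theorem y_ne_neg_of_torsion {A B : R} {x y : K}
    (hK : (sw (algebraMap R K A) (algebraMap R K B)).toAffine.Nonsingular x y)
    (ht : 5 • Point.some _ _ hK = 0) : y ≠ -y := by
  intro hy
  have h0 : Point.some _ _ hK + Point.some _ _ hK = 0 := sw_add_of_Y_eq hK hK hy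
  have h3 : Point.some _ _ hK
      = 5 • Point.some _ _ hK - 2 • (Point.some _ _ hK + Point.some _ _ hK) := by abel
  rw [ht, h0] at h3
  exact Point.some_ne_zero _ (by rw [h3]; simp)

/-- The tangent slope at a 5-torsion point of the generic fibre is integral. -/
theorem tangent_slope_int (h5 : IsUnit (5 : R)) {A B x y : R}
    (hK : (sw (algebraMap R K A) (algebraMap R K B)).toAffine.Nonsingular
      (algebraMap R K x) (algebraMap R K y))
    (ht : 5 • Point.some _ _ hK = 0) : ∃ m : R, m * (2 * y) = 3 * x ^ 2 + A := by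
  have hinj := IsFractionRing.injective R K
  have hyK := y_ne_neg_of_torsion hK ht
  have h2y : 2 * algebraMap R K y ≠ 0 := by intro h; apply hyK; linear_combination h
  obtain ⟨h₃, hadd⟩ := sw_add_self hK hyK
    (l := (3 * algebraMap R K x ^ 2 + algebraMap R K A) / (2 * algebraMap R K y))
    (div_mul_cancel₀ _ h2y)
  have ht2 : 5 • Point.some _ _ h₃ = 0 := by rw [← hadd, smul_add, ht, add_zero]
  obtain ⟨xT, yT, hxT, -⟩ := exists_int_of_torsion h5 h₃ ht2
  obtain ⟨m, hm⟩ := exists_int_of_sq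
    (z := (3 * algebraMap R K x ^ 2 + algebraMap R K A) / (2 * algebraMap R K y))
    (r := xT + x + x) (by rw [map_add, map_add, hxT]; ring)
  refine ⟨m, hinj ?_⟩
  simp only [map_mul, map_add, map_pow, map_ofNat, hm]
  exact div_mul_cancel₀ _ h2y

/-- The chord slope through two 5-torsion points of the generic fibre is integral. -/
theorem chord_slope_int (h5 : IsUnit (5 : R)) {A B x₁ y₁ x₂ y₂ : R}
    (h₁ : (sw (algebraMap R K A) (algebraMap R K B)).toAffine.Nonsingular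
      (algebraMap R K x₁) (algebraMap R K y₁))
    (h₂ : (sw (algebraMap R K A) (algebraMap R K B)).toAffine.Nonsingular
      (algebraMap R K x₂) (algebraMap R K y₂))
    (t₁ : 5 • Point.some _ _ h₁ = 0) (t₂ : 5 • Point.some _ _ h₂ = 0) (hx : x₁ ≠ x₂) :
    ∃ l : R, l * (x₁ - x₂) = y₁ - y₂ := by
  have hinj := IsFractionRing.injective R K
  have hxK : algebraMap R K x₁ ≠ algebraMap R K x₂ := fun h => hx (hinj h)
  have hxK' : algebraMap R K x₁ - algebraMap R K x₂ ≠ 0 := sub_ne_zero.mpr hxK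
  obtain ⟨h₃, hadd⟩ := sw_add_of_X_ne h₁ h₂ hxK
    (l := (algebraMap R K y₁ - algebraMap R K y₂) / (algebraMap R K x₁ - algebraMap R K x₂))
    (div_mul_cancel₀ _ hxK')
  have ht : 5 • Point.some _ _ h₃ = 0 := by rw [← hadd, smul_add, t₁, t₂, add_zero]
  obtain ⟨xT, yT, hxT, -⟩ := exists_int_of_torsion h5 h₃ ht
  obtain ⟨l, hl⟩ := exists_int_of_sq
    (z := (algebraMap R K y₁ - algebraMap R K y₂) / (algebraMap R K x₁ - algebraMap R K x₂))
    (r := xT + x₁ + x₂) (by rw [map_add, map_add, hxT]; ring)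
  refine ⟨l, hinj ?_⟩
  simp only [map_mul, map_sub, hl]
  exact div_mul_cancel₀ _ hxK'

/-- The `y`-coordinate of a 5-torsion point of the generic fibre does not vanish at a good
specialisation. -/
theorem spec_y_ne_zero (e : R →+* k) (h5 : IsUnit (5 : R)) {A B : R}
    (hΔ : 4 * e A ^ 3 + 27 * e B ^ 2 ≠ 0) {x y : R}
    (hK : (sw (algebraMap R K A) (algebraMap R K B)).toAffine.Nonsingular
      (algebraMap R K x) (algebraMap R K y))
    (ht : 5 • Point.some _ _ hK = 0) : e y ≠ 0 := by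
  have heq := eq_of_nonsingular hK
  obtain ⟨m, hm⟩ := tangent_slope_int h5 hK ht
  intro hey
  have h1 := congrArg e hm
  have h2' := congrArg e heq
  simp only [map_mul, map_add, map_pow, map_ofNat, hey] at h1 h2'
  apply hΔ
  linear_combination (-(3 * e x ^ 2 + e A) * (4 * e A + 3 * e x ^ 2)) * h1
    + (-27 * (e B - e x ^ 3 - e A * e x)) * h2'

/-- **Additivity of specialisation on 5-torsion.** -/
theorem Spec.add {e : R →+* k} (h2 : (2 : k) ≠ 0) (h5 : IsUnit (5 : R)) {A B : R}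
    (hΔ : 4 * e A ^ 3 + 27 * e B ^ 2 ≠ 0)
    {P P' : (sw (algebraMap R K A) (algebraMap R K B)).toAffine.Point}
    {Q Q' : (sw (e A) (e B)).toAffine.Point} (t : 5 • P = 0) (t' : 5 • P' = 0)
    (s : Spec e A B P Q) (s' : Spec e A B P' Q') : Spec e A B (P + P') (Q + Q') := by
  rcases s with ⟨rfl, rfl⟩ | ⟨x₁, y₁, hK₁, hk₁, rfl, rfl⟩
  · rw [zero_add, zero_add]; exact s'
  rcases s' with ⟨rfl, rfl⟩ | ⟨x₂, y₂, hK₂, hk₂, rfl, rfl⟩
  · rw [add_zero, add_zero]; exact Or.inr ⟨x₁, y₁, hK₁, hk₁, rfl, rfl⟩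
  have hinj := IsFractionRing.injective R K
  have e₁ := eq_of_nonsingular hK₁
  have e₂ := eq_of_nonsingular hK₂
  have hy₁ := spec_y_ne_zero e h5 hΔ hK₁ t
  have hyk : e y₁ ≠ -e y₁ := by
    intro h
    have : 2 * e y₁ = 0 := by linear_combination h
    exact hy₁ ((mul_eq_zero.mp this).resolve_left h2)
  by_cases hx : x₁ = x₂
  · subst hx
    have hyy : y₁ = y₂ ∨ y₁ = -y₂ := by
      apply eq_or_eq_neg_of_sq_eq_sq; rw [e₁, e₂]
    by_cases hneg : y₁ = -y₂
    · left
      exact ⟨sw_add_of_Y_eq hK₁ hK₂ (by rw [hneg, map_neg]),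
        sw_add_of_Y_eq hk₁ hk₂ (by rw [hneg, map_neg])⟩
    · have hyeq : y₁ = y₂ := hyy.resolve_right hneg
      subst hyeq
      obtain ⟨m, hm⟩ := tangent_slope_int h5 hK₁ t
      have hmK : algebraMap R K m * (2 * algebraMap R K y₁)
          = 3 * algebraMap R K x₁ ^ 2 + algebraMap R K A := by
        have := congrArg (algebraMap R K) hm
        simpa only [map_mul, map_add, map_pow, map_ofNat] using this
      have hmk : e m * (2 * e y₁) = 3 * e x₁ ^ 2 + e A := by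
        have := congrArg e hm
        simpa only [map_mul, map_add, map_pow, map_ofNat] using this
      obtain ⟨h₃, hadd⟩ := sw_add_self hK₁ (y_ne_neg_of_torsion hK₁ t) hmK
      obtain ⟨h₃', hadd'⟩ := sw_add_self hk₁ hyk hmk
      obtain ⟨h₄, h₄eq⟩ := some_eq_of_eq h₃ (x' := algebraMap R K (m ^ 2 - x₁ - x₁))
        (y' := algebraMap R K (-(m * (m ^ 2 - x₁ - x₁ - x₁) + y₁)))
        (by simp only [map_sub, map_pow])
        (by simp only [map_neg, map_add, map_mul, map_sub, map_pow])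
      obtain ⟨h₄', h₄eq'⟩ := some_eq_of_eq h₃' (x' := e (m ^ 2 - x₁ - x₁))
        (y' := e (-(m * (m ^ 2 - x₁ - x₁ - x₁) + y₁)))
        (by simp only [map_sub, map_pow])
        (by simp only [map_neg, map_add, map_mul, map_sub, map_pow])
      exact Or.inr ⟨_, _, h₄, h₄', hadd.trans h₄eq, hadd'.trans h₄eq'⟩
  · have hxK : algebraMap R K x₁ ≠ algebraMap R K x₂ := fun h => hx (hinj h)
    obtain ⟨l, hl⟩ := chord_slope_int h5 hK₁ hK₂ t t' hx
    obtain ⟨hK₂n, hneq⟩ := sw_neg_some hK₂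
    obtain ⟨hK₂n', hneq'⟩ := some_eq_of_eq hK₂n (x' := algebraMap R K x₂)
      (y' := algebraMap R K (-y₂)) rfl (map_neg _ _)
    have tn : 5 • Point.some _ _ hK₂n' = 0 := by
      rw [← hneq', ← hneq, smul_neg, t', neg_zero]
    obtain ⟨l', hl'⟩ := chord_slope_int h5 hK₁ hK₂n' t tn hx
    have hxk : e x₁ ≠ e x₂ := by
      intro h
      have a1 := congrArg e hl
      have a2 := congrArg e hl'
      simp only [map_mul, map_sub, map_neg, h, sub_self, mul_zero] at a1 a2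
      apply hy₁
      have : 2 * e y₁ = 0 := by linear_combination -a1 - a2
      exact (mul_eq_zero.mp this).resolve_left h2
    have hlK : algebraMap R K l * (algebraMap R K x₁ - algebraMap R K x₂)
        = algebraMap R K y₁ - algebraMap R K y₂ := by
      have := congrArg (algebraMap R K) hl
      simpa only [map_mul, map_sub] using this
    have hlk : e l * (e x₁ - e x₂) = e y₁ - e y₂ := by
      have := congrArg e hl
      simpa only [map_mul, map_sub] using this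
    obtain ⟨h₃, hadd⟩ := sw_add_of_X_ne hK₁ hK₂ hxK hlK
    obtain ⟨h₃', hadd'⟩ := sw_add_of_X_ne hk₁ hk₂ hxk hlk
    obtain ⟨h₄, h₄eq⟩ := some_eq_of_eq h₃ (x' := algebraMap R K (l ^ 2 - x₁ - x₂))
      (y' := algebraMap R K (-(l * (l ^ 2 - x₁ - x₂ - x₁) + y₁)))
      (by simp only [map_sub, map_pow])
      (by simp only [map_neg, map_add, map_mul, map_sub, map_pow])
    obtain ⟨h₄', h₄eq'⟩ := some_eq_of_eq h₃' (x' := e (l ^ 2 - x₁ - x₂))
      (y' := e (-(l * (l ^ 2 - x₁ - x₂ - x₁) + y₁)))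
      (by simp only [map_sub, map_pow])
      (by simp only [map_neg, map_add, map_mul, map_sub, map_pow])
    exact Or.inr ⟨_, _, h₄, h₄', hadd.trans h₄eq, hadd'.trans h₄eq'⟩

theorem Spec.nsmul {e : R →+* k} (h2 : (2 : k) ≠ 0) (h5 : IsUnit (5 : R)) {A B : R}
    (hΔ : 4 * e A ^ 3 + 27 * e B ^ 2 ≠ 0)
    {P : (sw (algebraMap R K A) (algebraMap R K B)).toAffine.Point}
    {Q : (sw (e A) (e B)).toAffine.Point} (t : 5 • P = 0) (s : Spec e A B P Q) (n : ℕ) :
    Spec e A B (n • P) (n • Q) := by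
  induction n with
  | zero => simpa using Spec.zero (K := K) e A B
  | succ n ih =>
    rw [succ_nsmul, succ_nsmul]
    exact Spec.add h2 h5 hΔ (by rw [smul_comm, t, smul_zero]) t ih s

theorem Spec.zsmul {e : R →+* k} (h2 : (2 : k) ≠ 0) (h5 : IsUnit (5 : R)) {A B : R}
    (hΔ : 4 * e A ^ 3 + 27 * e B ^ 2 ≠ 0)
    {P : (sw (algebraMap R K A) (algebraMap R K B)).toAffine.Point}
    {Q : (sw (e A) (e B)).toAffine.Point} (t : 5 • P = 0) (s : Spec e A B P Q) (n : ℤ) :
    Spec e A B (n • P) (n • Q) := by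
  obtain ⟨m, rfl | rfl⟩ := n.eq_nat_or_neg
  · simpa only [natCast_zsmul] using Spec.nsmul h2 h5 hΔ t s m
  · simpa only [neg_smul, natCast_zsmul] using (Spec.nsmul h2 h5 hΔ t s m).neg

omit [IsDomain R] [IsIntegrallyClosed R] [IsFractionRing R K] [DecidableEq k] in
theorem torsion_zsmul {A B : R} {P : (sw (algebraMap R K A) (algebraMap R K B)).toAffine.Point}
    (t : 5 • P = 0) (n : ℤ) : 5 • (n • P) = 0 := by
  rw [smul_comm, t, smul_zero]

/-- **Consumer.** Three 5-torsion points of the generic fibre whose specialisations on two good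
special fibres satisfy quadratic relations with the same constant term `l` and linear
coefficients `a₀`, `a₁`: then `5 ∣ a₀ - a₁`. -/
theorem five_dvd_of_spec {e₀ e₁ : R →+* k} (h2 : (2 : k) ≠ 0) (h5 : IsUnit (5 : R)) {A B : R}
    (hΔ₀ : 4 * e₀ A ^ 3 + 27 * e₀ B ^ 2 ≠ 0) (hΔ₁ : 4 * e₁ A ^ 3 + 27 * e₁ B ^ 2 ≠ 0)
    {P₀ P₁ P₂ : (sw (algebraMap R K A) (algebraMap R K B)).toAffine.Point}
    {Q₀ Q₁ Q₂ : (sw (e₀ A) (e₀ B)).toAffine.Point}
    {Q₀' Q₁' Q₂' : (sw (e₁ A) (e₁ B)).toAffine.Point}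
    (t₀ : 5 • P₀ = 0) (t₁ : 5 • P₁ = 0) (t₂ : 5 • P₂ = 0) (hP₁ : P₁ ≠ 0)
    (s₀ : Spec e₀ A B P₀ Q₀) (s₁ : Spec e₀ A B P₁ Q₁) (s₂ : Spec e₀ A B P₂ Q₂)
    (s₀' : Spec e₁ A B P₀ Q₀') (s₁' : Spec e₁ A B P₁ Q₁') (s₂' : Spec e₁ A B P₂ Q₂')
    (a₀ a₁ l : ℤ) (ch₀ : Q₂ - a₀ • Q₁ + l • Q₀ = 0) (ch₁ : Q₂' - a₁ • Q₁' + l • Q₀' = 0) :
    (5 : ℤ) ∣ a₀ - a₁ := by
  have tZ1 : 5 • (P₂ + -(a₀ • P₁)) = 0 := by
    rw [smul_add, smul_neg, t₂, torsion_zsmul t₁, neg_zero, add_zero]
  have sZ : Spec e₀ A B (P₂ - a₀ • P₁ + l • P₀) (Q₂ - a₀ • Q₁ + l • Q₀) := by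
    rw [sub_eq_add_neg, sub_eq_add_neg]
    exact Spec.add h2 h5 hΔ₀ tZ1 (torsion_zsmul t₀ l)
      (Spec.add h2 h5 hΔ₀ t₂ (by rw [smul_neg, torsion_zsmul t₁, neg_zero]) s₂
        (Spec.zsmul h2 h5 hΔ₀ t₁ s₁ a₀).neg)
      (Spec.zsmul h2 h5 hΔ₀ t₀ s₀ l)
  rw [ch₀] at sZ
  have hZ := sZ.eq_zero_left
  have sZ' : Spec e₁ A B (P₂ - a₀ • P₁ + l • P₀) (Q₂' - a₀ • Q₁' + l • Q₀') := by
    rw [sub_eq_add_neg, sub_eq_add_neg]
    exact Spec.add h2 h5 hΔ₁ tZ1 (torsion_zsmul t₀ l)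
      (Spec.add h2 h5 hΔ₁ t₂ (by rw [smul_neg, torsion_zsmul t₁, neg_zero]) s₂'
        (Spec.zsmul h2 h5 hΔ₁ t₁ s₁' a₀).neg)
      (Spec.zsmul h2 h5 hΔ₁ t₀ s₀' l)
  rw [hZ] at sZ'
  have h1 := sZ'.eq_zero_right
  have h2' : (a₀ - a₁) • Q₁' = 0 := by
    have : (a₀ - a₁) • Q₁' = (Q₂' - a₁ • Q₁' + l • Q₀') - (Q₂' - a₀ • Q₁' + l • Q₀') := by
      rw [sub_smul]; abel
    rw [this, ch₁, h1, sub_zero]
  have h5Q : (5 : ℤ) • Q₁' = 0 := by
    have h := Spec.nsmul h2 h5 hΔ₁ t₁ s₁' 5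
    rw [t₁] at h
    have h' := h.eq_zero_right
    rw [← h', ← natCast_zsmul]; rfl
  have hQne : Q₁' ≠ 0 := fun h => hP₁ (by rw [h] at s₁'; exact s₁'.eq_zero_left)
  by_contra hnd
  have h5p : Prime (5 : ℤ) := Int.prime_iff_natAbs_prime.mpr (by norm_num)
  have hcop : IsCoprime (5 : ℤ) (a₀ - a₁) := (h5p.irreducible.coprime_iff_not_dvd).mpr hnd
  obtain ⟨u, v, huv⟩ := hcop
  apply hQne
  have : Q₁' = (u * 5 + v * (a₀ - a₁)) • Q₁' := by rw [huv, one_smul]
  rw [this, add_smul, mul_smul, mul_smul, h5Q, h2', smul_zero, smul_zero, add_zero]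

end Spec

end Fermat.Agent.S52.helper3451
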