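/-
S52 / LOC via the generic fibre of the Klein pencil (helper3451).

* `kX, kY` : the universal 5-torsion point with integer coefficients on
  `E_w : y² = x³ + 27 kH(w) x + 54 kT(w)`; `klein_double`, `klein_five_torsion`.
* `stmt_Loc_of_link` : the captain's `helper352.Stmt_Loc` from the (weak) LINK property of the
  pencil, using the landed Frobenius Cayley–Hamilton theorem and
  `helper3451.five_dvd_of_spec` (specialisation of 5-torsion of the generic fibre).
-/
import Mathlib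
import Fermat.Agent.S52.helper3451_GenericFibre
import Fermat.Agent.S52.helper352_Spec
import Fermat.Agent.S52.helper2957_FrobCHFinal

set_option autoImplicit false

namespace Fermat.Agent.S52.helper3451

open WeierstrassCurve WeierstrassCurve.Affine
open Fermat.Agent.S52.helper424 (kF kH kT)
open Fermat.Agent.S52.helper352 (kFu kFv penU penV)

/-! ### The universal 5-torsion point with integer coefficients -/

section Forms

variable {R : Type*} [CommRing R]

/-- `x`-coordinate of the universal rational 5-torsion point. -/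
def kX (u v : R) : R :=
  3 * u ^ 10 + 36 * u ^ 8 * v ^ 2 - 36 * u ^ 7 * v ^ 3 + 72 * u ^ 6 * v ^ 4 + 90 * u ^ 5 * v ^ 5
    + 180 * u ^ 4 * v ^ 6 + 108 * u ^ 3 * v ^ 7 + 72 * u ^ 2 * v ^ 8 + 36 * u * v ^ 9 + 3 * v ^ 10

/-- `y`-coordinate of the universal rational 5-torsion point. -/
def kY (u v : R) : R :=
  -108 * (u ^ 13 * v ^ 2 + u ^ 12 * v ^ 3 + 4 * u ^ 11 * v ^ 4 + 5 * u ^ 9 * v ^ 6
    + 6 * u ^ 8 * v ^ 7 + 21 * u ^ 7 * v ^ 8 + 29 * u ^ 6 * v ^ 9 + 25 * u ^ 5 * v ^ 10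
    + 15 * u ^ 4 * v ^ 11 + 9 * u ^ 3 * v ^ 12 + 4 * u ^ 2 * v ^ 13 + u * v ^ 14)

theorem map_kX {S G : Type*} [CommRing S] [FunLike G R S] [RingHomClass G R S] (φ : G) (u v : R) :
    φ (kX u v) = kX (φ u) (φ v) := by
  simp only [kX, map_mul, map_add, map_sub, map_pow, map_ofNat]

theorem map_kY {S G : Type*} [CommRing S] [FunLike G R S] [RingHomClass G R S] (φ : G) (u v : R) :
    φ (kY u v) = kY (φ u) (φ v) := by
  simp only [kY, map_mul, map_add, map_neg, map_pow, map_ofNat]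

theorem map_penU {S G : Type*} [CommRing S] [FunLike G R S] [RingHomClass G R S] (φ : G)
    (t u v : R) : φ (penU t u v) = penU (φ t) (φ u) (φ v) := by
  simp only [penU, kFv, map_mul, map_add, map_sub, map_pow, map_ofNat]

theorem map_penV {S G : Type*} [CommRing S] [FunLike G R S] [RingHomClass G R S] (φ : G)
    (t u v : R) : φ (penV t u v) = penV (φ t) (φ u) (φ v) := by
  simp only [penV, kFu, map_mul, map_add, map_sub, map_pow, map_ofNat]

theorem map_kH' {S G : Type*} [CommRing S] [FunLike G R S] [RingHomClass G R S] (φ : G) (u v : R) :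
    φ (kH u v) = kH (φ u) (φ v) := by
  simp only [kH, map_mul, map_add, map_sub, map_neg, map_pow, map_ofNat]

theorem map_kT' {S G : Type*} [CommRing S] [FunLike G R S] [RingHomClass G R S] (φ : G) (u v : R) :
    φ (kT u v) = kT (φ u) (φ v) := by
  simp only [kT, map_mul, map_add, map_sub, map_pow, map_ofNat]

/-- (I1) the point lies on `E_w`. -/
theorem kY_sq (u v : R) : kY u v ^ 2 = kX u v ^ 3 + 27 * kH u v * kX u v + 54 * kT u v := by
  simp only [kX, kY, kH, kT]; ring

/-- (I2) `x`-form of the duplication: `x(2P(w)) = kX(Sw)`, `S(u,v) = (v,-u)`. -/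
theorem kX_dup (u v : R) :
    kX v (-u) * (4 * kY u v ^ 2) =
      kX u v ^ 4 - 54 * kH u v * kX u v ^ 2 - 432 * kT u v * kX u v + 729 * kH u v ^ 2 := by
  simp only [kX, kY, kH, kT]; ring

/-- (I3) `y`-form of the duplication: `2P(w) = P(Sw)`. -/
theorem kY_dup (u v : R) :
    (kY v (-u) + kY u v) * (2 * kY u v) =
      -(3 * kX u v ^ 2 + 27 * kH u v) * (kX v (-u) - kX u v) := by
  simp only [kX, kY, kH]; ring

theorem kH_S (u v : R) : kH v (-u) = kH u v := by simp only [kH]; ring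

theorem kT_S (u v : R) : kT v (-u) = kT u v := by simp only [kT]; ring

theorem kX_neg (u v : R) : kX (-u) (-v) = kX u v := by simp only [kX]; ring

theorem kY_neg (u v : R) : kY (-u) (-v) = -kY u v := by simp only [kY]; ring

end Forms


section Torsion

variable {F : Type*} [Field F] [DecidableEq F]

/-- `2 P(w) = P(S w)` on `E_w : y² = x³ + 27 kH(w) x + 54 kT(w)`. -/
theorem klein_double (h2 : (2 : F) ≠ 0) {A B : F} (u v : F) (hA : A = 27 * kH u v)
    (hB : B = 54 * kT u v) (hΔ : 4 * A ^ 3 + 27 * B ^ 2 ≠ 0) :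
    ∃ (h : (sw A B).toAffine.Nonsingular (kX u v) (kY u v))
      (h' : (sw A B).toAffine.Nonsingular (kX v (-u)) (kY v (-u))),
      Point.some _ _ h + Point.some _ _ h = Point.some _ _ h' := by
  subst hA hB
  have e1 : kY u v ^ 2 = kX u v ^ 3 + 27 * kH u v * kX u v + 54 * kT u v := kY_sq u v
  have e2 : kY v (-u) ^ 2 = kX v (-u) ^ 3 + 27 * kH u v * kX v (-u) + 54 * kT u v := by
    rw [← kH_S u v, ← kT_S u v]; exact kY_sq v (-u)
  have h := sw_nonsingular_of_equation h2 hΔ e1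
  have h' := sw_nonsingular_of_equation h2 hΔ e2
  refine ⟨h, h', ?_⟩
  have hY : kY u v ≠ 0 := by
    intro hY0
    have h3 : (3 * kX u v ^ 2 + 27 * kH u v) ^ 2 = 0 := by
      linear_combination (-1) * kX_dup u v + (-8 * kX u v) * kY_sq u v
        + ((4 * kX v (-u) + 8 * kX u v) * kY u v) * hY0
    have h4 : 3 * kX u v ^ 2 + 27 * kH u v = 0 := by
      rcases pow_eq_zero_iff (two_ne_zero) |>.mp h3 with h
      exact h
    rcases ((sw_nonsingular_iff _ _ _ _).mp h).2 with h5 | h5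
    · exact h5 h4
    · apply h5; rw [hY0, neg_zero]
  have hy : kY u v ≠ -kY u v := by
    intro hh
    have : 2 * kY u v = 0 := by linear_combination hh
    exact hY ((mul_eq_zero.mp this).resolve_left h2)
  have h2Y : 2 * kY u v ≠ 0 := mul_ne_zero h2 hY
  set l : F := (3 * kX u v ^ 2 + 27 * kH u v) / (2 * kY u v) with hl_def
  have hl : l * (2 * kY u v) = 3 * kX u v ^ 2 + 27 * kH u v := div_mul_cancel₀ _ h2Y
  obtain ⟨h₃, hadd⟩ := sw_add_self h hy hl
  have h4Y : 4 * kY u v ^ 2 ≠ 0 := by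
    have : (4 : F) * kY u v ^ 2 = (2 * kY u v) ^ 2 := by ring
    rw [this]; exact pow_ne_zero _ h2Y
  have hx' : l ^ 2 - kX u v - kX u v = kX v (-u) := by
    apply mul_right_cancel₀ h4Y
    linear_combination (l * (2 * kY u v) + (3 * kX u v ^ 2 + 27 * kH u v)) * hl - kX_dup u v
      - 8 * kX u v * kY_sq u v
  have hy' : -(l * (l ^ 2 - kX u v - kX u v - kX u v) + kY u v) = kY v (-u) := by
    apply mul_right_cancel₀ h2Y
    linear_combination (-2 * kY u v * l) * hx' - (kX v (-u) - kX u v) * hl - kY_dup u v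
  rw [hadd]
  obtain ⟨h₅, e₅⟩ := some_eq_of_eq h₃ hx'.symm hy'.symm
  exact e₅

/-- The universal point has order dividing 5. -/
theorem klein_five_torsion (h2 : (2 : F) ≠ 0) {A B : F} (u v : F) (hA : A = 27 * kH u v)
    (hB : B = 54 * kT u v) (hΔ : 4 * A ^ 3 + 27 * B ^ 2 ≠ 0) {x y : F} (hx : x = kX u v)
    (hy : y = kY u v) (h : (sw A B).toAffine.Nonsingular x y) : 5 • Point.some x y h = 0 := by
  subst hx hy
  obtain ⟨h₁, h₁', e₁⟩ := klein_double h2 u v hA hB hΔ
  obtain ⟨h₂, h₂', e₂⟩ := klein_double h2 v (-u) (hA.trans (by rw [kH_S]))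
    (hB.trans (by rw [kT_S])) hΔ
  obtain ⟨h₃, e₃⟩ := sw_neg_some h₁
  obtain ⟨h₅, e₅⟩ := some_eq_of_eq h₃ (kX_neg u v) (kY_neg u v)
  have e₄ : Point.some _ _ h₂' = -Point.some _ _ h₁ := by rw [e₃, e₅]
  have key : 5 • Point.some _ _ h₁ = (Point.some _ _ h₁ + Point.some _ _ h₁)
      + (Point.some _ _ h₁ + Point.some _ _ h₁) + Point.some _ _ h₁ := by abel
  rw [key, e₁, e₂, e₄, neg_add_cancel]

end Torsion


/-! ### Glue: `Stmt_Loc` from the weak LINK property -/

section SpecMk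

variable {R K k : Type*} [CommRing R] [IsDomain R] [Field K] [Algebra R K]
  [IsFractionRing R K] [Field k]

/-- A point of the generic fibre with integral coordinates specialises. -/
theorem spec_mk (e : R →+* k) (h2 : (2 : k) ≠ 0) {A B : R}
    (hΔ : 4 * e A ^ 3 + 27 * e B ^ 2 ≠ 0) {x y : R}
    (hK : (sw (algebraMap R K A) (algebraMap R K B)).toAffine.Nonsingular
      (algebraMap R K x) (algebraMap R K y)) :
    ∃ hk : (sw (e A) (e B)).toAffine.Nonsingular (e x) (e y),
      Spec e A B (Point.some _ _ hK) (Point.some _ _ hk) := by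
  have heq := eq_of_nonsingular hK
  have hk : (sw (e A) (e B)).toAffine.Nonsingular (e x) (e y) := by
    apply sw_nonsingular_of_equation h2 hΔ
    have := congrArg e heq
    simpa only [map_pow, map_add, map_mul] using this
  exact ⟨hk, Or.inr ⟨x, y, hK, hk, rfl, rfl⟩⟩

end SpecMk

section Transport

variable {F : Type*} [Field F] [DecidableEq F]

/-- Transport of a three-term relation between points with given coordinates along an equality
of curves. -/
theorem rel_transport {W₁ W₂ : Affine F} (hW : W₁ = W₂) {x₀ y₀ x₁ y₁ x₂ y₂ : F}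
    {h₀ : W₁.Nonsingular x₀ y₀} {h₁ : W₁.Nonsingular x₁ y₁} {h₂ : W₁.Nonsingular x₂ y₂}
    (a l : ℤ)
    (rel : Point.some x₂ y₂ h₂ - a • Point.some x₁ y₁ h₁ + l • Point.some x₀ y₀ h₀ = 0)
    {x₁' y₁' x₂' y₂' : F} (ex₁ : x₁ = x₁') (ey₁ : y₁ = y₁') (ex₂ : x₂ = x₂') (ey₂ : y₂ = y₂')
    (h₀' : W₂.Nonsingular x₀ y₀) (h₁' : W₂.Nonsingular x₁' y₁') (h₂' : W₂.Nonsingular x₂' y₂') :
    Point.some x₂' y₂' h₂' - a • Point.some x₁' y₁' h₁' + l • Point.some x₀ y₀ h₀' = 0 := by
  subst hW ex₁ ey₁ ex₂ ey₂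
  exact rel

end Transport

section Glue

open Polynomial
open Fermat.Agent.S52.helper2033 (shortModel)

/-- The pencil through `(u, v)`, first coordinate, as a polynomial in the parameter. -/
noncomputable def penUX {k : Type*} [Field k] (u v : k) : k[X] := penU X (C u) (C v)

/-- The pencil through `(u, v)`, second coordinate, as a polynomial in the parameter. -/
noncomputable def penVX {k : Type*} [Field k] (u v : k) : k[X] := penV X (C u) (C v)

theorem penUX_eval {k : Type*} [Field k] (s u v : k) : (penUX u v).eval s = penU s u v := by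
  have := map_penU (evalRingHom s) X (C u) (C v)
  simpa [penUX] using this

theorem penVX_eval {k : Type*} [Field k] (s u v : k) : (penVX u v).eval s = penV s u v := by
  have := map_penV (evalRingHom s) X (C u) (C v)
  simpa [penVX] using this

theorem disc_ne_zmod {ℓ : ℕ} [Fact ℓ.Prime] (h7 : 7 ≤ ℓ) (a b : ZMod ℓ)
    (hab : a ^ 3 - b ^ 2 ≠ 0) : 4 * (-27 * a) ^ 3 + 27 * (-54 * b) ^ 2 ≠ 0 := by
  have hℓ : ℓ.Prime := Fact.out
  have hc : (78732 : ZMod ℓ) ≠ 0 := by
    intro h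
    have h' : ((78732 : ℕ) : ZMod ℓ) = 0 := by exact_mod_cast h
    rw [ZMod.natCast_eq_zero_iff] at h'
    have h2 : (78732 : ℕ) = 2 ^ 2 * 3 ^ 9 := by norm_num
    rw [h2] at h'
    rcases (Nat.Prime.dvd_mul hℓ).mp h' with h | h
    · have := Nat.le_of_dvd (by norm_num) (hℓ.dvd_of_dvd_pow h); omega
    · have := Nat.le_of_dvd (by norm_num) (hℓ.dvd_of_dvd_pow h); omega
  have e : 4 * (-27 * a) ^ 3 + 27 * (-54 * b) ^ 2 = -(78732 * (a ^ 3 - b ^ 2)) := by ring
  rw [e, neg_ne_zero]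
  exact mul_ne_zero hc hab

theorem two_ne_zero_zmod {ℓ : ℕ} [Fact ℓ.Prime] (h7 : 7 ≤ ℓ) : (2 : ZMod ℓ) ≠ 0 := by
  intro h
  have h' : ((2 : ℕ) : ZMod ℓ) = 0 := by exact_mod_cast h
  rw [ZMod.natCast_eq_zero_iff] at h'
  have := Nat.le_of_dvd (by norm_num) h'
  omega

/-- **Core of (LOC) over a general algebraically closed field of characteristic `ℓ ≥ 7`.** -/
theorem loc_core {ℓ : ℕ} [Fact ℓ.Prime] (h7 : 7 ≤ ℓ) {k : Type*} [Field k] [Algebra (ZMod ℓ) k]
    [IsAlgClosed k]
    (hlink : ∀ u v u' v' s : k, kH u v = kH u' v' → kT u v = kT u' v' →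
      kH (penU s u v) (penV s u v) = kH (penU s u' v') (penV s u' v') ∧
      kT (penU s u v) (penV s u v) = kT (penU s u' v') (penV s u' v'))
    (a b a' b' t : ZMod ℓ) (u v : k)
    (hH : kH u v = -algebraMap (ZMod ℓ) k a) (hT : kT u v = -algebraMap (ZMod ℓ) k b)
    (hH' : kH (penU (algebraMap (ZMod ℓ) k t) u v) (penV (algebraMap (ZMod ℓ) k t) u v)
      = -algebraMap (ZMod ℓ) k a')
    (hT' : kT (penU (algebraMap (ZMod ℓ) k t) u v) (penV (algebraMap (ZMod ℓ) k t) u v)
      = -algebraMap (ZMod ℓ) k b')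
    (hab : a ^ 3 - b ^ 2 ≠ 0) (hab' : a' ^ 3 - b' ^ 2 ≠ 0) :
    (5 : ℤ) ∣ (shortModel a' b').traceOfFrobenius - (shortModel a b).traceOfFrobenius := by
  classical
  have hℓ : ℓ.Prime := Fact.out
  have : CharP k ℓ := charP_of_injective_algebraMap (algebraMap (ZMod ℓ) k).injective ℓ
  have hchar : ∀ n : ℕ, 0 < n → n < ℓ → ((n : ℕ) : k) ≠ 0 := by
    intro n hn0 hnl h
    rw [CharP.cast_eq_zero_iff k ℓ] at h
    exact absurd (Nat.le_of_dvd hn0 h) (not_le.mpr hnl)
  have h2 : (2 : k) ≠ 0 := by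
    have := hchar 2 (by norm_num) (by omega); simpa using this
  have h5 : (5 : k) ≠ 0 := by
    have := hchar 5 (by norm_num) (by omega); simpa using this
  set ι := algebraMap (ZMod ℓ) k with hι
  set frob := Fermat.Agent.S52.helper8312.frobAlgHom ℓ k with hfrob_def
  have hfrob : ∀ x, frob x = x ^ ℓ := Fermat.Agent.S52.helper8312.frobAlgHom_apply ℓ k
  have hfι : ∀ c, frob (ι c) = ι c := fun c => frob.commutes c
  -- Frobenius conjugates of the parameter
  set u₁ := frob u with hu₁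
  set v₁ := frob v with hv₁
  set u₂ := frob u₁ with hu₂
  set v₂ := frob v₁ with hv₂
  have hH₁ : kH u₁ v₁ = kH u v := by rw [hu₁, hv₁, ← map_kH', hH, map_neg, hfι]
  have hT₁ : kT u₁ v₁ = kT u v := by rw [hu₁, hv₁, ← map_kT', hT, map_neg, hfι]
  have hH₂ : kH u₂ v₂ = kH u v := by rw [hu₂, hv₂, ← map_kH', hH₁, hH, map_neg, hfι]
  have hT₂ : kT u₂ v₂ = kT u v := by rw [hu₂, hv₂, ← map_kT', hT₁, hT, map_neg, hfι]
  -- the generic fibre
  set A_R : k[X] := 27 * kH (penUX u v) (penVX u v) with hA_R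
  set B_R : k[X] := 54 * kT (penUX u v) (penVX u v) with hB_R
  have hlinkX : ∀ u' v' : k, kH u' v' = kH u v → kT u' v' = kT u v →
      kH (penUX u' v') (penVX u' v') = kH (penUX u v) (penVX u v) ∧
      kT (penUX u' v') (penVX u' v') = kT (penUX u v) (penVX u v) := by
    intro u' v' e1 e2
    constructor
    · apply Polynomial.funext
      intro s
      rw [← coe_evalRingHom, map_kH', map_kH']
      simp only [coe_evalRingHom, penUX_eval, penVX_eval]
      exact (hlink u' v' u v s e1 e2).1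
    · apply Polynomial.funext
      intro s
      rw [← coe_evalRingHom, map_kT', map_kT']
      simp only [coe_evalRingHom, penUX_eval, penVX_eval]
      exact (hlink u' v' u v s e1 e2).2
  -- values of the coefficients on a fibre
  have heA : ∀ (s : k) (c4 : ZMod ℓ), kH (penU s u v) (penV s u v) = -ι c4 →
      evalRingHom s A_R = ι (-27 * c4) := by
    intro s c4 hs
    rw [hA_R, map_mul, map_ofNat, map_kH', coe_evalRingHom, penUX_eval, penVX_eval, hs,
      map_mul, map_neg, map_ofNat]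
    ring
  have heB : ∀ (s : k) (c6 : ZMod ℓ), kT (penU s u v) (penV s u v) = -ι c6 →
      evalRingHom s B_R = ι (-54 * c6) := by
    intro s c6 hs
    rw [hB_R, map_mul, map_ofNat, map_kT', coe_evalRingHom, penUX_eval, penVX_eval, hs,
      map_mul, map_neg, map_ofNat]
    ring
  have hdisc : ∀ (s : k) (c4 c6 : ZMod ℓ), kH (penU s u v) (penV s u v) = -ι c4 →
      kT (penU s u v) (penV s u v) = -ι c6 → c4 ^ 3 - c6 ^ 2 ≠ 0 →
      4 * (evalRingHom s A_R) ^ 3 + 27 * (evalRingHom s B_R) ^ 2 ≠ 0 := by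
    intro s c4 c6 hs4 hs6 hc
    rw [heA s c4 hs4, heB s c6 hs6]
    have e : 4 * ι (-27 * c4) ^ 3 + 27 * ι (-54 * c6) ^ 2
        = ι (4 * (-27 * c4) ^ 3 + 27 * (-54 * c6) ^ 2) := by
      simp only [map_add, map_mul, map_pow, map_ofNat]
    rw [e]
    exact (map_ne_zero_iff ι ι.injective).mpr (disc_ne_zmod h7 c4 c6 hc)
  have hpen0 : kH (penU 0 u v) (penV 0 u v) = -ι a := by
    rw [Fermat.Agent.S52.helper352.penU_zero, Fermat.Agent.S52.helper352.penV_zero, hH]
  have hpen0' : kT (penU 0 u v) (penV 0 u v) = -ι b := by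
    rw [Fermat.Agent.S52.helper352.penU_zero, Fermat.Agent.S52.helper352.penV_zero, hT]
  have hΔ₀ := hdisc 0 a b hpen0 hpen0' hab
  have hΔ₁ := hdisc (ι t) a' b' hH' hT' hab'
  have hΔR : 4 * A_R ^ 3 + 27 * B_R ^ 2 ≠ 0 := by
    intro h
    apply hΔ₀
    have := congrArg (evalRingHom (0 : k)) h
    simpa only [map_add, map_mul, map_pow, map_ofNat, map_zero] using this
  have hinj := IsFractionRing.injective k[X] (RatFunc k)
  have hΔK : 4 * (algebraMap k[X] (RatFunc k) A_R) ^ 3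
      + 27 * (algebraMap k[X] (RatFunc k) B_R) ^ 2 ≠ 0 := by
    intro h
    apply hΔR
    apply hinj
    simpa only [map_add, map_mul, map_pow, map_ofNat, map_zero] using h
  have h2K : (2 : RatFunc k) ≠ 0 := by
    intro h
    apply h2
    apply (algebraMap k (RatFunc k)).injective
    simpa only [map_ofNat, map_zero] using h
  have h5R : IsUnit (5 : k[X]) := by
    have : (5 : k[X]) = C 5 := (map_ofNat (C : k →+* k[X]) 5).symm
    rw [this]
    exact Polynomial.isUnit_C.mpr (IsUnit.mk0 _ h5)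
  -- generic 5-torsion points
  have gen : ∀ u' v' : k, kH u' v' = kH u v → kT u' v' = kT u v →
      ∃ hK : (sw (algebraMap k[X] (RatFunc k) A_R) (algebraMap k[X] (RatFunc k) B_R)).toAffine.Nonsingular
          (algebraMap k[X] (RatFunc k) (kX (penUX u' v') (penVX u' v')))
          (algebraMap k[X] (RatFunc k) (kY (penUX u' v') (penVX u' v'))),
        5 • Point.some _ _ hK = 0 := by
    intro u' v' e1 e2
    obtain ⟨l1, l2⟩ := hlinkX u' v' e1 e2
    have hA : algebraMap k[X] (RatFunc k) A_R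
        = 27 * kH (algebraMap k[X] (RatFunc k) (penUX u' v'))
            (algebraMap k[X] (RatFunc k) (penVX u' v')) := by
      rw [hA_R, ← l1, map_mul, map_ofNat, map_kH']
    have hB : algebraMap k[X] (RatFunc k) B_R
        = 54 * kT (algebraMap k[X] (RatFunc k) (penUX u' v'))
            (algebraMap k[X] (RatFunc k) (penVX u' v')) := by
      rw [hB_R, ← l2, map_mul, map_ofNat, map_kT']
    have hx := map_kX (algebraMap k[X] (RatFunc k)) (penUX u' v') (penVX u' v')
    have hy := map_kY (algebraMap k[X] (RatFunc k)) (penUX u' v') (penVX u' v')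
    obtain ⟨hd, -, -⟩ := klein_double h2K _ _ hA hB hΔK
    obtain ⟨hK, -⟩ := some_eq_of_eq hd hx hy
    exact ⟨hK, klein_five_torsion h2K _ _ hA hB hΔK hx hy hK⟩
  obtain ⟨hK₀, t₀⟩ := gen u v rfl rfl
  obtain ⟨hK₁, t₁⟩ := gen u₁ v₁ hH₁ hT₁
  obtain ⟨hK₂, t₂⟩ := gen u₂ v₂ hH₂ hT₂
  -- one fibre
  have fibre : ∀ (s : k) (c4 c6 : ZMod ℓ), frob s = s →
      kH (penU s u v) (penV s u v) = -ι c4 → kT (penU s u v) (penV s u v) = -ι c6 →
      c4 ^ 3 - c6 ^ 2 ≠ 0 →
      ∃ (Q₀ Q₁ Q₂ : (sw (evalRingHom s A_R) (evalRingHom s B_R)).toAffine.Point),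
        Spec (evalRingHom s) A_R B_R (Point.some _ _ hK₀) Q₀ ∧
        Spec (evalRingHom s) A_R B_R (Point.some _ _ hK₁) Q₁ ∧
        Spec (evalRingHom s) A_R B_R (Point.some _ _ hK₂) Q₂ ∧
        Q₂ - (shortModel c4 c6).traceOfFrobenius • Q₁ + (ℓ : ℤ) • Q₀ = 0 := by
    intro s c4 c6 hs hs4 hs6 hc
    have hΔ := hdisc s c4 c6 hs4 hs6 hc
    obtain ⟨hk₀, s₀⟩ := spec_mk (evalRingHom s) h2 hΔ hK₀
    obtain ⟨hk₁, s₁⟩ := spec_mk (evalRingHom s) h2 hΔ hK₁
    obtain ⟨hk₂, s₂⟩ := spec_mk (evalRingHom s) h2 hΔ hK₂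
    refine ⟨_, _, _, s₀, s₁, s₂, ?_⟩
    -- the curve over `ZMod ℓ`
    have hWΔ : (shortModel c4 c6).Δ ≠ 0 := by
      change (sw (-27 * c4) (-54 * c6)).Δ ≠ 0
      rw [sw_Δ]
      have h16 : (16 : ZMod ℓ) ≠ 0 := by
        have : (16 : ZMod ℓ) = 2 ^ 4 := by norm_num
        rw [this]; exact pow_ne_zero _ (two_ne_zero_zmod h7)
      exact mul_ne_zero (neg_ne_zero.mpr h16) (disc_ne_zmod h7 c4 c6 hc)
    have hW : ((shortModel c4 c6)⁄k) = (sw (evalRingHom s A_R) (evalRingHom s B_R)).toAffine := by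
      rw [heA s c4 hs4, heB s c6 hs6]
      ext <;> simp [shortModel, sw, WeierstrassCurve.baseChange, hι]
    have hk₀' : ((shortModel c4 c6)⁄k).Nonsingular
        (evalRingHom s (kX (penUX u v) (penVX u v)))
        (evalRingHom s (kY (penUX u v) (penVX u v))) := by rw [hW]; exact hk₀
    have ch := Fermat.Agent.S52.helper2957.frob_cayley_hamilton (K := k) (by omega : 5 ≤ ℓ)
      (shortModel c4 c6) hWΔ frob hfrob (Point.some _ _ hk₀')
    rw [Point.map_some, Point.map_some] at ch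
    have hex : ∀ u' v' : k, evalRingHom s (kX (penUX u' v') (penVX u' v'))
        = kX (penU s u' v') (penV s u' v') := by
      intro u' v'
      rw [map_kX, coe_evalRingHom, penUX_eval, penVX_eval]
    have hey : ∀ u' v' : k, evalRingHom s (kY (penUX u' v') (penVX u' v'))
        = kY (penU s u' v') (penV s u' v') := by
      intro u' v'
      rw [map_kY, coe_evalRingHom, penUX_eval, penVX_eval]
    have ex₁ : frob (evalRingHom s (kX (penUX u v) (penVX u v)))
        = evalRingHom s (kX (penUX u₁ v₁) (penVX u₁ v₁)) := by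
      rw [hex, hex, map_kX, map_penU, map_penV, hs]
    have ey₁ : frob (evalRingHom s (kY (penUX u v) (penVX u v)))
        = evalRingHom s (kY (penUX u₁ v₁) (penVX u₁ v₁)) := by
      rw [hey, hey, map_kY, map_penU, map_penV, hs]
    have ex₂ : frob (frob (evalRingHom s (kX (penUX u v) (penVX u v))))
        = evalRingHom s (kX (penUX u₂ v₂) (penVX u₂ v₂)) := by
      rw [ex₁, hex, hex, map_kX, map_penU, map_penV, hs]
    have ey₂ : frob (frob (evalRingHom s (kY (penUX u v) (penVX u v))))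
        = evalRingHom s (kY (penUX u₂ v₂) (penVX u₂ v₂)) := by
      rw [ey₁, hey, hey, map_kY, map_penU, map_penV, hs]
    exact rel_transport hW _ _ ch ex₁ ey₁ ex₂ ey₂ hk₀ hk₁ hk₂
  obtain ⟨Q₀, Q₁, Q₂, s₀, s₁, s₂, ch₀⟩ := fibre 0 a b (map_zero frob) hpen0 hpen0' hab
  obtain ⟨Q₀', Q₁', Q₂', s₀', s₁', s₂', ch₁⟩ := fibre (ι t) a' b' (hfι t) hH' hT' hab'
  have key := five_dvd_of_spec h2 h5R hΔ₀ hΔ₁ t₀ t₁ t₂ (Point.some_ne_zero _) s₀ s₁ s₂ s₀' s₁' s₂'
    _ _ _ ch₀ ch₁
  exact (dvd_sub_comm).mp key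

/-- The weak LINK property of the canonical pencil over `AlgebraicClosure (ZMod ℓ)`, `ℓ ≥ 7`:
`(kH, kT)` along the pencil depend only on `(kH, kT)` of the base point. -/
def Stmt_WeakLink : Prop :=
  ∀ (ℓ : ℕ) [Fact ℓ.Prime], 7 ≤ ℓ → ∀ u v u' v' s : AlgebraicClosure (ZMod ℓ),
    kH u v = kH u' v' → kT u v = kT u' v' →
      kH (penU s u v) (penV s u v) = kH (penU s u' v') (penV s u' v') ∧
      kT (penU s u v) (penV s u v) = kT (penU s u' v') (penV s u' v')

/-- **(LOC)** from the weak LINK property (Frobenius Cayley–Hamilton is on main). -/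
theorem stmt_Loc_of_link (hLink : Stmt_WeakLink) : Fermat.Agent.S52.helper352.Stmt_Loc := by
  intro ℓ _ h7 a b a' b' t u v hH hT hH' hT' hab hab'
  exact loc_core h7 (hLink ℓ h7) a b a' b' t u v hH hT hH' hT' hab hab'

end Glue

end Fermat.Agent.S52.helper3451
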