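import Mathlib
import Fermat.Agent.Lib.helper853_TorsionLadder

/-!
# S52 / L3 : the 5-congruent pencil, abstract logic (helper4741)

Hypothesis-passing on a structure `KleinDatum K` whose fields are polynomial identities between
the Klein forms, the universal 5-torsion point `P = (PX, PY)` and three substitutions `J, Km, D`.
From these identities we construct, for a curve `y² = x³ + a x + b` with `(a, b) = (A, B)(w₀)` and
its pencil member `(a', b') = (A, B)(R t w₀)`, a map `θ` on points which is additive and injective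
on 5-torsion and commutes with every ring endomorphism of `K` fixing `a, b, a', b', t`.
-/

set_option autoImplicit false

namespace Fermat.Agent.S52.helper4741

open WeierstrassCurve WeierstrassCurve.Affine

/-! ### Short Weierstrass curves in Mathlib's affine language -/

section Short

variable {K : Type*} [Field K]

/-- `W` is the short Weierstrass curve `y² = x³ + a x + b`. -/
structure IsShort (W : Affine K) (a b : K) : Prop where
  h1 : W.a₁ = 0
  h2 : W.a₂ = 0
  h3 : W.a₃ = 0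
  h4 : W.a₄ = a
  h6 : W.a₆ = b

variable {W : Affine K} {a b : K}

theorem IsShort.equation_iff (hW : IsShort W a b) (x y : K) :
    W.Equation x y ↔ y ^ 2 = x ^ 3 + a * x + b := by
  rw [Affine.equation_iff, hW.h1, hW.h2, hW.h3, hW.h4, hW.h6]
  constructor <;> intro h <;> linear_combination h

theorem IsShort.Δ_eq (hW : IsShort W a b) : W.Δ = -16 * (4 * a ^ 3 + 27 * b ^ 2) := by
  simp only [WeierstrassCurve.Δ, WeierstrassCurve.b₂, WeierstrassCurve.b₄, WeierstrassCurve.b₆,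
    WeierstrassCurve.b₈, hW.h1, hW.h2, hW.h3, hW.h4, hW.h6]
  ring

theorem IsShort.Δ_ne_zero (hW : IsShort W a b) (h2 : (2 : K) ≠ 0)
    (hΔ : 4 * a ^ 3 + 27 * b ^ 2 ≠ 0) : W.Δ ≠ 0 := by
  rw [hW.Δ_eq]
  have h16 : (-16 : K) ≠ 0 := by
    have : (-16 : K) = -(2 ^ 4) := by norm_num
    rw [this]
    exact neg_ne_zero.mpr (pow_ne_zero 4 h2)
  exact mul_ne_zero h16 hΔ

theorem IsShort.nonsingular (hW : IsShort W a b) (h2 : (2 : K) ≠ 0)
    (hΔ : 4 * a ^ 3 + 27 * b ^ 2 ≠ 0) {x y : K} (h : y ^ 2 = x ^ 3 + a * x + b) :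
    W.Nonsingular x y :=
  (Affine.equation_iff_nonsingular_of_Δ_ne_zero (hW.Δ_ne_zero h2 hΔ)).mp
    ((hW.equation_iff x y).mpr h)

theorem IsShort.negY (hW : IsShort W a b) (x y : K) : W.negY x y = -y := by
  simp [Affine.negY, hW.h1, hW.h3]

theorem pt_ext {x y x' y' : K} {h : W.Nonsingular x y} {h' : W.Nonsingular x' y'}
    (hx : x = x') (hy : y = y') : Point.some x y h = Point.some x' y' h' := by
  subst hx hy
  rfl

variable [DecidableEq K]

/-- chord addition on a short Weierstrass curve, in polynomial form -/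
theorem IsShort.add_chord (hW : IsShort W a b) {x₁ y₁ x₂ y₂ x₃ y₃ : K}
    (h₁ : W.Nonsingular x₁ y₁) (h₂ : W.Nonsingular x₂ y₂) (h₃ : W.Nonsingular x₃ y₃)
    (hx : x₁ ≠ x₂)
    (hX : (y₂ - y₁) ^ 2 = (x₁ + x₂ + x₃) * (x₂ - x₁) ^ 2)
    (hY : y₃ * (x₂ - x₁) = (y₂ - y₁) * (x₁ - x₃) - y₁ * (x₂ - x₁)) :
    Point.some x₁ y₁ h₁ + Point.some x₂ y₂ h₂ = Point.some x₃ y₃ h₃ := by
  rw [Point.add_of_X_ne hx]
  have hne : x₁ - x₂ ≠ 0 := sub_ne_zero.mpr hx
  have hne' : x₂ - x₁ ≠ 0 := sub_ne_zero.mpr (Ne.symm hx)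
  have hXX : W.addX x₁ x₂ (W.slope x₁ x₂ y₁ y₂) = x₃ := by
    rw [Affine.slope_of_X_ne hx, Affine.addX, hW.h1, hW.h2]
    field_simp
    linear_combination hX
  apply pt_ext hXX
  rw [Affine.addY, hXX, hW.negY, Affine.negAddY, hXX, Affine.slope_of_X_ne hx]
  field_simp
  linear_combination hY

/-- tangent doubling on a short Weierstrass curve, in polynomial form -/
theorem IsShort.add_self (hW : IsShort W a b) (h2 : (2 : K) ≠ 0) {x y x₃ y₃ : K}
    (h : W.Nonsingular x y) (h₃ : W.Nonsingular x₃ y₃) (hy : y ≠ 0)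
    (hX : (3 * x ^ 2 + a) ^ 2 = 4 * y ^ 2 * (x₃ + 2 * x))
    (hY : y₃ * (2 * y) = (3 * x ^ 2 + a) * (x - x₃) - 2 * y ^ 2) :
    Point.some x y h + Point.some x y h = Point.some x₃ y₃ h₃ := by
  have hyn : y ≠ W.negY x y := by
    rw [hW.negY]
    intro hyy
    apply hy
    have : 2 * y = 0 := by linear_combination hyy
    exact (mul_eq_zero.mp this).resolve_left h2
  rw [Point.add_self_of_Y_ne hyn]
  have hsl : W.slope x x y y = (3 * x ^ 2 + a) / (2 * y) := by
    rw [Affine.slope_of_Y_ne rfl hyn, hW.negY, hW.h1, hW.h2, hW.h4]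
    congr 1
    · ring
    · ring
  have hXX : W.addX x x (W.slope x x y y) = x₃ := by
    rw [hsl, Affine.addX, hW.h1, hW.h2]
    field_simp
    linear_combination hX
  apply pt_ext hXX
  rw [Affine.addY, hXX, hW.negY, Affine.negAddY, hXX, hsl]
  field_simp
  linear_combination -hY

omit [DecidableEq K] in
theorem IsShort.neg_some (hW : IsShort W a b) {x y : K} (h : W.Nonsingular x y)
    (h' : W.Nonsingular x (-y)) : -Point.some x y h = Point.some x (-y) h' := by
  rw [Point.neg_some]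
  exact pt_ext rfl (hW.negY x y)

end Short

/-! ### The abstract datum -/

/-- The polynomial identities behind the 5-congruent pencil, as plain functions on `K × K`.

* `A w, B w` : the coefficients of the curve `E_w : y² = x³ + A w x + B w`;
* `(PX w, PY w)` : the universal point of order 5 on `E_w`;
* `J, Km, D` : substitutions preserving `A, B` with `2 P(w) = P(J w)`, `P(D w) = P(w)`,
  `P(w) + P(Km (D w)) = P(Km w)`;
* `E i j` : the diagonal substitutions `(ζ^i u, ζ^j v)`, only used through `recov`;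
* `R t` : the pencil, commuting with all substitutions;
* `conj` : every ring endomorphism acts on the universal point through a power of `J`. -/
structure KleinDatum (K : Type*) [Field K] where
  A : K × K → K
  B : K × K → K
  PX : K × K → K
  PY : K × K → K
  J : K × K → K × K
  Km : K × K → K × K
  D : K × K → K × K
  E : ℕ → ℕ → K × K → K × K
  R : K → K × K → K × K
  A_J : ∀ w, A (J w) = A w
  B_J : ∀ w, B (J w) = B w
  A_K : ∀ w, A (Km w) = A w
  B_K : ∀ w, B (Km w) = B w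
  A_D : ∀ w, A (D w) = A w
  B_D : ∀ w, B (D w) = B w
  curve : ∀ w, PY w ^ 2 = PX w ^ 3 + A w * PX w + B w
  PX_JJ : ∀ w, PX (J (J w)) = PX w
  PY_JJ : ∀ w, PY (J (J w)) = -PY w
  dblX : ∀ w, (3 * PX w ^ 2 + A w) ^ 2 = 4 * PY w ^ 2 * (PX (J w) + 2 * PX w)
  dblY : ∀ w, PY (J w) * (2 * PY w) = (3 * PX w ^ 2 + A w) * (PX w - PX (J w)) - 2 * PY w ^ 2
  PX_D : ∀ w, PX (D w) = PX w
  PY_D : ∀ w, PY (D w) = PY w
  PX_E : ∀ i j w, PX (E i j w) = PX w
  PY_E : ∀ i j w, PY (E i j w) = PY w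
  addX : ∀ w, (PY (Km (D w)) - PY w) ^ 2
    = (PX w + PX (Km (D w)) + PX (Km w)) * (PX (Km (D w)) - PX w) ^ 2
  addY : ∀ w, PY (Km w) * (PX (Km (D w)) - PX w)
    = (PY (Km (D w)) - PY w) * (PX w - PX (Km w)) - PY w * (PX (Km (D w)) - PX w)
  indep : ∀ w, 4 * A w ^ 3 + 27 * B w ^ 2 ≠ 0 → PX (Km w) ≠ PX w
  recov : ∀ w w', 4 * A w ^ 3 + 27 * B w ^ 2 ≠ 0 → A w' = A w → B w' = B w →
    PX w' = PX w → PY w' = PY w → ∃ i j, w' = E i j w
  R_J : ∀ t w, R t (J w) = J (R t w)
  R_K : ∀ t w, R t (Km w) = Km (R t w)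
  R_D : ∀ t w, R t (D w) = D (R t w)
  R_E : ∀ t i j w, R t (E i j w) = E i j (R t w)
  conj : ∀ σ : K →+* K, ∃ k : ℕ, ∀ w, σ (PX w) = PX (J^[k] (Prod.map σ σ w)) ∧
    σ (PY w) = PY (J^[k] (Prod.map σ σ w))
  A_σ : ∀ (σ : K →+* K) w, A (Prod.map σ σ w) = σ (A w)
  B_σ : ∀ (σ : K →+* K) w, B (Prod.map σ σ w) = σ (B w)
  R_σ : ∀ (σ : K →+* K) t w, R (σ t) (Prod.map σ σ w) = Prod.map σ σ (R t w)

namespace KleinDatum

section Basic

variable {K : Type*} [Field K] {d : KleinDatum K} {a b : K} {w : K × K}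

/-- `w` is a Klein parameter of the curve `y² = x³ + a x + b`. -/
def Mem (d : KleinDatum K) (a b : K) (w : K × K) : Prop := d.A w = a ∧ d.B w = b

theorem Mem.J (h : d.Mem a b w) : d.Mem a b (d.J w) :=
  ⟨(d.A_J w).trans h.1, (d.B_J w).trans h.2⟩

theorem Mem.Km (h : d.Mem a b w) : d.Mem a b (d.Km w) :=
  ⟨(d.A_K w).trans h.1, (d.B_K w).trans h.2⟩

theorem Mem.D (h : d.Mem a b w) : d.Mem a b (d.D w) :=
  ⟨(d.A_D w).trans h.1, (d.B_D w).trans h.2⟩

theorem Mem.iterJ (h : d.Mem a b w) (k : ℕ) : d.Mem a b (d.J^[k] w) := by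
  induction k with
  | zero => exact h
  | succ k ih => rw [Function.iterate_succ_apply']; exact ih.J

theorem Mem.iterD (h : d.Mem a b w) (k : ℕ) : d.Mem a b (d.D^[k] w) := by
  induction k with
  | zero => exact h
  | succ k ih => rw [Function.iterate_succ_apply']; exact ih.D

theorem Mem.disc (h : d.Mem a b w) (hΔ : 4 * a ^ 3 + 27 * b ^ 2 ≠ 0) :
    4 * d.A w ^ 3 + 27 * d.B w ^ 2 ≠ 0 := by
  rw [h.1, h.2]; exact hΔ

theorem Mem.curve (h : d.Mem a b w) : d.PY w ^ 2 = d.PX w ^ 3 + a * d.PX w + b := by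
  rw [d.curve, h.1, h.2]

theorem iterJ_R (d : KleinDatum K) (t : K) (k : ℕ) (w : K × K) :
    d.J^[k] (d.R t w) = d.R t (d.J^[k] w) := by
  induction k with
  | zero => rfl
  | succ k ih => rw [Function.iterate_succ_apply', Function.iterate_succ_apply', ih, d.R_J]

theorem iterD_R (d : KleinDatum K) (t : K) (k : ℕ) (w : K × K) :
    d.D^[k] (d.R t w) = d.R t (d.D^[k] w) := by
  induction k with
  | zero => rfl
  | succ k ih => rw [Function.iterate_succ_apply', Function.iterate_succ_apply', ih, d.R_D]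

/-- hypotheses on a curve: short Weierstrass form, nonsingular, `2 ≠ 0` -/
structure Cv (W : Affine K) (a b : K) : Prop where
  short : IsShort W a b
  two : (2 : K) ≠ 0
  disc : 4 * a ^ 3 + 27 * b ^ 2 ≠ 0

variable {W : Affine K}

theorem nonsing (c : Cv W a b) (hw : d.Mem a b w) : W.Nonsingular (d.PX w) (d.PY w) :=
  c.short.nonsingular c.two c.disc hw.curve

open Classical in
/-- the point with coordinates `(x, y)` (zero if these do not define a nonsingular point) -/
noncomputable def mkPt (W : Affine K) (x y : K) : W.Point :=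
  if h : W.Nonsingular x y then Point.some x y h else 0

/-- the universal point, as a point of `W` (zero if `w` is not a parameter of `W`) -/
noncomputable def pt (d : KleinDatum K) (W : Affine K) (w : K × K) : W.Point :=
  mkPt W (d.PX w) (d.PY w)

theorem pt_eq (c : Cv W a b) (hw : d.Mem a b w) :
    d.pt W w = Point.some _ _ (nonsing c hw) := dif_pos _

theorem pt_ne_zero (c : Cv W a b) (hw : d.Mem a b w) : d.pt W w ≠ 0 := by
  rw [pt_eq c hw]; exact Point.some_ne_zero _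

theorem pt_D (d : KleinDatum K) (W : Affine K) (w : K × K) : d.pt W (d.D w) = d.pt W w := by
  unfold pt; rw [d.PX_D, d.PY_D]

theorem pt_E (d : KleinDatum K) (W : Affine K) (i j : ℕ) (w : K × K) :
    d.pt W (d.E i j w) = d.pt W w := by
  unfold pt; rw [d.PX_E, d.PY_E]

theorem pt_iterD (d : KleinDatum K) (W : Affine K) (j : ℕ) (w : K × K) :
    d.pt W (d.D^[j] w) = d.pt W w := by
  induction j with
  | zero => rfl
  | succ j ih => rw [Function.iterate_succ_apply', pt_D, ih]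

theorem PY_ne_zero (c : Cv W a b) (hw : d.Mem a b w) : d.PY w ≠ 0 := by
  intro h0
  have hX := d.dblX w
  have hc := hw.curve
  rw [h0] at hX hc
  rw [hw.1] at hX
  have hg : 3 * d.PX w ^ 2 + a = 0 := by
    have h : (3 * d.PX w ^ 2 + a) ^ 2 = 0 := by rw [hX]; ring
    exact (pow_eq_zero_iff (two_ne_zero)).mp h
  apply c.disc
  have ha : a = -3 * d.PX w ^ 2 := by linear_combination hg
  have hb : b = 2 * d.PX w ^ 3 := by linear_combination (-1 : K) * hc - d.PX w * hg
  rw [ha, hb]; ring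

end Basic

/-! ### The group law on universal points -/

section Group

variable {K : Type*} [Field K] [DecidableEq K] {d : KleinDatum K} {a b : K} {w : K × K}
  {W : Affine K}

/-- doubling: `2 P(w) = P(J w)` -/
theorem pt_add_self (c : Cv W a b) (hw : d.Mem a b w) :
    d.pt W w + d.pt W w = d.pt W (d.J w) := by
  rw [pt_eq c hw, pt_eq c hw.J]
  refine c.short.add_self c.two _ _ (PY_ne_zero c hw) ?_ ?_
  · have h := d.dblX w
    rw [hw.1] at h
    exact h
  · have h := d.dblY w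
    rw [hw.1] at h
    exact h

omit [DecidableEq K] in
theorem pt_JJ (c : Cv W a b) (hw : d.Mem a b w) : d.pt W (d.J (d.J w)) = -d.pt W w := by
  rw [pt_eq c hw, pt_eq c hw.J.J]
  have hns : W.Nonsingular (d.PX w) (-d.PY w) := by
    have h := nonsing c hw.J.J
    rwa [d.PX_JJ, d.PY_JJ] at h
  rw [c.short.neg_some _ hns]
  exact pt_ext (d.PX_JJ w) (d.PY_JJ w)

theorem five_pt (c : Cv W a b) (hw : d.Mem a b w) : 5 • d.pt W w = 0 := by
  have h1 := pt_add_self c hw
  have h2 := pt_add_self c hw.J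
  have h3 := pt_JJ c hw
  have h : 5 • d.pt W w = (d.pt W w + d.pt W w) + (d.pt W w + d.pt W w) + d.pt W w := by abel
  rw [h, h1, h2, h3, neg_add_cancel]

theorem two_pow_nsmul_pt (c : Cv W a b) (k : ℕ) :
    ∀ {w : K × K}, d.Mem a b w → 2 ^ k • d.pt W w = d.pt W (d.J^[k] w) := by
  induction k with
  | zero => intro w _; simp
  | succ k ih =>
    intro w hw
    rw [Function.iterate_succ_apply, ← ih hw.J, ← pt_add_self c hw, pow_succ, mul_nsmul,
      two_nsmul, nsmul_add]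

/-- the chord identity: `P(w) + P(Km (D w)) = P(Km w)` -/
theorem pt_add_KD (c : Cv W a b) (hw : d.Mem a b w) :
    d.pt W w + d.pt W (d.Km (d.D w)) = d.pt W (d.Km w) := by
  rw [pt_eq c hw, pt_eq c hw.D.Km, pt_eq c hw.Km]
  refine c.short.add_chord _ _ _ ?_ (d.addX w) (d.addY w)
  have h := d.indep (d.D w) (hw.D.disc c.disc)
  rw [d.PX_D] at h
  exact fun h' => h h'.symm

theorem pt_K_iterD (c : Cv W a b) (hw : d.Mem a b w) (j : ℕ) :
    d.pt W (d.Km (d.D^[j] w)) = d.pt W (d.Km w) - j • d.pt W w := by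
  induction j with
  | zero => simp
  | succ j ih =>
    have h := pt_add_KD c (hw.iterD j)
    rw [pt_iterD, ih] at h
    rw [Function.iterate_succ_apply', succ_nsmul]
    calc d.pt W (d.Km (d.D (d.D^[j] w)))
        = (d.pt W w + d.pt W (d.Km (d.D (d.D^[j] w)))) - d.pt W w := by abel
      _ = (d.pt W (d.Km w) - j • d.pt W w) - d.pt W w := by rw [h]
      _ = d.pt W (d.Km w) - (j • d.pt W w + d.pt W w) := by abel

end Group

/-! ### The framing `ψ_w : (ℤ/5)² → E_w[5]` -/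

section Framing

open Classical in
/-- the homomorphism `ZMod 5 → G`, `m ↦ m • P`, for `P` with `5 • P = 0` (zero otherwise) -/
noncomputable def zl {G : Type*} [AddCommGroup G] (P : G) : ZMod 5 →+ G :=
  if h : (5 : ℤ) • P = 0 then ZMod.lift 5 ⟨zmultiplesHom G P, by simpa using h⟩ else 0

theorem zl_intCast {G : Type*} [AddCommGroup G] {P : G} (h : 5 • P = 0) (z : ℤ) :
    zl P (z : ZMod 5) = z • P := by
  have h' : (5 : ℤ) • P = 0 := by
    have : ((5 : ℕ) : ℤ) • P = 0 := by rw [natCast_zsmul]; exact h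
    exact_mod_cast this
  rw [zl, dif_pos h', ZMod.lift_coe]
  rfl

theorem zl_natCast {G : Type*} [AddCommGroup G] {P : G} (h : 5 • P = 0) (n : ℕ) :
    zl P (n : ZMod 5) = n • P := by
  have := zl_intCast h (n : ℤ)
  rwa [Int.cast_natCast, natCast_zsmul] at this

theorem zmod5_cases (m n : ZMod 5) : (m = 0 ∧ n = 0) ∨
    (n = 0 ∧ ∃ k < 4, m = ((2 ^ k : ℕ) : ZMod 5)) ∨
    (∃ k < 4, ∃ j < 5, n = ((2 ^ k : ℕ) : ZMod 5) ∧ m = -((2 ^ k * j : ℕ) : ZMod 5)) := by
  revert m n
  decide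

theorem five_nsmul_zmod5 (x : ZMod 5 × ZMod 5) : 5 • x = 0 := by
  revert x
  decide

variable {K : Type*} [Field K] [DecidableEq K] {d : KleinDatum K} {a b : K} {w : K × K}
  {W : Affine K}

/-- the framing `(m, n) ↦ m P(w) + n P(Km w)` -/
noncomputable def psi (d : KleinDatum K) (W : Affine K) (w : K × K) :
    ZMod 5 × ZMod 5 →+ W.Point :=
  (zl (d.pt W w)).coprod (zl (d.pt W (d.Km w)))

theorem psi_apply (d : KleinDatum K) (W : Affine K) (w : K × K) (m n : ZMod 5) :
    d.psi W w (m, n) = zl (d.pt W w) m + zl (d.pt W (d.Km w)) n :=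
  AddMonoidHom.coprod_apply _ _ _

/-- every nonzero value of the framing is a universal point `P(g w)`, for a substitution `g`
depending only on `(m, n)`, which preserves parameters and commutes with the pencil -/
theorem exists_word (d : KleinDatum K) (m n : ZMod 5) (hmn : ¬(m = 0 ∧ n = 0)) :
    ∃ g : K × K → K × K, (∀ a b w, d.Mem a b w → d.Mem a b (g w)) ∧
      (∀ t w, g (d.R t w) = d.R t (g w)) ∧
      ∀ (W : Affine K) (a b : K) (w : K × K), Cv W a b → d.Mem a b w →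
        d.psi W w (m, n) = d.pt W (g w) := by
  rcases zmod5_cases m n with h | ⟨hn, k, -, hm⟩ | ⟨k, -, j, -, hn, hm⟩
  · exact absurd h hmn
  · refine ⟨d.J^[k], fun a b w hw => hw.iterJ k, fun t w => iterJ_R d t k w, ?_⟩
    intro W a b w c hw
    rw [psi_apply, hn, map_zero, add_zero, hm, ← two_pow_nsmul_pt c k hw]
    exact zl_natCast (five_pt c hw) _
  · refine ⟨fun w => d.J^[k] (d.Km (d.D^[j] w)), fun a b w hw => (hw.iterD j).Km.iterJ k, ?_, ?_⟩
    · intro t w
      show d.J^[k] (d.Km (d.D^[j] (d.R t w))) = d.R t (d.J^[k] (d.Km (d.D^[j] w)))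
      rw [iterD_R, ← d.R_K, iterJ_R]
    · intro W a b w c hw
      show d.psi W w (m, n) = d.pt W (d.J^[k] (d.Km (d.D^[j] w)))
      rw [psi_apply, hn, hm, ← two_pow_nsmul_pt c k (hw.iterD j).Km, pt_K_iterD c hw j, map_neg,
        zl_natCast (five_pt c hw), zl_natCast (five_pt c hw.Km), nsmul_sub, mul_nsmul']
      abel

theorem psi_injective (c : Cv W a b) (hw : d.Mem a b w) : Function.Injective (d.psi W w) := by
  rw [injective_iff_map_eq_zero]
  rintro ⟨m, n⟩ h
  by_contra hne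
  have hmn : ¬(m = 0 ∧ n = 0) := fun ⟨h1, h2⟩ => hne (by rw [h1, h2]; rfl)
  obtain ⟨g, hg, -, hψ⟩ := d.exists_word m n hmn
  rw [hψ W a b w c hw] at h
  exact pt_ne_zero c (hg a b w hw) h

theorem psi_five (d : KleinDatum K) (W : Affine K) (w : K × K) (x : ZMod 5 × ZMod 5) :
    5 • d.psi W w x = 0 := by
  rw [← map_nsmul, five_nsmul_zmod5, map_zero]

theorem psi_surj (c : Cv W a b) (h5 : (5 : K) ≠ 0) (hw : d.Mem a b w) {P : W.Point}
    (hP : 5 • P = 0) : ∃ x, d.psi W w x = P := by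
  have hT := Fermat.Agent.Lib.helper853.torsion_finite_and_ncard_le W 2
    (by norm_num; exact h5)
  have hsub : Set.range (d.psi W w) ⊆ {P : W.Point | (2 * 2 + 1) • P = 0} := by
    rintro _ ⟨x, rfl⟩
    exact psi_five d W w x
  have hcard : (Set.range (d.psi W w)).ncard = 25 := by
    rw [← Set.image_univ, Set.ncard_image_of_injective _ (psi_injective c hw), Set.ncard_univ,
      Nat.card_prod, Nat.card_zmod]
  have heq := Set.eq_of_subset_of_ncard_le hsub (by rw [hcard]; exact hT.2) hT.1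
  have hmem : P ∈ Set.range (d.psi W w) := by
    rw [heq]
    exact hP
  exact hmem

end Framing

/-! ### The congruence map `θ` -/

section Theta

variable {K : Type*} [Field K] [DecidableEq K]

/-- **L3, core form.** Let `W : y² = x³ + a x + b` and `W' : y² = x³ + a' x + b'` be nonsingular
short curves with Klein parameters `w₀` and `R t w₀`. There is a map `θ : W(K) → W'(K)` which
restricts to an additive bijection `W[5] → W'[5]`, sends `P(w)` to `P(R t w)` for every Klein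
parameter `w` of `W`, and commutes with every ring endomorphism of `K` fixing `a, b, a', b', t`. -/
theorem exists_theta (d : KleinDatum K) (h5 : (5 : K) ≠ 0) {W W' : Affine K} {a b a' b' t : K}
    (c : Cv W a b) (c' : Cv W' a' b') {w₀ : K × K} (hw₀ : d.Mem a b w₀)
    (hw₀' : d.Mem a' b' (d.R t w₀)) :
    ∃ θ : W.Point → W'.Point, θ 0 = 0 ∧
      (∀ P Q, 5 • P = 0 → 5 • Q = 0 → θ (P + Q) = θ P + θ Q) ∧
      (∀ P, 5 • P = 0 → 5 • θ P = 0) ∧
      (∀ P, 5 • P = 0 → θ P = 0 → P = 0) ∧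
      (∀ Q, 5 • Q = 0 → ∃ P, 5 • P = 0 ∧ θ P = Q) ∧
      (∀ w, d.Mem a b w → θ (d.pt W w) = d.pt W' (d.R t w)) ∧
      ∀ (σ : K →+* K) (τ : W.Point → W.Point) (τ' : W'.Point → W'.Point),
        σ a = a → σ b = b → σ a' = a' → σ b' = b' → σ t = t → τ 0 = 0 → τ' 0 = 0 →
        (∀ x y (h : W.Nonsingular x y), ∃ h', τ (Point.some x y h) = Point.some (σ x) (σ y) h') →
        (∀ x y (h : W'.Nonsingular x y),
          ∃ h', τ' (Point.some x y h) = Point.some (σ x) (σ y) h') →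
        ∀ P, 5 • P = 0 → θ (τ P) = τ' (θ P) := by
  have hinj := psi_injective c hw₀
  have hinj' := psi_injective c' hw₀'
  let θ : W.Point → W'.Point := fun P => d.psi W' (d.R t w₀) (Function.invFun (d.psi W w₀) P)
  have hθ : ∀ x, θ (d.psi W w₀ x) = d.psi W' (d.R t w₀) x := fun x => by
    show d.psi W' (d.R t w₀) (Function.invFun (d.psi W w₀) (d.psi W w₀ x)) = _
    rw [Function.leftInverse_invFun hinj x]
  have hθ0 : θ 0 = 0 := by
    have h := hθ 0
    rwa [map_zero, map_zero] at h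
  have hgraph : ∀ w, d.Mem a b w → θ (d.pt W w) = d.pt W' (d.R t w) := by
    intro w hw
    obtain ⟨⟨m, n⟩, hx⟩ := psi_surj c h5 hw₀ (five_pt c hw)
    have hmn : ¬(m = 0 ∧ n = 0) := by
      rintro ⟨rfl, rfl⟩
      have h0 : d.psi W w₀ (0, 0) = 0 := map_zero _
      rw [h0] at hx
      exact pt_ne_zero c hw hx.symm
    obtain ⟨g, hg, hgR, hgψ⟩ := d.exists_word m n hmn
    have hgw := hg a b w₀ hw₀
    have h1 : d.pt W w = d.pt W (g w₀) := by rw [← hx, hgψ W a b w₀ c hw₀]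
    rw [pt_eq c hw, pt_eq c hgw] at h1
    have h2 := Point.some.inj h1
    obtain ⟨i, j, hij⟩ := d.recov (g w₀) w (hgw.disc c.disc) (hw.1.trans hgw.1.symm)
      (hw.2.trans hgw.2.symm) h2.1 h2.2
    rw [← hx, hθ, hgψ W' a' b' (d.R t w₀) c' hw₀', hgR, hij, d.R_E, pt_E]
  refine ⟨θ, hθ0, ?_, ?_, ?_, ?_, hgraph, ?_⟩
  · intro P Q hP hQ
    obtain ⟨x, rfl⟩ := psi_surj c h5 hw₀ hP
    obtain ⟨y, rfl⟩ := psi_surj c h5 hw₀ hQ
    rw [← map_add, hθ, hθ, hθ, map_add]
  · intro P hP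
    obtain ⟨x, rfl⟩ := psi_surj c h5 hw₀ hP
    rw [hθ]
    exact psi_five d W' _ x
  · intro P hP h0
    obtain ⟨x, rfl⟩ := psi_surj c h5 hw₀ hP
    rw [hθ] at h0
    have hx : x = 0 := hinj' (by rw [h0, map_zero])
    rw [hx, map_zero]
  · intro Q hQ
    obtain ⟨x, rfl⟩ := psi_surj c' h5 hw₀' hQ
    exact ⟨d.psi W w₀ x, psi_five d W _ x, hθ x⟩
  · intro σ τ τ' ha hb ha' hb' ht hτ0 hτ'0 hτ hτ' P hP
    obtain ⟨⟨m, n⟩, hx⟩ := psi_surj c h5 hw₀ hP
    by_cases hmn : m = 0 ∧ n = 0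
    · obtain ⟨rfl, rfl⟩ := hmn
      have h0 : d.psi W w₀ (0, 0) = 0 := map_zero _
      rw [h0] at hx
      rw [← hx, hτ0, hθ0, hτ'0]
    · obtain ⟨g, hg, hgR, hgψ⟩ := d.exists_word m n hmn
      have hw := hg a b w₀ hw₀
      have hw' := hg a' b' _ hw₀'
      rw [hgR] at hw'
      have hP1 : P = d.pt W (g w₀) := by rw [← hx, hgψ W a b w₀ c hw₀]
      subst hP1
      obtain ⟨k, hk⟩ := d.conj σ
      have hσw : d.Mem a b (Prod.map σ σ (g w₀)) :=
        ⟨by rw [d.A_σ, hw.1, ha], by rw [d.B_σ, hw.2, hb]⟩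
      have hσw' : d.Mem a' b' (Prod.map σ σ (d.R t (g w₀))) :=
        ⟨by rw [d.A_σ, hw'.1, ha'], by rw [d.B_σ, hw'.2, hb']⟩
      have e1 : τ (d.pt W (g w₀)) = d.pt W (d.J^[k] (Prod.map σ σ (g w₀))) := by
        rw [pt_eq c hw]
        obtain ⟨h', hh⟩ := hτ _ _ (nonsing c hw)
        rw [hh, pt_eq c (hσw.iterJ k)]
        exact pt_ext (hk _).1 (hk _).2
      have e2 : τ' (d.pt W' (d.R t (g w₀)))
          = d.pt W' (d.J^[k] (Prod.map σ σ (d.R t (g w₀)))) := by
        rw [pt_eq c' hw']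
        obtain ⟨h', hh⟩ := hτ' _ _ (nonsing c' hw')
        rw [hh, pt_eq c' (hσw'.iterJ k)]
        exact pt_ext (hk _).1 (hk _).2
      rw [e1, hgraph _ (hσw.iterJ k), hgraph _ hw, e2, ← iterJ_R, ← d.R_σ, ht]

end Theta

/-! ### Final form: a Galois-equivariant injection of 5-torsion modules -/

section Final

variable {k K : Type*} [Field k] [Field K] [Algebra k K] [DecidableEq K]

omit [DecidableEq K] in
theorem isShort_baseChange (a b : k) :
    IsShort ((⟨0, 0, 0, a, b⟩ : WeierstrassCurve k)⁄K) (algebraMap k K a) (algebraMap k K b) :=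
  ⟨by simp [WeierstrassCurve.baseChange], by simp [WeierstrassCurve.baseChange],
    by simp [WeierstrassCurve.baseChange], by simp [WeierstrassCurve.baseChange],
    by simp [WeierstrassCurve.baseChange]⟩

omit [DecidableEq K] in
theorem cv_baseChange (h2 : (2 : K) ≠ 0) {a b : k} (hΔ : 4 * a ^ 3 + 27 * b ^ 2 ≠ 0) :
    Cv ((⟨0, 0, 0, a, b⟩ : WeierstrassCurve k)⁄K) (algebraMap k K a) (algebraMap k K b) := by
  refine ⟨isShort_baseChange a b, h2, ?_⟩
  have h : (4 : K) * algebraMap k K a ^ 3 + 27 * algebraMap k K b ^ 2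
      = algebraMap k K (4 * a ^ 3 + 27 * b ^ 2) := by
    simp only [map_add, map_mul, map_pow, map_ofNat]
  rw [h]
  exact (map_ne_zero (algebraMap k K)).mpr hΔ

/-- **L3, final form** (the inputs `θ, hθ, hθφ, hnt` of the consumer lemma
`helper3731.dvd_traceOfFrobenius_sub`). Let `W₁ : y² = x³ + a x + b` and
`W₂ : y² = x³ + a' x + b'` be nonsingular short curves over `k`, and assume that over the
extension `K` they have Klein parameters `w₀` and `R t w₀` with `t ∈ k`. Then there is an injective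
homomorphism `W₁(K)[5] → W₂(K)` commuting with every `k`-algebra endomorphism of `K`, and
`W₁(K)[5] ≠ 0`. -/
theorem exists_torsion_hom (d : KleinDatum K) (h2 : (2 : K) ≠ 0) (h5 : (5 : K) ≠ 0)
    {a b a' b' t : k} (hΔ : 4 * a ^ 3 + 27 * b ^ 2 ≠ 0) (hΔ' : 4 * a' ^ 3 + 27 * b' ^ 2 ≠ 0)
    {w₀ : K × K} (hw₀ : d.Mem (algebraMap k K a) (algebraMap k K b) w₀)
    (hw₀' : d.Mem (algebraMap k K a') (algebraMap k K b') (d.R (algebraMap k K t) w₀))
    (W₁ W₂ : WeierstrassCurve k) (hW₁ : W₁ = ⟨0, 0, 0, a, b⟩) (hW₂ : W₂ = ⟨0, 0, 0, a', b'⟩) :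
    ∃ θ : Submodule.torsionBy ℤ (W₁⁄K).Point ((5 : ℕ) : ℤ) →+ (W₂⁄K).Point,
      Function.Injective θ ∧
      (∀ (σ : K →ₐ[k] K) (x y : Submodule.torsionBy ℤ (W₁⁄K).Point ((5 : ℕ) : ℤ)),
        (y : (W₁⁄K).Point) = Point.map (W' := W₁) σ (x : (W₁⁄K).Point) →
          θ y = Point.map (W' := W₂) σ (θ x)) ∧
      ∃ x : Submodule.torsionBy ℤ (W₁⁄K).Point ((5 : ℕ) : ℤ), x ≠ 0 := by
  subst hW₁ hW₂
  have c := cv_baseChange (K := K) h2 hΔ
  have c' := cv_baseChange (K := K) h2 hΔ'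
  obtain ⟨θ, hθ0, hadd, -, hker, -, -, hequiv⟩ := d.exists_theta h5 c c' hw₀ hw₀'
  have hmem : ∀ x : Submodule.torsionBy ℤ
      ((⟨0, 0, 0, a, b⟩ : WeierstrassCurve k)⁄K).Point ((5 : ℕ) : ℤ),
      5 • (x : ((⟨0, 0, 0, a, b⟩ : WeierstrassCurve k)⁄K).Point) = 0 := by
    intro x
    have h := (Submodule.mem_torsionBy_iff _ _).mp x.2
    rwa [natCast_zsmul] at h
  refine ⟨{ toFun := fun x => θ x, map_zero' := hθ0,
            map_add' := fun x y => hadd x y (hmem x) (hmem y) }, ?_, ?_, ?_⟩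
  · rw [injective_iff_map_eq_zero]
    intro x hx
    exact Subtype.ext (hker x (hmem x) hx)
  · intro σ x y hxy
    show θ y = _
    rw [hxy]
    exact hequiv (σ : K →+* K) (Point.map (W' := (⟨0, 0, 0, a, b⟩ : WeierstrassCurve k)) σ)
      (Point.map (W' := (⟨0, 0, 0, a', b'⟩ : WeierstrassCurve k)) σ)
      (σ.commutes a) (σ.commutes b) (σ.commutes a') (σ.commutes b') (σ.commutes t)
      (map_zero _) (map_zero _) (fun x y h => ⟨_, Point.map_some σ h⟩)
      (fun x y h => ⟨_, Point.map_some σ h⟩) x (hmem x)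
  · refine ⟨⟨d.pt _ w₀, ?_⟩, ?_⟩
    · rw [Submodule.mem_torsionBy_iff, natCast_zsmul]
      exact five_pt c hw₀
    · intro h
      exact pt_ne_zero c hw₀ (congrArg Subtype.val h)

end Final

end KleinDatum

end Fermat.Agent.S52.helper4741
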