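/-
S52 — adapter (helper352, captain): `helper4741.KleinDatum` instance over
`AlgebraicClosure (ZMod ℓ)` in the Spec normalisation ⟹ `Stmt_L3`.

The only open input of this route is the hypothesis `Stmt_KleinInst` below: a `KleinDatum` with
`A = 27 kH`, `B = 54 kT`, `R t w = pen t w`.
-/
import Mathlib
import Fermat.Agent.S52.helper352_Loc
import Fermat.Agent.S52.helper4741_KleinLogic

set_option autoImplicit false

namespace Fermat.Agent.S52.helper352

open WeierstrassCurve WeierstrassCurve.Affine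
open Fermat.Agent.S52.helper424 (kF kH kT)
open Fermat.Agent.S52.helper2033 (shortModel)
open Fermat.Agent.S52.helper8312 (frobAlgHom)

noncomputable section

attribute [local instance] Classical.propDecidable

/-- The instance needed from the Klein-data owners: over every `AlgebraicClosure (ZMod ℓ)`, `ℓ ≥ 7`,
a `KleinDatum` in the Spec normalisation. -/
def Stmt_KleinInst : Prop :=
  ∀ (ℓ : ℕ) [Fact ℓ.Prime], 7 ≤ ℓ →
    ∃ d : Fermat.Agent.S52.helper4741.KleinDatum (AlgebraicClosure (ZMod ℓ)),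
      (∀ w, d.A w = 27 * kH w.1 w.2) ∧ (∀ w, d.B w = 54 * kT w.1 w.2) ∧
      (∀ t w, d.R t w = (penU t w.1 w.2, penV t w.1 w.2))

theorem stmt_L3_of_kleinInst (hinst : Stmt_KleinInst) : Stmt_L3 := by
  intro ℓ _ h7 a b a' b' t u v hH hT hH' hT' hab hab'
  obtain ⟨d, hA, hB, hR⟩ := hinst ℓ h7
  have hℓ : ℓ.Prime := Fact.out
  have hchar : ∀ n : ℕ, 0 < n → n < ℓ → ((n : ℕ) : AlgebraicClosure (ZMod ℓ)) ≠ 0 := by
    intro n hn0 hnl h
    rw [CharP.cast_eq_zero_iff (AlgebraicClosure (ZMod ℓ)) ℓ] at h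
    exact absurd (Nat.le_of_dvd hn0 h) (not_le.mpr hnl)
  have h2 : (2 : AlgebraicClosure (ZMod ℓ)) ≠ 0 := by
    have := hchar 2 (by norm_num) (by omega); simpa using this
  have h5 : (5 : AlgebraicClosure (ZMod ℓ)) ≠ 0 := by
    have := hchar 5 (by norm_num) (by omega); simpa using this
  have hc : (78732 : ZMod ℓ) ≠ 0 := by
    intro h
    have h' : ((78732 : ℕ) : ZMod ℓ) = 0 := by exact_mod_cast h
    rw [ZMod.natCast_eq_zero_iff] at h'
    have h2 : (78732 : ℕ) = 2 ^ 2 * 3 ^ 9 := by norm_num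
    rw [h2] at h'
    rcases (Nat.Prime.dvd_mul hℓ).mp h' with h | h
    · have := Nat.le_of_dvd (by norm_num) (hℓ.dvd_of_dvd_pow h); omega
    · have := Nat.le_of_dvd (by norm_num) (hℓ.dvd_of_dvd_pow h); omega
  have hΔ : ∀ a b : ZMod ℓ, a ^ 3 - b ^ 2 ≠ 0 → 4 * (-27 * a) ^ 3 + 27 * (-54 * b) ^ 2 ≠ 0 := by
    intro a b hab
    have e : 4 * (-27 * a) ^ 3 + 27 * (-54 * b) ^ 2 = -(78732 * (a ^ 3 - b ^ 2)) := by ring
    rw [e, neg_ne_zero]
    exact mul_ne_zero hc hab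
  have hw₀ : d.Mem (algebraMap (ZMod ℓ) (AlgebraicClosure (ZMod ℓ)) (-27 * a))
      (algebraMap (ZMod ℓ) (AlgebraicClosure (ZMod ℓ)) (-54 * b)) (u, v) := by
    refine ⟨?_, ?_⟩
    · rw [hA]; simp only [hH, map_mul, map_neg, map_ofNat]; ring
    · rw [hB]; simp only [hT, map_mul, map_neg, map_ofNat]; ring
  have hw₀' : d.Mem (algebraMap (ZMod ℓ) (AlgebraicClosure (ZMod ℓ)) (-27 * a'))
      (algebraMap (ZMod ℓ) (AlgebraicClosure (ZMod ℓ)) (-54 * b'))
      (d.R (algebraMap (ZMod ℓ) (AlgebraicClosure (ZMod ℓ)) t) (u, v)) := by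
    refine ⟨?_, ?_⟩
    · rw [hA, hR]; simp only [hH', map_mul, map_neg, map_ofNat]; ring
    · rw [hB, hR]; simp only [hT', map_mul, map_neg, map_ofNat]; ring
  obtain ⟨θ, hθ, hθφ, x, hx⟩ := Fermat.Agent.S52.helper4741.KleinDatum.exists_torsion_hom
    (k := ZMod ℓ) (K := AlgebraicClosure (ZMod ℓ)) d h2 h5 (hΔ a b hab) (hΔ a' b' hab') hw₀ hw₀'
    (shortModel a b) (shortModel a' b') rfl rfl
  refine ⟨(Submodule.torsionBy ℤ ((shortModel a b)⁄(AlgebraicClosure (ZMod ℓ))).Point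
    ((5 : ℕ) : ℤ)).toAddSubgroup, θ, ?_, hθ, ?_, x, hx, ?_⟩
  · intro P hP
    have hP' : ((5 : ℕ) : ℤ) • P = 0 := (Submodule.mem_torsionBy_iff _ _).mp hP
    have : ((5 : ℕ) : ℤ) • Point.map (W' := shortModel a b)
        (frobAlgHom ℓ (AlgebraicClosure (ZMod ℓ))) P = 0 := by
      rw [← map_zsmul, hP', map_zero]
    exact (Submodule.mem_torsionBy_iff _ _).mpr this
  · intro x y hxy
    exact hθφ (frobAlgHom ℓ (AlgebraicClosure (ZMod ℓ))) x y hxy
  · apply Subtype.ext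
    have hx' : ((5 : ℕ) : ℤ) • (x : ((shortModel a b)⁄(AlgebraicClosure (ZMod ℓ))).Point) = 0 :=
      (Submodule.mem_torsionBy_iff _ _).mp x.2
    rw [natCast_zsmul] at hx'
    rw [AddSubmonoidClass.coe_nsmul]
    exact hx'

end

end Fermat.Agent.S52.helper352
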