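/-
S52 / (SHORT) (helper3731; backup of helper2033 part 2 in captain plan v1).

For an integral Weierstrass model `W` and a prime `ℓ ≥ 5`, the reduction of `W` modulo `ℓ` has the
same number of points, hence the same Prelude trace of Frobenius, as the short model
`y² = x³ - 27 c₄ x - 54 c₆` over `ZMod ℓ` (`helper2033.shortModel`):

  `apOfModel_eq_traceOfFrobenius_shortModel :
     W.apOfModel ℓ = (shortModel (W.c₄ : ZMod ℓ) (W.c₆ : ZMod ℓ)).traceOfFrobenius`.

No hypothesis of good reduction is needed.  Also the field-level statement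
`traceOfFrobenius_eq_shortModel` for any finite field in which `6 ≠ 0`.
-/
import Mathlib
import Fermat.Prelude.Def_FLTPrelim_Modularity
import Fermat.Agent.S05.helper725_Transfer
import Fermat.Agent.S52.helper2033_ShortForm

set_option autoImplicit false

namespace Fermat.Agent.S52.helper3731

open WeierstrassCurve WeierstrassCurve.Affine
open Fermat.Agent.S05.helper725
open Fermat.Agent.S52.helper2033

/-- Over a finite field with `6 ≠ 0`, a Weierstrass curve has as many points as its short model
`y² = x³ - 27 c₄ x - 54 c₆`. -/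
theorem card_eq_card_shortModel {k : Type*} [Field k] [Finite k] [DecidableEq k]
    (E : WeierstrassCurve k) (hsix : (6 : k) ≠ 0) :
    Nat.card E.toAffine.Point = Nat.card (shortModel E.c₄ E.c₆).toAffine.Point := by
  apply le_antisymm
  · exact Nat.card_le_card_of_injective _
      (vcHom_injective (isVarChange_toShort E E.c₄ E.c₆ rfl rfl hsix))
  · exact Nat.card_le_card_of_injective _
      (vcHom_injective (isVarChange_ofShort E E.c₄ E.c₆ rfl rfl hsix))

/-- Over a finite field with `6 ≠ 0`, a Weierstrass curve has the same trace of Frobenius as its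
short model `y² = x³ - 27 c₄ x - 54 c₆`. -/
theorem traceOfFrobenius_eq_shortModel {k : Type*} [Field k] [Finite k] [DecidableEq k]
    (E : WeierstrassCurve k) (hsix : (6 : k) ≠ 0) :
    E.traceOfFrobenius = (shortModel E.c₄ E.c₆).traceOfFrobenius := by
  unfold WeierstrassCurve.traceOfFrobenius WeierstrassCurve.card
  rw [card_eq_card_shortModel E hsix]

/-- `6 ≠ 0` in `ZMod ℓ` for a prime `ℓ ≥ 5`. -/
theorem six_ne_zero_zmod (ℓ : ℕ) [Fact ℓ.Prime] (hℓ : 5 ≤ ℓ) : (6 : ZMod ℓ) ≠ 0 := by
  intro h
  have h6 : ((6 : ℕ) : ZMod ℓ) = 0 := by exact_mod_cast h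
  rw [ZMod.natCast_eq_zero_iff] at h6
  have hp : ℓ.Prime := Fact.out
  have h23 : ℓ ∣ 2 * 3 := by simpa using h6
  rcases (Nat.Prime.dvd_mul hp).mp h23 with h2 | h3
  · have := Nat.le_of_dvd (by norm_num) h2; omega
  · have := Nat.le_of_dvd (by norm_num) h3; omega

/-- **(SHORT)**: for a prime `ℓ ≥ 5`, `a_ℓ` of an integral model is the trace of Frobenius of the
short model `y² = x³ - 27 c₄ x - 54 c₆` over `ZMod ℓ`. -/
theorem apOfModel_eq_traceOfFrobenius_shortModel (W : WeierstrassCurve ℤ) (ℓ : ℕ) [Fact ℓ.Prime]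
    (hℓ : 5 ≤ ℓ) :
    W.apOfModel ℓ
      = (shortModel ((W.c₄ : ℤ) : ZMod ℓ) ((W.c₆ : ℤ) : ZMod ℓ)).traceOfFrobenius := by
  unfold WeierstrassCurve.apOfModel
  rw [traceOfFrobenius_eq_shortModel (W.reductionMod ℓ) (six_ne_zero_zmod ℓ hℓ)]
  unfold WeierstrassCurve.reductionMod
  rw [WeierstrassCurve.map_c₄, WeierstrassCurve.map_c₆]
  simp

end Fermat.Agent.S52.helper3731
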