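/-
S52 (3–5 switch), leaf MODEL + SEMISTABILITY (board row 538), helper4028.

Family-agnostic bricks for the last step of the switch:

* (A) `exists_model` : an integral Weierstrass model with prescribed `c₄`, `c₆` close to a given
  model `W` (only `a₄`, `a₆` are perturbed).
* (B) `reductionMod_eq_of_dvd`, `apOfModel_eq_of_dvd`, `dvd_Δ_iff_of_reductionMod_eq`,
  `isSemistableModel_of`, `Δ_ne_zero_of_c` : coefficientwise congruent models have the same
  reduction (hence the same `apOfModel`), and transfer of semistability.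
* (C) `coords_mem_of_forms_mem`, `pencil_not_both_nonunit`, `not_dvd_c₄_of_dvd_Δ_of_pencil` :
  abstract "no additive fibre outside the bad set" lemma for a pencil
  `w_t = α • w₀ + β • (G₀(w₀), G₁(w₀))` of binary forms, from Bezout (resultant) certificates for
  `(f, H)` and an Euler-type identity `u G₁ - v G₀ = d P`.
-/
import Mathlib
import Fermat.Prelude.Def_FLTPrelim_Modularity

set_option autoImplicit false

namespace Fermat.Agent.S52.helper4028

open WeierstrassCurve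

/-! ## (A) an integral model with prescribed `c₄`, `c₆` -/

/-- If `c4t ≡ c₄(W) mod 576 M` and `c6t ≡ c₆(W) mod 864 M`, there is an integral model `W'` with
`c₄(W') = c4t`, `c₆(W') = c6t`, the same `a₁, a₂, a₃` and `a₄, a₆` congruent to those of `W`
modulo `M`. -/
theorem exists_model (W : WeierstrassCurve ℤ) (c4t c6t M : ℤ)
    (h4 : 576 * M ∣ c4t - W.c₄) (h6 : 864 * M ∣ c6t - W.c₆) :
    ∃ W' : WeierstrassCurve ℤ, W'.c₄ = c4t ∧ W'.c₆ = c6t ∧ W'.a₁ = W.a₁ ∧ W'.a₂ = W.a₂ ∧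
      W'.a₃ = W.a₃ ∧ M ∣ W'.a₄ - W.a₄ ∧ M ∣ W'.a₆ - W.a₆ := by
  obtain ⟨k, hk⟩ := h4
  obtain ⟨j, hj⟩ := h6
  refine ⟨⟨W.a₁, W.a₂, W.a₃, W.a₄ - 12 * M * k, W.a₆ - M * (j + W.b₂ * k)⟩,
    ?_, ?_, rfl, rfl, rfl, ?_, ?_⟩
  · simp only [WeierstrassCurve.c₄, WeierstrassCurve.b₂, WeierstrassCurve.b₄] at hk ⊢
    linarith
  · simp only [WeierstrassCurve.c₆, WeierstrassCurve.b₂, WeierstrassCurve.b₄,
      WeierstrassCurve.b₆] at hj ⊢
    linear_combination (-1 : ℤ) * hj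
  · exact ⟨-(12 * k), by ring⟩
  · exact ⟨-(j + W.b₂ * k), by ring⟩

/-! ## (B) congruent models -/

/-- Coefficientwise congruent integral models have the same reduction modulo `p`. -/
theorem reductionMod_eq_of_dvd (W W' : WeierstrassCurve ℤ) (p : ℕ)
    (h1 : (p : ℤ) ∣ W'.a₁ - W.a₁) (h2 : (p : ℤ) ∣ W'.a₂ - W.a₂) (h3 : (p : ℤ) ∣ W'.a₃ - W.a₃)
    (h4 : (p : ℤ) ∣ W'.a₄ - W.a₄) (h6 : (p : ℤ) ∣ W'.a₆ - W.a₆) :
    W'.reductionMod p = W.reductionMod p := by
  have key : ∀ a b : ℤ, (p : ℤ) ∣ b - a → (Int.castRingHom (ZMod p)) b = (Int.castRingHom (ZMod p)) a := by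
    intro a b h
    simp only [eq_intCast]
    exact ((ZMod.intCast_eq_intCast_iff_dvd_sub a b p).mpr h).symm
  unfold WeierstrassCurve.reductionMod
  ext
  · simpa using key _ _ h1
  · simpa using key _ _ h2
  · simpa using key _ _ h3
  · simpa using key _ _ h4
  · simpa using key _ _ h6

/-- Special case used for the perturbed model of `exists_model`. -/
theorem reductionMod_eq_of_dvd' (W W' : WeierstrassCurve ℤ) (p : ℕ) (M : ℤ) (hpM : (p : ℤ) ∣ M)
    (h1 : W'.a₁ = W.a₁) (h2 : W'.a₂ = W.a₂) (h3 : W'.a₃ = W.a₃)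
    (h4 : M ∣ W'.a₄ - W.a₄) (h6 : M ∣ W'.a₆ - W.a₆) :
    W'.reductionMod p = W.reductionMod p :=
  reductionMod_eq_of_dvd W W' p (by simp [h1]) (by simp [h2]) (by simp [h3])
    (hpM.trans h4) (hpM.trans h6)

/-- Equal reductions give equal `apOfModel` (exact equality, no Frobenius theory). -/
theorem apOfModel_eq_of_reductionMod_eq (W W' : WeierstrassCurve ℤ) (p : ℕ)
    (h : W'.reductionMod p = W.reductionMod p) : W'.apOfModel p = W.apOfModel p := by
  unfold WeierstrassCurve.apOfModel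
  rw [h]

theorem dvd_Δ_iff_of_reductionMod_eq (W W' : WeierstrassCurve ℤ) (p : ℕ)
    (h : W'.reductionMod p = W.reductionMod p) : (p : ℤ) ∣ W'.Δ ↔ (p : ℤ) ∣ W.Δ := by
  have h' := congrArg WeierstrassCurve.Δ h
  simp only [WeierstrassCurve.reductionMod, WeierstrassCurve.map_Δ, eq_intCast] at h'
  rw [← ZMod.intCast_zmod_eq_zero_iff_dvd, ← ZMod.intCast_zmod_eq_zero_iff_dvd, h']

theorem dvd_c₄_iff_of_reductionMod_eq (W W' : WeierstrassCurve ℤ) (p : ℕ)
    (h : W'.reductionMod p = W.reductionMod p) : (p : ℤ) ∣ W'.c₄ ↔ (p : ℤ) ∣ W.c₄ := by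
  have h' := congrArg WeierstrassCurve.c₄ h
  simp only [WeierstrassCurve.reductionMod, WeierstrassCurve.map_c₄, eq_intCast] at h'
  rw [← ZMod.intCast_zmod_eq_zero_iff_dvd, ← ZMod.intCast_zmod_eq_zero_iff_dvd, h']

/-- Good primes correspond for models with the same reduction. -/
theorem isGoodPrimeFor_iff_of_reductionMod_eq (W W' : WeierstrassCurve ℤ) (p : ℕ)
    (h : W'.reductionMod p = W.reductionMod p) : W'.IsGoodPrimeFor p ↔ W.IsGoodPrimeFor p := by
  unfold WeierstrassCurve.IsGoodPrimeFor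
  rw [dvd_Δ_iff_of_reductionMod_eq W W' p h]

/-- Transfer of semistability: at the primes of `S` the two models have the same reduction, and
outside `S` the new model is semistable by hypothesis. -/
theorem isSemistableModel_of (W W' : WeierstrassCurve ℤ) (hW : W.IsSemistableModel) (S : Set ℕ)
    (hS : ∀ p ∈ S, W'.reductionMod p = W.reductionMod p)
    (hout : ∀ p : ℕ, p.Prime → p ∉ S → (p : ℤ) ∣ W'.Δ → ¬ (p : ℤ) ∣ W'.c₄) :
    W'.IsSemistableModel := by
  intro p hp hΔ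
  by_cases hpS : p ∈ S
  · rw [dvd_c₄_iff_of_reductionMod_eq W W' p (hS p hpS)]
    exact hW p hp ((dvd_Δ_iff_of_reductionMod_eq W W' p (hS p hpS)).mp hΔ)
  · exact hout p hp hpS hΔ

/-- `Δ ≠ 0` from `c₄³ ≠ c₆²`. -/
theorem Δ_ne_zero_of_c (W : WeierstrassCurve ℤ) (h : W.c₄ ^ 3 ≠ W.c₆ ^ 2) : W.Δ ≠ 0 := by
  intro h0
  have := W.c_relation
  rw [h0] at this
  exact h (by linarith)

/-- `p ∣ Δ` and `p ∣ c₄` force `p ∣ c₆` (for `p` prime), so `p ∣ Δ → ¬ p ∣ c₄` may be checked on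
`c₄, c₆`: if `p ∤ 6` then `p ∣ Δ ∧ p ∣ c₄ ↔ p ∣ c₄ ∧ p ∣ c₆`. -/
theorem dvd_c₆_of_dvd_Δ_of_dvd_c₄ (W : WeierstrassCurve ℤ) (p : ℕ) (hp : p.Prime)
    (hΔ : (p : ℤ) ∣ W.Δ) (h4 : (p : ℤ) ∣ W.c₄) : (p : ℤ) ∣ W.c₆ := by
  have hrel := W.c_relation
  have h2 : (p : ℤ) ∣ W.c₆ ^ 2 := by
    have : W.c₆ ^ 2 = W.c₄ ^ 3 - 1728 * W.Δ := by linarith
    rw [this]
    exact dvd_sub (dvd_pow h4 (by norm_num)) (Dvd.dvd.mul_left hΔ _)
  exact (Nat.prime_iff_prime_int.mp hp).dvd_of_dvd_pow h2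

/-! ## (C) the abstract pencil lemma -/

section Pencil

open MvPolynomial

variable {K : Type*} [Field K] (A : ValuationSubring K)

/-- A polynomial with integer coefficients takes values in `A` at points with coordinates in
`A`. -/
theorem aeval_mem (p : MvPolynomial (Fin 2) ℤ) (w : Fin 2 → K) (hw : ∀ i, w i ∈ A) :
    aeval w p ∈ A := by
  induction p using MvPolynomial.induction_on with
  | C a =>
    have h : aeval w (C a : MvPolynomial (Fin 2) ℤ) = (a : K) := by simp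
    rw [h]
    exact intCast_mem A a
  | add p q hp hq =>
    rw [map_add]
    exact A.add_mem _ _ hp hq
  | mul_X p i hp =>
    rw [map_mul, aeval_X]
    exact A.mul_mem _ _ hp (hw i)

theorem val_aeval_le_one (p : MvPolynomial (Fin 2) ℤ) (w : Fin 2 → K) (hw : ∀ i, w i ∈ A) :
    A.valuation (aeval w p) ≤ 1 :=
  (A.valuation_le_one_iff _).mpr (aeval_mem A p w hw)

/-- Integers divisible by `p` are nonunits at a valuation ring in which `p` is a nonunit. -/
theorem val_intCast_lt_one_of_dvd (p : ℕ) (hp : A.valuation (p : K) < 1) (n : ℤ)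
    (h : (p : ℤ) ∣ n) : A.valuation (n : K) < 1 := by
  obtain ⟨m, rfl⟩ := h
  push_cast
  rw [map_mul]
  have hm : A.valuation (m : K) ≤ 1 := (A.valuation_le_one_iff _).mpr (intCast_mem A m)
  calc A.valuation (p : K) * A.valuation (m : K) ≤ A.valuation (p : K) * 1 :=
        mul_le_mul' le_rfl hm
    _ = A.valuation (p : K) := mul_one _
    _ < 1 := hp

private theorem val_mul_lt_one {x y : K} (hx : A.valuation x ≤ 1) (hy : A.valuation y < 1) :
    A.valuation (x * y) < 1 := by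
  rw [map_mul]
  calc A.valuation x * A.valuation y ≤ 1 * A.valuation y := mul_le_mul' hx le_rfl
    _ = A.valuation y := one_mul _
    _ < 1 := hy

private theorem val_add_lt_one {x y : K} (hx : A.valuation x < 1) (hy : A.valuation y < 1) :
    A.valuation (x + y) < 1 :=
  lt_of_le_of_lt (A.valuation.map_add x y) (max_lt hx hy)

private theorem val_lt_one_of_pow {x : K} (hx : A.valuation x ≤ 1) (N : ℕ)
    (h : A.valuation (x ^ N) < 1) : A.valuation x < 1 := by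
  rcases lt_or_eq_of_le hx with h1 | h1
  · exact h1
  · rw [map_pow, h1, one_pow] at h
    exact absurd h (lt_irrefl _)

/-- **Integrality of the base point.**  Let `f`, `H` be binary forms over `ℤ` (homogeneous of
positive degrees `df`, `dH`, in the evaluation sense) with Bezout certificates
`P₁ f + P₂ H = c Xᵢ ^ N`, `c` a unit of `A`.  If `f(w₀), H(w₀) ∈ A` then `w₀` has coordinates in
`A`. -/
theorem coords_mem_of_forms_mem
    (f H : MvPolynomial (Fin 2) ℤ) (c : ℤ) (N df dH : ℕ) (hdf : 1 ≤ df) (hdH : 1 ≤ dH)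
    (hcert : ∀ i : Fin 2, ∃ P₁ P₂ : MvPolynomial (Fin 2) ℤ,
      P₁ * f + P₂ * H = C c * X i ^ N)
    (hfhom : ∀ (s : K) (w : Fin 2 → K), aeval (fun i => s * w i) f = s ^ df * aeval w f)
    (hHhom : ∀ (s : K) (w : Fin 2 → K), aeval (fun i => s * w i) H = s ^ dH * aeval w H)
    (hc : A.valuation (c : K) = 1)
    (w₀ : Fin 2 → K) (hf₀ : aeval w₀ f ∈ A) (hH₀ : aeval w₀ H ∈ A) :
    ∀ i, w₀ i ∈ A := by
  by_contra hcon
  push Not at hcon
  obtain ⟨i₁, hi₁⟩ := hcon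
  -- an index of maximal valuation
  obtain ⟨i₀, hi₀⟩ : ∃ i₀ : Fin 2, ∀ i, A.valuation (w₀ i) ≤ A.valuation (w₀ i₀) := by
    rcases le_total (A.valuation (w₀ 0)) (A.valuation (w₀ 1)) with h | h
    · exact ⟨1, fun i => by fin_cases i <;> simp [h]⟩
    · exact ⟨0, fun i => by fin_cases i <;> simp [h]⟩
  have hs1 : 1 < A.valuation (w₀ i₀) := by
    have : ¬ A.valuation (w₀ i₁) ≤ 1 := fun h => hi₁ ((A.valuation_le_one_iff _).mp h)
    exact lt_of_lt_of_le (not_le.mp this) (hi₀ i₁)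
  set s := w₀ i₀ with hs
  have hs0 : s ≠ 0 := by
    intro h0
    rw [h0, map_zero] at hs1
    exact absurd hs1 (not_lt.mpr zero_le_one)
  set w₁ : Fin 2 → K := fun i => w₀ i / s with hw₁
  have hw₁A : ∀ i, w₁ i ∈ A := by
    intro i
    rw [← A.valuation_le_one_iff, hw₁, map_div₀]
    exact div_le_one_of_le₀ (hi₀ i) zero_le
  have hw₁i₀ : w₁ i₀ = 1 := by
    show w₀ i₀ / s = 1
    exact div_self hs0
  have hw₀ : w₀ = fun i => s * w₁ i := by
    funext i
    simp only [hw₁]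
    field_simp
  have hspow : ∀ n : ℕ, 1 ≤ n → 1 < A.valuation s ^ n := fun n hn =>
    one_lt_pow₀ hs1 (by omega)
  -- the forms are nonunits at `w₁`
  have small : ∀ (g : MvPolynomial (Fin 2) ℤ) (dg : ℕ), 1 ≤ dg →
      (∀ (s : K) (w : Fin 2 → K), aeval (fun i => s * w i) g = s ^ dg * aeval w g) →
      aeval w₀ g ∈ A → A.valuation (aeval w₁ g) < 1 := by
    intro g dg hdg hhom hg
    have h1 : A.valuation (aeval w₀ g) ≤ 1 := (A.valuation_le_one_iff _).mpr hg
    rw [hw₀, hhom, map_mul, map_pow] at h1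
    by_contra hge
    push Not at hge
    have : 1 < A.valuation s ^ dg * A.valuation (aeval w₁ g) := by
      calc 1 < A.valuation s ^ dg := hspow dg hdg
        _ = A.valuation s ^ dg * 1 := (mul_one _).symm
        _ ≤ A.valuation s ^ dg * A.valuation (aeval w₁ g) := mul_le_mul' le_rfl hge
    exact absurd h1 (not_le.mpr this)
  have hf₁ := small f df hdf hfhom hf₀
  have hH₁ := small H dH hdH hHhom hH₀
  obtain ⟨P₁, P₂, hP⟩ := hcert i₀
  have hev := congrArg (aeval w₁) hP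
  have hCc : aeval w₁ (C c : MvPolynomial (Fin 2) ℤ) = (c : K) := by simp
  rw [map_add, map_mul, map_mul, map_mul, map_pow, aeval_X, hCc, hw₁i₀, one_pow, mul_one] at hev
  have hlt : A.valuation ((c : ℤ) : K) < 1 := by
    rw [← hev]
    exact val_add_lt_one A (val_mul_lt_one A (val_aeval_le_one A P₁ w₁ hw₁A) hf₁)
      (val_mul_lt_one A (val_aeval_le_one A P₂ w₁ hw₁A) hH₁)
  rw [hc] at hlt
  exact absurd hlt (lt_irrefl _)

/-- **No additive fibre in the pencil.**  Forms `f, H` with Bezout certificates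
`P₁ f + P₂ H = c Xᵢ ^ N`; a vector of forms `(G₀, G₁)` with the Euler-type identity
`X₀ G₁ - X₁ G₀ = d P`; a base point `w₀` with coordinates in `A` and `P(w₀)` a unit; `c, d, α`
units of `A`, `β ∈ A`.  Then the pencil member `w_t = α w₀ + β (G₀(w₀), G₁(w₀))` has coordinates
in `A`, and `f(w_t)`, `H(w_t)` are not both nonunits.

For the Klein pencil: `G = (-H_v, H_u)`, `P = H`, `d = 20`, `α = T(w₀)`, `β = t f(w₀)`. -/
theorem pencil_not_both_nonunit
    (f H G₀ G₁ P : MvPolynomial (Fin 2) ℤ) (c d : ℤ) (N : ℕ)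
    (hcert : ∀ i : Fin 2, ∃ P₁ P₂ : MvPolynomial (Fin 2) ℤ,
      P₁ * f + P₂ * H = C c * X i ^ N)
    (hE : X 0 * G₁ - X 1 * G₀ = C d * P)
    (hc : A.valuation (c : K) = 1) (hd : A.valuation (d : K) = 1)
    (w₀ : Fin 2 → K) (hw₀ : ∀ i, w₀ i ∈ A) (hP₀ : A.valuation (aeval w₀ P) = 1)
    (α β : K) (hα : A.valuation α = 1) (hβ : β ∈ A)
    (wt : Fin 2 → K) (hwt0 : wt 0 = α * w₀ 0 + β * aeval w₀ G₀)
    (hwt1 : wt 1 = α * w₀ 1 + β * aeval w₀ G₁) :
    (∀ i, wt i ∈ A) ∧ ¬ (A.valuation (aeval wt f) < 1 ∧ A.valuation (aeval wt H) < 1) := by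
  have hαA : α ∈ A := (A.valuation_le_one_iff _).mp hα.le
  have hG₀A := aeval_mem A G₀ w₀ hw₀
  have hG₁A := aeval_mem A G₁ w₀ hw₀
  have hwtA : ∀ i, wt i ∈ A := by
    intro i
    fin_cases i
    · show wt 0 ∈ A
      rw [hwt0]
      exact A.add_mem _ _ (A.mul_mem _ _ hαA (hw₀ 0)) (A.mul_mem _ _ hβ hG₀A)
    · show wt 1 ∈ A
      rw [hwt1]
      exact A.add_mem _ _ (A.mul_mem _ _ hαA (hw₀ 1)) (A.mul_mem _ _ hβ hG₁A)
  refine ⟨hwtA, ?_⟩
  rintro ⟨hf, hH⟩
  -- both coordinates of `w_t` are nonunits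
  have hcoord : ∀ i, A.valuation (wt i) < 1 := by
    intro i
    obtain ⟨P₁, P₂, hP⟩ := hcert i
    have hev := congrArg (aeval wt) hP
    have hCc : aeval wt (C c : MvPolynomial (Fin 2) ℤ) = (c : K) := by simp
    rw [map_add, map_mul, map_mul, map_mul, map_pow, aeval_X, hCc] at hev
    have hlt : A.valuation ((c : K) * wt i ^ N) < 1 := by
      rw [← hev]
      exact val_add_lt_one A (val_mul_lt_one A (val_aeval_le_one A P₁ wt hwtA) hf)
        (val_mul_lt_one A (val_aeval_le_one A P₂ wt hwtA) hH)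
    rw [map_mul, hc, one_mul] at hlt
    exact val_lt_one_of_pow A ((A.valuation_le_one_iff _).mpr (hwtA i)) N hlt
  -- the determinant with `(G₀(w₀), G₁(w₀))`
  have hEev := congrArg (aeval w₀) hE
  have hCd : aeval w₀ (C d : MvPolynomial (Fin 2) ℤ) = (d : K) := by simp
  rw [map_sub, map_mul, map_mul, map_mul, aeval_X, aeval_X, hCd] at hEev
  have hdet : wt 0 * aeval w₀ G₁ - wt 1 * aeval w₀ G₀ = α * ((d : K) * aeval w₀ P) := by
    rw [hwt0, hwt1, ← hEev]
    ring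
  have h1 : A.valuation (wt 0 * aeval w₀ G₁ - wt 1 * aeval w₀ G₀) < 1 := by
    rw [sub_eq_add_neg]
    refine val_add_lt_one A ?_ ?_
    · rw [mul_comm]
      exact val_mul_lt_one A ((A.valuation_le_one_iff _).mpr hG₁A) (hcoord 0)
    · rw [Valuation.map_neg, mul_comm]
      exact val_mul_lt_one A ((A.valuation_le_one_iff _).mpr hG₀A) (hcoord 1)
  rw [hdet, map_mul, map_mul, hα, hd, hP₀, one_mul, one_mul] at h1
  exact absurd h1 (lt_irrefl _)

/-- Consumer form: if `Δ' = k_Δ · f(w_t)^e` and `c₄' = k₄ · H(w_t)` in `K` with `k_Δ`, `k₄` units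
of `A`, and `p` is a nonunit of `A`, then `p ∣ Δ' → ¬ p ∣ c₄'`. -/
theorem not_dvd_c₄_of_dvd_Δ_of_pencil
    (f H G₀ G₁ P : MvPolynomial (Fin 2) ℤ) (c d : ℤ) (N : ℕ)
    (hcert : ∀ i : Fin 2, ∃ P₁ P₂ : MvPolynomial (Fin 2) ℤ,
      P₁ * f + P₂ * H = C c * X i ^ N)
    (hE : X 0 * G₁ - X 1 * G₀ = C d * P)
    (hc : A.valuation (c : K) = 1) (hd : A.valuation (d : K) = 1)
    (w₀ : Fin 2 → K) (hw₀ : ∀ i, w₀ i ∈ A) (hP₀ : A.valuation (aeval w₀ P) = 1)
    (α β : K) (hα : A.valuation α = 1) (hβ : β ∈ A)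
    (wt : Fin 2 → K) (hwt0 : wt 0 = α * w₀ 0 + β * aeval w₀ G₀)
    (hwt1 : wt 1 = α * w₀ 1 + β * aeval w₀ G₁)
    (p : ℕ) (hp : A.valuation (p : K) < 1)
    (Δ' c4' : ℤ) (kΔ k4 : K) (e : ℕ) (hkΔ : A.valuation kΔ = 1) (hk4 : A.valuation k4 = 1)
    (hΔ' : (Δ' : K) = kΔ * aeval wt f ^ e) (hc4' : (c4' : K) = k4 * aeval wt H) :
    (p : ℤ) ∣ Δ' → ¬ (p : ℤ) ∣ c4' := by
  intro h1 h2
  obtain ⟨hwtA, hnot⟩ := pencil_not_both_nonunit A f H G₀ G₁ P c d N hcert hE hc hd w₀ hw₀ hP₀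
    α β hα hβ wt hwt0 hwt1
  apply hnot
  constructor
  · have := val_intCast_lt_one_of_dvd A p hp Δ' h1
    rw [hΔ', map_mul, hkΔ, one_mul] at this
    exact val_lt_one_of_pow A (val_aeval_le_one A f wt hwtA) e this
  · have := val_intCast_lt_one_of_dvd A p hp c4' h2
    rw [hc4', map_mul, hk4, one_mul] at this
    exact this

end Pencil

end Fermat.Agent.S52.helper4028
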