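import Mathlib
import Fermat.Agent.Lib.helper853_TorsionLadder

/-!
# Rigidity of polynomial torsion sections in a pencil of short Weierstrass curves (helper4485)

S52, leaf L3-RIGID.  Let `A, B ∈ K[X]` define the pencil `E_τ : y² = x³ + A(τ) x + B(τ)`.
A *polynomial section* (`Sec A B`) is a pair `x, y ∈ K[X]` with `y² = x³ + A x + B`.

* `IsFive s s'` : the polynomial identities "`s' = -2 s`" and "`-s = -2 s'`" (tangent-line form
  and abscissa form); they make `s(τ)` a point of order five on every good fibre.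
* `Basis5 A B U p p' q q'` : on the parameter set `U` the fibres are nonsingular, `5 ≠ 0`, and
  `p(τ), q(τ)` are independent points of order five (four nonvanishing conditions on abscissae).
* `Basis5.span` : then `p(τ), q(τ)` span `E_τ[5]` (uses the landed bound `#E[5] ≤ 25`).
* `Basis5.rigid` : **rigidity** - a polynomial section which is `5`-torsion at infinitely many
  `τ ∈ U` equals `m • p + n • q` on all of `U` for ONE pair `(m, n)` (pigeonhole + a polynomial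
  with infinitely many roots vanishes; the chord formula is cleared of denominators).
* `Basis5.sigma_const` : for a ring endomorphism `σ` of `K` fixing the coefficients of `A, B`
  and with `σ U ⊆ U`, the conjugate sections `p^σ, q^σ` are constant combinations of `p, q`:
  the matrix of `σ` on `E_τ[5]` in the basis `p(τ), q(τ)` is the same at every `σ`-fixed `τ ∈ U`.
* `trace_congr_of_pencil` : consequently, if the fibres at two `k`-rational parameters satisfy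
  quadratic relations `σ² - aᵢ σ + ℓ = 0` on points (Cayley-Hamilton for Frobenius, taken as
  hypotheses), then `5 ∣ a₀ - a₁`.

No torsor lemma, no group of symmetries and no Galois theory is used: nothing needs to be known
about how `σ` moves the auxiliary parameters hidden in the sections.
-/

set_option autoImplicit false

namespace Fermat.Agent.S52.helper4485

open Polynomial WeierstrassCurve WeierstrassCurve.Affine

noncomputable section

/-! ### Abstract group lemmas on two independent points of order five -/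

section Abstract

variable {G : Type*} [AddCommGroup G]

theorem int_prime_five : Prime (5 : ℤ) := Int.prime_iff_natAbs_prime.2 (by norm_num)

/-- If `5 • P = 0`, `5 • Q = 0`, `P ≠ 0` and `Q` is not a multiple of `P`, then `P`, `Q` are
independent modulo `5`. -/
theorem indep_of_not_mem {P Q : G} (hP : (5 : ℤ) • P = 0) (hQ : (5 : ℤ) • Q = 0)
    (hP0 : P ≠ 0) (hQP : ∀ m : ℤ, Q ≠ m • P) (a b : ℤ) (h : a • P + b • Q = 0) :
    (5 : ℤ) ∣ a ∧ (5 : ℤ) ∣ b := by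
  have hb : (5 : ℤ) ∣ b := by
    by_contra hb
    obtain ⟨u, v, huv⟩ := (int_prime_five.irreducible.coprime_iff_not_dvd).2 hb
    apply hQP (-(v * a))
    have h1 : b • Q = -(a • P) := eq_neg_of_add_eq_zero_right h
    calc Q = (u * 5 + v * b) • Q := by rw [huv, one_smul]
      _ = u • ((5 : ℤ) • Q) + v • (b • Q) := by rw [add_smul, mul_smul, mul_smul]
      _ = -(v * a) • P := by rw [hQ, h1, smul_zero, zero_add, smul_neg, neg_smul, mul_smul]
  refine ⟨?_, hb⟩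
  obtain ⟨c, rfl⟩ := hb
  have hbQ : ((5 : ℤ) * c) • Q = 0 := by rw [mul_comm, mul_smul, hQ, smul_zero]
  rw [hbQ, add_zero] at h
  by_contra ha
  obtain ⟨u, v, huv⟩ := (int_prime_five.irreducible.coprime_iff_not_dvd).2 ha
  apply hP0
  calc P = (u * 5 + v * a) • P := by rw [huv, one_smul]
    _ = u • ((5 : ℤ) • P) + v • (a • P) := by rw [add_smul, mul_smul, mul_smul]
    _ = 0 := by rw [hP, h, smul_zero, smul_zero, add_zero]

/-- Two independent points of order five span the `5`-torsion if the latter has at most `25`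
elements. -/
theorem span_of_card {P Q : G} (hP : (5 : ℤ) • P = 0) (hQ : (5 : ℤ) • Q = 0)
    (hind : ∀ a b : ℤ, a • P + b • Q = 0 → (5 : ℤ) ∣ a ∧ (5 : ℤ) ∣ b)
    (hfin : {R : G | 5 • R = 0}.Finite) (hcard : {R : G | 5 • R = 0}.ncard ≤ 25)
    (R : G) (hR : 5 • R = 0) : ∃ m n : Fin 5, R = (m : ℕ) • P + (n : ℕ) • Q := by
  classical
  let f : Fin 5 × Fin 5 → G := fun mn => (mn.1 : ℕ) • P + (mn.2 : ℕ) • Q
  have hf : Function.Injective f := by
    rintro ⟨m, n⟩ ⟨m', n'⟩ h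
    simp only [f] at h
    have h' : ((m : ℤ) - m') • P + ((n : ℤ) - n') • Q = 0 := by
      have h2 : ((m : ℕ) : ℤ) • P + ((n : ℕ) : ℤ) • Q = ((m' : ℕ) : ℤ) • P + ((n' : ℕ) : ℤ) • Q := by
        simpa only [natCast_zsmul] using h
      rw [sub_smul, sub_smul]
      have : ((m : ℕ) : ℤ) • P - ((m' : ℕ) : ℤ) • P + (((n : ℕ) : ℤ) • Q - ((n' : ℕ) : ℤ) • Q) =
          (((m : ℕ) : ℤ) • P + ((n : ℕ) : ℤ) • Q) - (((m' : ℕ) : ℤ) • P + ((n' : ℕ) : ℤ) • Q) := by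
        abel
      rw [this, h2, sub_self]
    obtain ⟨h1, h2⟩ := hind _ _ h'
    have hm : m = m' := by
      apply Fin.ext
      have := m.isLt
      have := m'.isLt
      omega
    have hn : n = n' := by
      apply Fin.ext
      have := n.isLt
      have := n'.isLt
      omega
    rw [hm, hn]
  have hsub : Set.range f ⊆ {R : G | 5 • R = 0} := by
    rintro _ ⟨⟨m, n⟩, rfl⟩
    have hP' : (5 : ℕ) • P = 0 := by
      have := hP
      rwa [show (5 : ℤ) = ((5 : ℕ) : ℤ) from rfl, natCast_zsmul] at this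
    have hQ' : (5 : ℕ) • Q = 0 := by
      have := hQ
      rwa [show (5 : ℤ) = ((5 : ℕ) : ℤ) from rfl, natCast_zsmul] at this
    simp only [Set.mem_ofPred_eq, f, smul_add]
    rw [smul_comm 5 (m : ℕ) P, smul_comm 5 (n : ℕ) Q, hP', hQ', smul_zero, smul_zero, add_zero]
  have hrange : (Set.range f).ncard = 25 := by
    rw [← Set.image_univ, Set.ncard_image_of_injective _ hf, Set.ncard_univ]
    simp
  have heq : Set.range f = {R : G | 5 • R = 0} :=
    Set.eq_of_subset_of_ncard_le hsub (by rw [hrange]; exact hcard) hfin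
  have hR' : R ∈ Set.range f := by rw [heq]; exact hR
  obtain ⟨⟨m, n⟩, rfl⟩ := hR'
  exact ⟨m, n, rfl⟩

end Abstract

/-! ### Point-level lemmas for curves in short form -/

section Short

variable {K : Type*} [Field K] [DecidableEq K]

/-- A Weierstrass curve in short form `y² = x³ + a₄ x + a₆`. -/
structure IsShort (W : Affine K) : Prop where
  a₁ : W.a₁ = 0
  a₂ : W.a₂ = 0
  a₃ : W.a₃ = 0

variable {W : Affine K}

omit [DecidableEq K] in
theorem IsShort.equation_iff (hW : IsShort W) (x y : K) :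
    W.Equation x y ↔ y ^ 2 = x ^ 3 + W.a₄ * x + W.a₆ := by
  rw [Affine.equation_iff, hW.a₁, hW.a₂, hW.a₃]
  constructor <;> intro h <;> linear_combination h

omit [DecidableEq K] in
theorem IsShort.negY (hW : IsShort W) (x y : K) : W.negY x y = -y := by
  simp [Affine.negY, hW.a₁, hW.a₃]

omit [DecidableEq K] in
theorem some_eq_some {x y x' y' : K} (h : W.Nonsingular x y) (h' : W.Nonsingular x' y')
    (hx : x = x') (hy : y = y') : Point.some x y h = Point.some x' y' h' := by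
  subst hx hy; rfl

/-- Tangent/duplication in polynomial form: `(x, y) + (x, y) = -(x', y')`. -/
theorem IsShort.add_self_eq_neg (hW : IsShort W) {x y x' y' : K} (h : W.Nonsingular x y)
    (h' : W.Nonsingular x' y') (hy : y ≠ 0) (h2 : (2 : K) ≠ 0)
    (hx : x' * (4 * y ^ 2) = (x ^ 2 - W.a₄) ^ 2 - 8 * W.a₆ * x)
    (ht : (y' - y) * (2 * y) = (3 * x ^ 2 + W.a₄) * (x' - x)) :
    Point.some x y h + Point.some x y h = -Point.some x' y' h' := by
  have hEq := (hW.equation_iff x y).1 h.1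
  have h2y : 2 * y ≠ 0 := mul_ne_zero h2 hy
  have hne : y ≠ W.negY x y := by
    rw [hW.negY]
    intro hh
    apply h2y
    linear_combination hh
  have hℓ : W.slope x x y y * (2 * y) = 3 * x ^ 2 + W.a₄ := by
    rw [Affine.slope_of_Y_ne rfl hne, hW.negY, hW.a₁, hW.a₂]
    have : y - -y = 2 * y := by ring
    rw [this]
    field_simp
    ring
  set ℓ := W.slope x x y y with hℓdef
  have hX : W.addX x x ℓ = x' := by
    simp only [Affine.addX, hW.a₁, hW.a₂]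
    have hz : (ℓ ^ 2 + 0 * ℓ - 0 - x - x - x') * (2 * y) ^ 2 = 0 := by
      linear_combination (ℓ * (2 * y) + 3 * x ^ 2 + W.a₄) * hℓ - hx - 8 * x * hEq
    rcases mul_eq_zero.1 hz with hz | hz
    · linear_combination hz
    · exact absurd hz (pow_ne_zero 2 h2y)
  rw [Point.add_self_of_Y_ne hne, Point.neg_some]
  apply some_eq_some
  · exact hX
  · rw [Affine.addY, hX, Affine.negAddY, hX, hW.negY, hW.negY]
    have hz : (y' - y - ℓ * (x' - x)) * (2 * y) = 0 := by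
      linear_combination ht - (x' - x) * hℓ
    rcases mul_eq_zero.1 hz with hz | hz
    · linear_combination hz
    · exact absurd hz h2y

/-- Chord addition in polynomial form. -/
theorem IsShort.add_eq_iff_of_X_ne (hW : IsShort W) {x₁ y₁ x₂ y₂ x₃ y₃ : K}
    (h₁ : W.Nonsingular x₁ y₁) (h₂ : W.Nonsingular x₂ y₂) (h₃ : W.Nonsingular x₃ y₃)
    (hx : x₁ ≠ x₂) :
    Point.some x₁ y₁ h₁ + Point.some x₂ y₂ h₂ = Point.some x₃ y₃ h₃ ↔
      x₃ * (x₁ - x₂) ^ 2 = (y₁ - y₂) ^ 2 - (x₁ + x₂) * (x₁ - x₂) ^ 2 ∧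
      (y₃ + y₁) * (x₁ - x₂) = -(y₁ - y₂) * (x₃ - x₁) := by
  have hd : x₁ - x₂ ≠ 0 := sub_ne_zero.2 hx
  have hℓ : W.slope x₁ x₂ y₁ y₂ * (x₁ - x₂) = y₁ - y₂ := by
    rw [Affine.slope_of_X_ne hx]
    field_simp
  set ℓ := W.slope x₁ x₂ y₁ y₂ with hℓdef
  rw [Point.add_of_X_ne hx, Point.some.injEq]
  simp only [Affine.addY, Affine.negAddY, Affine.addX, hW.negY, hW.a₁, hW.a₂]
  constructor
  · rintro ⟨e1, e2⟩
    constructor
    · rw [← e1]
      linear_combination (ℓ * (x₁ - x₂) + (y₁ - y₂)) * hℓ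
    · rw [← e2, ← e1]
      linear_combination -(ℓ ^ 2 + 0 * ℓ - 0 - x₁ - x₂ - x₁) * hℓ
  · rintro ⟨e1, e2⟩
    have e1' : ℓ ^ 2 + 0 * ℓ - 0 - x₁ - x₂ = x₃ := by
      have hz : (ℓ ^ 2 + 0 * ℓ - 0 - x₁ - x₂ - x₃) * (x₁ - x₂) ^ 2 = 0 := by
        linear_combination (ℓ * (x₁ - x₂) + (y₁ - y₂)) * hℓ - e1
      rcases mul_eq_zero.1 hz with hz | hz
      · linear_combination hz
      · exact absurd hz (pow_ne_zero 2 hd)
    refine ⟨e1', ?_⟩
    rw [e1']
    have hz : (-(ℓ * (x₃ - x₁) + y₁) - y₃) * (x₁ - x₂) = 0 := by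
      linear_combination -e2 - (x₃ - x₁) * hℓ
    rcases mul_eq_zero.1 hz with hz | hz
    · linear_combination hz
    · exact absurd hz hd

end Short

/-! ### Polynomial sections of a pencil of short Weierstrass curves -/

section Pencil

variable {K : Type*} [Field K] [DecidableEq K]

/-- The fibre at `τ` of the pencil `y² = x³ + A(τ) x + B(τ)`. -/
def fib (A B : K[X]) (τ : K) : Affine K := ⟨0, 0, 0, A.eval τ, B.eval τ⟩

omit [DecidableEq K] in
theorem fib_isShort (A B : K[X]) (τ : K) : IsShort (fib A B τ) := ⟨rfl, rfl, rfl⟩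

omit [DecidableEq K] in
theorem fib_a₄ (A B : K[X]) (τ : K) : (fib A B τ).a₄ = A.eval τ := rfl

omit [DecidableEq K] in
theorem fib_a₆ (A B : K[X]) (τ : K) : (fib A B τ).a₆ = B.eval τ := rfl

omit [DecidableEq K] in
theorem two_ne_zero_of_fib {A B : K[X]} {τ : K} (hΔ : (fib A B τ).Δ ≠ 0) : (2 : K) ≠ 0 := by
  intro h2
  apply hΔ
  simp only [fib, WeierstrassCurve.Δ, WeierstrassCurve.b₂, WeierstrassCurve.b₄,
    WeierstrassCurve.b₆, WeierstrassCurve.b₈]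
  linear_combination (-32 * (A.eval τ) ^ 3 - 216 * (B.eval τ) ^ 2) * h2

/-- A polynomial section of the pencil. -/
structure Sec (A B : K[X]) where
  /-- abscissa -/
  x : K[X]
  /-- ordinate -/
  y : K[X]
  eqn : y ^ 2 = x ^ 3 + A * x + B

variable {A B : K[X]}

omit [DecidableEq K] in
theorem Sec.eval_eqn (s : Sec A B) (τ : K) :
    s.y.eval τ ^ 2 = s.x.eval τ ^ 3 + A.eval τ * s.x.eval τ + B.eval τ := by
  have := congrArg (Polynomial.eval τ) s.eqn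
  simpa only [eval_pow, eval_add, eval_mul] using this

omit [DecidableEq K] in
theorem Sec.equation (s : Sec A B) (τ : K) :
    (fib A B τ).Equation (s.x.eval τ) (s.y.eval τ) := by
  rw [(fib_isShort A B τ).equation_iff]
  exact s.eval_eqn τ

omit [DecidableEq K] in
theorem Sec.nonsingular (s : Sec A B) (τ : K) (hΔ : (fib A B τ).Δ ≠ 0) :
    (fib A B τ).Nonsingular (s.x.eval τ) (s.y.eval τ) :=
  (equation_iff_nonsingular_of_Δ_ne_zero hΔ).1 (s.equation τ)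

/-- The value of a section at a parameter of good reduction. -/
def Sec.pt (s : Sec A B) (τ : K) (hΔ : (fib A B τ).Δ ≠ 0) : (fib A B τ).Point :=
  Point.some (s.x.eval τ) (s.y.eval τ) (s.nonsingular τ hΔ)

omit [DecidableEq K] in
theorem Sec.pt_ne_zero (s : Sec A B) (τ : K) (hΔ : (fib A B τ).Δ ≠ 0) : s.pt τ hΔ ≠ 0 :=
  Point.some_ne_zero _

/-- The opposite section. -/
def Sec.neg (s : Sec A B) : Sec A B := ⟨s.x, -s.y, by rw [neg_sq]; exact s.eqn⟩

omit [DecidableEq K] in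
theorem Sec.pt_neg (s : Sec A B) (τ : K) (hΔ : (fib A B τ).Δ ≠ 0) :
    s.neg.pt τ hΔ = -(s.pt τ hΔ) := by
  rw [Sec.pt, Sec.pt, Point.neg_some]
  apply some_eq_some
  · rfl
  · rw [(fib_isShort A B τ).negY]
    simp [Sec.neg]

/-- `s' = -2 s` and `-s = -2 s'` as polynomial identities (tangent-line form and abscissa form):
then `s` is a section of points of order dividing five. -/
structure IsFive (s s' : Sec A B) : Prop where
  hx1 : s'.x * (4 * s.y ^ 2) = (s.x ^ 2 - A) ^ 2 - 8 * B * s.x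
  ht1 : (s'.y - s.y) * (2 * s.y) = (3 * s.x ^ 2 + A) * (s'.x - s.x)
  hx2 : s.x * (4 * s'.y ^ 2) = (s'.x ^ 2 - A) ^ 2 - 8 * B * s'.x
  ht2 : (-s.y - s'.y) * (2 * s'.y) = (3 * s'.x ^ 2 + A) * (s.x - s'.x)

omit [DecidableEq K] in
/-- a point of the fibre with `y = 0` has `3x² + a ≠ 0` -/
theorem three_sq_ne_zero {τ x : K} (h : (fib A B τ).Nonsingular x 0) :
    3 * x ^ 2 + A.eval τ ≠ 0 := by
  rw [Affine.nonsingular_iff] at h
  rcases h.2 with h1 | h1
  · intro h0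
    apply h1
    simp only [fib]
    linear_combination -h0
  · exact absurd (by simp [fib]) h1

omit [DecidableEq K] in
theorem IsFive.y_ne_zero {s s' : Sec A B} (h : IsFive s s') {τ : K} (hΔ : (fib A B τ).Δ ≠ 0)
    (hx : s.x.eval τ ≠ s'.x.eval τ) : s.y.eval τ ≠ 0 := by
  intro hy
  have hns := s.nonsingular τ hΔ
  rw [hy] at hns
  have h3 := three_sq_ne_zero hns
  have ht := congrArg (Polynomial.eval τ) h.ht1
  simp only [eval_mul, eval_sub, eval_add, eval_pow, eval_ofNat, hy, mul_zero] at ht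
  rcases mul_eq_zero.1 ht.symm with h0 | h0
  · exact h3 h0
  · exact hx (sub_eq_zero.1 h0).symm

omit [DecidableEq K] in
theorem IsFive.y'_ne_zero {s s' : Sec A B} (h : IsFive s s') {τ : K} (hΔ : (fib A B τ).Δ ≠ 0)
    (hx : s.x.eval τ ≠ s'.x.eval τ) : s'.y.eval τ ≠ 0 := by
  intro hy
  have hns := s'.nonsingular τ hΔ
  rw [hy] at hns
  have h3 := three_sq_ne_zero hns
  have ht := congrArg (Polynomial.eval τ) h.ht2
  simp only [eval_mul, eval_sub, eval_add, eval_pow, eval_ofNat, eval_neg, hy, mul_zero] at ht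
  rcases mul_eq_zero.1 ht.symm with h0 | h0
  · exact h3 h0
  · exact hx (sub_eq_zero.1 h0)

/-- `2 P = -P'`. -/
theorem IsFive.two_nsmul {s s' : Sec A B} (h : IsFive s s') {τ : K} (hΔ : (fib A B τ).Δ ≠ 0)
    (hx : s.x.eval τ ≠ s'.x.eval τ) : s.pt τ hΔ + s.pt τ hΔ = -(s'.pt τ hΔ) := by
  have hx1 := congrArg (Polynomial.eval τ) h.hx1
  have ht1 := congrArg (Polynomial.eval τ) h.ht1
  simp only [eval_mul, eval_sub, eval_add, eval_pow, eval_ofNat] at hx1 ht1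
  exact (fib_isShort A B τ).add_self_eq_neg (s.nonsingular τ hΔ) (s'.nonsingular τ hΔ)
    (h.y_ne_zero hΔ hx) (two_ne_zero_of_fib hΔ) hx1 ht1

/-- `2 P' = P`. -/
theorem IsFive.two_nsmul' {s s' : Sec A B} (h : IsFive s s') {τ : K} (hΔ : (fib A B τ).Δ ≠ 0)
    (hx : s.x.eval τ ≠ s'.x.eval τ) : s'.pt τ hΔ + s'.pt τ hΔ = s.pt τ hΔ := by
  have hx2 := congrArg (Polynomial.eval τ) h.hx2
  have ht2 := congrArg (Polynomial.eval τ) h.ht2
  simp only [eval_mul, eval_sub, eval_add, eval_pow, eval_ofNat, eval_neg] at hx2 ht2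
  have e : (s.neg).y.eval τ = -(s.y.eval τ) := by simp [Sec.neg]
  have key := (fib_isShort A B τ).add_self_eq_neg (s'.nonsingular τ hΔ) (s.neg.nonsingular τ hΔ)
    (h.y'_ne_zero hΔ hx) (two_ne_zero_of_fib hΔ) hx2 (by rw [e]; exact ht2)
  have hneg : Point.some _ _ (s.neg.nonsingular τ hΔ) = -(s.pt τ hΔ) := s.pt_neg τ hΔ
  rw [hneg, neg_neg] at key
  exact key

theorem IsFive.five_zsmul {s s' : Sec A B} (h : IsFive s s') {τ : K} (hΔ : (fib A B τ).Δ ≠ 0)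
    (hx : s.x.eval τ ≠ s'.x.eval τ) : (5 : ℤ) • s.pt τ hΔ = 0 := by
  have h1 := h.two_nsmul hΔ hx
  have h2 := h.two_nsmul' hΔ hx
  have e : (5 : ℤ) • s.pt τ hΔ = ((s.pt τ hΔ + s.pt τ hΔ) + (s.pt τ hΔ + s.pt τ hΔ)) + s.pt τ hΔ := by
    rw [show (5 : ℤ) = 1 + 1 + 1 + 1 + 1 by norm_num]
    simp only [add_smul, one_smul]
    abel
  rw [e, h1, ← neg_add, h2, neg_add_cancel]

/-- The sections `s, -s', s', -s` representing `1 • s, 2 • s, 3 • s, 4 • s`. -/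
def mulSec (s s' : Sec A B) : ℕ → Sec A B
  | 1 => s
  | 2 => s'.neg
  | 3 => s'
  | _ => s.neg

theorem IsFive.mulSec_pt {s s' : Sec A B} (h : IsFive s s') {τ : K} (hΔ : (fib A B τ).Δ ≠ 0)
    (hx : s.x.eval τ ≠ s'.x.eval τ) (m : Fin 5) (hm : m ≠ 0) :
    (mulSec s s' m).pt τ hΔ = (m : ℕ) • s.pt τ hΔ := by
  have h1 := h.two_nsmul hΔ hx
  have h2 := h.two_nsmul' hΔ hx
  fin_cases m
  · exact absurd rfl hm
  · show s.pt τ hΔ = (1 : ℕ) • s.pt τ hΔ
    rw [one_smul]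
  · show s'.neg.pt τ hΔ = (2 : ℕ) • s.pt τ hΔ
    rw [Sec.pt_neg, _root_.two_nsmul, h1]
  · have : (3 : ℕ) • s.pt τ hΔ = (s.pt τ hΔ + s.pt τ hΔ) + s.pt τ hΔ := by
      rw [show (3 : ℕ) = 1 + 1 + 1 by norm_num]
      simp only [add_smul, one_smul]
    show s'.pt τ hΔ = (3 : ℕ) • s.pt τ hΔ
    rw [this, h1, ← h2]
    abel
  · have : (4 : ℕ) • s.pt τ hΔ = (s.pt τ hΔ + s.pt τ hΔ) + (s.pt τ hΔ + s.pt τ hΔ) := by
      rw [show (4 : ℕ) = 1 + 1 + 1 + 1 by norm_num]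
      simp only [add_smul, one_smul]
      abel
    show s.neg.pt τ hΔ = (4 : ℕ) • s.pt τ hΔ
    rw [Sec.pt_neg, this, h1, ← neg_add, h2]

end Pencil

/-! ### Rigidity -/

section Rigid

variable {K : Type*} [Field K] [DecidableEq K] {A B : K[X]}

omit [DecidableEq K] in
theorem Sec.pt_eq_iff (s r : Sec A B) (τ : K) (hΔ : (fib A B τ).Δ ≠ 0) :
    s.pt τ hΔ = r.pt τ hΔ ↔ s.x.eval τ = r.x.eval τ ∧ s.y.eval τ = r.y.eval τ := by
  rw [Sec.pt, Sec.pt, Point.some.injEq]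

omit [DecidableEq K] in
theorem Sec.pt_congr {s r : Sec A B} (hx : s.x = r.x) (hy : s.y = r.y) (τ : K)
    (hΔ : (fib A B τ).Δ ≠ 0) : s.pt τ hΔ = r.pt τ hΔ := by
  rw [Sec.pt_eq_iff, hx, hy]
  exact ⟨rfl, rfl⟩

/-- Standing hypotheses: `p`, `q` are sections of independent points of order five over `U`
(`p' = -2p`, `q' = -2q`). -/
structure Basis5 (A B : K[X]) (U : Set K) (p p' q q' : Sec A B) : Prop where
  Δ : ∀ τ ∈ U, (fib A B τ).Δ ≠ 0
  five : (5 : K) ≠ 0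
  fp : IsFive p p'
  fq : IsFive q q'
  hp : ∀ τ ∈ U, p.x.eval τ ≠ p'.x.eval τ
  hq : ∀ τ ∈ U, q.x.eval τ ≠ q'.x.eval τ
  hqp : ∀ τ ∈ U, q.x.eval τ ≠ p.x.eval τ
  hqp' : ∀ τ ∈ U, q.x.eval τ ≠ p'.x.eval τ

variable {U : Set K} {p p' q q' : Sec A B}

omit [DecidableEq K] in
theorem mulSec_x (s s' : Sec A B) (m : ℕ) : (mulSec s s' m).x = s.x ∨ (mulSec s s' m).x = s'.x := by
  unfold mulSec
  split
  · exact Or.inl rfl
  · exact Or.inr rfl
  · exact Or.inr rfl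
  · exact Or.inl rfl

theorem Basis5.not_mem (hb : Basis5 A B U p p' q q') {τ : K} (hτ : τ ∈ U) (m : ℤ) :
    q.pt τ (hb.Δ τ hτ) ≠ m • p.pt τ (hb.Δ τ hτ) := by
  have hΔ := hb.Δ τ hτ
  have h5 := hb.fp.five_zsmul hΔ (hb.hp τ hτ)
  have hm : m • p.pt τ hΔ = (m % 5) • p.pt τ hΔ := by
    conv_lhs => rw [← Int.emod_add_mul_ediv m 5]
    rw [add_smul, mul_comm, mul_smul, h5, smul_zero, add_zero]
  have hr0 : 0 ≤ m % 5 := Int.emod_nonneg m (by norm_num)
  have hr5 : m % 5 < 5 := Int.emod_lt_of_pos m (by norm_num)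
  obtain ⟨r, hr⟩ : ∃ r : ℕ, (r : ℤ) = m % 5 := ⟨(m % 5).toNat, Int.toNat_of_nonneg hr0⟩
  have hr5' : r < 5 := by omega
  rw [hm, ← hr, natCast_zsmul]
  intro hq
  by_cases hr0' : r = 0
  · rw [hr0', zero_smul] at hq
    exact q.pt_ne_zero τ hΔ hq
  · have hmul := hb.fp.mulSec_pt hΔ (hb.hp τ hτ) ⟨r, hr5'⟩
      (by intro h; exact hr0' (by simpa using congrArg Fin.val h))
    have hq' : q.pt τ hΔ = (mulSec p p' r).pt τ hΔ := by rw [hq]; exact hmul.symm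
    have hx := ((Sec.pt_eq_iff _ _ τ hΔ).1 hq').1
    rcases mulSec_x p p' r with h | h
    · rw [h] at hx
      exact hb.hqp τ hτ hx
    · rw [h] at hx
      exact hb.hqp' τ hτ hx

theorem Basis5.indep (hb : Basis5 A B U p p' q q') {τ : K} (hτ : τ ∈ U) (a b : ℤ)
    (h : a • p.pt τ (hb.Δ τ hτ) + b • q.pt τ (hb.Δ τ hτ) = 0) : (5 : ℤ) ∣ a ∧ (5 : ℤ) ∣ b :=
  indep_of_not_mem (hb.fp.five_zsmul (hb.Δ τ hτ) (hb.hp τ hτ))
    (hb.fq.five_zsmul (hb.Δ τ hτ) (hb.hq τ hτ)) (p.pt_ne_zero τ _) (hb.not_mem hτ) a b h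

theorem Basis5.span (hb : Basis5 A B U p p' q q') {τ : K} (hτ : τ ∈ U)
    (R : (fib A B τ).Point) (hR : (5 : ℤ) • R = 0) :
    ∃ m n : Fin 5, R = (m : ℕ) • p.pt τ (hb.Δ τ hτ) + (n : ℕ) • q.pt τ (hb.Δ τ hτ) := by
  have h853 := Fermat.Agent.Lib.helper853.torsion_finite_and_ncard_le (fib A B τ) 2
    (by norm_num; exact hb.five)
  have hR' : (5 : ℕ) • R = 0 := by
    have := hR
    rwa [show (5 : ℤ) = ((5 : ℕ) : ℤ) from rfl, natCast_zsmul] at this
  exact span_of_card (hb.fp.five_zsmul (hb.Δ τ hτ) (hb.hp τ hτ))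
    (hb.fq.five_zsmul (hb.Δ τ hτ) (hb.hq τ hτ)) (hb.indep hτ) h853.1 h853.2 R hR'

omit [DecidableEq K] in
theorem sec_eq_of_infinite {s r : Sec A B} {V : Set K} (hV : V.Infinite)
    (h : ∀ τ ∈ V, s.x.eval τ = r.x.eval τ ∧ s.y.eval τ = r.y.eval τ) :
    s.x = r.x ∧ s.y = r.y :=
  ⟨Polynomial.eq_of_infinite_eval_eq _ _ (hV.mono fun τ hτ => (h τ hτ).1),
    Polynomial.eq_of_infinite_eval_eq _ _ (hV.mono fun τ hτ => (h τ hτ).2)⟩

/-- Chord rigidity: a relation `s = r₁ + r₂` between sections with distinct abscissae which holds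
at infinitely many parameters holds at all parameters. -/
theorem chord_rigid {s r₁ r₂ : Sec A B} {U V : Set K} (hΔ : ∀ τ ∈ U, (fib A B τ).Δ ≠ 0)
    (hx : ∀ τ ∈ U, r₁.x.eval τ ≠ r₂.x.eval τ) (hV : V.Infinite) (hVU : V ⊆ U)
    (h : ∀ τ (hτ : τ ∈ V), s.pt τ (hΔ τ (hVU hτ)) =
      r₁.pt τ (hΔ τ (hVU hτ)) + r₂.pt τ (hΔ τ (hVU hτ)))
    (τ : K) (hτ : τ ∈ U) : s.pt τ (hΔ τ hτ) = r₁.pt τ (hΔ τ hτ) + r₂.pt τ (hΔ τ hτ) := by
  set F₁ : K[X] := s.x * (r₁.x - r₂.x) ^ 2 - ((r₁.y - r₂.y) ^ 2 - (r₁.x + r₂.x) * (r₁.x - r₂.x) ^ 2)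
    with hF₁
  set F₂ : K[X] := (s.y + r₁.y) * (r₁.x - r₂.x) + (r₁.y - r₂.y) * (s.x - r₁.x) with hF₂
  have key : ∀ τ (hτ : τ ∈ U), (s.pt τ (hΔ τ hτ) = r₁.pt τ (hΔ τ hτ) + r₂.pt τ (hΔ τ hτ)) ↔
      (F₁.eval τ = 0 ∧ F₂.eval τ = 0) := by
    intro τ hτ
    rw [eq_comm, Sec.pt, Sec.pt, Sec.pt, (fib_isShort A B τ).add_eq_iff_of_X_ne _ _ _ (hx τ hτ)]
    simp only [hF₁, hF₂, eval_mul, eval_sub, eval_add, eval_pow]
    constructor
    · rintro ⟨e1, e2⟩
      exact ⟨by linear_combination e1, by linear_combination e2⟩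
    · rintro ⟨e1, e2⟩
      exact ⟨by linear_combination e1, by linear_combination e2⟩
  have h1 : F₁ = 0 := Polynomial.eq_zero_of_infinite_isRoot _
    (hV.mono fun τ hτ => ((key τ (hVU hτ)).1 (h τ hτ)).1)
  have h2 : F₂ = 0 := Polynomial.eq_zero_of_infinite_isRoot _
    (hV.mono fun τ hτ => ((key τ (hVU hτ)).1 (h τ hτ)).2)
  exact (key τ hτ).2 ⟨by rw [h1, eval_zero], by rw [h2, eval_zero]⟩

/-- **Rigidity.** A polynomial section whose values are `5`-torsion at infinitely many parameters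
of `U` is a constant combination of the basis sections on all of `U`. -/
theorem Basis5.rigid (hb : Basis5 A B U p p' q q') (s : Sec A B) {V : Set K} (hV : V.Infinite)
    (hVU : V ⊆ U) (hs : ∀ τ (hτ : τ ∈ V), (5 : ℤ) • s.pt τ (hb.Δ τ (hVU hτ)) = 0) :
    ∃ m n : Fin 5, ∀ τ (hτ : τ ∈ U),
      s.pt τ (hb.Δ τ hτ) = (m : ℕ) • p.pt τ (hb.Δ τ hτ) + (n : ℕ) • q.pt τ (hb.Δ τ hτ) := by
  have hex : ∀ τ : V, ∃ mn : Fin 5 × Fin 5, s.pt τ.1 (hb.Δ τ.1 (hVU τ.2)) =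
      (mn.1 : ℕ) • p.pt τ.1 (hb.Δ τ.1 (hVU τ.2)) + (mn.2 : ℕ) • q.pt τ.1 (hb.Δ τ.1 (hVU τ.2)) := by
    rintro ⟨τ, hτ⟩
    obtain ⟨m, n, h⟩ := hb.span (hVU hτ) _ (hs τ hτ)
    exact ⟨(m, n), h⟩
  choose c hc using hex
  have : Infinite V := hV.to_subtype
  obtain ⟨⟨m, n⟩, hinf⟩ := Finite.exists_infinite_fiber c
  set V' : Set K := Subtype.val '' (c ⁻¹' {(m, n)}) with hV'def
  have hV' : V'.Infinite := (Set.infinite_coe_iff.1 hinf).image Subtype.val_injective.injOn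
  have hV'V : V' ⊆ V := by
    rintro _ ⟨τ, _, rfl⟩
    exact τ.2
  have hV'U : V' ⊆ U := hV'V.trans hVU
  have hV'eq : ∀ τ (hτ : τ ∈ V'), s.pt τ (hb.Δ τ (hV'U hτ)) =
      (m : ℕ) • p.pt τ (hb.Δ τ (hV'U hτ)) + (n : ℕ) • q.pt τ (hb.Δ τ (hV'U hτ)) := by
    rintro _ ⟨τ, hτ, rfl⟩
    have := hc τ
    rw [Set.mem_preimage, Set.mem_singleton_iff] at hτ
    rw [hτ] at this
    exact this
  refine ⟨m, n, ?_⟩
  by_cases hm : m = 0 <;> by_cases hn : n = 0
  · exfalso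
    obtain ⟨τ, hτ⟩ := hV'.nonempty
    have := hV'eq τ hτ
    rw [hm, hn] at this
    simp only [Fin.val_zero, zero_smul, add_zero] at this
    exact s.pt_ne_zero _ _ this
  · have hsec := sec_eq_of_infinite (s := s) (r := mulSec q q' n) hV' (fun τ hτ => by
      have h1 := hV'eq τ hτ
      rw [hm, Fin.val_zero, zero_smul, zero_add,
        ← hb.fq.mulSec_pt (hb.Δ τ (hV'U hτ)) (hb.hq τ (hV'U hτ)) n hn] at h1
      exact (Sec.pt_eq_iff _ _ _ _).1 h1)
    intro τ hτ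
    rw [hm, Fin.val_zero, zero_smul, zero_add,
      ← hb.fq.mulSec_pt (hb.Δ τ hτ) (hb.hq τ hτ) n hn]
    exact Sec.pt_congr hsec.1 hsec.2 τ _
  · have hsec := sec_eq_of_infinite (s := s) (r := mulSec p p' m) hV' (fun τ hτ => by
      have h1 := hV'eq τ hτ
      rw [hn, Fin.val_zero, zero_smul, add_zero,
        ← hb.fp.mulSec_pt (hb.Δ τ (hV'U hτ)) (hb.hp τ (hV'U hτ)) m hm] at h1
      exact (Sec.pt_eq_iff _ _ _ _).1 h1)
    intro τ hτ
    rw [hn, Fin.val_zero, zero_smul, add_zero,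
      ← hb.fp.mulSec_pt (hb.Δ τ hτ) (hb.hp τ hτ) m hm]
    exact Sec.pt_congr hsec.1 hsec.2 τ _
  · have hx : ∀ τ ∈ U, (mulSec p p' m).x.eval τ ≠ (mulSec q q' n).x.eval τ := by
      intro τ hτ hxe
      have hΔ := hb.Δ τ hτ
      have h1 := hb.fp.mulSec_pt hΔ (hb.hp τ hτ) m hm
      have h2 := hb.fq.mulSec_pt hΔ (hb.hq τ hτ) n hn
      have hm5 : ¬ (5 : ℤ) ∣ (m : ℤ) := by
        intro h5
        apply hm
        apply Fin.ext
        have := m.isLt
        simp only [Fin.val_zero]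
        omega
      have hcases := (Point.X_eq_iff (h₁ := (mulSec p p' m).nonsingular τ hΔ)
        (h₂ := (mulSec q q' n).nonsingular τ hΔ)).1 hxe
      change (mulSec p p' m).pt τ hΔ = (mulSec q q' n).pt τ hΔ ∨
        (mulSec p p' m).pt τ hΔ = -(mulSec q q' n).pt τ hΔ at hcases
      rw [h1, h2] at hcases
      rcases hcases with hc' | hc'
      · apply hm5
        refine (hb.indep hτ (m : ℤ) (-(n : ℤ)) ?_).1
        rw [neg_smul, natCast_zsmul, natCast_zsmul, hc', add_neg_cancel]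
      · apply hm5
        refine (hb.indep hτ (m : ℤ) (n : ℤ) ?_).1
        rw [natCast_zsmul, natCast_zsmul, hc', neg_add_cancel]
    intro τ hτ
    rw [← hb.fp.mulSec_pt (hb.Δ τ hτ) (hb.hp τ hτ) m hm,
      ← hb.fq.mulSec_pt (hb.Δ τ hτ) (hb.hq τ hτ) n hn]
    refine chord_rigid hb.Δ hx hV' hV'U (fun τ hτ => ?_) τ hτ
    rw [hb.fp.mulSec_pt (hb.Δ τ (hV'U hτ)) (hb.hp τ (hV'U hτ)) m hm,
      hb.fq.mulSec_pt (hb.Δ τ (hV'U hτ)) (hb.hq τ (hV'U hτ)) n hn]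
    exact hV'eq τ hτ

end Rigid

/-! ### Conjugating sections by a ring endomorphism -/

section Sigma

variable {K : Type*} [Field K] [DecidableEq K] {A B : K[X]} (σ : K →+* K)

/-- The conjugate of a section by a ring endomorphism fixing the coefficients of the pencil. -/
def Sec.map (s : Sec A B) (hA : A.map σ = A) (hB : B.map σ = B) : Sec A B :=
  ⟨s.x.map σ, s.y.map σ, by
    have := congrArg (Polynomial.map σ) s.eqn
    simpa only [Polynomial.map_pow, Polynomial.map_add, Polynomial.map_mul, hA, hB] using this⟩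

omit [DecidableEq K] in
theorem Sec.map_eval_x (s : Sec A B) (hA : A.map σ = A) (hB : B.map σ = B) (τ : K) :
    (s.map σ hA hB).x.eval (σ τ) = σ (s.x.eval τ) := by
  show (s.x.map σ).eval (σ τ) = _
  rw [eval_map, eval₂_at_apply]

omit [DecidableEq K] in
theorem Sec.map_eval_y (s : Sec A B) (hA : A.map σ = A) (hB : B.map σ = B) (τ : K) :
    (s.map σ hA hB).y.eval (σ τ) = σ (s.y.eval τ) := by
  show (s.y.map σ).eval (σ τ) = _
  rw [eval_map, eval₂_at_apply]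

omit [DecidableEq K] in
theorem IsFive.map {s s' : Sec A B} (h : IsFive s s') (hA : A.map σ = A) (hB : B.map σ = B) :
    IsFive (s.map σ hA hB) (s'.map σ hA hB) := by
  refine ⟨?_, ?_, ?_, ?_⟩
  · have := congrArg (Polynomial.map σ) h.hx1
    simpa only [Sec.map, Polynomial.map_pow, Polynomial.map_add, Polynomial.map_sub,
      Polynomial.map_mul, Polynomial.map_ofNat, hA, hB] using this
  · have := congrArg (Polynomial.map σ) h.ht1
    simpa only [Sec.map, Polynomial.map_pow, Polynomial.map_add, Polynomial.map_sub,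
      Polynomial.map_mul, Polynomial.map_ofNat, hA, hB] using this
  · have := congrArg (Polynomial.map σ) h.hx2
    simpa only [Sec.map, Polynomial.map_pow, Polynomial.map_add, Polynomial.map_sub,
      Polynomial.map_mul, Polynomial.map_ofNat, hA, hB] using this
  · have := congrArg (Polynomial.map σ) h.ht2
    simpa only [Sec.map, Polynomial.map_pow, Polynomial.map_add, Polynomial.map_sub,
      Polynomial.map_mul, Polynomial.map_ofNat, Polynomial.map_neg, hA, hB] using this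

variable {U : Set K} {p p' q q' : Sec A B}

/-- **Constancy of the matrix of `σ`.** The conjugate sections `p^σ`, `q^σ` are constant
combinations of `p`, `q` on all of `U`. -/
theorem Basis5.sigma_const (hb : Basis5 A B U p p' q q') (hU : U.Infinite)
    (hA : A.map σ = A) (hB : B.map σ = B) (hσU : ∀ τ ∈ U, σ τ ∈ U) :
    ∃ m n m' n' : Fin 5, ∀ τ (hτ : τ ∈ U),
      (p.map σ hA hB).pt τ (hb.Δ τ hτ) =
          (m : ℕ) • p.pt τ (hb.Δ τ hτ) + (n : ℕ) • q.pt τ (hb.Δ τ hτ) ∧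
      (q.map σ hA hB).pt τ (hb.Δ τ hτ) =
          (m' : ℕ) • p.pt τ (hb.Δ τ hτ) + (n' : ℕ) • q.pt τ (hb.Δ τ hτ) := by
  have hV : (σ '' U).Infinite := hU.image σ.injective.injOn
  have hVU : σ '' U ⊆ U := by
    rintro _ ⟨τ, hτ, rfl⟩
    exact hσU τ hτ
  have h5p : ∀ τ (hτ : τ ∈ σ '' U), (5 : ℤ) • (p.map σ hA hB).pt τ (hb.Δ τ (hVU hτ)) = 0 := by
    rintro _ ⟨τ, hτ, rfl⟩
    apply (hb.fp.map σ hA hB).five_zsmul
    rw [Sec.map_eval_x, Sec.map_eval_x]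
    exact fun h => hb.hp τ hτ (σ.injective h)
  have h5q : ∀ τ (hτ : τ ∈ σ '' U), (5 : ℤ) • (q.map σ hA hB).pt τ (hb.Δ τ (hVU hτ)) = 0 := by
    rintro _ ⟨τ, hτ, rfl⟩
    apply (hb.fq.map σ hA hB).five_zsmul
    rw [Sec.map_eval_x, Sec.map_eval_x]
    exact fun h => hb.hq τ hτ (σ.injective h)
  obtain ⟨m, n, h1⟩ := hb.rigid (p.map σ hA hB) hV hVU h5p
  obtain ⟨m', n', h2⟩ := hb.rigid (q.map σ hA hB) hV hVU h5q
  exact ⟨m, n, m', n', fun τ hτ => ⟨h1 τ hτ, h2 τ hτ⟩⟩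

/-- The matrix of a `σ`-semilinear additive map on the fibre at a `σ`-fixed parameter `τ ∈ U`,
for any curve `W` equal to the fibre. -/
theorem Basis5.local_matrix (hb : Basis5 A B U p p' q q')
    (hA : A.map σ = A) (hB : B.map σ = B) {m n m' n' : Fin 5}
    (hconst : ∀ τ (hτ : τ ∈ U),
      (p.map σ hA hB).pt τ (hb.Δ τ hτ) =
          (m : ℕ) • p.pt τ (hb.Δ τ hτ) + (n : ℕ) • q.pt τ (hb.Δ τ hτ) ∧
      (q.map σ hA hB).pt τ (hb.Δ τ hτ) =
          (m' : ℕ) • p.pt τ (hb.Δ τ hτ) + (n' : ℕ) • q.pt τ (hb.Δ τ hτ))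
    {τ : K} (hτ : τ ∈ U) (hστ : σ τ = τ) (W : Affine K) (hW : W = fib A B τ)
    (φ : W.Point →+ W.Point)
    (hφ : ∀ (x y : K) (h : W.Nonsingular x y) (h' : W.Nonsingular (σ x) (σ y)),
      φ (Point.some x y h) = Point.some (σ x) (σ y) h') :
    ∃ P Q : W.Point, (5 : ℤ) • P = 0 ∧ (5 : ℤ) • Q = 0 ∧
      (∀ a b : ℤ, a • P + b • Q = 0 → (5 : ℤ) ∣ a ∧ (5 : ℤ) ∣ b) ∧ φ P ≠ 0 ∧
      φ P = (m : ℕ) • P + (n : ℕ) • Q ∧ φ Q = (m' : ℕ) • P + (n' : ℕ) • Q := by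
  subst hW
  have hΔ := hb.Δ τ hτ
  have hpx : (p.map σ hA hB).x.eval τ = σ (p.x.eval τ) := by
    conv_lhs => rw [← hστ]
    exact p.map_eval_x σ hA hB τ
  have hpy : (p.map σ hA hB).y.eval τ = σ (p.y.eval τ) := by
    conv_lhs => rw [← hστ]
    exact p.map_eval_y σ hA hB τ
  have hqx : (q.map σ hA hB).x.eval τ = σ (q.x.eval τ) := by
    conv_lhs => rw [← hστ]
    exact q.map_eval_x σ hA hB τ
  have hqy : (q.map σ hA hB).y.eval τ = σ (q.y.eval τ) := by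
    conv_lhs => rw [← hστ]
    exact q.map_eval_y σ hA hB τ
  have hnsp : (fib A B τ).Nonsingular (σ (p.x.eval τ)) (σ (p.y.eval τ)) := by
    rw [← hpx, ← hpy]
    exact (p.map σ hA hB).nonsingular τ hΔ
  have hnsq : (fib A B τ).Nonsingular (σ (q.x.eval τ)) (σ (q.y.eval τ)) := by
    rw [← hqx, ← hqy]
    exact (q.map σ hA hB).nonsingular τ hΔ
  have hφp : φ (p.pt τ hΔ) = (p.map σ hA hB).pt τ hΔ := by
    rw [Sec.pt, hφ _ _ _ hnsp, Sec.pt]
    exact some_eq_some _ _ hpx.symm hpy.symm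
  have hφq : φ (q.pt τ hΔ) = (q.map σ hA hB).pt τ hΔ := by
    rw [Sec.pt, hφ _ _ _ hnsq, Sec.pt]
    exact some_eq_some _ _ hqx.symm hqy.symm
  refine ⟨p.pt τ hΔ, q.pt τ hΔ, hb.fp.five_zsmul hΔ (hb.hp τ hτ),
    hb.fq.five_zsmul hΔ (hb.hq τ hτ), hb.indep hτ, ?_, ?_, ?_⟩
  · rw [hφp]
    exact Sec.pt_ne_zero _ _ _
  · rw [hφp]
    exact (hconst τ hτ).1
  · rw [hφq]
    exact (hconst τ hτ).2

end Sigma

/-! ### From equal matrices to the congruence of traces -/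

section Trace

variable {G₀ G₁ : Type*} [AddCommGroup G₀] [AddCommGroup G₁]

/-- If two additive endomorphisms have the same matrix on independent pairs of points of order
five and both satisfy a quadratic relation `φ² - a φ + ℓ = 0`, then `a₀ ≡ a₁ mod 5`. -/
theorem dvd_sub_of_CH (φ₀ : G₀ →+ G₀) (φ₁ : G₁ →+ G₁) {P₀ Q₀ : G₀} {P₁ Q₁ : G₁}
    (h5P₀ : (5 : ℤ) • P₀ = 0) (h5Q₀ : (5 : ℤ) • Q₀ = 0)
    (hind₀ : ∀ a b : ℤ, a • P₀ + b • Q₀ = 0 → (5 : ℤ) ∣ a ∧ (5 : ℤ) ∣ b)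
    (hind₁ : ∀ a b : ℤ, a • P₁ + b • Q₁ = 0 → (5 : ℤ) ∣ a ∧ (5 : ℤ) ∣ b)
    {m n m' n' : ℤ}
    (hP₀ : φ₀ P₀ = m • P₀ + n • Q₀) (hQ₀ : φ₀ Q₀ = m' • P₀ + n' • Q₀)
    (hP₁ : φ₁ P₁ = m • P₁ + n • Q₁) (hQ₁ : φ₁ Q₁ = m' • P₁ + n' • Q₁)
    (hφ₀ : φ₀ P₀ ≠ 0) (a₀ a₁ ℓ : ℤ)
    (hCH₀ : φ₀ (φ₀ P₀) - a₀ • φ₀ P₀ + ℓ • P₀ = 0)
    (hCH₁ : φ₁ (φ₁ P₁) - a₁ • φ₁ P₁ + ℓ • P₁ = 0) : (5 : ℤ) ∣ a₀ - a₁ := by
  have e₀ : (m * m + n * m' - a₀ * m + ℓ) • P₀ + (m * n + n * n' - a₀ * n) • Q₀ = 0 := by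
    rw [← hCH₀, hP₀, map_add, map_zsmul, map_zsmul, hP₀, hQ₀]
    module
  have e₁ : (m * m + n * m' - a₁ * m + ℓ) • P₁ + (m * n + n * n' - a₁ * n) • Q₁ = 0 := by
    rw [← hCH₁, hP₁, map_add, map_zsmul, map_zsmul, hP₁, hQ₁]
    module
  obtain ⟨c₀, d₀⟩ := hind₀ _ _ e₀
  obtain ⟨c₁, d₁⟩ := hind₁ _ _ e₁
  by_contra hcon
  have hm : (5 : ℤ) ∣ (a₀ - a₁) * m := by
    have := dvd_sub c₁ c₀
    have e : (m * m + n * m' - a₁ * m + ℓ) - (m * m + n * m' - a₀ * m + ℓ) = (a₀ - a₁) * m := by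
      ring
    rwa [e] at this
  have hn : (5 : ℤ) ∣ (a₀ - a₁) * n := by
    have := dvd_sub d₁ d₀
    have e : (m * n + n * n' - a₁ * n) - (m * n + n * n' - a₀ * n) = (a₀ - a₁) * n := by ring
    rwa [e] at this
  have hm' : (5 : ℤ) ∣ m := (int_prime_five.dvd_or_dvd hm).resolve_left hcon
  have hn' : (5 : ℤ) ∣ n := (int_prime_five.dvd_or_dvd hn).resolve_left hcon
  apply hφ₀
  obtain ⟨u, rfl⟩ := hm'
  obtain ⟨v, rfl⟩ := hn'
  rw [hP₀, mul_comm 5 u, mul_comm 5 v, mul_smul, mul_smul, h5P₀, h5Q₀, smul_zero, smul_zero,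
    add_zero]

end Trace

/-! ### The congruence of traces in a pencil -/

section Final

variable {k K : Type*} [Field k] [Field K] [Algebra k K] [DecidableEq K]

omit [DecidableEq K] in
theorem baseChange_eq_fib (E : WeierstrassCurve k) (A B : k[X]) (τ : k)
    (hE : E.a₁ = 0 ∧ E.a₂ = 0 ∧ E.a₃ = 0 ∧ E.a₄ = A.eval τ ∧ E.a₆ = B.eval τ) :
    (E.toAffine⁄K) =
      fib (A.map (algebraMap k K)) (B.map (algebraMap k K)) (algebraMap k K τ) := by
  obtain ⟨h1, h2, h3, h4, h6⟩ := hE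
  have e4 : (A.map (algebraMap k K)).eval (algebraMap k K τ) = algebraMap k K (A.eval τ) := by
    rw [eval_map, eval₂_at_apply]
  have e6 : (B.map (algebraMap k K)).eval (algebraMap k K τ) = algebraMap k K (B.eval τ) := by
    rw [eval_map, eval₂_at_apply]
  ext
  · simp [fib, WeierstrassCurve.baseChange, h1]
  · simp [fib, WeierstrassCurve.baseChange, h2]
  · simp [fib, WeierstrassCurve.baseChange, h3]
  · simp [fib, WeierstrassCurve.baseChange, h4, e4]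
  · simp [fib, WeierstrassCurve.baseChange, h6, e6]

/-- **Congruence of traces in a pencil with a basis of polynomial `5`-torsion sections.**

`A, B ∈ k[X]` define the pencil `E_τ : y² = x³ + A(τ) x + B(τ)`; over an extension field `K` of `k`
we are given polynomial sections `p, p', q, q'` (`p' = -2p`, `q' = -2q`) forming a basis of
`E_τ[5]` for all `τ` in an infinite set `U ⊆ K` stable under a `k`-algebra endomorphism `σ` of
`K`.  If the fibres at two `k`-rational parameters `τ₀, τ₁ ∈ U` both satisfy a quadratic relation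
`σ² - aᵢ σ + ℓ = 0` on points, then `a₀ ≡ a₁ mod 5`. -/
theorem trace_congr_of_pencil (σ : K →ₐ[k] K) (A B : k[X]) (U : Set K) (hU : U.Infinite)
    (p p' q q' : Sec (A.map (algebraMap k K)) (B.map (algebraMap k K)))
    (hb : Basis5 (A.map (algebraMap k K)) (B.map (algebraMap k K)) U p p' q q')
    (hσU : ∀ τ ∈ U, σ τ ∈ U) (τ₀ τ₁ : k) (h₀ : algebraMap k K τ₀ ∈ U)
    (h₁ : algebraMap k K τ₁ ∈ U) (E₀ E₁ : WeierstrassCurve k)
    (hE₀ : E₀.a₁ = 0 ∧ E₀.a₂ = 0 ∧ E₀.a₃ = 0 ∧ E₀.a₄ = A.eval τ₀ ∧ E₀.a₆ = B.eval τ₀)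
    (hE₁ : E₁.a₁ = 0 ∧ E₁.a₂ = 0 ∧ E₁.a₃ = 0 ∧ E₁.a₄ = A.eval τ₁ ∧ E₁.a₆ = B.eval τ₁)
    (a₀ a₁ ℓ : ℤ)
    (hCH₀ : ∀ P : (E₀.toAffine⁄K).Point,
      Point.map (W' := E₀.toAffine) σ (Point.map (W' := E₀.toAffine) σ P) -
        a₀ • Point.map (W' := E₀.toAffine) σ P + ℓ • P = 0)
    (hCH₁ : ∀ P : (E₁.toAffine⁄K).Point,
      Point.map (W' := E₁.toAffine) σ (Point.map (W' := E₁.toAffine) σ P) -
        a₁ • Point.map (W' := E₁.toAffine) σ P + ℓ • P = 0) :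
    (5 : ℤ) ∣ a₀ - a₁ := by
  have hA : (A.map (algebraMap k K)).map (σ : K →+* K) = A.map (algebraMap k K) := by
    rw [Polynomial.map_map, AlgHom.comp_algebraMap]
  have hB : (B.map (algebraMap k K)).map (σ : K →+* K) = B.map (algebraMap k K) := by
    rw [Polynomial.map_map, AlgHom.comp_algebraMap]
  obtain ⟨m, n, m', n', hconst⟩ := hb.sigma_const (σ : K →+* K) hU hA hB hσU
  obtain ⟨P₀, Q₀, h5P₀, h5Q₀, hind₀, hφ₀, hP₀, hQ₀⟩ :=
    hb.local_matrix (σ : K →+* K) hA hB hconst h₀ (by simp) (E₀.toAffine⁄K)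
      (baseChange_eq_fib E₀ A B τ₀ hE₀) (Point.map (W' := E₀.toAffine) σ)
      (fun x y h h' => rfl)
  obtain ⟨P₁, Q₁, -, -, hind₁, -, hP₁, hQ₁⟩ :=
    hb.local_matrix (σ : K →+* K) hA hB hconst h₁ (by simp) (E₁.toAffine⁄K)
      (baseChange_eq_fib E₁ A B τ₁ hE₁) (Point.map (W' := E₁.toAffine) σ)
      (fun x y h h' => rfl)
  refine dvd_sub_of_CH (Point.map (W' := E₀.toAffine) σ) (Point.map (W' := E₁.toAffine) σ)
    h5P₀ h5Q₀ hind₀ hind₁ (m := (m : ℕ)) (n := (n : ℕ)) (m' := (m' : ℕ)) (n' := (n' : ℕ))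
    ?_ ?_ ?_ ?_ hφ₀ a₀ a₁ ℓ (hCH₀ P₀) (hCH₁ P₁)
  · rw [natCast_zsmul, natCast_zsmul]; exact hP₀
  · rw [natCast_zsmul, natCast_zsmul]; exact hQ₀
  · rw [natCast_zsmul, natCast_zsmul]; exact hP₁
  · rw [natCast_zsmul, natCast_zsmul]; exact hQ₁

end Final

end

end Fermat.Agent.S52.helper4485
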