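import Mathlib

/-!
# Heights of rational functions and the x-level parallelogram law (Manin)

Bricks for the S52 "L1" module (Cayley–Hamilton for Frobenius via Manin's elementary method).

For a rational function `r : RatFunc k` write `ht r = max r.num.natDegree r.denom.natDegree`.
Main results (for `y² = x³ + A x + B` with `4A³+27B² ≠ 0`, `2 ≠ 0`):

* `ht_add_ht_eq` (H2): if `x₁ ≠ x₂`,
  `x₃ + x₄ = 2((x₁x₂+A)(x₁+x₂)+2B)/(x₁-x₂)²`, `x₃ x₄ = ((x₁x₂-A)²-4B(x₁+x₂))/(x₁-x₂)²`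
  then `ht x₃ + ht x₄ = 2 ht x₁ + 2 ht x₂`.
* `ht_dup_eq` (H3): `ht (((x²-A)²-8Bx)/(4(x³+Ax+B))) = 4 ht x`.
-/

namespace Fermat.Agent.S52.helper4643

open Polynomial

section Forms

variable {R : Type*} [CommRing R]

/-- The biquadratic form `(a₁b₂ - a₂b₁)²`. -/
def formD (a₁ b₁ a₂ b₂ : R) : R := (a₁ * b₂ - a₂ * b₁) ^ 2

/-- The biquadratic form giving the sum `x(P+Q) + x(P-Q)` (numerator). -/
def formS (A B a₁ b₁ a₂ b₂ : R) : R :=
  2 * ((a₁ * b₂ + a₂ * b₁) * (a₁ * a₂ + A * (b₁ * b₂))) + 4 * (B * (b₁ * b₂) ^ 2)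

/-- The biquadratic form giving the product `x(P+Q) * x(P-Q)` (numerator). -/
def formR (A B a₁ b₁ a₂ b₂ : R) : R :=
  (a₁ * a₂ - A * (b₁ * b₂)) ^ 2 - 4 * (B * ((b₁ * b₂) * (a₁ * b₂ + a₂ * b₁)))

variable {R' : Type*} [CommRing R'] (φ : R →+* R')

theorem map_formD (a₁ b₁ a₂ b₂ : R) :
    φ (formD a₁ b₁ a₂ b₂) = formD (φ a₁) (φ b₁) (φ a₂) (φ b₂) := by
  simp [formD]

theorem map_formS (A B a₁ b₁ a₂ b₂ : R) :
    φ (formS A B a₁ b₁ a₂ b₂) = formS (φ A) (φ B) (φ a₁) (φ b₁) (φ a₂) (φ b₂) := by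
  simp only [formS, map_add, map_mul, map_pow, map_ofNat]

theorem map_formR (A B a₁ b₁ a₂ b₂ : R) :
    φ (formR A B a₁ b₁ a₂ b₂) = formR (φ A) (φ B) (φ a₁) (φ b₁) (φ a₂) (φ b₂) := by
  simp only [formR, map_sub, map_add, map_mul, map_pow, map_ofNat]

end Forms

section FieldLemma

variable {L : Type*} [Field L]

/-- The three biquadratic forms have no common zero on `ℙ¹ × ℙ¹` when the cubic is separable. -/
theorem forms_no_common_zero {A B a₁ b₁ a₂ b₂ : L} (h2 : (2 : L) ≠ 0)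
    (hΔ : 4 * A ^ 3 + 27 * B ^ 2 ≠ 0) (h₁ : a₁ ≠ 0 ∨ b₁ ≠ 0) (h₂ : a₂ ≠ 0 ∨ b₂ ≠ 0)
    (hD : formD a₁ b₁ a₂ b₂ = 0) (hS : formS A B a₁ b₁ a₂ b₂ = 0)
    (hR : formR A B a₁ b₁ a₂ b₂ = 0) : False := by
  have hD' : a₁ * b₂ = a₂ * b₁ := by
    have := pow_eq_zero_iff (two_ne_zero) |>.mp hD
    exact sub_eq_zero.mp this
  by_cases hb₁ : b₁ = 0
  · have ha₁ : a₁ ≠ 0 := by tauto
    have hb₂ : b₂ = 0 := by
      have : a₁ * b₂ = 0 := by rw [hD', hb₁, mul_zero]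
      exact (mul_eq_zero.mp this).resolve_left ha₁
    have ha₂ : a₂ ≠ 0 := by tauto
    simp only [formR, hb₁, hb₂] at hR
    have : (a₁ * a₂) ^ 2 = 0 := by simpa using hR
    exact (mul_ne_zero ha₁ ha₂) (pow_eq_zero_iff (two_ne_zero) |>.mp this)
  · have hb₂ : b₂ ≠ 0 := by
      intro hb₂
      have : a₂ * b₁ = 0 := by rw [← hD', hb₂, mul_zero]
      have ha₂ : a₂ = 0 := (mul_eq_zero.mp this).resolve_right hb₁
      tauto
    set x := a₁ / b₁ with hx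
    have e₁ : a₁ = x * b₁ := by rw [hx]; field_simp
    have e₂ : a₂ = x * b₂ := by
      rw [hx]; field_simp; linear_combination -hD'
    have hbb : (b₁ * b₂) ^ 2 ≠ 0 := pow_ne_zero _ (mul_ne_zero hb₁ hb₂)
    have hg : x ^ 3 + A * x + B = 0 := by
      have : 4 * (b₁ * b₂) ^ 2 * (x ^ 3 + A * x + B) = 0 := by
        rw [← hS, formS, e₁, e₂]; ring
      have h4 : (4 : L) ≠ 0 := by
        have : (4 : L) = 2 * 2 := by norm_num
        rw [this]; exact mul_ne_zero h2 h2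
      exact (mul_eq_zero.mp this).resolve_left (mul_ne_zero h4 hbb)
    have hN : (x ^ 2 - A) ^ 2 - 8 * B * x = 0 := by
      have : (b₁ * b₂) ^ 2 * ((x ^ 2 - A) ^ 2 - 8 * B * x) = 0 := by
        rw [← hR, formR, e₁, e₂]; ring
      exact (mul_eq_zero.mp this).resolve_left hbb
    have hg' : 3 * x ^ 2 + A = 0 := by
      have : (3 * x ^ 2 + A) ^ 2 = 0 := by linear_combination hN + 8 * x * hg
      exact pow_eq_zero_iff (two_ne_zero) |>.mp this
    apply hΔ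
    have hA : A = -3 * x ^ 2 := by linear_combination hg'
    have hB : B = 2 * x ^ 3 := by linear_combination hg - x * hg'
    rw [hA, hB]; ring

end FieldLemma

section Primitive

variable {k : Type*} [Field k]

/-- A triple of polynomials with no common irreducible factor. -/
def Prim3 (a₀ a₁ a₂ : k[X]) : Prop :=
  ∀ π : k[X], Irreducible π → ¬ (π ∣ a₀ ∧ π ∣ a₁ ∧ π ∣ a₂)

theorem Prim3.bezout {a₀ a₁ a₂ : k[X]} (h : Prim3 a₀ a₁ a₂) :
    ∃ l₀ l₁ l₂ : k[X], l₀ * a₀ + l₁ * a₁ + l₂ * a₂ = 1 := by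
  have htop : Ideal.span ({a₀, a₁, a₂} : Set k[X]) = ⊤ := by
    by_contra hne
    obtain ⟨M, hM, hle⟩ := Ideal.exists_le_maximal _ hne
    have hMbot : M ≠ ⊥ := Ring.ne_bot_of_isMaximal_of_not_isField hM (Polynomial.not_isField k)
    obtain ⟨π, rfl⟩ := (IsPrincipalIdealRing.principal M).principal
    have hπ0 : π ≠ 0 := fun h0 => hMbot (by simp [h0])
    have hπ : Irreducible π :=
      ((Ideal.span_singleton_prime hπ0).mp hM.isPrime).irreducible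
    have hmem : ∀ a ∈ ({a₀, a₁, a₂} : Set k[X]), π ∣ a := fun a ha =>
      Ideal.mem_span_singleton.mp (hle (Ideal.subset_span ha))
    exact h π hπ ⟨hmem a₀ (by simp), hmem a₁ (by simp), hmem a₂ (by simp)⟩
  have h1 : (1 : k[X]) ∈ Ideal.span ({a₀, a₁, a₂} : Set k[X]) := by rw [htop]; trivial
  rw [Ideal.mem_span_insert] at h1
  obtain ⟨l₀, z, hz, h1⟩ := h1
  rw [Ideal.mem_span_pair] at hz
  obtain ⟨l₁, l₂, rfl⟩ := hz
  exact ⟨l₀, l₁, l₂, by rw [h1]; ring⟩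

/-- Two proportional primitive triples differ by a nonzero constant. -/
theorem Prim3.exists_const {a₀ a₁ a₂ b₀ b₁ b₂ : k[X]} (ha : Prim3 a₀ a₁ a₂) (hb : Prim3 b₀ b₁ b₂)
    (h₀₁ : a₀ * b₁ = a₁ * b₀) (h₀₂ : a₀ * b₂ = a₂ * b₀) (h₁₂ : a₁ * b₂ = a₂ * b₁) :
    ∃ c : k, c ≠ 0 ∧ b₀ = C c * a₀ ∧ b₁ = C c * a₁ ∧ b₂ = C c * a₂ := by
  obtain ⟨l₀, l₁, l₂, hl⟩ := ha.bezout
  obtain ⟨m₀, m₁, m₂, hm⟩ := hb.bezout
  set c := l₀ * b₀ + l₁ * b₁ + l₂ * b₂ with hc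
  set c' := m₀ * a₀ + m₁ * a₁ + m₂ * a₂ with hc'
  have e₀ : b₀ = c * a₀ := by
    linear_combination (-b₀) * hl - l₁ * h₀₁ - l₂ * h₀₂
  have e₁ : b₁ = c * a₁ := by
    linear_combination (-b₁) * hl + l₀ * h₀₁ - l₂ * h₁₂
  have e₂ : b₂ = c * a₂ := by
    linear_combination (-b₂) * hl + l₀ * h₀₂ + l₁ * h₁₂
  have hcc : c' * c = 1 := by
    rw [← hm, e₀, e₁, e₂, hc']; ring
  have hu : IsUnit c := IsUnit.of_mul_eq_one_right c' hcc
  obtain ⟨u, hu0, hu⟩ := Polynomial.isUnit_iff.mp hu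
  exact ⟨u, hu0.ne_zero, by rw [hu]; exact e₀, by rw [hu]; exact e₁, by rw [hu]; exact e₂⟩

/-- Two proportional primitive triples have the same maximal degree. -/
theorem Prim3.max_natDegree_eq {a₀ a₁ a₂ b₀ b₁ b₂ : k[X]} (ha : Prim3 a₀ a₁ a₂)
    (hb : Prim3 b₀ b₁ b₂)
    (h₀₁ : a₀ * b₁ = a₁ * b₀) (h₀₂ : a₀ * b₂ = a₂ * b₀) (h₁₂ : a₁ * b₂ = a₂ * b₁) :
    max a₀.natDegree (max a₁.natDegree a₂.natDegree) =
      max b₀.natDegree (max b₁.natDegree b₂.natDegree) := by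
  obtain ⟨c, hc, rfl, rfl, rfl⟩ := ha.exists_const hb h₀₁ h₀₂ h₁₂
  simp [natDegree_C_mul hc]

end Primitive

section Finite

variable {k : Type*} [Field k]

/-- Finite places: the homogenised forms of coprime pairs have no common irreducible factor. -/
theorem prim3_forms {A B : k} (h2 : (2 : k) ≠ 0) (hΔ : 4 * A ^ 3 + 27 * B ^ 2 ≠ 0)
    {p₁ q₁ p₂ q₂ : k[X]} (h₁ : IsCoprime p₁ q₁) (h₂ : IsCoprime p₂ q₂) :
    Prim3 (formD p₁ q₁ p₂ q₂) (formS (C A) (C B) p₁ q₁ p₂ q₂)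
      (formR (C A) (C B) p₁ q₁ p₂ q₂) := by
  rintro π hπ ⟨hD, hS, hR⟩
  have : (Ideal.span {π} : Ideal k[X]).IsMaximal :=
    PrincipalIdealRing.isMaximal_of_irreducible hπ
  let _ : Field (k[X] ⧸ Ideal.span {π}) := Ideal.Quotient.field _
  let φ : k[X] →+* (k[X] ⧸ Ideal.span {π}) := Ideal.Quotient.mk _
  have hφ : ∀ a : k[X], π ∣ a → φ a = 0 := fun a h =>
    Ideal.Quotient.eq_zero_iff_mem.mpr (Ideal.mem_span_singleton.mpr h)
  have hne : ∀ {p q : k[X]}, IsCoprime p q → φ p ≠ 0 ∨ φ q ≠ 0 := by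
    rintro p q ⟨u, v, huv⟩
    by_contra hcon
    rw [not_or, not_not, not_not] at hcon
    have : φ (u * p + v * q) = 1 := by rw [huv, map_one]
    rw [map_add, map_mul, map_mul, hcon.1, hcon.2] at this
    simp at this
  have hinj : Function.Injective (φ.comp C) := (φ.comp (C : k →+* k[X])).injective
  have h2' : (2 : k[X] ⧸ Ideal.span {π}) ≠ 0 := by
    rw [← map_ofNat (φ.comp C) 2]
    exact (map_ne_zero_iff _ hinj).mpr h2
  have hΔ' : 4 * (φ (C A)) ^ 3 + 27 * (φ (C B)) ^ 2 ≠ 0 := by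
    have e : (φ.comp C) (4 * A ^ 3 + 27 * B ^ 2) = 4 * (φ (C A)) ^ 3 + 27 * (φ (C B)) ^ 2 := by
      simp only [map_add, map_mul, map_pow, map_ofNat, RingHom.comp_apply]
    rw [← e]
    exact (map_ne_zero_iff _ hinj).mpr hΔ
  refine forms_no_common_zero h2' hΔ' (hne h₁) (hne h₂) ?_ ?_ ?_
  · rw [← map_formD]; exact hφ _ hD
  · rw [← map_formS]; exact hφ _ hS
  · rw [← map_formR]; exact hφ _ hR

end Finite

section Infinite

variable {k : Type*} [Field k]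

/-- `Top P n c`: `P` has degree at most `n` and its coefficient at `n` is `c`. -/
def Top (P : k[X]) (n : ℕ) (c : k) : Prop := P.natDegree ≤ n ∧ P.coeff n = c

variable {P Q : k[X]} {n m : ℕ} {c c' : k}

theorem Top.mul (hP : Top P n c) (hQ : Top Q m c') : Top (P * Q) (n + m) (c * c') :=
  ⟨natDegree_mul_le_of_le hP.1 hQ.1, by
    rw [coeff_mul_add_eq_of_natDegree_le hP.1 hQ.1, hP.2, hQ.2]⟩

theorem Top.add (hP : Top P n c) (hQ : Top Q n c') : Top (P + Q) n (c + c') :=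
  ⟨natDegree_add_le_of_degree_le hP.1 hQ.1, by rw [coeff_add, hP.2, hQ.2]⟩

theorem Top.sub (hP : Top P n c) (hQ : Top Q n c') : Top (P - Q) n (c - c') :=
  ⟨(natDegree_sub_le_of_le hP.1 hQ.1).trans (by simp), by rw [coeff_sub, hP.2, hQ.2]⟩

theorem Top.C_mul (a : k) (hP : Top P n c) : Top (C a * P) n (a * c) :=
  ⟨(natDegree_C_mul_le a P).trans hP.1, by rw [coeff_C_mul, hP.2]⟩

theorem Top.two_mul (hP : Top P n c) : Top (2 * P) n (2 * c) := by
  have h : (2 : k[X]) = C 2 := (C_ofNat 2).symm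
  rw [h]; exact hP.C_mul 2

theorem Top.four_mul (hP : Top P n c) : Top (4 * P) n (4 * c) := by
  have h : (4 : k[X]) = C 4 := (C_ofNat 4).symm
  rw [h]; exact hP.C_mul 4

theorem Top.sq (hP : Top P n c) : Top (P ^ 2) (n + n) (c ^ 2) := by
  rw [pow_two, pow_two]; exact hP.mul hP

theorem top_forms {A B : k} {p₁ q₁ p₂ q₂ : k[X]} {d₁ d₂ : ℕ} {a₁ b₁ a₂ b₂ : k}
    (hp₁ : Top p₁ d₁ a₁) (hq₁ : Top q₁ d₁ b₁) (hp₂ : Top p₂ d₂ a₂) (hq₂ : Top q₂ d₂ b₂) :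
    Top (formD p₁ q₁ p₂ q₂) ((d₁ + d₂) + (d₁ + d₂)) (formD a₁ b₁ a₂ b₂) ∧
    Top (formS (C A) (C B) p₁ q₁ p₂ q₂) ((d₁ + d₂) + (d₁ + d₂)) (formS A B a₁ b₁ a₂ b₂) ∧
    Top (formR (C A) (C B) p₁ q₁ p₂ q₂) ((d₁ + d₂) + (d₁ + d₂)) (formR A B a₁ b₁ a₂ b₂) := by
  have hU : Top (p₁ * q₂) (d₁ + d₂) (a₁ * b₂) := hp₁.mul hq₂
  have hV : Top (p₂ * q₁) (d₁ + d₂) (a₂ * b₁) := by
    rw [add_comm]; exact hp₂.mul hq₁
  have hW : Top (p₁ * p₂) (d₁ + d₂) (a₁ * a₂) := hp₁.mul hp₂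
  have hZ : Top (q₁ * q₂) (d₁ + d₂) (b₁ * b₂) := hq₁.mul hq₂
  refine ⟨(hU.sub hV).sq, ?_, ?_⟩
  · exact (((hU.add hV).mul (hW.add (hZ.C_mul A))).two_mul).add ((hZ.sq.C_mul B).four_mul)
  · exact ((hW.sub (hZ.C_mul A)).sq).sub (((hZ.mul (hU.add hV)).C_mul B).four_mul)

theorem coeff_max_ne_zero {p q : k[X]} (h : p ≠ 0 ∨ q ≠ 0) :
    p.coeff (max p.natDegree q.natDegree) ≠ 0 ∨ q.coeff (max p.natDegree q.natDegree) ≠ 0 := by
  rcases le_total p.natDegree q.natDegree with hle | hle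
  · by_cases hq : q = 0
    · have hp : p ≠ 0 := by tauto
      have hd : p.natDegree = 0 := by
        have : q.natDegree = 0 := by rw [hq]; simp
        omega
      left
      rw [max_eq_left (by rw [hq]; simp), coeff_natDegree]
      exact leadingCoeff_ne_zero.mpr hp
    · right
      rw [max_eq_right hle, coeff_natDegree]
      exact leadingCoeff_ne_zero.mpr hq
  · by_cases hp : p = 0
    · have hq : q ≠ 0 := by tauto
      right
      rw [max_eq_right (by rw [hp]; simp), coeff_natDegree]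
      exact leadingCoeff_ne_zero.mpr hq
    · left
      rw [max_eq_left hle, coeff_natDegree]
      exact leadingCoeff_ne_zero.mpr hp

/-- The place at infinity: the maximal degree of the three homogenised forms is exactly
`2 d₁ + 2 d₂`. -/
theorem max_natDegree_forms {A B : k} (h2 : (2 : k) ≠ 0) (hΔ : 4 * A ^ 3 + 27 * B ^ 2 ≠ 0)
    {p₁ q₁ p₂ q₂ : k[X]} (h₁ : p₁ ≠ 0 ∨ q₁ ≠ 0) (h₂ : p₂ ≠ 0 ∨ q₂ ≠ 0) :
    max (formD p₁ q₁ p₂ q₂).natDegree
        (max (formS (C A) (C B) p₁ q₁ p₂ q₂).natDegree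
          (formR (C A) (C B) p₁ q₁ p₂ q₂).natDegree) =
      2 * max p₁.natDegree q₁.natDegree + 2 * max p₂.natDegree q₂.natDegree := by
  set d₁ := max p₁.natDegree q₁.natDegree with hd₁
  set d₂ := max p₂.natDegree q₂.natDegree with hd₂
  have hp₁ : Top p₁ d₁ (p₁.coeff d₁) := ⟨le_max_left _ _, rfl⟩
  have hq₁ : Top q₁ d₁ (q₁.coeff d₁) := ⟨le_max_right _ _, rfl⟩
  have hp₂ : Top p₂ d₂ (p₂.coeff d₂) := ⟨le_max_left _ _, rfl⟩
  have hq₂ : Top q₂ d₂ (q₂.coeff d₂) := ⟨le_max_right _ _, rfl⟩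
  obtain ⟨hD, hS, hR⟩ := top_forms (A := A) (B := B) hp₁ hq₁ hp₂ hq₂
  have hN : (d₁ + d₂) + (d₁ + d₂) = 2 * d₁ + 2 * d₂ := by ring
  rw [hN] at hD hS hR
  apply le_antisymm
  · exact max_le hD.1 (max_le hS.1 hR.1)
  · by_contra hlt
    rw [not_le] at hlt
    have hD0 : formD (p₁.coeff d₁) (q₁.coeff d₁) (p₂.coeff d₂) (q₂.coeff d₂) = 0 := by
      rw [← hD.2]
      exact coeff_eq_zero_of_natDegree_lt (lt_of_le_of_lt (le_max_left _ _) hlt)
    have hS0 : formS A B (p₁.coeff d₁) (q₁.coeff d₁) (p₂.coeff d₂) (q₂.coeff d₂) = 0 := by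
      rw [← hS.2]
      exact coeff_eq_zero_of_natDegree_lt
        (lt_of_le_of_lt ((le_max_left _ _).trans (le_max_right _ _)) hlt)
    have hR0 : formR A B (p₁.coeff d₁) (q₁.coeff d₁) (p₂.coeff d₂) (q₂.coeff d₂) = 0 := by
      rw [← hR.2]
      exact coeff_eq_zero_of_natDegree_lt
        (lt_of_le_of_lt ((le_max_right _ _).trans (le_max_right _ _)) hlt)
    exact forms_no_common_zero h2 hΔ (coeff_max_ne_zero h₁) (coeff_max_ne_zero h₂) hD0 hS0 hR0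

end Infinite

section Gauss

variable {k : Type*} [Field k]

/-- Gauss' lemma for a pair of fractions, finite places. -/
theorem prim3_pair {u₁ u₂ v₁ v₂ : k[X]} (hu : IsCoprime u₁ u₂) (hv : IsCoprime v₁ v₂) :
    Prim3 (u₂ * v₂) (u₁ * v₂ + u₂ * v₁) (u₁ * v₁) := by
  rintro π hπ ⟨h0, h1, h2⟩
  have hp : Prime π := hπ.prime
  have hnu : ¬ (π ∣ u₁ ∧ π ∣ u₂) := fun ⟨a, b⟩ => hπ.not_isUnit (hu.isUnit_of_dvd' a b)
  have hnv : ¬ (π ∣ v₁ ∧ π ∣ v₂) := fun ⟨a, b⟩ => hπ.not_isUnit (hv.isUnit_of_dvd' a b)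
  rcases hp.dvd_or_dvd h0 with hu₂ | hv₂
  · have hu₁ : ¬ π ∣ u₁ := fun h => hnu ⟨h, hu₂⟩
    have hv₁ : π ∣ v₁ := (hp.dvd_or_dvd h2).resolve_left hu₁
    have h3 : π ∣ u₁ * v₂ := by
      have := dvd_sub h1 (dvd_mul_of_dvd_left hu₂ v₁)
      simpa using this
    exact hnv ⟨hv₁, (hp.dvd_or_dvd h3).resolve_left hu₁⟩
  · have hv₁ : ¬ π ∣ v₁ := fun h => hnv ⟨h, hv₂⟩
    have hu₁ : π ∣ u₁ := (hp.dvd_or_dvd h2).resolve_right hv₁
    have h3 : π ∣ u₂ * v₁ := by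
      have := dvd_sub h1 (dvd_mul_of_dvd_right hv₂ u₁)
      simpa using this
    exact hnu ⟨hu₁, (hp.dvd_or_dvd h3).resolve_right hv₁⟩

/-- Gauss' lemma for a pair of fractions, the place at infinity. -/
theorem max_natDegree_pair {u₁ u₂ v₁ v₂ : k[X]} (hu : u₁ ≠ 0 ∨ u₂ ≠ 0) (hv : v₁ ≠ 0 ∨ v₂ ≠ 0) :
    max (u₂ * v₂).natDegree (max (u₁ * v₂ + u₂ * v₁).natDegree (u₁ * v₁).natDegree) =
      max u₁.natDegree u₂.natDegree + max v₁.natDegree v₂.natDegree := by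
  set e := max u₁.natDegree u₂.natDegree with he
  set f := max v₁.natDegree v₂.natDegree with hf
  have hu₁ : Top u₁ e (u₁.coeff e) := ⟨le_max_left _ _, rfl⟩
  have hu₂ : Top u₂ e (u₂.coeff e) := ⟨le_max_right _ _, rfl⟩
  have hv₁ : Top v₁ f (v₁.coeff f) := ⟨le_max_left _ _, rfl⟩
  have hv₂ : Top v₂ f (v₂.coeff f) := ⟨le_max_right _ _, rfl⟩
  have h0 := hu₂.mul hv₂
  have h1 := (hu₁.mul hv₂).add (hu₂.mul hv₁)
  have h2 := hu₁.mul hv₁
  apply le_antisymm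
  · exact max_le h0.1 (max_le h1.1 h2.1)
  · by_contra hlt
    rw [not_le] at hlt
    have e0 : u₂.coeff e * v₂.coeff f = 0 := by
      rw [← h0.2]
      exact coeff_eq_zero_of_natDegree_lt (lt_of_le_of_lt (le_max_left _ _) hlt)
    have e1 : u₁.coeff e * v₂.coeff f + u₂.coeff e * v₁.coeff f = 0 := by
      rw [← h1.2]
      exact coeff_eq_zero_of_natDegree_lt
        (lt_of_le_of_lt ((le_max_left _ _).trans (le_max_right _ _)) hlt)
    have e2 : u₁.coeff e * v₁.coeff f = 0 := by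
      rw [← h2.2]
      exact coeff_eq_zero_of_natDegree_lt
        (lt_of_le_of_lt ((le_max_right _ _).trans (le_max_right _ _)) hlt)
    have hu' := coeff_max_ne_zero hu
    have hv' := coeff_max_ne_zero hv
    rw [← he] at hu'
    rw [← hf] at hv'
    by_cases hb : u₂.coeff e = 0
    · have ha : u₁.coeff e ≠ 0 := by tauto
      have ha' : v₁.coeff f = 0 := (mul_eq_zero.mp e2).resolve_left ha
      have hb' : v₂.coeff f ≠ 0 := by tauto
      rw [hb, zero_mul, add_zero] at e1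
      exact (mul_ne_zero ha hb') e1
    · have hb' : v₂.coeff f = 0 := (mul_eq_zero.mp e0).resolve_left hb
      have ha' : v₁.coeff f ≠ 0 := by tauto
      rw [hb', mul_zero, zero_add] at e1
      exact (mul_ne_zero hb ha') e1

end Gauss

section Height

variable {k : Type*} [Field k]

/-- The height (degree) of a rational function: the maximum of the degrees of numerator and
denominator. -/
noncomputable def ht (r : RatFunc k) : ℕ := max r.num.natDegree r.denom.natDegree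

theorem ht_def (r : RatFunc k) : ht r = max r.num.natDegree r.denom.natDegree := rfl

private theorem eq_mul_denom (x : RatFunc k) :
    algebraMap k[X] (RatFunc k) x.num = x * algebraMap k[X] (RatFunc k) x.denom := by
  have h := RatFunc.num_div_denom x
  have hd : algebraMap k[X] (RatFunc k) x.denom ≠ 0 := RatFunc.algebraMap_ne_zero x.denom_ne_zero
  rw [div_eq_iff hd] at h
  exact h

/-- **x-level parallelogram law** (H2). -/
theorem ht_add_ht_eq {A B : k} (h2 : (2 : k) ≠ 0) (hΔ : 4 * A ^ 3 + 27 * B ^ 2 ≠ 0)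
    {x₁ x₂ x₃ x₄ : RatFunc k} (hne : x₁ ≠ x₂)
    (hsum : x₃ + x₄ =
      2 * ((x₁ * x₂ + RatFunc.C A) * (x₁ + x₂) + 2 * RatFunc.C B) / (x₁ - x₂) ^ 2)
    (hprod : x₃ * x₄ =
      ((x₁ * x₂ - RatFunc.C A) ^ 2 - 4 * RatFunc.C B * (x₁ + x₂)) / (x₁ - x₂) ^ 2) :
    ht x₃ + ht x₄ = 2 * ht x₁ + 2 * ht x₂ := by
  set α := algebraMap k[X] (RatFunc k) with hα
  have hαinj : Function.Injective α := RatFunc.algebraMap_injective k
  have hdx : (x₁ - x₂) ^ 2 ≠ 0 := pow_ne_zero _ (sub_ne_zero.mpr hne)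
  have hq₁ : α x₁.denom ≠ 0 := RatFunc.algebraMap_ne_zero x₁.denom_ne_zero
  have hq₂ : α x₂.denom ≠ 0 := RatFunc.algebraMap_ne_zero x₂.denom_ne_zero
  have hu₂ : α x₃.denom ≠ 0 := RatFunc.algebraMap_ne_zero x₃.denom_ne_zero
  have hv₂ : α x₄.denom ≠ 0 := RatFunc.algebraMap_ne_zero x₄.denom_ne_zero
  have e₁ := eq_mul_denom x₁
  have e₂ := eq_mul_denom x₂
  have e₃ := eq_mul_denom x₃
  have e₄ := eq_mul_denom x₄
  rw [← hα] at e₁ e₂ e₃ e₄
  have hsum' : (x₃ + x₄) * (x₁ - x₂) ^ 2 =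
      2 * ((x₁ * x₂ + RatFunc.C A) * (x₁ + x₂) + 2 * RatFunc.C B) := by
    rw [hsum, div_mul_cancel₀ _ hdx]
  have hprod' : (x₃ * x₄) * (x₁ - x₂) ^ 2 =
      (x₁ * x₂ - RatFunc.C A) ^ 2 - 4 * RatFunc.C B * (x₁ + x₂) := by
    rw [hprod, div_mul_cancel₀ _ hdx]
  set Q := (α x₁.denom * α x₂.denom) ^ 2 with hQ
  -- the triple `a`
  have ha₀ : α (formD x₁.num x₁.denom x₂.num x₂.denom) = (x₁ - x₂) ^ 2 * Q := by
    rw [map_formD, e₁, e₂, hQ, formD]; ring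
  have ha₁ : α (formS (C A) (C B) x₁.num x₁.denom x₂.num x₂.denom) =
      (x₃ + x₄) * ((x₁ - x₂) ^ 2 * Q) := by
    rw [map_formS, e₁, e₂, hα, RatFunc.algebraMap_C, RatFunc.algebraMap_C, ← hα, hQ, formS]
    linear_combination (-(α x₁.denom * α x₂.denom) ^ 2) * hsum'
  have ha₂ : α (formR (C A) (C B) x₁.num x₁.denom x₂.num x₂.denom) =
      (x₃ * x₄) * ((x₁ - x₂) ^ 2 * Q) := by
    rw [map_formR, e₁, e₂, hα, RatFunc.algebraMap_C, RatFunc.algebraMap_C, ← hα, hQ, formR]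
    linear_combination (-(α x₁.denom * α x₂.denom) ^ 2) * hprod'
  -- the triple `b`
  have hb₀ : α (x₃.denom * x₄.denom) = α x₃.denom * α x₄.denom := map_mul _ _ _
  have hb₁ : α (x₃.num * x₄.denom + x₃.denom * x₄.num) =
      (x₃ + x₄) * (α x₃.denom * α x₄.denom) := by
    rw [map_add, map_mul, map_mul, e₃, e₄]; ring
  have hb₂ : α (x₃.num * x₄.num) = (x₃ * x₄) * (α x₃.denom * α x₄.denom) := by
    rw [map_mul, e₃, e₄]; ring
  have hPa := prim3_forms h2 hΔ (RatFunc.isCoprime_num_denom x₁) (RatFunc.isCoprime_num_denom x₂)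
  have hPb := prim3_pair (RatFunc.isCoprime_num_denom x₃) (RatFunc.isCoprime_num_denom x₄)
  have mk : ∀ a b c d : k[X], α a * α b = α c * α d → a * b = c * d := fun a b c d h =>
    hαinj (by rw [map_mul, map_mul]; exact h)
  have key := hPa.max_natDegree_eq hPb
    (mk _ _ _ _ (by rw [ha₀, ha₁, hb₀, hb₁]; ring))
    (mk _ _ _ _ (by rw [ha₀, ha₂, hb₀, hb₂]; ring))
    (mk _ _ _ _ (by rw [ha₁, ha₂, hb₁, hb₂]; ring))
  rw [max_natDegree_forms h2 hΔ (Or.inr x₁.denom_ne_zero) (Or.inr x₂.denom_ne_zero),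
    max_natDegree_pair (Or.inr x₃.denom_ne_zero) (Or.inr x₄.denom_ne_zero)] at key
  exact key.symm

/-- **Duplication** (H3). -/
theorem ht_dup_eq {A B : k} (h2 : (2 : k) ≠ 0) (hΔ : 4 * A ^ 3 + 27 * B ^ 2 ≠ 0)
    {x : RatFunc k} (hx : x ^ 3 + RatFunc.C A * x + RatFunc.C B ≠ 0) :
    ht (((x ^ 2 - RatFunc.C A) ^ 2 - 8 * RatFunc.C B * x) /
      (4 * (x ^ 3 + RatFunc.C A * x + RatFunc.C B))) = 4 * ht x := by
  set r := ((x ^ 2 - RatFunc.C A) ^ 2 - 8 * RatFunc.C B * x) /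
      (4 * (x ^ 3 + RatFunc.C A * x + RatFunc.C B)) with hr
  set α := algebraMap k[X] (RatFunc k) with hα
  have hαinj : Function.Injective α := RatFunc.algebraMap_injective k
  have hq : α x.denom ≠ 0 := RatFunc.algebraMap_ne_zero x.denom_ne_zero
  have h4 : (4 : RatFunc k) ≠ 0 := by
    have h4k : (4 : k) ≠ 0 := by
      have : (4 : k) = 2 * 2 := by norm_num
      rw [this]; exact mul_ne_zero h2 h2
    have h : RatFunc.C (4 : k) ≠ 0 := (_root_.map_ne_zero _).mpr h4k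
    rwa [map_ofNat] at h
  have e := eq_mul_denom x
  rw [← hα] at e
  have ha₀ : formD x.num x.denom x.num x.denom = 0 := by simp [formD]
  have ha₁ : α (formS (C A) (C B) x.num x.denom x.num x.denom) =
      (4 * (x ^ 3 + RatFunc.C A * x + RatFunc.C B)) * (α x.denom) ^ 4 := by
    rw [map_formS, e, hα, RatFunc.algebraMap_C, RatFunc.algebraMap_C, ← hα, formS]; ring
  have ha₂ : α (formR (C A) (C B) x.num x.denom x.num x.denom) =
      ((x ^ 2 - RatFunc.C A) ^ 2 - 8 * RatFunc.C B * x) * (α x.denom) ^ 4 := by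
    rw [map_formR, e, hα, RatFunc.algebraMap_C, RatFunc.algebraMap_C, ← hα, formR]; ring
  have hS0 : formS (C A) (C B) x.num x.denom x.num x.denom ≠ 0 := by
    intro h0
    rw [h0, map_zero] at ha₁
    exact (mul_ne_zero (mul_ne_zero h4 hx) (pow_ne_zero _ hq)) ha₁.symm
  have hrel : r.num * formS (C A) (C B) x.num x.denom x.num x.denom =
      formR (C A) (C B) x.num x.denom x.num x.denom * r.denom := by
    rw [RatFunc.num_mul_eq_mul_denom_iff hS0, ← hα, ha₁, ha₂, hr,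
      mul_div_mul_right _ _ (pow_ne_zero _ hq)]
  have hPa := prim3_forms h2 hΔ (RatFunc.isCoprime_num_denom x) (RatFunc.isCoprime_num_denom x)
  have hPb : Prim3 (0 : k[X]) r.denom r.num := by
    rintro π hπ ⟨-, hd, hn⟩
    exact hπ.not_isUnit ((RatFunc.isCoprime_num_denom r).isUnit_of_dvd' hn hd)
  have key := hPa.max_natDegree_eq hPb (by rw [ha₀]; ring) (by rw [ha₀]; ring)
    (by rw [mul_comm, hrel])
  rw [max_natDegree_forms h2 hΔ (Or.inr x.denom_ne_zero) (Or.inr x.denom_ne_zero)] at key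
  rw [ht_def, ht_def, max_comm r.num.natDegree]
  simp only [natDegree_zero, zero_le, max_eq_right] at key
  omega

end Height

end Fermat.Agent.S52.helper4643
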