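/-
S52 (3-5 switch), leaf S52-ROOT (backup copy, uncorrelated proof, weaker hypotheses).

Output: a root `θ` of the pencil's `T`-polynomial together with a Galois automorphism `σ` of
`Qbar` that fixes `θ` and moves `√3`.  This is exactly the hypothesis of the auxiliary-prime
lemma (weak Chebotarev adapter).

Input: only the TORSOR relation for ONE automorphism `σ0` fixing the 20th roots of unity:
`σ0 A = γ A`, `σ0 B = γ B` for a linear `γ` commuting with the coordinatewise action of `σ0`,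
preserving `T`, whose determinant multiplier is a root of unity of odd order.
No hypothesis on the order of `γ` is needed: over an algebraic extension it is automatic.
-/
import Mathlib

set_option autoImplicit false

namespace Fermat.Agent.S52.helper6799

open Polynomial

/-! ## The determinant pairing on `K × K` -/

section Pairing

variable {K : Type*} [Field K]

/-- The `2 × 2` determinant pairing on `K × K`. -/
def dt (x y : K × K) : K := x.1 * y.2 - x.2 * y.1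

lemma dt_add_left (x y z : K × K) : dt (x + y) z = dt x z + dt y z := by
  simp only [dt, Prod.fst_add, Prod.snd_add]; ring

lemma dt_smul_left (c : K) (x y : K × K) : dt (c • x) y = c * dt x y := by
  simp only [dt, Prod.smul_fst, Prod.smul_snd, smul_eq_mul]; ring

lemma dt_smul_right (c : K) (x y : K × K) : dt x (c • y) = c * dt x y := by
  simp only [dt, Prod.smul_fst, Prod.smul_snd, smul_eq_mul]; ring

lemma dt_neg_right (x y : K × K) : dt x (-y) = -dt x y := by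
  simp only [dt, Prod.fst_neg, Prod.snd_neg]; ring

lemma dt_zero_left (y : K × K) : dt 0 y = 0 := by
  simp only [dt, Prod.fst_zero, Prod.snd_zero]; ring

lemma dt_e1_e2 : dt ((1, 0) : K × K) (0, 1) = 1 := by
  simp only [dt]; ring

/-- If `dt e y = 0` for all `y` then `e = 0`. -/
lemma eq_zero_of_dt_eq_zero {e : K × K} (h : ∀ y, dt e y = 0) : e = 0 := by
  have h1 := h (0, 1)
  have h2 := h (1, 0)
  simp only [dt, mul_one, mul_zero, sub_zero, zero_sub, neg_eq_zero] at h1 h2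
  exact Prod.ext h1 h2

/-- Vanishing of the pairing against a nonzero vector means proportionality. -/
lemma exists_smul_of_dt_eq_zero {x e : K × K} (he : e ≠ 0) (h : dt x e = 0) :
    ∃ μ : K, x = μ • e := by
  simp only [dt] at h
  by_cases h1 : e.1 = 0
  · have h2 : e.2 ≠ 0 := fun h2 => he (Prod.ext h1 h2)
    have hx1 : x.1 = 0 := by
      rw [h1, mul_zero, sub_zero] at h
      exact (mul_eq_zero.mp h).resolve_right h2
    refine ⟨x.2 / e.2, Prod.ext ?_ ?_⟩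
    · simp only [Prod.smul_fst, smul_eq_mul, h1, mul_zero, hx1]
    · simp only [Prod.smul_snd, smul_eq_mul, div_mul_cancel₀ _ h2]
  · refine ⟨x.1 / e.1, Prod.ext ?_ ?_⟩
    · simp only [Prod.smul_fst, smul_eq_mul, div_mul_cancel₀ _ h1]
    · simp only [Prod.smul_snd, smul_eq_mul]
      field_simp
      linear_combination -h

/-- Cramer: every vector is a combination of `A`, `B` when `dt A B ≠ 0`. -/
lemma eq_combination {A B : K × K} (hAB : dt A B ≠ 0) (x : K × K) :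
    x = (dt x B / dt A B) • A + (dt A x / dt A B) • B := by
  refine Prod.ext ?_ ?_
  · simp only [Prod.fst_add, Prod.smul_fst, smul_eq_mul]
    rw [div_mul_eq_mul_div, div_mul_eq_mul_div, ← add_div, eq_div_iff hAB]
    simp only [dt]
    ring
  · simp only [Prod.snd_add, Prod.smul_snd, smul_eq_mul]
    rw [div_mul_eq_mul_div, div_mul_eq_mul_div, ← add_div, eq_div_iff hAB]
    simp only [dt]
    ring

end Pairing

/-! ## The core: an element of 2-power order -/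

section Core

variable {K : Type*} [Field K]

/-- Given a nonzero zero `e` of `T` which is an eigenvector of `δ` and of the coordinatewise
action of `σ`, and is not parallel to `B`: the parameter `θ` with `A + θ B ∈ K e` is a root fixed
by `σ`. -/
lemma core_of_eigen {σ : K →+* K} {δ : Module.End K (K × K)}
    (hδdt : ∀ x y, dt (δ x) (δ y) = dt x y)
    {T : K × K → K} (hT : ∀ (c : K) (x : K × K), T (c • x) = c ^ 30 * T x)
    {A B e : K × K} (hA : Prod.map σ σ A = δ A) (hB : Prod.map σ σ B = δ B)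
    (he : e ≠ 0) (hTe : T e = 0) {c c' : K} (hδe : δ e = c • e)
    (hσe : Prod.map σ σ e = c' • e) (hBe : dt B e ≠ 0) :
    ∃ θ : K, T (A + θ • B) = 0 ∧ σ θ = θ := by
  have hc : c ≠ 0 := by
    rintro rfl
    rw [zero_smul] at hδe
    exact he (eq_zero_of_dt_eq_zero fun y => by rw [← hδdt e y, hδe, dt_zero_left])
  have hσdt : ∀ x y : K × K, σ (dt x y) = dt (Prod.map σ σ x) (Prod.map σ σ y) := by
    intro x y
    simp only [dt, map_sub, map_mul, Prod.map_fst, Prod.map_snd]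
  have key : ∀ x : K × K, Prod.map σ σ x = δ x → c * σ (dt x e) = c' * dt x e := by
    intro x hx
    rw [hσdt, hx, hσe, dt_smul_right]
    have h1 : c * dt (δ x) e = dt x e := by rw [← dt_smul_right, ← hδe, hδdt]
    linear_combination c' * h1
  refine ⟨-dt A e / dt B e, ?_, ?_⟩
  · have h0 : dt (A + (-dt A e / dt B e) • B) e = 0 := by
      rw [dt_add_left, dt_smul_left]
      field_simp
      ring
    obtain ⟨μ, hμ⟩ := exists_smul_of_dt_eq_zero he h0
    rw [hμ, hT, hTe, mul_zero]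
  · have hA' := key A hA
    have hB' := key B hB
    have hσB : σ (dt B e) ≠ 0 := (map_ne_zero σ).mpr hBe
    rw [map_div₀, map_neg, div_eq_div_iff hσB hBe]
    have h3 : c * (-σ (dt A e) * dt B e) = c * (-dt A e * σ (dt B e)) := by
      linear_combination (-dt B e) * hA' + (dt A e) * hB'
    exact mul_left_cancel₀ hc h3

/-- An involution of determinant one is `±1`. -/
lemma eq_one_or_neg_one_of_sq (h2 : (2 : K) ≠ 0) {η : Module.End K (K × K)}
    (hdt : ∀ x y, dt (η x) (η y) = dt x y) (hη : η * η = 1) : η = 1 ∨ η = -1 := by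
  by_contra hcon
  rw [not_or] at hcon
  obtain ⟨h1, h1'⟩ := hcon
  have hηη : ∀ x, η (η x) = x := fun x => by
    have h3 := congrArg (fun f : Module.End K (K × K) => f x) hη
    simpa only [Module.End.mul_apply, Module.End.one_apply] using h3
  have hx0 : ∃ x0, η x0 ≠ x0 := by
    by_contra h
    rw [not_exists] at h
    exact h1 (LinearMap.ext fun x => by
      simpa only [Module.End.one_apply, not_not] using h x)
  have hy0 : ∃ y0, η y0 ≠ -y0 := by
    by_contra h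
    rw [not_exists] at h
    exact h1' (LinearMap.ext fun x => by
      simpa only [LinearMap.neg_apply, Module.End.one_apply, not_not] using h x)
  obtain ⟨x0, hx0⟩ := hx0
  obtain ⟨y0, hy0⟩ := hy0
  have hxne : η y0 + y0 ≠ 0 := fun h => hy0 (eq_neg_of_add_eq_zero_left h)
  have hyne : η x0 - x0 ≠ 0 := fun h => hx0 (sub_eq_zero.mp h)
  have hηx : η (η y0 + y0) = η y0 + y0 := by rw [map_add, hηη]; abel
  have hηy : η (η x0 - x0) = -(η x0 - x0) := by rw [map_sub, hηη]; abel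
  have hd : dt (η y0 + y0) (η x0 - x0) = 0 := by
    have h3 := hdt (η y0 + y0) (η x0 - x0)
    rw [hηx, hηy, dt_neg_right] at h3
    have h4 : (2 : K) * dt (η y0 + y0) (η x0 - x0) = 0 := by linear_combination -h3
    exact (mul_eq_zero.mp h4).resolve_left h2
  obtain ⟨μ, hμ⟩ := exists_smul_of_dt_eq_zero hyne hd
  have h5 : η (η y0 + y0) = -(η y0 + y0) := by
    conv_lhs => rw [hμ]
    rw [map_smul, hηy, smul_neg, ← hμ]
  rw [hηx] at h5
  have h6 : (2 : K) • (η y0 + y0) = 0 := by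
    rw [two_smul]
    nth_rewrite 1 [h5]
    exact neg_add_cancel _
  exact hxne ((smul_eq_zero.mp h6).resolve_left h2)

/-- An element of 2-power order and determinant one is `±1` or has a power squaring to `-1`. -/
lemma trichotomy (h2 : (2 : K) ≠ 0) : ∀ (j : ℕ) (δ : Module.End K (K × K)),
    (∀ x y, dt (δ x) (δ y) = dt x y) → δ ^ (2 ^ j) = 1 →
    δ = 1 ∨ δ = -1 ∨ ∃ k : ℕ, δ ^ k * δ ^ k = -1 := by
  intro j
  induction j with
  | zero =>
    intro δ _ h
    left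
    simpa only [pow_zero, pow_one] using h
  | succ j ih =>
    intro δ hdt h
    have hdt2 : ∀ x y, dt ((δ ^ 2) x) ((δ ^ 2) y) = dt x y := by
      intro x y
      simp only [pow_two, Module.End.mul_apply, hdt]
    have h' : (δ ^ 2) ^ (2 ^ j) = 1 := by
      rw [← pow_mul, ← pow_succ']
      exact h
    rcases ih (δ ^ 2) hdt2 h' with h1 | h1 | ⟨k, hk⟩
    · rcases eq_one_or_neg_one_of_sq h2 hdt (by rw [← pow_two]; exact h1) with h3 | h3
      · exact Or.inl h3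
      · exact Or.inr (Or.inl h3)
    · exact Or.inr (Or.inr ⟨1, by rw [pow_one, ← pow_two]; exact h1⟩)
    · exact Or.inr (Or.inr ⟨2 * k, by rw [pow_mul]; exact hk⟩)

/-- The scalar case: `δ = c • id`. -/
lemma core_of_scalar (h2 : (2 : K) ≠ 0) {σ : K →+* K} {i : K} (hi : i ^ 2 = -1) (hσi : σ i = i)
    {δ : Module.End K (K × K)} (hδdt : ∀ x y, dt (δ x) (δ y) = dt x y)
    {c : K} (hδ : ∀ x, δ x = c • x)
    {T : K × K → K} (hT : ∀ (c : K) (x : K × K), T (c • x) = c ^ 30 * T x)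
    (hTi : T (i, 1) = 0) (hTi' : T (-i, 1) = 0)
    {A B : K × K} (hA : Prod.map σ σ A = δ A) (hB : Prod.map σ σ B = δ B) (hAB : dt A B ≠ 0) :
    ∃ θ : K, T (A + θ • B) = 0 ∧ σ θ = θ := by
  have hi0 : i ≠ 0 := by
    rintro rfl
    norm_num at hi
  have hne : ∀ z : K, ((z, 1) : K × K) ≠ 0 := by
    intro z h
    have h3 : (1 : K) = 0 := congrArg Prod.snd h
    exact one_ne_zero h3
  have hσ1 : ∀ z : K, σ z = z → Prod.map σ σ ((z, 1) : K × K) = (1 : K) • ((z, 1) : K × K) := by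
    intro z hz
    rw [one_smul]
    exact Prod.ext hz (map_one σ)
  by_cases h1 : dt B (i, 1) = 0
  · by_cases h1' : dt B (-i, 1) = 0
    · exfalso
      simp only [dt, mul_one] at h1 h1'
      have hB1 : B.1 = 0 := by
        have h3 : (2 : K) * B.1 = 0 := by linear_combination h1 + h1'
        exact (mul_eq_zero.mp h3).resolve_left h2
      have hB2 : B.2 = 0 := by
        rw [hB1, zero_sub, neg_eq_zero] at h1
        exact (mul_eq_zero.mp h1).resolve_right hi0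
      apply hAB
      simp only [dt, hB1, hB2, mul_zero, sub_zero]
    · exact core_of_eigen hδdt hT hA hB (hne (-i)) hTi' (hδ _)
        (hσ1 (-i) (by rw [map_neg, hσi])) h1'
  · exact core_of_eigen hδdt hT hA hB (hne i) hTi (hδ _) (hσ1 i hσi) h1

/-- The case of an auxiliary `ε` with `ε² = -1` commuting with everything. -/
lemma core_of_sq_neg_one (h2 : (2 : K) ≠ 0) {σ : K →+* K} {i : K} (hi : i ^ 2 = -1)
    (hσi : σ i = i) {δ ε : Module.End K (K × K)}
    (hδdt : ∀ x y, dt (δ x) (δ y) = dt x y) (hεdt : ∀ x y, dt (ε x) (ε y) = dt x y)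
    (hεδ : ∀ x, ε (δ x) = δ (ε x)) (hεσ : ∀ x, Prod.map σ σ (ε x) = ε (Prod.map σ σ x))
    (hε : ε * ε = -1)
    {T : K × K → K} (hT : ∀ (c : K) (x : K × K), T (c • x) = c ^ 30 * T x)
    (hTε : ∀ x, T (ε x) = T x)
    {A B : K × K} (hA : Prod.map σ σ A = δ A) (hB : Prod.map σ σ B = δ B) (hAB : dt A B ≠ 0) :
    ∃ θ : K, T (A + θ • B) = 0 ∧ σ θ = θ := by
  have hεε : ∀ x, ε (ε x) = -x := fun x => by
    have h3 := congrArg (fun f : Module.End K (K × K) => f x) hε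
    simpa only [Module.End.mul_apply, LinearMap.neg_apply, Module.End.one_apply] using h3
  have hσsmul : ∀ (a : K) (x : K × K), Prod.map σ σ (a • x) = σ a • Prod.map σ σ x := by
    intro a x
    refine Prod.ext ?_ ?_ <;>
      simp only [Prod.map_fst, Prod.map_snd, Prod.smul_fst, Prod.smul_snd, smul_eq_mul, map_mul]
  -- eigenvectors exist for both square roots of `-1`
  have hex : ∀ l : K, l ^ 2 = -1 → ∃ e : K × K, e ≠ 0 ∧ ε e = l • e := by
    intro l hl
    by_contra hcon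
    have hall : ∀ x, ε x = -(l • x) := by
      intro x
      by_contra hx
      apply hcon
      refine ⟨ε x + l • x, fun h => hx (eq_neg_of_add_eq_zero_left h), ?_⟩
      rw [map_add, hεε, map_smul, smul_add, smul_smul, ← pow_two, hl]
      simp only [neg_smul, one_smul]
      abel
    have h3 := hεdt (1, 0) (0, 1)
    rw [hall, hall, dt_neg_right, ← neg_smul, dt_smul_left, dt_smul_right, dt_e1_e2] at h3
    have h4 : (2 : K) = 0 := by linear_combination hl - h3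
    exact h2 h4
  -- properties of an eigenvector
  have hprop : ∀ l : K, l ^ 2 = -1 → σ l = l → ∀ e : K × K, e ≠ 0 → ε e = l • e →
      T e = 0 ∧ (∃ c : K, δ e = c • e) ∧ ∃ c' : K, Prod.map σ σ e = c' • e := by
    intro l hl hσl e he hεe
    have hl30 : l ^ 30 = -1 := by
      rw [show 30 = 2 * 15 from rfl, pow_mul, hl]
      norm_num
    have hline : ∀ y : K × K, ε y = l • y → dt y e = 0 := by
      intro y hy
      have h3 := hεdt y e
      rw [hy, hεe, dt_smul_left, dt_smul_right] at h3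
      have h4 : (2 : K) * dt y e = 0 := by linear_combination -h3 + (dt y e) * hl
      exact (mul_eq_zero.mp h4).resolve_left h2
    refine ⟨?_, ?_, ?_⟩
    · have h3 : T e = l ^ 30 * T e := by
        conv_lhs => rw [← hTε e, hεe, hT]
      rw [hl30] at h3
      have h4 : (2 : K) * T e = 0 := by linear_combination h3
      exact (mul_eq_zero.mp h4).resolve_left h2
    · exact exists_smul_of_dt_eq_zero he (hline (δ e) (by rw [hεδ, hεe, map_smul]))
    · exact exists_smul_of_dt_eq_zero he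
        (hline (Prod.map σ σ e) (by rw [← hεσ, hεe, hσsmul, hσl]))
  have hi' : (-i) ^ 2 = -1 := by rw [neg_sq]; exact hi
  have hσi' : σ (-i) = -i := by rw [map_neg, hσi]
  obtain ⟨e1, he1, hεe1⟩ := hex i hi
  obtain ⟨e2, he2, hεe2⟩ := hex (-i) hi'
  obtain ⟨hT1, ⟨c1, hc1⟩, ⟨c1', hc1'⟩⟩ := hprop i hi hσi e1 he1 hεe1
  obtain ⟨hT2, ⟨c2, hc2⟩, ⟨c2', hc2'⟩⟩ := hprop (-i) hi' hσi' e2 he2 hεe2
  by_cases h1 : dt B e1 = 0
  · by_cases h1' : dt B e2 = 0
    · exfalso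
      obtain ⟨μ1, hμ1⟩ := exists_smul_of_dt_eq_zero he1 h1
      obtain ⟨μ2, hμ2⟩ := exists_smul_of_dt_eq_zero he2 h1'
      have hB1 : ε B = i • B := by
        conv_lhs => rw [hμ1]
        rw [map_smul, hεe1, smul_comm, ← hμ1]
      have hB2 : ε B = (-i) • B := by
        conv_lhs => rw [hμ2]
        rw [map_smul, hεe2, smul_comm, ← hμ2]
      have hi0 : i ≠ 0 := by
        rintro rfl
        norm_num at hi
      have h3 : (2 * i) • B = 0 := by
        have h4 : i • B = (-i) • B := by rw [← hB1, hB2]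
        rw [two_mul, add_smul]
        nth_rewrite 1 [h4]
        rw [neg_smul]
        exact neg_add_cancel _
      have hB0 : B = 0 := (smul_eq_zero.mp h3).resolve_left (mul_ne_zero h2 hi0)
      apply hAB
      rw [hB0]
      simp only [dt, Prod.fst_zero, Prod.snd_zero, mul_zero, sub_zero]
    · exact core_of_eigen hδdt hT hA hB he2 hT2 hc2 hc2' h1'
  · exact core_of_eigen hδdt hT hA hB he1 hT1 hc1 hc1' h1

/-- Powers of `δ` inherit all the relevant properties. -/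
lemma pow_props {σ : K → K} {δ : Module.End K (K × K)} {T : K × K → K}
    (hδσ : ∀ x, Prod.map σ σ (δ x) = δ (Prod.map σ σ x))
    (hδdt : ∀ x y, dt (δ x) (δ y) = dt x y) (hTδ : ∀ x, T (δ x) = T x) (k : ℕ) :
    (∀ x y, dt ((δ ^ k) x) ((δ ^ k) y) = dt x y) ∧
    (∀ x, Prod.map σ σ ((δ ^ k) x) = (δ ^ k) (Prod.map σ σ x)) ∧
    (∀ x, T ((δ ^ k) x) = T x) ∧ (∀ x, (δ ^ k) (δ x) = δ ((δ ^ k) x)) := by
  induction k with
  | zero =>
    simp only [pow_zero, Module.End.one_apply, implies_true, and_self]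
  | succ k ih =>
    obtain ⟨ih1, ih2, ih3, ih4⟩ := ih
    have hs : ∀ x, (δ ^ (k + 1)) x = (δ ^ k) (δ x) := fun x => by
      rw [pow_succ, Module.End.mul_apply]
    refine ⟨fun x y => ?_, fun x => ?_, fun x => ?_, fun x => ?_⟩
    · rw [hs, hs, ih1, hδdt]
    · rw [hs, hs, ih2, hδσ]
    · rw [hs, ih3, hTδ]
    · rw [hs, hs, ih4]

/-- **Core.**  `δ` of 2-power order and determinant one, commuting with the coordinatewise
action of `σ`, preserving `T`; `σ A = δ A`, `σ B = δ B`.  Then the pencil `A + θ B` meets the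
zero locus of `T` at a `σ`-fixed parameter. -/
theorem core (h2 : (2 : K) ≠ 0) (σ : K →+* K) (i : K) (hi : i ^ 2 = -1) (hσi : σ i = i)
    (δ : Module.End K (K × K)) (j : ℕ) (hδj : δ ^ (2 ^ j) = 1)
    (hδσ : ∀ x, Prod.map σ σ (δ x) = δ (Prod.map σ σ x))
    (hδdt : ∀ x y, dt (δ x) (δ y) = dt x y)
    (T : K × K → K) (hT : ∀ (c : K) (x : K × K), T (c • x) = c ^ 30 * T x)
    (hTδ : ∀ x, T (δ x) = T x) (hTi : T (i, 1) = 0) (hTi' : T (-i, 1) = 0)
    (A B : K × K) (hA : Prod.map σ σ A = δ A) (hB : Prod.map σ σ B = δ B) (hAB : dt A B ≠ 0) :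
    ∃ θ : K, T (A + θ • B) = 0 ∧ σ θ = θ := by
  rcases trichotomy h2 j δ hδdt hδj with h1 | h1 | ⟨k, hk⟩
  · exact core_of_scalar h2 hi hσi hδdt (c := 1)
      (fun x => by rw [h1, Module.End.one_apply, one_smul]) hT hTi hTi' hA hB hAB
  · exact core_of_scalar h2 hi hσi hδdt (c := -1)
      (fun x => by rw [h1, LinearMap.neg_apply, Module.End.one_apply, neg_smul, one_smul])
      hT hTi hTi' hA hB hAB
  · obtain ⟨p1, p2, p3, p4⟩ := pow_props (σ := σ) (T := T) hδσ hδdt hTδ k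
    exact core_of_sq_neg_one h2 hi hσi hδdt p1 p4 p2 hk hT p3 hA hB hAB

end Core

/-! ## From a finite-order `γ` to its 2-part -/

section Reduction

variable {F K : Type*} [Field F] [Field K] [Algebra F K]

lemma iterate_map_pow {σ0 : K → K} {γ : Module.End K (K × K)}
    (hγσ : ∀ x, Prod.map σ0 σ0 (γ x) = γ (Prod.map σ0 σ0 x)) {A : K × K}
    (hA : Prod.map σ0 σ0 A = γ A) (k : ℕ) : (Prod.map σ0 σ0)^[k] A = (γ ^ k) A := by
  induction k with
  | zero => simp only [Function.iterate_zero, id_eq, pow_zero, Module.End.one_apply]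
  | succ k ih =>
    have hcomm : ∀ (k : ℕ) (x : K × K), Prod.map σ0 σ0 ((γ ^ k) x) = (γ ^ k) (Prod.map σ0 σ0 x) := by
      intro k
      induction k with
      | zero => intro x; simp only [pow_zero, Module.End.one_apply]
      | succ k ih' =>
        intro x
        rw [pow_succ, Module.End.mul_apply, Module.End.mul_apply, ih', hγσ]
    rw [Function.iterate_succ_apply', ih, hcomm, hA, pow_succ, Module.End.mul_apply]

lemma map_pow_eq_iterate (σ0 : K ≃ₐ[F] K) (m : ℕ) :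
    (Prod.map (σ0 ^ m : K ≃ₐ[F] K) (σ0 ^ m : K ≃ₐ[F] K) : K × K → K × K)
      = (Prod.map σ0 σ0)^[m] := by
  rw [Prod.map_iterate, AlgEquiv.coe_pow]

/-- **Finite-order form.**  `γ ^ n = 1` for some `n ≠ 0`, determinant multiplier of odd order. -/
theorem exists_root_fixed_of_pow_eq_one (h2 : (2 : K) ≠ 0) (σ0 : K ≃ₐ[F] K) (i : K)
    (hi : i ^ 2 = -1) (hσi : σ0 i = i) (r : K) (hr : σ0 r = -r)
    (γ : Module.End K (K × K)) (hγσ : ∀ x, Prod.map σ0 σ0 (γ x) = γ (Prod.map σ0 σ0 x))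
    (n : ℕ) (hn : n ≠ 0) (hγn : γ ^ n = 1)
    (d : K) (q : ℕ) (hq : Odd q) (hd : d ^ q = 1) (hdet : ∀ x y, dt (γ x) (γ y) = d * dt x y)
    (T : K × K → K) (hT : ∀ (c : K) (x : K × K), T (c • x) = c ^ 30 * T x)
    (hTγ : ∀ x, T (γ x) = T x) (hTi : T (i, 1) = 0) (hTi' : T (-i, 1) = 0)
    (A B : K × K) (hA : Prod.map σ0 σ0 A = γ A) (hB : Prod.map σ0 σ0 B = γ B)
    (hAB : dt A B ≠ 0) :
    ∃ (θ : K) (σ : K ≃ₐ[F] K), T (A + θ • B) = 0 ∧ σ θ = θ ∧ σ r = -r := by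
  obtain ⟨j, m, hm, rfl⟩ := Nat.exists_eq_two_pow_mul_odd hn
  -- multiplier of powers
  have hdetk : ∀ (k : ℕ) (x y : K × K), dt ((γ ^ k) x) ((γ ^ k) y) = d ^ k * dt x y := by
    intro k
    induction k with
    | zero => intro x y; simp only [pow_zero, Module.End.one_apply, one_mul]
    | succ k ih =>
      intro x y
      rw [pow_succ, Module.End.mul_apply, Module.End.mul_apply, ih, hdet]
      ring
  have hTk : ∀ (k : ℕ) (x : K × K), T ((γ ^ k) x) = T x := by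
    intro k
    induction k with
    | zero => intro x; simp only [pow_zero, Module.End.one_apply]
    | succ k ih => intro x; rw [pow_succ, Module.End.mul_apply, ih, hTγ]
  have hcommk : ∀ (k : ℕ) (x : K × K),
      Prod.map σ0 σ0 ((γ ^ k) x) = (γ ^ k) (Prod.map σ0 σ0 x) := by
    intro k
    induction k with
    | zero => intro x; simp only [pow_zero, Module.End.one_apply]
    | succ k ih =>
      intro x
      rw [pow_succ, Module.End.mul_apply, Module.End.mul_apply, ih, hγσ]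
  -- `d ^ m = 1`
  have hdm : d ^ m = 1 := by
    have h3 := hdetk (2 ^ j * m) (1, 0) (0, 1)
    rw [hγn, Module.End.one_apply, Module.End.one_apply, dt_e1_e2, mul_one] at h3
    have h4 : (d ^ m) ^ (2 ^ j) = 1 := by rw [← pow_mul, mul_comm]; exact h3.symm
    have h5 : (d ^ m) ^ q = 1 := by rw [← pow_mul, mul_comm, pow_mul, hd, one_pow]
    have h6 : (d ^ m) ^ (Nat.gcd (2 ^ j) q) = 1 := pow_gcd_eq_one.mpr ⟨h4, h5⟩
    have h7 : Nat.gcd (2 ^ j) q = 1 :=
      Nat.Coprime.pow_left j (Nat.coprime_two_left.mpr hq)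
    rwa [h7, pow_one] at h6
  -- the data for the core
  have hδj : (γ ^ m) ^ (2 ^ j) = 1 := by rw [← pow_mul, mul_comm]; exact hγn
  have hδdt : ∀ x y, dt ((γ ^ m) x) ((γ ^ m) y) = dt x y := by
    intro x y
    rw [hdetk, hdm, one_mul]
  have hmapeq := map_pow_eq_iterate σ0 m
  have hδσ : ∀ x, Prod.map (σ0 ^ m : K ≃ₐ[F] K) (σ0 ^ m : K ≃ₐ[F] K) ((γ ^ m) x)
      = (γ ^ m) (Prod.map (σ0 ^ m : K ≃ₐ[F] K) (σ0 ^ m : K ≃ₐ[F] K) x) := by
    intro x
    rw [hmapeq]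
    have : ∀ (a : ℕ) (y : K × K),
        (Prod.map σ0 σ0)^[a] ((γ ^ m) y) = (γ ^ m) ((Prod.map σ0 σ0)^[a] y) := by
      intro a
      induction a with
      | zero => intro y; simp only [Function.iterate_zero, id_eq]
      | succ a ih =>
        intro y
        rw [Function.iterate_succ_apply', ih, hcommk, Function.iterate_succ_apply']
    exact this m x
  have hAm : Prod.map (σ0 ^ m : K ≃ₐ[F] K) (σ0 ^ m : K ≃ₐ[F] K) A = (γ ^ m) A := by
    rw [hmapeq]
    exact iterate_map_pow hγσ hA m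
  have hBm : Prod.map (σ0 ^ m : K ≃ₐ[F] K) (σ0 ^ m : K ≃ₐ[F] K) B = (γ ^ m) B := by
    rw [hmapeq]
    exact iterate_map_pow hγσ hB m
  have hσim : (σ0 ^ m : K ≃ₐ[F] K) i = i := by
    rw [AlgEquiv.coe_pow]
    exact Function.iterate_fixed hσi m
  have hσrm : (σ0 ^ m : K ≃ₐ[F] K) r = -r := by
    have : ∀ k : ℕ, (σ0 : K → K)^[k] r = (-1) ^ k * r := by
      intro k
      induction k with
      | zero => simp only [Function.iterate_zero, id_eq, pow_zero, one_mul]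
      | succ k ih =>
        rw [Function.iterate_succ_apply', ih, map_mul, map_pow, map_neg, map_one, hr, pow_succ]
        ring
    rw [AlgEquiv.coe_pow, this, hm.neg_one_pow]
    ring
  obtain ⟨θ, hθ1, hθ2⟩ := core h2 ((σ0 ^ m : K ≃ₐ[F] K) : K →+* K) i hi hσim (γ ^ m) j hδj
    hδσ hδdt T hT (hTk m) hTi hTi' A B hAm hBm hAB
  exact ⟨θ, σ0 ^ m, hθ1, hθ2, hσrm⟩

/-- Every element of an algebraic extension has a finite orbit under a given automorphism. -/
lemma exists_pow_fix [Algebra.IsAlgebraic F K] (σ0 : K ≃ₐ[F] K) (x : K) :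
    ∃ n : ℕ, n ≠ 0 ∧ (σ0 ^ n : K ≃ₐ[F] K) x = x := by
  have hfin : ((minpoly F x).rootSet K).Finite := Polynomial.rootSet_finite _ _
  have hmem : ∀ k : ℕ, (σ0 ^ k : K ≃ₐ[F] K) x ∈ (minpoly F x).rootSet K := by
    intro k
    rw [Polynomial.mem_rootSet]
    refine ⟨minpoly.ne_zero (Algebra.IsIntegral.isIntegral x), ?_⟩
    rw [Polynomial.aeval_algHom_apply, minpoly.aeval, map_zero]
  have : Finite ((minpoly F x).rootSet K) := hfin.to_subtype
  obtain ⟨a, b, hab, h⟩ := Finite.exists_ne_map_eq_of_infinite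
    (fun k : ℕ => (⟨(σ0 ^ k : K ≃ₐ[F] K) x, hmem k⟩ : (minpoly F x).rootSet K))
  have h' : (σ0 ^ a : K ≃ₐ[F] K) x = (σ0 ^ b : K ≃ₐ[F] K) x := congrArg Subtype.val h
  have aux : ∀ a b : ℕ, a < b → (σ0 ^ a : K ≃ₐ[F] K) x = (σ0 ^ b : K ≃ₐ[F] K) x →
      ∃ n : ℕ, n ≠ 0 ∧ (σ0 ^ n : K ≃ₐ[F] K) x = x := by
    intro a b hlt heq
    refine ⟨b - a, by omega, ?_⟩
    have hb : b = a + (b - a) := by omega
    rw [hb, pow_add, AlgEquiv.mul_apply] at heq
    exact ((σ0 ^ a : K ≃ₐ[F] K).injective heq).symm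
  rcases lt_or_gt_of_ne hab with hlt | hlt
  · exact aux a b hlt h'
  · exact aux b a hlt h'.symm

lemma pow_mul_fix (σ0 : K ≃ₐ[F] K) {x : K} {n : ℕ} (h : (σ0 ^ n : K ≃ₐ[F] K) x = x) (k : ℕ) :
    (σ0 ^ (n * k) : K ≃ₐ[F] K) x = x := by
  rw [pow_mul, AlgEquiv.coe_pow]
  exact Function.iterate_fixed h k

lemma pow_mul_fix' (σ0 : K ≃ₐ[F] K) {x : K} {n : ℕ} (h : (σ0 ^ n : K ≃ₐ[F] K) x = x) (k : ℕ) :
    (σ0 ^ (k * n) : K ≃ₐ[F] K) x = x := by
  rw [mul_comm]
  exact pow_mul_fix σ0 h k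

/-- **Algebraic form.**  Over an algebraic extension no hypothesis on the order of `γ` is needed. -/
theorem exists_root_fixed_of_isAlgebraic [Algebra.IsAlgebraic F K] (h2 : (2 : K) ≠ 0)
    (σ0 : K ≃ₐ[F] K) (i : K) (hi : i ^ 2 = -1) (hσi : σ0 i = i) (r : K) (hr : σ0 r = -r)
    (γ : Module.End K (K × K)) (hγσ : ∀ x, Prod.map σ0 σ0 (γ x) = γ (Prod.map σ0 σ0 x))
    (d : K) (q : ℕ) (hq : Odd q) (hd : d ^ q = 1) (hdet : ∀ x y, dt (γ x) (γ y) = d * dt x y)
    (T : K × K → K) (hT : ∀ (c : K) (x : K × K), T (c • x) = c ^ 30 * T x)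
    (hTγ : ∀ x, T (γ x) = T x) (hTi : T (i, 1) = 0) (hTi' : T (-i, 1) = 0)
    (A B : K × K) (hA : Prod.map σ0 σ0 A = γ A) (hB : Prod.map σ0 σ0 B = γ B)
    (hAB : dt A B ≠ 0) :
    ∃ (θ : K) (σ : K ≃ₐ[F] K), T (A + θ • B) = 0 ∧ σ θ = θ ∧ σ r = -r := by
  obtain ⟨n1, hn1, h1⟩ := exists_pow_fix σ0 A.1
  obtain ⟨n2, hn2, h2'⟩ := exists_pow_fix σ0 A.2
  obtain ⟨n3, hn3, h3⟩ := exists_pow_fix σ0 B.1
  obtain ⟨n4, hn4, h4⟩ := exists_pow_fix σ0 B.2
  have hn : n1 * n2 * (n3 * n4) ≠ 0 := by positivity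
  have e1 : (σ0 ^ (n1 * n2 * (n3 * n4)) : K ≃ₐ[F] K) A.1 = A.1 := by
    rw [mul_assoc]; exact pow_mul_fix σ0 h1 _
  have e2 : (σ0 ^ (n1 * n2 * (n3 * n4)) : K ≃ₐ[F] K) A.2 = A.2 := by
    rw [mul_comm n1 n2, mul_assoc]; exact pow_mul_fix σ0 h2' _
  have e3 : (σ0 ^ (n1 * n2 * (n3 * n4)) : K ≃ₐ[F] K) B.1 = B.1 := by
    rw [mul_comm (n1 * n2), mul_assoc]; exact pow_mul_fix σ0 h3 _
  have e4 : (σ0 ^ (n1 * n2 * (n3 * n4)) : K ≃ₐ[F] K) B.2 = B.2 := by
    rw [mul_comm (n1 * n2), mul_comm n3 n4, mul_assoc]; exact pow_mul_fix σ0 h4 _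
  set n := n1 * n2 * (n3 * n4) with hndef
  have hAn : (γ ^ n) A = A := by
    rw [← iterate_map_pow hγσ hA n, ← map_pow_eq_iterate σ0 n]
    exact Prod.ext e1 e2
  have hBn : (γ ^ n) B = B := by
    rw [← iterate_map_pow hγσ hB n, ← map_pow_eq_iterate σ0 n]
    exact Prod.ext e3 e4
  have hγn : γ ^ n = 1 := by
    refine LinearMap.ext fun x => ?_
    rw [Module.End.one_apply]
    conv_lhs => rw [eq_combination hAB x]
    rw [map_add, map_smul, map_smul, hAn, hBn, ← eq_combination hAB x]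
  exact exists_root_fixed_of_pow_eq_one h2 σ0 i hi hσi r hr γ hγσ n hn hγn d q hq hd hdet T hT hTγ
    hTi hTi' A B hA hB hAB

end Reduction

/-! ## The explicit automorphism `ζ₆₀ ↦ ζ₆₀⁴¹` of `Qbar` -/

section Sigma0

/-- `Qbar/ℚ` is algebraic for the `ℚ`-algebra structure that instance search finds. -/
theorem isAlgebraic_Qb : Algebra.IsAlgebraic ℚ (AlgebraicClosure ℚ) :=
  AlgebraicClosure.isAlgebraic ℚ

theorem isAlgClosure_Qb : IsAlgClosure ℚ (AlgebraicClosure ℚ) :=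
  ⟨inferInstance, isAlgebraic_Qb⟩

theorem normal_Qb : Normal ℚ (AlgebraicClosure ℚ) :=
  haveI := isAlgClosure_Qb
  IsAlgClosure.normal ℚ (AlgebraicClosure ℚ)

attribute [local instance] isAlgebraic_Qb isAlgClosure_Qb normal_Qb

/-- There is an automorphism of `Qbar` fixing all 20th roots of unity and negating `√3`. -/
theorem exists_sigma0 : ∃ σ0 : AlgebraicClosure ℚ ≃ₐ[ℚ] AlgebraicClosure ℚ,
    (∀ z : AlgebraicClosure ℚ, z ^ 20 = 1 → σ0 z = z) ∧
    ∀ r : AlgebraicClosure ℚ, r ^ 2 = 3 → σ0 r = -r := by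
  obtain ⟨ζ, hζ⟩ : ∃ ζ : AlgebraicClosure ℚ, IsPrimitiveRoot ζ 60 := by
    have hdeg : (cyclotomic 60 (AlgebraicClosure ℚ)).degree ≠ 0 :=
      (degree_cyclotomic_pos 60 _ (by norm_num)).ne'
    obtain ⟨ζ, hζ⟩ := IsAlgClosed.exists_root _ hdeg
    exact ⟨ζ, isRoot_cyclotomic_iff.mp hζ⟩
  have hζ41 : IsPrimitiveRoot (ζ ^ 41) 60 := hζ.pow_of_coprime 41 (by norm_num)
  have hmin : minpoly ℚ ζ = minpoly ℚ (ζ ^ 41) := by
    rw [← cyclotomic_eq_minpoly_rat hζ (by norm_num),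
      ← cyclotomic_eq_minpoly_rat hζ41 (by norm_num)]
  obtain ⟨σ0, hσ0⟩ := minpoly.exists_algEquiv_of_root (K := ℚ) (L := AlgebraicClosure ℚ)
    (x := ζ) (y := ζ ^ 41) (Algebra.IsAlgebraic.isAlgebraic _)
    (by rw [← hmin]; exact minpoly.aeval ℚ ζ)
  have h60 : ζ ^ 60 = 1 := hζ.pow_eq_one
  have h30 : ζ ^ 30 = -1 := by
    have h3 : (ζ ^ 30 - 1) * (ζ ^ 30 + 1) = 0 := by linear_combination h60
    rcases mul_eq_zero.mp h3 with h4 | h4
    · exact absurd (sub_eq_zero.mp h4) (hζ.pow_ne_one_of_pos_of_lt (by norm_num) (by norm_num))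
    · exact eq_neg_of_add_eq_zero_left h4
  have h20 : ζ ^ 20 - ζ ^ 10 + 1 = 0 := by
    have h3 : (ζ ^ 10 + 1) * (ζ ^ 20 - ζ ^ 10 + 1) = 0 := by linear_combination h30
    rcases mul_eq_zero.mp h3 with h4 | h4
    · exfalso
      have h5 : ζ ^ 20 = 1 := by
        have h6 : ζ ^ 10 = -1 := eq_neg_of_add_eq_zero_left h4
        rw [show 20 = 10 * 2 from rfl, pow_mul, h6]
        norm_num
      exact hζ.pow_ne_one_of_pos_of_lt (by norm_num) (by norm_num) h5
    · exact h4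
  have hr0 : (ζ ^ 5 + ζ ^ 55) ^ 2 = 3 := by
    linear_combination (2 + ζ ^ 50) * h60 + ζ ^ 20 * h30 - h20
  have hσr0 : σ0 (ζ ^ 5 + ζ ^ 55) = -(ζ ^ 5 + ζ ^ 55) := by
    have h150 : ζ ^ 150 = -1 := by
      rw [show 150 = 30 * 5 from rfl, pow_mul, h30]
      norm_num
    have h2250 : ζ ^ 2250 = -1 := by
      rw [show 2250 = 30 * 75 from rfl, pow_mul, h30]
      norm_num
    rw [map_add, map_pow, map_pow, hσ0]
    linear_combination ζ ^ 55 * h150 + ζ ^ 5 * h2250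
  refine ⟨σ0, ?_, ?_⟩
  · intro z hz
    have hp20 : IsPrimitiveRoot (ζ ^ 3) 20 := hζ.pow (by norm_num) (by norm_num)
    obtain ⟨k, -, hk⟩ := hp20.eq_pow_of_pow_eq_one hz
    rw [← hk, map_pow, map_pow, hσ0, ← pow_mul, ← pow_mul, ← pow_mul]
    have h3 : 41 * (3 * k) = 3 * k + 60 * (2 * k) := by ring
    rw [h3, pow_add, pow_mul ζ 60, h60, one_pow, mul_one]
  · intro r hr
    have h3 : (r - (ζ ^ 5 + ζ ^ 55)) * (r + (ζ ^ 5 + ζ ^ 55)) = 0 := by
      linear_combination hr - hr0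
    rcases mul_eq_zero.mp h3 with h4 | h4
    · rw [sub_eq_zero.mp h4, hσr0]
    · rw [eq_neg_of_add_eq_zero_left h4, map_neg, hσr0]

end Sigma0

/-! ## Final forms over `Qbar` -/

section Final

attribute [local instance] isAlgebraic_Qb isAlgClosure_Qb normal_Qb

/-- **S52-ROOT, torsor form.**  `σ0` fixes `√-1` and negates `r`; `γ` is linear, commutes with the
coordinatewise action of `σ0`, preserves `T`, has determinant multiplier `d` with `d ^ 5 = 1`;
`σ0 A = γ A`, `σ0 B = γ B`, and `A`, `B` are independent.  Then some parameter `θ` with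
`T (A + θ B) = 0` is fixed by an automorphism `σ` negating `r`. -/
theorem exists_root_fixed_of_torsor (σ0 : AlgebraicClosure ℚ ≃ₐ[ℚ] AlgebraicClosure ℚ)
    (hi : ∀ z : AlgebraicClosure ℚ, z ^ 2 = -1 → σ0 z = z) (r : AlgebraicClosure ℚ)
    (hr : σ0 r = -r)
    (γ : (AlgebraicClosure ℚ × AlgebraicClosure ℚ) →ₗ[AlgebraicClosure ℚ]
      (AlgebraicClosure ℚ × AlgebraicClosure ℚ))
    (hγσ : ∀ x, Prod.map σ0 σ0 (γ x) = γ (Prod.map σ0 σ0 x))
    (d : AlgebraicClosure ℚ) (hd : d ^ 5 = 1) (hdet : ∀ x y, dt (γ x) (γ y) = d * dt x y)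
    (T : AlgebraicClosure ℚ × AlgebraicClosure ℚ → AlgebraicClosure ℚ)
    (hT : ∀ (c : AlgebraicClosure ℚ) (x : AlgebraicClosure ℚ × AlgebraicClosure ℚ),
      T (c • x) = c ^ 30 * T x)
    (hTγ : ∀ x, T (γ x) = T x)
    (hTi : ∀ z : AlgebraicClosure ℚ, z ^ 2 = -1 → T (z, 1) = 0)
    (A B : AlgebraicClosure ℚ × AlgebraicClosure ℚ) (hA : Prod.map σ0 σ0 A = γ A)
    (hB : Prod.map σ0 σ0 B = γ B) (hAB : dt A B ≠ 0) :
    ∃ (θ : AlgebraicClosure ℚ) (σ : AlgebraicClosure ℚ ≃ₐ[ℚ] AlgebraicClosure ℚ),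
      T (A + θ • B) = 0 ∧ σ θ = θ ∧ σ r = -r := by
  obtain ⟨i, hi2⟩ : ∃ i : AlgebraicClosure ℚ, i ^ 2 = -1 := IsAlgClosed.exists_pow_nat_eq _ (by norm_num)
  have hi2' : (-i) ^ 2 = -1 := by rw [neg_sq]; exact hi2
  exact exists_root_fixed_of_isAlgebraic (F := ℚ) two_ne_zero σ0 i hi2 (hi i hi2) r hr γ hγσ d 5
    (by decide) hd hdet T hT hTγ (hTi i hi2) (hTi (-i) hi2') A B hA hB hAB

/-- **S52-ROOT, coordinate form** (surface of the board row 636 without any hypothesis on the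
order of `g`): for every `σ` fixing the 20th roots of unity there are `g11 g12 g21 g22` and `ε`
with `g` of determinant one and `σ`-fixed entries, `ε ^ 5 = 1`, `T ∘ g = T`,
`σ (a1, a2) = ε g (a1, a2)`, `σ (b1, b2) = ε g (b1, b2)`. -/
theorem exists_root_fixed (T : AlgebraicClosure ℚ → AlgebraicClosure ℚ → AlgebraicClosure ℚ)
    (hT : ∀ c u v : AlgebraicClosure ℚ, T (c * u) (c * v) = c ^ 30 * T u v)
    (hTi : ∀ z : AlgebraicClosure ℚ, z ^ 2 = -1 → T z 1 = 0)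
    (a1 a2 b1 b2 : AlgebraicClosure ℚ) (hdet : a1 * b2 - a2 * b1 ≠ 0)
    (hcov : ∀ σ : AlgebraicClosure ℚ ≃ₐ[ℚ] AlgebraicClosure ℚ,
      (∀ z : AlgebraicClosure ℚ, z ^ 20 = 1 → σ z = z) →
      ∃ g11 g12 g21 g22 ε : AlgebraicClosure ℚ, g11 * g22 - g12 * g21 = 1 ∧ ε ^ 5 = 1 ∧
        σ g11 = g11 ∧ σ g12 = g12 ∧ σ g21 = g21 ∧ σ g22 = g22 ∧
        (∀ u v, T (g11 * u + g12 * v) (g21 * u + g22 * v) = T u v) ∧
        σ a1 = ε * (g11 * a1 + g12 * a2) ∧ σ a2 = ε * (g21 * a1 + g22 * a2) ∧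
        σ b1 = ε * (g11 * b1 + g12 * b2) ∧ σ b2 = ε * (g21 * b1 + g22 * b2)) :
    ∃ (θ : AlgebraicClosure ℚ) (σ : AlgebraicClosure ℚ ≃ₐ[ℚ] AlgebraicClosure ℚ),
      T (a1 + θ * b1) (a2 + θ * b2) = 0 ∧ σ θ = θ ∧
        ∃ r : AlgebraicClosure ℚ, r ^ 2 = 3 ∧ σ r ≠ r := by
  obtain ⟨σ0, hσ20, hσr⟩ := exists_sigma0
  obtain ⟨r, hr⟩ : ∃ r : AlgebraicClosure ℚ, r ^ 2 = 3 := IsAlgClosed.exists_pow_nat_eq _ (by norm_num)
  have hr0 : r ≠ 0 := by
    rintro rfl
    norm_num at hr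
  obtain ⟨g11, g12, g21, g22, ε, hg, hε, s11, s12, s21, s22, hTg, ha1, ha2, hb1, hb2⟩ :=
    hcov σ0 hσ20
  have hσε : σ0 ε = ε := hσ20 ε (by
    rw [show 20 = 5 * 4 from rfl, pow_mul, hε, one_pow])
  have hε30 : ε ^ 30 = 1 := by rw [show 30 = 5 * 6 from rfl, pow_mul, hε, one_pow]
  let γ : (AlgebraicClosure ℚ × AlgebraicClosure ℚ) →ₗ[AlgebraicClosure ℚ]
      (AlgebraicClosure ℚ × AlgebraicClosure ℚ) :=
    { toFun := fun x => (ε * (g11 * x.1 + g12 * x.2), ε * (g21 * x.1 + g22 * x.2))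
      map_add' := fun x y => by
        refine Prod.ext ?_ ?_ <;> simp only [Prod.fst_add, Prod.snd_add] <;> ring
      map_smul' := fun c x => by
        refine Prod.ext ?_ ?_ <;>
          simp only [Prod.smul_fst, Prod.smul_snd, smul_eq_mul, RingHom.id_apply] <;> ring }
  have hγ : ∀ x, γ x = (ε * (g11 * x.1 + g12 * x.2), ε * (g21 * x.1 + g22 * x.2)) := fun _ => rfl
  obtain ⟨θ, σ, h1, h2, h3⟩ := exists_root_fixed_of_torsor σ0
    (fun z hz => hσ20 z (by rw [show 20 = 2 * 10 from rfl, pow_mul, hz]; norm_num)) r (hσr r hr)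
    γ (fun x => by
      rw [hγ, hγ]
      refine Prod.ext ?_ ?_ <;>
        simp only [Prod.map_fst, Prod.map_snd, map_mul, map_add, hσε, s11, s12, s21, s22])
    (ε ^ 2) (by rw [← pow_mul, mul_comm, pow_mul, hε, one_pow])
    (fun x y => by
      rw [hγ, hγ]
      simp only [dt]
      linear_combination (ε ^ 2 * (x.1 * y.2 - x.2 * y.1)) * hg)
    (fun x => T x.1 x.2)
    (fun c x => by simp only [Prod.smul_fst, Prod.smul_snd, smul_eq_mul]; exact hT c x.1 x.2)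
    (fun x => by
      rw [hγ]
      simp only
      rw [hT, hε30, one_mul, hTg])
    (fun z hz => hTi z hz) (a1, a2) (b1, b2)
    (by rw [hγ]; exact Prod.ext ha1 ha2) (by rw [hγ]; exact Prod.ext hb1 hb2) hdet
  refine ⟨θ, σ, ?_, h2, r, hr, ?_⟩
  · simpa only [Prod.fst_add, Prod.snd_add, Prod.smul_fst, Prod.smul_snd, smul_eq_mul] using h1
  · rw [h3]
    intro h4
    have h5 : (2 : AlgebraicClosure ℚ) * r = 0 := by linear_combination -h4
    exact hr0 ((mul_eq_zero.mp h5).resolve_left two_ne_zero)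

/-- The same with the conclusion in the surface of the top-level wiring
(`Stmt_Family`, last conjunct): `P6` is any integer polynomial vanishing at the parameters where
the pencil meets the zero locus of `T`. -/
theorem exists_root_fixed_aeval (T : AlgebraicClosure ℚ → AlgebraicClosure ℚ → AlgebraicClosure ℚ)
    (hT : ∀ c u v : AlgebraicClosure ℚ, T (c * u) (c * v) = c ^ 30 * T u v)
    (hTi : ∀ z : AlgebraicClosure ℚ, z ^ 2 = -1 → T z 1 = 0)
    (a1 a2 b1 b2 : AlgebraicClosure ℚ) (hdet : a1 * b2 - a2 * b1 ≠ 0)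
    (hcov : ∀ σ : AlgebraicClosure ℚ ≃ₐ[ℚ] AlgebraicClosure ℚ,
      (∀ z : AlgebraicClosure ℚ, z ^ 20 = 1 → σ z = z) →
      ∃ g11 g12 g21 g22 ε : AlgebraicClosure ℚ, g11 * g22 - g12 * g21 = 1 ∧ ε ^ 5 = 1 ∧
        σ g11 = g11 ∧ σ g12 = g12 ∧ σ g21 = g21 ∧ σ g22 = g22 ∧
        (∀ u v, T (g11 * u + g12 * v) (g21 * u + g22 * v) = T u v) ∧
        σ a1 = ε * (g11 * a1 + g12 * a2) ∧ σ a2 = ε * (g21 * a1 + g22 * a2) ∧
        σ b1 = ε * (g11 * b1 + g12 * b2) ∧ σ b2 = ε * (g21 * b1 + g22 * b2))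
    (P6 : ℤ[X])
    (hP : ∀ θ : AlgebraicClosure ℚ, T (a1 + θ * b1) (a2 + θ * b2) = 0 → aeval θ P6 = 0) :
    ∃ θ : AlgebraicClosure ℚ, aeval θ P6 = 0 ∧
      ∃ σ : AlgebraicClosure ℚ ≃ₐ[ℚ] AlgebraicClosure ℚ, σ θ = θ ∧
        ∃ r : AlgebraicClosure ℚ, r ^ 2 = 3 ∧ σ r ≠ r := by
  obtain ⟨θ, σ, h1, h2, h3⟩ := exists_root_fixed T hT hTi a1 a2 b1 b2 hdet hcov
  exact ⟨θ, hP θ h1, σ, h2, h3⟩

/-- Matrix surface (the `hcov` of the board row 636 without `g ^ 60 = 1`). -/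
theorem exists_root_fixed_matrix
    (T : AlgebraicClosure ℚ → AlgebraicClosure ℚ → AlgebraicClosure ℚ)
    (hT : ∀ c u v : AlgebraicClosure ℚ, T (c * u) (c * v) = c ^ 30 * T u v)
    (hTi : ∀ z : AlgebraicClosure ℚ, z ^ 2 = -1 → T z 1 = 0)
    (a1 a2 b1 b2 : AlgebraicClosure ℚ) (hdet : a1 * b2 - a2 * b1 ≠ 0)
    (hcov : ∀ σ : AlgebraicClosure ℚ ≃ₐ[ℚ] AlgebraicClosure ℚ,
      (∀ z : AlgebraicClosure ℚ, z ^ 20 = 1 → σ z = z) →
      ∃ (g : Matrix (Fin 2) (Fin 2) (AlgebraicClosure ℚ)) (ε : AlgebraicClosure ℚ),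
        g.det = 1 ∧ ε ^ 5 = 1 ∧ (∀ i j, σ (g i j) = g i j) ∧
        (∀ u v, T (g 0 0 * u + g 0 1 * v) (g 1 0 * u + g 1 1 * v) = T u v) ∧
        σ a1 = ε * (g 0 0 * a1 + g 0 1 * a2) ∧ σ a2 = ε * (g 1 0 * a1 + g 1 1 * a2) ∧
        σ b1 = ε * (g 0 0 * b1 + g 0 1 * b2) ∧ σ b2 = ε * (g 1 0 * b1 + g 1 1 * b2)) :
    ∃ (θ : AlgebraicClosure ℚ) (σ : AlgebraicClosure ℚ ≃ₐ[ℚ] AlgebraicClosure ℚ),
      T (a1 + θ * b1) (a2 + θ * b2) = 0 ∧ σ θ = θ ∧
        ∃ r : AlgebraicClosure ℚ, r ^ 2 = 3 ∧ σ r ≠ r := by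
  refine exists_root_fixed T hT hTi a1 a2 b1 b2 hdet fun σ hσ => ?_
  obtain ⟨g, ε, hg, hε, hσg, hTg, h1, h2, h3, h4⟩ := hcov σ hσ
  exact ⟨g 0 0, g 0 1, g 1 0, g 1 1, ε, by rw [← hg, Matrix.det_fin_two], hε, hσg 0 0, hσg 0 1,
    hσg 1 0, hσg 1 1, hTg, h1, h2, h3, h4⟩

/-- Klein's invariant `T` (degree 30), as a plain function. -/
def kleinT {R : Type*} [CommRing R] (u v : R) : R :=
  u ^ 30 + v ^ 30 + 522 * (u ^ 25 * v ^ 5 - u ^ 5 * v ^ 25)
    - 10005 * (u ^ 20 * v ^ 10 + u ^ 10 * v ^ 20)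

lemma kleinT_smul {R : Type*} [CommRing R] (c u v : R) :
    kleinT (c * u) (c * v) = c ^ 30 * kleinT u v := by
  simp only [kleinT]; ring

lemma kleinT_sqrt_neg_one {R : Type*} [CommRing R] (z : R) (hz : z ^ 2 = -1) :
    kleinT z 1 = 0 := by
  simp only [kleinT, one_pow, mul_one]
  linear_combination (z ^ 28 - z ^ 26 + z ^ 24 - z ^ 22 + z ^ 20 - z ^ 18 + z ^ 16 - z ^ 14
    + z ^ 12 - z ^ 10 + z ^ 8 - z ^ 6 + z ^ 4 - z ^ 2 + 1
    + 522 * (z ^ 23 - z ^ 21 + z ^ 19 - z ^ 17 + z ^ 15 - z ^ 13 + z ^ 11 - z ^ 9 + z ^ 7 - z ^ 5)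
    - 10005 * z ^ 10 * (z ^ 8 - z ^ 6 + z ^ 4 - z ^ 2 + 1)) * hz

end Final

end Fermat.Agent.S52.helper6799
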