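/-
S52, block (AUXP), adapter ROOT-INST  (helper52).

From the Klein torsor over `Qb` (in matrix form `CovAt`) to the hypothesis `hB` of
`Fermat.Agent.S52.helper712.endgame`, for ANY pair `C4 C6 : ℚ[X]` linked to the degree-11 pencil.

Inputs already on main and consumed here:
* `helper424.exists_klein_param`          (W0: a Klein parameter `w₀` over `Qb`),
* `helper6799.exists_sigma0`, `helper6799.exists_root_fixed_of_torsor`   (ROOT-ALG, odd cycle),
* `helper7043.pencil_no_common_zero`      (`kH`, `kT` have no common zero on the pencil),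
* `helper1678.exists_aux_prime`           (AUX prime),
* `helper52.hB_of_rootData`               (AUXP glue).

Remaining hypotheses (leaves of other owners), passed as hypotheses:
* LINK   : `kH`, `kT` along the pencil through `w₀` are `-C4`, `-C6`;
* TORSOR : two points of a fibre of `(kH, kT)` differ by `λ·diag(ζ,1)·g·diag(1,ζ')`,
           `g ∈ {1, J, K, J K}`;
* 4(f)   : invariance of `kT` and covariance of `(f_v, -f_u)` under Klein's matrix `K`.
-/
import Mathlib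
import Fermat.Agent.S52.helper52_AuxP
import Fermat.Agent.S52.helper424_KleinExist
import Fermat.Agent.S52.helper7043_NoAdditive
import Fermat.Agent.S52.helper6799_OddCycle
import Fermat.Agent.S52.helper1678_AuxPrime

set_option autoImplicit false

open Polynomial
open Fermat.Agent.S52.helper424 Fermat.Agent.S52.helper7043

namespace Fermat.Agent.S52.helper52

/-- Block AUX is proved (`helper1678.exists_aux_prime`). -/
theorem stmt_auxPQ_proved : Stmt_AuxPQ := fun θ σ hθ D s hs hσs P Q hP hQ T =>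
  Fermat.Agent.S52.helper1678.exists_aux_prime θ σ hθ D s hs hσs P Q hP hQ T

/-! ### Admissible matrices -/

/-- A `2 × 2` matrix `g = [[g11, g12], [g21, g22]]` over `Qb` is *admissible for `σ`* if its
determinant is a fifth root of unity, its entries are fixed by `σ`, it preserves Klein's `T`
and the direction field `n = (f_v, -f_u)` of the degree-11 pencil is `g`-covariant:
`n (g w) = g (n w)`. -/
def GoodMat (σ : GQ) (g11 g12 g21 g22 : Qb) : Prop :=
  (g11 * g22 - g12 * g21) ^ 5 = 1 ∧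
    σ g11 = g11 ∧ σ g12 = g12 ∧ σ g21 = g21 ∧ σ g22 = g22 ∧
    (∀ u v : Qb, kT (g11 * u + g12 * v) (g21 * u + g22 * v) = kT u v) ∧
    (∀ u v : Qb, kFv (g11 * u + g12 * v) (g21 * u + g22 * v) = g11 * kFv u v - g12 * kFu u v) ∧
    (∀ u v : Qb, kFu (g11 * u + g12 * v) (g21 * u + g22 * v) = g22 * kFu u v - g21 * kFv u v)

/-- The torsor property at `(u0, v0)` for the automorphism `σ`, in matrix form:
`σ w₀ = g w₀` for an admissible matrix `g`. -/
def CovAt (σ : GQ) (u0 v0 : Qb) : Prop :=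
  ∃ g11 g12 g21 g22 : Qb, GoodMat σ g11 g12 g21 g22 ∧
    σ u0 = g11 * u0 + g12 * v0 ∧ σ v0 = g21 * u0 + g22 * v0

/-- Admissible matrices are closed under products. -/
theorem GoodMat.mul {σ : GQ} {g11 g12 g21 g22 h11 h12 h21 h22 : Qb}
    (hg : GoodMat σ g11 g12 g21 g22) (hh : GoodMat σ h11 h12 h21 h22) :
    GoodMat σ (g11 * h11 + g12 * h21) (g11 * h12 + g12 * h22)
      (g21 * h11 + g22 * h21) (g21 * h12 + g22 * h22) := by
  obtain ⟨gd, g1, g2, g3, g4, gT, gv, gu⟩ := hg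
  obtain ⟨hd, h1, h2, h3, h4, hT, hv, hu⟩ := hh
  refine ⟨?_, ?_, ?_, ?_, ?_, ?_, ?_, ?_⟩
  · have : (g11 * h11 + g12 * h21) * (g21 * h12 + g22 * h22)
        - (g11 * h12 + g12 * h22) * (g21 * h11 + g22 * h21)
        = (g11 * g22 - g12 * g21) * (h11 * h22 - h12 * h21) := by ring
    rw [this, mul_pow, gd, hd, one_mul]
  · simp only [map_add, map_mul, g1, g2, h1, h3]
  · simp only [map_add, map_mul, g1, g2, h2, h4]
  · simp only [map_add, map_mul, g3, g4, h1, h3]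
  · simp only [map_add, map_mul, g3, g4, h2, h4]
  · intro u v
    have e1 : (g11 * h11 + g12 * h21) * u + (g11 * h12 + g12 * h22) * v
        = g11 * (h11 * u + h12 * v) + g12 * (h21 * u + h22 * v) := by ring
    have e2 : (g21 * h11 + g22 * h21) * u + (g21 * h12 + g22 * h22) * v
        = g21 * (h11 * u + h12 * v) + g22 * (h21 * u + h22 * v) := by ring
    rw [e1, e2, gT, hT]
  · intro u v
    have e1 : (g11 * h11 + g12 * h21) * u + (g11 * h12 + g12 * h22) * v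
        = g11 * (h11 * u + h12 * v) + g12 * (h21 * u + h22 * v) := by ring
    have e2 : (g21 * h11 + g22 * h21) * u + (g21 * h12 + g22 * h22) * v
        = g21 * (h11 * u + h12 * v) + g22 * (h21 * u + h22 * v) := by ring
    rw [e1, e2, gv, hv, hu]
    ring
  · intro u v
    have e1 : (g11 * h11 + g12 * h21) * u + (g11 * h12 + g12 * h22) * v
        = g11 * (h11 * u + h12 * v) + g12 * (h21 * u + h22 * v) := by ring
    have e2 : (g21 * h11 + g22 * h21) * u + (g21 * h12 + g22 * h22) * v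
        = g21 * (h11 * u + h12 * v) + g22 * (h21 * u + h22 * v) := by ring
    rw [e1, e2, gu, hv, hu]
    ring

/-- Diagonal matrices `diag(c, d)` with `c⁵ = d⁵ = ε`, `ε² = 1` are admissible. -/
theorem goodMat_diag (σ : GQ) (c d ε : Qb) (hc : c ^ 5 = ε) (hd : d ^ 5 = ε) (hε : ε ^ 2 = 1)
    (hσc : σ c = c) (hσd : σ d = d) : GoodMat σ c 0 0 d := by
  have h1 : c ^ 10 = 1 := by
    have : c ^ 10 = (c ^ 5) ^ 2 := by ring
    rw [this, hc, hε]
  have h2 : c ^ 5 * d ^ 5 = 1 := by rw [hc, hd, ← sq, hε]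
  have h3 : d ^ 10 = 1 := by
    have : d ^ 10 = (d ^ 5) ^ 2 := by ring
    rw [this, hd, hε]
  refine ⟨?_, hσc, map_zero σ, map_zero σ, hσd, ?_, ?_, ?_⟩
  · have : (c * d - 0 * 0) ^ 5 = c ^ 5 * d ^ 5 := by ring
    rw [this, h2]
  · intro u v
    simp only [zero_mul, add_zero, zero_add, kT]
    linear_combination
      (u ^ 30 * (c ^ 20 + c ^ 10 + 1) + 522 * u ^ 25 * v ^ 5 * (c ^ 10 + 1)
        - 10005 * u ^ 20 * v ^ 10 * (c ^ 10 + 1) - 10005 * u ^ 10 * v ^ 20 * d ^ 20) * h1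
      + (522 * u ^ 25 * v ^ 5 * c ^ 20 - 522 * u ^ 5 * v ^ 25 * d ^ 20) * h2
      + (v ^ 30 * (d ^ 20 + d ^ 10 + 1) - 522 * u ^ 5 * v ^ 25 * (d ^ 10 + 1)
        - 10005 * u ^ 20 * v ^ 10 * c ^ 20 - 10005 * u ^ 10 * v ^ 20 * (d ^ 10 + 1)) * h3
  · intro u v
    simp only [zero_mul, add_zero, zero_add, sub_zero, kFv]
    linear_combination (c * u ^ 11) * h1 + (66 * c * u ^ 6 * v ^ 5) * h2
      - (11 * c * u * v ^ 10) * h3
  · intro u v
    simp only [zero_mul, add_zero, zero_add, sub_zero, kFu]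
    linear_combination (11 * d * u ^ 10 * v) * h1 + (66 * d * u ^ 5 * v ^ 6) * h2
      - (d * v ^ 11) * h3

/-- The matrix `J = [[0, 1], [-1, 0]]` is admissible. -/
theorem goodMat_J (σ : GQ) : GoodMat σ 0 1 (-1) 0 := by
  refine ⟨by norm_num, map_zero σ, map_one σ, by rw [map_neg, map_one], map_zero σ, ?_, ?_, ?_⟩
  · intro u v
    simp only [kT]
    ring
  · intro u v
    simp only [kFv, kFu]
    ring
  · intro u v
    simp only [kFv, kFu]
    ring

/-- Klein's matrix `K = [[a, b], [b, -a]]` (`a² + b² = -1`) is admissible, given the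
`K`-invariance of `kT` and the `K`-covariance of the gradient of `kF`. -/
theorem goodMat_K (σ : GQ) (a b : Qb) (hab : a ^ 2 + b ^ 2 = -1) (hσa : σ a = a)
    (hσb : σ b = b)
    (hKT : ∀ u v : Qb, kT (a * u + b * v) (b * u - a * v) = kT u v)
    (hKu : ∀ u v : Qb, kFu (a * u + b * v) (b * u - a * v) = -(a * kFu u v + b * kFv u v))
    (hKv : ∀ u v : Qb, kFv (a * u + b * v) (b * u - a * v) = -(b * kFu u v - a * kFv u v)) :
    GoodMat σ a b b (-a) := by
  refine ⟨?_, hσa, hσb, hσb, by rw [map_neg, hσa], ?_, ?_, ?_⟩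
  · have : a * -a - b * b = 1 := by linear_combination -hab
    rw [this, one_pow]
  · intro u v
    have : b * u + -a * v = b * u - a * v := by ring
    rw [this, hKT]
  · intro u v
    have : b * u + -a * v = b * u - a * v := by ring
    rw [this, hKv]
    ring
  · intro u v
    have : b * u + -a * v = b * u - a * v := by ring
    rw [this, hKu]
    ring

/-! ### From the torsor to a fixed root -/

/-- **ROOT at a Klein parameter.**  If the torsor property `CovAt` holds at `(u0, v0)` for every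
automorphism fixing the 20th roots of unity, then the degree-11 pencil through `(u0, v0)` meets
`kT = 0` at a parameter `θ` fixed by an automorphism which moves `√3`. -/
theorem exists_root_of_covAt (u0 v0 : Qb) (hF : kF u0 v0 ≠ 0)
    (hcov : ∀ σ : GQ, (∀ z : Qb, z ^ 20 = 1 → σ z = z) → CovAt σ u0 v0) :
    ∃ (θ : Qb) (σ : GQ), kT (pencilU u0 v0 θ) (pencilV u0 v0 θ) = 0 ∧ σ θ = θ ∧
      ∃ r : Qb, r ^ 2 = 3 ∧ σ r ≠ r := by
  obtain ⟨σ0, hσ20, hσr⟩ := Fermat.Agent.S52.helper6799.exists_sigma0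
  obtain ⟨r, hr⟩ : ∃ r : Qb, r ^ 2 = 3 := IsAlgClosed.exists_pow_nat_eq _ (by norm_num)
  have hr0 : r ≠ 0 := by
    rintro rfl
    norm_num at hr
  obtain ⟨g11, g12, g21, g22, ⟨hdet, s11, s12, s21, s22, hTg, hv, hu⟩, hu0, hv0⟩ :=
    hcov σ0 hσ20
  let γ : (Qb × Qb) →ₗ[Qb] (Qb × Qb) :=
    { toFun := fun x => (g11 * x.1 + g12 * x.2, g21 * x.1 + g22 * x.2)
      map_add' := fun x y => by
        refine Prod.ext ?_ ?_ <;> simp only [Prod.fst_add, Prod.snd_add] <;> ring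
      map_smul' := fun c x => by
        refine Prod.ext ?_ ?_ <;>
          simp only [Prod.smul_fst, Prod.smul_snd, smul_eq_mul, RingHom.id_apply] <;> ring }
  have hγ : ∀ x, γ x = (g11 * x.1 + g12 * x.2, g21 * x.1 + g22 * x.2) := fun _ => rfl
  have hσu : σ0 (kFu u0 v0) = kFu (σ0 u0) (σ0 v0) := map_kFu (σ0 : Qb →+* Qb) u0 v0
  have hσv : σ0 (kFv u0 v0) = kFv (σ0 u0) (σ0 v0) := map_kFv (σ0 : Qb →+* Qb) u0 v0
  obtain ⟨θ, σ, h1, h2, h3⟩ := Fermat.Agent.S52.helper6799.exists_root_fixed_of_torsor σ0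
    (fun z hz => hσ20 z (by rw [show 20 = 2 * 10 from rfl, pow_mul, hz]; norm_num)) r (hσr r hr)
    γ (fun x => by
      rw [hγ, hγ]
      refine Prod.ext ?_ ?_ <;>
        simp only [Prod.map_fst, Prod.map_snd, map_mul, map_add, s11, s12, s21, s22])
    (g11 * g22 - g12 * g21) hdet
    (fun x y => by
      rw [hγ, hγ]
      simp only [Fermat.Agent.S52.helper6799.dt]
      ring)
    (fun x => kT x.1 x.2)
    (fun c x => by
      simp only [Prod.smul_fst, Prod.smul_snd, smul_eq_mul]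
      exact kT_smul c x.1 x.2)
    (fun x => by
      rw [hγ]
      exact hTg x.1 x.2)
    (fun z hz => by
      simp only [kT, one_pow, mul_one]
      linear_combination (z ^ 28 - z ^ 26 + z ^ 24 - z ^ 22 + z ^ 20 - z ^ 18 + z ^ 16 - z ^ 14
        + z ^ 12 - z ^ 10 + z ^ 8 - z ^ 6 + z ^ 4 - z ^ 2 + 1
        + 522 * (z ^ 23 - z ^ 21 + z ^ 19 - z ^ 17 + z ^ 15 - z ^ 13 + z ^ 11 - z ^ 9 + z ^ 7
          - z ^ 5)
        - 10005 * z ^ 10 * (z ^ 8 - z ^ 6 + z ^ 4 - z ^ 2 + 1)) * hz)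
    (u0, v0) (kFv u0 v0, -kFu u0 v0)
    (by rw [hγ]; exact Prod.ext hu0 hv0)
    (by
      rw [hγ]
      refine Prod.ext ?_ ?_
      · simp only [Prod.map_fst]
        rw [hσv, hu0, hv0, hv]
        ring
      · simp only [Prod.map_snd]
        rw [map_neg, hσu, hu0, hv0, hu]
        ring)
    (by
      simp only [Fermat.Agent.S52.helper6799.dt]
      have he := euler_kF u0 v0
      intro h
      apply hF
      have h12 : (12 : Qb) * kF u0 v0 = 0 := by linear_combination -h - he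
      exact (mul_eq_zero.mp h12).resolve_left (by norm_num))
  refine ⟨θ, σ, ?_, h2, r, hr, ?_⟩
  · have e1 : pencilU u0 v0 θ = ((u0, v0) + θ • (kFv u0 v0, -kFu u0 v0) : Qb × Qb).1 := by
      simp only [pencilU, Prod.fst_add, Prod.smul_fst, smul_eq_mul]
    have e2 : pencilV u0 v0 θ = ((u0, v0) + θ • (kFv u0 v0, -kFu u0 v0) : Qb × Qb).2 := by
      simp only [pencilV, Prod.snd_add, Prod.smul_snd, smul_eq_mul]
      ring
    rw [e1, e2]
    exact h1
  · rw [h3]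
    intro h4
    have h5 : (2 : Qb) * r = 0 := by linear_combination -h4
    exact hr0 ((mul_eq_zero.mp h5).resolve_left two_ne_zero)

/-- **ROOT-INST**: LINK + torsor (`CovAt`) ⟹ `RootData C4 C6`. -/
theorem rootData_of_covAt (C4 C6 : ℚ[X]) (c4 c6 : ℤ) (hΔ : c4 ^ 3 - c6 ^ 2 ≠ 0)
    (hlink : ∀ u v t : Qb, kH u v = -(c4 : Qb) → kT u v = -(c6 : Qb) →
      kH (pencilU u v t) (pencilV u v t) = -(aeval t C4) ∧
      kT (pencilU u v t) (pencilV u v t) = -(aeval t C6))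
    (hcov : ∀ u0 v0 : Qb, kH u0 v0 = -(c4 : Qb) → kT u0 v0 = -(c6 : Qb) →
      ∀ σ : GQ, (∀ z : Qb, z ^ 20 = 1 → σ z = z) → CovAt σ u0 v0) :
    RootData C4 C6 := by
  have h2 : (2 : Qb) ≠ 0 := two_ne_zero
  have h3 : (3 : Qb) ≠ 0 := three_ne_zero
  have h5 : (5 : Qb) ≠ 0 := by norm_num
  have hΔ' : (c4 : Qb) ^ 3 - (c6 : Qb) ^ 2 ≠ 0 := by
    intro h
    apply hΔ
    have : ((c4 ^ 3 - c6 ^ 2 : ℤ) : Qb) = 0 := by push_cast; exact h
    exact_mod_cast this
  obtain ⟨u0, v0, hH, hT, hF, -⟩ := exists_klein_param h2 h3 h5 (c4 : Qb) (c6 : Qb) hΔ'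
  obtain ⟨θ, σ, hθ, hσ, hr⟩ := exists_root_of_covAt u0 v0 hF (hcov u0 v0 hH hT)
  obtain ⟨hl4, hl6⟩ := hlink u0 v0 θ hH hT
  refine ⟨θ, σ, ?_, ?_, hσ, hr⟩
  · rw [hθ] at hl6
    linear_combination hl6
  · intro h
    rw [h, neg_zero] at hl4
    exact pencil_no_common_zero h2 h3 h5 u0 v0 θ hF ⟨hl4, hθ⟩

/-- **Block AUXP from LINK + torsor**: the hypothesis `hB` of `helper712.endgame`. -/
theorem hB_of_covAt (C4 C6 : ℚ[X]) (c4 c6 : ℤ) (hΔ : c4 ^ 3 - c6 ^ 2 ≠ 0)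
    (hlink : ∀ u v t : Qb, kH u v = -(c4 : Qb) → kT u v = -(c6 : Qb) →
      kH (pencilU u v t) (pencilV u v t) = -(aeval t C4) ∧
      kT (pencilU u v t) (pencilV u v t) = -(aeval t C6))
    (hcov : ∀ u0 v0 : Qb, kH u0 v0 = -(c4 : Qb) → kT u0 v0 = -(c6 : Qb) →
      ∀ σ : GQ, (∀ z : Qb, z ^ 20 = 1 → σ z = z) → CovAt σ u0 v0) :
    HB C4 C6 :=
  hB_of_rootData stmt_auxPQ_proved C4 C6 (rootData_of_covAt C4 C6 c4 c6 hΔ hlink hcov)

/-! ### The torsor in the four-case surface -/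

/-- The torsor statement for the fibres of `(kH, kT)` over `Qb`, in the four-case surface
(`w = λ·diag(ζ,1)·g·diag(1,ζ')·w₀`, `g ∈ {1, J, K, J K}`, `K = [[a, b], [b, -a]]`). -/
def Stmt_Torsor (a b : Qb) : Prop :=
  ∀ u0 v0 u v : Qb, kH u v = kH u0 v0 → kT u v = kT u0 v0 → kH u0 v0 ≠ 0 → kT u0 v0 ≠ 0 →
    ∃ lam ze ze' : Qb, lam ^ 10 = 1 ∧ ze ^ 5 = 1 ∧ ze' ^ 5 = 1 ∧
      ((u = lam * ze * u0 ∧ v = lam * v0) ∨
       (u = lam * ze * v0 ∧ v = -(lam * u0)) ∨
       (u = lam * ze * (a * u0 + b * ze' * v0) ∧ v = lam * (b * u0 - a * ze' * v0)) ∨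
       (u = lam * ze * (b * u0 - a * ze' * v0) ∧ v = -(lam * (a * u0 + b * ze' * v0))))

/-- The four-case description of `(σ u0, σ v0)` gives `CovAt` (pointwise form). -/
theorem covAt_of_cases (a b : Qb) (hab : a ^ 2 + b ^ 2 = -1)
    (hKT : ∀ u v : Qb, kT (a * u + b * v) (b * u - a * v) = kT u v)
    (hKu : ∀ u v : Qb, kFu (a * u + b * v) (b * u - a * v) = -(a * kFu u v + b * kFv u v))
    (hKv : ∀ u v : Qb, kFv (a * u + b * v) (b * u - a * v) = -(b * kFu u v - a * kFv u v))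
    (σ : GQ) (hσ : ∀ z : Qb, z ^ 20 = 1 → σ z = z) (hσa : σ a = a) (hσb : σ b = b)
    (u0 v0 : Qb)
    (hcase : ∃ lam ze ze' : Qb, lam ^ 10 = 1 ∧ ze ^ 5 = 1 ∧ ze' ^ 5 = 1 ∧
      ((σ u0 = lam * ze * u0 ∧ σ v0 = lam * v0) ∨
       (σ u0 = lam * ze * v0 ∧ σ v0 = -(lam * u0)) ∨
       (σ u0 = lam * ze * (a * u0 + b * ze' * v0) ∧ σ v0 = lam * (b * u0 - a * ze' * v0)) ∨
       (σ u0 = lam * ze * (b * u0 - a * ze' * v0) ∧
         σ v0 = -(lam * (a * u0 + b * ze' * v0))))) :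
    CovAt σ u0 v0 := by
  obtain ⟨lam, ze, ze', hlam, hze, hze', hcase⟩ := hcase
  have hσlam : σ lam = lam := hσ lam (by
    rw [show 20 = 10 * 2 from rfl, pow_mul, hlam, one_pow])
  have hσze : σ ze = ze := hσ ze (by
    rw [show 20 = 5 * 4 from rfl, pow_mul, hze, one_pow])
  have hσze' : σ ze' = ze' := hσ ze' (by
    rw [show 20 = 5 * 4 from rfl, pow_mul, hze', one_pow])
  -- the building blocks
  have hD : GoodMat σ (lam * ze) 0 0 lam :=
    goodMat_diag σ (lam * ze) lam (lam ^ 5) (by rw [mul_pow, hze, mul_one]) rfl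
      (by rw [← pow_mul]; exact hlam) (by rw [map_mul, hσlam, hσze]) hσlam
  have hD' : GoodMat σ 1 0 0 ze' :=
    goodMat_diag σ 1 ze' 1 (one_pow 5) hze' (one_pow 2) (map_one σ) hσze'
  have hJ : GoodMat σ 0 1 (-1) 0 := goodMat_J σ
  have hK : GoodMat σ a b b (-a) := goodMat_K σ a b hab hσa hσb hKT hKu hKv
  rcases hcase with ⟨hu, hv⟩ | ⟨hu, hv⟩ | ⟨hu, hv⟩ | ⟨hu, hv⟩
  · exact ⟨_, _, _, _, hD, by rw [hu]; ring, by rw [hv]; ring⟩
  · exact ⟨_, _, _, _, hD.mul hJ, by rw [hu]; ring, by rw [hv]; ring⟩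
  · exact ⟨_, _, _, _, hD.mul (hK.mul hD'), by rw [hu]; ring, by rw [hv]; ring⟩
  · exact ⟨_, _, _, _, hD.mul (hJ.mul (hK.mul hD')), by rw [hu]; ring, by rw [hv]; ring⟩

/-- The four-case torsor gives `CovAt`. -/
theorem covAt_of_torsor (a b : Qb) (hab : a ^ 2 + b ^ 2 = -1)
    (hKT : ∀ u v : Qb, kT (a * u + b * v) (b * u - a * v) = kT u v)
    (hKu : ∀ u v : Qb, kFu (a * u + b * v) (b * u - a * v) = -(a * kFu u v + b * kFv u v))
    (hKv : ∀ u v : Qb, kFv (a * u + b * v) (b * u - a * v) = -(b * kFu u v - a * kFv u v))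
    (htor : Stmt_Torsor a b)
    (σ : GQ) (hσ : ∀ z : Qb, z ^ 20 = 1 → σ z = z) (hσa : σ a = a) (hσb : σ b = b)
    (u0 v0 : Qb) (hH0 : kH u0 v0 ≠ 0) (hT0 : kT u0 v0 ≠ 0)
    (hσH : σ (kH u0 v0) = kH u0 v0) (hσT : σ (kT u0 v0) = kT u0 v0) :
    CovAt σ u0 v0 := by
  have e1 : kH (σ u0) (σ v0) = kH u0 v0 := by
    rw [← hσH]
    exact (map_kH (σ : Qb →+* Qb) u0 v0).symm
  have e2 : kT (σ u0) (σ v0) = kT u0 v0 := by
    rw [← hσT]
    exact (map_kT (σ : Qb →+* Qb) u0 v0).symm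
  exact covAt_of_cases a b hab hKT hKu hKv σ hσ hσa hσb u0 v0
    (htor u0 v0 (σ u0) (σ v0) e1 e2 hH0 hT0)

/-- **Block AUXP from LINK + the four-case torsor + the `K`-identities.** -/
theorem hB_of_torsor (C4 C6 : ℚ[X]) (c4 c6 : ℤ) (hc4 : c4 ≠ 0) (hc6 : c6 ≠ 0)
    (hΔ : c4 ^ 3 - c6 ^ 2 ≠ 0)
    (hlink : ∀ u v t : Qb, kH u v = -(c4 : Qb) → kT u v = -(c6 : Qb) →
      kH (pencilU u v t) (pencilV u v t) = -(aeval t C4) ∧
      kT (pencilU u v t) (pencilV u v t) = -(aeval t C6))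
    (a b : Qb) (hab : a ^ 2 + b ^ 2 = -1)
    (hσa : ∀ σ : GQ, (∀ z : Qb, z ^ 20 = 1 → σ z = z) → σ a = a)
    (hσb : ∀ σ : GQ, (∀ z : Qb, z ^ 20 = 1 → σ z = z) → σ b = b)
    (hKT : ∀ u v : Qb, kT (a * u + b * v) (b * u - a * v) = kT u v)
    (hKu : ∀ u v : Qb, kFu (a * u + b * v) (b * u - a * v) = -(a * kFu u v + b * kFv u v))
    (hKv : ∀ u v : Qb, kFv (a * u + b * v) (b * u - a * v) = -(b * kFu u v - a * kFv u v))
    (htor : Stmt_Torsor a b) :
    HB C4 C6 := by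
  refine hB_of_covAt C4 C6 c4 c6 hΔ hlink ?_
  intro u0 v0 hH hT σ hσ
  have hc4' : (c4 : Qb) ≠ 0 := by exact_mod_cast hc4
  have hc6' : (c6 : Qb) ≠ 0 := by exact_mod_cast hc6
  refine covAt_of_torsor a b hab hKT hKu hKv htor σ hσ (hσa σ hσ) (hσb σ hσ) u0 v0 ?_ ?_ ?_ ?_
  · rw [hH]; exact neg_ne_zero.mpr hc4'
  · rw [hT]; exact neg_ne_zero.mpr hc6'
  · rw [hH, map_neg, map_intCast]
  · rw [hT, map_neg, map_intCast]

end Fermat.Agent.S52.helper52
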