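/-
helper6116 — S52 (3–5 switch), module L3: the TORSOR LEMMA for Klein's icosahedral forms,
by pure polynomial identities (no group theory, no root counting).

If `(u, v)` and `(u0, v0)` have the same values of Klein's forms `H` and `T` (nonzero), then
`(u, v)` is obtained from `(u0, v0)` by a scalar tenth root of unity, diagonal fifth roots of unity
and one of the four matrices `1, S, K, S K` (`S (x, y) = (y, -x)`, `K = a [[1, e],[e, -1]]`,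
`e^2 = e + 1`, `a^2 (e + 2) = -1`: Klein's generator of order 4).
All identities were found and certified by exact computer algebra and are re-checked here by `ring`.
-/
import Mathlib

set_option autoImplicit false
set_option maxRecDepth 100000
set_option maxHeartbeats 4000000

namespace Fermat.Agent.S52.helper6116

section Ring

variable {R : Type*} [CommRing R]

/-- Klein's icosahedral form of degree 12. -/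
def kf (u v : R) : R := u * v * (u ^ 10 + 11 * u ^ 5 * v ^ 5 - v ^ 10)

/-- Klein's icosahedral form of degree 20. -/
def kH (u v : R) : R :=
  -(u ^ 20 + v ^ 20) + 228 * (u ^ 15 * v ^ 5 - u ^ 5 * v ^ 15) - 494 * u ^ 10 * v ^ 10

/-- Klein's icosahedral form of degree 30. -/
def kT (u v : R) : R :=
  (u ^ 30 + v ^ 30) + 522 * (u ^ 25 * v ^ 5 - u ^ 5 * v ^ 25)
    - 10005 * (u ^ 20 * v ^ 10 + u ^ 10 * v ^ 20)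

/-- `H` as a quartic form in `(u^5, v^5)`. -/
def hH4 (U V : R) : R := -(U ^ 4 + V ^ 4) + 228 * (U ^ 3 * V - U * V ^ 3) - 494 * U ^ 2 * V ^ 2

/-- `T` as a sextic form in `(u^5, v^5)`. -/
def hT6 (U V : R) : R :=
  (U ^ 6 + V ^ 6) + 522 * (U ^ 5 * V - U * V ^ 5) - 10005 * (U ^ 4 * V ^ 2 + U ^ 2 * V ^ 4)

theorem kH_eq (u v : R) : kH u v = hH4 (u ^ 5) (v ^ 5) := by unfold kH hH4; ring

theorem kT_eq (u v : R) : kT u v = hT6 (u ^ 5) (v ^ 5) := by unfold kT hT6; ring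

theorem klein_syzygy (u v : R) : kT u v ^ 2 + kH u v ^ 3 = 1728 * kf u v ^ 5 := by
  unfold kT kH kf; ring

theorem kH_smul (m x y : R) : kH (m * x) (m * y) = m ^ 20 * kH x y := by unfold kH; ring

theorem kT_smul (m x y : R) : kT (m * x) (m * y) = m ^ 30 * kT x y := by unfold kT; ring

theorem kf_smul (m x y : R) : kf (m * x) (m * y) = m ^ 12 * kf x y := by unfold kf; ring

theorem kH_S (x y : R) : kH y (-x) = kH x y := by unfold kH; ring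

theorem kT_S (x y : R) : kT y (-x) = kT x y := by unfold kT; ring

theorem kf_S (x y : R) : kf y (-x) = kf x y := by unfold kf; ring

theorem kH_diag_left (ze x y : R) (hze : ze ^ 5 = 1) : kH (ze * x) y = kH x y := by
  rw [kH_eq, kH_eq, mul_pow, hze, one_mul]

theorem kH_diag_right (ze x y : R) (hze : ze ^ 5 = 1) : kH x (ze * y) = kH x y := by
  rw [kH_eq, kH_eq, mul_pow, hze, one_mul]

theorem kT_diag_left (ze x y : R) (hze : ze ^ 5 = 1) : kT (ze * x) y = kT x y := by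
  rw [kT_eq, kT_eq, mul_pow, hze, one_mul]

theorem kT_diag_right (ze x y : R) (hze : ze ^ 5 = 1) : kT x (ze * y) = kT x y := by
  rw [kT_eq, kT_eq, mul_pow, hze, one_mul]

/-- Invariance of `H` under the (unnormalised) Klein matrix `[[1, e], [e, -1]]`, `e^2 = e + 1`. -/
theorem kH_K (e x y : R) (he : e ^ 2 = e + 1) :
    kH (x + e * y) (e * x - y) = (e + 2) ^ 10 * kH x y := by
  unfold kH
  linear_combination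
    (    -e^18*x^20 - 228*e^18*x^15*y^5 - 494*e^18*x^10*y^10 + 228*e^18*x^5*y^15 - e^18*y^20 - e^17*x^20 + 20*e^17*x^19*y
    - 1140*e^17*x^16*y^4 - 228*e^17*x^15*y^5 + 3420*e^17*x^14*y^6 - 4940*e^17*x^11*y^9 - 494*e^17*x^10*y^10 + 4940*e^17*x^9*y^11
    + 3420*e^17*x^6*y^14 + 228*e^17*x^5*y^15 - 1140*e^17*x^4*y^16 - 20*e^17*x*y^19 - e^17*y^20 - 2*e^16*x^20 + 20*e^16*x^19*y
    - 190*e^16*x^18*y^2 - 2280*e^16*x^17*y^3 - 1140*e^16*x^16*y^4 + 16644*e^16*x^15*y^5 + 3420*e^16*x^14*y^6 - 23940*e^16*x^13*y^7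
    - 22230*e^16*x^12*y^8 - 4940*e^16*x^11*y^9 + 48412*e^16*x^10*y^10 + 4940*e^16*x^9*y^11 - 22230*e^16*x^8*y^12
    + 23940*e^16*x^7*y^13 + 3420*e^16*x^6*y^14 - 16644*e^16*x^5*y^15 - 1140*e^16*x^4*y^16 + 2280*e^16*x^3*y^17
    - 190*e^16*x^2*y^18 - 20*e^16*x*y^19 - 2*e^16*y^20 - 3*e^15*x^20 + 40*e^15*x^19*y - 2470*e^15*x^18*y^2 - 1140*e^15*x^17*y^3
    + 31920*e^15*x^16*y^4 + 16416*e^15*x^15*y^5 - 112860*e^15*x^14*y^6 - 83220*e^15*x^13*y^7 + 81510*e^15*x^12*y^8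
    + 212420*e^15*x^11*y^9 + 47918*e^15*x^10*y^10 - 212420*e^15*x^9*y^11 + 81510*e^15*x^8*y^12 + 83220*e^15*x^7*y^13
    - 112860*e^15*x^6*y^14 - 16416*e^15*x^5*y^15 + 31920*e^15*x^4*y^16 + 1140*e^15*x^3*y^17 - 2470*e^15*x^2*y^18
    - 40*e^15*x*y^19 - 3*e^15*y^20 - 5*e^14*x^20 - 1080*e^14*x^19*y - 2660*e^14*x^18*y^2 + 30780*e^14*x^17*y^3
    + 25935*e^14*x^16*y^4 - 206340*e^14*x^15*y^5 - 213180*e^14*x^14*y^6 + 411540*e^14*x^13*y^7 + 652080*e^14*x^12*y^8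
    - 103740*e^14*x^11*y^9 - 904020*e^14*x^10*y^10 + 103740*e^14*x^9*y^11 + 652080*e^14*x^8*y^12 - 411540*e^14*x^7*y^13
    - 213180*e^14*x^6*y^14 + 206340*e^14*x^5*y^15 + 25935*e^14*x^4*y^16 - 30780*e^14*x^3*y^17 - 2660*e^14*x^2*y^18
    + 1080*e^14*x*y^19 - 5*e^14*y^20 - 236*e^13*x^20 - 1040*e^13*x^19*y + 11970*e^13*x^18*y^2 + 29640*e^13*x^17*y^3
    - 181545*e^13*x^16*y^4 - 298908*e^13*x^15*y^5 + 711360*e^13*x^14*y^6 + 1365720*e^13*x^13*y^7 - 822510*e^13*x^12*y^8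
    - 2558920*e^13*x^11*y^9 + 513266*e^13*x^10*y^10 + 2558920*e^13*x^9*y^11 - 822510*e^13*x^8*y^12 - 1365720*e^13*x^7*y^13
    + 711360*e^13*x^6*y^14 + 298908*e^13*x^5*y^15 - 181545*e^13*x^4*y^16 - 29640*e^13*x^3*y^17 + 11970*e^13*x^2*y^18
    + 1040*e^13*x*y^19 - 236*e^13*y^20 - 241*e^12*x^20 + 1300*e^12*x^19*y + 9310*e^12*x^18*y^2 - 59280*e^12*x^17*y^3
    - 259350*e^12*x^16*y^4 + 532152*e^12*x^15*y^5 + 1704300*e^12*x^14*y^6 - 1334940*e^12*x^13*y^7 - 4838730*e^12*x^12*y^8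
    + 1901900*e^12*x^11*y^9 + 6722846*e^12*x^10*y^10 - 1901900*e^12*x^9*y^11 - 4838730*e^12*x^8*y^12 + 1334940*e^12*x^7*y^13
    + 1704300*e^12*x^6*y^14 - 532152*e^12*x^5*y^15 - 259350*e^12*x^4*y^16 + 59280*e^12*x^3*y^17 + 9310*e^12*x^2*y^18
    - 1300*e^12*x*y^19 - 241*e^12*y^20 - 477*e^11*x^20 + 260*e^11*x^19*y - 2660*e^11*x^18*y^2 - 88920*e^11*x^17*y^3
    + 77805*e^11*x^16*y^4 + 1270644*e^11*x^15*y^5 - 696540*e^11*x^14*y^6 - 5493660*e^11*x^13*y^7 + 2652780*e^11*x^12*y^8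
    + 11791780*e^11*x^11*y^9 - 4175288*e^11*x^10*y^10 - 11791780*e^11*x^9*y^11 + 2652780*e^11*x^8*y^12 + 5493660*e^11*x^7*y^13
    - 696540*e^11*x^6*y^14 - 1270644*e^11*x^5*y^15 + 77805*e^11*x^4*y^16 + 88920*e^11*x^3*y^17 - 2660*e^11*x^2*y^18
    - 260*e^11*x*y^19 - 477*e^11*y^20 - 718*e^10*x^20 + 1560*e^10*x^19*y - 15580*e^10*x^18*y^2 - 44460*e^10*x^17*y^3
    + 411255*e^10*x^16*y^4 + 246696*e^10*x^15*y^5 - 3660540*e^10*x^14*y^6 + 1485420*e^10*x^13*y^7 + 12626640*e^10*x^12*y^8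
    - 5053620*e^10*x^11*y^9 - 19237842*e^10*x^10*y^10 + 5053620*e^10*x^9*y^11 + 12626640*e^10*x^8*y^12 - 1485420*e^10*x^7*y^13
    - 3660540*e^10*x^6*y^14 - 246696*e^10*x^5*y^15 + 411255*e^10*x^4*y^16 + 44460*e^10*x^3*y^17 - 15580*e^10*x^2*y^18
    - 1560*e^10*x*y^19 - 718*e^10*y^20 - 1195*e^9*x^20 - 3120*e^9*x^19*y - 18240*e^9*x^18*y^2 + 88920*e^9*x^17*y^3
    + 177840*e^9*x^16*y^4 - 1150260*e^9*x^15*y^5 + 207480*e^9*x^14*y^6 + 8440560*e^9*x^13*y^7 - 3467880*e^9*x^12*y^8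
    - 19236360*e^9*x^11*y^9 + 5930470*e^9*x^10*y^10 + 19236360*e^9*x^9*y^11 - 3467880*e^9*x^8*y^12 - 8440560*e^9*x^7*y^13
    + 207480*e^9*x^6*y^14 + 1150260*e^9*x^5*y^15 + 177840*e^9*x^4*y^16 - 88920*e^9*x^3*y^17 - 18240*e^9*x^2*y^18
    + 3120*e^9*x*y^19 - 1195*e^9*y^20 - 2406*e^8*x^20 - 1560*e^8*x^19*y + 15580*e^8*x^18*y^2 + 44460*e^8*x^17*y^3
    - 411255*e^8*x^16*y^4 + 465576*e^8*x^15*y^5 + 3660540*e^8*x^14*y^6 - 1485420*e^8*x^13*y^7 - 12626640*e^8*x^12*y^8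
    + 5053620*e^8*x^11*y^9 + 17694586*e^8*x^10*y^10 - 5053620*e^8*x^9*y^11 - 12626640*e^8*x^8*y^12 + 1485420*e^8*x^7*y^13
    + 3660540*e^8*x^6*y^14 - 465576*e^8*x^5*y^15 - 411255*e^8*x^4*y^16 - 44460*e^8*x^3*y^17 + 15580*e^8*x^2*y^18
    + 1560*e^8*x*y^19 - 2406*e^8*y^20 - 3581*e^7*x^20 + 260*e^7*x^19*y - 2660*e^7*x^18*y^2 - 88920*e^7*x^17*y^3
    + 77805*e^7*x^16*y^4 + 1978356*e^7*x^15*y^5 - 696540*e^7*x^14*y^6 - 5493660*e^7*x^13*y^7 + 2652780*e^7*x^12*y^8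
    + 11791780*e^7*x^11*y^9 - 5708664*e^7*x^10*y^10 - 11791780*e^7*x^9*y^11 + 2652780*e^7*x^8*y^12 + 5493660*e^7*x^7*y^13
    - 696540*e^7*x^6*y^14 - 1978356*e^7*x^5*y^15 + 77805*e^7*x^4*y^16 + 88920*e^7*x^3*y^17 - 2660*e^7*x^2*y^18
    - 260*e^7*x*y^19 - 3581*e^7*y^20 - 5807*e^6*x^20 - 1300*e^6*x^19*y - 9310*e^6*x^18*y^2 + 59280*e^6*x^17*y^3
    + 259350*e^6*x^16*y^4 + 846792*e^6*x^15*y^5 - 1704300*e^6*x^14*y^6 + 1334940*e^6*x^13*y^7 + 4838730*e^6*x^12*y^8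
    - 1901900*e^6*x^11*y^9 - 9710558*e^6*x^10*y^10 + 1901900*e^6*x^9*y^11 + 4838730*e^6*x^8*y^12 - 1334940*e^6*x^7*y^13
    - 1704300*e^6*x^6*y^14 - 846792*e^6*x^5*y^15 + 259350*e^6*x^4*y^16 - 59280*e^6*x^3*y^17 - 9310*e^6*x^2*y^18
    + 1300*e^6*x*y^19 - 5807*e^6*y^20 - 8428*e^5*x^20 - 1040*e^5*x^19*y + 11970*e^5*x^18*y^2 + 29640*e^5*x^17*y^3
    - 181545*e^5*x^16*y^4 + 1568868*e^5*x^15*y^5 + 711360*e^5*x^14*y^6 + 1365720*e^5*x^13*y^7 - 822510*e^5*x^12*y^8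
    - 2558920*e^5*x^11*y^9 - 3533582*e^5*x^10*y^10 + 2558920*e^5*x^9*y^11 - 822510*e^5*x^8*y^12 - 1365720*e^5*x^7*y^13
    + 711360*e^5*x^6*y^14 - 1568868*e^5*x^5*y^15 - 181545*e^5*x^4*y^16 - 29640*e^5*x^3*y^17 + 11970*e^5*x^2*y^18
    + 1040*e^5*x*y^19 - 8428*e^5*y^20 - 10875*e^4*x^20 + 1080*e^4*x^19*y + 2660*e^4*x^18*y^2 - 30780*e^4*x^17*y^3
    - 25935*e^4*x^16*y^4 + 2686980*e^4*x^15*y^5 + 213180*e^4*x^14*y^6 - 411540*e^4*x^13*y^7 - 652080*e^4*x^12*y^8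
    + 103740*e^4*x^11*y^9 - 4470700*e^4*x^10*y^10 - 103740*e^4*x^9*y^11 - 652080*e^4*x^8*y^12 + 411540*e^4*x^7*y^13
    + 213180*e^4*x^6*y^14 - 2686980*e^4*x^5*y^15 - 25935*e^4*x^4*y^16 + 30780*e^4*x^3*y^17 + 2660*e^4*x^2*y^18
    - 1080*e^4*x*y^19 - 10875*e^4*y^20 - 11011*e^3*x^20 + 40*e^3*x^19*y - 2470*e^3*x^18*y^2 - 1140*e^3*x^17*y^3
    + 31920*e^3*x^16*y^4 + 2526240*e^3*x^15*y^5 - 112860*e^3*x^14*y^6 - 83220*e^3*x^13*y^7 + 81510*e^3*x^12*y^8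
    + 212420*e^3*x^11*y^9 - 5390034*e^3*x^10*y^10 - 212420*e^3*x^9*y^11 + 81510*e^3*x^8*y^12 + 83220*e^3*x^7*y^13
    - 112860*e^3*x^6*y^14 - 2526240*e^3*x^5*y^15 + 31920*e^3*x^4*y^16 + 1140*e^3*x^3*y^17 - 2470*e^3*x^2*y^18
    - 40*e^3*x*y^19 - 11011*e^3*y^20 - 8446*e^2*x^20 - 20*e^2*x^19*y + 190*e^2*x^18*y^2 + 2280*e^2*x^17*y^3 + 1140*e^2*x^16*y^4
    + 1909500*e^2*x^15*y^5 - 3420*e^2*x^14*y^6 + 23940*e^2*x^13*y^7 + 22230*e^2*x^12*y^8 + 4940*e^2*x^11*y^9 - 4221724*e^2*x^10*y^10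
    - 4940*e^2*x^9*y^11 + 22230*e^2*x^8*y^12 - 23940*e^2*x^7*y^13 - 3420*e^2*x^6*y^14 - 1909500*e^2*x^5*y^15 + 1140*e^2*x^4*y^16
    - 2280*e^2*x^3*y^17 + 190*e^2*x^2*y^18 + 20*e^2*x*y^19 - 8446*e^2*y^20 - 4097*e*x^20 + 20*e*x^19*y - 1140*e*x^16*y^4
    + 933660*e*x^15*y^5 + 3420*e*x^14*y^6 - 4940*e*x^11*y^9 - 2023918*e*x^10*y^10 + 4940*e*x^9*y^11 + 3420*e*x^6*y^14
    - 933660*e*x^5*y^15 - 1140*e*x^4*y^16 - 20*e*x*y^19 - 4097*e*y^20 - 1023*x^20 + 233700*x^15*y^5 - 505362*x^10*y^10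
    - 233700*x^5*y^15 - 1023*y^20) * he
/-- Behaviour of `T` under the (unnormalised) Klein matrix `[[1, e], [e, -1]]`. -/
theorem kT_K (e x y : R) (he : e ^ 2 = e + 1) :
    kT (x + e * y) (e * x - y) = -((e + 2) ^ 15 * kT x y) := by
  unfold kT
  linear_combination
    (    e^28*x^30 - 522*e^28*x^25*y^5 - 10005*e^28*x^20*y^10 - 10005*e^28*x^10*y^20 + 522*e^28*x^5*y^25 + e^28*y^30
    + e^27*x^30 - 30*e^27*x^29*y - 2610*e^27*x^26*y^4 - 522*e^27*x^25*y^5 + 13050*e^27*x^24*y^6 - 100050*e^27*x^21*y^9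
    - 10005*e^27*x^20*y^10 + 200100*e^27*x^19*y^11 - 200100*e^27*x^11*y^19 - 10005*e^27*x^10*y^20 + 100050*e^27*x^9*y^21
    + 13050*e^27*x^6*y^24 + 522*e^27*x^5*y^25 - 2610*e^27*x^4*y^26 + 30*e^27*x*y^29 + e^27*y^30 + 2*e^26*x^30
    - 30*e^26*x^29*y + 435*e^26*x^28*y^2 - 5220*e^26*x^27*y^3 - 2610*e^26*x^26*y^4 + 64206*e^26*x^25*y^5 + 13050*e^26*x^24*y^6
    - 156600*e^26*x^23*y^7 - 450225*e^26*x^22*y^8 - 100050*e^26*x^21*y^9 + 1980990*e^26*x^20*y^10 + 200100*e^26*x^19*y^11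
    - 1900950*e^26*x^18*y^12 - 1900950*e^26*x^12*y^18 - 200100*e^26*x^11*y^19 + 1980990*e^26*x^10*y^20 + 100050*e^26*x^9*y^21
    - 450225*e^26*x^8*y^22 + 156600*e^26*x^7*y^23 + 13050*e^26*x^6*y^24 - 64206*e^26*x^5*y^25 - 2610*e^26*x^4*y^26
    + 5220*e^26*x^3*y^27 + 435*e^26*x^2*y^28 + 30*e^26*x*y^29 + 2*e^26*y^30 + 3*e^25*x^30 - 60*e^25*x^29*y - 4785*e^25*x^28*y^2
    - 9280*e^25*x^27*y^3 + 125280*e^25*x^26*y^4 + 63684*e^25*x^25*y^5 - 756900*e^25*x^24*y^6 - 1357200*e^25*x^23*y^7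
    + 750375*e^25*x^22*y^8 + 8804400*e^25*x^21*y^9 + 1970985*e^25*x^20*y^10 - 18609300*e^25*x^19*y^11 - 1900950*e^25*x^18*y^12
    + 11405700*e^25*x^17*y^13 - 11405700*e^25*x^13*y^17 - 1900950*e^25*x^12*y^18 + 18609300*e^25*x^11*y^19 + 1970985*e^25*x^10*y^20
    - 8804400*e^25*x^9*y^21 + 750375*e^25*x^8*y^22 + 1357200*e^25*x^7*y^23 - 756900*e^25*x^6*y^24 - 63684*e^25*x^5*y^25
    + 125280*e^25*x^4*y^26 + 9280*e^25*x^3*y^27 - 4785*e^25*x^2*y^28 + 60*e^25*x*y^29 + 3*e^25*y^30 + 5*e^24*x^30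
    - 2700*e^24*x^29*y - 4350*e^24*x^28*y^2 + 116000*e^24*x^27*y^3 + 150075*e^24*x^26*y^4 - 1438110*e^24*x^25*y^5
    - 2844900*e^24*x^24*y^6 + 4489200*e^24*x^23*y^7 + 24312150*e^24*x^22*y^8 + 2101050*e^24*x^21*y^9 - 81590775*e^24*x^20*y^10
    - 18409200*e^24*x^19*y^11 + 110255100*e^24*x^18*y^12 + 11405700*e^24*x^17*y^13 - 48474225*e^24*x^16*y^14 - 48474225*e^24*x^14*y^16
    - 11405700*e^24*x^13*y^17 + 110255100*e^24*x^12*y^18 + 18409200*e^24*x^11*y^19 - 81590775*e^24*x^10*y^20 - 2101050*e^24*x^9*y^21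
    + 24312150*e^24*x^8*y^22 - 4489200*e^24*x^7*y^23 - 2844900*e^24*x^6*y^24 + 1438110*e^24*x^5*y^25 + 150075*e^24*x^4*y^26
    - 116000*e^24*x^3*y^27 - 4350*e^24*x^2*y^28 + 2700*e^24*x*y^29 + 5*e^24*y^30 - 514*e^23*x^30 - 2760*e^23*x^29*y
    + 56115*e^23*x^28*y^2 + 106720*e^23*x^27*y^3 - 1290645*e^23*x^26*y^4 - 4038192*e^23*x^25*y^5 + 8404200*e^23*x^24*y^6
    + 45153000*e^23*x^23*y^7 - 7953975*e^23*x^22*y^8 - 217208550*e^23*x^21*y^9 - 51885930*e^23*x^20*y^10 + 476238000*e^23*x^19*y^11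
    + 108354150*e^23*x^18*y^12 - 461930850*e^23*x^17*y^13 - 48474225*e^23*x^16*y^14 - 48474225*e^23*x^14*y^16
    + 461930850*e^23*x^13*y^17 + 108354150*e^23*x^12*y^18 - 476238000*e^23*x^11*y^19 - 51885930*e^23*x^10*y^20
    + 217208550*e^23*x^9*y^21 - 7953975*e^23*x^8*y^22 - 45153000*e^23*x^7*y^23 + 8404200*e^23*x^6*y^24 + 4038192*e^23*x^5*y^25
    - 1290645*e^23*x^4*y^26 - 106720*e^23*x^3*y^27 + 56115*e^23*x^2*y^28 + 2760*e^23*x*y^29 - 514*e^23*y^30 - 509*e^22*x^30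
    + 7590*e^22*x^29*y + 51765*e^22*x^28*y^2 - 560280*e^22*x^27*y^3 - 3241620*e^22*x^26*y^4 + 6529698*e^22*x^25*y^5
    + 56578275*e^22*x^24*y^6 - 16390800*e^22*x^23*y^7 - 382841325*e^22*x^22*y^8 - 76438200*e^22*x^21*y^9 + 1235207295*e^22*x^20*y^10
    + 365382600*e^22*x^19*y^11 - 1962730875*e^22*x^18*y^12 - 450525150*e^22*x^17*y^13 + 1066432950*e^22*x^16*y^14
    + 1066432950*e^22*x^14*y^16 + 450525150*e^22*x^13*y^17 - 1962730875*e^22*x^12*y^18 - 365382600*e^22*x^11*y^19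
    + 1235207295*e^22*x^10*y^20 + 76438200*e^22*x^9*y^21 - 382841325*e^22*x^8*y^22 + 16390800*e^22*x^7*y^23 + 56578275*e^22*x^6*y^24
    - 6529698*e^22*x^5*y^25 - 3241620*e^22*x^4*y^26 + 560280*e^22*x^3*y^27 + 51765*e^22*x^2*y^28 - 7590*e^22*x*y^29
    - 509*e^22*y^30 - 1023*e^21*x^30 + 4830*e^21*x^29*y - 48720*e^21*x^28*y^2 - 1654160*e^21*x^27*y^3 + 1470735*e^21*x^26*y^4
    + 44512506*e^21*x^25*y^5 - 1050525*e^21*x^24*y^6 - 452313000*e^21*x^23*y^7 - 113456700*e^21*x^22*y^8 + 2101550250*e^21*x^21*y^9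
    + 721090365*e^21*x^20*y^10 - 4975286400*e^21*x^19*y^11 - 1603451325*e^21*x^18*y^12 + 5292244800*e^21*x^17*y^13
    + 1017958725*e^21*x^16*y^14 + 1017958725*e^21*x^14*y^16 - 5292244800*e^21*x^13*y^17 - 1603451325*e^21*x^12*y^18
    + 4975286400*e^21*x^11*y^19 + 721090365*e^21*x^10*y^20 - 2101550250*e^21*x^9*y^21 - 113456700*e^21*x^8*y^22
    + 452313000*e^21*x^7*y^23 - 1050525*e^21*x^6*y^24 - 44512506*e^21*x^5*y^25 + 1470735*e^21*x^4*y^26 + 1654160*e^21*x^3*y^27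
    - 48720*e^21*x^2*y^28 - 4830*e^21*x*y^29 - 1023*e^21*y^30 - 1532*e^20*x^30 + 12420*e^20*x^29*y - 447180*e^20*x^28*y^2
    - 1013840*e^20*x^27*y^3 + 22241115*e^20*x^26*y^4 + 18025704*e^20*x^25*y^5 - 343671750*e^20*x^24*y^6 - 191365200*e^20*x^23*y^7
    + 2383791300*e^20*x^22*y^8 + 1100650050*e^20*x^21*y^9 - 8223289590*e^20*x^20*y^10 - 3355276800*e^20*x^19*y^11
    + 13787590350*e^20*x^18*y^12 + 4277137500*e^20*x^17*y^13 - 7610453325*e^20*x^16*y^14 - 7610453325*e^20*x^14*y^16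
    - 4277137500*e^20*x^13*y^17 + 13787590350*e^20*x^12*y^18 + 3355276800*e^20*x^11*y^19 - 8223289590*e^20*x^10*y^20
    - 1100650050*e^20*x^9*y^21 + 2383791300*e^20*x^8*y^22 + 191365200*e^20*x^7*y^23 - 343671750*e^20*x^6*y^24
    - 18025704*e^20*x^5*y^25 + 22241115*e^20*x^4*y^26 + 1013840*e^20*x^3*y^27 - 447180*e^20*x^2*y^28 - 12420*e^20*x*y^29
    - 1532*e^20*y^30 - 2555*e^19*x^30 - 82800*e^19*x^29*y - 495900*e^19*x^28*y^2 + 6336500*e^19*x^27*y^3 + 17108550*e^19*x^26*y^4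
    - 165575790*e^19*x^25*y^5 - 206052975*e^19*x^24*y^6 + 1751518800*e^19*x^23*y^7 + 1345872600*e^19*x^22*y^8
    - 9027611550*e^19*x^21*y^9 - 4992945225*e^19*x^20*y^10 + 22563676200*e^19*x^19*y^11 + 9361228275*e^19*x^18*y^12
    - 24362575200*e^19*x^17*y^13 - 5526061650*e^19*x^16*y^14 - 5526061650*e^19*x^14*y^16 + 24362575200*e^19*x^13*y^17
    + 9361228275*e^19*x^12*y^18 - 22563676200*e^19*x^11*y^19 - 4992945225*e^19*x^10*y^20 + 9027611550*e^19*x^9*y^21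
    + 1345872600*e^19*x^8*y^22 - 1751518800*e^19*x^7*y^23 - 206052975*e^19*x^6*y^24 + 165575790*e^19*x^5*y^25
    + 17108550*e^19*x^4*y^26 - 6336500*e^19*x^3*y^27 - 495900*e^19*x^2*y^28 + 82800*e^19*x*y^29 - 2555*e^19*y^30
    - 14092*e^18*x^30 - 70380*e^18*x^29*y + 1057920*e^18*x^28*y^2 + 5322660*e^18*x^27*y^3 - 46193085*e^18*x^26*y^4
    - 119816226*e^18*x^25*y^5 + 818959275*e^18*x^24*y^6 + 1097922600*e^18*x^23*y^7 - 6449923350*e^18*x^22*y^8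
    - 5417707500*e^18*x^21*y^9 + 24054941460*e^18*x^20*y^10 + 13562577900*e^18*x^19*y^11 - 41483481375*e^18*x^18*y^12
    - 14753272950*e^18*x^17*y^13 + 23219153775*e^18*x^16*y^14 + 23219153775*e^18*x^14*y^16 + 14753272950*e^18*x^13*y^17
    - 41483481375*e^18*x^12*y^18 - 13562577900*e^18*x^11*y^19 + 24054941460*e^18*x^10*y^20 + 5417707500*e^18*x^9*y^21
    - 6449923350*e^18*x^8*y^22 - 1097922600*e^18*x^7*y^23 + 818959275*e^18*x^6*y^24 + 119816226*e^18*x^5*y^25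
    - 46193085*e^18*x^4*y^26 - 5322660*e^18*x^3*y^27 + 1057920*e^18*x^2*y^28 + 70380*e^18*x*y^29 - 14092*e^18*y^30
    - 16647*e^17*x^30 + 46920*e^17*x^29*y + 562020*e^17*x^28*y^2 - 7350340*e^17*x^27*y^3 - 29084535*e^17*x^26*y^4
    + 227864484*e^17*x^25*y^5 + 520460100*e^17*x^24*y^6 - 2967465600*e^17*x^23*y^7 - 3849423750*e^17*x^22*y^8
    + 16448920350*e^17*x^21*y^9 + 13416174735*e^17*x^20*y^10 - 43167573000*e^17*x^19*y^11 - 21457923600*e^17*x^18*y^12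
    + 48137756850*e^17*x^17*y^13 + 11488391325*e^17*x^16*y^14 + 11488391325*e^17*x^14*y^16 - 48137756850*e^17*x^13*y^17
    - 21457923600*e^17*x^12*y^18 + 43167573000*e^17*x^11*y^19 + 13416174735*e^17*x^10*y^20 - 16448920350*e^17*x^9*y^21
    - 3849423750*e^17*x^8*y^22 + 2967465600*e^17*x^7*y^23 + 520460100*e^17*x^6*y^24 - 227864484*e^17*x^5*y^25
    - 29084535*e^17*x^4*y^26 + 7350340*e^17*x^3*y^27 + 562020*e^17*x^2*y^28 - 46920*e^17*x*y^29 - 16647*e^17*y^30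
    - 30739*e^16*x^30 - 23460*e^16*x^29*y - 281010*e^16*x^28*y^2 - 2027680*e^16*x^27*y^3 + 38779380*e^16*x^26*y^4
    + 108048258*e^16*x^25*y^5 - 841920750*e^16*x^24*y^6 - 1618617600*e^16*x^23*y^7 + 7054425450*e^16*x^22*y^8
    + 8208302100*e^16*x^21*y^9 - 27161183805*e^16*x^20*y^10 - 18940665600*e^16*x^19*y^11 + 49411393350*e^16*x^18*y^12
    + 19036113300*e^16*x^17*y^13 - 28308947400*e^16*x^16*y^14 - 28308947400*e^16*x^14*y^16 - 19036113300*e^16*x^13*y^17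
    + 49411393350*e^16*x^12*y^18 + 18940665600*e^16*x^11*y^19 - 27161183805*e^16*x^10*y^20 - 8208302100*e^16*x^9*y^21
    + 7054425450*e^16*x^8*y^22 + 1618617600*e^16*x^7*y^23 - 841920750*e^16*x^6*y^24 - 108048258*e^16*x^5*y^25
    + 38779380*e^16*x^4*y^26 + 2027680*e^16*x^3*y^27 - 281010*e^16*x^2*y^28 + 23460*e^16*x*y^29 - 30739*e^16*y^30
    - 47386*e^15*x^30 + 23460*e^15*x^29*y + 281010*e^15*x^28*y^2 + 2027680*e^15*x^27*y^3 + 9694845*e^15*x^26*y^4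
    - 148829508*e^15*x^25*y^5 - 321460650*e^15*x^24*y^6 + 1618617600*e^15*x^23*y^7 + 2640419550*e^15*x^22*y^8
    - 9274735050*e^15*x^21*y^9 - 8412844320*e^15*x^20*y^10 + 25145366400*e^15*x^19*y^11 + 13605099150*e^15*x^18*y^12
    - 28730958300*e^15*x^17*y^13 - 7125711075*e^15*x^16*y^14 - 7125711075*e^15*x^14*y^16 + 28730958300*e^15*x^13*y^17
    + 13605099150*e^15*x^12*y^18 - 25145366400*e^15*x^11*y^19 - 8412844320*e^15*x^10*y^20 + 9274735050*e^15*x^9*y^21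
    + 2640419550*e^15*x^8*y^22 - 1618617600*e^15*x^7*y^23 - 321460650*e^15*x^6*y^24 + 148829508*e^15*x^5*y^25
    + 9694845*e^15*x^4*y^26 - 2027680*e^15*x^3*y^27 + 281010*e^15*x^2*y^28 - 23460*e^15*x*y^29 - 47386*e^15*y^30
    - 78125*e^14*x^30 - 40781250*e^14*x^25*y^5 + 781640625*e^14*x^20*y^10 + 781640625*e^14*x^10*y^20 + 40781250*e^14*x^5*y^25
    - 78125*e^14*y^30 - 125510*e^13*x^30 + 23460*e^13*x^29*y + 281010*e^13*x^28*y^2 + 2027680*e^13*x^27*y^3 + 9694845*e^13*x^26*y^4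
    - 189610236*e^13*x^25*y^5 - 321460650*e^13*x^24*y^6 + 1618617600*e^13*x^23*y^7 + 2640419550*e^13*x^22*y^8
    - 9274735050*e^13*x^21*y^9 - 7631213700*e^13*x^20*y^10 + 25145366400*e^13*x^19*y^11 + 13605099150*e^13*x^18*y^12
    - 28730958300*e^13*x^17*y^13 - 7125711075*e^13*x^16*y^14 - 7125711075*e^13*x^14*y^16 + 28730958300*e^13*x^13*y^17
    + 13605099150*e^13*x^12*y^18 - 25145366400*e^13*x^11*y^19 - 7631213700*e^13*x^10*y^20 + 9274735050*e^13*x^9*y^21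
    + 2640419550*e^13*x^8*y^22 - 1618617600*e^13*x^7*y^23 - 321460650*e^13*x^6*y^24 + 189610236*e^13*x^5*y^25
    + 9694845*e^13*x^4*y^26 - 2027680*e^13*x^3*y^27 + 281010*e^13*x^2*y^28 - 23460*e^13*x*y^29 - 125510*e^13*y^30
    - 203605*e^12*x^30 + 23460*e^12*x^29*y + 281010*e^12*x^28*y^2 + 2027680*e^12*x^27*y^3 - 38779380*e^12*x^26*y^4
    - 230375826*e^12*x^25*y^5 + 841920750*e^12*x^24*y^6 + 1618617600*e^12*x^23*y^7 - 7054425450*e^12*x^22*y^8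
    - 8208302100*e^12*x^21*y^9 + 29505795525*e^12*x^20*y^10 + 18940665600*e^12*x^19*y^11 - 49411393350*e^12*x^18*y^12
    - 19036113300*e^12*x^17*y^13 + 28308947400*e^12*x^16*y^14 + 28308947400*e^12*x^14*y^16 + 19036113300*e^12*x^13*y^17
    - 49411393350*e^12*x^12*y^18 - 18940665600*e^12*x^11*y^19 + 29505795525*e^12*x^10*y^20 + 8208302100*e^12*x^9*y^21
    - 7054425450*e^12*x^8*y^22 - 1618617600*e^12*x^7*y^23 + 841920750*e^12*x^6*y^24 + 230375826*e^12*x^5*y^25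
    - 38779380*e^12*x^4*y^26 - 2027680*e^12*x^3*y^27 + 281010*e^12*x^2*y^28 - 23460*e^12*x*y^29 - 203605*e^12*y^30
    - 328695*e^11*x^30 + 46920*e^11*x^29*y + 562020*e^11*x^28*y^2 - 7350340*e^11*x^27*y^3 - 29084535*e^11*x^26*y^4
    + 64975428*e^11*x^25*y^5 + 520460100*e^11*x^24*y^6 - 2967465600*e^11*x^23*y^7 - 3849423750*e^11*x^22*y^8 + 16448920350*e^11*x^21*y^9
    + 16538214975*e^11*x^20*y^10 - 43167573000*e^11*x^19*y^11 - 21457923600*e^11*x^18*y^12 + 48137756850*e^11*x^17*y^13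
    + 11488391325*e^11*x^16*y^14 + 11488391325*e^11*x^14*y^16 - 48137756850*e^11*x^13*y^17 - 21457923600*e^11*x^12*y^18
    + 43167573000*e^11*x^11*y^19 + 16538214975*e^11*x^10*y^20 - 16448920350*e^11*x^9*y^21 - 3849423750*e^11*x^8*y^22
    + 2967465600*e^11*x^7*y^23 + 520460100*e^11*x^6*y^24 - 64975428*e^11*x^5*y^25 - 29084535*e^11*x^4*y^26 + 7350340*e^11*x^3*y^27
    + 562020*e^11*x^2*y^28 - 46920*e^11*x*y^29 - 328695*e^11*y^30 - 528660*e^10*x^30 + 70380*e^10*x^29*y - 1057920*e^10*x^28*y^2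
    - 5322660*e^10*x^27*y^3 + 46193085*e^10*x^26*y^4 - 163500318*e^10*x^25*y^5 - 818959275*e^10*x^24*y^6 - 1097922600*e^10*x^23*y^7
    + 6449923350*e^10*x^22*y^8 + 5417707500*e^10*x^21*y^9 - 18624707700*e^10*x^20*y^10 - 13562577900*e^10*x^19*y^11
    + 41483481375*e^10*x^18*y^12 + 14753272950*e^10*x^17*y^13 - 23219153775*e^10*x^16*y^14 - 23219153775*e^10*x^14*y^16
    - 14753272950*e^10*x^13*y^17 + 41483481375*e^10*x^12*y^18 + 13562577900*e^10*x^11*y^19 - 18624707700*e^10*x^10*y^20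
    - 5417707500*e^10*x^9*y^21 + 6449923350*e^10*x^8*y^22 + 1097922600*e^10*x^7*y^23 - 818959275*e^10*x^6*y^24
    + 163500318*e^10*x^5*y^25 + 46193085*e^10*x^4*y^26 + 5322660*e^10*x^3*y^27 - 1057920*e^10*x^2*y^28 - 70380*e^10*x*y^29
    - 528660*e^10*y^30 - 835515*e^9*x^30 - 82800*e^9*x^29*y - 495900*e^9*x^28*y^2 + 6336500*e^9*x^27*y^3 + 17108550*e^9*x^26*y^4
    - 600380910*e^9*x^25*y^5 - 206052975*e^9*x^24*y^6 + 1751518800*e^9*x^23*y^7 + 1345872600*e^9*x^22*y^8 - 9027611550*e^9*x^21*y^9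
    + 3340819575*e^9*x^20*y^10 + 22563676200*e^9*x^19*y^11 + 9361228275*e^9*x^18*y^12 - 24362575200*e^9*x^17*y^13
    - 5526061650*e^9*x^16*y^14 - 5526061650*e^9*x^14*y^16 + 24362575200*e^9*x^13*y^17 + 9361228275*e^9*x^12*y^18
    - 22563676200*e^9*x^11*y^19 + 3340819575*e^9*x^10*y^20 + 9027611550*e^9*x^9*y^21 + 1345872600*e^9*x^8*y^22
    - 1751518800*e^9*x^7*y^23 - 206052975*e^9*x^6*y^24 + 600380910*e^9*x^5*y^25 + 17108550*e^9*x^4*y^26 - 6336500*e^9*x^3*y^27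
    - 495900*e^9*x^2*y^28 + 82800*e^9*x*y^29 - 835515*e^9*y^30 - 1278084*e^8*x^30 - 12420*e^8*x^29*y + 447180*e^8*x^28*y^2
    + 1013840*e^8*x^27*y^3 - 22241115*e^8*x^26*y^4 - 685985256*e^8*x^25*y^5 + 343671750*e^8*x^24*y^6 + 191365200*e^8*x^23*y^7
    - 2383791300*e^8*x^22*y^8 - 1100650050*e^8*x^21*y^9 + 21025847670*e^8*x^20*y^10 + 3355276800*e^8*x^19*y^11
    - 13787590350*e^8*x^18*y^12 - 4277137500*e^8*x^17*y^13 + 7610453325*e^8*x^16*y^14 + 7610453325*e^8*x^14*y^16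
    + 4277137500*e^8*x^13*y^17 - 13787590350*e^8*x^12*y^18 - 3355276800*e^8*x^11*y^19 + 21025847670*e^8*x^10*y^20
    + 1100650050*e^8*x^9*y^21 - 2383791300*e^8*x^8*y^22 - 191365200*e^8*x^7*y^23 + 343671750*e^8*x^6*y^24 + 685985256*e^8*x^5*y^25
    - 22241115*e^8*x^4*y^26 - 1013840*e^8*x^3*y^27 + 447180*e^8*x^2*y^28 + 12420*e^8*x*y^29 - 1278084*e^8*y^30
    - 1793279*e^7*x^30 + 4830*e^7*x^29*y - 48720*e^7*x^28*y^2 - 1654160*e^7*x^27*y^3 + 1470735*e^7*x^26*y^4 - 891045126*e^7*x^25*y^5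
    - 1050525*e^7*x^24*y^6 - 452313000*e^7*x^23*y^7 - 113456700*e^7*x^22*y^8 + 2101550250*e^7*x^21*y^9 + 18652611645*e^7*x^20*y^10
    - 4975286400*e^7*x^19*y^11 - 1603451325*e^7*x^18*y^12 + 5292244800*e^7*x^17*y^13 + 1017958725*e^7*x^16*y^14
    + 1017958725*e^7*x^14*y^16 - 5292244800*e^7*x^13*y^17 - 1603451325*e^7*x^12*y^18 + 4975286400*e^7*x^11*y^19
    + 18652611645*e^7*x^10*y^20 - 2101550250*e^7*x^9*y^21 - 113456700*e^7*x^8*y^22 + 452313000*e^7*x^7*y^23 - 1050525*e^7*x^6*y^24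
    + 891045126*e^7*x^5*y^25 + 1470735*e^7*x^4*y^26 + 1654160*e^7*x^3*y^27 - 48720*e^7*x^2*y^28 - 4830*e^7*x*y^29
    - 1793279*e^7*y^30 - 2247683*e^6*x^30 - 7590*e^6*x^29*y - 51765*e^6*x^28*y^2 + 560280*e^6*x^27*y^3 + 3241620*e^6*x^26*y^4
    - 1180085922*e^6*x^25*y^5 - 56578275*e^6*x^24*y^6 + 16390800*e^6*x^23*y^7 + 382841325*e^6*x^22*y^8 + 76438200*e^6*x^21*y^9
    + 21257953665*e^6*x^20*y^10 - 365382600*e^6*x^19*y^11 + 1962730875*e^6*x^18*y^12 + 450525150*e^6*x^17*y^13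
    - 1066432950*e^6*x^16*y^14 - 1066432950*e^6*x^14*y^16 - 450525150*e^6*x^13*y^17 + 1962730875*e^6*x^12*y^18
    + 365382600*e^6*x^11*y^19 + 21257953665*e^6*x^10*y^20 - 76438200*e^6*x^9*y^21 + 382841325*e^6*x^8*y^22 - 16390800*e^6*x^7*y^23
    - 56578275*e^6*x^6*y^24 + 1180085922*e^6*x^5*y^25 + 3241620*e^6*x^4*y^26 - 560280*e^6*x^3*y^27 - 51765*e^6*x^2*y^28
    + 7590*e^6*x*y^29 - 2247683*e^6*y^30 - 2393602*e^5*x^30 - 2760*e^5*x^29*y + 56115*e^5*x^28*y^2 + 106720*e^5*x^27*y^3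
    - 1290645*e^5*x^26*y^4 - 1253230128*e^5*x^25*y^5 + 8404200*e^5*x^24*y^6 + 45153000*e^5*x^23*y^7 - 7953975*e^5*x^22*y^8
    - 217208550*e^5*x^21*y^9 + 23890959510*e^5*x^20*y^10 + 476238000*e^5*x^19*y^11 + 108354150*e^5*x^18*y^12 - 461930850*e^5*x^17*y^13
    - 48474225*e^5*x^16*y^14 - 48474225*e^5*x^14*y^16 + 461930850*e^5*x^13*y^17 + 108354150*e^5*x^12*y^18 - 476238000*e^5*x^11*y^19
    + 23890959510*e^5*x^10*y^20 + 217208550*e^5*x^9*y^21 - 7953975*e^5*x^8*y^22 - 45153000*e^5*x^7*y^23 + 8404200*e^5*x^6*y^24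
    + 1253230128*e^5*x^5*y^25 - 1290645*e^5*x^4*y^26 - 106720*e^5*x^3*y^27 + 56115*e^5*x^2*y^28 + 2760*e^5*x*y^29
    - 2393602*e^5*y^30 - 2078725*e^4*x^30 + 2700*e^4*x^29*y + 4350*e^4*x^28*y^2 - 116000*e^4*x^27*y^3 - 150075*e^4*x^26*y^4
    - 1083653730*e^4*x^25*y^5 + 2844900*e^4*x^24*y^6 - 4489200*e^4*x^23*y^7 - 24312150*e^4*x^22*y^8 - 2101050*e^4*x^21*y^9
    + 20879184375*e^4*x^20*y^10 + 18409200*e^4*x^19*y^11 - 110255100*e^4*x^18*y^12 - 11405700*e^4*x^17*y^13 + 48474225*e^4*x^16*y^14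
    + 48474225*e^4*x^14*y^16 + 11405700*e^4*x^13*y^17 - 110255100*e^4*x^12*y^18 - 18409200*e^4*x^11*y^19 + 20879184375*e^4*x^10*y^20
    + 2101050*e^4*x^9*y^21 - 24312150*e^4*x^8*y^22 + 4489200*e^4*x^7*y^23 + 2844900*e^4*x^6*y^24 + 1083653730*e^4*x^5*y^25
    - 150075*e^4*x^4*y^26 + 116000*e^4*x^3*y^27 + 4350*e^4*x^2*y^28 - 2700*e^4*x*y^29 - 2078725*e^4*y^30 - 1396733*e^3*x^30
    - 60*e^3*x^29*y - 4785*e^3*x^28*y^2 - 9280*e^3*x^27*y^3 + 125280*e^3*x^26*y^4 - 729032508*e^3*x^25*y^5 - 756900*e^3*x^24*y^6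
    - 1357200*e^3*x^23*y^7 + 750375*e^3*x^22*y^8 + 8804400*e^3*x^21*y^9 + 13976314665*e^3*x^20*y^10 - 18609300*e^3*x^19*y^11
    - 1900950*e^3*x^18*y^12 + 11405700*e^3*x^17*y^13 - 11405700*e^3*x^13*y^17 - 1900950*e^3*x^12*y^18 + 18609300*e^3*x^11*y^19
    + 13976314665*e^3*x^10*y^20 - 8804400*e^3*x^9*y^21 + 750375*e^3*x^8*y^22 + 1357200*e^3*x^7*y^23 - 756900*e^3*x^6*y^24
    + 729032508*e^3*x^5*y^25 + 125280*e^3*x^4*y^26 + 9280*e^3*x^3*y^27 - 4785*e^3*x^2*y^28 + 60*e^3*x*y^29 - 1396733*e^3*y^30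
    - 679938*e^2*x^30 + 30*e^2*x^29*y - 435*e^2*x^28*y^2 + 5220*e^2*x^27*y^3 + 2610*e^2*x^26*y^4 - 354990798*e^2*x^25*y^5
    - 13050*e^2*x^24*y^6 + 156600*e^2*x^23*y^7 + 450225*e^2*x^22*y^8 + 100050*e^2*x^21*y^9 + 6800778690*e^2*x^20*y^10
    - 200100*e^2*x^19*y^11 + 1900950*e^2*x^18*y^12 + 1900950*e^2*x^12*y^18 + 200100*e^2*x^11*y^19 + 6800778690*e^2*x^10*y^20
    - 100050*e^2*x^9*y^21 + 450225*e^2*x^8*y^22 - 156600*e^2*x^7*y^23 - 13050*e^2*x^6*y^24 + 354990798*e^2*x^5*y^25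
    + 2610*e^2*x^4*y^26 - 5220*e^2*x^3*y^27 - 435*e^2*x^2*y^28 - 30*e^2*x*y^29 - 679938*e^2*y^30 - 212991*e*x^30
    - 30*e*x^29*y - 2610*e*x^26*y^4 - 111182346*e*x^25*y^5 + 13050*e*x^24*y^6 - 100050*e*x^21*y^9 + 2130974955*e*x^20*y^10
    + 200100*e*x^19*y^11 - 200100*e*x^11*y^19 + 2130974955*e*x^10*y^20 + 100050*e*x^9*y^21 + 13050*e*x^6*y^24
    + 111182346*e*x^5*y^25 - 2610*e*x^4*y^26 + 30*e*x*y^29 - 212991*e*y^30 - 32769*x^30 - 17104374*x^25*y^5 + 327853845*x^20*y^10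
    + 327853845*x^10*y^20 + 17104374*x^5*y^25 - 32769*y^30) * he
/-- Behaviour of `f` under the (unnormalised) Klein matrix `[[1, e], [e, -1]]`. -/
theorem kf_K (e x y : R) (he : e ^ 2 = e + 1) :
    kf (x + e * y) (e * x - y) = (e + 2) ^ 6 * kf x y := by
  unfold kf
  linear_combination
    (    -e^10*x^11*y + 11*e^10*x^6*y^6 + e^10*x*y^11 - e^9*x^12 - e^9*x^11*y + 11*e^9*x^10*y^2 + 66*e^9*x^7*y^5 + 11*e^9*x^6*y^6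
    - 66*e^9*x^5*y^7 + 11*e^9*x^2*y^10 + e^9*x*y^11 - e^9*y^12 - e^8*x^12 + 9*e^8*x^11*y + 11*e^8*x^10*y^2 - 55*e^8*x^9*y^3
    + 165*e^8*x^8*y^4 + 66*e^8*x^7*y^5 - 374*e^8*x^6*y^6 - 66*e^8*x^5*y^7 + 165*e^8*x^4*y^8 + 55*e^8*x^3*y^9 + 11*e^8*x^2*y^10
    - 9*e^8*x*y^11 - e^8*y^12 - 2*e^7*x^12 + 8*e^7*x^11*y - 33*e^7*x^10*y^2 + 165*e^7*x^9*y^3 + 330*e^7*x^8*y^4
    - 858*e^7*x^7*y^5 - 363*e^7*x^6*y^6 + 858*e^7*x^5*y^7 + 330*e^7*x^4*y^8 - 165*e^7*x^3*y^9 - 33*e^7*x^2*y^10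
    - 8*e^7*x*y^11 - 2*e^7*y^12 - 3*e^6*x^12 + 17*e^6*x^11*y + 143*e^6*x^10*y^2 + 275*e^6*x^9*y^3 - 825*e^6*x^8*y^4
    - 1122*e^6*x^7*y^5 + 1738*e^6*x^6*y^6 + 1122*e^6*x^5*y^7 - 825*e^6*x^4*y^8 - 275*e^6*x^3*y^9 + 143*e^6*x^2*y^10
    - 17*e^6*x*y^11 - 3*e^6*y^12 - 5*e^5*x^12 + 91*e^5*x^11*y + 110*e^5*x^10*y^2 - 550*e^5*x^9*y^3 - 825*e^5*x^8*y^4
    + 1320*e^5*x^7*y^5 + 2299*e^5*x^6*y^6 - 1320*e^5*x^5*y^7 - 825*e^5*x^4*y^8 + 550*e^5*x^3*y^9 + 110*e^5*x^2*y^10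
    - 91*e^5*x*y^11 - 5*e^5*y^12 + 3*e^4*x^12 + 107*e^4*x^11*y - 143*e^4*x^10*y^2 - 275*e^4*x^9*y^3 + 825*e^4*x^8*y^4
    + 1122*e^4*x^7*y^5 - 374*e^4*x^6*y^6 - 1122*e^4*x^5*y^7 + 825*e^4*x^4*y^8 + 275*e^4*x^3*y^9 - 143*e^4*x^2*y^10
    - 107*e^4*x*y^11 + 3*e^4*y^12 - 2*e^3*x^12 + 120*e^3*x^11*y - 33*e^3*x^10*y^2 + 165*e^3*x^9*y^3 + 330*e^3*x^8*y^4
    - 858*e^3*x^7*y^5 + 869*e^3*x^6*y^6 + 858*e^3*x^5*y^7 + 330*e^3*x^4*y^8 - 165*e^3*x^3*y^9 - 33*e^3*x^2*y^10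
    - 120*e^3*x*y^11 - 2*e^3*y^12 + e^2*x^12 + 167*e^2*x^11*y - 11*e^2*x^10*y^2 + 55*e^2*x^9*y^3 - 165*e^2*x^8*y^4
    - 66*e^2*x^7*y^5 + 2310*e^2*x^6*y^6 + 66*e^2*x^5*y^7 - 165*e^2*x^4*y^8 - 55*e^2*x^3*y^9 - 11*e^2*x^2*y^10
    - 167*e^2*x*y^11 + e^2*y^12 - e*x^12 + 127*e*x^11*y + 11*e*x^10*y^2 + 66*e*x^7*y^5 + 1419*e*x^6*y^6 - 66*e*x^5*y^7
    + 11*e*x^2*y^10 - 127*e*x*y^11 - e*y^12 + 65*x^11*y + 693*x^6*y^6 - 65*x*y^11) * he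
/-- The resolvent of bidegree `(5, 5)`: the norm of `U (e u0 - ζ v0)^5 - V (u0 + e ζ v0)^5`
over the fifth roots of unity `ζ`, as a polynomial in `U0 = u0^5`, `V0 = v0^5`, `U`, `V`. -/
def G5 (e U0 V0 U V : R) : R :=
  75025*U0^5*U^5*e + 46368*U0^5*U^5 - 33825*U0^5*U^4*V*e - 20905*U0^5*U^4*V + 6100*U0^5*U^3*V^2*e + 3770*U0^5*U^3*V^2
  - 550*U0^5*U^2*V^3*e - 340*U0^5*U^2*V^3 + 25*U0^5*U*V^4*e + 15*U0^5*U*V^4 - U0^5*V^5 - 33825*U0^4*V0*U^5*e - 20905*U0^4*V0*U^5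
  - 22647300*U0^4*V0*U^4*V*e - 13996800*U0^4*V0*U^4*V - 36078850*U0^4*V0*U^3*V^2*e - 22298025*U0^4*V0*U^3*V^2
  - 5208825*U0^4*V0*U^2*V^3*e - 3218750*U0^4*V0*U^2*V^3 - 86400*U0^4*V0*U*V^4*e - 53700*U0^4*V0*U*V^4 - 25*U0^4*V0*V^5*e
  - 15*U0^4*V0*V^5 + 6100*U0^3*V0^2*U^5*e + 3770*U0^3*V0^2*U^5 - 36078850*U0^3*V0^2*U^4*V*e - 22298025*U0^3*V0^2*U^4*V
  + 712498175*U0^3*V0^2*U^3*V^2*e + 440343650*U0^3*V0^2*U^3*V^2 - 333037150*U0^3*V0^2*U^2*V^3*e - 205837775*U0^3*V0^2*U^2*V^3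
  + 5208825*U0^3*V0^2*U*V^4*e + 3218750*U0^3*V0^2*U*V^4 - 550*U0^3*V0^2*V^5*e - 340*U0^3*V0^2*V^5 - 550*U0^2*V0^3*U^5*e
  - 340*U0^2*V0^3*U^5 - 5208825*U0^2*V0^3*U^4*V*e - 3218750*U0^2*V0^3*U^4*V - 333037150*U0^2*V0^3*U^3*V^2*e - 205837775*U0^2*V0^3*U^3*V^2
  - 712498175*U0^2*V0^3*U^2*V^3*e - 440343650*U0^2*V0^3*U^2*V^3 - 36078850*U0^2*V0^3*U*V^4*e - 22298025*U0^2*V0^3*U*V^4
  - 6100*U0^2*V0^3*V^5*e - 3770*U0^2*V0^3*V^5 + 25*U0*V0^4*U^5*e + 15*U0*V0^4*U^5 - 86400*U0*V0^4*U^4*V*e - 53700*U0*V0^4*U^4*V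
  + 5208825*U0*V0^4*U^3*V^2*e + 3218750*U0*V0^4*U^3*V^2 - 36078850*U0*V0^4*U^2*V^3*e - 22298025*U0*V0^4*U^2*V^3
  + 22647300*U0*V0^4*U*V^4*e + 13996800*U0*V0^4*U*V^4 - 33825*U0*V0^4*V^5*e - 20905*U0*V0^4*V^5 - V0^5*U^5 - 25*V0^5*U^4*V*e
  - 15*V0^5*U^4*V - 550*V0^5*U^3*V^2*e - 340*V0^5*U^3*V^2 - 6100*V0^5*U^2*V^3*e - 3770*V0^5*U^2*V^3 - 33825*V0^5*U*V^4*e
  - 20905*V0^5*U*V^4 - 75025*V0^5*V^5*e - 46368*V0^5*V^5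
/-- (F1) The degree-60 orbit polynomial factors over `ℤ[e]`, `e^2 = e + 1`. -/
theorem F1 (e U0 V0 U V : R) (he : e ^ 2 = e + 1) :
    1728 * ((U * V0 - V * U0) * (U * U0 + V * V0) * G5 e U0 V0 U V * -G5 e U0 V0 (-V) U) =
      (75025 * e + 46368) *
        (hH4 U0 V0 ^ 3 * hT6 U V ^ 2 - hH4 U V ^ 3 * hT6 U0 V0 ^ 2) := by
  unfold G5 hH4 hT6
  linear_combination
    (    -3241080000*U0^12*U^10*V^2 - 69842520000*U0^12*U^9*V^3 - 758939760000*U0^12*U^8*V^4 - 4034412360000*U0^12*U^7*V^5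
    - 7813200600000*U0^12*U^6*V^6 + 4034412360000*U0^12*U^5*V^7 - 758939760000*U0^12*U^4*V^8 + 69842520000*U0^12*U^3*V^9
    - 3241080000*U0^12*U^2*V^10 + 11273937480000*U0^11*V0*U^10*V^2 - 678572840880000*U0^11*V0*U^9*V^3 + 5010145765560000*U0^11*V0*U^8*V^4
    - 4817583753840000*U0^11*V0*U^7*V^5 + 3418661073600000*U0^11*V0*U^6*V^6 + 4817583753840000*U0^11*V0*U^5*V^7
    + 5010145765560000*U0^11*V0*U^4*V^8 + 678572840880000*U0^11*V0*U^3*V^9 + 11273937480000*U0^11*V0*U^2*V^10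
    + 3241080000*U0^10*V0^2*U^12 - 11273937480000*U0^10*V0^2*U^11*V - 50940119782080000*U0^10*V0^2*U^9*V^3 + 127539782049960000*U0^10*V0^2*U^8*V^4
    - 1051879651628760000*U0^10*V0^2*U^7*V^5 - 1335961900633680000*U0^10*V0^2*U^6*V^6 + 1051879651628760000*U0^10*V0^2*U^5*V^7
    + 127539782049960000*U0^10*V0^2*U^4*V^8 + 50940119782080000*U0^10*V0^2*U^3*V^9 + 11273937480000*U0^10*V0^2*U*V^11
    + 3241080000*U0^10*V0^2*V^12 + 69842520000*U0^9*V0^3*U^12 + 678572840880000*U0^9*V0^3*U^11*V + 50940119782080000*U0^9*V0^3*U^10*V^2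
    + 14918887314810000000*U0^9*V0^3*U^8*V^4 + 41410125611323920000*U0^9*V0^3*U^7*V^5 + 95559615768253680000*U0^9*V0^3*U^6*V^6
    - 41410125611323920000*U0^9*V0^3*U^5*V^7 + 14918887314810000000*U0^9*V0^3*U^4*V^8 + 50940119782080000*U0^9*V0^3*U^2*V^10
    - 678572840880000*U0^9*V0^3*U*V^11 + 69842520000*U0^9*V0^3*V^12 + 758939760000*U0^8*V0^4*U^12 - 5010145765560000*U0^8*V0^4*U^11*V
    - 127539782049960000*U0^8*V0^4*U^10*V^2 - 14918887314810000000*U0^8*V0^4*U^9*V^3 - 411688086224792040000*U0^8*V0^4*U^7*V^5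
    - 630429481704269160000*U0^8*V0^4*U^6*V^6 + 411688086224792040000*U0^8*V0^4*U^5*V^7 + 14918887314810000000*U0^8*V0^4*U^3*V^9
    - 127539782049960000*U0^8*V0^4*U^2*V^10 + 5010145765560000*U0^8*V0^4*U*V^11 + 758939760000*U0^8*V0^4*V^12
    + 4034412360000*U0^7*V0^5*U^12 + 4817583753840000*U0^7*V0^5*U^11*V + 1051879651628760000*U0^7*V0^5*U^10*V^2
    - 41410125611323920000*U0^7*V0^5*U^9*V^3 + 411688086224792040000*U0^7*V0^5*U^8*V^4 + 887102721536246640000*U0^7*V0^5*U^6*V^6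
    + 411688086224792040000*U0^7*V0^5*U^4*V^8 + 41410125611323920000*U0^7*V0^5*U^3*V^9 + 1051879651628760000*U0^7*V0^5*U^2*V^10
    - 4817583753840000*U0^7*V0^5*U*V^11 + 4034412360000*U0^7*V0^5*V^12 + 7813200600000*U0^6*V0^6*U^12 - 3418661073600000*U0^6*V0^6*U^11*V
    + 1335961900633680000*U0^6*V0^6*U^10*V^2 - 95559615768253680000*U0^6*V0^6*U^9*V^3 + 630429481704269160000*U0^6*V0^6*U^8*V^4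
    - 887102721536246640000*U0^6*V0^6*U^7*V^5 + 887102721536246640000*U0^6*V0^6*U^5*V^7 + 630429481704269160000*U0^6*V0^6*U^4*V^8
    + 95559615768253680000*U0^6*V0^6*U^3*V^9 + 1335961900633680000*U0^6*V0^6*U^2*V^10 + 3418661073600000*U0^6*V0^6*U*V^11
    + 7813200600000*U0^6*V0^6*V^12 - 4034412360000*U0^5*V0^7*U^12 - 4817583753840000*U0^5*V0^7*U^11*V - 1051879651628760000*U0^5*V0^7*U^10*V^2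
    + 41410125611323920000*U0^5*V0^7*U^9*V^3 - 411688086224792040000*U0^5*V0^7*U^8*V^4 - 887102721536246640000*U0^5*V0^7*U^6*V^6
    - 411688086224792040000*U0^5*V0^7*U^4*V^8 - 41410125611323920000*U0^5*V0^7*U^3*V^9 - 1051879651628760000*U0^5*V0^7*U^2*V^10
    + 4817583753840000*U0^5*V0^7*U*V^11 - 4034412360000*U0^5*V0^7*V^12 + 758939760000*U0^4*V0^8*U^12 - 5010145765560000*U0^4*V0^8*U^11*V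
    - 127539782049960000*U0^4*V0^8*U^10*V^2 - 14918887314810000000*U0^4*V0^8*U^9*V^3 - 411688086224792040000*U0^4*V0^8*U^7*V^5
    - 630429481704269160000*U0^4*V0^8*U^6*V^6 + 411688086224792040000*U0^4*V0^8*U^5*V^7 + 14918887314810000000*U0^4*V0^8*U^3*V^9
    - 127539782049960000*U0^4*V0^8*U^2*V^10 + 5010145765560000*U0^4*V0^8*U*V^11 + 758939760000*U0^4*V0^8*V^12
    - 69842520000*U0^3*V0^9*U^12 - 678572840880000*U0^3*V0^9*U^11*V - 50940119782080000*U0^3*V0^9*U^10*V^2 - 14918887314810000000*U0^3*V0^9*U^8*V^4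
    - 41410125611323920000*U0^3*V0^9*U^7*V^5 - 95559615768253680000*U0^3*V0^9*U^6*V^6 + 41410125611323920000*U0^3*V0^9*U^5*V^7
    - 14918887314810000000*U0^3*V0^9*U^4*V^8 - 50940119782080000*U0^3*V0^9*U^2*V^10 + 678572840880000*U0^3*V0^9*U*V^11
    - 69842520000*U0^3*V0^9*V^12 + 3241080000*U0^2*V0^10*U^12 - 11273937480000*U0^2*V0^10*U^11*V - 50940119782080000*U0^2*V0^10*U^9*V^3
    + 127539782049960000*U0^2*V0^10*U^8*V^4 - 1051879651628760000*U0^2*V0^10*U^7*V^5 - 1335961900633680000*U0^2*V0^10*U^6*V^6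
    + 1051879651628760000*U0^2*V0^10*U^5*V^7 + 127539782049960000*U0^2*V0^10*U^4*V^8 + 50940119782080000*U0^2*V0^10*U^3*V^9
    + 11273937480000*U0^2*V0^10*U*V^11 + 3241080000*U0^2*V0^10*V^12 - 11273937480000*U0*V0^11*U^10*V^2 + 678572840880000*U0*V0^11*U^9*V^3
    - 5010145765560000*U0*V0^11*U^8*V^4 + 4817583753840000*U0*V0^11*U^7*V^5 - 3418661073600000*U0*V0^11*U^6*V^6
    - 4817583753840000*U0*V0^11*U^5*V^7 - 5010145765560000*U0*V0^11*U^4*V^8 - 678572840880000*U0*V0^11*U^3*V^9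
    - 11273937480000*U0*V0^11*U^2*V^10 - 3241080000*V0^12*U^10*V^2 - 69842520000*V0^12*U^9*V^3 - 758939760000*V0^12*U^8*V^4
    - 4034412360000*V0^12*U^7*V^5 - 7813200600000*V0^12*U^6*V^6 + 4034412360000*V0^12*U^5*V^7 - 758939760000*V0^12*U^4*V^8
    + 69842520000*V0^12*U^3*V^9 - 3241080000*V0^12*U^2*V^10) * he
/-- The norm form of `ℤ[ζ₅]` in the coordinates `1, z, z^2, z^3, z^4`. -/
def N5 (A0 A1 A2 A3 A4 : R) : R :=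
  A0^5 - 5*A0^3*A1*A4 - 5*A0^3*A2*A3 + 5*A0^2*A1^2*A3 + 5*A0^2*A1*A2^2 + 5*A0^2*A2*A4^2 + 5*A0^2*A3^2*A4 - 5*A0*A1^3*A2
  + 5*A0*A1^2*A4^2 - 5*A0*A1*A2*A3*A4 - 5*A0*A1*A3^3 - 5*A0*A2^3*A4 + 5*A0*A2^2*A3^2 - 5*A0*A3*A4^3 + A1^5 - 5*A1^3*A3*A4
  + 5*A1^2*A2^2*A4 + 5*A1^2*A2*A3^2 - 5*A1*A2^3*A3 - 5*A1*A2*A4^3 + 5*A1*A3^2*A4^2 + A2^5 + 5*A2^2*A3*A4^2 - 5*A2*A3^3*A4
  + A3^5 + A4^5
theorem norm5 (A0 A1 A2 A3 A4 z : R) (hz : z ^ 4 + z ^ 3 + z ^ 2 + z + 1 = 0) :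
    (A0 + A1 * z + A2 * z ^ 2 + A3 * z ^ 3 + A4 * z ^ 4) *
      (A0 + A1 * z ^ 2 + A2 * z ^ 4 + A3 * z + A4 * z ^ 3) *
      (A0 + A1 * z ^ 3 + A2 * z + A3 * z ^ 4 + A4 * z ^ 2) *
      (A0 + A1 * z ^ 4 + A2 * z ^ 3 + A3 * z ^ 2 + A4 * z) *
      (A0 + A1 + A2 + A3 + A4) = N5 A0 A1 A2 A3 A4 := by
  unfold N5
  linear_combination
    (    A0^4*A1 + A0^4*A2 + A0^4*A3 + A0^4*A4 + A0^3*A1^2*z^3 + A0^3*A1^2*z + A0^3*A1*A2*z^4 + A0^3*A1*A2*z^2 + 2*A0^3*A1*A2*z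
    + A0^3*A1*A3*z^4 + A0^3*A1*A3*z^2 + 2*A0^3*A1*A3*z + A0^3*A1*A4*z^4 + A0^3*A1*A4*z^3 + A0^3*A1*A4*z^2 - 3*A0^3*A1*A4*z
    + 5*A0^3*A1*A4 + A0^3*A2^2*z^3 + A0^3*A2^2*z + A0^3*A2*A3*z^4 + A0^3*A2*A3*z^3 + A0^3*A2*A3*z^2 - 3*A0^3*A2*A3*z
    + 5*A0^3*A2*A3 + A0^3*A2*A4*z^4 + A0^3*A2*A4*z^2 + 2*A0^3*A2*A4*z + A0^3*A3^2*z^3 + A0^3*A3^2*z + A0^3*A3*A4*z^4
    + A0^3*A3*A4*z^2 + 2*A0^3*A3*A4*z + A0^3*A4^2*z^3 + A0^3*A4^2*z + A0^2*A1^3*z^5 + A0^2*A1^3*z^3 + A0^2*A1^2*A2*z^7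
    - A0^2*A1^2*A2*z^6 + 2*A0^2*A1^2*A2*z^5 + 2*A0^2*A1^2*A2*z^4 + A0^2*A1^2*A2*z^3 + A0^2*A1^2*A2*z^2 + 2*A0^2*A1^2*A3*z^6
    + A0^2*A1^2*A3*z^4 + A0^2*A1^2*A3*z^3 + A0^2*A1^2*A3*z^2 + 5*A0^2*A1^2*A3*z - 5*A0^2*A1^2*A3 + A0^2*A1^2*A4*z^7
    + A0^2*A1^2*A4*z^6 - A0^2*A1^2*A4*z^5 + 2*A0^2*A1^2*A4*z^4 + 2*A0^2*A1^2*A4*z^3 + A0^2*A1^2*A4*z^2 + 2*A0^2*A1*A2^2*z^6
    + A0^2*A1*A2^2*z^4 + A0^2*A1*A2^2*z^3 + A0^2*A1*A2^2*z^2 + 5*A0^2*A1*A2^2*z - 5*A0^2*A1*A2^2 + A0^2*A1*A2*A3*z^8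
    + A0^2*A1*A2*A3*z^6 + 2*A0^2*A1*A2*A3*z^5 + 3*A0^2*A1*A2*A3*z^4 + 2*A0^2*A1*A2*A3*z^3 + 3*A0^2*A1*A2*A3*z^2
    + A0^2*A1*A2*A4*z^8 + A0^2*A1*A2*A4*z^6 + 2*A0^2*A1*A2*A4*z^5 + 3*A0^2*A1*A2*A4*z^4 + 2*A0^2*A1*A2*A4*z^3
    + 3*A0^2*A1*A2*A4*z^2 + A0^2*A1*A3^2*z^7 - A0^2*A1*A3^2*z^6 + 2*A0^2*A1*A3^2*z^5 + 2*A0^2*A1*A3^2*z^4 + A0^2*A1*A3^2*z^3
    + A0^2*A1*A3^2*z^2 + A0^2*A1*A3*A4*z^8 + A0^2*A1*A3*A4*z^6 + 2*A0^2*A1*A3*A4*z^5 + 3*A0^2*A1*A3*A4*z^4 + 2*A0^2*A1*A3*A4*z^3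
    + 3*A0^2*A1*A3*A4*z^2 + A0^2*A1*A4^2*z^7 + A0^2*A1*A4^2*z^6 - A0^2*A1*A4^2*z^5 + 2*A0^2*A1*A4^2*z^4 + 2*A0^2*A1*A4^2*z^3
    + A0^2*A1*A4^2*z^2 + A0^2*A2^3*z^5 + A0^2*A2^3*z^3 + A0^2*A2^2*A3*z^7 + A0^2*A2^2*A3*z^6 - A0^2*A2^2*A3*z^5
    + 2*A0^2*A2^2*A3*z^4 + 2*A0^2*A2^2*A3*z^3 + A0^2*A2^2*A3*z^2 + A0^2*A2^2*A4*z^7 - A0^2*A2^2*A4*z^6 + 2*A0^2*A2^2*A4*z^5
    + 2*A0^2*A2^2*A4*z^4 + A0^2*A2^2*A4*z^3 + A0^2*A2^2*A4*z^2 + A0^2*A2*A3^2*z^7 + A0^2*A2*A3^2*z^6 - A0^2*A2*A3^2*z^5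
    + 2*A0^2*A2*A3^2*z^4 + 2*A0^2*A2*A3^2*z^3 + A0^2*A2*A3^2*z^2 + A0^2*A2*A3*A4*z^8 + A0^2*A2*A3*A4*z^6 + 2*A0^2*A2*A3*A4*z^5
    + 3*A0^2*A2*A3*A4*z^4 + 2*A0^2*A2*A3*A4*z^3 + 3*A0^2*A2*A3*A4*z^2 + 2*A0^2*A2*A4^2*z^6 + A0^2*A2*A4^2*z^4
    + A0^2*A2*A4^2*z^3 + A0^2*A2*A4^2*z^2 + 5*A0^2*A2*A4^2*z - 5*A0^2*A2*A4^2 + A0^2*A3^3*z^5 + A0^2*A3^3*z^3
    + 2*A0^2*A3^2*A4*z^6 + A0^2*A3^2*A4*z^4 + A0^2*A3^2*A4*z^3 + A0^2*A3^2*A4*z^2 + 5*A0^2*A3^2*A4*z - 5*A0^2*A3^2*A4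
    + A0^2*A3*A4^2*z^7 - A0^2*A3*A4^2*z^6 + 2*A0^2*A3*A4^2*z^5 + 2*A0^2*A3*A4^2*z^4 + A0^2*A3*A4^2*z^3 + A0^2*A3*A4^2*z^2
    + A0^2*A4^3*z^5 + A0^2*A4^3*z^3 + A0*A1^4*z^6 + A0*A1^3*A2*z^8 + A0*A1^3*A2*z^7 - 2*A0*A1^3*A2*z^6 + 4*A0*A1^3*A2*z^5
    + A0*A1^3*A2*z^4 - 5*A0*A1^3*A2*z + 5*A0*A1^3*A2 + A0*A1^3*A3*z^8 + A0*A1^3*A3*z^6 + 2*A0*A1^3*A3*z^5 + A0*A1^3*A4*z^9
    - A0*A1^3*A4*z^8 + 2*A0*A1^3*A4*z^7 + A0*A1^3*A4*z^5 + A0*A1^3*A4*z^4 + A0*A1^2*A2^2*z^9 - A0*A1^2*A2^2*z^8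
    + 2*A0*A1^2*A2^2*z^7 + 2*A0*A1^2*A2^2*z^6 + A0*A1^2*A2^2*z^5 + A0*A1^2*A2^2*z^4 + A0*A1^2*A2*A3*z^10 + A0*A1^2*A2*A3*z^8
    + A0*A1^2*A2*A3*z^7 + 5*A0*A1^2*A2*A3*z^6 + 2*A0*A1^2*A2*A3*z^5 + A0*A1^2*A2*A3*z^4 + A0*A1^2*A2*A3*z^3 + A0*A1^2*A2*A4*z^11
    - A0*A1^2*A2*A4*z^10 + 3*A0*A1^2*A2*A4*z^8 + 2*A0*A1^2*A2*A4*z^7 + 2*A0*A1^2*A2*A4*z^6 + 2*A0*A1^2*A2*A4*z^5
    + 2*A0*A1^2*A2*A4*z^4 + A0*A1^2*A2*A4*z^3 + A0*A1^2*A3^2*z^9 - A0*A1^2*A3^2*z^8 + 2*A0*A1^2*A3^2*z^7 + 2*A0*A1^2*A3^2*z^6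
    + A0*A1^2*A3^2*z^5 + A0*A1^2*A3^2*z^4 + A0*A1^2*A3*A4*z^10 + 2*A0*A1^2*A3*A4*z^8 + A0*A1^2*A3*A4*z^7 + 2*A0*A1^2*A3*A4*z^6
    + 4*A0*A1^2*A3*A4*z^5 + A0*A1^2*A3*A4*z^4 + A0*A1^2*A3*A4*z^3 + A0*A1^2*A4^2*z^10 - A0*A1^2*A4^2*z^9 + A0*A1^2*A4^2*z^8
    + A0*A1^2*A4^2*z^7 + 4*A0*A1^2*A4^2*z^6 - 3*A0*A1^2*A4^2*z^5 + 2*A0*A1^2*A4^2*z^4 + 5*A0*A1^2*A4^2*z - 5*A0*A1^2*A4^2
    + A0*A1*A2^3*z^8 + A0*A1*A2^3*z^6 + 2*A0*A1*A2^3*z^5 + A0*A1*A2^2*A3*z^10 + 2*A0*A1*A2^2*A3*z^8 + A0*A1*A2^2*A3*z^7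
    + 2*A0*A1*A2^2*A3*z^6 + 4*A0*A1*A2^2*A3*z^5 + A0*A1*A2^2*A3*z^4 + A0*A1*A2^2*A3*z^3 + A0*A1*A2^2*A4*z^10 + A0*A1*A2^2*A4*z^8
    + A0*A1*A2^2*A4*z^7 + 5*A0*A1*A2^2*A4*z^6 + 2*A0*A1*A2^2*A4*z^5 + A0*A1*A2^2*A4*z^4 + A0*A1*A2^2*A4*z^3 + A0*A1*A2*A3^2*z^11
    - A0*A1*A2*A3^2*z^10 + 3*A0*A1*A2*A3^2*z^8 + 2*A0*A1*A2*A3^2*z^7 + 2*A0*A1*A2*A3^2*z^6 + 2*A0*A1*A2*A3^2*z^5
    + 2*A0*A1*A2*A3^2*z^4 + A0*A1*A2*A3^2*z^3 + A0*A1*A2*A3*A4*z^12 - A0*A1*A2*A3*A4*z^11 + 4*A0*A1*A2*A3*A4*z^9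
    + A0*A1*A2*A3*A4*z^8 + 4*A0*A1*A2*A3*A4*z^7 + 3*A0*A1*A2*A3*A4*z^6 + 8*A0*A1*A2*A3*A4*z^5 + A0*A1*A2*A3*A4*z^4
    + 4*A0*A1*A2*A3*A4*z^3 - 5*A0*A1*A2*A3*A4*z + 5*A0*A1*A2*A3*A4 + A0*A1*A2*A4^2*z^10 + 2*A0*A1*A2*A4^2*z^8
    + A0*A1*A2*A4^2*z^7 + 2*A0*A1*A2*A4^2*z^6 + 4*A0*A1*A2*A4^2*z^5 + A0*A1*A2*A4^2*z^4 + A0*A1*A2*A4^2*z^3 + A0*A1*A3^3*z^8
    + A0*A1*A3^3*z^7 - 2*A0*A1*A3^3*z^6 + 4*A0*A1*A3^3*z^5 + A0*A1*A3^3*z^4 - 5*A0*A1*A3^3*z + 5*A0*A1*A3^3 + A0*A1*A3^2*A4*z^10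
    + A0*A1*A3^2*A4*z^8 + A0*A1*A3^2*A4*z^7 + 5*A0*A1*A3^2*A4*z^6 + 2*A0*A1*A3^2*A4*z^5 + A0*A1*A3^2*A4*z^4 + A0*A1*A3^2*A4*z^3
    + A0*A1*A3*A4^2*z^11 - A0*A1*A3*A4^2*z^10 + 3*A0*A1*A3*A4^2*z^8 + 2*A0*A1*A3*A4^2*z^7 + 2*A0*A1*A3*A4^2*z^6
    + 2*A0*A1*A3*A4^2*z^5 + 2*A0*A1*A3*A4^2*z^4 + A0*A1*A3*A4^2*z^3 + A0*A1*A4^3*z^9 - A0*A1*A4^3*z^8 + 2*A0*A1*A4^3*z^7
    + A0*A1*A4^3*z^5 + A0*A1*A4^3*z^4 + A0*A2^4*z^6 + A0*A2^3*A3*z^9 - A0*A2^3*A3*z^8 + 2*A0*A2^3*A3*z^7 + A0*A2^3*A3*z^5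
    + A0*A2^3*A3*z^4 + A0*A2^3*A4*z^8 + A0*A2^3*A4*z^7 - 2*A0*A2^3*A4*z^6 + 4*A0*A2^3*A4*z^5 + A0*A2^3*A4*z^4
    - 5*A0*A2^3*A4*z + 5*A0*A2^3*A4 + A0*A2^2*A3^2*z^10 - A0*A2^2*A3^2*z^9 + A0*A2^2*A3^2*z^8 + A0*A2^2*A3^2*z^7
    + 4*A0*A2^2*A3^2*z^6 - 3*A0*A2^2*A3^2*z^5 + 2*A0*A2^2*A3^2*z^4 + 5*A0*A2^2*A3^2*z - 5*A0*A2^2*A3^2 + A0*A2^2*A3*A4*z^11
    - A0*A2^2*A3*A4*z^10 + 3*A0*A2^2*A3*A4*z^8 + 2*A0*A2^2*A3*A4*z^7 + 2*A0*A2^2*A3*A4*z^6 + 2*A0*A2^2*A3*A4*z^5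
    + 2*A0*A2^2*A3*A4*z^4 + A0*A2^2*A3*A4*z^3 + A0*A2^2*A4^2*z^9 - A0*A2^2*A4^2*z^8 + 2*A0*A2^2*A4^2*z^7 + 2*A0*A2^2*A4^2*z^6
    + A0*A2^2*A4^2*z^5 + A0*A2^2*A4^2*z^4 + A0*A2*A3^3*z^9 - A0*A2*A3^3*z^8 + 2*A0*A2*A3^3*z^7 + A0*A2*A3^3*z^5
    + A0*A2*A3^3*z^4 + A0*A2*A3^2*A4*z^10 + 2*A0*A2*A3^2*A4*z^8 + A0*A2*A3^2*A4*z^7 + 2*A0*A2*A3^2*A4*z^6 + 4*A0*A2*A3^2*A4*z^5
    + A0*A2*A3^2*A4*z^4 + A0*A2*A3^2*A4*z^3 + A0*A2*A3*A4^2*z^10 + A0*A2*A3*A4^2*z^8 + A0*A2*A3*A4^2*z^7 + 5*A0*A2*A3*A4^2*z^6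
    + 2*A0*A2*A3*A4^2*z^5 + A0*A2*A3*A4^2*z^4 + A0*A2*A3*A4^2*z^3 + A0*A2*A4^3*z^8 + A0*A2*A4^3*z^6 + 2*A0*A2*A4^3*z^5
    + A0*A3^4*z^6 + A0*A3^3*A4*z^8 + A0*A3^3*A4*z^6 + 2*A0*A3^3*A4*z^5 + A0*A3^2*A4^2*z^9 - A0*A3^2*A4^2*z^8 + 2*A0*A3^2*A4^2*z^7
    + 2*A0*A3^2*A4^2*z^6 + A0*A3^2*A4^2*z^5 + A0*A3^2*A4^2*z^4 + A0*A3*A4^3*z^8 + A0*A3*A4^3*z^7 - 2*A0*A3*A4^3*z^6
    + 4*A0*A3*A4^3*z^5 + A0*A3*A4^3*z^4 - 5*A0*A3*A4^3*z + 5*A0*A3*A4^3 + A0*A4^4*z^6 + A1^5*z^6 - A1^5*z^5 + A1^5*z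
    - A1^5 + A1^4*A2*z^8 + A1^4*A3*z^8 + A1^4*A4*z^9 - A1^4*A4*z^8 + A1^4*A4*z^7 + A1^3*A2^2*z^9 + A1^3*A2^2*z^7
    + A1^3*A2*A3*z^10 + 2*A1^3*A2*A3*z^8 + A1^3*A2*A3*z^6 + A1^3*A2*A4*z^11 - A1^3*A2*A4*z^10 + A1^3*A2*A4*z^9
    + 2*A1^3*A2*A4*z^8 + A1^3*A2*A4*z^7 - A1^3*A2*A4*z^6 + A1^3*A2*A4*z^5 + A1^3*A3^2*z^9 + A1^3*A3^2*z^7 + A1^3*A3*A4*z^10
    + A1^3*A3*A4*z^9 + A1^3*A3*A4*z^8 + A1^3*A3*A4*z^7 - 4*A1^3*A3*A4*z^6 + 5*A1^3*A3*A4*z^5 - 5*A1^3*A3*A4*z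
    + 5*A1^3*A3*A4 + A1^3*A4^2*z^10 + A1^3*A4^2*z^6 + A1^2*A2^3*z^9 + A1^2*A2^3*z^7 + 2*A1^2*A2^2*A3*z^10 + A1^2*A2^2*A3*z^9
    + A1^2*A2^2*A3*z^7 + 2*A1^2*A2^2*A3*z^6 + A1^2*A2^2*A4*z^11 + A1^2*A2^2*A4*z^9 + A1^2*A2^2*A4*z^8 + A1^2*A2^2*A4*z^7
    + 5*A1^2*A2^2*A4*z^6 - 4*A1^2*A2^2*A4*z^5 + 5*A1^2*A2^2*A4*z - 5*A1^2*A2^2*A4 + A1^2*A2*A3^2*z^11 + A1^2*A2*A3^2*z^9
    + A1^2*A2*A3^2*z^8 + A1^2*A2*A3^2*z^7 + 5*A1^2*A2*A3^2*z^6 - 4*A1^2*A2*A3^2*z^5 + 5*A1^2*A2*A3^2*z - 5*A1^2*A2*A3^2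
    + A1^2*A2*A3*A4*z^12 + A1^2*A2*A3*A4*z^10 + 4*A1^2*A2*A3*A4*z^9 + 4*A1^2*A2*A3*A4*z^7 + A1^2*A2*A3*A4*z^6
    + A1^2*A2*A3*A4*z^4 + A1^2*A2*A4^2*z^11 + A1^2*A2*A4^2*z^10 - A1^2*A2*A4^2*z^9 + 4*A1^2*A2*A4^2*z^8 - A1^2*A2*A4^2*z^7
    + A1^2*A2*A4^2*z^6 + A1^2*A2*A4^2*z^5 + A1^2*A3^3*z^9 + A1^2*A3^3*z^7 + 2*A1^2*A3^2*A4*z^10 + A1^2*A3^2*A4*z^9
    + A1^2*A3^2*A4*z^7 + 2*A1^2*A3^2*A4*z^6 + A1^2*A3*A4^2*z^11 + A1^2*A3*A4^2*z^10 - A1^2*A3*A4^2*z^9 + 4*A1^2*A3*A4^2*z^8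
    - A1^2*A3*A4^2*z^7 + A1^2*A3*A4^2*z^6 + A1^2*A3*A4^2*z^5 + A1^2*A4^3*z^10 + A1^2*A4^3*z^6 + A1*A2^4*z^8 + A1*A2^3*A3*z^10
    + A1*A2^3*A3*z^9 + A1*A2^3*A3*z^8 + A1*A2^3*A3*z^7 - 4*A1*A2^3*A3*z^6 + 5*A1*A2^3*A3*z^5 - 5*A1*A2^3*A3*z
    + 5*A1*A2^3*A3 + A1*A2^3*A4*z^10 + 2*A1*A2^3*A4*z^8 + A1*A2^3*A4*z^6 + A1*A2^2*A3^2*z^11 + A1*A2^2*A3^2*z^10
    - A1*A2^2*A3^2*z^9 + 4*A1*A2^2*A3^2*z^8 - A1*A2^2*A3^2*z^7 + A1*A2^2*A3^2*z^6 + A1*A2^2*A3^2*z^5 + A1*A2^2*A3*A4*z^12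
    + A1*A2^2*A3*A4*z^10 + 4*A1*A2^2*A3*A4*z^9 + 4*A1*A2^2*A3*A4*z^7 + A1*A2^2*A3*A4*z^6 + A1*A2^2*A3*A4*z^4 + 2*A1*A2^2*A4^2*z^10
    + A1*A2^2*A4^2*z^9 + A1*A2^2*A4^2*z^7 + 2*A1*A2^2*A4^2*z^6 + A1*A2*A3^3*z^11 - A1*A2*A3^3*z^10 + A1*A2*A3^3*z^9
    + 2*A1*A2*A3^3*z^8 + A1*A2*A3^3*z^7 - A1*A2*A3^3*z^6 + A1*A2*A3^3*z^5 + A1*A2*A3^2*A4*z^12 + A1*A2*A3^2*A4*z^10
    + 4*A1*A2*A3^2*A4*z^9 + 4*A1*A2*A3^2*A4*z^7 + A1*A2*A3^2*A4*z^6 + A1*A2*A3^2*A4*z^4 + A1*A2*A3*A4^2*z^12 + A1*A2*A3*A4^2*z^10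
    + 4*A1*A2*A3*A4^2*z^9 + 4*A1*A2*A3*A4^2*z^7 + A1*A2*A3*A4^2*z^6 + A1*A2*A3*A4^2*z^4 + A1*A2*A4^3*z^10 + A1*A2*A4^3*z^9
    + A1*A2*A4^3*z^8 + A1*A2*A4^3*z^7 - 4*A1*A2*A4^3*z^6 + 5*A1*A2*A4^3*z^5 - 5*A1*A2*A4^3*z + 5*A1*A2*A4^3 + A1*A3^4*z^8
    + A1*A3^3*A4*z^10 + 2*A1*A3^3*A4*z^8 + A1*A3^3*A4*z^6 + A1*A3^2*A4^2*z^11 + A1*A3^2*A4^2*z^9 + A1*A3^2*A4^2*z^8
    + A1*A3^2*A4^2*z^7 + 5*A1*A3^2*A4^2*z^6 - 4*A1*A3^2*A4^2*z^5 + 5*A1*A3^2*A4^2*z - 5*A1*A3^2*A4^2 + A1*A3*A4^3*z^11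
    - A1*A3*A4^3*z^10 + A1*A3*A4^3*z^9 + 2*A1*A3*A4^3*z^8 + A1*A3*A4^3*z^7 - A1*A3*A4^3*z^6 + A1*A3*A4^3*z^5 + A1*A4^4*z^9
    - A1*A4^4*z^8 + A1*A4^4*z^7 + A2^5*z^6 - A2^5*z^5 + A2^5*z - A2^5 + A2^4*A3*z^9 - A2^4*A3*z^8 + A2^4*A3*z^7
    + A2^4*A4*z^8 + A2^3*A3^2*z^10 + A2^3*A3^2*z^6 + A2^3*A3*A4*z^11 - A2^3*A3*A4*z^10 + A2^3*A3*A4*z^9 + 2*A2^3*A3*A4*z^8
    + A2^3*A3*A4*z^7 - A2^3*A3*A4*z^6 + A2^3*A3*A4*z^5 + A2^3*A4^2*z^9 + A2^3*A4^2*z^7 + A2^2*A3^3*z^10 + A2^2*A3^3*z^6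
    + A2^2*A3^2*A4*z^11 + A2^2*A3^2*A4*z^10 - A2^2*A3^2*A4*z^9 + 4*A2^2*A3^2*A4*z^8 - A2^2*A3^2*A4*z^7 + A2^2*A3^2*A4*z^6
    + A2^2*A3^2*A4*z^5 + A2^2*A3*A4^2*z^11 + A2^2*A3*A4^2*z^9 + A2^2*A3*A4^2*z^8 + A2^2*A3*A4^2*z^7 + 5*A2^2*A3*A4^2*z^6
    - 4*A2^2*A3*A4^2*z^5 + 5*A2^2*A3*A4^2*z - 5*A2^2*A3*A4^2 + A2^2*A4^3*z^9 + A2^2*A4^3*z^7 + A2*A3^4*z^9 - A2*A3^4*z^8
    + A2*A3^4*z^7 + A2*A3^3*A4*z^10 + A2*A3^3*A4*z^9 + A2*A3^3*A4*z^8 + A2*A3^3*A4*z^7 - 4*A2*A3^3*A4*z^6 + 5*A2*A3^3*A4*z^5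
    - 5*A2*A3^3*A4*z + 5*A2*A3^3*A4 + 2*A2*A3^2*A4^2*z^10 + A2*A3^2*A4^2*z^9 + A2*A3^2*A4^2*z^7 + 2*A2*A3^2*A4^2*z^6
    + A2*A3*A4^3*z^10 + 2*A2*A3*A4^3*z^8 + A2*A3*A4^3*z^6 + A2*A4^4*z^8 + A3^5*z^6 - A3^5*z^5 + A3^5*z - A3^5
    + A3^4*A4*z^8 + A3^3*A4^2*z^9 + A3^3*A4^2*z^7 + A3^2*A4^3*z^9 + A3^2*A4^3*z^7 + A3*A4^4*z^8 + A4^5*z^6 - A4^5*z^5
    + A4^5*z - A4^5) * hz
/-- Coefficient of the linear factor in the basis `1, ζ, …, ζ^4`. -/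
def cA0 (e u0 v0 U V : R) : R :=
  5*e*u0^5*U - 5*e*v0^5*V + 3*u0^5*U - u0^5*V - v0^5*U - 3*v0^5*V
/-- Coefficient of the linear factor in the basis `1, ζ, …, ζ^4`. -/
def cA1 (e u0 v0 U V : R) : R :=
  -15*e*u0^4*v0*U - 5*e*u0^4*v0*V - 10*u0^4*v0*U
/-- Coefficient of the linear factor in the basis `1, ζ, …, ζ^4`. -/
def cA2 (e u0 v0 U V : R) : R :=
  20*e*u0^3*v0^2*U - 10*e*u0^3*v0^2*V + 10*u0^3*v0^2*U - 10*u0^3*v0^2*V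
/-- Coefficient of the linear factor in the basis `1, ζ, …, ζ^4`. -/
def cA3 (e u0 v0 U V : R) : R :=
  -10*e*u0^2*v0^3*U - 20*e*u0^2*v0^3*V - 10*u0^2*v0^3*U - 10*u0^2*v0^3*V
/-- Coefficient of the linear factor in the basis `1, ζ, …, ζ^4`. -/
def cA4 (e u0 v0 U V : R) : R :=
  5*e*u0*v0^4*U - 15*e*u0*v0^4*V - 10*u0*v0^4*V
/-- One linear factor of the resolvent. -/
def fac (e u0 v0 U V ze : R) : R := U * (e * u0 - ze * v0) ^ 5 - V * (u0 + e * ze * v0) ^ 5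

theorem fac_eq (e u0 v0 U V ze : R) (he : e ^ 2 = e + 1) (hze : ze ^ 5 = 1) :
    fac e u0 v0 U V ze = cA0 e u0 v0 U V + cA1 e u0 v0 U V * ze + cA2 e u0 v0 U V * ze ^ 2
      + cA3 e u0 v0 U V * ze ^ 3 + cA4 e u0 v0 U V * ze ^ 4 := by
  unfold fac cA0 cA1 cA2 cA3 cA4
  linear_combination
    (    e^3*u0^5*U - e^3*v0^5*V + e^2*u0^5*U - 5*e^2*u0^4*v0*U*ze - 5*e^2*u0*v0^4*V*ze^4 - e^2*v0^5*V + 2*e*u0^5*U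
    - 5*e*u0^4*v0*U*ze + 10*e*u0^3*v0^2*U*ze^2 - 10*e*u0^2*v0^3*V*ze^3 - 5*e*u0*v0^4*V*ze^4 - 2*e*v0^5*V + 3*u0^5*U
    - 10*u0^4*v0*U*ze + 10*u0^3*v0^2*U*ze^2 - 10*u0^3*v0^2*V*ze^2 - 10*u0^2*v0^3*U*ze^3 - 10*u0^2*v0^3*V*ze^3
    - 10*u0*v0^4*V*ze^4 - 3*v0^5*V) * he + (-e^5*v0^5*V - v0^5*U) * hze
theorem F2b (e u0 v0 U V : R) (he : e ^ 2 = e + 1) :
    N5 (cA0 e u0 v0 U V) (cA1 e u0 v0 U V) (cA2 e u0 v0 U V) (cA3 e u0 v0 U V)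
      (cA4 e u0 v0 U V) = G5 e (u0 ^ 5) (v0 ^ 5) U V := by
  unfold N5 cA0 cA1 cA2 cA3 cA4 G5
  linear_combination
    (    3125*e^3*u0^25*U^5 + 68750*e^3*u0^20*v0^5*U^5 - 625000*e^3*u0^20*v0^5*U^4*V - 1640625*e^3*u0^20*v0^5*U^3*V^2
    - 625000*e^3*u0^20*v0^5*U^2*V^3 - 78125*e^3*u0^20*v0^5*U*V^4 - 3125*e^3*u0^20*v0^5*V^5 + 371875*e^3*u0^15*v0^10*U^5
    - 6796875*e^3*u0^15*v0^10*U^4*V + 30156250*e^3*u0^15*v0^10*U^3*V^2 - 5234375*e^3*u0^15*v0^10*U^2*V^3 - 1484375*e^3*u0^15*v0^10*U*V^4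
    - 68750*e^3*u0^15*v0^10*V^5 - 68750*e^3*u0^10*v0^15*U^5 + 1484375*e^3*u0^10*v0^15*U^4*V - 5234375*e^3*u0^10*v0^15*U^3*V^2
    - 30156250*e^3*u0^10*v0^15*U^2*V^3 - 6796875*e^3*u0^10*v0^15*U*V^4 - 371875*e^3*u0^10*v0^15*V^5 + 3125*e^3*u0^5*v0^20*U^5
    - 78125*e^3*u0^5*v0^20*U^4*V + 625000*e^3*u0^5*v0^20*U^3*V^2 - 1640625*e^3*u0^5*v0^20*U^2*V^3 + 625000*e^3*u0^5*v0^20*U*V^4
    + 68750*e^3*u0^5*v0^20*V^5 - 3125*e^3*v0^25*V^5 + 12500*e^2*u0^25*U^5 - 3125*e^2*u0^25*U^4*V + 150000*e^2*u0^20*v0^5*U^5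
    - 3225000*e^2*u0^20*v0^5*U^4*V - 6437500*e^2*u0^20*v0^5*U^3*V^2 - 1578125*e^2*u0^20*v0^5*U^2*V^3 - 65625*e^2*u0^20*v0^5*U*V^4
    + 3125*e^2*u0^20*v0^5*V^5 + 128125*e^2*u0^15*v0^10*U^5 - 15496875*e^2*u0^15*v0^10*U^4*V + 122921875*e^2*u0^15*v0^10*U^3*V^2
    - 40218750*e^2*u0^15*v0^10*U^2*V^3 - 3912500*e^2*u0^15*v0^10*U*V^4 + 21875*e^2*u0^15*v0^10*V^5 + 21875*e^2*u0^10*v0^15*U^5
    + 3912500*e^2*u0^10*v0^15*U^4*V - 40218750*e^2*u0^10*v0^15*U^3*V^2 - 122921875*e^2*u0^10*v0^15*U^2*V^3 - 15496875*e^2*u0^10*v0^15*U*V^4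
    - 128125*e^2*u0^10*v0^15*V^5 - 3125*e^2*u0^5*v0^20*U^5 - 65625*e^2*u0^5*v0^20*U^4*V + 1578125*e^2*u0^5*v0^20*U^3*V^2
    - 6437500*e^2*u0^5*v0^20*U^2*V^3 + 3225000*e^2*u0^5*v0^20*U*V^4 + 150000*e^2*u0^5*v0^20*V^5 - 3125*e^2*v0^25*U*V^4
    - 12500*e^2*v0^25*V^5 + 26875*e*u0^25*U^5 - 10625*e*u0^25*U^4*V + 1250*e*u0^25*U^3*V^2 + 100625*e*u0^20*v0^5*U^5
    - 7815000*e*u0^20*v0^5*U^4*V - 13281875*e*u0^20*v0^5*U^3*V^2 - 2241875*e*u0^20*v0^5*U^2*V^3 - 16875*e*u0^20*v0^5*U*V^4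
    + 1250*e*u0^20*v0^5*V^5 - 217500*e*u0^15*v0^10*U^5 - 18245625*e*u0^15*v0^10*U^4*V + 259708125*e*u0^15*v0^10*U^3*V^2
    - 110974375*e*u0^15*v0^10*U^2*V^3 - 2024375*e*u0^15*v0^10*U*V^4 + 208750*e*u0^15*v0^10*V^5 + 208750*e*u0^10*v0^15*U^5
    + 2024375*e*u0^10*v0^15*U^4*V - 110974375*e*u0^10*v0^15*U^3*V^2 - 259708125*e*u0^10*v0^15*U^2*V^3 - 18245625*e*u0^10*v0^15*U*V^4
    + 217500*e*u0^10*v0^15*V^5 - 1250*e*u0^5*v0^20*U^5 - 16875*e*u0^5*v0^20*U^4*V + 2241875*e*u0^5*v0^20*U^3*V^2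
    - 13281875*e*u0^5*v0^20*U^2*V^3 + 7815000*e*u0^5*v0^20*U*V^4 + 100625*e*u0^5*v0^20*V^5 - 1250*e*v0^25*U^2*V^3
    - 10625*e*v0^25*U*V^4 - 26875*e*v0^25*V^5 + 46125*u0^25*U^5 - 20500*u0^25*U^4*V + 3500*u0^25*U^3*V^2 - 250*u0^25*U^2*V^3
    + 6000*u0^20*v0^5*U^5 - 13874125*u0^20*v0^5*U^4*V - 22268875*u0^20*v0^5*U^3*V^2 - 3261500*u0^20*v0^5*U^2*V^3
    - 44875*u0^20*v0^5*U*V^4 - 500*u0^20*v0^5*V^5 - 93000*u0^15*v0^10*U^5 - 23116375*u0^15*v0^10*U^4*V + 439247250*u0^15*v0^10*U^3*V^2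
    - 203382375*u0^15*v0^10*U^2*V^3 + 2264000*u0^15*v0^10*U*V^4 + 105250*u0^15*v0^10*V^5 + 105250*u0^10*v0^15*U^5
    - 2264000*u0^10*v0^15*U^4*V - 203382375*u0^10*v0^15*U^3*V^2 - 439247250*u0^10*v0^15*U^2*V^3 - 23116375*u0^10*v0^15*U*V^4
    + 93000*u0^10*v0^15*V^5 + 500*u0^5*v0^20*U^5 - 44875*u0^5*v0^20*U^4*V + 3261500*u0^5*v0^20*U^3*V^2 - 22268875*u0^5*v0^20*U^2*V^3
    + 13874125*u0^5*v0^20*U*V^4 + 6000*u0^5*v0^20*V^5 - 250*v0^25*U^3*V^2 - 3500*v0^25*U^2*V^3 - 20500*v0^25*U*V^4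
    - 46125*v0^25*V^5) * he
/-- (F2) The resolvent is the product of its five linear factors. -/
theorem prod5 (e u0 v0 U V z : R) (he : e ^ 2 = e + 1) (hz : z ^ 4 + z ^ 3 + z ^ 2 + z + 1 = 0) :
    fac e u0 v0 U V z * fac e u0 v0 U V (z ^ 2) * fac e u0 v0 U V (z ^ 3) *
      fac e u0 v0 U V (z ^ 4) * fac e u0 v0 U V 1 = G5 e (u0 ^ 5) (v0 ^ 5) U V := by
  have hz5 : z ^ 5 = 1 := by linear_combination (z - 1) * hz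
  have e2 : (z ^ 2) ^ 5 = 1 := by linear_combination (z ^ 5 + 1) * hz5
  have e3 : (z ^ 3) ^ 5 = 1 := by linear_combination (z ^ 10 + z ^ 5 + 1) * hz5
  have e4 : (z ^ 4) ^ 5 = 1 := by linear_combination (z ^ 15 + z ^ 10 + z ^ 5 + 1) * hz5
  have h1 := fac_eq e u0 v0 U V z he hz5
  have h2 : fac e u0 v0 U V (z ^ 2) = cA0 e u0 v0 U V + cA1 e u0 v0 U V * z ^ 2
      + cA2 e u0 v0 U V * z ^ 4 + cA3 e u0 v0 U V * z + cA4 e u0 v0 U V * z ^ 3 := by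
    rw [fac_eq e u0 v0 U V (z ^ 2) he e2]
    linear_combination (cA3 e u0 v0 U V * z + cA4 e u0 v0 U V * z ^ 3) * hz5
  have h3 : fac e u0 v0 U V (z ^ 3) = cA0 e u0 v0 U V + cA1 e u0 v0 U V * z ^ 3
      + cA2 e u0 v0 U V * z + cA3 e u0 v0 U V * z ^ 4 + cA4 e u0 v0 U V * z ^ 2 := by
    rw [fac_eq e u0 v0 U V (z ^ 3) he e3]
    linear_combination (cA2 e u0 v0 U V * z + cA3 e u0 v0 U V * z ^ 4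
      + cA4 e u0 v0 U V * (z ^ 7 + z ^ 2)) * hz5
  have h4 : fac e u0 v0 U V (z ^ 4) = cA0 e u0 v0 U V + cA1 e u0 v0 U V * z ^ 4
      + cA2 e u0 v0 U V * z ^ 3 + cA3 e u0 v0 U V * z ^ 2 + cA4 e u0 v0 U V * z := by
    rw [fac_eq e u0 v0 U V (z ^ 4) he e4]
    linear_combination (cA2 e u0 v0 U V * z ^ 3 + cA3 e u0 v0 U V * (z ^ 7 + z ^ 2)
      + cA4 e u0 v0 U V * (z ^ 11 + z ^ 6 + z)) * hz5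
  have h0 : fac e u0 v0 U V 1 = cA0 e u0 v0 U V + cA1 e u0 v0 U V + cA2 e u0 v0 U V
      + cA3 e u0 v0 U V + cA4 e u0 v0 U V := by
    rw [fac_eq e u0 v0 U V 1 he (one_pow 5)]; ring
  rw [h1, h2, h3, h4, h0, norm5 _ _ _ _ _ z hz, F2b e u0 v0 U V he]

end Ring

end Fermat.Agent.S52.helper6116
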