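/-
helper6116 — S52 (3–5 switch), module L3: the TORSOR LEMMA for Klein's icosahedral forms.

`fibre_subset_orbit`: over any field in which `2, 3 ≠ 0`, if `(u, v)` and `(u0, v0)` have the
same (nonzero) values of Klein's forms `H` and `T` and `u0 v0 ≠ 0`, then
`(u, v) = lam • diag(ze, 1) • g • diag(1, z^k) • (u0, v0)` with `lam^10 = 1`, `ze^5 = 1`, `k < 5`
and `g ∈ {1, S, K, S K}`, `S (x, y) = (y, -x)`, `K = [[a, a e], [a e, -a]]` (Klein's generator;
`e^2 = e + 1`, `a^2 (e + 2) = -1`, so `det K = 1`).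
No group theory and no root counting: the proof is the factorisation of the degree-60 orbit
polynomial (`F1`, `prod5` in `helper6116_KleinFactor`).
-/
import Fermat.Agent.S52.helper6116_KleinFactor

set_option autoImplicit false

namespace Fermat.Agent.S52.helper6116

variable {K : Type*} [Field K]

/-- If `(u p)^5 = (v q)^5` with `(u, v) ≠ 0`, `(p, q) ≠ 0`, then `(u, v)` is proportional to
`(ze q, p)` for a fifth root of unity `ze`. -/
theorem prop_of_pow5 (u v p q : K) (h : (u * p) ^ 5 = (v * q) ^ 5) (huv : ¬(u = 0 ∧ v = 0))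
    (hpq : ¬(p = 0 ∧ q = 0)) : ∃ m ze : K, ze ^ 5 = 1 ∧ u = m * ze * q ∧ v = m * p := by
  by_cases hp : p = 0
  · have hq : q ≠ 0 := fun hq => hpq ⟨hp, hq⟩
    have hv : v = 0 := by
      have h0 : (v * q) ^ 5 = 0 := by rw [← h, hp]; ring
      rcases mul_eq_zero.mp (pow_eq_zero_iff (by norm_num : (5 : ℕ) ≠ 0) |>.mp h0) with h' | h'
      · exact h'
      · exact absurd h' hq
    refine ⟨u / q, 1, one_pow 5, ?_, ?_⟩
    · field_simp
    · rw [hv, hp]; ring
  · by_cases hq : q = 0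
    · have hu : u = 0 := by
        have h0 : (u * p) ^ 5 = 0 := by rw [h, hq]; ring
        rcases mul_eq_zero.mp (pow_eq_zero_iff (by norm_num : (5 : ℕ) ≠ 0) |>.mp h0) with h' | h'
        · exact h'
        · exact absurd h' hp
      refine ⟨v / p, 1, one_pow 5, ?_, ?_⟩
      · rw [hu, hq]; ring
      · field_simp
    · have hv : v ≠ 0 := by
        intro hv
        apply huv
        refine ⟨?_, hv⟩
        have h0 : (u * p) ^ 5 = 0 := by rw [h, hv]; ring
        rcases mul_eq_zero.mp (pow_eq_zero_iff (by norm_num : (5 : ℕ) ≠ 0) |>.mp h0) with h' | h'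
        · exact h'
        · exact absurd h' hp
      refine ⟨v / p, (u * p) / (v * q), ?_, ?_, ?_⟩
      · rw [div_pow, h]; exact div_self (pow_ne_zero 5 (mul_ne_zero hv hq))
      · field_simp
      · field_simp

/-- From the two scalar equations to `lam^10 = 1`. -/
theorem pow_ten_of (m c20 c30 : K) (h20 : m ^ 20 * c20 = 1) (h30 : m ^ 30 * c30 = 1)
    (lam : K) (hl20 : lam ^ 20 = m ^ 20 * c20) (hl30 : lam ^ 30 = m ^ 30 * c30) : lam ^ 10 = 1 := by
  have h1 : lam ^ 20 = 1 := by rw [hl20, h20]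
  have h2 : lam ^ 30 = 1 := by rw [hl30, h30]
  have h3 : lam ^ 30 = lam ^ 20 * lam ^ 10 := by ring
  rw [h1, one_mul] at h3
  rw [← h3, h2]

section Main

variable (z e a : K) (hz : z ^ 4 + z ^ 3 + z ^ 2 + z + 1 = 0) (he : e ^ 2 = e + 1)
  (ha : a ^ 2 * (e + 2) = -1)

include he ha in
/-- The factor `fac … ze'` of the resolvent vanishes: `(u, v)` is in the `K`-coset. -/
theorem case_K (u0 v0 u v ze' : K) (hu0 : u0 ≠ 0) (hze' : ze' ^ 5 = 1)
    (hH0 : kH u0 v0 ≠ 0) (hT0 : kT u0 v0 ≠ 0) (hH : kH u v = kH u0 v0) (hT : kT u v = kT u0 v0)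
    (hfac : fac e u0 v0 (u ^ 5) (v ^ 5) ze' = 0) :
    ∃ lam ze : K, lam ^ 10 = 1 ∧ ze ^ 5 = 1 ∧
      u = lam * ze * (a * u0 + a * e * ze' * v0) ∧ v = lam * (a * e * u0 - a * ze' * v0) := by
  have ha0 : a ≠ 0 := by rintro rfl; simp at ha
  have he2 : e + 2 ≠ 0 := by intro h; rw [h] at ha; simp at ha
  have hze'0 : ze' ≠ 0 := by rintro rfl; simp at hze'
  set p := e * u0 - ze' * v0 with hp
  set q := u0 + e * ze' * v0 with hq
  have huv : ¬(u = 0 ∧ v = 0) := by
    rintro ⟨rfl, rfl⟩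
    apply hH0; rw [← hH]; unfold kH; ring
  have hpq : ¬(p = 0 ∧ q = 0) := by
    rintro ⟨h1, h2⟩
    -- e * p + q = (e^2 + 1) u0 = (e + 2) u0
    have : (e + 2) * u0 = 0 := by
      have : e * p + q = (e + 2) * u0 := by rw [hp, hq]; linear_combination u0 * he
      rw [← this, h1, h2]; ring
    rcases mul_eq_zero.mp this with h | h
    · exact he2 h
    · exact hu0 h
  have h5 : (u * p) ^ 5 = (v * q) ^ 5 := by
    unfold fac at hfac
    rw [mul_pow, mul_pow]; linear_combination hfac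
  obtain ⟨m, ze, hze, hu, hv⟩ := prop_of_pow5 u v p q h5 huv hpq
  -- scalar equations
  have hHm : kH u v = m ^ 20 * (e + 2) ^ 10 * kH u0 v0 := by
    rw [hu, hv, show m * ze * q = m * (ze * q) by ring, kH_smul, kH_diag_left _ _ _ hze, hq, hp,
      show e * u0 - ze' * v0 = e * u0 - (ze' * v0) by ring,
      show u0 + e * ze' * v0 = u0 + e * (ze' * v0) by ring, kH_K _ _ _ he,
      kH_diag_right _ _ _ hze']
    ring
  have hTm : kT u v = -(m ^ 30 * (e + 2) ^ 15 * kT u0 v0) := by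
    rw [hu, hv, show m * ze * q = m * (ze * q) by ring, kT_smul, kT_diag_left _ _ _ hze, hq, hp,
      show e * u0 - ze' * v0 = e * u0 - (ze' * v0) by ring,
      show u0 + e * ze' * v0 = u0 + e * (ze' * v0) by ring, kT_K _ _ _ he,
      kT_diag_right _ _ _ hze']
    ring
  have h20 : m ^ 20 * (e + 2) ^ 10 = 1 := by
    have : (m ^ 20 * (e + 2) ^ 10 - 1) * kH u0 v0 = 0 := by linear_combination hH - hHm
    rcases mul_eq_zero.mp this with h | h
    · linear_combination h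
    · exact absurd h hH0
  have h30 : m ^ 30 * (-(e + 2) ^ 15) = 1 := by
    have : (m ^ 30 * (-(e + 2) ^ 15) - 1) * kT u0 v0 = 0 := by linear_combination hT - hTm
    rcases mul_eq_zero.mp this with h | h
    · linear_combination h
    · exact absurd h hT0
  have ha20 : a ^ 20 * (e + 2) ^ 10 = 1 := by
    have : a ^ 20 * (e + 2) ^ 10 = (a ^ 2 * (e + 2)) ^ 10 := by ring
    rw [this, ha]; norm_num
  have ha30 : a ^ 30 * (e + 2) ^ 15 = -1 := by
    have : a ^ 30 * (e + 2) ^ 15 = (a ^ 2 * (e + 2)) ^ 15 := by ring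
    rw [this, ha]; norm_num
  refine ⟨m / a, ze, ?_, hze, ?_, ?_⟩
  · apply pow_ten_of m ((e + 2) ^ 10) (-(e + 2) ^ 15) h20 h30
    · rw [div_pow, div_eq_iff (pow_ne_zero 20 ha0)]
      linear_combination (-(m ^ 20)) * ha20
    · rw [div_pow, div_eq_iff (pow_ne_zero 30 ha0)]
      linear_combination (m ^ 30) * ha30
  · rw [hu, hq]; field_simp
  · rw [hv, hp]; field_simp

include he ha in
/-- The factor `fac … ze'` of the second resolvent vanishes: `(u, v)` is in the `S K`-coset. -/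
theorem case_SK (u0 v0 u v ze' : K) (hu0 : u0 ≠ 0) (hze' : ze' ^ 5 = 1)
    (hH0 : kH u0 v0 ≠ 0) (hT0 : kT u0 v0 ≠ 0) (hH : kH u v = kH u0 v0) (hT : kT u v = kT u0 v0)
    (hfac : fac e u0 v0 (-(v ^ 5)) (u ^ 5) ze' = 0) :
    ∃ lam ze : K, lam ^ 10 = 1 ∧ ze ^ 5 = 1 ∧
      u = lam * ze * (a * e * u0 - a * ze' * v0) ∧ v = -(lam * (a * u0 + a * e * ze' * v0)) := by
  have ha0 : a ≠ 0 := by rintro rfl; simp at ha
  have he2 : e + 2 ≠ 0 := by intro h; rw [h] at ha; simp at ha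
  set p := e * u0 - ze' * v0 with hp
  set q := u0 + e * ze' * v0 with hq
  have huv : ¬(u = 0 ∧ -v = 0) := by
    rintro ⟨rfl, hv⟩
    have hv' : v = 0 := by linear_combination -hv
    subst hv'
    apply hH0; rw [← hH]; unfold kH; ring
  have hpq : ¬(q = 0 ∧ p = 0) := by
    rintro ⟨h2, h1⟩
    have : (e + 2) * u0 = 0 := by
      have : e * p + q = (e + 2) * u0 := by rw [hp, hq]; linear_combination u0 * he
      rw [← this, h1, h2]; ring
    rcases mul_eq_zero.mp this with h | h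
    · exact he2 h
    · exact hu0 h
  have h5 : (u * q) ^ 5 = (-v * p) ^ 5 := by
    unfold fac at hfac
    rw [mul_pow, mul_pow]; linear_combination -hfac
  obtain ⟨m, ze, hze, hu, hv⟩ := prop_of_pow5 u (-v) q p h5 huv hpq
  have hv' : v = m * (-q) := by linear_combination -hv
  have hHm : kH u v = m ^ 20 * (e + 2) ^ 10 * kH u0 v0 := by
    rw [hu, hv', show m * ze * p = m * (ze * p) by ring, kH_smul, kH_diag_left _ _ _ hze, kH_S,
      hq, hp, show e * u0 - ze' * v0 = e * u0 - (ze' * v0) by ring,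
      show u0 + e * ze' * v0 = u0 + e * (ze' * v0) by ring, kH_K _ _ _ he,
      kH_diag_right _ _ _ hze']
    ring
  have hTm : kT u v = -(m ^ 30 * (e + 2) ^ 15 * kT u0 v0) := by
    rw [hu, hv', show m * ze * p = m * (ze * p) by ring, kT_smul, kT_diag_left _ _ _ hze, kT_S,
      hq, hp, show e * u0 - ze' * v0 = e * u0 - (ze' * v0) by ring,
      show u0 + e * ze' * v0 = u0 + e * (ze' * v0) by ring, kT_K _ _ _ he,
      kT_diag_right _ _ _ hze']
    ring
  have h20 : m ^ 20 * (e + 2) ^ 10 = 1 := by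
    have : (m ^ 20 * (e + 2) ^ 10 - 1) * kH u0 v0 = 0 := by linear_combination hH - hHm
    rcases mul_eq_zero.mp this with h | h
    · linear_combination h
    · exact absurd h hH0
  have h30 : m ^ 30 * (-(e + 2) ^ 15) = 1 := by
    have : (m ^ 30 * (-(e + 2) ^ 15) - 1) * kT u0 v0 = 0 := by linear_combination hT - hTm
    rcases mul_eq_zero.mp this with h | h
    · linear_combination h
    · exact absurd h hT0
  have ha20 : a ^ 20 * (e + 2) ^ 10 = 1 := by
    have : a ^ 20 * (e + 2) ^ 10 = (a ^ 2 * (e + 2)) ^ 10 := by ring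
    rw [this, ha]; norm_num
  have ha30 : a ^ 30 * (e + 2) ^ 15 = -1 := by
    have : a ^ 30 * (e + 2) ^ 15 = (a ^ 2 * (e + 2)) ^ 15 := by ring
    rw [this, ha]; norm_num
  refine ⟨m / a, ze, ?_, hze, ?_, ?_⟩
  · apply pow_ten_of m ((e + 2) ^ 10) (-(e + 2) ^ 15) h20 h30
    · rw [div_pow, div_eq_iff (pow_ne_zero 20 ha0)]
      linear_combination (-(m ^ 20)) * ha20
    · rw [div_pow, div_eq_iff (pow_ne_zero 30 ha0)]
      linear_combination (m ^ 30) * ha30
  · rw [hu, hp]; field_simp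
  · rw [hv', hq]; field_simp

/-- The factor `U V0 - V U0` vanishes: `(u, v)` is in the diagonal coset of `(u0, v0)`. -/
theorem case_one (u0 v0 u v : K) (hv0 : v0 ≠ 0)
    (hH0 : kH u0 v0 ≠ 0) (hT0 : kT u0 v0 ≠ 0) (hH : kH u v = kH u0 v0) (hT : kT u v = kT u0 v0)
    (hfac : u ^ 5 * v0 ^ 5 - v ^ 5 * u0 ^ 5 = 0) :
    ∃ lam ze : K, lam ^ 10 = 1 ∧ ze ^ 5 = 1 ∧ u = lam * ze * u0 ∧ v = lam * v0 := by
  have huv : ¬(u = 0 ∧ v = 0) := by
    rintro ⟨rfl, rfl⟩
    apply hH0; rw [← hH]; unfold kH; ring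
  have h5 : (u * v0) ^ 5 = (v * u0) ^ 5 := by rw [mul_pow, mul_pow]; linear_combination hfac
  obtain ⟨m, ze, hze, hu, hv⟩ := prop_of_pow5 u v v0 u0 h5 huv (fun h => hv0 h.1)
  have hHm : kH u v = m ^ 20 * kH u0 v0 := by
    rw [hu, hv, show m * ze * u0 = m * (ze * u0) by ring, kH_smul, kH_diag_left _ _ _ hze]
  have hTm : kT u v = m ^ 30 * kT u0 v0 := by
    rw [hu, hv, show m * ze * u0 = m * (ze * u0) by ring, kT_smul, kT_diag_left _ _ _ hze]
  have h20 : m ^ 20 * 1 = 1 := by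
    have : (m ^ 20 - 1) * kH u0 v0 = 0 := by linear_combination hH - hHm
    rcases mul_eq_zero.mp this with h | h
    · linear_combination h
    · exact absurd h hH0
  have h30 : m ^ 30 * 1 = 1 := by
    have : (m ^ 30 - 1) * kT u0 v0 = 0 := by linear_combination hT - hTm
    rcases mul_eq_zero.mp this with h | h
    · linear_combination h
    · exact absurd h hT0
  exact ⟨m, ze, pow_ten_of m 1 1 h20 h30 m (mul_one _).symm (mul_one _).symm, hze, hu, hv⟩

/-- The factor `U U0 + V V0` vanishes: `(u, v)` is in the diagonal coset of `S (u0, v0)`. -/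
theorem case_S (u0 v0 u v : K) (hu0 : u0 ≠ 0)
    (hH0 : kH u0 v0 ≠ 0) (hT0 : kT u0 v0 ≠ 0) (hH : kH u v = kH u0 v0) (hT : kT u v = kT u0 v0)
    (hfac : u ^ 5 * u0 ^ 5 + v ^ 5 * v0 ^ 5 = 0) :
    ∃ lam ze : K, lam ^ 10 = 1 ∧ ze ^ 5 = 1 ∧ u = lam * ze * v0 ∧ v = -(lam * u0) := by
  have huv : ¬(u = 0 ∧ -v = 0) := by
    rintro ⟨rfl, hv⟩
    have hv' : v = 0 := by linear_combination -hv
    subst hv'
    apply hH0; rw [← hH]; unfold kH; ring
  have h5 : (u * u0) ^ 5 = (-v * v0) ^ 5 := by rw [mul_pow, mul_pow]; linear_combination hfac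
  obtain ⟨m, ze, hze, hu, hv⟩ := prop_of_pow5 u (-v) u0 v0 h5 huv (fun h => hu0 h.1)
  have hv' : v = m * (-u0) := by linear_combination -hv
  have hHm : kH u v = m ^ 20 * kH u0 v0 := by
    rw [hu, hv', show m * ze * v0 = m * (ze * v0) by ring, kH_smul, kH_diag_left _ _ _ hze, kH_S]
  have hTm : kT u v = m ^ 30 * kT u0 v0 := by
    rw [hu, hv', show m * ze * v0 = m * (ze * v0) by ring, kT_smul, kT_diag_left _ _ _ hze, kT_S]
  have h20 : m ^ 20 * 1 = 1 := by
    have : (m ^ 20 - 1) * kH u0 v0 = 0 := by linear_combination hH - hHm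
    rcases mul_eq_zero.mp this with h | h
    · linear_combination h
    · exact absurd h hH0
  have h30 : m ^ 30 * 1 = 1 := by
    have : (m ^ 30 - 1) * kT u0 v0 = 0 := by linear_combination hT - hTm
    rcases mul_eq_zero.mp this with h | h
    · linear_combination h
    · exact absurd h hT0
  refine ⟨m, ze, pow_ten_of m 1 1 h20 h30 m (mul_one _).symm (mul_one _).symm, hze, hu, ?_⟩
  rw [hv']; ring

include hz he ha in
/-- **Torsor lemma.** The fibre of `(H, T)` through `(u0, v0)` is contained in the orbit of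
`(u0, v0)` under scalars `lam` (`lam^10 = 1`), diagonal fifth roots of unity and `1, S, K, S K`. -/
theorem fibre_subset_orbit (h2 : (2 : K) ≠ 0) (h3 : (3 : K) ≠ 0) (u0 v0 u v : K)
    (hu0 : u0 ≠ 0) (hv0 : v0 ≠ 0) (hH0 : kH u0 v0 ≠ 0) (hT0 : kT u0 v0 ≠ 0)
    (hH : kH u v = kH u0 v0) (hT : kT u v = kT u0 v0) :
    ∃ (lam ze : K) (k : ℕ), lam ^ 10 = 1 ∧ ze ^ 5 = 1 ∧ k < 5 ∧
      ((u = lam * ze * u0 ∧ v = lam * v0) ∨
       (u = lam * ze * v0 ∧ v = -(lam * u0)) ∨
       (u = lam * ze * (a * u0 + a * e * z ^ k * v0) ∧ v = lam * (a * e * u0 - a * z ^ k * v0)) ∨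
       (u = lam * ze * (a * e * u0 - a * z ^ k * v0) ∧
         v = -(lam * (a * u0 + a * e * z ^ k * v0)))) := by
  have hz5 : z ^ 5 = 1 := by linear_combination (z - 1) * hz
  have hzk : ∀ k : ℕ, (z ^ k) ^ 5 = 1 := fun k => by rw [← pow_mul, mul_comm, pow_mul, hz5, one_pow]
  have hL : hH4 (u0 ^ 5) (v0 ^ 5) ^ 3 * hT6 (u ^ 5) (v ^ 5) ^ 2
      - hH4 (u ^ 5) (v ^ 5) ^ 3 * hT6 (u0 ^ 5) (v0 ^ 5) ^ 2 = 0 := by
    rw [← kH_eq, ← kH_eq, ← kT_eq, ← kT_eq, hH, hT]; ring
  have hF1 := F1 e (u0 ^ 5) (v0 ^ 5) (u ^ 5) (v ^ 5) he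
  rw [hL, mul_zero] at hF1
  have h1728 : (1728 : K) ≠ 0 := by
    have : (1728 : K) = 2 ^ 6 * 3 ^ 3 := by norm_num
    rw [this]; exact mul_ne_zero (pow_ne_zero _ h2) (pow_ne_zero _ h3)
  rcases mul_eq_zero.mp hF1 with h | h
  · exact absurd h h1728
  rcases mul_eq_zero.mp h with h | hD
  · rcases mul_eq_zero.mp h with h | hC
    · rcases mul_eq_zero.mp h with hA | hB
      · obtain ⟨lam, ze, h1, h2', h3', h4'⟩ := case_one u0 v0 u v hv0 hH0 hT0 hH hT hA
        exact ⟨lam, ze, 0, h1, h2', by norm_num, Or.inl ⟨h3', h4'⟩⟩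
      · obtain ⟨lam, ze, h1, h2', h3', h4'⟩ := case_S u0 v0 u v hu0 hH0 hT0 hH hT hB
        exact ⟨lam, ze, 0, h1, h2', by norm_num, Or.inr (Or.inl ⟨h3', h4'⟩)⟩
    · rw [← prod5 e u0 v0 (u ^ 5) (v ^ 5) z he hz] at hC
      have key : ∀ k : ℕ, k < 5 → fac e u0 v0 (u ^ 5) (v ^ 5) (z ^ k) = 0 →
          ∃ (lam ze : K) (k : ℕ), lam ^ 10 = 1 ∧ ze ^ 5 = 1 ∧ k < 5 ∧
            ((u = lam * ze * u0 ∧ v = lam * v0) ∨
             (u = lam * ze * v0 ∧ v = -(lam * u0)) ∨
             (u = lam * ze * (a * u0 + a * e * z ^ k * v0) ∧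
               v = lam * (a * e * u0 - a * z ^ k * v0)) ∨
             (u = lam * ze * (a * e * u0 - a * z ^ k * v0) ∧
               v = -(lam * (a * u0 + a * e * z ^ k * v0)))) := by
        intro k hk hfac
        obtain ⟨lam, ze, h1, h2', h3', h4'⟩ :=
          case_K e a he ha u0 v0 u v (z ^ k) hu0 (hzk k) hH0 hT0 hH hT hfac
        exact ⟨lam, ze, k, h1, h2', hk, Or.inr (Or.inr (Or.inl ⟨h3', h4'⟩))⟩
      rcases mul_eq_zero.mp hC with h | h0
      · rcases mul_eq_zero.mp h with h | h4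
        · rcases mul_eq_zero.mp h with h | h3'
          · rcases mul_eq_zero.mp h with h1 | h2'
            · exact key 1 (by norm_num) (by rw [pow_one]; exact h1)
            · exact key 2 (by norm_num) h2'
          · exact key 3 (by norm_num) h3'
        · exact key 4 (by norm_num) h4
      · exact key 0 (by norm_num) (by rw [pow_zero]; exact h0)
  · have hD' : G5 e (u0 ^ 5) (v0 ^ 5) (-(v ^ 5)) (u ^ 5) = 0 := by linear_combination -hD
    rw [← prod5 e u0 v0 (-(v ^ 5)) (u ^ 5) z he hz] at hD'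
    have key : ∀ k : ℕ, k < 5 → fac e u0 v0 (-(v ^ 5)) (u ^ 5) (z ^ k) = 0 →
        ∃ (lam ze : K) (k : ℕ), lam ^ 10 = 1 ∧ ze ^ 5 = 1 ∧ k < 5 ∧
          ((u = lam * ze * u0 ∧ v = lam * v0) ∨
           (u = lam * ze * v0 ∧ v = -(lam * u0)) ∨
           (u = lam * ze * (a * u0 + a * e * z ^ k * v0) ∧
             v = lam * (a * e * u0 - a * z ^ k * v0)) ∨
           (u = lam * ze * (a * e * u0 - a * z ^ k * v0) ∧
             v = -(lam * (a * u0 + a * e * z ^ k * v0)))) := by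
      intro k hk hfac
      obtain ⟨lam, ze, h1, h2', h3', h4'⟩ :=
        case_SK e a he ha u0 v0 u v (z ^ k) hu0 (hzk k) hH0 hT0 hH hT hfac
      exact ⟨lam, ze, k, h1, h2', hk, Or.inr (Or.inr (Or.inr ⟨h3', h4'⟩))⟩
    rcases mul_eq_zero.mp hD' with h | h0
    · rcases mul_eq_zero.mp h with h | h4
      · rcases mul_eq_zero.mp h with h | h3'
        · rcases mul_eq_zero.mp h with h1 | h2'
          · exact key 1 (by norm_num) (by rw [pow_one]; exact h1)
          · exact key 2 (by norm_num) h2'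
        · exact key 3 (by norm_num) h3'
      · exact key 4 (by norm_num) h4
    · exact key 0 (by norm_num) (by rw [pow_zero]; exact h0)

end Main

end Fermat.Agent.S52.helper6116
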