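/-
S52 (3-5 switch), leaf 4(f) of the captain's plan: INVARIANCE of Klein's icosahedral forms
`kF`, `kH`, `kT` (normalisation of `helper424_KleinExist`) and COVARIANCE of the degree-11 pencil
`pen t (u, v) = (u + t * f_v, v - t * f_u)` (`penU`, `penV` of `helper352_Spec`) under the generators of the binary icosahedral group

* `J  : (u, v) ↦ (v, -u)`,
* `D  : (u, v) ↦ (c * u, d * v)` with `c ^ 5 = d ^ 5 = 1`, `c * d = 1`  (e.g. `c = e ^ 3`, `d = e ^ 2`),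
* `K  = r5⁻¹ • !![a, b; b, -a]`, `a = e ^ 4 - e`, `b = e ^ 2 - e ^ 3`, `r5 = e - e ^ 2 - e ^ 3 + e ^ 4`,
  for `e` a primitive fifth root of unity (`e ^ 4 + e ^ 3 + e ^ 2 + e + 1 = 0`),

as plain ring identities (any commutative ring; the `K` statement in field form
needs `5 ≠ 0`).  The `K` identities are proved in a denominator-free "golden" form: for
`a ^ 2 + a * b - b ^ 2 = 0` and `g = !![a, b; b, -a]` one has `kX (g w) = (det g) ^ (deg / 2) * kX w`.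

Everything is packaged in the predicate `KleinSym α β γ δ` ("the matrix `!![α, β; γ, δ]` preserves
`kF`, `kH`, `kT` and commutes with the pencil"), closed under products and inverses.
-/
import Mathlib
import Fermat.Agent.S52.helper424_KleinExist
import Fermat.Agent.S52.helper352_Spec

set_option autoImplicit false

namespace Fermat.Agent.S52.helper8993

open Fermat.Agent.S52.helper424 (kF kH kT kF_smul kH_smul kT_smul)
open Fermat.Agent.S52.helper352 (kFu kFv penU penV)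

section Ring

variable {R : Type*} [CommRing R]

/-! ### The pencil (definitions `kFu`, `kFv`, `penU`, `penV` of `helper352_Spec`) -/

theorem map_kFu {S : Type*} [CommRing S] (φ : R →+* S) (u v : R) :
    φ (kFu u v) = kFu (φ u) (φ v) := by
  simp only [kFu, map_mul, map_add, map_sub, map_pow, map_ofNat]

theorem map_kFv {S : Type*} [CommRing S] (φ : R →+* S) (u v : R) :
    φ (kFv u v) = kFv (φ u) (φ v) := by
  simp only [kFv, map_mul, map_add, map_sub, map_pow, map_ofNat]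

theorem map_penU {S : Type*} [CommRing S] (φ : R →+* S) (t u v : R) :
    φ (penU t u v) = penU (φ t) (φ u) (φ v) := by
  simp only [penU, map_mul, map_add, map_kFv]

theorem map_penV {S : Type*} [CommRing S] (φ : R →+* S) (t u v : R) :
    φ (penV t u v) = penV (φ t) (φ u) (φ v) := by
  simp only [penV, map_mul, map_sub, map_kFu]

theorem kFu_smul (c u v : R) : kFu (c * u) (c * v) = c ^ 11 * kFu u v := by
  simp only [kFu]; ring

theorem kFv_smul (c u v : R) : kFv (c * u) (c * v) = c ^ 11 * kFv u v := by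
  simp only [kFv]; ring

/-! ### The generator `J : (u, v) ↦ (v, -u)` -/

theorem kF_J (u v : R) : kF v (-u) = kF u v := by simp only [kF]; ring

theorem kH_J (u v : R) : kH v (-u) = kH u v := by simp only [kH]; ring

theorem kT_J (u v : R) : kT v (-u) = kT u v := by simp only [kT]; ring

theorem kFu_J (u v : R) : kFu v (-u) = kFv u v := by simp only [kFu, kFv]; ring

theorem kFv_J (u v : R) : kFv v (-u) = -kFu u v := by simp only [kFu, kFv]; ring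

/-! ### Diagonal substitutions `(u, v) ↦ (c * u, d * v)`, `c ^ 10 = 1`, `c ^ 5 = d ^ 5`

This covers `D = diag (e ^ 3, e ^ 2)`, all `diag (ζ, ζ')` with `ζ ^ 5 = ζ' ^ 5 = 1`, and the
scalars `μ` with `μ ^ 10 = 1`. -/

theorem kF_diag (c d u v : R) (hc : c ^ 10 = 1) (hcd : c ^ 5 = d ^ 5) :
    kF (c * u) (d * v) = c * d * kF u v := by
  simp only [kF]
  linear_combination (u^6*v^6 * (-11*d*c^6)
      + u*v^11 * (d^6*c + d*c^6)) * hcd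
    + (u^11*v * (d*c)
      + u^6*v^6 * (11*d*c)
      + u*v^11 * (-d*c)) * hc

theorem kH_diag (c d u v : R) (hc : c ^ 10 = 1) (hcd : c ^ 5 = d ^ 5) :
    kH (c * u) (d * v) = kH u v := by
  simp only [kH]
  linear_combination (u^15*v^5 * (-228*c^15)
      + u^10*v^10 * (494*d^5*c^10 + 494*c^15)
      + u^5*v^15 * (228*d^10*c^5 + 228*d^5*c^10 + 228*c^15)
      + v^20 * (d^15 + d^10*c^5 + d^5*c^10 + c^15)) * hcd
    + (u^20 * (-c^10 - 1)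
      + u^15*v^5 * (228*c^10 + 228)
      + u^10*v^10 * (-494*c^10 - 494)
      + u^5*v^15 * (-228*c^10 - 228)
      + v^20 * (-c^10 - 1)) * hc

theorem kT_diag (c d u v : R) (hc : c ^ 10 = 1) (hcd : c ^ 5 = d ^ 5) :
    kT (c * u) (d * v) = kT u v := by
  simp only [kT]
  linear_combination (u^25*v^5 * (-522*c^25)
      + u^20*v^10 * (10005*d^5*c^20 + 10005*c^25)
      + u^10*v^20 * (10005*d^15*c^10 + 10005*d^10*c^15 + 10005*d^5*c^20 + 10005*c^25)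
      + u^5*v^25 * (522*d^20*c^5 + 522*d^15*c^10 + 522*d^10*c^15 + 522*d^5*c^20 + 522*c^25)
      + v^30 * (-d^25 - d^20*c^5 - d^15*c^10 - d^10*c^15 - d^5*c^20 - c^25)) * hcd
    + (u^30 * (c^20 + c^10 + 1)
      + u^25*v^5 * (522*c^20 + 522*c^10 + 522)
      + u^20*v^10 * (-10005*c^20 - 10005*c^10 - 10005)
      + u^10*v^20 * (-10005*c^20 - 10005*c^10 - 10005)
      + u^5*v^25 * (-522*c^20 - 522*c^10 - 522)
      + v^30 * (c^20 + c^10 + 1)) * hc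

theorem kFu_diag (c d u v : R) (hc : c ^ 10 = 1) (hcd : c ^ 5 = d ^ 5) :
    kFu (c * u) (d * v) = d * kFu u v := by
  simp only [kFu]
  linear_combination (u^5*v^6 * (-66*d*c^5)
      + v^11 * (d^6 + d*c^5)) * hcd
    + (u^10*v * (11*d)
      + u^5*v^6 * (66*d)
      + v^11 * (-d)) * hc

theorem kFv_diag (c d u v : R) (hc : c ^ 10 = 1) (hcd : c ^ 5 = d ^ 5) :
    kFv (c * u) (d * v) = c * kFv u v := by
  simp only [kFv]
  linear_combination (u^6*v^5 * (-66*c^6)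
      + u*v^10 * (11*d^5*c + 11*c^6)) * hcd
    + (u^11 * (c)
      + u^6*v^5 * (66*c)
      + u*v^10 * (-11*c)) * hc

theorem penU_diag (t c d u v : R) (hc : c ^ 10 = 1) (hcd : c ^ 5 = d ^ 5) :
    penU t (c * u) (d * v) = c * penU t u v := by
  simp only [penU, kFv_diag c d u v hc hcd]; ring

theorem penV_diag (t c d u v : R) (hc : c ^ 10 = 1) (hcd : c ^ 5 = d ^ 5) :
    penV t (c * u) (d * v) = d * penV t u v := by
  simp only [penV, kFu_diag c d u v hc hcd]; ring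

/-- Scalars `μ` with `μ ^ 10 = 1` commute with the pencil (first coordinate). -/
theorem penU_scalar (t μ u v : R) (hμ : μ ^ 10 = 1) :
    penU t (μ * u) (μ * v) = μ * penU t u v :=
  penU_diag t μ μ u v hμ rfl

/-- Scalars `μ` with `μ ^ 10 = 1` commute with the pencil (second coordinate). -/
theorem penV_scalar (t μ u v : R) (hμ : μ ^ 10 = 1) :
    penV t (μ * u) (μ * v) = μ * penV t u v :=
  penV_diag t μ μ u v hμ rfl

theorem kH_scalar (μ u v : R) (hμ : μ ^ 10 = 1) : kH (μ * u) (μ * v) = kH u v :=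
  kH_diag μ μ u v hμ rfl

theorem kT_scalar (μ u v : R) (hμ : μ ^ 10 = 1) : kT (μ * u) (μ * v) = kT u v :=
  kT_diag μ μ u v hμ rfl

theorem kF_scalar (μ u v : R) (hμ : μ ^ 10 = 1) : kF (μ * u) (μ * v) = μ * μ * kF u v :=
  kF_diag μ μ u v hμ rfl

/-! ### The golden substitution `g = !![a, b; b, -a]`, `a ^ 2 + a * b - b ^ 2 = 0`

`det g = -(a ^ 2 + b ^ 2)`; each form of degree `2 k` is multiplied by `(det g) ^ k`, and the
gradient is transformed by `(det g) ^ 5 • g`. -/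

set_option maxRecDepth 100000 in
set_option maxHeartbeats 1000000 in
theorem kF_golden (a b u v : R) (h : a ^ 2 + a * b - b ^ 2 = 0) :
    kF (a * u + b * v) (b * u - a * v) = (a ^ 2 + b ^ 2) ^ 6 * kF u v := by
  simp only [kF]
  linear_combination (u^12 * (a^9*b - a^8*b^2 + 2*a^7*b^3 - 3*a^6*b^4 + 5*a^5*b^5 + 3*a^4*b^6 + 2*a^3*b^7 + a^2*b^8 + a*b^9)
      + u^11*v * (-2*a^10 + 2*a^9*b + a^8*b^2 + a^7*b^3 - 15*a^6*b^4 - 50*a^5*b^5 + 15*a^4*b^6 + a^3*b^7 - a^2*b^8 + 2*a*b^9 + 2*b^10)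
      + u^10*v^2 * (-11*a^9*b + 11*a^8*b^2 + 33*a^7*b^3 + 143*a^6*b^4 - 110*a^5*b^5 - 143*a^4*b^6 + 33*a^3*b^7 - 11*a^2*b^8 - 11*a*b^9)
      + u^9*v^3 * (-55*a^8*b^2 - 165*a^7*b^3 + 275*a^6*b^4 + 550*a^5*b^5 - 275*a^4*b^6 - 165*a^3*b^7 + 55*a^2*b^8)
      + u^8*v^4 * (165*a^8*b^2 - 330*a^7*b^3 - 825*a^6*b^4 + 825*a^5*b^5 + 825*a^4*b^6 - 330*a^3*b^7 - 165*a^2*b^8)
      + u^7*v^5 * (-66*a^9*b + 66*a^8*b^2 + 858*a^7*b^3 - 1122*a^6*b^4 - 1320*a^5*b^5 + 1122*a^4*b^6 + 858*a^3*b^7 - 66*a^2*b^8 - 66*a*b^9)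
      + u^6*v^6 * (-462*a^8*b^2 + 462*a^7*b^3 + 1386*a^6*b^4 - 1848*a^5*b^5 - 1386*a^4*b^6 + 462*a^3*b^7 + 462*a^2*b^8)
      + u^5*v^7 * (66*a^9*b - 66*a^8*b^2 - 858*a^7*b^3 + 1122*a^6*b^4 + 1320*a^5*b^5 - 1122*a^4*b^6 - 858*a^3*b^7 + 66*a^2*b^8 + 66*a*b^9)
      + u^4*v^8 * (165*a^8*b^2 - 330*a^7*b^3 - 825*a^6*b^4 + 825*a^5*b^5 + 825*a^4*b^6 - 330*a^3*b^7 - 165*a^2*b^8)
      + u^3*v^9 * (55*a^8*b^2 + 165*a^7*b^3 - 275*a^6*b^4 - 550*a^5*b^5 + 275*a^4*b^6 + 165*a^3*b^7 - 55*a^2*b^8)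
      + u^2*v^10 * (-11*a^9*b + 11*a^8*b^2 + 33*a^7*b^3 + 143*a^6*b^4 - 110*a^5*b^5 - 143*a^4*b^6 + 33*a^3*b^7 - 11*a^2*b^8 - 11*a*b^9)
      + u*v^11 * (2*a^10 - 2*a^9*b - a^8*b^2 - a^7*b^3 + 15*a^6*b^4 + 50*a^5*b^5 - 15*a^4*b^6 - a^3*b^7 + a^2*b^8 - 2*a*b^9 - 2*b^10)
      + v^12 * (a^9*b - a^8*b^2 + 2*a^7*b^3 - 3*a^6*b^4 + 5*a^5*b^5 + 3*a^4*b^6 + 2*a^3*b^7 + a^2*b^8 + a*b^9)) * h

set_option maxRecDepth 100000 in
set_option maxHeartbeats 2000000 in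
theorem kH_golden (a b u v : R) (h : a ^ 2 + a * b - b ^ 2 = 0) :
    kH (a * u + b * v) (b * u - a * v) = (a ^ 2 + b ^ 2) ^ 10 * kH u v := by
  simp only [kH]
  linear_combination (u^20 * (10*a^16*b^2 - 10*a^15*b^3 + 65*a^14*b^4 + 153*a^13*b^5 + 32*a^12*b^6 + 121*a^11*b^7 + 121*a^10*b^8 - 121*a^8*b^10 + 121*a^7*b^11 - 32*a^6*b^12 + 153*a^5*b^13 - 65*a^4*b^14 - 10*a^3*b^15 - 10*a^2*b^16)
      + u^19*v * (-20*a^17*b + 20*a^16*b^2 - 40*a^15*b^3 - 1080*a^14*b^4 + 1040*a^13*b^5 + 1300*a^12*b^6 - 260*a^11*b^7 + 1560*a^10*b^8 + 3120*a^9*b^9 - 1560*a^8*b^10 - 260*a^7*b^11 - 1300*a^6*b^12 + 1040*a^5*b^13 + 1080*a^4*b^14 - 40*a^3*b^15 - 20*a^2*b^16 - 20*a*b^17)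
      + u^18*v^2 * (-190*a^16*b^2 + 2470*a^15*b^3 - 2660*a^14*b^4 - 11970*a^13*b^5 + 9310*a^12*b^6 + 2660*a^11*b^7 - 15580*a^10*b^8 + 18240*a^9*b^9 + 15580*a^8*b^10 + 2660*a^7*b^11 - 9310*a^6*b^12 - 11970*a^5*b^13 + 2660*a^4*b^14 + 2470*a^3*b^15 + 190*a^2*b^16)
      + u^17*v^3 * (-2280*a^16*b^2 + 1140*a^15*b^3 + 30780*a^14*b^4 - 29640*a^13*b^5 - 59280*a^12*b^6 + 88920*a^11*b^7 - 44460*a^10*b^8 - 88920*a^9*b^9 + 44460*a^8*b^10 + 88920*a^7*b^11 + 59280*a^6*b^12 - 29640*a^5*b^13 - 30780*a^4*b^14 + 1140*a^3*b^15 + 2280*a^2*b^16)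
      + u^16*v^4 * (1140*a^17*b - 1140*a^16*b^2 - 31920*a^15*b^3 + 25935*a^14*b^4 + 181545*a^13*b^5 - 259350*a^12*b^6 - 77805*a^11*b^7 + 411255*a^10*b^8 - 177840*a^9*b^9 - 411255*a^8*b^10 - 77805*a^7*b^11 + 259350*a^6*b^12 + 181545*a^5*b^13 - 25935*a^4*b^14 - 31920*a^3*b^15 + 1140*a^2*b^16 + 1140*a*b^17)
      + u^15*v^5 * (-456*a^18 + 456*a^17*b + 13908*a^16*b^2 - 13452*a^15*b^3 - 222300*a^14*b^4 + 317832*a^13*b^5 + 469908*a^12*b^6 - 1189476*a^11*b^7 + 55404*a^10*b^8 + 1422720*a^9*b^9 - 55404*a^8*b^10 - 1189476*a^7*b^11 - 469908*a^6*b^12 + 317832*a^5*b^13 + 222300*a^4*b^14 - 13452*a^3*b^15 - 13908*a^2*b^16 + 456*a*b^17 + 456*b^18)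
      + u^14*v^6 * (-3420*a^17*b + 3420*a^16*b^2 + 112860*a^15*b^3 - 213180*a^14*b^4 - 711360*a^13*b^5 + 1704300*a^12*b^6 + 696540*a^11*b^7 - 3660540*a^10*b^8 - 207480*a^9*b^9 + 3660540*a^8*b^10 + 696540*a^7*b^11 - 1704300*a^6*b^12 - 711360*a^5*b^13 + 213180*a^4*b^14 + 112860*a^3*b^15 - 3420*a^2*b^16 - 3420*a*b^17)
      + u^13*v^7 * (-23940*a^16*b^2 + 83220*a^15*b^3 + 411540*a^14*b^4 - 1365720*a^13*b^5 - 1334940*a^12*b^6 + 5493660*a^11*b^7 + 1485420*a^10*b^8 - 8440560*a^9*b^9 - 1485420*a^8*b^10 + 5493660*a^7*b^11 + 1334940*a^6*b^12 - 1365720*a^5*b^13 - 411540*a^4*b^14 + 83220*a^3*b^15 + 23940*a^2*b^16)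
      + u^12*v^8 * (-22230*a^16*b^2 - 81510*a^15*b^3 + 652080*a^14*b^4 + 822510*a^13*b^5 - 4838730*a^12*b^6 - 2652780*a^11*b^7 + 12626640*a^10*b^8 + 3467880*a^9*b^9 - 12626640*a^8*b^10 - 2652780*a^7*b^11 + 4838730*a^6*b^12 + 822510*a^5*b^13 - 652080*a^4*b^14 - 81510*a^3*b^15 + 22230*a^2*b^16)
      + u^11*v^9 * (4940*a^17*b - 4940*a^16*b^2 - 212420*a^15*b^3 - 103740*a^14*b^4 + 2558920*a^13*b^5 + 1901900*a^12*b^6 - 11791780*a^11*b^7 - 5053620*a^10*b^8 + 19236360*a^9*b^9 + 5053620*a^8*b^10 - 11791780*a^7*b^11 - 1901900*a^6*b^12 + 2558920*a^5*b^13 + 103740*a^4*b^14 - 212420*a^3*b^15 + 4940*a^2*b^16 + 4940*a*b^17)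
      + u^10*v^10 * (54340*a^16*b^2 - 54340*a^15*b^3 - 869440*a^14*b^4 - 554268*a^13*b^5 + 6857708*a^12*b^6 + 3999424*a^11*b^7 - 18823376*a^10*b^8 - 6520800*a^9*b^9 + 18823376*a^8*b^10 + 3999424*a^7*b^11 - 6857708*a^6*b^12 - 554268*a^5*b^13 + 869440*a^4*b^14 - 54340*a^3*b^15 - 54340*a^2*b^16)
      + u^9*v^11 * (-4940*a^17*b + 4940*a^16*b^2 + 212420*a^15*b^3 + 103740*a^14*b^4 - 2558920*a^13*b^5 - 1901900*a^12*b^6 + 11791780*a^11*b^7 + 5053620*a^10*b^8 - 19236360*a^9*b^9 - 5053620*a^8*b^10 + 11791780*a^7*b^11 + 1901900*a^6*b^12 - 2558920*a^5*b^13 - 103740*a^4*b^14 + 212420*a^3*b^15 - 4940*a^2*b^16 - 4940*a*b^17)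
      + u^8*v^12 * (-22230*a^16*b^2 - 81510*a^15*b^3 + 652080*a^14*b^4 + 822510*a^13*b^5 - 4838730*a^12*b^6 - 2652780*a^11*b^7 + 12626640*a^10*b^8 + 3467880*a^9*b^9 - 12626640*a^8*b^10 - 2652780*a^7*b^11 + 4838730*a^6*b^12 + 822510*a^5*b^13 - 652080*a^4*b^14 - 81510*a^3*b^15 + 22230*a^2*b^16)
      + u^7*v^13 * (23940*a^16*b^2 - 83220*a^15*b^3 - 411540*a^14*b^4 + 1365720*a^13*b^5 + 1334940*a^12*b^6 - 5493660*a^11*b^7 - 1485420*a^10*b^8 + 8440560*a^9*b^9 + 1485420*a^8*b^10 - 5493660*a^7*b^11 - 1334940*a^6*b^12 + 1365720*a^5*b^13 + 411540*a^4*b^14 - 83220*a^3*b^15 - 23940*a^2*b^16)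
      + u^6*v^14 * (-3420*a^17*b + 3420*a^16*b^2 + 112860*a^15*b^3 - 213180*a^14*b^4 - 711360*a^13*b^5 + 1704300*a^12*b^6 + 696540*a^11*b^7 - 3660540*a^10*b^8 - 207480*a^9*b^9 + 3660540*a^8*b^10 + 696540*a^7*b^11 - 1704300*a^6*b^12 - 711360*a^5*b^13 + 213180*a^4*b^14 + 112860*a^3*b^15 - 3420*a^2*b^16 - 3420*a*b^17)
      + u^5*v^15 * (456*a^18 - 456*a^17*b - 13908*a^16*b^2 + 13452*a^15*b^3 + 222300*a^14*b^4 - 317832*a^13*b^5 - 469908*a^12*b^6 + 1189476*a^11*b^7 - 55404*a^10*b^8 - 1422720*a^9*b^9 + 55404*a^8*b^10 + 1189476*a^7*b^11 + 469908*a^6*b^12 - 317832*a^5*b^13 - 222300*a^4*b^14 + 13452*a^3*b^15 + 13908*a^2*b^16 - 456*a*b^17 - 456*b^18)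
      + u^4*v^16 * (1140*a^17*b - 1140*a^16*b^2 - 31920*a^15*b^3 + 25935*a^14*b^4 + 181545*a^13*b^5 - 259350*a^12*b^6 - 77805*a^11*b^7 + 411255*a^10*b^8 - 177840*a^9*b^9 - 411255*a^8*b^10 - 77805*a^7*b^11 + 259350*a^6*b^12 + 181545*a^5*b^13 - 25935*a^4*b^14 - 31920*a^3*b^15 + 1140*a^2*b^16 + 1140*a*b^17)
      + u^3*v^17 * (2280*a^16*b^2 - 1140*a^15*b^3 - 30780*a^14*b^4 + 29640*a^13*b^5 + 59280*a^12*b^6 - 88920*a^11*b^7 + 44460*a^10*b^8 + 88920*a^9*b^9 - 44460*a^8*b^10 - 88920*a^7*b^11 - 59280*a^6*b^12 + 29640*a^5*b^13 + 30780*a^4*b^14 - 1140*a^3*b^15 - 2280*a^2*b^16)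
      + u^2*v^18 * (-190*a^16*b^2 + 2470*a^15*b^3 - 2660*a^14*b^4 - 11970*a^13*b^5 + 9310*a^12*b^6 + 2660*a^11*b^7 - 15580*a^10*b^8 + 18240*a^9*b^9 + 15580*a^8*b^10 + 2660*a^7*b^11 - 9310*a^6*b^12 - 11970*a^5*b^13 + 2660*a^4*b^14 + 2470*a^3*b^15 + 190*a^2*b^16)
      + u*v^19 * (20*a^17*b - 20*a^16*b^2 + 40*a^15*b^3 + 1080*a^14*b^4 - 1040*a^13*b^5 - 1300*a^12*b^6 + 260*a^11*b^7 - 1560*a^10*b^8 - 3120*a^9*b^9 + 1560*a^8*b^10 + 260*a^7*b^11 + 1300*a^6*b^12 - 1040*a^5*b^13 - 1080*a^4*b^14 + 40*a^3*b^15 + 20*a^2*b^16 + 20*a*b^17)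
      + v^20 * (10*a^16*b^2 - 10*a^15*b^3 + 65*a^14*b^4 + 153*a^13*b^5 + 32*a^12*b^6 + 121*a^11*b^7 + 121*a^10*b^8 - 121*a^8*b^10 + 121*a^7*b^11 - 32*a^6*b^12 + 153*a^5*b^13 - 65*a^4*b^14 - 10*a^3*b^15 - 10*a^2*b^16)) * h

set_option maxRecDepth 100000 in
set_option maxHeartbeats 4000000 in
theorem kT_golden (a b u v : R) (h : a ^ 2 + a * b - b ^ 2 = 0) :
    kT (a * u + b * v) (b * u - a * v) = -(a ^ 2 + b ^ 2) ^ 15 * kT u v := by
  simp only [kT]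
  linear_combination (u^30 * (2*a^28 - 2*a^27*b + 19*a^26*b^2 - 21*a^25*b^3 + 145*a^24*b^4 + 356*a^23*b^5 + 244*a^22*b^6 + 112*a^21*b^7 + 1497*a^20*b^8 - 1385*a^19*b^9 - 4120*a^18*b^10 + 2735*a^17*b^11 - 1850*a^16*b^12 + 4585*a^15*b^13 + 4585*a^13*b^15 + 1850*a^12*b^16 + 2735*a^11*b^17 + 4120*a^10*b^18 - 1385*a^9*b^19 - 1497*a^8*b^20 + 112*a^7*b^21 - 244*a^6*b^22 + 356*a^5*b^23 - 145*a^4*b^24 - 21*a^3*b^25 - 19*a^2*b^26 - 2*a*b^27 - 2*b^28)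
      + u^29*v * (30*a^27*b - 30*a^26*b^2 + 60*a^25*b^3 - 2700*a^24*b^4 + 2760*a^23*b^5 + 7590*a^22*b^6 - 4830*a^21*b^7 + 12420*a^20*b^8 + 82800*a^19*b^9 - 70380*a^18*b^10 - 46920*a^17*b^11 - 23460*a^16*b^12 - 23460*a^15*b^13 - 23460*a^13*b^15 + 23460*a^12*b^16 - 46920*a^11*b^17 + 70380*a^10*b^18 + 82800*a^9*b^19 - 12420*a^8*b^20 - 4830*a^7*b^21 - 7590*a^6*b^22 + 2760*a^5*b^23 + 2700*a^4*b^24 + 60*a^3*b^25 + 30*a^2*b^26 + 30*a*b^27)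
      + u^28*v^2 * (435*a^26*b^2 + 4785*a^25*b^3 - 4350*a^24*b^4 - 56115*a^23*b^5 + 51765*a^22*b^6 + 48720*a^21*b^7 - 447180*a^20*b^8 + 495900*a^19*b^9 + 1057920*a^18*b^10 - 562020*a^17*b^11 - 281010*a^16*b^12 - 281010*a^15*b^13 - 281010*a^13*b^15 + 281010*a^12*b^16 - 562020*a^11*b^17 - 1057920*a^10*b^18 + 495900*a^9*b^19 + 447180*a^8*b^20 + 48720*a^7*b^21 - 51765*a^6*b^22 - 56115*a^5*b^23 + 4350*a^4*b^24 + 4785*a^3*b^25 - 435*a^2*b^26)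
      + u^27*v^3 * (-5220*a^26*b^2 + 9280*a^25*b^3 + 116000*a^24*b^4 - 106720*a^23*b^5 - 560280*a^22*b^6 + 1654160*a^21*b^7 - 1013840*a^20*b^8 - 6336500*a^19*b^9 + 5322660*a^18*b^10 + 7350340*a^17*b^11 - 2027680*a^16*b^12 - 2027680*a^15*b^13 - 2027680*a^13*b^15 + 2027680*a^12*b^16 + 7350340*a^11*b^17 - 5322660*a^10*b^18 - 6336500*a^9*b^19 + 1013840*a^8*b^20 + 1654160*a^7*b^21 + 560280*a^6*b^22 - 106720*a^5*b^23 - 116000*a^4*b^24 + 9280*a^3*b^25 + 5220*a^2*b^26)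
      + u^26*v^4 * (2610*a^27*b - 2610*a^26*b^2 - 125280*a^25*b^3 + 150075*a^24*b^4 + 1290645*a^23*b^5 - 3241620*a^22*b^6 - 1470735*a^21*b^7 + 22241115*a^20*b^8 - 17108550*a^19*b^9 - 46193085*a^18*b^10 + 29084535*a^17*b^11 + 38779380*a^16*b^12 - 9694845*a^15*b^13 - 9694845*a^13*b^15 - 38779380*a^12*b^16 + 29084535*a^11*b^17 + 46193085*a^10*b^18 - 17108550*a^9*b^19 - 22241115*a^8*b^20 - 1470735*a^7*b^21 + 3241620*a^6*b^22 + 1290645*a^5*b^23 - 150075*a^4*b^24 - 125280*a^3*b^25 + 2610*a^2*b^26 + 2610*a*b^27)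
      + u^25*v^5 * (73080*a^26*b^2 - 73080*a^25*b^3 - 1365030*a^24*b^4 + 3955716*a^23*b^5 + 6922764*a^22*b^6 - 44988048*a^21*b^7 + 19606842*a^20*b^8 + 163519110*a^19*b^9 - 114610842*a^18*b^10 - 235126548*a^17*b^11 + 123128316*a^16*b^12 + 126487386*a^15*b^13 + 126487386*a^13*b^15 - 123128316*a^12*b^16 - 235126548*a^11*b^17 + 114610842*a^10*b^18 + 163519110*a^9*b^19 - 19606842*a^8*b^20 - 44988048*a^7*b^21 - 6922764*a^6*b^22 + 3955716*a^5*b^23 + 1365030*a^4*b^24 - 73080*a^3*b^25 - 73080*a^2*b^26)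
      + u^24*v^6 * (-13050*a^27*b + 13050*a^26*b^2 + 756900*a^25*b^3 - 2844900*a^24*b^4 - 8404200*a^23*b^5 + 56578275*a^22*b^6 + 1050525*a^21*b^7 - 343671750*a^20*b^8 + 206052975*a^19*b^9 + 818959275*a^18*b^10 - 520460100*a^17*b^11 - 841920750*a^16*b^12 + 321460650*a^15*b^13 + 321460650*a^13*b^15 + 841920750*a^12*b^16 - 520460100*a^11*b^17 - 818959275*a^10*b^18 + 206052975*a^9*b^19 + 343671750*a^8*b^20 + 1050525*a^7*b^21 - 56578275*a^6*b^22 - 8404200*a^5*b^23 + 2844900*a^4*b^24 + 756900*a^3*b^25 - 13050*a^2*b^26 - 13050*a*b^27)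
      + u^23*v^7 * (-156600*a^26*b^2 + 1357200*a^25*b^3 + 4489200*a^24*b^4 - 45153000*a^23*b^5 - 16390800*a^22*b^6 + 452313000*a^21*b^7 - 191365200*a^20*b^8 - 1751518800*a^19*b^9 + 1097922600*a^18*b^10 + 2967465600*a^17*b^11 - 1618617600*a^16*b^12 - 1618617600*a^15*b^13 - 1618617600*a^13*b^15 + 1618617600*a^12*b^16 + 2967465600*a^11*b^17 - 1097922600*a^10*b^18 - 1751518800*a^9*b^19 + 191365200*a^8*b^20 + 452313000*a^7*b^21 + 16390800*a^6*b^22 - 45153000*a^5*b^23 - 4489200*a^4*b^24 + 1357200*a^3*b^25 + 156600*a^2*b^26)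
      + u^22*v^8 * (-450225*a^26*b^2 - 750375*a^25*b^3 + 24312150*a^24*b^4 + 7953975*a^23*b^5 - 382841325*a^22*b^6 + 113456700*a^21*b^7 + 2383791300*a^20*b^8 - 1345872600*a^19*b^9 - 6449923350*a^18*b^10 + 3849423750*a^17*b^11 + 7054425450*a^16*b^12 - 2640419550*a^15*b^13 - 2640419550*a^13*b^15 - 7054425450*a^12*b^16 + 3849423750*a^11*b^17 + 6449923350*a^10*b^18 - 1345872600*a^9*b^19 - 2383791300*a^8*b^20 + 113456700*a^7*b^21 + 382841325*a^6*b^22 + 7953975*a^5*b^23 - 24312150*a^4*b^24 - 750375*a^3*b^25 + 450225*a^2*b^26)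
      + u^21*v^9 * (100050*a^27*b - 100050*a^26*b^2 - 8804400*a^25*b^3 + 2101050*a^24*b^4 + 217208550*a^23*b^5 - 76438200*a^22*b^6 - 2101550250*a^21*b^7 + 1100650050*a^20*b^8 + 9027611550*a^19*b^9 - 5417707500*a^18*b^10 - 16448920350*a^17*b^11 + 8208302100*a^16*b^12 + 9274735050*a^15*b^13 + 9274735050*a^13*b^15 - 8208302100*a^12*b^16 - 16448920350*a^11*b^17 + 5417707500*a^10*b^18 + 9027611550*a^9*b^19 - 1100650050*a^8*b^20 - 2101550250*a^7*b^21 + 76438200*a^6*b^22 + 217208550*a^5*b^23 - 2101050*a^4*b^24 - 8804400*a^3*b^25 + 100050*a^2*b^26 + 100050*a*b^27)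
      + u^20*v^10 * (-20010*a^28 + 20010*a^27*b + 1810905*a^26*b^2 - 1790895*a^25*b^3 - 82991475*a^24*b^4 + 53466720*a^23*b^5 + 1227673530*a^22*b^6 - 711975810*a^21*b^7 - 8253594735*a^20*b^8 + 5032364925*a^19*b^9 + 23955171600*a^18*b^10 - 13276985175*a^17*b^11 - 27450218250*a^16*b^12 + 8841068325*a^15*b^13 + 8841068325*a^13*b^15 + 27450218250*a^12*b^16 - 13276985175*a^11*b^17 - 23955171600*a^10*b^18 + 5032364925*a^9*b^19 + 8253594735*a^8*b^20 - 711975810*a^7*b^21 - 1227673530*a^6*b^22 + 53466720*a^5*b^23 + 82991475*a^4*b^24 - 1790895*a^3*b^25 - 1810905*a^2*b^26 + 20010*a*b^27 + 20010*b^28)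
      + u^19*v^11 * (-200100*a^27*b + 200100*a^26*b^2 + 18609300*a^25*b^3 - 18409200*a^24*b^4 - 476238000*a^23*b^5 + 365382600*a^22*b^6 + 4975286400*a^21*b^7 - 3355276800*a^20*b^8 - 22563676200*a^19*b^9 + 13562577900*a^18*b^10 + 43167573000*a^17*b^11 - 18940665600*a^16*b^12 - 25145366400*a^15*b^13 - 25145366400*a^13*b^15 + 18940665600*a^12*b^16 + 43167573000*a^11*b^17 - 13562577900*a^10*b^18 - 22563676200*a^9*b^19 + 3355276800*a^8*b^20 + 4975286400*a^7*b^21 - 365382600*a^6*b^22 - 476238000*a^5*b^23 + 18409200*a^4*b^24 + 18609300*a^3*b^25 - 200100*a^2*b^26 - 200100*a*b^27)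
      + u^18*v^12 * (-1900950*a^26*b^2 + 1900950*a^25*b^3 + 110255100*a^24*b^4 - 108354150*a^23*b^5 - 1962730875*a^22*b^6 + 1603451325*a^21*b^7 + 13787590350*a^20*b^8 - 9361228275*a^19*b^9 - 41483481375*a^18*b^10 + 21457923600*a^17*b^11 + 49411393350*a^16*b^12 - 13605099150*a^15*b^13 - 13605099150*a^13*b^15 - 49411393350*a^12*b^16 + 21457923600*a^11*b^17 + 41483481375*a^10*b^18 - 9361228275*a^9*b^19 - 13787590350*a^8*b^20 + 1603451325*a^7*b^21 + 1962730875*a^6*b^22 - 108354150*a^5*b^23 - 110255100*a^4*b^24 + 1900950*a^3*b^25 + 1900950*a^2*b^26)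
      + u^17*v^13 * (-11405700*a^25*b^3 + 11405700*a^24*b^4 + 461930850*a^23*b^5 - 450525150*a^22*b^6 - 5292244800*a^21*b^7 + 4277137500*a^20*b^8 + 24362575200*a^19*b^9 - 14753272950*a^18*b^10 - 48137756850*a^17*b^11 + 19036113300*a^16*b^12 + 28730958300*a^15*b^13 + 28730958300*a^13*b^15 - 19036113300*a^12*b^16 - 48137756850*a^11*b^17 + 14753272950*a^10*b^18 + 24362575200*a^9*b^19 - 4277137500*a^8*b^20 - 5292244800*a^7*b^21 + 450525150*a^6*b^22 + 461930850*a^5*b^23 - 11405700*a^4*b^24 - 11405700*a^3*b^25)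
      + u^16*v^14 * (-48474225*a^24*b^4 + 48474225*a^23*b^5 + 1066432950*a^22*b^6 - 1017958725*a^21*b^7 - 7610453325*a^20*b^8 + 5526061650*a^19*b^9 + 23219153775*a^18*b^10 - 11488391325*a^17*b^11 - 28308947400*a^16*b^12 + 7125711075*a^15*b^13 + 7125711075*a^13*b^15 + 28308947400*a^12*b^16 - 11488391325*a^11*b^17 - 23219153775*a^10*b^18 + 5526061650*a^9*b^19 + 7610453325*a^8*b^20 - 1017958725*a^7*b^21 - 1066432950*a^6*b^22 + 48474225*a^5*b^23 + 48474225*a^4*b^24)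
      + u^14*v^16 * (-48474225*a^24*b^4 + 48474225*a^23*b^5 + 1066432950*a^22*b^6 - 1017958725*a^21*b^7 - 7610453325*a^20*b^8 + 5526061650*a^19*b^9 + 23219153775*a^18*b^10 - 11488391325*a^17*b^11 - 28308947400*a^16*b^12 + 7125711075*a^15*b^13 + 7125711075*a^13*b^15 + 28308947400*a^12*b^16 - 11488391325*a^11*b^17 - 23219153775*a^10*b^18 + 5526061650*a^9*b^19 + 7610453325*a^8*b^20 - 1017958725*a^7*b^21 - 1066432950*a^6*b^22 + 48474225*a^5*b^23 + 48474225*a^4*b^24)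
      + u^13*v^17 * (11405700*a^25*b^3 - 11405700*a^24*b^4 - 461930850*a^23*b^5 + 450525150*a^22*b^6 + 5292244800*a^21*b^7 - 4277137500*a^20*b^8 - 24362575200*a^19*b^9 + 14753272950*a^18*b^10 + 48137756850*a^17*b^11 - 19036113300*a^16*b^12 - 28730958300*a^15*b^13 - 28730958300*a^13*b^15 + 19036113300*a^12*b^16 + 48137756850*a^11*b^17 - 14753272950*a^10*b^18 - 24362575200*a^9*b^19 + 4277137500*a^8*b^20 + 5292244800*a^7*b^21 - 450525150*a^6*b^22 - 461930850*a^5*b^23 + 11405700*a^4*b^24 + 11405700*a^3*b^25)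
      + u^12*v^18 * (-1900950*a^26*b^2 + 1900950*a^25*b^3 + 110255100*a^24*b^4 - 108354150*a^23*b^5 - 1962730875*a^22*b^6 + 1603451325*a^21*b^7 + 13787590350*a^20*b^8 - 9361228275*a^19*b^9 - 41483481375*a^18*b^10 + 21457923600*a^17*b^11 + 49411393350*a^16*b^12 - 13605099150*a^15*b^13 - 13605099150*a^13*b^15 - 49411393350*a^12*b^16 + 21457923600*a^11*b^17 + 41483481375*a^10*b^18 - 9361228275*a^9*b^19 - 13787590350*a^8*b^20 + 1603451325*a^7*b^21 + 1962730875*a^6*b^22 - 108354150*a^5*b^23 - 110255100*a^4*b^24 + 1900950*a^3*b^25 + 1900950*a^2*b^26)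
      + u^11*v^19 * (200100*a^27*b - 200100*a^26*b^2 - 18609300*a^25*b^3 + 18409200*a^24*b^4 + 476238000*a^23*b^5 - 365382600*a^22*b^6 - 4975286400*a^21*b^7 + 3355276800*a^20*b^8 + 22563676200*a^19*b^9 - 13562577900*a^18*b^10 - 43167573000*a^17*b^11 + 18940665600*a^16*b^12 + 25145366400*a^15*b^13 + 25145366400*a^13*b^15 - 18940665600*a^12*b^16 - 43167573000*a^11*b^17 + 13562577900*a^10*b^18 + 22563676200*a^9*b^19 - 3355276800*a^8*b^20 - 4975286400*a^7*b^21 + 365382600*a^6*b^22 + 476238000*a^5*b^23 - 18409200*a^4*b^24 - 18609300*a^3*b^25 + 200100*a^2*b^26 + 200100*a*b^27)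
      + u^10*v^20 * (-20010*a^28 + 20010*a^27*b + 1810905*a^26*b^2 - 1790895*a^25*b^3 - 82991475*a^24*b^4 + 53466720*a^23*b^5 + 1227673530*a^22*b^6 - 711975810*a^21*b^7 - 8253594735*a^20*b^8 + 5032364925*a^19*b^9 + 23955171600*a^18*b^10 - 13276985175*a^17*b^11 - 27450218250*a^16*b^12 + 8841068325*a^15*b^13 + 8841068325*a^13*b^15 + 27450218250*a^12*b^16 - 13276985175*a^11*b^17 - 23955171600*a^10*b^18 + 5032364925*a^9*b^19 + 8253594735*a^8*b^20 - 711975810*a^7*b^21 - 1227673530*a^6*b^22 + 53466720*a^5*b^23 + 82991475*a^4*b^24 - 1790895*a^3*b^25 - 1810905*a^2*b^26 + 20010*a*b^27 + 20010*b^28)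
      + u^9*v^21 * (-100050*a^27*b + 100050*a^26*b^2 + 8804400*a^25*b^3 - 2101050*a^24*b^4 - 217208550*a^23*b^5 + 76438200*a^22*b^6 + 2101550250*a^21*b^7 - 1100650050*a^20*b^8 - 9027611550*a^19*b^9 + 5417707500*a^18*b^10 + 16448920350*a^17*b^11 - 8208302100*a^16*b^12 - 9274735050*a^15*b^13 - 9274735050*a^13*b^15 + 8208302100*a^12*b^16 + 16448920350*a^11*b^17 - 5417707500*a^10*b^18 - 9027611550*a^9*b^19 + 1100650050*a^8*b^20 + 2101550250*a^7*b^21 - 76438200*a^6*b^22 - 217208550*a^5*b^23 + 2101050*a^4*b^24 + 8804400*a^3*b^25 - 100050*a^2*b^26 - 100050*a*b^27)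
      + u^8*v^22 * (-450225*a^26*b^2 - 750375*a^25*b^3 + 24312150*a^24*b^4 + 7953975*a^23*b^5 - 382841325*a^22*b^6 + 113456700*a^21*b^7 + 2383791300*a^20*b^8 - 1345872600*a^19*b^9 - 6449923350*a^18*b^10 + 3849423750*a^17*b^11 + 7054425450*a^16*b^12 - 2640419550*a^15*b^13 - 2640419550*a^13*b^15 - 7054425450*a^12*b^16 + 3849423750*a^11*b^17 + 6449923350*a^10*b^18 - 1345872600*a^9*b^19 - 2383791300*a^8*b^20 + 113456700*a^7*b^21 + 382841325*a^6*b^22 + 7953975*a^5*b^23 - 24312150*a^4*b^24 - 750375*a^3*b^25 + 450225*a^2*b^26)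
      + u^7*v^23 * (156600*a^26*b^2 - 1357200*a^25*b^3 - 4489200*a^24*b^4 + 45153000*a^23*b^5 + 16390800*a^22*b^6 - 452313000*a^21*b^7 + 191365200*a^20*b^8 + 1751518800*a^19*b^9 - 1097922600*a^18*b^10 - 2967465600*a^17*b^11 + 1618617600*a^16*b^12 + 1618617600*a^15*b^13 + 1618617600*a^13*b^15 - 1618617600*a^12*b^16 - 2967465600*a^11*b^17 + 1097922600*a^10*b^18 + 1751518800*a^9*b^19 - 191365200*a^8*b^20 - 452313000*a^7*b^21 - 16390800*a^6*b^22 + 45153000*a^5*b^23 + 4489200*a^4*b^24 - 1357200*a^3*b^25 - 156600*a^2*b^26)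
      + u^6*v^24 * (-13050*a^27*b + 13050*a^26*b^2 + 756900*a^25*b^3 - 2844900*a^24*b^4 - 8404200*a^23*b^5 + 56578275*a^22*b^6 + 1050525*a^21*b^7 - 343671750*a^20*b^8 + 206052975*a^19*b^9 + 818959275*a^18*b^10 - 520460100*a^17*b^11 - 841920750*a^16*b^12 + 321460650*a^15*b^13 + 321460650*a^13*b^15 + 841920750*a^12*b^16 - 520460100*a^11*b^17 - 818959275*a^10*b^18 + 206052975*a^9*b^19 + 343671750*a^8*b^20 + 1050525*a^7*b^21 - 56578275*a^6*b^22 - 8404200*a^5*b^23 + 2844900*a^4*b^24 + 756900*a^3*b^25 - 13050*a^2*b^26 - 13050*a*b^27)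
      + u^5*v^25 * (-73080*a^26*b^2 + 73080*a^25*b^3 + 1365030*a^24*b^4 - 3955716*a^23*b^5 - 6922764*a^22*b^6 + 44988048*a^21*b^7 - 19606842*a^20*b^8 - 163519110*a^19*b^9 + 114610842*a^18*b^10 + 235126548*a^17*b^11 - 123128316*a^16*b^12 - 126487386*a^15*b^13 - 126487386*a^13*b^15 + 123128316*a^12*b^16 + 235126548*a^11*b^17 - 114610842*a^10*b^18 - 163519110*a^9*b^19 + 19606842*a^8*b^20 + 44988048*a^7*b^21 + 6922764*a^6*b^22 - 3955716*a^5*b^23 - 1365030*a^4*b^24 + 73080*a^3*b^25 + 73080*a^2*b^26)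
      + u^4*v^26 * (2610*a^27*b - 2610*a^26*b^2 - 125280*a^25*b^3 + 150075*a^24*b^4 + 1290645*a^23*b^5 - 3241620*a^22*b^6 - 1470735*a^21*b^7 + 22241115*a^20*b^8 - 17108550*a^19*b^9 - 46193085*a^18*b^10 + 29084535*a^17*b^11 + 38779380*a^16*b^12 - 9694845*a^15*b^13 - 9694845*a^13*b^15 - 38779380*a^12*b^16 + 29084535*a^11*b^17 + 46193085*a^10*b^18 - 17108550*a^9*b^19 - 22241115*a^8*b^20 - 1470735*a^7*b^21 + 3241620*a^6*b^22 + 1290645*a^5*b^23 - 150075*a^4*b^24 - 125280*a^3*b^25 + 2610*a^2*b^26 + 2610*a*b^27)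
      + u^3*v^27 * (5220*a^26*b^2 - 9280*a^25*b^3 - 116000*a^24*b^4 + 106720*a^23*b^5 + 560280*a^22*b^6 - 1654160*a^21*b^7 + 1013840*a^20*b^8 + 6336500*a^19*b^9 - 5322660*a^18*b^10 - 7350340*a^17*b^11 + 2027680*a^16*b^12 + 2027680*a^15*b^13 + 2027680*a^13*b^15 - 2027680*a^12*b^16 - 7350340*a^11*b^17 + 5322660*a^10*b^18 + 6336500*a^9*b^19 - 1013840*a^8*b^20 - 1654160*a^7*b^21 - 560280*a^6*b^22 + 106720*a^5*b^23 + 116000*a^4*b^24 - 9280*a^3*b^25 - 5220*a^2*b^26)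
      + u^2*v^28 * (435*a^26*b^2 + 4785*a^25*b^3 - 4350*a^24*b^4 - 56115*a^23*b^5 + 51765*a^22*b^6 + 48720*a^21*b^7 - 447180*a^20*b^8 + 495900*a^19*b^9 + 1057920*a^18*b^10 - 562020*a^17*b^11 - 281010*a^16*b^12 - 281010*a^15*b^13 - 281010*a^13*b^15 + 281010*a^12*b^16 - 562020*a^11*b^17 - 1057920*a^10*b^18 + 495900*a^9*b^19 + 447180*a^8*b^20 + 48720*a^7*b^21 - 51765*a^6*b^22 - 56115*a^5*b^23 + 4350*a^4*b^24 + 4785*a^3*b^25 - 435*a^2*b^26)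
      + u*v^29 * (-30*a^27*b + 30*a^26*b^2 - 60*a^25*b^3 + 2700*a^24*b^4 - 2760*a^23*b^5 - 7590*a^22*b^6 + 4830*a^21*b^7 - 12420*a^20*b^8 - 82800*a^19*b^9 + 70380*a^18*b^10 + 46920*a^17*b^11 + 23460*a^16*b^12 + 23460*a^15*b^13 + 23460*a^13*b^15 - 23460*a^12*b^16 + 46920*a^11*b^17 - 70380*a^10*b^18 - 82800*a^9*b^19 + 12420*a^8*b^20 + 4830*a^7*b^21 + 7590*a^6*b^22 - 2760*a^5*b^23 - 2700*a^4*b^24 - 60*a^3*b^25 - 30*a^2*b^26 - 30*a*b^27)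
      + v^30 * (2*a^28 - 2*a^27*b + 19*a^26*b^2 - 21*a^25*b^3 + 145*a^24*b^4 + 356*a^23*b^5 + 244*a^22*b^6 + 112*a^21*b^7 + 1497*a^20*b^8 - 1385*a^19*b^9 - 4120*a^18*b^10 + 2735*a^17*b^11 - 1850*a^16*b^12 + 4585*a^15*b^13 + 4585*a^13*b^15 + 1850*a^12*b^16 + 2735*a^11*b^17 + 4120*a^10*b^18 - 1385*a^9*b^19 - 1497*a^8*b^20 + 112*a^7*b^21 - 244*a^6*b^22 + 356*a^5*b^23 - 145*a^4*b^24 - 21*a^3*b^25 - 19*a^2*b^26 - 2*a*b^27 - 2*b^28)) * h

set_option maxRecDepth 100000 in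
set_option maxHeartbeats 1000000 in
theorem kFv_golden (a b u v : R) (h : a ^ 2 + a * b - b ^ 2 = 0) :
    kFv (a * u + b * v) (b * u - a * v)
      = (-(a ^ 2 + b ^ 2)) ^ 5 * (a * kFv u v - b * kFu u v) := by
  simp only [kFv, kFu]
  linear_combination (u^11 * (2*a^9 - 2*a^8*b + 9*a^7*b^2 - 11*a^6*b^3 + 30*a^5*b^4 + 25*a^4*b^5 + 15*a^3*b^6 + 10*a^2*b^7 + 10*a*b^8)
      + u^10*v * (-55*a^6*b^3 - 275*a^5*b^4 + 110*a^4*b^5 + 11*a^3*b^6 - 11*a^2*b^7 + 22*a*b^8 + 22*b^9)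
      + u^9*v^2 * (55*a^7*b^2 + 605*a^6*b^3 - 550*a^5*b^4 - 825*a^4*b^5 + 275*a^3*b^6 - 110*a^2*b^7 - 110*a*b^8)
      + u^8*v^3 * (-660*a^7*b^2 + 825*a^6*b^3 + 2475*a^5*b^4 - 1650*a^4*b^5 - 825*a^3*b^6 + 495*a^2*b^7)
      + u^7*v^4 * (330*a^8*b - 330*a^7*b^2 - 3300*a^6*b^3 + 3300*a^5*b^4 + 3300*a^4*b^5 - 2310*a^3*b^6 - 990*a^2*b^7)
      + u^6*v^5 * (2310*a^7*b^2 - 2310*a^6*b^3 - 4620*a^5*b^4 + 5544*a^4*b^5 + 3696*a^3*b^6 - 462*a^2*b^7 - 462*a*b^8)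
      + u^5*v^6 * (-462*a^8*b + 462*a^7*b^2 + 3696*a^6*b^3 - 5544*a^5*b^4 - 4620*a^4*b^5 + 2310*a^3*b^6 + 2310*a^2*b^7)
      + u^4*v^7 * (-990*a^7*b^2 + 2310*a^6*b^3 + 3300*a^5*b^4 - 3300*a^4*b^5 - 3300*a^3*b^6 + 330*a^2*b^7 + 330*a*b^8)
      + u^3*v^8 * (-495*a^7*b^2 - 825*a^6*b^3 + 1650*a^5*b^4 + 2475*a^4*b^5 - 825*a^3*b^6 - 660*a^2*b^7)
      + u^2*v^9 * (110*a^8*b - 110*a^7*b^2 - 275*a^6*b^3 - 825*a^5*b^4 + 550*a^4*b^5 + 605*a^3*b^6 - 55*a^2*b^7)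
      + u*v^10 * (-22*a^9 + 22*a^8*b + 11*a^7*b^2 + 11*a^6*b^3 - 110*a^5*b^4 - 275*a^4*b^5 + 55*a^3*b^6)
      + v^11 * (-10*a^8*b + 10*a^7*b^2 - 15*a^6*b^3 + 25*a^5*b^4 - 30*a^4*b^5 - 11*a^3*b^6 - 9*a^2*b^7 - 2*a*b^8 - 2*b^9)) * h

set_option maxRecDepth 100000 in
set_option maxHeartbeats 1000000 in
theorem kFu_golden (a b u v : R) (h : a ^ 2 + a * b - b ^ 2 = 0) :
    kFu (a * u + b * v) (b * u - a * v)
      = (-(a ^ 2 + b ^ 2)) ^ 5 * (-a * kFu u v - b * kFv u v) := by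
  simp only [kFv, kFu]
  linear_combination (u^11 * (10*a^8*b - 10*a^7*b^2 + 15*a^6*b^3 - 25*a^5*b^4 + 30*a^4*b^5 + 11*a^3*b^6 + 9*a^2*b^7 + 2*a*b^8 + 2*b^9)
      + u^10*v * (-22*a^9 + 22*a^8*b + 11*a^7*b^2 + 11*a^6*b^3 - 110*a^5*b^4 - 275*a^4*b^5 + 55*a^3*b^6)
      + u^9*v^2 * (-110*a^8*b + 110*a^7*b^2 + 275*a^6*b^3 + 825*a^5*b^4 - 550*a^4*b^5 - 605*a^3*b^6 + 55*a^2*b^7)
      + u^8*v^3 * (-495*a^7*b^2 - 825*a^6*b^3 + 1650*a^5*b^4 + 2475*a^4*b^5 - 825*a^3*b^6 - 660*a^2*b^7)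
      + u^7*v^4 * (990*a^7*b^2 - 2310*a^6*b^3 - 3300*a^5*b^4 + 3300*a^4*b^5 + 3300*a^3*b^6 - 330*a^2*b^7 - 330*a*b^8)
      + u^6*v^5 * (-462*a^8*b + 462*a^7*b^2 + 3696*a^6*b^3 - 5544*a^5*b^4 - 4620*a^4*b^5 + 2310*a^3*b^6 + 2310*a^2*b^7)
      + u^5*v^6 * (-2310*a^7*b^2 + 2310*a^6*b^3 + 4620*a^5*b^4 - 5544*a^4*b^5 - 3696*a^3*b^6 + 462*a^2*b^7 + 462*a*b^8)
      + u^4*v^7 * (330*a^8*b - 330*a^7*b^2 - 3300*a^6*b^3 + 3300*a^5*b^4 + 3300*a^4*b^5 - 2310*a^3*b^6 - 990*a^2*b^7)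
      + u^3*v^8 * (660*a^7*b^2 - 825*a^6*b^3 - 2475*a^5*b^4 + 1650*a^4*b^5 + 825*a^3*b^6 - 495*a^2*b^7)
      + u^2*v^9 * (55*a^7*b^2 + 605*a^6*b^3 - 550*a^5*b^4 - 825*a^4*b^5 + 275*a^3*b^6 - 110*a^2*b^7 - 110*a*b^8)
      + u*v^10 * (55*a^6*b^3 + 275*a^5*b^4 - 110*a^4*b^5 - 11*a^3*b^6 + 11*a^2*b^7 - 22*a*b^8 - 22*b^9)
      + v^11 * (2*a^9 - 2*a^8*b + 9*a^7*b^2 - 11*a^6*b^3 + 30*a^5*b^4 + 25*a^4*b^5 + 15*a^3*b^6 + 10*a^2*b^7 + 10*a*b^8)) * h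

/-! ### The predicate `KleinSym` -/

/-- The matrix `!![α, β; γ, δ]` preserves Klein's forms `kF`, `kH`, `kT` and transforms the
gradient of `kF` contragrediently (so that it commutes with the pencil). -/
structure KleinSym (α β γ δ : R) : Prop where
  f_inv : ∀ u v : R, kF (α * u + β * v) (γ * u + δ * v) = kF u v
  H_inv : ∀ u v : R, kH (α * u + β * v) (γ * u + δ * v) = kH u v
  T_inv : ∀ u v : R, kT (α * u + β * v) (γ * u + δ * v) = kT u v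
  fv_cov : ∀ u v : R, kFv (α * u + β * v) (γ * u + δ * v) = α * kFv u v - β * kFu u v
  fu_cov : ∀ u v : R, kFu (α * u + β * v) (γ * u + δ * v) = δ * kFu u v - γ * kFv u v

namespace KleinSym

variable {α β γ δ α' β' γ' δ' : R}

theorem one : KleinSym (1 : R) 0 0 1 where
  f_inv u v := by simp
  H_inv u v := by simp
  T_inv u v := by simp
  fv_cov u v := by simp
  fu_cov u v := by simp

/-- Product of matrices. -/
theorem mul (h : KleinSym α β γ δ) (h' : KleinSym α' β' γ' δ') :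
    KleinSym (α * α' + β * γ') (α * β' + β * δ') (γ * α' + δ * γ') (γ * β' + δ * δ') := by
  have e1 : ∀ u v : R, (α * α' + β * γ') * u + (α * β' + β * δ') * v
      = α * (α' * u + β' * v) + β * (γ' * u + δ' * v) := fun u v => by ring
  have e2 : ∀ u v : R, (γ * α' + δ * γ') * u + (γ * β' + δ * δ') * v
      = γ * (α' * u + β' * v) + δ * (γ' * u + δ' * v) := fun u v => by ring
  refine ⟨fun u v => ?_, fun u v => ?_, fun u v => ?_, fun u v => ?_, fun u v => ?_⟩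
  · rw [e1, e2, h.f_inv, h'.f_inv]
  · rw [e1, e2, h.H_inv, h'.H_inv]
  · rw [e1, e2, h.T_inv, h'.T_inv]
  · rw [e1, e2, h.fv_cov, h'.fv_cov, h'.fu_cov]; ring
  · rw [e1, e2, h.fu_cov, h'.fv_cov, h'.fu_cov]; ring

/-- Inverse matrix (determinant one). -/
theorem inv (h : KleinSym α β γ δ) (hdet : α * δ - β * γ = 1) : KleinSym δ (-β) (-γ) α := by
  have e1 : ∀ u v : R, α * (δ * u + -β * v) + β * (-γ * u + α * v) = u := fun u v => by
    linear_combination u * hdet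
  have e2 : ∀ u v : R, γ * (δ * u + -β * v) + δ * (-γ * u + α * v) = v := fun u v => by
    linear_combination v * hdet
  refine ⟨fun u v => ?_, fun u v => ?_, fun u v => ?_, fun u v => ?_, fun u v => ?_⟩
  · have := h.f_inv (δ * u + -β * v) (-γ * u + α * v)
    rw [e1, e2] at this; exact this.symm
  · have := h.H_inv (δ * u + -β * v) (-γ * u + α * v)
    rw [e1, e2] at this; exact this.symm
  · have := h.T_inv (δ * u + -β * v) (-γ * u + α * v)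
    rw [e1, e2] at this; exact this.symm
  · have h1 := h.fv_cov (δ * u + -β * v) (-γ * u + α * v)
    have h2 := h.fu_cov (δ * u + -β * v) (-γ * u + α * v)
    rw [e1, e2] at h1 h2
    linear_combination (-(kFv (δ * u + -β * v) (-γ * u + α * v))) * hdet - δ * h1 - β * h2
  · have h1 := h.fv_cov (δ * u + -β * v) (-γ * u + α * v)
    have h2 := h.fu_cov (δ * u + -β * v) (-γ * u + α * v)
    rw [e1, e2] at h1 h2
    linear_combination (-(kFu (δ * u + -β * v) (-γ * u + α * v))) * hdet - γ * h1 - α * h2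

/-- The pencil commutes with a Klein symmetry (first coordinate). -/
theorem penU_cov (h : KleinSym α β γ δ) (t u v : R) :
    penU t (α * u + β * v) (γ * u + δ * v) = α * penU t u v + β * penV t u v := by
  simp only [penU, penV, h.fv_cov]; ring

/-- The pencil commutes with a Klein symmetry (second coordinate). -/
theorem penV_cov (h : KleinSym α β γ δ) (t u v : R) :
    penV t (α * u + β * v) (γ * u + δ * v) = γ * penU t u v + δ * penV t u v := by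
  simp only [penU, penV, h.fu_cov]; ring

/-- `kF` of the pencil is unchanged when the base point is moved by a Klein symmetry. -/
theorem kF_pen (h : KleinSym α β γ δ) (t u v : R) :
    kF (penU t (α * u + β * v) (γ * u + δ * v)) (penV t (α * u + β * v) (γ * u + δ * v))
      = kF (penU t u v) (penV t u v) := by
  rw [h.penU_cov, h.penV_cov, h.f_inv]

/-- `kH` of the pencil is unchanged when the base point is moved by a Klein symmetry. -/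
theorem kH_pen (h : KleinSym α β γ δ) (t u v : R) :
    kH (penU t (α * u + β * v) (γ * u + δ * v)) (penV t (α * u + β * v) (γ * u + δ * v))
      = kH (penU t u v) (penV t u v) := by
  rw [h.penU_cov, h.penV_cov, h.H_inv]

/-- `kT` of the pencil is unchanged when the base point is moved by a Klein symmetry. -/
theorem kT_pen (h : KleinSym α β γ δ) (t u v : R) :
    kT (penU t (α * u + β * v) (γ * u + δ * v)) (penV t (α * u + β * v) (γ * u + δ * v))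
      = kT (penU t u v) (penV t u v) := by
  rw [h.penU_cov, h.penV_cov, h.T_inv]

end KleinSym

/-- `J = !![0, 1; -1, 0]` is a Klein symmetry. -/
theorem kleinSym_J : KleinSym (0 : R) 1 (-1) 0 where
  f_inv u v := by simpa using kF_J u v
  H_inv u v := by simpa using kH_J u v
  T_inv u v := by simpa using kT_J u v
  fv_cov u v := by simpa using kFv_J u v
  fu_cov u v := by simpa using kFu_J u v

/-- `diag (c, d)` with `c ^ 5 = d ^ 5 = 1`, `c * d = 1` is a Klein symmetry. -/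
theorem kleinSym_diag (c d : R) (hc : c ^ 5 = 1) (hd : d ^ 5 = 1) (hcd : c * d = 1) :
    KleinSym c 0 0 d := by
  have hc10 : c ^ 10 = 1 := by
    have : c ^ 10 = (c ^ 5) ^ 2 := by ring
    rw [this, hc, one_pow]
  have h55 : c ^ 5 = d ^ 5 := by rw [hc, hd]
  refine ⟨fun u v => ?_, fun u v => ?_, fun u v => ?_, fun u v => ?_, fun u v => ?_⟩
  · simpa [hcd] using kF_diag c d u v hc10 h55
  · simpa using kH_diag c d u v hc10 h55
  · simpa using kT_diag c d u v hc10 h55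
  · simpa using kFv_diag c d u v hc10 h55
  · simpa using kFu_diag c d u v hc10 h55

/-- The normalised golden matrix `k • !![a, b; b, -a]` (`a ^ 2 + a * b - b ^ 2 = 0`,
`k ^ 2 * (a ^ 2 + b ^ 2) = -1`, i.e. determinant one) is a Klein symmetry. -/
theorem kleinSym_golden (a b k : R) (h : a ^ 2 + a * b - b ^ 2 = 0)
    (hk : k ^ 2 * (a ^ 2 + b ^ 2) = -1) :
    KleinSym (k * a) (k * b) (k * b) (-(k * a)) := by
  have e1 : ∀ u v : R, k * a * u + k * b * v = k * (a * u + b * v) := fun u v => by ring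
  have e2 : ∀ u v : R, k * b * u + -(k * a) * v = k * (b * u - a * v) := fun u v => by ring
  have p6 : k ^ 12 * (a ^ 2 + b ^ 2) ^ 6 = 1 := by
    have : k ^ 12 * (a ^ 2 + b ^ 2) ^ 6 = (k ^ 2 * (a ^ 2 + b ^ 2)) ^ 6 := by ring
    rw [this, hk]; norm_num
  have p10 : k ^ 20 * (a ^ 2 + b ^ 2) ^ 10 = 1 := by
    have : k ^ 20 * (a ^ 2 + b ^ 2) ^ 10 = (k ^ 2 * (a ^ 2 + b ^ 2)) ^ 10 := by ring
    rw [this, hk]; norm_num
  have p15 : k ^ 30 * (a ^ 2 + b ^ 2) ^ 15 = -1 := by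
    have : k ^ 30 * (a ^ 2 + b ^ 2) ^ 15 = (k ^ 2 * (a ^ 2 + b ^ 2)) ^ 15 := by ring
    rw [this, hk]; norm_num
  have p5 : k ^ 10 * (-(a ^ 2 + b ^ 2)) ^ 5 = 1 := by
    have : k ^ 10 * (-(a ^ 2 + b ^ 2)) ^ 5 = -(k ^ 2 * (a ^ 2 + b ^ 2)) ^ 5 := by ring
    rw [this, hk]; norm_num
  refine ⟨fun u v => ?_, fun u v => ?_, fun u v => ?_, fun u v => ?_, fun u v => ?_⟩
  · rw [e1, e2, kF_smul, kF_golden a b u v h]
    linear_combination (kF u v) * p6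
  · rw [e1, e2, kH_smul, kH_golden a b u v h]
    linear_combination (kH u v) * p10
  · rw [e1, e2, kT_smul, kT_golden a b u v h]
    linear_combination (-(kT u v)) * p15
  · rw [e1, e2, kFv_smul, kFv_golden a b u v h]
    linear_combination (k * (a * kFv u v - b * kFu u v)) * p5
  · rw [e1, e2, kFu_smul, kFu_golden a b u v h]
    linear_combination (k * (-a * kFu u v - b * kFv u v)) * p5

/-! ### The fifth roots of unity -/

/-- A root of the fifth cyclotomic polynomial is a fifth root of unity. -/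
theorem zeta_pow_five (e : R) (he : e ^ 4 + e ^ 3 + e ^ 2 + e + 1 = 0) : e ^ 5 = 1 := by
  linear_combination (e - 1) * he

/-- `r5 = e - e² - e³ + e⁴` is a square root of `5`. -/
theorem r5_sq (e : R) (he : e ^ 4 + e ^ 3 + e ^ 2 + e + 1 = 0) :
    (e - e ^ 2 - e ^ 3 + e ^ 4) ^ 2 = 5 := by
  linear_combination (e^4 - 3*e^3 + e^2 + 5*e - 5) * he

/-- The entries `a = e⁴ - e`, `b = e² - e³` of `r5 • K` satisfy the golden relation. -/
theorem zeta_golden (e : R) (he : e ^ 4 + e ^ 3 + e ^ 2 + e + 1 = 0) :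
    (e ^ 4 - e) ^ 2 + (e ^ 4 - e) * (e ^ 2 - e ^ 3) - (e ^ 2 - e ^ 3) ^ 2 = 0 := by
  linear_combination (e^4 - 2*e^3 + e^2) * he

/-- `a² + b² = -5` for `a = e⁴ - e`, `b = e² - e³`. -/
theorem zeta_norm (e : R) (he : e ^ 4 + e ^ 3 + e ^ 2 + e + 1 = 0) :
    (e ^ 4 - e) ^ 2 + (e ^ 2 - e ^ 3) ^ 2 = -5 := by
  linear_combination (e^4 - e^3 + e^2 - 5*e + 5) * he

/-- `a * b = r5` for `a = e⁴ - e`, `b = e² - e³`. -/
theorem zeta_ab (e : R) (he : e ^ 4 + e ^ 3 + e ^ 2 + e + 1 = 0) :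
    (e ^ 4 - e) * (e ^ 2 - e ^ 3) = e - e ^ 2 - e ^ 3 + e ^ 4 := by
  linear_combination (-e^3 + 2*e^2 - e) * he

/-- `D = diag (e³, e²)` is a Klein symmetry. -/
theorem kleinSym_D (e : R) (he : e ^ 4 + e ^ 3 + e ^ 2 + e + 1 = 0) :
    KleinSym (e ^ 3) 0 0 (e ^ 2) := by
  have h5 := zeta_pow_five e he
  refine kleinSym_diag _ _ ?_ ?_ ?_
  · have : (e ^ 3) ^ 5 = (e ^ 5) ^ 3 := by ring
    rw [this, h5, one_pow]
  · have : (e ^ 2) ^ 5 = (e ^ 5) ^ 2 := by ring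
    rw [this, h5, one_pow]
  · have : e ^ 3 * e ^ 2 = e ^ 5 := by ring
    rw [this, h5]

/-- Every power `diag (e ^ i, e ^ j)` with `i + j` divisible by `5` is a Klein symmetry. -/
theorem kleinSym_zeta_diag (e : R) (he : e ^ 4 + e ^ 3 + e ^ 2 + e + 1 = 0) (i j : ℕ)
    (hij : 5 ∣ i + j) : KleinSym (e ^ i) 0 0 (e ^ j) := by
  have h5 := zeta_pow_five e he
  obtain ⟨m, hm⟩ := hij
  refine kleinSym_diag _ _ ?_ ?_ ?_
  · rw [← pow_mul, mul_comm, pow_mul, h5, one_pow]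
  · rw [← pow_mul, mul_comm, pow_mul, h5, one_pow]
  · rw [← pow_add, hm, pow_mul, h5, one_pow]

/-- Denominator-free `K`-invariance of `kF`: `r5 • K = !![a, b; b, -a]`. -/
theorem kF_zeta (e u v : R) (he : e ^ 4 + e ^ 3 + e ^ 2 + e + 1 = 0) :
    kF ((e ^ 4 - e) * u + (e ^ 2 - e ^ 3) * v) ((e ^ 2 - e ^ 3) * u - (e ^ 4 - e) * v)
      = 5 ^ 6 * kF u v := by
  rw [kF_golden _ _ u v (zeta_golden e he), zeta_norm e he]; norm_num

/-- Denominator-free `K`-invariance of `kH`. -/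
theorem kH_zeta (e u v : R) (he : e ^ 4 + e ^ 3 + e ^ 2 + e + 1 = 0) :
    kH ((e ^ 4 - e) * u + (e ^ 2 - e ^ 3) * v) ((e ^ 2 - e ^ 3) * u - (e ^ 4 - e) * v)
      = 5 ^ 10 * kH u v := by
  rw [kH_golden _ _ u v (zeta_golden e he), zeta_norm e he]; norm_num

/-- Denominator-free `K`-invariance of `kT`. -/
theorem kT_zeta (e u v : R) (he : e ^ 4 + e ^ 3 + e ^ 2 + e + 1 = 0) :
    kT ((e ^ 4 - e) * u + (e ^ 2 - e ^ 3) * v) ((e ^ 2 - e ^ 3) * u - (e ^ 4 - e) * v)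
      = 5 ^ 15 * kT u v := by
  rw [kT_golden _ _ u v (zeta_golden e he), zeta_norm e he]; norm_num

end Ring

section Field

variable {K : Type*} [Field K]

/-- `r5 = e - e² - e³ + e⁴` is nonzero when `5 ≠ 0`. -/
theorem r5_ne_zero (e : K) (he : e ^ 4 + e ^ 3 + e ^ 2 + e + 1 = 0) (h5 : (5 : K) ≠ 0) :
    e - e ^ 2 - e ^ 3 + e ^ 4 ≠ 0 := by
  intro h
  have := r5_sq e he
  rw [h] at this
  exact h5 (by rw [← this]; ring)

/-- The generator `K = r5⁻¹ • !![-(e - e⁴), e² - e³; e² - e³, e - e⁴]` of the binary icosahedral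
group (captain's normalisation) is a Klein symmetry, over any field with `5 ≠ 0`. -/
theorem kleinSym_K (e : K) (he : e ^ 4 + e ^ 3 + e ^ 2 + e + 1 = 0) (h5 : (5 : K) ≠ 0) :
    KleinSym (-(e - e ^ 4) / (e - e ^ 2 - e ^ 3 + e ^ 4))
      ((e ^ 2 - e ^ 3) / (e - e ^ 2 - e ^ 3 + e ^ 4))
      ((e ^ 2 - e ^ 3) / (e - e ^ 2 - e ^ 3 + e ^ 4))
      ((e - e ^ 4) / (e - e ^ 2 - e ^ 3 + e ^ 4)) := by
  have hr := r5_ne_zero e he h5
  have hk : ((e - e ^ 2 - e ^ 3 + e ^ 4)⁻¹) ^ 2 * ((e ^ 4 - e) ^ 2 + (e ^ 2 - e ^ 3) ^ 2) = -1 := by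
    rw [zeta_norm e he, inv_pow, r5_sq e he]
    field_simp
  have key := kleinSym_golden (e ^ 4 - e) (e ^ 2 - e ^ 3) ((e - e ^ 2 - e ^ 3 + e ^ 4)⁻¹)
    (zeta_golden e he) hk
  have e1 : -(e - e ^ 4) / (e - e ^ 2 - e ^ 3 + e ^ 4)
      = (e - e ^ 2 - e ^ 3 + e ^ 4)⁻¹ * (e ^ 4 - e) := by
    rw [div_eq_inv_mul]; ring
  have e2 : (e ^ 2 - e ^ 3) / (e - e ^ 2 - e ^ 3 + e ^ 4)
      = (e - e ^ 2 - e ^ 3 + e ^ 4)⁻¹ * (e ^ 2 - e ^ 3) := by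
    rw [div_eq_inv_mul]
  have e3 : (e - e ^ 4) / (e - e ^ 2 - e ^ 3 + e ^ 4)
      = -((e - e ^ 2 - e ^ 3 + e ^ 4)⁻¹ * (e ^ 4 - e)) := by
    rw [div_eq_inv_mul]; ring
  rw [e1, e2, e3]
  exact key

/-- The determinant of `K` is one. -/
theorem det_K (e : K) (he : e ^ 4 + e ^ 3 + e ^ 2 + e + 1 = 0) (h5 : (5 : K) ≠ 0) :
    (-(e - e ^ 4) / (e - e ^ 2 - e ^ 3 + e ^ 4)) * ((e - e ^ 4) / (e - e ^ 2 - e ^ 3 + e ^ 4))
      - ((e ^ 2 - e ^ 3) / (e - e ^ 2 - e ^ 3 + e ^ 4))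
        * ((e ^ 2 - e ^ 3) / (e - e ^ 2 - e ^ 3 + e ^ 4)) = 1 := by
  have hr := r5_ne_zero e he h5
  have h1 := zeta_norm e he
  have h2 := r5_sq e he
  rw [div_mul_div_comm, div_mul_div_comm, ← sub_div, div_eq_one_iff_eq (mul_ne_zero hr hr)]
  linear_combination -h1 - h2

end Field

end Fermat.Agent.S52.helper8993
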