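/-
S52, block (AUXP) COMPLETE in the captain's shapes  (helper52).

* `covAt_qb`                  : the Klein torsor over `Qb` in matrix form (`CovAt`), fully proved
                                (`helper6116.fibre_subset_orbit` + `helper8993.kleinSym_golden`).
* `stmt_AuxP_of_isPencilData` : `helper352.IsPencilData c4 c6 C4 C6` (DATA / LINK), `c4, c6 ≠ 0`,
                                `c4³ ≠ c6²`  ⟹  `helper352.Stmt_AuxP C4 C6`  (= `hB` of the endgame).
* `stmt_Family_of_data`, `goal_of_data` : hence S52 from `Stmt_Loc`, `Stmt_Short` and DATA alone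
                                (auxiliary-prime route; independent of the abc route).
-/
import Mathlib
import Fermat.Agent.S52.helper52_RootInst
import Fermat.Agent.S52.helper6116_Torsor
import Fermat.Agent.S52.helper8993_KleinInv
import Fermat.Agent.S52.helper352_Spec
import Fermat.Agent.S52.helper7043_Coprime

set_option autoImplicit false

open Polynomial
open Fermat.Agent.S52.helper424 Fermat.Agent.S52.helper7043

namespace Fermat.Agent.S52.helper52

/-- **The Klein torsor over `Qb`, matrix form.**  If `σ` fixes the 20th roots of unity and the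
values `kH w₀`, `kT w₀` (both nonzero, `kF w₀ ≠ 0`), then `σ w₀ = g w₀` for an admissible
matrix `g`. -/
theorem covAt_qb (u0 v0 : Qb) (hF : kF u0 v0 ≠ 0) (hH0 : kH u0 v0 ≠ 0) (hT0 : kT u0 v0 ≠ 0)
    (σ : GQ) (hσ : ∀ z : Qb, z ^ 20 = 1 → σ z = z)
    (hσH : σ (kH u0 v0) = kH u0 v0) (hσT : σ (kT u0 v0) = kT u0 v0) : CovAt σ u0 v0 := by
  -- a primitive 5th root of unity
  obtain ⟨z, hz⟩ : ∃ z : Qb, z ^ 4 + z ^ 3 + z ^ 2 + z + 1 = 0 := by
    have hdeg : (X ^ 4 + X ^ 3 + X ^ 2 + X + 1 : Qb[X]).degree ≠ 0 := by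
      have h : (X ^ 4 + X ^ 3 + X ^ 2 + X + 1 : Qb[X]).degree = 4 := by compute_degree!
      rw [h]
      norm_num
    obtain ⟨z, hz⟩ := IsAlgClosed.exists_root _ hdeg
    exact ⟨z, by simpa using hz⟩
  have hz5 : z ^ 5 = 1 := by linear_combination (z - 1) * hz
  have hσz : σ z = z := hσ z (by rw [show 20 = 5 * 4 from rfl, pow_mul, hz5, one_pow])
  obtain ⟨e, he_def⟩ : ∃ e : Qb, e = -(z + z ^ 4) := ⟨_, rfl⟩
  obtain ⟨a, ha_def⟩ : ∃ a : Qb, a = (-1 - 2 * z - 3 * z ^ 2 + z ^ 3) / 5 := ⟨_, rfl⟩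
  have h5a : 5 * a = -1 - 2 * z - 3 * z ^ 2 + z ^ 3 := by
    rw [ha_def]
    field_simp
  have he : e ^ 2 = e + 1 := by
    rw [he_def]
    linear_combination (-1 + 2 * z - z ^ 3 + z ^ 4) * hz
  have ha : a ^ 2 * (e + 2) = -1 := by
    have h25 : (25 : Qb) ≠ 0 := by norm_num
    apply mul_left_cancel₀ h25
    rw [he_def]
    linear_combination (-(z + z ^ 4) + 2) * (5 * a + (-1 - 2 * z - 3 * z ^ 2 + z ^ 3)) * h5a
      + (27 - 20 * z + 9 * z ^ 2 - 6 * z ^ 3 - 11 * z ^ 4 + 7 * z ^ 5 - z ^ 6) * hz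
  have hσe : σ e = e := by
    rw [he_def]
    simp only [map_neg, map_add, map_pow, hσz]
  have hσa : σ a = a := by
    have h5 : (5 : Qb) ≠ 0 := by norm_num
    apply mul_left_cancel₀ h5
    have : (5 : Qb) * σ a = σ (5 * a) := by rw [map_mul, map_ofNat]
    rw [this, h5a]
    simp only [map_neg, map_add, map_sub, map_mul, map_pow, map_one, map_ofNat, hσz]
  have hu0 : u0 ≠ 0 := by
    rintro rfl
    apply hF
    simp [kF]
  have hv0 : v0 ≠ 0 := by
    rintro rfl
    apply hF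
    simp [kF]
  have e1 : kH (σ u0) (σ v0) = kH u0 v0 := by
    rw [← hσH]
    exact (map_kH (σ : Qb →+* Qb) u0 v0).symm
  have e2 : kT (σ u0) (σ v0) = kT u0 v0 := by
    rw [← hσT]
    exact (map_kT (σ : Qb →+* Qb) u0 v0).symm
  obtain ⟨lam, ze, k, hlam, hze, -, hcase⟩ :=
    Fermat.Agent.S52.helper6116.fibre_subset_orbit z e a hz he ha two_ne_zero three_ne_zero
      u0 v0 (σ u0) (σ v0) hu0 hv0 hH0 hT0 e1 e2
  have hsym := Fermat.Agent.S52.helper8993.kleinSym_golden (1 : Qb) e a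
    (by linear_combination -he) (by linear_combination ha + a ^ 2 * he)
  have hab : a ^ 2 + (a * e) ^ 2 = -1 := by linear_combination ha + a ^ 2 * he
  have hzk : (z ^ k) ^ 5 = 1 := by rw [← pow_mul, mul_comm, pow_mul, hz5, one_pow]
  refine covAt_of_cases a (a * e) hab ?_ ?_ ?_ σ hσ hσa (by rw [map_mul, hσa, hσe]) u0 v0
    ⟨lam, ze, z ^ k, hlam, hze, hzk, hcase⟩
  · intro u v
    have h := hsym.T_inv u v
    have e3 : a * u + a * e * v = a * 1 * u + a * e * v := by ring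
    have e4 : a * e * u - a * v = a * e * u + -(a * 1) * v := by ring
    rw [e3, e4]
    exact h
  · intro u v
    have h := hsym.fu_cov u v
    have e3 : a * u + a * e * v = a * 1 * u + a * e * v := by ring
    have e4 : a * e * u - a * v = a * e * u + -(a * 1) * v := by ring
    rw [e3, e4]
    simp only [Fermat.Agent.S52.helper352.kFu, Fermat.Agent.S52.helper352.kFv] at h
    simp only [kFu, kFv]
    linear_combination h
  · intro u v
    have h := hsym.fv_cov u v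
    have e3 : a * u + a * e * v = a * 1 * u + a * e * v := by ring
    have e4 : a * e * u - a * v = a * e * u + -(a * 1) * v := by ring
    rw [e3, e4]
    simp only [Fermat.Agent.S52.helper352.kFu, Fermat.Agent.S52.helper352.kFv] at h
    simp only [kFu, kFv]
    linear_combination h

/-- **ROOT for pencil data**: a root `θ` of `C6` with `C4 θ ≠ 0`, fixed by an automorphism which
moves `√3`. -/
theorem rootData_of_isPencilData (c4 c6 : ℤ) (hc4 : c4 ≠ 0) (hc6 : c6 ≠ 0)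
    (hΔ : c4 ^ 3 - c6 ^ 2 ≠ 0) (C4 C6 : ℤ[X])
    (hdata : Fermat.Agent.S52.helper352.IsPencilData c4 c6 C4 C6) :
    ∃ (θ : Qb) (σ : GQ), aeval θ C6 = 0 ∧ aeval θ C4 ≠ 0 ∧ σ θ = θ ∧
      ∃ r : Qb, r ^ 2 = 3 ∧ σ r ≠ r := by
  obtain ⟨-, -, hlink⟩ := hdata
  have hc4' : (c4 : Qb) ≠ 0 := by exact_mod_cast hc4
  have hc6' : (c6 : Qb) ≠ 0 := by exact_mod_cast hc6
  have hmap : ∀ (C : ℤ[X]) (t : Qb), aeval t (C.map (Int.castRingHom ℚ)) = aeval t C := by
    intro C t
    have : Int.castRingHom ℚ = algebraMap ℤ ℚ := rfl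
    rw [this, aeval_map_algebraMap]
  have hroot : RootData (C4.map (Int.castRingHom ℚ)) (C6.map (Int.castRingHom ℚ)) := by
    refine rootData_of_covAt _ _ c4 c6 hΔ ?_ ?_
    · intro u v t hH hT
      rw [hmap, hmap]
      exact hlink Qb two_ne_zero three_ne_zero u v t hH hT
    · intro u0 v0 hH hT σ hσ
      have hF : kF u0 v0 ≠ 0 := by
        refine kF_ne_zero_of_eq hH hT ?_
        intro h
        apply hΔ
        have : ((c4 ^ 3 - c6 ^ 2 : ℤ) : Qb) = 0 := by
          push_cast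
          linear_combination -h
        exact_mod_cast this
      refine covAt_qb u0 v0 hF ?_ ?_ σ hσ ?_ ?_
      · rw [hH]; exact neg_ne_zero.mpr hc4'
      · rw [hT]; exact neg_ne_zero.mpr hc6'
      · rw [hH, map_neg, map_intCast]
      · rw [hT, map_neg, map_intCast]
  obtain ⟨θ, σ, h6, h4, hσ, hr⟩ := hroot
  rw [hmap] at h6 h4
  exact ⟨θ, σ, h6, h4, hσ, hr⟩

/-- **Block AUXP from DATA alone** (captain's shape `helper352.Stmt_AuxP`). -/
theorem stmt_AuxP_of_isPencilData (c4 c6 : ℤ) (hc4 : c4 ≠ 0) (hc6 : c6 ≠ 0)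
    (hΔ : c4 ^ 3 - c6 ^ 2 ≠ 0) (C4 C6 : ℤ[X])
    (hdata : Fermat.Agent.S52.helper352.IsPencilData c4 c6 C4 C6) :
    Fermat.Agent.S52.helper352.Stmt_AuxP C4 C6 := by
  obtain ⟨θ, σ, h6, h4, hσ, r, hr, hσr⟩ :=
    rootData_of_isPencilData c4 c6 hc4 hc6 hΔ C4 C6 hdata
  intro N₁ hN₁
  obtain ⟨q, hq, hqT, hsq, t, ht6, ht4⟩ :=
    Fermat.Agent.S52.helper1678.exists_aux_prime θ σ hσ 3 r (by rw [hr]; norm_num) hσr C6 C4
      h6 h4 N₁.natAbs.primeFactors
  refine ⟨q, t, hq, ?_, by simpa using hsq, ht6, ht4⟩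
  intro h
  apply hqT
  rw [Nat.mem_primeFactors]
  exact ⟨hq, Int.natCast_dvd.mp h, Int.natAbs_ne_zero.mpr hN₁⟩

/-- `Stmt_Family` of the captain's Spec from DATA alone (auxiliary-prime route). -/
theorem stmt_Family_of_data
    (hdata : ∀ c4 c6 : ℤ, ∃ C4 C6 : ℤ[X], Fermat.Agent.S52.helper352.IsPencilData c4 c6 C4 C6) :
    Fermat.Agent.S52.helper352.Stmt_Family := by
  intro W hΔ hW _
  obtain ⟨C4, C6, hd⟩ := hdata W.c₄ W.c₆
  have hΔ' : W.c₄ ^ 3 - W.c₆ ^ 2 ≠ 0 := by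
    rw [← W.c_relation]
    exact mul_ne_zero (by norm_num) hΔ
  exact ⟨C4, C6, hd, stmt_Coprime_of_isPencilData W.c₄ W.c₆ hΔ' C4 C6 hd,
    stmt_AuxP_of_isPencilData W.c₄ W.c₆ (c4_ne_zero_of_semistable W hW)
      (c6_ne_zero_of_semistable W hW) hΔ' C4 C6 hd⟩

/-- **S52 from `Stmt_Loc`, `Stmt_Short` and DATA** (auxiliary-prime route). -/
theorem goal_of_data (hLoc : Fermat.Agent.S52.helper352.Stmt_Loc)
    (hShort : Fermat.Agent.S52.helper352.Stmt_Short)
    (hdata : ∀ c4 c6 : ℤ, ∃ C4 C6 : ℤ[X], Fermat.Agent.S52.helper352.IsPencilData c4 c6 C4 C6) :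
    Fermat.Agent.S52.helper352.Goal_S52 :=
  Fermat.Agent.S52.helper352.switch_of hLoc hShort (stmt_Family_of_data hdata)

end Fermat.Agent.S52.helper52
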