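/-
S52 / L1 leaf H2 + H3 (helper5684): the x-coordinate parallelogram law for heights of
rational functions.  Pure polynomial algebra over `k[X]`, Mathlib only.

For `y^2 = x^3 + A x + B` the x-coordinates `x₃ = x(P+Q)`, `x₄ = x(P-Q)` satisfy
  x₃ + x₄ = 2((x₁x₂ + A)(x₁ + x₂) + 2B)/(x₁ - x₂)^2,
  x₃ x₄   = ((x₁x₂ - A)^2 - 4B(x₁ + x₂))/(x₁ - x₂)^2,
and then `ht x₃ + ht x₄ = 2 ht x₁ + 2 ht x₂`, where `ht r = max (deg num) (deg denom)`.
Also the duplication law `ht (dup x) = 4 ht x`.
-/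
import Mathlib

set_option autoImplicit false

namespace Fermat.Agent.S52.helper5684

open Polynomial

/-! ### The forms -/

section Forms

variable {R : Type*} [CommRing R]

/-- `(x₁ - x₂)^2`, homogenised in `x₁ = a/b`, `x₂ = c/d`. -/
def G0 (a b c d : R) : R := (a * d - b * c) ^ 2

/-- `2((x₁x₂ + A)(x₁ + x₂) + 2B)`, homogenised. -/
def G1 (A B a b c d : R) : R :=
  2 * (a * c + A * b * d) * (a * d + b * c) + 4 * B * b ^ 2 * d ^ 2

/-- `(x₁x₂ - A)^2 - 4B(x₁ + x₂)`, homogenised. -/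
def G2 (A B a b c d : R) : R :=
  (a * c - A * b * d) ^ 2 - 4 * B * b * d * (a * d + b * c)

/-- denominator of the duplication formula, homogenised: `4 b (a^3 + A a b^2 + B b^3)`. -/
def D1 (A B a b : R) : R := 4 * b * (a ^ 3 + A * a * b ^ 2 + B * b ^ 3)

/-- numerator of the duplication formula, homogenised: `(a^2 - A b^2)^2 - 8 B a b^3`. -/
def D2 (A B a b : R) : R := (a ^ 2 - A * b ^ 2) ^ 2 - 8 * B * a * b ^ 3

/-- the cubic, homogenised: `a^3 + A a b^2 + B b^3`. -/
def F3 (A B a b : R) : R := a ^ 3 + A * a * b ^ 2 + B * b ^ 3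

variable {S : Type*} [CommRing S] (f : R →+* S)

lemma map_G0 (a b c d : R) : f (G0 a b c d) = G0 (f a) (f b) (f c) (f d) := by
  simp [G0]

lemma map_G1 (A B a b c d : R) :
    f (G1 A B a b c d) = G1 (f A) (f B) (f a) (f b) (f c) (f d) := by
  simp [G1, map_ofNat]

lemma map_G2 (A B a b c d : R) :
    f (G2 A B a b c d) = G2 (f A) (f B) (f a) (f b) (f c) (f d) := by
  simp [G2, map_ofNat]

lemma map_D1 (A B a b : R) : f (D1 A B a b) = D1 (f A) (f B) (f a) (f b) := by
  simp [D1, map_ofNat]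

lemma map_D2 (A B a b : R) : f (D2 A B a b) = D2 (f A) (f B) (f a) (f b) := by
  simp [D2, map_ofNat]

lemma map_F3 (A B a b : R) : f (F3 A B a b) = F3 (f A) (f B) (f a) (f b) := by
  simp [F3]

end Forms

/-! ### No common zero over a field -/

section NCZ

variable {K : Type*} [Field K] {A B : K}

/-- The duplication numerator and denominator have no common zero. -/
theorem dup_no_common_zero (h2 : (2 : K) ≠ 0) (hΔ : 4 * A ^ 3 + 27 * B ^ 2 ≠ 0) {a b : K}
    (h1 : D1 A B a b = 0) (h2' : D2 A B a b = 0) : a = 0 ∧ b = 0 := by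
  by_cases hb : b = 0
  · subst hb
    simp only [D2, mul_zero, ne_eq, OfNat.ofNat_ne_zero, not_false_eq_true, zero_pow, sub_zero]
      at h2'
    have : a = 0 := by
      have h4 : a ^ 4 = 0 := by linear_combination h2'
      exact pow_eq_zero_iff (by norm_num) |>.mp h4
    exact ⟨this, rfl⟩
  · exfalso
    have h4 : (4 : K) ≠ 0 := by
      have : (4 : K) = 2 * 2 := by norm_num
      rw [this]; exact mul_ne_zero h2 h2
    obtain ⟨x, rfl⟩ : ∃ x, a = x * b := ⟨a / b, by field_simp⟩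
    have e1 : x ^ 3 + A * x + B = 0 := by
      have : 4 * b ^ 4 * (x ^ 3 + A * x + B) = 0 := by
        rw [← h1]; simp only [D1]; ring
      rcases mul_eq_zero.mp this with h | h
      · exact absurd h (mul_ne_zero h4 (pow_ne_zero 4 hb))
      · exact h
    have e2 : (x ^ 2 - A) ^ 2 - 8 * B * x = 0 := by
      have : b ^ 4 * ((x ^ 2 - A) ^ 2 - 8 * B * x) = 0 := by
        rw [← h2']; simp only [D2]; ring
      rcases mul_eq_zero.mp this with h | h
      · exact absurd h (pow_ne_zero 4 hb)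
      · exact h
    apply hΔ
    have : 4 * (4 * A ^ 3 + 27 * B ^ 2) = 0 := by
      linear_combination (12 * x ^ 2 + 16 * A) * e2 - 4 * (3 * x ^ 3 - 5 * A * x - 27 * B) * e1
    rcases mul_eq_zero.mp this with h | h
    · exact absurd h h4
    · exact h

/-- The three biquadratic forms have no common zero on `P¹ × P¹`. -/
theorem forms_no_common_zero (h2 : (2 : K) ≠ 0) (hΔ : 4 * A ^ 3 + 27 * B ^ 2 ≠ 0) {a b c d : K}
    (h0 : G0 a b c d = 0) (h1 : G1 A B a b c d = 0) (h2' : G2 A B a b c d = 0) :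
    (a = 0 ∧ b = 0) ∨ (c = 0 ∧ d = 0) := by
  have e0 : a * d - b * c = 0 := by
    simpa [G0] using h0
  by_cases hb : b = 0
  · subst hb
    simp only [zero_mul, sub_zero, mul_eq_zero] at e0
    rcases e0 with ha | hd
    · exact Or.inl ⟨ha, rfl⟩
    · subst hd
      have : (a * c) ^ 2 = 0 := by
        rw [← h2']; simp only [G2]; ring
      rcases mul_eq_zero.mp (pow_eq_zero_iff (by norm_num) |>.mp this) with ha | hc
      · exact Or.inl ⟨ha, rfl⟩
      · exact Or.inr ⟨hc, rfl⟩
  by_cases hd : d = 0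
  · subst hd
    simp only [mul_zero, zero_sub, neg_eq_zero, mul_eq_zero] at e0
    rcases e0 with hb' | hc
    · exact absurd hb' hb
    · exact Or.inr ⟨hc, rfl⟩
  exfalso
  obtain ⟨x, rfl⟩ : ∃ x, a = x * b := ⟨a / b, by field_simp⟩
  have hc : c = x * d := by
    have : b * (c - x * d) = 0 := by linear_combination -e0
    rcases mul_eq_zero.mp this with h | h
    · exact absurd h hb
    · linear_combination h
  subst hc
  have hD1 : D1 A B x 1 = 0 := by
    have : b ^ 2 * d ^ 2 * D1 A B x 1 = 0 := by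
      rw [← h1]; simp only [D1, G1]; ring
    rcases mul_eq_zero.mp this with h | h
    · exact absurd h (mul_ne_zero (pow_ne_zero 2 hb) (pow_ne_zero 2 hd))
    · exact h
  have hD2 : D2 A B x 1 = 0 := by
    have : b ^ 2 * d ^ 2 * D2 A B x 1 = 0 := by
      rw [← h2']; simp only [D2, G2]; ring
    rcases mul_eq_zero.mp this with h | h
    · exact absurd h (mul_ne_zero (pow_ne_zero 2 hb) (pow_ne_zero 2 hd))
    · exact h
  exact one_ne_zero (dup_no_common_zero h2 hΔ hD1 hD2).2

/-- The cubic form and `b^3` have no common zero. -/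
theorem cubic_no_common_zero {a b : K} (h1 : F3 A B a b = 0) (h2' : b ^ 3 = 0) :
    a = 0 ∧ b = 0 := by
  have hb : b = 0 := pow_eq_zero_iff (by norm_num) |>.mp h2'
  subst hb
  have : a ^ 3 = 0 := by
    rw [← h1]; simp only [F3]; ring
  exact ⟨pow_eq_zero_iff (by norm_num) |>.mp this, rfl⟩

end NCZ

/-! ### Top coefficients -/

section Top

variable {k : Type*} [Field k]

/-- `p` has degree at most `N` and its `N`-th coefficient is `c`. -/
def TopIs (N : ℕ) (p : k[X]) (c : k) : Prop := p.natDegree ≤ N ∧ p.coeff N = c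

lemma TopIs.congr {N N' : ℕ} {p : k[X]} {c c' : k} (h : TopIs N p c) (hN : N = N')
    (hc : c = c') : TopIs N' p c' := by
  subst hN hc; exact h

lemma TopIs.mul {M N : ℕ} {p q : k[X]} {c e : k} (hp : TopIs M p c) (hq : TopIs N q e) :
    TopIs (M + N) (p * q) (c * e) :=
  ⟨natDegree_mul_le.trans (add_le_add hp.1 hq.1),
    by rw [coeff_mul_add_eq_of_natDegree_le hp.1 hq.1, hp.2, hq.2]⟩

lemma TopIs.add {N : ℕ} {p q : k[X]} {c e : k} (hp : TopIs N p c) (hq : TopIs N q e) :
    TopIs N (p + q) (c + e) :=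
  ⟨(natDegree_add_le _ _).trans (max_le hp.1 hq.1), by rw [coeff_add, hp.2, hq.2]⟩

lemma TopIs.sub {N : ℕ} {p q : k[X]} {c e : k} (hp : TopIs N p c) (hq : TopIs N q e) :
    TopIs N (p - q) (c - e) :=
  ⟨(natDegree_sub_le _ _).trans (max_le hp.1 hq.1), by rw [coeff_sub, hp.2, hq.2]⟩

lemma topIs_C (x : k) : TopIs 0 (C x : k[X]) x := ⟨by simp, by simp⟩

lemma topIs_one : TopIs 0 (1 : k[X]) 1 := ⟨by simp, by simp⟩

lemma topIs_ofNat (n : ℕ) [n.AtLeastTwo] : TopIs 0 (OfNat.ofNat n : k[X]) (OfNat.ofNat n) := by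
  have h : (OfNat.ofNat n : k[X]) = C (OfNat.ofNat n : k) := (map_ofNat C n).symm
  rw [h]; exact topIs_C _

lemma TopIs.C_mul {N : ℕ} {p : k[X]} {c : k} (x : k) (hp : TopIs N p c) :
    TopIs N (C x * p) (x * c) :=
  ((topIs_C x).mul hp).congr (zero_add N) rfl

lemma TopIs.ofNat_mul {N : ℕ} {p : k[X]} {c : k} (n : ℕ) [n.AtLeastTwo] (hp : TopIs N p c) :
    TopIs N ((OfNat.ofNat n : k[X]) * p) (OfNat.ofNat n * c) :=
  ((topIs_ofNat n).mul hp).congr (zero_add N) rfl

lemma TopIs.pow {N : ℕ} {p : k[X]} {c : k} (hp : TopIs N p c) (n : ℕ) :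
    TopIs (n * N) (p ^ n) (c ^ n) := by
  induction n with
  | zero => simpa using (topIs_one (k := k))
  | succ n ih =>
    have := ih.mul hp
    rw [pow_succ, pow_succ, Nat.succ_mul]
    exact this

lemma TopIs.natDegree_le {N : ℕ} {p : k[X]} {c : k} (hp : TopIs N p c) : p.natDegree ≤ N := hp.1

lemma TopIs.natDegree_eq {N : ℕ} {p : k[X]} {c : k} (hp : TopIs N p c) (hc : c ≠ 0) :
    p.natDegree = N :=
  le_antisymm hp.1 (le_natDegree_of_ne_zero (by rw [hp.2]; exact hc))

/-- The top coefficient with respect to a degree bound. -/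
lemma topIs_of_le {N : ℕ} {p : k[X]} (h : p.natDegree ≤ N) : TopIs N p (p.coeff N) := ⟨h, rfl⟩

/-- If `a`, `b` are not both zero then their coefficients at `max (deg a) (deg b)` are not both
zero. -/
lemma coeff_max_ne_zero {a b : k[X]} (h : a ≠ 0 ∨ b ≠ 0) :
    a.coeff (max a.natDegree b.natDegree) ≠ 0 ∨ b.coeff (max a.natDegree b.natDegree) ≠ 0 := by
  rcases le_total a.natDegree b.natDegree with hle | hle
  · rw [max_eq_right hle]
    by_cases hb : b = 0
    · subst hb
      have ha : a ≠ 0 := by simpa using h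
      left
      simp only [natDegree_zero, Nat.le_zero] at hle
      simp only [natDegree_zero]
      rw [← hle]
      exact leadingCoeff_ne_zero.mpr ha
    · right; exact leadingCoeff_ne_zero.mpr hb
  · rw [max_eq_left hle]
    by_cases ha : a = 0
    · subst ha
      have hb : b ≠ 0 := by simpa using h
      right
      simp only [natDegree_zero, Nat.le_zero] at hle
      simp only [natDegree_zero]
      rw [← hle]
      exact leadingCoeff_ne_zero.mpr hb
    · left; exact leadingCoeff_ne_zero.mpr ha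

variable {A B : k}

lemma topIs_G0 {m n : ℕ} {a b c d : k[X]} {α β γ δ : k} (ha : TopIs m a α) (hb : TopIs m b β)
    (hc : TopIs n c γ) (hd : TopIs n d δ) :
    TopIs (2 * m + 2 * n) (G0 a b c d) (G0 α β γ δ) :=
  (((ha.mul hd).sub (hb.mul hc)).pow 2).congr (by ring) rfl

lemma topIs_G1 {m n : ℕ} {a b c d : k[X]} {α β γ δ : k} (ha : TopIs m a α) (hb : TopIs m b β)
    (hc : TopIs n c γ) (hd : TopIs n d δ) :
    TopIs (2 * m + 2 * n) (G1 (C A) (C B) a b c d) (G1 A B α β γ δ) := by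
  have t1 : TopIs (m + n) (a * c + C A * b * d) (α * γ + A * β * δ) :=
    (ha.mul hc).add ((hb.C_mul A).mul hd)
  have t2 : TopIs (m + n) (a * d + b * c) (α * δ + β * γ) := (ha.mul hd).add (hb.mul hc)
  have t3 : TopIs (2 * m + 2 * n) (2 * (a * c + C A * b * d) * (a * d + b * c))
      (2 * (α * γ + A * β * δ) * (α * δ + β * γ)) :=
    ((t1.ofNat_mul 2).mul t2).congr (by ring) rfl
  have t4 : TopIs (2 * m + 2 * n) (4 * C B * b ^ 2 * d ^ 2) (4 * B * β ^ 2 * δ ^ 2) :=
    ((((topIs_C B).ofNat_mul 4).mul (hb.pow 2)).mul (hd.pow 2)).congr (by ring) rfl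
  exact t3.add t4

lemma topIs_G2 {m n : ℕ} {a b c d : k[X]} {α β γ δ : k} (ha : TopIs m a α) (hb : TopIs m b β)
    (hc : TopIs n c γ) (hd : TopIs n d δ) :
    TopIs (2 * m + 2 * n) (G2 (C A) (C B) a b c d) (G2 A B α β γ δ) := by
  have t1 : TopIs (2 * m + 2 * n) ((a * c - C A * b * d) ^ 2) ((α * γ - A * β * δ) ^ 2) :=
    (((ha.mul hc).sub ((hb.C_mul A).mul hd)).pow 2).congr (by ring) rfl
  have t2 : TopIs (m + n) (a * d + b * c) (α * δ + β * γ) := (ha.mul hd).add (hb.mul hc)
  have t3 : TopIs (2 * m + 2 * n) (4 * C B * b * d * (a * d + b * c))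
      (4 * B * β * δ * (α * δ + β * γ)) :=
    (((((topIs_C B).ofNat_mul 4).mul hb).mul hd).mul t2).congr (by ring) rfl
  exact t1.sub t3

lemma topIs_D1 {m : ℕ} {a b : k[X]} {α β : k} (ha : TopIs m a α) (hb : TopIs m b β) :
    TopIs (4 * m) (D1 (C A) (C B) a b) (D1 A B α β) := by
  have t1 : TopIs (3 * m) (a ^ 3 + C A * a * b ^ 2 + C B * b ^ 3)
      (α ^ 3 + A * α * β ^ 2 + B * β ^ 3) :=
    ((ha.pow 3).add (((ha.C_mul A).mul (hb.pow 2)).congr (by ring) rfl)).add
      ((hb.pow 3).C_mul B)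
  exact (((hb.ofNat_mul 4).mul t1)).congr (by ring) rfl

lemma topIs_D2 {m : ℕ} {a b : k[X]} {α β : k} (ha : TopIs m a α) (hb : TopIs m b β) :
    TopIs (4 * m) (D2 (C A) (C B) a b) (D2 A B α β) := by
  have t1 : TopIs (4 * m) ((a ^ 2 - C A * b ^ 2) ^ 2) ((α ^ 2 - A * β ^ 2) ^ 2) :=
    ((((ha.pow 2).sub ((hb.pow 2).C_mul A))).pow 2).congr (by ring) rfl
  have t2 : TopIs (4 * m) (8 * C B * a * b ^ 3) (8 * B * α * β ^ 3) :=
    ((((topIs_C B).ofNat_mul 8).mul ha).mul (hb.pow 3)).congr (by ring) rfl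
  exact t1.sub t2

lemma topIs_F3 {m : ℕ} {a b : k[X]} {α β : k} (ha : TopIs m a α) (hb : TopIs m b β) :
    TopIs (3 * m) (F3 (C A) (C B) a b) (F3 A B α β) :=
  ((ha.pow 3).add (((ha.C_mul A).mul (hb.pow 2)).congr (by ring) rfl)).add
      ((hb.pow 3).C_mul B)

end Top

/-! ### Degrees and primitivity of the forms -/

section Degree

universe u

variable {k : Type u} [Field k] {A B : k}

/-- Degree of the triple of biquadratic forms. -/
theorem natDegree_forms (h2 : (2 : k) ≠ 0) (hΔ : 4 * A ^ 3 + 27 * B ^ 2 ≠ 0) {a b c d : k[X]}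
    (hab : a ≠ 0 ∨ b ≠ 0) (hcd : c ≠ 0 ∨ d ≠ 0) :
    max (G0 a b c d).natDegree
        (max (G1 (C A) (C B) a b c d).natDegree (G2 (C A) (C B) a b c d).natDegree)
      = 2 * max a.natDegree b.natDegree + 2 * max c.natDegree d.natDegree := by
  have ha := topIs_of_le (le_max_left a.natDegree b.natDegree)
  have hb := topIs_of_le (le_max_right a.natDegree b.natDegree)
  have hc := topIs_of_le (le_max_left c.natDegree d.natDegree)
  have hd := topIs_of_le (le_max_right c.natDegree d.natDegree)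
  have t0 := topIs_G0 ha hb hc hd
  have t1 := topIs_G1 (A := A) (B := B) ha hb hc hd
  have t2 := topIs_G2 (A := A) (B := B) ha hb hc hd
  apply le_antisymm (max_le t0.1 (max_le t1.1 t2.1))
  by_cases z0 : G0 (a.coeff (max a.natDegree b.natDegree)) (b.coeff (max a.natDegree b.natDegree))
      (c.coeff (max c.natDegree d.natDegree)) (d.coeff (max c.natDegree d.natDegree)) = 0
  swap
  · exact (t0.natDegree_eq z0).ge.trans (le_max_left _ _)
  by_cases z1 : G1 A B (a.coeff (max a.natDegree b.natDegree))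
      (b.coeff (max a.natDegree b.natDegree))
      (c.coeff (max c.natDegree d.natDegree)) (d.coeff (max c.natDegree d.natDegree)) = 0
  swap
  · exact (t1.natDegree_eq z1).ge.trans ((le_max_left _ _).trans (le_max_right _ _))
  by_cases z2 : G2 A B (a.coeff (max a.natDegree b.natDegree))
      (b.coeff (max a.natDegree b.natDegree))
      (c.coeff (max c.natDegree d.natDegree)) (d.coeff (max c.natDegree d.natDegree)) = 0
  swap
  · exact (t2.natDegree_eq z2).ge.trans ((le_max_right _ _).trans (le_max_right _ _))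
  exfalso
  rcases forms_no_common_zero h2 hΔ z0 z1 z2 with ⟨e1, e2⟩ | ⟨e1, e2⟩
  · rcases coeff_max_ne_zero hab with h | h
    · exact h e1
    · exact h e2
  · rcases coeff_max_ne_zero hcd with h | h
    · exact h e1
    · exact h e2

/-- Degree of the pair of duplication forms. -/
theorem natDegree_dup (h2 : (2 : k) ≠ 0) (hΔ : 4 * A ^ 3 + 27 * B ^ 2 ≠ 0) {a b : k[X]}
    (hab : a ≠ 0 ∨ b ≠ 0) :
    max (D2 (C A) (C B) a b).natDegree (D1 (C A) (C B) a b).natDegree
      = 4 * max a.natDegree b.natDegree := by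
  have ha := topIs_of_le (le_max_left a.natDegree b.natDegree)
  have hb := topIs_of_le (le_max_right a.natDegree b.natDegree)
  have t1 := topIs_D1 (A := A) (B := B) ha hb
  have t2 := topIs_D2 (A := A) (B := B) ha hb
  apply le_antisymm (max_le t2.1 t1.1)
  by_cases z1 : D1 A B (a.coeff (max a.natDegree b.natDegree))
      (b.coeff (max a.natDegree b.natDegree)) = 0
  swap
  · exact (t1.natDegree_eq z1).ge.trans (le_max_right _ _)
  by_cases z2 : D2 A B (a.coeff (max a.natDegree b.natDegree))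
      (b.coeff (max a.natDegree b.natDegree)) = 0
  swap
  · exact (t2.natDegree_eq z2).ge.trans (le_max_left _ _)
  exfalso
  obtain ⟨e1, e2⟩ := dup_no_common_zero h2 hΔ z1 z2
  rcases coeff_max_ne_zero hab with h | h
  · exact h e1
  · exact h e2

/-- Degree of the pair `(a^3 + A a b^2 + B b^3, b^3)`. -/
theorem natDegree_cubic {a b : k[X]} (hab : a ≠ 0 ∨ b ≠ 0) :
    max (F3 (C A) (C B) a b).natDegree (b ^ 3).natDegree
      = 3 * max a.natDegree b.natDegree := by
  have ha := topIs_of_le (le_max_left a.natDegree b.natDegree)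
  have hb := topIs_of_le (le_max_right a.natDegree b.natDegree)
  have t1 := topIs_F3 (A := A) (B := B) ha hb
  have t2 := hb.pow 3
  apply le_antisymm (max_le t1.1 t2.1)
  by_cases z1 : F3 A B (a.coeff (max a.natDegree b.natDegree))
      (b.coeff (max a.natDegree b.natDegree)) = 0
  swap
  · exact (t1.natDegree_eq z1).ge.trans (le_max_left _ _)
  by_cases z2 : (b.coeff (max a.natDegree b.natDegree)) ^ 3 = 0
  swap
  · exact (t2.natDegree_eq z2).ge.trans (le_max_right _ _)
  exfalso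
  obtain ⟨e1, e2⟩ := cubic_no_common_zero z1 z2
  rcases coeff_max_ne_zero hab with h | h
  · exact h e1
  · exact h e2

/-- Residue field at an irreducible polynomial. -/
lemma exists_residue_field (π : k[X]) (hπ : Irreducible π) :
    ∃ (κ : Type u) (_ : Field κ) (φ : k[X] →+* κ), ∀ p, φ p = 0 ↔ π ∣ p := by
  have : Fact (Irreducible π) := ⟨hπ⟩
  exact ⟨AdjoinRoot π, inferInstance, AdjoinRoot.mk π, fun p => AdjoinRoot.mk_eq_zero⟩

/-- No irreducible polynomial divides all three biquadratic forms at coprime arguments. -/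
theorem forms_prim (h2 : (2 : k) ≠ 0) (hΔ : 4 * A ^ 3 + 27 * B ^ 2 ≠ 0) {a b c d : k[X]}
    (hab : IsCoprime a b) (hcd : IsCoprime c d) (π : k[X]) (hπ : Irreducible π) :
    ¬ (π ∣ G0 a b c d ∧ π ∣ G1 (C A) (C B) a b c d ∧ π ∣ G2 (C A) (C B) a b c d) := by
  rintro ⟨h0, h1, h2'⟩
  obtain ⟨κ, _, φ, hφ⟩ := exists_residue_field π hπ
  have inj : Function.Injective (φ.comp C) := (φ.comp C).injective
  have e0 : G0 (φ a) (φ b) (φ c) (φ d) = 0 := by rw [← map_G0]; exact (hφ _).mpr h0
  have e1 : G1 (φ (C A)) (φ (C B)) (φ a) (φ b) (φ c) (φ d) = 0 := by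
    rw [← map_G1]; exact (hφ _).mpr h1
  have e2 : G2 (φ (C A)) (φ (C B)) (φ a) (φ b) (φ c) (φ d) = 0 := by
    rw [← map_G2]; exact (hφ _).mpr h2'
  have h2κ : (2 : κ) ≠ 0 := by
    have : (φ.comp C) 2 = 2 := map_ofNat _ 2
    rw [← this]; exact (map_ne_zero_iff _ inj).mpr h2
  have hΔκ : 4 * (φ (C A)) ^ 3 + 27 * (φ (C B)) ^ 2 ≠ 0 := by
    have : 4 * (φ (C A)) ^ 3 + 27 * (φ (C B)) ^ 2 = (φ.comp C) (4 * A ^ 3 + 27 * B ^ 2) := by
      simp [map_ofNat]
    rw [this]; exact (map_ne_zero_iff _ inj).mpr hΔ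
  rcases forms_no_common_zero h2κ hΔκ e0 e1 e2 with ⟨ea, eb⟩ | ⟨ec, ed⟩
  · exact hπ.not_isUnit (hab.isUnit_of_dvd' ((hφ a).mp ea) ((hφ b).mp eb))
  · exact hπ.not_isUnit (hcd.isUnit_of_dvd' ((hφ c).mp ec) ((hφ d).mp ed))

/-- The duplication forms are coprime at coprime arguments. -/
theorem dup_isCoprime (h2 : (2 : k) ≠ 0) (hΔ : 4 * A ^ 3 + 27 * B ^ 2 ≠ 0) {a b : k[X]}
    (hab : IsCoprime a b) (hD1 : D1 (C A) (C B) a b ≠ 0) :
    IsCoprime (D2 (C A) (C B) a b) (D1 (C A) (C B) a b) := by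
  apply isCoprime_of_irreducible_dvd (fun h => hD1 h.2)
  intro π hπ h2' h1
  obtain ⟨κ, _, φ, hφ⟩ := exists_residue_field π hπ
  have inj : Function.Injective (φ.comp C) := (φ.comp C).injective
  have e1 : D1 (φ (C A)) (φ (C B)) (φ a) (φ b) = 0 := by
    rw [← map_D1]; exact (hφ _).mpr h1
  have e2 : D2 (φ (C A)) (φ (C B)) (φ a) (φ b) = 0 := by
    rw [← map_D2]; exact (hφ _).mpr h2'
  have h2κ : (2 : κ) ≠ 0 := by
    have : (φ.comp C) 2 = 2 := map_ofNat _ 2
    rw [← this]; exact (map_ne_zero_iff _ inj).mpr h2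
  have hΔκ : 4 * (φ (C A)) ^ 3 + 27 * (φ (C B)) ^ 2 ≠ 0 := by
    have : 4 * (φ (C A)) ^ 3 + 27 * (φ (C B)) ^ 2 = (φ.comp C) (4 * A ^ 3 + 27 * B ^ 2) := by
      simp [map_ofNat]
    rw [this]; exact (map_ne_zero_iff _ inj).mpr hΔ
  obtain ⟨ea, eb⟩ := dup_no_common_zero h2κ hΔκ e1 e2
  exact hπ.not_isUnit (hab.isUnit_of_dvd' ((hφ a).mp ea) ((hφ b).mp eb))

/-- The cubic form is coprime to `b^3` at coprime arguments. -/
theorem cubic_isCoprime {a b : k[X]} (hab : IsCoprime a b) :
    IsCoprime (F3 (C A) (C B) a b) (b ^ 3) := by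
  have h : IsCoprime (a ^ 3) b := hab.pow_left
  have e : F3 (C A) (C B) a b = a ^ 3 + b * (C A * a * b + C B * b ^ 2) := by
    simp only [F3]; ring
  rw [e]
  exact (h.add_mul_left_left _).pow_right

/-- A Bezout relation from primitivity. -/
lemma bezout_of_prim {U V W : k[X]} (hU : U ≠ 0)
    (h : ∀ π : k[X], Irreducible π → ¬ (π ∣ U ∧ π ∣ V ∧ π ∣ W)) :
    ∃ r s t : k[X], r * U + s * V + t * W = 1 := by
  classical
  have hcop : IsCoprime U (EuclideanDomain.gcd V W) := by
    apply isCoprime_of_irreducible_dvd (fun h' => hU h'.1)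
    intro z hz hzU hzg
    exact h z hz ⟨hzU, hzg.trans (EuclideanDomain.gcd_dvd_left V W),
      hzg.trans (EuclideanDomain.gcd_dvd_right V W)⟩
  obtain ⟨r, s, hrs⟩ := hcop
  refine ⟨r, s * EuclideanDomain.gcdA V W, s * EuclideanDomain.gcdB V W, ?_⟩
  have := EuclideanDomain.gcd_eq_gcd_ab V W
  linear_combination hrs - s * this

end Degree

/-! ### Heights of rational functions -/

section Height

universe u

variable {k : Type u} [Field k] {A B : k}

/-- The height of a rational function: the larger of the degrees of its numerator and its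
denominator. -/
noncomputable def ht (x : RatFunc k) : ℕ := max x.num.natDegree x.denom.natDegree

lemma ht_def (x : RatFunc k) : ht x = max x.num.natDegree x.denom.natDegree := rfl

lemma mul_denom_eq_num (x : RatFunc k) :
    x * algebraMap k[X] (RatFunc k) x.denom = algebraMap k[X] (RatFunc k) x.num := by
  have h := RatFunc.num_div_denom x
  have hd : algebraMap k[X] (RatFunc k) x.denom ≠ 0 := by
    simpa using x.denom_ne_zero
  rw [div_eq_iff hd] at h
  exact h.symm

/-- Numerator and denominator degrees of a fraction of coprime polynomials. -/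
lemma natDegree_num_denom_of_isCoprime {p q : k[X]} (h : IsCoprime p q) {x : RatFunc k}
    (hx : algebraMap k[X] (RatFunc k) p = x * algebraMap k[X] (RatFunc k) q) :
    x.num.natDegree = p.natDegree ∧ x.denom.natDegree = q.natDegree := by
  have inj : Function.Injective (algebraMap k[X] (RatFunc k)) :=
    IsFractionRing.injective k[X] (RatFunc k)
  have hxe := mul_denom_eq_num x
  have key : p * x.denom = q * x.num := by
    apply inj
    simp only [map_mul]
    rw [hx, ← hxe]; ring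
  have c := x.isCoprime_num_denom
  have h1 : q ∣ x.denom := h.symm.dvd_of_dvd_mul_left ⟨x.num, key⟩
  have h2 : x.denom ∣ q := c.symm.dvd_of_dvd_mul_left ⟨p, by linear_combination -key⟩
  have h3 : p ∣ x.num := h.dvd_of_dvd_mul_left ⟨x.denom, by linear_combination -key⟩
  have h4 : x.num ∣ p := c.dvd_of_dvd_mul_left ⟨q, by linear_combination key⟩
  exact ⟨natDegree_eq_of_degree_eq (degree_eq_degree_of_associated (associated_of_dvd_dvd h4 h3)),
    natDegree_eq_of_degree_eq (degree_eq_degree_of_associated (associated_of_dvd_dvd h2 h1))⟩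

/-- Height of a fraction of coprime polynomials. -/
lemma ht_eq_of_isCoprime {p q : k[X]} (h : IsCoprime p q) {x : RatFunc k}
    (hx : algebraMap k[X] (RatFunc k) p = x * algebraMap k[X] (RatFunc k) q) :
    ht x = max p.natDegree q.natDegree := by
  obtain ⟨h1, h2⟩ := natDegree_num_denom_of_isCoprime h hx
  rw [ht_def, h1, h2]

@[simp] lemma ht_zero : ht (0 : RatFunc k) = 0 := by
  simp [ht_def]

@[simp] lemma ht_C (c : k) : ht (RatFunc.C c : RatFunc k) = 0 := by
  have h : ht (RatFunc.C c : RatFunc k) = max (C c : k[X]).natDegree (1 : k[X]).natDegree := by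
    apply ht_eq_of_isCoprime isCoprime_one_right
    simp
  simpa using h

/-- Gauss-type lemma at infinity for a product of two linear forms. -/
lemma natDegree_linear_product {e g e' g' : k[X]} (h : e ≠ 0 ∨ g ≠ 0) (h' : e' ≠ 0 ∨ g' ≠ 0) :
    max (g * g').natDegree (max (e * g' + e' * g).natDegree (e * e').natDegree)
      = max e.natDegree g.natDegree + max e'.natDegree g'.natDegree := by
  have he := topIs_of_le (le_max_left e.natDegree g.natDegree)
  have hg := topIs_of_le (le_max_right e.natDegree g.natDegree)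
  have he' := topIs_of_le (le_max_left e'.natDegree g'.natDegree)
  have hg' := topIs_of_le (le_max_right e'.natDegree g'.natDegree)
  have n1 := coeff_max_ne_zero h
  have n2 := coeff_max_ne_zero h'
  generalize e.coeff (max e.natDegree g.natDegree) = ε at he n1
  generalize g.coeff (max e.natDegree g.natDegree) = γ at hg n1
  generalize e'.coeff (max e'.natDegree g'.natDegree) = ε' at he' n2
  generalize g'.coeff (max e'.natDegree g'.natDegree) = γ' at hg' n2
  have t0 := hg.mul hg'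
  have t1 := (he.mul hg').add ((he'.mul hg).congr (add_comm _ _) rfl)
  have t2 := he.mul he'
  apply le_antisymm (max_le t0.1 (max_le t1.1 t2.1))
  by_cases z0 : γ * γ' = 0
  swap
  · exact (t0.natDegree_eq z0).ge.trans (le_max_left _ _)
  by_cases z1 : ε * γ' + ε' * γ = 0
  swap
  · exact (t1.natDegree_eq z1).ge.trans ((le_max_left _ _).trans (le_max_right _ _))
  by_cases z2 : ε * ε' = 0
  swap
  · exact (t2.natDegree_eq z2).ge.trans ((le_max_right _ _).trans (le_max_right _ _))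
  exfalso
  rcases mul_eq_zero.mp z0 with hγ | hγ'
  · have hε : ε ≠ 0 := n1.resolve_right (not_not.mpr hγ)
    have hε' : ε' = 0 := (mul_eq_zero.mp z2).resolve_left hε
    have hγ'' : γ' ≠ 0 := n2.resolve_left (not_not.mpr hε')
    rw [hε', zero_mul, add_zero] at z1
    exact mul_ne_zero hε hγ'' z1
  · have hε' : ε' ≠ 0 := n2.resolve_right (not_not.mpr hγ')
    have hε : ε = 0 := (mul_eq_zero.mp z2).resolve_right hε'
    have hγ'' : γ ≠ 0 := n1.resolve_left (not_not.mpr hε)
    rw [hε, zero_mul, zero_add] at z1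
    exact mul_ne_zero hε' hγ'' z1

/-- **Primitive quadratic lemma.** If `U T^2 - V T + W` is a primitive quadratic over `k[X]`
with roots `x₃`, `x₄` in `k(X)`, then `ht x₃ + ht x₄` is the largest of the degrees of
`U`, `V`, `W`. -/
theorem ht_add_ht_of_quadratic {U V W : k[X]} (hU : U ≠ 0)
    (hprim : ∀ π : k[X], Irreducible π → ¬ (π ∣ U ∧ π ∣ V ∧ π ∣ W)) {x₃ x₄ : RatFunc k}
    (hs : algebraMap k[X] (RatFunc k) U * (x₃ + x₄) = algebraMap k[X] (RatFunc k) V)
    (hp : algebraMap k[X] (RatFunc k) U * (x₃ * x₄) = algebraMap k[X] (RatFunc k) W) :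
    ht x₃ + ht x₄ = max U.natDegree (max V.natDegree W.natDegree) := by
  have inj : Function.Injective (algebraMap k[X] (RatFunc k)) :=
    IsFractionRing.injective k[X] (RatFunc k)
  have hx₃ := mul_denom_eq_num x₃
  have hx₄ := mul_denom_eq_num x₄
  have c3 : IsCoprime x₃.num x₃.denom := x₃.isCoprime_num_denom
  have c4 : IsCoprime x₄.num x₄.denom := x₄.isCoprime_num_denom
  have hg : x₃.denom ≠ 0 := x₃.denom_ne_zero
  have hg' : x₄.denom ≠ 0 := x₄.denom_ne_zero
  rw [ht_def, ht_def]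
  generalize x₃.num = e at *
  generalize x₃.denom = g at *
  generalize x₄.num = e' at *
  generalize x₄.denom = g' at *
  have k1 : U * (e * g' + e' * g) = (g * g') * V := by
    apply inj
    simp only [map_mul, map_add]
    rw [← hs, ← hx₃, ← hx₄]; ring
  have k2 : U * (e * e') = (g * g') * W := by
    apply inj
    simp only [map_mul]
    rw [← hp, ← hx₃, ← hx₄]; ring
  have hU' : g * g' ≠ 0 := mul_ne_zero hg hg'
  have hprim' : ∀ π : k[X], Irreducible π →
      ¬ (π ∣ g * g' ∧ π ∣ e * g' + e' * g ∧ π ∣ e * e') := by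
    rintro π hπ ⟨h0, h1, h2⟩
    have hπp : Prime π := hπ.prime
    rcases hπp.dvd_or_dvd h0 with hd | hd
    · have hne : ¬ π ∣ e := fun he => hπ.not_isUnit (c3.isUnit_of_dvd' he hd)
      have he' : π ∣ e' := (hπp.dvd_or_dvd h2).resolve_left hne
      have h3 : π ∣ e * g' := by
        have : e * g' = (e * g' + e' * g) - e' * g := by ring
        rw [this]; exact dvd_sub h1 (Dvd.dvd.mul_left hd e')
      have hd' : π ∣ g' := (hπp.dvd_or_dvd h3).resolve_left hne
      exact hπ.not_isUnit (c4.isUnit_of_dvd' he' hd')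
    · have hne : ¬ π ∣ e' := fun he => hπ.not_isUnit (c4.isUnit_of_dvd' he hd)
      have he' : π ∣ e := (hπp.dvd_or_dvd h2).resolve_right hne
      have h3 : π ∣ e' * g := by
        have : e' * g = (e * g' + e' * g) - e * g' := by ring
        rw [this]; exact dvd_sub h1 (Dvd.dvd.mul_left hd e)
      have hd' : π ∣ g := (hπp.dvd_or_dvd h3).resolve_left hne
      exact hπ.not_isUnit (c3.isUnit_of_dvd' he' hd')
  obtain ⟨r, s, t, hb⟩ := bezout_of_prim hU hprim
  obtain ⟨r', s', t', hb'⟩ := bezout_of_prim hU' hprim'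
  have d1 : U ∣ g * g' :=
    ⟨r * (g * g') + s * (e * g' + e' * g) + t * (e * e'),
      by linear_combination (-(g * g')) * hb - s * k1 - t * k2⟩
  have d2 : g * g' ∣ U :=
    ⟨r' * U + s' * V + t' * W, by linear_combination (-U) * hb' + s' * k1 + t' * k2⟩
  obtain ⟨u, hu⟩ := associated_of_dvd_dvd d1 d2
  have hV : V * (u : k[X]) = e * g' + e' * g := by
    apply mul_left_cancel₀ hU
    rw [k1, ← hu]; ring
  have hW : W * (u : k[X]) = e * e' := by
    apply mul_left_cancel₀ hU
    rw [k2, ← hu]; ring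
  have eU : U.natDegree = (g * g').natDegree :=
    natDegree_eq_of_degree_eq (degree_eq_degree_of_associated ⟨u, hu⟩)
  have eV : V.natDegree = (e * g' + e' * g).natDegree :=
    natDegree_eq_of_degree_eq (degree_eq_degree_of_associated ⟨u, hV⟩)
  have eW : W.natDegree = (e * e').natDegree :=
    natDegree_eq_of_degree_eq (degree_eq_degree_of_associated ⟨u, hW⟩)
  rw [eU, eV, eW]
  exact (natDegree_linear_product (Or.inr hg) (Or.inr hg')).symm

/-- **x-coordinate parallelogram law.**  If `x₃ + x₄` and `x₃ x₄` are given in terms of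
`x₁ ≠ x₂` by the addition formulas of `y^2 = x^3 + A x + B`, then
`ht x₃ + ht x₄ = 2 ht x₁ + 2 ht x₂`. -/
theorem ht_parallelogram (h2 : (2 : k) ≠ 0) (hΔ : 4 * A ^ 3 + 27 * B ^ 2 ≠ 0)
    {x₁ x₂ x₃ x₄ : RatFunc k} (hne : x₁ ≠ x₂)
    (hs : (x₁ - x₂) ^ 2 * (x₃ + x₄) =
      2 * ((x₁ * x₂ + RatFunc.C A) * (x₁ + x₂) + 2 * RatFunc.C B))
    (hp : (x₁ - x₂) ^ 2 * (x₃ * x₄) =
      (x₁ * x₂ - RatFunc.C A) ^ 2 - 4 * RatFunc.C B * (x₁ + x₂)) :
    ht x₃ + ht x₄ = 2 * ht x₁ + 2 * ht x₂ := by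
  have inj : Function.Injective (algebraMap k[X] (RatFunc k)) :=
    IsFractionRing.injective k[X] (RatFunc k)
  have hx₁ := mul_denom_eq_num x₁
  have hx₂ := mul_denom_eq_num x₂
  have c1 : IsCoprime x₁.num x₁.denom := x₁.isCoprime_num_denom
  have c2 : IsCoprime x₂.num x₂.denom := x₂.isCoprime_num_denom
  have hb : x₁.denom ≠ 0 := x₁.denom_ne_zero
  have hd : x₂.denom ≠ 0 := x₂.denom_ne_zero
  rw [ht_def x₁, ht_def x₂]
  generalize x₁.num = a at *
  generalize x₁.denom = b at *
  generalize x₂.num = c at *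
  generalize x₂.denom = d at *
  have hb' : algebraMap k[X] (RatFunc k) b ≠ 0 := by simpa using hb
  have hd' : algebraMap k[X] (RatFunc k) d ≠ 0 := by simpa using hd
  have eU : algebraMap k[X] (RatFunc k) (G0 a b c d) =
      (algebraMap k[X] (RatFunc k) b * algebraMap k[X] (RatFunc k) d) ^ 2 * (x₁ - x₂) ^ 2 := by
    rw [map_G0, ← hx₁, ← hx₂]; simp only [G0]; ring
  have eV : algebraMap k[X] (RatFunc k) (G1 (C A) (C B) a b c d) =
      (algebraMap k[X] (RatFunc k) b * algebraMap k[X] (RatFunc k) d) ^ 2 *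
        (2 * ((x₁ * x₂ + RatFunc.C A) * (x₁ + x₂) + 2 * RatFunc.C B)) := by
    rw [map_G1, ← hx₁, ← hx₂, RatFunc.algebraMap_C, RatFunc.algebraMap_C]; simp only [G1]; ring
  have eW : algebraMap k[X] (RatFunc k) (G2 (C A) (C B) a b c d) =
      (algebraMap k[X] (RatFunc k) b * algebraMap k[X] (RatFunc k) d) ^ 2 *
        ((x₁ * x₂ - RatFunc.C A) ^ 2 - 4 * RatFunc.C B * (x₁ + x₂)) := by
    rw [map_G2, ← hx₁, ← hx₂, RatFunc.algebraMap_C, RatFunc.algebraMap_C]; simp only [G2]; ring
  have hU : G0 a b c d ≠ 0 := by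
    intro h0
    have : algebraMap k[X] (RatFunc k) (G0 a b c d) = 0 := by rw [h0, map_zero]
    rw [eU] at this
    have h3 : (x₁ - x₂) ^ 2 = 0 :=
      (mul_eq_zero.mp this).resolve_left (pow_ne_zero 2 (mul_ne_zero hb' hd'))
    exact hne (sub_eq_zero.mp (pow_eq_zero_iff (by norm_num) |>.mp h3))
  have hs' : algebraMap k[X] (RatFunc k) (G0 a b c d) * (x₃ + x₄) =
      algebraMap k[X] (RatFunc k) (G1 (C A) (C B) a b c d) := by
    rw [eU, eV, ← hs]; ring
  have hp' : algebraMap k[X] (RatFunc k) (G0 a b c d) * (x₃ * x₄) =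
      algebraMap k[X] (RatFunc k) (G2 (C A) (C B) a b c d) := by
    rw [eU, eW, ← hp]; ring
  rw [ht_add_ht_of_quadratic hU (forms_prim h2 hΔ c1 c2) hs' hp']
  exact natDegree_forms h2 hΔ (Or.inr hb) (Or.inr hd)

/-- **Duplication law.**  If `z` is given in terms of `x` by the duplication formula of
`y^2 = x^3 + A x + B` (with `x^3 + A x + B ≠ 0`), then `ht z = 4 ht x`. -/
theorem ht_dup (h2 : (2 : k) ≠ 0) (hΔ : 4 * A ^ 3 + 27 * B ^ 2 ≠ 0) {x z : RatFunc k}
    (hx : x ^ 3 + RatFunc.C A * x + RatFunc.C B ≠ 0)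
    (hz : 4 * (x ^ 3 + RatFunc.C A * x + RatFunc.C B) * z =
      (x ^ 2 - RatFunc.C A) ^ 2 - 8 * RatFunc.C B * x) :
    ht z = 4 * ht x := by
  have hx₁ := mul_denom_eq_num x
  have c1 : IsCoprime x.num x.denom := x.isCoprime_num_denom
  have hb : x.denom ≠ 0 := x.denom_ne_zero
  rw [ht_def x]
  generalize x.num = a at *
  generalize x.denom = b at *
  have hb' : algebraMap k[X] (RatFunc k) b ≠ 0 := by simpa using hb
  have h4 : (4 : RatFunc k) ≠ 0 := by
    have : (4 : RatFunc k) = 2 * 2 := by norm_num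
    have h2' : (2 : RatFunc k) ≠ 0 := by
      have : (2 : RatFunc k) = RatFunc.C (2 : k) := (map_ofNat RatFunc.C 2).symm
      rw [this]
      exact (map_ne_zero_iff _ (RatFunc.C_injective)).mpr h2
    rw [this]; exact mul_ne_zero h2' h2'
  have e1 : algebraMap k[X] (RatFunc k) (D1 (C A) (C B) a b) =
      (algebraMap k[X] (RatFunc k) b) ^ 4 * (4 * (x ^ 3 + RatFunc.C A * x + RatFunc.C B)) := by
    rw [map_D1, ← hx₁, RatFunc.algebraMap_C, RatFunc.algebraMap_C]; simp only [D1]; ring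
  have e2 : algebraMap k[X] (RatFunc k) (D2 (C A) (C B) a b) =
      (algebraMap k[X] (RatFunc k) b) ^ 4 * ((x ^ 2 - RatFunc.C A) ^ 2 - 8 * RatFunc.C B * x) := by
    rw [map_D2, ← hx₁, RatFunc.algebraMap_C, RatFunc.algebraMap_C]; simp only [D2]; ring
  have hD1 : D1 (C A) (C B) a b ≠ 0 := by
    intro h0
    have : algebraMap k[X] (RatFunc k) (D1 (C A) (C B) a b) = 0 := by rw [h0, map_zero]
    rw [e1] at this
    exact (mul_ne_zero (pow_ne_zero 4 hb') (mul_ne_zero h4 hx)) this
  have hxz : algebraMap k[X] (RatFunc k) (D2 (C A) (C B) a b) =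
      z * algebraMap k[X] (RatFunc k) (D1 (C A) (C B) a b) := by
    rw [e1, e2, ← hz]; ring
  rw [ht_eq_of_isCoprime (dup_isCoprime h2 hΔ c1 hD1) hxz]
  exact natDegree_dup h2 hΔ (Or.inr hb)

/-- The cubic multiplies heights by three. -/
theorem ht_cubic (x : RatFunc k) :
    ht (x ^ 3 + RatFunc.C A * x + RatFunc.C B) = 3 * ht x := by
  have hx₁ := mul_denom_eq_num x
  have c1 : IsCoprime x.num x.denom := x.isCoprime_num_denom
  have hb : x.denom ≠ 0 := x.denom_ne_zero
  rw [ht_def x]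
  generalize x.num = a at *
  generalize x.denom = b at *
  have e1 : algebraMap k[X] (RatFunc k) (F3 (C A) (C B) a b) =
      (x ^ 3 + RatFunc.C A * x + RatFunc.C B) * algebraMap k[X] (RatFunc k) (b ^ 3) := by
    rw [map_F3, ← hx₁, RatFunc.algebraMap_C, RatFunc.algebraMap_C, map_pow]; simp only [F3]; ring
  rw [ht_eq_of_isCoprime (cubic_isCoprime c1) e1]
  exact natDegree_cubic (Or.inr hb)

/-- A root of the cubic in `k(X)` has height zero. -/
theorem ht_eq_zero_of_cubic_eq_zero {x : RatFunc k}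
    (hx : x ^ 3 + RatFunc.C A * x + RatFunc.C B = 0) : ht x = 0 := by
  have h := ht_cubic (A := A) (B := B) x
  rw [hx, ht_zero] at h
  omega

end Height

end Fermat.Agent.S52.helper5684
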