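/-
S52, leaf (R3) of the Frobenius Cayley–Hamilton brick: the MANIN COUNT.

For a finite field `F` of odd characteristic with `q` elements, a monic cubic
`f = X^3 + a₂ X^2 + a₄ X + a₆` over `F` with simple roots at the points of `F`, and any field `K`
over `F`, the rational function
  `x(G - Frob G) = f(t) (f(t)^((q-1)/2) + 1)^2 / (t^q - t)^2 - (t^q + t + a₂)`
(the `x`-coordinate of `G - Frob G` for the generic point `G = (t, s)`, `s^2 = f(t)`) has, in lowest
terms, numerator of degree `#{(x, y) ∈ F × F | y^2 = f(x)} + 1` and denominator of degree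
`#{(x, y) ∈ F × F | y^2 = f(x)}`.  In particular its height is the number of points (with the
point at infinity) of `y^2 = f(x)` over `F`.

Everything here is Mathlib-only.
-/
import Mathlib

set_option autoImplicit false

namespace Fermat.Agent.S52.helper6056

open Polynomial

/-! ## A generic cancellation lemma -/

section Cancel

variable {K : Type*} [Field K] {ι : Type*} [Fintype ι]

/-- Cancelling linear factors between a polynomial `N` and `(∏ (X - rᵢ))^2`: if `(X - rᵢ)^(eᵢ)`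
divides `N` exactly whenever `eᵢ < 2` (and at least to order two when `eᵢ = 2`), then the lowest
terms of `N / (∏ (X - rᵢ))^2` are explicit. -/
theorem cancel_linear_factors (r : ι → K) (hr : Function.Injective r) (e : ι → ℕ)
    (he : ∀ i, e i ≤ 2) (N : K[X]) (hdvd : ∀ i, (X - C (r i)) ^ e i ∣ N)
    (hndvd : ∀ i, e i < 2 → ¬ (X - C (r i)) ^ (e i + 1) ∣ N) :
    ∃ G N' D' : K[X], N = G * N' ∧ (∏ i, (X - C (r i))) ^ 2 = G * D' ∧ IsCoprime N' D' ∧
      G.Monic ∧ D'.Monic ∧ G.natDegree = ∑ i, e i ∧ D'.natDegree = ∑ i, (2 - e i) := by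
  classical
  have hGN : (∏ i, (X - C (r i)) ^ e i) ∣ N := by
    apply Finset.prod_dvd_of_coprime
    · intro i _ j _ hij
      exact ((pairwise_coprime_X_sub_C hr) hij).pow
    · intro i _; exact hdvd i
  obtain ⟨N', hN'⟩ := hGN
  refine ⟨∏ i, (X - C (r i)) ^ e i, N', ∏ i, (X - C (r i)) ^ (2 - e i), hN', ?_, ?_, ?_, ?_, ?_, ?_⟩
  · rw [← Finset.prod_mul_distrib, ← Finset.prod_pow]
    refine Finset.prod_congr rfl fun i _ => ?_
    rw [← pow_add, Nat.add_sub_cancel' (he i)]
  · apply IsCoprime.prod_right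
    intro i _
    by_cases h2 : e i < 2
    · apply IsCoprime.pow_right
      rw [isCoprime_comm, (irreducible_X_sub_C (r i)).coprime_iff_not_dvd]
      intro hd
      apply hndvd i h2
      rw [hN', pow_succ]
      exact mul_dvd_mul (Finset.dvd_prod_of_mem _ (Finset.mem_univ i)) hd
    · have : 2 - e i = 0 := by omega
      rw [this, pow_zero]; exact isCoprime_one_right
  · exact monic_prod_of_monic _ _ fun i _ => (monic_X_sub_C _).pow _
  · exact monic_prod_of_monic _ _ fun i _ => (monic_X_sub_C _).pow _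
  · rw [natDegree_prod_of_monic _ _ fun i _ => (monic_X_sub_C _).pow _]
    refine Finset.sum_congr rfl fun i _ => ?_
    rw [natDegree_pow, natDegree_X_sub_C, mul_one]
  · rw [natDegree_prod_of_monic _ _ fun i _ => (monic_X_sub_C _).pow _]
    refine Finset.sum_congr rfl fun i _ => ?_
    rw [natDegree_pow, natDegree_X_sub_C, mul_one]

end Cancel

/-! ## Square roots in a finite field of odd characteristic -/

section Sqrt

variable {F : Type*} [Field F] [Fintype F]

/-- The number of square roots of `a` in `F`. -/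
noncomputable def sqCount (a : F) : ℕ := Nat.card {y : F // y ^ 2 = a}

omit [Fintype F] in
theorem sqCount_zero : sqCount (0 : F) = 1 := by
  unfold sqCount
  rw [Nat.card_eq_one_iff_unique]
  refine ⟨⟨?_⟩, ⟨⟨0, by simp⟩⟩⟩
  rintro ⟨a, ha⟩ ⟨b, hb⟩
  have ha' : a = 0 := by simpa using ha
  have hb' : b = 0 := by simpa using hb
  subst ha' hb'; rfl

omit [Fintype F] in
theorem sqCount_of_not_isSquare {a : F} (ha : ¬ IsSquare a) : sqCount a = 0 := by
  unfold sqCount
  have : IsEmpty {y : F // y ^ 2 = a} := ⟨fun ⟨y, hy⟩ => ha ⟨y, by rw [← hy, sq]⟩⟩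
  exact Nat.card_of_isEmpty

theorem sqCount_of_isSquare (hF : ringChar F ≠ 2) {a : F} (ha0 : a ≠ 0) (ha : IsSquare a) :
    sqCount a = 2 := by
  classical
  obtain ⟨b, rfl⟩ := ha
  have hb : b ≠ 0 := by rintro rfl; simp at ha0
  unfold sqCount
  rw [Nat.card_eq_fintype_card, Fintype.card_subtype]
  have : (Finset.univ.filter fun y : F => y ^ 2 = b * b) = {b, -b} := by
    ext y
    simp only [Finset.mem_filter, Finset.mem_univ, true_and, Finset.mem_insert,
      Finset.mem_singleton]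
    rw [← sq]
    exact sq_eq_sq_iff_eq_or_eq_neg
  rw [this]
  exact Finset.card_pair (Ne.symm (mt (Ring.eq_self_iff_eq_zero_of_char_ne_two hF).mp hb))

theorem sqCount_le_two (hF : ringChar F ≠ 2) (a : F) : sqCount a ≤ 2 := by
  by_cases h0 : a = 0
  · subst h0; rw [sqCount_zero]; norm_num
  by_cases hs : IsSquare a
  · rw [sqCount_of_isSquare hF h0 hs]
  · rw [sqCount_of_not_isSquare hs]; norm_num

/-- Trichotomy for the number of square roots, with Euler's criterion. -/
theorem sqCount_trichotomy (hF : ringChar F ≠ 2) (a : F) :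
    (a = 0 ∧ sqCount a = 1) ∨ (a ≠ 0 ∧ a ^ (Fintype.card F / 2) = 1 ∧ sqCount a = 2) ∨
      (a ≠ 0 ∧ a ^ (Fintype.card F / 2) = -1 ∧ sqCount a = 0) := by
  by_cases h0 : a = 0
  · left; subst h0; exact ⟨rfl, sqCount_zero⟩
  right
  by_cases hs : IsSquare a
  · left
    exact ⟨h0, (FiniteField.isSquare_iff hF h0).mp hs, sqCount_of_isSquare hF h0 hs⟩
  · right
    refine ⟨h0, ?_, sqCount_of_not_isSquare hs⟩
    rcases FiniteField.pow_dichotomy hF h0 with h | h
    · exact absurd ((FiniteField.isSquare_iff hF h0).mpr h) hs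
    · exact h

end Sqrt

/-! ## The Manin numerator and denominator -/

section Manin

variable {F : Type*} [Field F] [Fintype F] (K : Type*) [Field K] [Algebra F K]

/-- The monic cubic `X^3 + a₂ X^2 + a₄ X + a₆`. -/
noncomputable def cubic (a₂ a₄ a₆ : F) : F[X] := X ^ 3 + C a₂ * X ^ 2 + C a₄ * X + C a₆

/-- The cubic, base-changed to `K`. -/
noncomputable def cubicK (a₂ a₄ a₆ : F) : K[X] := (cubic a₂ a₄ a₆).map (algebraMap F K)

/-- Numerator of `x(G - Frob G)` before cancellation. -/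
noncomputable def maninNum (a₂ a₄ a₆ : F) : K[X] :=
  cubicK K a₂ a₄ a₆ * (cubicK K a₂ a₄ a₆ ^ (Fintype.card F / 2) + 1) ^ 2
    - (X ^ Fintype.card F + X + C (algebraMap F K a₂)) * (X ^ Fintype.card F - X) ^ 2

variable (F) in
/-- Denominator of `x(G - Frob G)` before cancellation. -/
noncomputable def maninDen : K[X] := (X ^ Fintype.card F - X) ^ 2

/-- The number of affine `F`-points of `y^2 = f(x)`, as a sum over `x`. -/
noncomputable def affCount (a₂ a₄ a₆ : F) : ℕ := ∑ c : F, sqCount (eval c (cubic a₂ a₄ a₆))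

omit [Fintype F] in
theorem cubicK_eq (a₂ a₄ a₆ : F) :
    cubicK K a₂ a₄ a₆ = X ^ 3 + C (algebraMap F K a₂) * X ^ 2 + C (algebraMap F K a₄) * X
      + C (algebraMap F K a₆) := by
  simp [cubicK, cubic]

theorem cubicK_pow_card (a₂ a₄ a₆ : F) :
    cubicK K a₂ a₄ a₆ ^ Fintype.card F = X ^ (3 * Fintype.card F)
      + C (algebraMap F K a₂) * X ^ (2 * Fintype.card F)
      + C (algebraMap F K a₄) * X ^ Fintype.card F + C (algebraMap F K a₆) := by
  have h : cubicK K a₂ a₄ a₆ ^ Fintype.card F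
      = expand K (Fintype.card F) (cubicK K a₂ a₄ a₆) := by
    rw [cubicK, ← Polynomial.map_pow, ← FiniteField.expand_card, map_expand]
  rw [h, cubicK_eq]
  simp only [map_add, map_mul, map_pow, expand_X, expand_C]
  ring

omit [Fintype F] in
theorem natDegree_cubicK (a₂ a₄ a₆ : F) : (cubicK K a₂ a₄ a₆).natDegree ≤ 3 := by
  rw [cubicK_eq]
  compute_degree

theorem card_odd (hF : ringChar F ≠ 2) : Fintype.card F = 2 * (Fintype.card F / 2) + 1 := by
  have := FiniteField.odd_card_of_char_ne_two hF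
  omega

theorem card_half_pos (hF : ringChar F ≠ 2) : 0 < Fintype.card F / 2 := by
  have h1 := FiniteField.odd_card_of_char_ne_two hF
  have h2 : 1 < Fintype.card F := Fintype.one_lt_card
  omega

/-- The key algebraic identity: the top terms cancel. -/
theorem maninNum_eq (hF : ringChar F ≠ 2) (a₂ a₄ a₆ : F) :
    maninNum K a₂ a₄ a₆ = X ^ (2 * Fintype.card F + 1) + (X ^ (Fintype.card F + 2)
      + 2 * C (algebraMap F K a₂) * X ^ (Fintype.card F + 1)
      + C (algebraMap F K a₄) * X ^ Fintype.card F + C (algebraMap F K a₄) * X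
      + 2 * C (algebraMap F K a₆) + 2 * cubicK K a₂ a₄ a₆ ^ (Fintype.card F / 2 + 1)) := by
  have hP := cubicK_pow_card K a₂ a₄ a₆
  have hlam := cubicK_eq K a₂ a₄ a₆
  have hq := card_odd hF
  unfold maninNum
  generalize Fintype.card F / 2 = m at hq ⊢
  generalize Fintype.card F = q at hq hP ⊢
  generalize cubicK K a₂ a₄ a₆ = lam at hP hlam ⊢
  have h1 : lam * (lam ^ m + 1) ^ 2 = lam ^ q + 2 * lam ^ (m + 1) + lam := by
    rw [hq]; ring
  linear_combination h1 + hP + hlam

/-- The lower-order part of the Manin numerator has degree at most `2q`. -/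
theorem maninNum_rest_natDegree_le (hF : ringChar F ≠ 2) (a₂ a₄ a₆ : F) :
    (X ^ (Fintype.card F + 2)
      + 2 * C (algebraMap F K a₂) * X ^ (Fintype.card F + 1)
      + C (algebraMap F K a₄) * X ^ Fintype.card F + C (algebraMap F K a₄) * X
      + 2 * C (algebraMap F K a₆)
      + 2 * cubicK K a₂ a₄ a₆ ^ (Fintype.card F / 2 + 1) : K[X]).natDegree
      ≤ 2 * Fintype.card F := by
  have hq := card_odd hF
  have hm := card_half_pos hF
  have h3 := natDegree_cubicK K a₂ a₄ a₆
  have hpow : (cubicK K a₂ a₄ a₆ ^ (Fintype.card F / 2 + 1)).natDegree ≤ 2 * Fintype.card F := by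
    refine natDegree_pow_le.trans ?_
    calc (Fintype.card F / 2 + 1) * (cubicK K a₂ a₄ a₆).natDegree
        ≤ (Fintype.card F / 2 + 1) * 3 := Nat.mul_le_mul_left _ h3
      _ ≤ 2 * Fintype.card F := by omega
  have h2 : ((2 : K[X]) * cubicK K a₂ a₄ a₆ ^ (Fintype.card F / 2 + 1)).natDegree
      ≤ 2 * Fintype.card F := by
    have : (2 : K[X]) = C 2 := (map_ofNat C 2).symm
    rw [this]
    exact (natDegree_C_mul_le _ _).trans hpow
  refine (natDegree_add_le _ _).trans (max_le ?_ h2)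
  have hq1 : 1 < Fintype.card F := Fintype.one_lt_card
  compute_degree
  all_goals omega

theorem maninNum_monic (hF : ringChar F ≠ 2) (a₂ a₄ a₆ : F) : (maninNum K a₂ a₄ a₆).Monic := by
  rw [maninNum_eq K hF]
  apply monic_X_pow_add
  refine lt_of_le_of_lt degree_le_natDegree ?_
  have := maninNum_rest_natDegree_le K hF a₂ a₄ a₆
  exact_mod_cast Nat.lt_succ_of_le this

theorem natDegree_maninNum (hF : ringChar F ≠ 2) (a₂ a₄ a₆ : F) :
    (maninNum K a₂ a₄ a₆).natDegree = 2 * Fintype.card F + 1 := by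
  rw [maninNum_eq K hF]
  rw [natDegree_add_eq_left_of_natDegree_lt, natDegree_X_pow]
  rw [natDegree_X_pow]
  exact Nat.lt_succ_of_le (maninNum_rest_natDegree_le K hF a₂ a₄ a₆)

/-! ### Root analysis at the points of `F` -/

omit [Fintype F] in
theorem eval_cubicK (a₂ a₄ a₆ c : F) :
    eval (algebraMap F K c) (cubicK K a₂ a₄ a₆) = algebraMap F K (eval c (cubic a₂ a₄ a₆)) := by
  rw [cubicK, eval_map, eval₂_at_apply]

theorem X_sub_C_dvd_X_pow_card_sub_X (c : F) :
    (X - C (algebraMap F K c)) ∣ (X ^ Fintype.card F - X : K[X]) := by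
  rw [dvd_iff_isRoot, IsRoot.def, eval_sub, eval_pow, eval_X, ← map_pow, FiniteField.pow_card,
    sub_self]

theorem prod_X_sub_C_eq :
    ∏ c : F, (X - C (algebraMap F K c)) = (X ^ Fintype.card F - X : K[X]) := by
  have hq1 : 1 < Fintype.card F := Fintype.one_lt_card
  have hF : ∏ c : F, (X - C c) = (X ^ Fintype.card F - X : F[X]) := by
    have hmonic : (X ^ Fintype.card F - X : F[X]).Monic := by
      rw [sub_eq_add_neg]
      apply monic_X_pow_add
      rw [degree_neg, degree_X]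
      exact_mod_cast hq1
    have := prod_multiset_X_sub_C_of_monic_of_roots_card_eq hmonic (by
      rw [FiniteField.roots_X_pow_card_sub_X, ← Finset.card_def, Finset.card_univ,
        FiniteField.X_pow_card_sub_X_natDegree_eq F hq1])
    rw [FiniteField.roots_X_pow_card_sub_X] at this
    exact this
  have := congrArg (Polynomial.map (algebraMap F K)) hF
  simpa [Polynomial.map_prod] using this

variable {K}

theorem dvd_maninNum_of_root {a₂ a₄ a₆ c : F} (h0 : eval c (cubic a₂ a₄ a₆) = 0) :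
    (X - C (algebraMap F K c)) ∣ maninNum K a₂ a₄ a₆ := by
  have h1 : (X - C (algebraMap F K c)) ∣ cubicK K a₂ a₄ a₆ := by
    rw [dvd_iff_isRoot, IsRoot.def, eval_cubicK, h0, map_zero]
  unfold maninNum
  exact dvd_sub (Dvd.dvd.mul_right h1 _)
    (Dvd.dvd.mul_left (dvd_pow (X_sub_C_dvd_X_pow_card_sub_X K c) two_ne_zero) _)

theorem sq_dvd_maninNum_of_nonsquare {a₂ a₄ a₆ c : F}
    (hpow : eval c (cubic a₂ a₄ a₆) ^ (Fintype.card F / 2) = -1) :
    (X - C (algebraMap F K c)) ^ 2 ∣ maninNum K a₂ a₄ a₆ := by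
  have h1 : (X - C (algebraMap F K c)) ∣ cubicK K a₂ a₄ a₆ ^ (Fintype.card F / 2) + 1 := by
    rw [dvd_iff_isRoot, IsRoot.def, eval_add, eval_pow, eval_one, eval_cubicK, ← map_pow, hpow,
      map_neg, map_one, neg_add_cancel]
  unfold maninNum
  exact dvd_sub (Dvd.dvd.mul_left (pow_dvd_pow_of_dvd h1 2) _)
    (Dvd.dvd.mul_left (pow_dvd_pow_of_dvd (X_sub_C_dvd_X_pow_card_sub_X K c) 2) _)

theorem not_dvd_maninNum_of_square (hF : ringChar F ≠ 2) {a₂ a₄ a₆ c : F}
    (h0 : eval c (cubic a₂ a₄ a₆) ≠ 0)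
    (hpow : eval c (cubic a₂ a₄ a₆) ^ (Fintype.card F / 2) = 1) :
    ¬ (X - C (algebraMap F K c)) ∣ maninNum K a₂ a₄ a₆ := by
  have h2K : (2 : K) ≠ 0 := by
    have h2F : (2 : F) ≠ 0 := Ring.two_ne_zero hF
    intro h
    apply h2F
    apply (algebraMap F K).injective
    rw [map_ofNat, map_zero]; exact h
  rw [dvd_iff_isRoot, IsRoot.def]
  unfold maninNum
  simp only [eval_sub, eval_mul, eval_pow, eval_add, eval_one, eval_X, eval_C, eval_cubicK]
  rw [← map_pow (algebraMap F K) c, FiniteField.pow_card, sub_self, ← map_pow, hpow, map_one]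
  have h3 : algebraMap F K (eval c (cubic a₂ a₄ a₆)) ≠ 0 := (_root_.map_ne_zero _).mpr h0
  intro h
  apply h3
  have h4 : ((1 : K) + 1) ^ 2 ≠ 0 := by
    rw [one_add_one_eq_two]; exact pow_ne_zero 2 h2K
  have h5 : algebraMap F K (eval c (cubic a₂ a₄ a₆)) * ((1 : K) + 1) ^ 2 = 0 := by
    linear_combination h
  exact (mul_eq_zero.mp h5).resolve_right h4

theorem not_sq_dvd_maninNum_of_root (hF : ringChar F ≠ 2) {a₂ a₄ a₆ c : F}
    (h0 : eval c (cubic a₂ a₄ a₆) = 0)
    (hsep : eval c (derivative (cubic a₂ a₄ a₆)) ≠ 0) :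
    ¬ (X - C (algebraMap F K c)) ^ 2 ∣ maninNum K a₂ a₄ a₆ := by
  intro hsq
  have h1 : (X - C (algebraMap F K c)) ^ 2 ∣
      cubicK K a₂ a₄ a₆ * (cubicK K a₂ a₄ a₆ ^ (Fintype.card F / 2) + 1) ^ 2 := by
    have h := dvd_add hsq (Dvd.dvd.mul_left
      (pow_dvd_pow_of_dvd (X_sub_C_dvd_X_pow_card_sub_X K c) 2)
      (X ^ Fintype.card F + X + C (algebraMap F K a₂)))
    unfold maninNum at h
    rwa [sub_add_cancel] at h
  have hcop : IsCoprime (X - C (algebraMap F K c))
      (cubicK K a₂ a₄ a₆ ^ (Fintype.card F / 2) + 1) := by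
    rw [(irreducible_X_sub_C _).coprime_iff_not_dvd, dvd_iff_isRoot, IsRoot.def, eval_add,
      eval_pow, eval_one, eval_cubicK, h0, map_zero, zero_pow (card_half_pos hF).ne', zero_add]
    exact one_ne_zero
  have h2 : (X - C (algebraMap F K c)) ^ 2 ∣ cubicK K a₂ a₄ a₆ :=
    (hcop.pow).dvd_of_dvd_mul_right h1
  obtain ⟨g, hg⟩ := h2
  have h3 : eval (algebraMap F K c) (derivative (cubicK K a₂ a₄ a₆)) = 0 := by
    rw [hg]
    simp [derivative_mul, derivative_pow]
  rw [cubicK, derivative_map, eval_map, eval₂_at_apply] at h3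
  exact hsep ((map_eq_zero _).mp h3)

variable (K)

/-- **Manin's count**, polynomial form: lowest terms of `maninNum / maninDen`. -/
theorem manin_count (hF : ringChar F ≠ 2) (a₂ a₄ a₆ : F)
    (hsep : ∀ c : F, eval c (cubic a₂ a₄ a₆) = 0 → eval c (derivative (cubic a₂ a₄ a₆)) ≠ 0) :
    ∃ G N' D' : K[X], maninNum K a₂ a₄ a₆ = G * N' ∧ maninDen F K = G * D' ∧ IsCoprime N' D' ∧
      G.Monic ∧ N'.Monic ∧ D'.Monic ∧
      N'.natDegree = affCount a₂ a₄ a₆ + 1 ∧ D'.natDegree = affCount a₂ a₄ a₆ := by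
  have hdvd : ∀ c : F, (X - C (algebraMap F K c)) ^ (2 - sqCount (eval c (cubic a₂ a₄ a₆)))
      ∣ maninNum K a₂ a₄ a₆ := by
    intro c
    rcases sqCount_trichotomy hF (eval c (cubic a₂ a₄ a₆)) with
      ⟨h0, hc⟩ | ⟨h0, hpow, hc⟩ | ⟨h0, hpow, hc⟩
    · rw [hc]
      simpa using dvd_maninNum_of_root (K := K) h0
    · rw [hc]
      simp
    · rw [hc]
      simpa using sq_dvd_maninNum_of_nonsquare (K := K) hpow
  have hndvd : ∀ c : F, 2 - sqCount (eval c (cubic a₂ a₄ a₆)) < 2 →
      ¬ (X - C (algebraMap F K c)) ^ (2 - sqCount (eval c (cubic a₂ a₄ a₆)) + 1)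
        ∣ maninNum K a₂ a₄ a₆ := by
    intro c hlt
    rcases sqCount_trichotomy hF (eval c (cubic a₂ a₄ a₆)) with
      ⟨h0, hc⟩ | ⟨h0, hpow, hc⟩ | ⟨h0, hpow, hc⟩
    · rw [hc]
      simpa using not_sq_dvd_maninNum_of_root (K := K) hF h0 (hsep c h0)
    · rw [hc]
      simpa using not_dvd_maninNum_of_square (K := K) hF h0 hpow
    · rw [hc] at hlt
      omega
  obtain ⟨G, N', D', hN, hD, hcop, hG, hD', hGdeg, hD'deg⟩ :=
    cancel_linear_factors (fun c : F => algebraMap F K c) (algebraMap F K).injective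
      (fun c => 2 - sqCount (eval c (cubic a₂ a₄ a₆))) (fun c => Nat.sub_le _ _)
      (maninNum K a₂ a₄ a₆) hdvd hndvd
  have hN'monic : N'.Monic :=
    Monic.of_mul_monic_left hG (hN ▸ maninNum_monic K hF a₂ a₄ a₆)
  refine ⟨G, N', D', hN, ?_, hcop, hG, hN'monic, hD', ?_, ?_⟩
  · rw [maninDen, ← prod_X_sub_C_eq, hD]
  · have h1 := natDegree_maninNum K hF a₂ a₄ a₆
    rw [hN, hG.natDegree_mul hN'monic, hGdeg] at h1
    have h2 : ∑ c : F, (2 - sqCount (eval c (cubic a₂ a₄ a₆))) + affCount a₂ a₄ a₆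
        = 2 * Fintype.card F := by
      unfold affCount
      rw [← Finset.sum_add_distrib,
        Finset.sum_congr rfl (fun c _ => Nat.sub_add_cancel (sqCount_le_two hF _))]
      simp [mul_comm]
    omega
  · rw [hD'deg]
    unfold affCount
    refine Finset.sum_congr rfl fun c _ => ?_
    have := sqCount_le_two hF (eval c (cubic a₂ a₄ a₆))
    omega

/-! ### The count as a number of points -/

theorem affCount_eq_card (a₂ a₄ a₆ : F) :
    affCount a₂ a₄ a₆
      = Nat.card {p : F × F // p.2 ^ 2 = p.1 ^ 3 + a₂ * p.1 ^ 2 + a₄ * p.1 + a₆} := by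
  unfold affCount sqCount
  rw [← Nat.card_sigma]
  apply Nat.card_congr
  refine Equiv.trans (Equiv.subtypeProdEquivSigmaSubtype
    (fun (x y : F) => y ^ 2 = eval x (cubic a₂ a₄ a₆))).symm ?_
  refine Equiv.subtypeEquivRight ?_
  intro p
  simp [cubic]

omit [Fintype F] in
/-- Simple roots at rational points from the discriminant. -/
theorem cubic_sep_of_Δ_ne_zero (W : WeierstrassCurve F) (h1 : W.a₁ = 0) (h3 : W.a₃ = 0)
    (hΔ : W.Δ ≠ 0) (c : F) (h0 : eval c (cubic W.a₂ W.a₄ W.a₆) = 0) :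
    eval c (derivative (cubic W.a₂ W.a₄ W.a₆)) ≠ 0 := by
  intro hd
  have e0 : c ^ 3 + W.a₂ * c ^ 2 + W.a₄ * c + W.a₆ = 0 := by
    have := h0
    simp [cubic] at this
    linear_combination this
  have e1 : 3 * c ^ 2 + 2 * W.a₂ * c + W.a₄ = 0 := by
    have := hd
    simp [cubic] at this
    linear_combination this
  apply hΔ
  have ha₄ : W.a₄ = -(3 * c ^ 2 + 2 * W.a₂ * c) := by linear_combination e1
  have ha₆ : W.a₆ = -(c ^ 3 + W.a₂ * c ^ 2 + W.a₄ * c) := by linear_combination e0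
  simp only [WeierstrassCurve.Δ, WeierstrassCurve.b₂, WeierstrassCurve.b₄, WeierstrassCurve.b₆,
    WeierstrassCurve.b₈, h1, h3]
  rw [ha₆, ha₄]
  ring

/-- The number of points of `y^2 = x^3 + a₂ x^2 + a₄ x + a₆` (with the point at infinity). -/
theorem card_point_eq (W : WeierstrassCurve F) (h1 : W.a₁ = 0) (h3 : W.a₃ = 0) (hΔ : W.Δ ≠ 0) :
    Nat.card W.toAffine.Point = affCount W.a₂ W.a₄ W.a₆ + 1 := by
  rw [affCount_eq_card, Nat.card_congr W.toAffine.nonsingularPointEquiv]
  rw [show Nat.card (WithZero {xy : F × F // W.toAffine.Nonsingular xy.1 xy.2})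
    = Nat.card (Option {xy : F × F // W.toAffine.Nonsingular xy.1 xy.2}) from rfl,
    Finite.card_option]
  congr 1
  apply Nat.card_congr
  apply Equiv.subtypeEquivRight
  rintro ⟨x, y⟩
  rw [← WeierstrassCurve.Affine.equation_iff_nonsingular_of_Δ_ne_zero hΔ,
    WeierstrassCurve.Affine.equation_iff]
  simp [h1, h3]

end Manin

/-! ## Rational function form -/

section RatFuncForm

theorem ratFunc_num_denom_of_isCoprime {K : Type*} [Field K] {N D G N' D' : K[X]}
    (hN : N = G * N') (hD : D = G * D') (hG : G ≠ 0) (hcop : IsCoprime N' D') (hD' : D'.Monic) :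
    (algebraMap K[X] (RatFunc K) N / algebraMap K[X] (RatFunc K) D).num = N' ∧
      (algebraMap K[X] (RatFunc K) N / algebraMap K[X] (RatFunc K) D).denom = D' := by
  set r : RatFunc K := algebraMap K[X] (RatFunc K) N / algebraMap K[X] (RatFunc K) D with hr
  have hGne : algebraMap K[X] (RatFunc K) G ≠ 0 := RatFunc.algebraMap_ne_zero hG
  have hr' : r = algebraMap K[X] (RatFunc K) N' / algebraMap K[X] (RatFunc K) D' := by
    rw [hr, hN, hD, map_mul, map_mul, mul_div_mul_left _ _ hGne]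
  have h := (RatFunc.num_mul_eq_mul_denom_iff hD'.ne_zero).mpr hr'
  have hc := RatFunc.isCoprime_num_denom r
  have h1 : r.denom ∣ D' := by
    apply hc.symm.dvd_of_dvd_mul_left
    rw [h]; exact dvd_mul_left _ _
  have h2 : D' ∣ r.denom := by
    apply hcop.symm.dvd_of_dvd_mul_left
    rw [← h]; exact dvd_mul_left _ _
  have hden : r.denom = D' :=
    eq_of_monic_of_associated (RatFunc.monic_denom r) hD' (associated_of_dvd_dvd h1 h2)
  refine ⟨?_, hden⟩
  rw [hden] at h
  exact mul_right_cancel₀ hD'.ne_zero h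

variable {F : Type*} [Field F] [Fintype F] (K : Type*) [Field K] [Algebra F K]

/-- **Manin's count**, `RatFunc` form: numerator and denominator degrees of
`maninNum / maninDen`. -/
theorem manin_count_ratFunc (hF : ringChar F ≠ 2) (a₂ a₄ a₆ : F)
    (hsep : ∀ c : F, eval c (cubic a₂ a₄ a₆) = 0 → eval c (derivative (cubic a₂ a₄ a₆)) ≠ 0) :
    (algebraMap K[X] (RatFunc K) (maninNum K a₂ a₄ a₆)
        / algebraMap K[X] (RatFunc K) (maninDen F K)).num.natDegree = affCount a₂ a₄ a₆ + 1 ∧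
    (algebraMap K[X] (RatFunc K) (maninNum K a₂ a₄ a₆)
        / algebraMap K[X] (RatFunc K) (maninDen F K)).denom.natDegree = affCount a₂ a₄ a₆ := by
  obtain ⟨G, N', D', hN, hD, hcop, hG, hN', hD', hdN, hdD⟩ := manin_count K hF a₂ a₄ a₆ hsep
  obtain ⟨h1, h2⟩ := ratFunc_num_denom_of_isCoprime hN hD hG.ne_zero hcop hD'
  rw [h1, h2]
  exact ⟨hdN, hdD⟩

/-- The `x`-coordinate of `G - Frob G` as a rational function in `t`. -/
noncomputable def maninX (a₂ a₄ a₆ : F) : RatFunc K :=
  let t : RatFunc K := RatFunc.X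
  let lam : RatFunc K := t ^ 3 + RatFunc.C (algebraMap F K a₂) * t ^ 2
    + RatFunc.C (algebraMap F K a₄) * t + RatFunc.C (algebraMap F K a₆)
  lam * (lam ^ (Fintype.card F / 2) + 1) ^ 2 / (t ^ Fintype.card F - t) ^ 2
    - (t ^ Fintype.card F + t + RatFunc.C (algebraMap F K a₂))

theorem maninX_eq (a₂ a₄ a₆ : F) :
    maninX K a₂ a₄ a₆ = algebraMap K[X] (RatFunc K) (maninNum K a₂ a₄ a₆)
        / algebraMap K[X] (RatFunc K) (maninDen F K) := by
  have hne : (algebraMap K[X] (RatFunc K) (X ^ Fintype.card F - X : K[X])) ≠ 0 :=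
    RatFunc.algebraMap_ne_zero (FiniteField.X_pow_card_sub_X_ne_zero K Fintype.one_lt_card)
  have hne' : ((RatFunc.X : RatFunc K) ^ Fintype.card F - RatFunc.X) ≠ 0 := by
    simpa [RatFunc.algebraMap_X] using hne
  unfold maninX maninNum maninDen
  rw [cubicK_eq]
  simp only [map_sub, map_mul, map_add, map_pow, map_one, RatFunc.algebraMap_X,
    RatFunc.algebraMap_C]
  field_simp

/-- **Manin's count** for the explicit rational function `maninX`. -/
theorem manin_count_maninX (hF : ringChar F ≠ 2) (a₂ a₄ a₆ : F)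
    (hsep : ∀ c : F, eval c (cubic a₂ a₄ a₆) = 0 → eval c (derivative (cubic a₂ a₄ a₆)) ≠ 0) :
    (maninX K a₂ a₄ a₆).num.natDegree = affCount a₂ a₄ a₆ + 1 ∧
    (maninX K a₂ a₄ a₆).denom.natDegree = affCount a₂ a₄ a₆ := by
  rw [maninX_eq]
  exact manin_count_ratFunc K hF a₂ a₄ a₆ hsep

/-- **Manin's count**, Weierstrass form: the height of `x(G - Frob G)` is the number of points. -/
theorem manin_count_weierstrass (hF : ringChar F ≠ 2) (W : WeierstrassCurve F) (h1 : W.a₁ = 0)
    (h3 : W.a₃ = 0) (hΔ : W.Δ ≠ 0) :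
    (maninX K W.a₂ W.a₄ W.a₆).num.natDegree = Nat.card W.toAffine.Point ∧
    (maninX K W.a₂ W.a₄ W.a₆).denom.natDegree + 1 = Nat.card W.toAffine.Point := by
  obtain ⟨hn, hd⟩ := manin_count_maninX K hF W.a₂ W.a₄ W.a₆ (cubic_sep_of_Δ_ne_zero W h1 h3 hΔ)
  rw [card_point_eq W h1 h3 hΔ, hn, hd]
  exact ⟨rfl, rfl⟩

end RatFuncForm

end Fermat.Agent.S52.helper6056
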