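import Mathlib

/-!
# S52 / L1 (Frobenius Cayley–Hamilton over finite fields, Manin's method): interface file

Blueprint: findings row of helper8821 (stmt S52, kind claim).  This file only contains the height
function on rational functions and three Prop-valued leaf statements (`Stmt_AddSub`, `Stmt_HtAlgHom`,
`Stmt_Count`), so that leaves can be proved independently (hypothesis-passing style).
-/

open Polynomial

namespace Fermat.Agent.S52.helper8821

/-- The height (= degree as a map of the projective line) of a rational function. -/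
noncomputable def ht {K : Type*} [Field K] (r : RatFunc K) : ℕ :=
  max r.num.natDegree r.denom.natDegree

/-- LEAF (AddSub): Mathlib's `addSubMap` really computes `x(P+Q)x(P-Q) : x(P+Q)+x(P-Q) : 1`,
including all degenerate cases (this is the TODO of `Mathlib/AlgebraicGeometry/EllipticCurve/Affine/AddSubMap`). -/
def Stmt_AddSub : Prop :=
  ∀ (F : Type) [Field F] [DecidableEq F] (W : WeierstrassCurve.Affine F) (P Q : W.Point),
    ∃ c : F, c ≠ 0 ∧ ∀ i : Fin 3,
      (P + Q).sym2x (P - Q) i = c * MvPolynomial.eval (P.sym2x Q) (WeierstrassCurve.addSubMap W i)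

/-- LEAF (HtAlgHom): the height is multiplicative under composition of rational functions. -/
def Stmt_HtAlgHom : Prop :=
  ∀ (K : Type) [Field K] (φ : RatFunc K →ₐ[K] RatFunc K) (g : RatFunc K),
    ht (φ g) = ht g * ht (φ RatFunc.X)

/-- LEAF (Count): Manin's count.  `k` a finite field of odd characteristic, `lam` a monic cubic all of
whose roots in `k` are simple; then the rational function
`lam * (1 + lam^((q-1)/2))^2 / (X^q - X)^2 - (B + X + X^q)` (the x-coordinate of `G - Frob G`)
has a reduced representation `p / d` with `max (deg p) (deg d) = 1 + #{(x,y) ∈ k² | y² = lam(x)}`. -/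
def Stmt_Count : Prop :=
  ∀ (k : Type) [Field k] [Fintype k], ringChar k ≠ 2 → ∀ (B c₁ c₀ : k),
    (∀ c : k, (X ^ 3 + C B * X ^ 2 + C c₁ * X + C c₀ : k[X]).eval c = 0 →
      (X ^ 3 + C B * X ^ 2 + C c₁ * X + C c₀ : k[X]).derivative.eval c ≠ 0) →
    ∃ p d : k[X], IsCoprime p d ∧ d ≠ 0 ∧
      p * (X ^ Fintype.card k - X) ^ 2 =
        ((X ^ 3 + C B * X ^ 2 + C c₁ * X + C c₀) *
            (1 + (X ^ 3 + C B * X ^ 2 + C c₁ * X + C c₀) ^ ((Fintype.card k - 1) / 2)) ^ 2 -
          (C B + X + X ^ Fintype.card k) * (X ^ Fintype.card k - X) ^ 2) * d ∧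
      max p.natDegree d.natDegree =
        1 + Nat.card {xy : k × k // xy.2 ^ 2 = (X ^ 3 + C B * X ^ 2 + C c₁ * X + C c₀ : k[X]).eval xy.1}

end Fermat.Agent.S52.helper8821
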