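/-
S52 / L1: the leaf `Stmt_Count` of `helper8821_L1Spec`, proved from `helper6056_ManinCount`.
-/
import Fermat.Agent.S52.helper6056_ManinCount
import Fermat.Agent.S52.helper8821_L1Spec

set_option autoImplicit false

namespace Fermat.Agent.S52.helper6056

open Polynomial

/-- The leaf `Stmt_Count` (Manin's count) of the L1 interface file of helper8821. -/
theorem stmt_Count : Fermat.Agent.S52.helper8821.Stmt_Count := by
  intro k _ _ hF B c₁ c₀ hsep
  obtain ⟨G, N', D', hN, hD, hcop, hG, hN', hD', hdN, hdD⟩ :=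
    manin_count k hF B c₁ c₀ hsep
  have hhalf : (Fintype.card k - 1) / 2 = Fintype.card k / 2 := by
    have := FiniteField.odd_card_of_char_ne_two hF
    omega
  have hcub : cubicK k B c₁ c₀ = X ^ 3 + C B * X ^ 2 + C c₁ * X + C c₀ := by
    rw [cubicK_eq]; simp
  refine ⟨N', D', hcop, hD'.ne_zero, ?_, ?_⟩
  · have hN2 : maninNum k B c₁ c₀ = (X ^ 3 + C B * X ^ 2 + C c₁ * X + C c₀) *
            (1 + (X ^ 3 + C B * X ^ 2 + C c₁ * X + C c₀) ^ ((Fintype.card k - 1) / 2)) ^ 2 -
          (C B + X + X ^ Fintype.card k) * (X ^ Fintype.card k - X) ^ 2 := by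
      unfold maninNum
      rw [hcub, hhalf]
      simp only [Algebra.algebraMap_self, RingHom.id_apply]
      ring
    have hD2 : maninDen k k = (X ^ Fintype.card k - X) ^ 2 := rfl
    rw [← hN2, ← hD2, hN, hD]
    ring
  · rw [hdN, hdD, affCount_eq_card]
    have : max (Nat.card {p : k × k // p.2 ^ 2 = p.1 ^ 3 + B * p.1 ^ 2 + c₁ * p.1 + c₀} + 1)
        (Nat.card {p : k × k // p.2 ^ 2 = p.1 ^ 3 + B * p.1 ^ 2 + c₁ * p.1 + c₀})
        = 1 + Nat.card {p : k × k // p.2 ^ 2 = p.1 ^ 3 + B * p.1 ^ 2 + c₁ * p.1 + c₀} := by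
      rw [max_eq_left (Nat.le_succ _), add_comm]
    rw [this]
    congr 1
    apply Nat.card_congr
    apply Equiv.subtypeEquivRight
    intro p
    simp

end Fermat.Agent.S52.helper6056
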