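/-
S52 helper (helper8316): FIXROOT core, field-generic and elementary.

Setting: `K` a field with `30 ≠ 0`, `z` a primitive 5th root of unity (`z^4+z^3+z^2+z+1 = 0`),
Klein's forms `kF, kH, kT` and the universal 5-torsion point `(kX, kY)` on
`y^2 = x^3 + 27 H x + 54 T` (normalisation of findings #1745), `S w = (v, -u)`,
Klein's matrix `(klU, klV)`.

Main results.
* `recover_pq` / `recover_uv` : `(u^5, v^5)` is determined by `H(w), X(w), X(S w), Y(w)`
  when `f(w) ≠ 0` (an explicit inversion, replacing a certificate "(F5)").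
* `scalar_of_fixed` : a ring endomorphism `σ` fixing `z` and the values of `H, X, X∘S, Y`
  at `w0` and at `Kl w0` satisfies `σ w0 = lam • w0` with `lam^5 = 1`.
* `exists_theta` : for a pencil `a + t b` (`det[a,b] ≠ 0`) there is a parameter `θ` with
  `a + θ b` proportional to `(±i, 1)` (a zero of `kT`), and `σ θ = θ` for every ring
  endomorphism `σ` fixing `i` and scaling `a`, `b` by a common nonzero factor.
-/
import Mathlib

set_option autoImplicit false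

namespace Fermat.Agent.S52.helper8316

variable {K : Type*} [Field K]

/-- Klein's icosahedral form `f` (degree 12). -/
def kF (u v : K) : K := u * v * (u ^ 10 + 11 * u ^ 5 * v ^ 5 - v ^ 10)

/-- Klein's form `H` (degree 20). -/
def kH (u v : K) : K :=
  -(u ^ 20 + v ^ 20) + 228 * (u ^ 15 * v ^ 5 - u ^ 5 * v ^ 15) - 494 * u ^ 10 * v ^ 10

/-- Klein's form `T` (degree 30). -/
def kT (u v : K) : K :=
  u ^ 30 + v ^ 30 + 522 * (u ^ 25 * v ^ 5 - u ^ 5 * v ^ 25)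
    - 10005 * (u ^ 20 * v ^ 10 + u ^ 10 * v ^ 20)

/-- `√5` in terms of a primitive 5th root of unity `z`. -/
def rt5 (z : K) : K := z + z ^ 4 - z ^ 2 - z ^ 3

/-- The `x`-coordinate of the universal 5-torsion point. -/
def kX (z u v : K) : K :=
  -15 * (u ^ 10 + v ^ 10) + 18 / 5 * rt5 z * (u ^ 10 + 11 * u ^ 5 * v ^ 5 - v ^ 10)

/-- The `y`-coordinate of the universal 5-torsion point. -/
def kY (z u v : K) : K :=
  108 / 5 * ((-1 - 2 * z + z ^ 2 - 3 * z ^ 3) * u ^ 15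
    + (-9 - 18 * z + 14 * z ^ 2 - 32 * z ^ 3) * u ^ 10 * v ^ 5
    + (23 + 46 * z + 32 * z ^ 2 + 14 * z ^ 3) * u ^ 5 * v ^ 10
    + (-2 - 4 * z - 3 * z ^ 2 - z ^ 3) * v ^ 15)

/-- First coordinate of Klein's matrix applied to `(u, v)`. -/
def klU (z u v : K) : K := (-(z - z ^ 4) * u + (z ^ 2 - z ^ 3) * v) / rt5 z

/-- Second coordinate of Klein's matrix applied to `(u, v)`. -/
def klV (z u v : K) : K := ((z ^ 2 - z ^ 3) * u + (z - z ^ 4) * v) / rt5 z

section Basic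

variable {z : K}

theorem rt5_sq (hz : z ^ 4 + z ^ 3 + z ^ 2 + z + 1 = 0) : rt5 z ^ 2 = 5 := by
  unfold rt5
  linear_combination (-5 + 5 * z + z ^ 2 - 3 * z ^ 3 + z ^ 4) * hz

theorem z_pow_five (hz : z ^ 4 + z ^ 3 + z ^ 2 + z + 1 = 0) : z ^ 5 = 1 := by
  linear_combination (z - 1) * hz

theorem al_sq_add_be_sq (hz : z ^ 4 + z ^ 3 + z ^ 2 + z + 1 = 0) :
    (z - z ^ 4) ^ 2 + (z ^ 2 - z ^ 3) ^ 2 = -5 := by
  linear_combination (5 - 5 * z + z ^ 2 - z ^ 3 + z ^ 4) * hz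

theorem al_sq_mul_be_sq (hz : z ^ 4 + z ^ 3 + z ^ 2 + z + 1 = 0) :
    (z - z ^ 4) ^ 2 * (z ^ 2 - z ^ 3) ^ 2 = 5 := by
  linear_combination
    (-5 + 5 * z - 5 * z ^ 5 + 6 * z ^ 6 - 3 * z ^ 7 + 3 * z ^ 8 - 3 * z ^ 9 + z ^ 10) * hz

theorem two_ne_zero_of_thirty (h30 : (30 : K) ≠ 0) : (2 : K) ≠ 0 := by
  intro h; apply h30; linear_combination 15 * h

theorem three_ne_zero_of_thirty (h30 : (30 : K) ≠ 0) : (3 : K) ≠ 0 := by
  intro h; apply h30; linear_combination 10 * h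

theorem five_ne_zero_of_thirty (h30 : (30 : K) ≠ 0) : (5 : K) ≠ 0 := by
  intro h; apply h30; linear_combination 6 * h

theorem rt5_ne_zero (hz : z ^ 4 + z ^ 3 + z ^ 2 + z + 1 = 0) (h30 : (30 : K) ≠ 0) :
    rt5 z ≠ 0 := by
  intro h
  have h5 := five_ne_zero_of_thirty h30
  apply h5
  rw [← rt5_sq hz, h]; ring

/-- A fifth root of unity is a power of `z`. -/
theorem fifth_root_cases (hz : z ^ 4 + z ^ 3 + z ^ 2 + z + 1 = 0) (x : K) (hx : x ^ 5 = 1) :
    x = 1 ∨ x = z ∨ x = z ^ 2 ∨ x = z ^ 3 ∨ x = z ^ 4 := by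
  have h : (x - 1) * (x - z) * (x - z ^ 2) * (x - z ^ 3) * (x - z ^ 4) = 0 := by
    linear_combination hx + (1 + x * z ^ 6 - x ^ 2 * z ^ 3 - x ^ 2 * z ^ 5 + x ^ 3 * z
      + x ^ 3 * z ^ 3 - x ^ 4 - z + z ^ 5 - z ^ 6) * hz
  rcases mul_eq_zero.mp h with h | h
  · rcases mul_eq_zero.mp h with h | h
    · rcases mul_eq_zero.mp h with h | h
      · rcases mul_eq_zero.mp h with h | h
        · exact Or.inl (sub_eq_zero.mp h)
        · exact Or.inr (Or.inl (sub_eq_zero.mp h))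
      · exact Or.inr (Or.inr (Or.inl (sub_eq_zero.mp h)))
    · exact Or.inr (Or.inr (Or.inr (Or.inl (sub_eq_zero.mp h))))
  · exact Or.inr (Or.inr (Or.inr (Or.inr (sub_eq_zero.mp h))))

/-- For a fifth root of unity `x`, `(x-1)^2` is `0`, `α² x` or `β² x`. -/
theorem sq_cases (hz : z ^ 4 + z ^ 3 + z ^ 2 + z + 1 = 0) (x : K) (hx : x ^ 5 = 1) :
    x = 1 ∨ (x - 1) ^ 2 = (z - z ^ 4) ^ 2 * x ∨ (x - 1) ^ 2 = (z ^ 2 - z ^ 3) ^ 2 * x := by
  rcases fifth_root_cases hz x hx with h | h | h | h | h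
  · exact Or.inl h
  · right; right; rw [h]
    linear_combination (1 - 3 * z + 3 * z ^ 2 - z ^ 3) * hz
  · right; left; rw [h]
    linear_combination (1 - z - 2 * z ^ 2 + 2 * z ^ 3 + z ^ 5 - z ^ 6) * hz
  · right; left; rw [h]
    linear_combination (1 - z - 2 * z ^ 3 + 2 * z ^ 4 + z ^ 6 - z ^ 7) * hz
  · right; right; rw [h]
    linear_combination (1 - z - 2 * z ^ 4 + 3 * z ^ 5 - z ^ 6) * hz

/-- For fifth roots of unity `a, b`: `(a-b)^2` is `0`, `α² a b` or `β² a b`. -/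
theorem sq_cases' (hz : z ^ 4 + z ^ 3 + z ^ 2 + z + 1 = 0) (a b : K) (ha : a ^ 5 = 1)
    (hb : b ^ 5 = 1) :
    a = b ∨ (a - b) ^ 2 = (z - z ^ 4) ^ 2 * (a * b) ∨
      (a - b) ^ 2 = (z ^ 2 - z ^ 3) ^ 2 * (a * b) := by
  have hb0 : b ≠ 0 := by
    intro h; rw [h] at hb; norm_num at hb
  have hx : (a / b) ^ 5 = 1 := by rw [div_pow, ha, hb]; norm_num
  rcases sq_cases hz (a / b) hx with h | h | h
  · left; field_simp at h; exact h
  · right; left
    have : (a / b - 1) ^ 2 * b ^ 2 = (z - z ^ 4) ^ 2 * (a / b) * b ^ 2 := by rw [h]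
    field_simp at this
    linear_combination this
  · right; right
    have : (a / b - 1) ^ 2 * b ^ 2 = (z ^ 2 - z ^ 3) ^ 2 * (a / b) * b ^ 2 := by rw [h]
    field_simp at this
    linear_combination this

/-- The scalar lemma: the "trace equation" for three fifth roots of unity forces equality. -/
theorem eq_of_trace_eq (hz : z ^ 4 + z ^ 3 + z ^ 2 + z + 1 = 0) (h30 : (30 : K) ≠ 0)
    (e1 e2 e3 : K) (h1 : e1 ^ 5 = 1) (h2 : e2 ^ 5 = 1) (h3 : e3 ^ 5 = 1)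
    (h : (z - z ^ 4) ^ 2 * e2 * (e1 - e3) ^ 2 + (z ^ 2 - z ^ 3) ^ 2 * e1 * (e3 - e2) ^ 2 = 0) :
    e1 = e3 ∧ e3 = e2 := by
  have hs := al_sq_add_be_sq hz
  have hp := al_sq_mul_be_sq hz
  have k2 := two_ne_zero_of_thirty h30
  have k5 := five_ne_zero_of_thirty h30
  have d1 := sq_cases' hz e1 e3 h1 h3
  have d2 := sq_cases' hz e3 e2 h3 h2
  generalize (z - z ^ 4) ^ 2 = A at *
  generalize (z ^ 2 - z ^ 3) ^ 2 = B at *
  have hA0 : A ≠ 0 := by
    intro h0; apply k5; rw [← hp, h0]; ring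
  have hB0 : B ≠ 0 := by
    intro h0; apply k5; rw [← hp, h0]; ring
  have he1 : e1 ≠ 0 := by intro h0; rw [h0] at h1; norm_num at h1
  have he2 : e2 ≠ 0 := by intro h0; rw [h0] at h2; norm_num at h2
  have he3 : e3 ≠ 0 := by intro h0; rw [h0] at h3; norm_num at h3
  have hE : e1 * e2 * e3 ≠ 0 := mul_ne_zero (mul_ne_zero he1 he2) he3
  have key : ∀ C1 C2 : K, (e1 - e3) ^ 2 = C1 * (e1 * e3) → (e3 - e2) ^ 2 = C2 * (e3 * e2) →
      A * C1 + B * C2 = 0 := by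
    intro C1 C2 k1 k2
    have : e1 * e2 * e3 * (A * C1 + B * C2) = 0 := by
      linear_combination h - A * e2 * k1 - B * e1 * k2
    exact (mul_eq_zero.mp this).resolve_left hE
  have z1 : e1 = e3 → (e1 - e3) ^ 2 = 0 * (e1 * e3) := by intro h0; rw [h0]; ring
  have z2 : e3 = e2 → (e3 - e2) ^ 2 = 0 * (e3 * e2) := by intro h0; rw [h0]; ring
  have h15 : (15 : K) ≠ 0 := by intro h0; apply h30; linear_combination 2 * h0
  have h10 : (10 : K) ≠ 0 := by intro h0; apply h30; linear_combination 3 * h0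
  rcases d1 with c1 | c1 | c1 <;> rcases d2 with c2 | c2 | c2
  · exact ⟨c1, c2⟩
  · exfalso
    have := key 0 A (z1 c1) c2
    apply k5; linear_combination this - hp
  · exfalso
    have := key 0 B (z1 c1) c2
    have : B * B = 0 := by linear_combination this
    exact (mul_ne_zero hB0 hB0) this
  · exfalso
    have := key A 0 c1 (z2 c2)
    have : A * A = 0 := by linear_combination this
    exact (mul_ne_zero hA0 hA0) this
  · exfalso
    have := key A A c1 c2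
    have : A * (-5) = 0 := by linear_combination this - A * hs
    rcases mul_eq_zero.mp this with h0 | h0
    · exact hA0 h0
    · apply k5; linear_combination -h0
  · exfalso
    have := key A B c1 c2
    apply h15; linear_combination this - (A + B - 5) * hs + 2 * hp
  · exfalso
    have := key B 0 c1 (z2 c2)
    apply k5; linear_combination this - hp
  · exfalso
    have := key B A c1 c2
    apply h10; linear_combination this - 2 * hp
  · exfalso
    have := key B B c1 c2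
    have : B * (-5) = 0 := by linear_combination this - B * hs
    rcases mul_eq_zero.mp this with h0 | h0
    · exact hB0 h0
    · apply k5; linear_combination -h0

end Basic

section Recover

variable {z : K}

/-- The cubic form in `(p, q) = (u^5, v^5)` with `kY = 108/5 * yC`. -/
def yC (z p q : K) : K :=
  (-1 - 2 * z + z ^ 2 - 3 * z ^ 3) * p ^ 3 + (-9 - 18 * z + 14 * z ^ 2 - 32 * z ^ 3) * p ^ 2 * q
    + (23 + 46 * z + 32 * z ^ 2 + 14 * z ^ 3) * p * q ^ 2 + (-2 - 4 * z - 3 * z ^ 2 - z ^ 3) * q ^ 3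

/-- `yC` divides `5 (p^2 + 11 p q - q^2)^2`: the point `(kX, kY)` is 2-torsion only where
`f = 0`. -/
theorem yC_mul (hz : z ^ 4 + z ^ 3 + z ^ 2 + z + 1 = 0) (p q : K) :
    yC z p q * ((-4 - 8 * z - 7 * z ^ 2 - z ^ 3) * p + (3 + 6 * z - z ^ 2 + 7 * z ^ 3) * q)
      = 5 * (p ^ 2 + 11 * p * q - q ^ 2) ^ 2 := by
  unfold yC
  linear_combination (187 * p * q ^ 3 + 121 * p * q ^ 3 * z + 99 * p * q ^ 3 * z ^ 2
    - 714 * p ^ 2 * q ^ 2 + 238 * p ^ 2 * q ^ 2 * z - 238 * p ^ 2 * q ^ 2 * z ^ 2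
    - 77 * p ^ 3 * q + 209 * p ^ 3 * q * z + 11 * p ^ 3 * q * z ^ 2 - p ^ 4 + 17 * p ^ 4 * z
    + 3 * p ^ 4 * z ^ 2 - 11 * q ^ 4 - 13 * q ^ 4 * z - 7 * q ^ 4 * z ^ 2) * hz

theorem yC_neg (p q : K) : yC z (-p) (-q) = -yC z p q := by
  unfold yC; ring

/-- Explicit inversion: `(p, q)` is determined by the values of `5X`, `5X∘S`, `H` and `yC`,
as soon as `p q (p^2 + 11 p q - q^2) ≠ 0`. -/
theorem recover_pq (hz : z ^ 4 + z ^ 3 + z ^ 2 + z + 1 = 0) (h30 : (30 : K) ≠ 0)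
    (p q p' q' : K) (hs : p * q * (p ^ 2 + 11 * p * q - q ^ 2) ≠ 0)
    (hX : -75 * (p' ^ 2 + q' ^ 2) + 18 * rt5 z * (p' ^ 2 + 11 * p' * q' - q' ^ 2)
      = -75 * (p ^ 2 + q ^ 2) + 18 * rt5 z * (p ^ 2 + 11 * p * q - q ^ 2))
    (hXS : -75 * (p' ^ 2 + q' ^ 2) - 18 * rt5 z * (p' ^ 2 + 11 * p' * q' - q' ^ 2)
      = -75 * (p ^ 2 + q ^ 2) - 18 * rt5 z * (p ^ 2 + 11 * p * q - q ^ 2))
    (hH : -(p' ^ 4 + q' ^ 4) + 228 * (p' ^ 3 * q' - p' * q' ^ 3) - 494 * p' ^ 2 * q' ^ 2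
      = -(p ^ 4 + q ^ 4) + 228 * (p ^ 3 * q - p * q ^ 3) - 494 * p ^ 2 * q ^ 2)
    (hY : yC z p' q' = yC z p q) : p' = p ∧ q' = q := by
  have k2 := two_ne_zero_of_thirty h30
  have k3 := three_ne_zero_of_thirty h30
  have k5 := five_ne_zero_of_thirty h30
  have hr := rt5_ne_zero hz h30
  have hp0 : p ≠ 0 := fun h => hs (by rw [h]; ring)
  have hq0 : q ≠ 0 := fun h => hs (by rw [h]; ring)
  have hs2 : p ^ 2 + 11 * p * q - q ^ 2 ≠ 0 := fun h => hs (by rw [h]; ring)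
  have e1 : p' ^ 2 + q' ^ 2 = p ^ 2 + q ^ 2 := by
    have h150 : (150 : K) ≠ 0 := by
      intro h; apply h30
      have : (5 : K) * 30 = 0 := by linear_combination h
      exact (mul_eq_zero.mp this).resolve_left k5
    have : (150 : K) * ((p' ^ 2 + q' ^ 2) - (p ^ 2 + q ^ 2)) = 0 := by
      linear_combination (-1 : K) * hX - hXS
    have := (mul_eq_zero.mp this).resolve_left h150
    linear_combination this
  have e2 : p' ^ 2 + 11 * p' * q' - q' ^ 2 = p ^ 2 + 11 * p * q - q ^ 2 := by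
    have h36 : (36 : K) ≠ 0 := by
      intro h
      have : (2 : K) * 2 * (3 * 3) = 0 := by linear_combination h
      rcases mul_eq_zero.mp this with h | h
      · rcases mul_eq_zero.mp h with h | h <;> exact k2 h
      · rcases mul_eq_zero.mp h with h | h <;> exact k3 h
    have : (36 : K) * (rt5 z *
        ((p' ^ 2 + 11 * p' * q' - q' ^ 2) - (p ^ 2 + 11 * p * q - q ^ 2))) = 0 := by
      linear_combination hX - hXS
    have := (mul_eq_zero.mp ((mul_eq_zero.mp this).resolve_left h36)).resolve_left hr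
    linear_combination this
  have e3 : p' * q' = p * q := by
    have h300 : (300 : K) ≠ 0 := by
      intro h; apply h30
      have : (2 : K) * (5 * 30) = 0 := by linear_combination h
      exact (mul_eq_zero.mp ((mul_eq_zero.mp this).resolve_left k2)).resolve_left k5
    have : (300 : K) * ((p ^ 2 + 11 * p * q - q ^ 2) * (p' * q' - p * q)) = 0 := by
      linear_combination (-1 : K) * hH
        + (24 * (p' ^ 2 + 11 * p' * q' - q' ^ 2 + (p ^ 2 + 11 * p * q - q ^ 2))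
            - 300 * (p' * q')) * e2
        - 25 * (p' ^ 2 + q' ^ 2 + (p ^ 2 + q ^ 2)) * e1
    have := (mul_eq_zero.mp ((mul_eq_zero.mp this).resolve_left h300)).resolve_left hs2
    linear_combination this
  have e4 : p' ^ 2 = p ^ 2 := by
    have : (2 : K) * (p' ^ 2 - p ^ 2) = 0 := by linear_combination e1 + e2 - 11 * e3
    have := (mul_eq_zero.mp this).resolve_left k2
    linear_combination this
  have e5 : (p' - p) * (p' + p) = 0 := by linear_combination e4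
  rcases mul_eq_zero.mp e5 with h | h
  · have hp : p' = p := by linear_combination h
    refine ⟨hp, ?_⟩
    have : p * (q' - q) = 0 := by rw [hp] at e3; linear_combination e3
    have := (mul_eq_zero.mp this).resolve_left hp0
    linear_combination this
  · exfalso
    have hp : p' = -p := by linear_combination h
    have hq : q' = -q := by
      have : p * (q' + q) = 0 := by rw [hp] at e3; linear_combination (-1 : K) * e3
      have := (mul_eq_zero.mp this).resolve_left hp0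
      linear_combination this
    rw [hp, hq, yC_neg] at hY
    have hY0 : yC z p q = 0 := by
      have : (2 : K) * yC z p q = 0 := by linear_combination (-1 : K) * hY
      exact (mul_eq_zero.mp this).resolve_left k2
    have := yC_mul hz p q
    rw [hY0, zero_mul] at this
    have := (mul_eq_zero.mp this.symm).resolve_left k5
    exact hs2 ((pow_eq_zero_iff (two_ne_zero)).mp this)

theorem kX_five (h5 : (5 : K) ≠ 0) (u v : K) :
    5 * kX z u v = -75 * ((u ^ 5) ^ 2 + (v ^ 5) ^ 2)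
      + 18 * rt5 z * ((u ^ 5) ^ 2 + 11 * u ^ 5 * v ^ 5 - (v ^ 5) ^ 2) := by
  unfold kX; field_simp; ring

theorem kX_swap_five (h5 : (5 : K) ≠ 0) (u v : K) :
    5 * kX z v (-u) = -75 * ((u ^ 5) ^ 2 + (v ^ 5) ^ 2)
      - 18 * rt5 z * ((u ^ 5) ^ 2 + 11 * u ^ 5 * v ^ 5 - (v ^ 5) ^ 2) := by
  unfold kX; field_simp; ring

theorem kH_pq (u v : K) :
    kH u v = -((u ^ 5) ^ 4 + (v ^ 5) ^ 4) + 228 * ((u ^ 5) ^ 3 * v ^ 5 - u ^ 5 * (v ^ 5) ^ 3)
      - 494 * (u ^ 5) ^ 2 * (v ^ 5) ^ 2 := by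
  unfold kH; ring

theorem kY_pq (u v : K) : kY z u v = 108 / 5 * yC z (u ^ 5) (v ^ 5) := by
  unfold kY yC; ring

theorem kF_pq (u v : K) :
    u ^ 5 * v ^ 5 * ((u ^ 5) ^ 2 + 11 * u ^ 5 * v ^ 5 - (v ^ 5) ^ 2) = (u * v) ^ 4 * kF u v := by
  unfold kF; ring

/-- `(u^5, v^5)` is determined by `H(w), X(w), X(S w), Y(w)` when `f(w) ≠ 0`. -/
theorem recover_uv (hz : z ^ 4 + z ^ 3 + z ^ 2 + z + 1 = 0) (h30 : (30 : K) ≠ 0)
    (u v u' v' : K) (hf : kF u v ≠ 0) (hH : kH u' v' = kH u v) (hX : kX z u' v' = kX z u v)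
    (hXS : kX z v' (-u') = kX z v (-u)) (hY : kY z u' v' = kY z u v) :
    u' ^ 5 = u ^ 5 ∧ v' ^ 5 = v ^ 5 := by
  have k2 := two_ne_zero_of_thirty h30
  have k3 := three_ne_zero_of_thirty h30
  have k5 := five_ne_zero_of_thirty h30
  have hu : u ≠ 0 := fun h => hf (by rw [h]; unfold kF; ring)
  have hv : v ≠ 0 := fun h => hf (by rw [h]; unfold kF; ring)
  refine recover_pq hz h30 (u ^ 5) (v ^ 5) (u' ^ 5) (v' ^ 5) ?_ ?_ ?_ ?_ ?_
  · rw [kF_pq]
    exact mul_ne_zero (pow_ne_zero 4 (mul_ne_zero hu hv)) hf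
  · rw [← kX_five k5, ← kX_five k5, hX]
  · rw [← kX_swap_five k5, ← kX_swap_five k5, hXS]
  · rw [← kH_pq, ← kH_pq, hH]
  · rw [kY_pq, kY_pq] at hY
    have h108 : (108 / 5 : K) ≠ 0 := by
      apply div_ne_zero _ k5
      intro h
      have : (2 : K) * 2 * (3 * 3 * 3) = 0 := by linear_combination h
      rcases mul_eq_zero.mp this with h | h
      · rcases mul_eq_zero.mp h with h | h <;> exact k2 h
      · rcases mul_eq_zero.mp h with h | h
        · rcases mul_eq_zero.mp h with h | h <;> exact k3 h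
        · exact k3 h
    exact mul_left_cancel₀ h108 hY

end Recover

section Sigma

variable {z : K}

theorem map_kF (σ : K →+* K) (u v : K) : σ (kF u v) = kF (σ u) (σ v) := by
  simp only [kF, map_add, map_sub, map_mul, map_pow, map_ofNat]

theorem map_kH (σ : K →+* K) (u v : K) : σ (kH u v) = kH (σ u) (σ v) := by
  simp only [kH, map_add, map_sub, map_mul, map_neg, map_pow, map_ofNat]

theorem map_kT (σ : K →+* K) (u v : K) : σ (kT u v) = kT (σ u) (σ v) := by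
  simp only [kT, map_add, map_sub, map_mul, map_pow, map_ofNat]

theorem map_kX (σ : K →+* K) (hσz : σ z = z) (u v : K) : σ (kX z u v) = kX z (σ u) (σ v) := by
  simp only [kX, rt5, map_add, map_sub, map_mul, map_neg, map_pow, map_div₀, map_ofNat, hσz]

theorem map_kY (σ : K →+* K) (hσz : σ z = z) (u v : K) : σ (kY z u v) = kY z (σ u) (σ v) := by
  simp only [kY, map_add, map_sub, map_mul, map_neg, map_pow, map_div₀, map_ofNat, map_one, hσz]

theorem map_klU (σ : K →+* K) (hσz : σ z = z) (u v : K) :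
    σ (klU z u v) = klU z (σ u) (σ v) := by
  simp only [klU, rt5, map_add, map_sub, map_mul, map_neg, map_pow, map_div₀, hσz]

theorem map_klV (σ : K →+* K) (hσz : σ z = z) (u v : K) :
    σ (klV z u v) = klV z (σ u) (σ v) := by
  simp only [klV, rt5, map_add, map_sub, map_mul, map_pow, map_div₀, hσz]

theorem kF_smul (e1 e2 u v : K) (h1 : e1 ^ 5 = 1) (h2 : e2 ^ 5 = 1) :
    kF (e1 * u) (e2 * v) = e1 * e2 * kF u v := by
  unfold kF
  linear_combination (e1 * u * e2 * v * (u ^ 10 * (e1 ^ 5 + 1) + 11 * u ^ 5 * v ^ 5 * e2 ^ 5)) * h1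
    + (e1 * u * e2 * v * (11 * u ^ 5 * v ^ 5 - v ^ 10 * (e2 ^ 5 + 1))) * h2

theorem klU_mul (hr : rt5 z ≠ 0) (u v : K) :
    klU z u v * rt5 z = -(z - z ^ 4) * u + (z ^ 2 - z ^ 3) * v := by
  unfold klU; exact div_mul_cancel₀ _ hr

theorem klV_mul (hr : rt5 z ≠ 0) (u v : K) :
    klV z u v * rt5 z = (z ^ 2 - z ^ 3) * u + (z - z ^ 4) * v := by
  unfold klV; exact div_mul_cancel₀ _ hr

theorem exists_root_of_pow_five {a b : K} (hb : b ≠ 0) (h : a ^ 5 = b ^ 5) :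
    ∃ e : K, e ^ 5 = 1 ∧ a = e * b :=
  ⟨a / b, by rw [div_pow, h, div_self (pow_ne_zero 5 hb)], by rw [div_mul_cancel₀ _ hb]⟩

/-- **Scalar lemma.** A ring endomorphism `σ` fixing `z` and the values of `H, X, X∘S, Y` at
`w0 = (u0, v0)` and at `Kl w0` multiplies `w0` by a fifth root of unity. -/
theorem scalar_of_fixed (hz : z ^ 4 + z ^ 3 + z ^ 2 + z + 1 = 0) (h30 : (30 : K) ≠ 0)
    (σ : K →+* K) (hσz : σ z = z) (u0 v0 : K) (hf : kF u0 v0 ≠ 0)
    (hfK : kF (klU z u0 v0) (klV z u0 v0) = kF u0 v0)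
    (hH : σ (kH u0 v0) = kH u0 v0) (hX : σ (kX z u0 v0) = kX z u0 v0)
    (hXS : σ (kX z v0 (-u0)) = kX z v0 (-u0)) (hY : σ (kY z u0 v0) = kY z u0 v0)
    (hH1 : σ (kH (klU z u0 v0) (klV z u0 v0)) = kH (klU z u0 v0) (klV z u0 v0))
    (hX1 : σ (kX z (klU z u0 v0) (klV z u0 v0)) = kX z (klU z u0 v0) (klV z u0 v0))
    (hXS1 : σ (kX z (klV z u0 v0) (-klU z u0 v0)) = kX z (klV z u0 v0) (-klU z u0 v0))
    (hY1 : σ (kY z (klU z u0 v0) (klV z u0 v0)) = kY z (klU z u0 v0) (klV z u0 v0)) :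
    ∃ lam : K, lam ^ 5 = 1 ∧ σ u0 = lam * u0 ∧ σ v0 = lam * v0 := by
  have hr := rt5_ne_zero hz h30
  have hu0 : u0 ≠ 0 := fun h => hf (by rw [h]; unfold kF; ring)
  have hv0 : v0 ≠ 0 := fun h => hf (by rw [h]; unfold kF; ring)
  obtain ⟨hu5, hv5⟩ := recover_uv hz h30 u0 v0 (σ u0) (σ v0) hf
    (by rw [← map_kH, hH]) (by rw [← map_kX σ hσz, hX])
    (by rw [← map_neg, ← map_kX σ hσz, hXS]) (by rw [← map_kY σ hσz, hY])
  have kU := klU_mul hr u0 v0
  have kV := klV_mul hr u0 v0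
  have sU := map_klU σ hσz u0 v0
  have sV := map_klV σ hσz u0 v0
  generalize klU z u0 v0 = u1 at *
  generalize klV z u0 v0 = v1 at *
  have hf1 : kF u1 v1 ≠ 0 := by rw [hfK]; exact hf
  have hu1 : u1 ≠ 0 := fun h => hf1 (by rw [h]; unfold kF; ring)
  have hv1 : v1 ≠ 0 := fun h => hf1 (by rw [h]; unfold kF; ring)
  obtain ⟨hu15, hv15⟩ := recover_uv hz h30 u1 v1 (σ u1) (σ v1) hf1
    (by rw [← map_kH, hH1]) (by rw [← map_kX σ hσz, hX1])
    (by rw [← map_neg, ← map_kX σ hσz, hXS1]) (by rw [← map_kY σ hσz, hY1])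
  obtain ⟨e1, he1, hσu0⟩ := exists_root_of_pow_five hu0 hu5
  obtain ⟨e2, he2, hσv0⟩ := exists_root_of_pow_five hv0 hv5
  obtain ⟨e3, he3, hσu1⟩ := exists_root_of_pow_five hu1 hu15
  obtain ⟨e4, he4, hσv1⟩ := exists_root_of_pow_five hv1 hv15
  -- the product relation `e1 e2 = e3 e4` from `f`
  have h4 : e1 * e2 = e3 * e4 := by
    have a : σ (kF u0 v0) = e1 * e2 * kF u0 v0 := by
      rw [map_kF, hσu0, hσv0, kF_smul _ _ _ _ he1 he2]
    have b : σ (kF u1 v1) = e3 * e4 * kF u1 v1 := by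
      rw [map_kF, hσu1, hσv1, kF_smul _ _ _ _ he3 he4]
    rw [hfK] at b
    have : (e1 * e2 - e3 * e4) * kF u0 v0 = 0 := by linear_combination b - a
    have := (mul_eq_zero.mp this).resolve_right hf
    linear_combination this
  -- the two linear relations
  have eq1 : e3 * (-(z - z ^ 4) * u0 + (z ^ 2 - z ^ 3) * v0)
      = -(z - z ^ 4) * (e1 * u0) + (z ^ 2 - z ^ 3) * (e2 * v0) := by
    have h1 : σ u1 * rt5 z = -(z - z ^ 4) * (e1 * u0) + (z ^ 2 - z ^ 3) * (e2 * v0) := by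
      rw [sU, hσu0, hσv0, klU_mul hr]
    rw [← h1, hσu1, ← kU]; ring
  have eq2 : e4 * ((z ^ 2 - z ^ 3) * u0 + (z - z ^ 4) * v0)
      = (z ^ 2 - z ^ 3) * (e1 * u0) + (z - z ^ 4) * (e2 * v0) := by
    have h1 : σ v1 * rt5 z = (z ^ 2 - z ^ 3) * (e1 * u0) + (z - z ^ 4) * (e2 * v0) := by
      rw [sV, hσu0, hσv0, klV_mul hr]
    rw [← h1, hσv1, ← kV]; ring
  have hD : (z - z ^ 4) ^ 2 * (e1 - e3) * (e2 - e4)
      + (z ^ 2 - z ^ 3) ^ 2 * (e2 - e3) * (e1 - e4) = 0 := by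
    have : ((z - z ^ 4) ^ 2 * (e1 - e3) * (e2 - e4)
        + (z ^ 2 - z ^ 3) ^ 2 * (e2 - e3) * (e1 - e4)) * u0 = 0 := by
      linear_combination ((z - z ^ 4) * (e2 - e4)) * eq1 - ((z ^ 2 - z ^ 3) * (e2 - e3)) * eq2
    exact (mul_eq_zero.mp this).resolve_right hu0
  have h5 : (z - z ^ 4) ^ 2 * e2 * (e1 - e3) ^ 2 + (z ^ 2 - z ^ 3) ^ 2 * e1 * (e3 - e2) ^ 2 = 0 := by
    linear_combination (-e3) * hD
      + ((z - z ^ 4) ^ 2 * (e1 - e3) + (z ^ 2 - z ^ 3) ^ 2 * (e2 - e3)) * h4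
  obtain ⟨h13, h32⟩ := eq_of_trace_eq hz h30 e1 e2 e3 he1 he2 he3 h5
  exact ⟨e1, he1, hσu0, by rw [hσv0, h13, h32]⟩

end Sigma

section Theta

/-- The parameter at which the pencil `a + t b` meets the line through `(e, 1)`. -/
theorem theta_aux (e a1 a2 b1 b2 : K) (hD : b1 - b2 * e ≠ 0) (hdet : a1 * b2 - a2 * b1 ≠ 0) :
    ∃ θ c : K, c ≠ 0 ∧ a1 + θ * b1 = c * e ∧ a2 + θ * b2 = c ∧
      ∀ (σ : K →+* K) (lam : K), σ e = e → lam ≠ 0 → σ a1 = lam * a1 → σ a2 = lam * a2 →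
        σ b1 = lam * b1 → σ b2 = lam * b2 → σ θ = θ := by
  obtain ⟨θ, hθ⟩ : ∃ θ : K, θ * (b1 - b2 * e) = -(a1 - a2 * e) :=
    ⟨-(a1 - a2 * e) / (b1 - b2 * e), div_mul_cancel₀ _ hD⟩
  refine ⟨θ, a2 + θ * b2, ?_, ?_, rfl, ?_⟩
  · intro hc
    apply hdet
    linear_combination b2 * hθ + (b2 * e - b1) * hc
  · linear_combination hθ
  · intro σ lam he hl h1 h2 h3 h4
    have h := congrArg σ hθ
    rw [map_mul, map_sub, map_neg, map_sub, map_mul, map_mul, he, h1, h2, h3, h4] at h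
    have h' : (σ θ - θ) * (lam * (b1 - b2 * e)) = 0 := by linear_combination h - lam * hθ
    have := (mul_eq_zero.mp h').resolve_right (mul_ne_zero hl hD)
    linear_combination this

theorem kT_zero_of_sq (e c : K) (he : e ^ 2 = -1) : kT (c * e) c = 0 := by
  unfold kT
  linear_combination (c ^ 30 * (1 - e ^ 2 + e ^ 4 - 522 * e ^ 5 - e ^ 6 + 522 * e ^ 7 + e ^ 8
    - 522 * e ^ 9 - 10006 * e ^ 10 + 522 * e ^ 11 + 10006 * e ^ 12 - 522 * e ^ 13
    - 10006 * e ^ 14 + 522 * e ^ 15 + 10006 * e ^ 16 - 522 * e ^ 17 - 10006 * e ^ 18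
    + 522 * e ^ 19 + e ^ 20 - 522 * e ^ 21 - e ^ 22 + 522 * e ^ 23 + e ^ 24 - e ^ 26
    + e ^ 28)) * he

theorem kH_ne_zero_of_sq (h30 : (30 : K) ≠ 0) (e c : K) (he : e ^ 2 = -1) (hc : c ≠ 0) :
    kH (c * e) c ≠ 0 := by
  intro h
  have k2 := two_ne_zero_of_thirty h30
  have k5 := five_ne_zero_of_thirty h30
  have h1 : c ^ 20 * (492 - 456 * e) = 0 := by
    rw [← h]; unfold kH
    linear_combination (-c ^ 20 * (-493 + 456 * e + 493 * e ^ 2 - 456 * e ^ 3 - 493 * e ^ 4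
      + 228 * e ^ 5 + 493 * e ^ 6 - 228 * e ^ 7 - 493 * e ^ 8 + 228 * e ^ 9 - e ^ 10
      - 228 * e ^ 11 + e ^ 12 + 228 * e ^ 13 - e ^ 14 + e ^ 16 - e ^ 18)) * he
  have h2 : 492 - 456 * e = 0 := (mul_eq_zero.mp h1).resolve_left (pow_ne_zero 20 hc)
  have h3 : (30 : K) * 30 * (2 * 2 * (5 * 5 * 5)) = 0 := by
    linear_combination (492 + 456 * e) * h2 + 207936 * he
  rcases mul_eq_zero.mp h3 with h | h
  · rcases mul_eq_zero.mp h with h | h <;> exact h30 h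
  · rcases mul_eq_zero.mp h with h | h
    · rcases mul_eq_zero.mp h with h | h <;> exact k2 h
    · rcases mul_eq_zero.mp h with h | h
      · rcases mul_eq_zero.mp h with h | h <;> exact k5 h
      · exact k5 h

end Theta

section Main

variable {z : K}

/-- **FIXROOT, general pencil.**  For a pencil `a + t b` with `det[a, b] ≠ 0` there is a
parameter `θ` at which `kT` vanishes and `kH` does not, and which is fixed by every ring
endomorphism `σ` that fixes `z`, `i`, the values of `H, X, X∘S, Y` at `w0` and at `Kl w0`, and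
is compatible with the pencil (`σ a = lam a`, `σ b = lam b` whenever `σ w0 = lam w0`). -/
theorem exists_root_pencil (hz : z ^ 4 + z ^ 3 + z ^ 2 + z + 1 = 0) (h30 : (30 : K) ≠ 0)
    (i : K) (hi : i ^ 2 = -1) (u0 v0 a1 a2 b1 b2 : K) (hf : kF u0 v0 ≠ 0)
    (hdet : a1 * b2 - a2 * b1 ≠ 0) :
    ∃ θ : K, kT (a1 + θ * b1) (a2 + θ * b2) = 0 ∧ kH (a1 + θ * b1) (a2 + θ * b2) ≠ 0 ∧
      ∀ σ : K →+* K, σ z = z → σ i = i →
        kF (klU z u0 v0) (klV z u0 v0) = kF u0 v0 →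
        σ (kH u0 v0) = kH u0 v0 → σ (kX z u0 v0) = kX z u0 v0 →
        σ (kX z v0 (-u0)) = kX z v0 (-u0) → σ (kY z u0 v0) = kY z u0 v0 →
        σ (kH (klU z u0 v0) (klV z u0 v0)) = kH (klU z u0 v0) (klV z u0 v0) →
        σ (kX z (klU z u0 v0) (klV z u0 v0)) = kX z (klU z u0 v0) (klV z u0 v0) →
        σ (kX z (klV z u0 v0) (-klU z u0 v0)) = kX z (klV z u0 v0) (-klU z u0 v0) →
        σ (kY z (klU z u0 v0) (klV z u0 v0)) = kY z (klU z u0 v0) (klV z u0 v0) →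
        (∀ lam : K, lam ^ 5 = 1 → σ u0 = lam * u0 → σ v0 = lam * v0 →
          σ a1 = lam * a1 ∧ σ a2 = lam * a2 ∧ σ b1 = lam * b1 ∧ σ b2 = lam * b2) →
        σ θ = θ := by
  have k2 := two_ne_zero_of_thirty h30
  have hi0 : i ≠ 0 := by
    intro h; rw [h] at hi; norm_num at hi
  -- choose the zero `(e, 1)` of `kT`, `e = ± i`, not proportional to `b`
  obtain ⟨e, he, hσe, hD⟩ : ∃ e : K, e ^ 2 = -1 ∧ (∀ σ : K →+* K, σ i = i → σ e = e) ∧
      b1 - b2 * e ≠ 0 := by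
    by_cases h : b1 - b2 * i = 0
    · refine ⟨-i, by rw [neg_sq, hi], fun σ hσ => by rw [map_neg, hσ], ?_⟩
      intro h'
      apply hdet
      have hb1 : b1 = 0 := by
        have : (2 : K) * b1 = 0 := by linear_combination h + h'
        exact (mul_eq_zero.mp this).resolve_left k2
      have hb2 : b2 = 0 := by
        have : b2 * i = 0 := by rw [hb1] at h; linear_combination (-1 : K) * h
        exact (mul_eq_zero.mp this).resolve_right hi0
      rw [hb1, hb2]; ring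
    · exact ⟨i, hi, fun σ hσ => hσ, h⟩
  obtain ⟨θ, c, hc, h1, h2, hθ⟩ := theta_aux e a1 a2 b1 b2 hD hdet
  refine ⟨θ, ?_, ?_, ?_⟩
  · rw [h1, h2]; exact kT_zero_of_sq e c he
  · rw [h1, h2]; exact kH_ne_zero_of_sq h30 e c he hc
  · intro σ hσz hσi hfK hH hX hXS hY hH1 hX1 hXS1 hY1 hpen
    obtain ⟨lam, hl5, hlu, hlv⟩ :=
      scalar_of_fixed hz h30 σ hσz u0 v0 hf hfK hH hX hXS hY hH1 hX1 hXS1 hY1
    have hl0 : lam ≠ 0 := by
      intro h; rw [h] at hl5; norm_num at hl5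
    obtain ⟨p1, p2, p3, p4⟩ := hpen lam hl5 hlu hlv
    exact hθ σ lam (hσe σ hσi) hl0 p1 p2 p3 p4

/-- `∂f/∂u` for Klein's `f`. -/
def kFu (u v : K) : K := 11 * u ^ 10 * v + 66 * u ^ 5 * v ^ 6 - v ^ 11

/-- `∂f/∂v` for Klein's `f`. -/
def kFv (u v : K) : K := u ^ 11 + 66 * u ^ 6 * v ^ 5 - 11 * u * v ^ 10

theorem euler_kF (u v : K) : u * kFu u v + v * kFv u v = 12 * kF u v := by
  unfold kFu kFv kF; ring

theorem map_kFu (σ : K →+* K) (u v : K) : σ (kFu u v) = kFu (σ u) (σ v) := by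
  simp only [kFu, map_add, map_sub, map_mul, map_pow, map_ofNat]

theorem map_kFv (σ : K →+* K) (u v : K) : σ (kFv u v) = kFv (σ u) (σ v) := by
  simp only [kFv, map_add, map_sub, map_mul, map_pow, map_ofNat]

theorem kFu_smul (lam u v : K) (h : lam ^ 5 = 1) : kFu (lam * u) (lam * v) = lam * kFu u v := by
  unfold kFu
  linear_combination (lam * (lam ^ 5 + 1) * (11 * u ^ 10 * v + 66 * u ^ 5 * v ^ 6 - v ^ 11)) * h

theorem kFv_smul (lam u v : K) (h : lam ^ 5 = 1) : kFv (lam * u) (lam * v) = lam * kFv u v := by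
  unfold kFv
  linear_combination (lam * (lam ^ 5 + 1) * (u ^ 11 + 66 * u ^ 6 * v ^ 5 - 11 * u * v ^ 10)) * h

/-- **FIXROOT for the degree-11 pencil** `w_t = w0 + t (f_v(w0), -f_u(w0))`. -/
theorem exists_root_deg11 (hz : z ^ 4 + z ^ 3 + z ^ 2 + z + 1 = 0) (h30 : (30 : K) ≠ 0)
    (i : K) (hi : i ^ 2 = -1) (u0 v0 : K) (hf : kF u0 v0 ≠ 0) :
    ∃ θ : K, kT (u0 + θ * kFv u0 v0) (v0 - θ * kFu u0 v0) = 0 ∧
      kH (u0 + θ * kFv u0 v0) (v0 - θ * kFu u0 v0) ≠ 0 ∧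
      ∀ σ : K →+* K, σ z = z → σ i = i →
        kF (klU z u0 v0) (klV z u0 v0) = kF u0 v0 →
        σ (kH u0 v0) = kH u0 v0 → σ (kX z u0 v0) = kX z u0 v0 →
        σ (kX z v0 (-u0)) = kX z v0 (-u0) → σ (kY z u0 v0) = kY z u0 v0 →
        σ (kH (klU z u0 v0) (klV z u0 v0)) = kH (klU z u0 v0) (klV z u0 v0) →
        σ (kX z (klU z u0 v0) (klV z u0 v0)) = kX z (klU z u0 v0) (klV z u0 v0) →
        σ (kX z (klV z u0 v0) (-klU z u0 v0)) = kX z (klV z u0 v0) (-klU z u0 v0) →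
        σ (kY z (klU z u0 v0) (klV z u0 v0)) = kY z (klU z u0 v0) (klV z u0 v0) →
        σ θ = θ := by
  have k2 := two_ne_zero_of_thirty h30
  have k3 := three_ne_zero_of_thirty h30
  have hdet : u0 * (-kFu u0 v0) - v0 * kFv u0 v0 ≠ 0 := by
    intro h
    have : (2 : K) * 2 * 3 * kF u0 v0 = 0 := by linear_combination (-1 : K) * h - euler_kF u0 v0
    rcases mul_eq_zero.mp this with h | h
    · rcases mul_eq_zero.mp h with h | h
      · rcases mul_eq_zero.mp h with h | h <;> exact k2 h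
      · exact k3 h
    · exact hf h
  obtain ⟨θ, h1, h2, h3⟩ :=
    exists_root_pencil hz h30 i hi u0 v0 u0 v0 (kFv u0 v0) (-kFu u0 v0) hf hdet
  refine ⟨θ, ?_, ?_, ?_⟩
  · rw [sub_eq_add_neg, ← mul_neg]; exact h1
  · rw [sub_eq_add_neg, ← mul_neg]; exact h2
  · intro σ hσz hσi hfK hH hX hXS hY hH1 hX1 hXS1 hY1
    refine h3 σ hσz hσi hfK hH hX hXS hY hH1 hX1 hXS1 hY1 ?_
    intro lam hl5 hlu hlv
    refine ⟨hlu, hlv, ?_, ?_⟩
    · rw [map_kFv, hlu, hlv, kFv_smul _ _ _ hl5]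
    · rw [map_neg, map_kFu, hlu, hlv, kFu_smul _ _ _ hl5, mul_neg]

end Main

end Fermat.Agent.S52.helper8316
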