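/-
helper6116 — S52, route (B1) (torsor/recovery logic), field `recov` of
`helper4741.KleinDatum` for the universal 5-torsion point `(kX, kY)` of `helper8316_FixRoot`
(normalisation #1745: curve `y² = x³ + 27 H x + 54 T`).

* `curve_kXY`  : `kY² = kX³ + 27 kH · kX + 54 kT`.
* `dblX_kXY`, `dblY_kXY` : the doubling identities `2 P(w) = P(J w)`, `J (u, v) = (-v, u)`, in the
  division-free shapes of the fields `dblX`, `dblY`.
* `kY_ne_zero` : `kY ≠ 0` when the discriminant is nonzero.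
* `recov_kXY`, `recov_field` : if `w'` has the same `A = 27 kH`, the same `kX` and the same `kY`
  as `w`, and the discriminant at `w` is nonzero, then `w' = (z^i u, z^j v)`.
All certificates were computed by exact arithmetic in `ℚ(ζ₅)[u, v]` and are re-checked by `ring`.
-/
import Fermat.Agent.S52.helper8316_FixRoot

set_option autoImplicit false
set_option maxRecDepth 100000
set_option maxHeartbeats 4000000

namespace Fermat.Agent.S52.helper6116

section Recov

variable {K : Type*} [Field K]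

theorem five_mul_kX (z : K) (h5 : (5 : K) ≠ 0) (u v : K) :
    5 * helper8316.kX z u v = -75 * (u ^ 10 + v ^ 10)
      + 18 * (z + z ^ 4 - z ^ 2 - z ^ 3) * (u ^ 10 + 11 * u ^ 5 * v ^ 5 - v ^ 10) := by
  unfold helper8316.kX helper8316.rt5
  linear_combination (18 * (z + z ^ 4 - z ^ 2 - z ^ 3) * (u ^ 10 + 11 * u ^ 5 * v ^ 5 - v ^ 10))
    * (mul_inv_cancel₀ h5)

theorem five_mul_kY (z : K) (h5 : (5 : K) ≠ 0) (u v : K) :
    5 * helper8316.kY z u v = 108 * ((-1 - 2 * z + z ^ 2 - 3 * z ^ 3) * u ^ 15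
      + (-9 - 18 * z + 14 * z ^ 2 - 32 * z ^ 3) * u ^ 10 * v ^ 5
      + (23 + 46 * z + 32 * z ^ 2 + 14 * z ^ 3) * u ^ 5 * v ^ 10
      + (-2 - 4 * z - 3 * z ^ 2 - z ^ 3) * v ^ 15) := by
  unfold helper8316.kY
  linear_combination (108 * ((-1 - 2 * z + z ^ 2 - 3 * z ^ 3) * u ^ 15
      + (-9 - 18 * z + 14 * z ^ 2 - 32 * z ^ 3) * u ^ 10 * v ^ 5
      + (23 + 46 * z + 32 * z ^ 2 + 14 * z ^ 3) * u ^ 5 * v ^ 10
      + (-2 - 4 * z - 3 * z ^ 2 - z ^ 3) * v ^ 15)) * (mul_inv_cancel₀ h5)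

theorem pow_five_ne_zero' (h5 : (5 : K) ≠ 0) (n : ℕ) : ((5 : K) ^ n) ≠ 0 := pow_ne_zero n h5

/-- The universal point lies on the curve `y² = x³ + 27 H x + 54 T`. -/
theorem curve_kXY (z : K) (hz : z ^ 4 + z ^ 3 + z ^ 2 + z + 1 = 0) (h5 : (5 : K) ≠ 0) (u v : K) :
    helper8316.kY z u v ^ 2 = helper8316.kX z u v ^ 3
      + 27 * helper8316.kH u v * helper8316.kX z u v + 54 * helper8316.kT u v := by
  have h : (5 : K) ^ 3 * (helper8316.kY z u v ^ 2 - (helper8316.kX z u v ^ 3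
      + 27 * helper8316.kH u v * helper8316.kX z u v + 54 * helper8316.kT u v)) = 0 := by
    have e1 : (5 : K) ^ 3 * (helper8316.kY z u v ^ 2 - (helper8316.kX z u v ^ 3
        + 27 * helper8316.kH u v * helper8316.kX z u v + 54 * helper8316.kT u v))
        = 5 * (5 * helper8316.kY z u v) ^ 2 - (5 * helper8316.kX z u v) ^ 3
          - 25 * (27 * helper8316.kH u v) * (5 * helper8316.kX z u v)
          - 125 * (54 * helper8316.kT u v) := by ring
    rw [e1, five_mul_kX z h5, five_mul_kY z h5]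
    unfold helper8316.kH helper8316.kT
    linear_combination
      (-5832*z^8*u^30 - 192456*z^8*u^25*v^5 - 2099520*z^8*u^20*v^10 - 7377480*z^8*u^15*v^15 + 2099520*z^8*u^10*v^20
      - 192456*z^8*u^5*v^25 + 5832*z^8*v^30 + 23328*z^7*u^30 + 769824*z^7*u^25*v^5 + 8398080*z^7*u^20*v^10
      + 29509920*z^7*u^15*v^15 - 8398080*z^7*u^10*v^20 + 769824*z^7*u^5*v^25 - 23328*z^7*v^30
      - 17496*z^6*u^30 - 577368*z^6*u^25*v^5 - 6298560*z^6*u^20*v^10 - 22132440*z^6*u^15*v^15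
      + 6298560*z^6*u^10*v^20 - 577368*z^6*u^5*v^25 + 17496*z^6*v^30 - 46656*z^5*u^30 - 1539648*z^5*u^25*v^5
      - 16796160*z^5*u^20*v^10 - 59019840*z^5*u^15*v^15 + 16796160*z^5*u^10*v^20 - 1539648*z^5*u^5*v^25
      + 46656*z^5*v^30 + 154548*z^4*u^30 + 4298184*z^4*u^25*v^5 + 38141280*z^4*u^20*v^10 + 103284720*z^4*u^15*v^15
      - 20645280*z^4*u^10*v^20 + 1090584*z^4*u^5*v^25 - 8748*z^4*v^30 - 224532*z^3*u^30 - 5003856*z^3*u^25*v^5
      - 28343520*z^3*u^20*v^10 - 7377480*z^3*u^15*v^15 - 24144480*z^3*u^10*v^20 + 4618944*z^3*u^5*v^25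
      - 212868*z^3*v^30 + 539460*z^2*u^30 + 10876680*z^2*u^25*v^5 + 42573600*z^2*u^20*v^10 - 125679600*z^2*u^15*v^15
      + 44906400*z^2*u^10*v^20 - 5161320*z^2*u^5*v^25 + 189540*z^2*v^30 - 481140*z*u^30 - 10847520*z*u^25*v^5
      - 62402400*z*u^20*v^10 - 6852600*z*u^15*v^15 + 79898400*z*u^10*v^20 - 14055120*z*u^5*v^25
      + 626940*z*v^30 + 422820*u^30 + 9068760*u^25*v^5 + 45781200*u^20*v^10 - 23911200*u^15*v^15
      + 76690800*u^10*v^20 - 13384440*u^5*v^25 + 597780*v^30) * hz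
  have h' := (mul_eq_zero.mp h).resolve_left (pow_five_ne_zero' h5 3)
  linear_combination h'

/-- Doubling, `x`-coordinate: `x(2 P(w)) = kX (J w)`, `J (u, v) = (-v, u)`. -/
theorem dblX_kXY (z : K) (hz : z ^ 4 + z ^ 3 + z ^ 2 + z + 1 = 0) (h5 : (5 : K) ≠ 0) (u v : K) :
    (3 * helper8316.kX z u v ^ 2 + 27 * helper8316.kH u v) ^ 2
      = 4 * helper8316.kY z u v ^ 2 * (helper8316.kX z (-v) u + 2 * helper8316.kX z u v) := by
  have h : (5 : K) ^ 4 * ((3 * helper8316.kX z u v ^ 2 + 27 * helper8316.kH u v) ^ 2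
      - 4 * helper8316.kY z u v ^ 2 * (helper8316.kX z (-v) u + 2 * helper8316.kX z u v)) = 0 := by
    have e1 : (5 : K) ^ 4 * ((3 * helper8316.kX z u v ^ 2 + 27 * helper8316.kH u v) ^ 2
        - 4 * helper8316.kY z u v ^ 2 * (helper8316.kX z (-v) u + 2 * helper8316.kX z u v))
        = (3 * (5 * helper8316.kX z u v) ^ 2 + 25 * (27 * helper8316.kH u v)) ^ 2
          - 20 * (5 * helper8316.kY z u v) ^ 2
            * (5 * helper8316.kX z (-v) u + 2 * (5 * helper8316.kX z u v)) := by ring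
    rw [e1, five_mul_kX z h5 u v, five_mul_kX z h5 (-v) u, five_mul_kY z h5]
    unfold helper8316.kH
    linear_combination
      (944784*z^12*u^40 + 41570496*z^12*u^35*v^5 + 682134048*z^12*u^30*v^10 + 4905318528*z^12*u^25*v^15
      + 12466424880*z^12*u^20*v^20 - 4905318528*z^12*u^15*v^25 + 682134048*z^12*u^10*v^30 - 41570496*z^12*u^5*v^35
      + 944784*z^12*v^40 - 4723920*z^11*u^40 - 207852480*z^11*u^35*v^5 - 3410670240*z^11*u^30*v^10
      - 24526592640*z^11*u^25*v^15 - 62332124400*z^11*u^20*v^20 + 24526592640*z^11*u^15*v^25 - 3410670240*z^11*u^10*v^30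
      + 207852480*z^11*u^5*v^35 - 4723920*z^11*v^40 + 5668704*z^10*u^40 + 249422976*z^10*u^35*v^5
      + 4092804288*z^10*u^30*v^10 + 29431911168*z^10*u^25*v^15 + 74798549280*z^10*u^20*v^20 - 29431911168*z^10*u^15*v^25
      + 4092804288*z^10*u^10*v^30 - 249422976*z^10*u^5*v^35 + 5668704*z^10*v^40 + 9447840*z^9*u^40
      + 415704960*z^9*u^35*v^5 + 6821340480*z^9*u^30*v^10 + 49053185280*z^9*u^25*v^15 + 124664248800*z^9*u^20*v^20
      - 49053185280*z^9*u^15*v^25 + 6821340480*z^9*u^10*v^30 - 415704960*z^9*u^5*v^35 + 9447840*z^9*v^40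
      - 43145136*z^8*u^40 - 1725175584*z^8*u^35*v^5 - 25466337792*z^8*u^30*v^10 - 162693064512*z^8*u^25*v^15
      - 361526321520*z^8*u^20*v^20 + 121815410112*z^8*u^15*v^25 - 14097436992*z^8*u^10*v^30 + 685913184*z^8*u^5*v^35
      - 11652336*z^8*v^40 + 72433440*z^7*u^40 + 2494229760*z^7*u^35*v^5 + 29559142080*z^7*u^30*v^10
      + 130808494080*z^7*u^25*v^15 + 124664248800*z^7*u^20*v^20 + 32702123520*z^7*u^15*v^25 - 15916461120*z^7*u^10*v^30
      + 1662819840*z^7*u^5*v^35 - 53537760*z^7*v^40 - 55742256*z^6*u^40 - 1492128864*z^6*u^35*v^5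
      - 8684874432*z^6*u^30*v^10 + 51873680448*z^6*u^25*v^15 + 430423120080*z^6*u^20*v^20 - 229010182848*z^6*u^15*v^25
      + 40580362368*z^6*u^10*v^30 - 3011341536*z^6*u^5*v^35 + 80726544*z^6*v^40 - 53537760*z^5*u^40
      - 2061728640*z^5*u^35*v^5 - 29122441920*z^5*u^30*v^10 - 177694974720*z^5*u^25*v^15 - 395071927200*z^5*u^20*v^20
      - 40319182080*z^5*u^15*v^25 + 31511695680*z^5*u^10*v^30 - 3481004160*z^5*u^5*v^35 + 114423840*z^5*v^40
      + 213521184*z^4*u^40 + 6245652096*z^4*u^35*v^5 + 58752232848*z^4*u^30*v^10 + 165681311328*z^4*u^25*v^15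
      - 77104347120*z^4*u^20*v^20 + 243095232672*z^4*u^15*v^25 - 54936775152*z^4*u^10*v^30 + 4146971904*z^4*u^5*v^35
      - 101406816*z^4*v^40 - 281860560*z^3*u^40 - 7053337440*z^3*u^35*v^5 - 51595179120*z^3*u^30*v^10
      - 78886314720*z^3*u^25*v^15 + 122669704800*z^3*u^20*v^20 + 92512199520*z^3*u^15*v^25 - 55384812720*z^3*u^10*v^30
      + 7399758240*z^3*u^5*v^35 - 292358160*z^3*v^40 + 508608720*z^2*u^40 + 10537490880*z^2*u^35*v^5
      + 46600421040*z^2*u^30*v^10 - 81168492960*z^2*u^25*v^15 + 29723954400*z^2*u^20*v^20 - 194414502240*z^2*u^15*v^25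
      + 63543547440*z^2*u^10*v^30 - 6779350080*z^2*u^5*v^35 + 235671120*z^2*v^40 - 371615040*z*u^40
      - 7653800160*z*u^35*v^5 - 31850243280*z*u^30*v^10 + 88701570720*z*u^25*v^15 + 68216029200*z*u^20*v^20
      - 150700396320*z*u^15*v^25 + 104797015920*z*u^10*v^30 - 15451417440*z*u^5*v^35 + 646652160*z*v^40
      + 314928000*u^40 + 5931144000*u^35*v^5 + 15864498000*u^30*v^10 - 117809316000*u^25*v^15
      + 74467350000*u^20*v^20 + 70885044000*u^15*v^25 + 43840602000*u^10*v^30 - 9815256000*u^5*v^35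
      + 472392000*v^40) * hz
  have h' := (mul_eq_zero.mp h).resolve_left (pow_five_ne_zero' h5 4)
  linear_combination h'

/-- Doubling, `y`-coordinate, in the division-free shape of the field `dblY`. -/
theorem dblY_kXY (z : K) (hz : z ^ 4 + z ^ 3 + z ^ 2 + z + 1 = 0) (h5 : (5 : K) ≠ 0) (u v : K) :
    helper8316.kY z (-v) u * (2 * helper8316.kY z u v)
      = (3 * helper8316.kX z u v ^ 2 + 27 * helper8316.kH u v)
          * (helper8316.kX z u v - helper8316.kX z (-v) u) - 2 * helper8316.kY z u v ^ 2 := by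
  have h : (5 : K) ^ 3 * (helper8316.kY z (-v) u * (2 * helper8316.kY z u v)
      - ((3 * helper8316.kX z u v ^ 2 + 27 * helper8316.kH u v)
          * (helper8316.kX z u v - helper8316.kX z (-v) u) - 2 * helper8316.kY z u v ^ 2)) = 0 := by
    have e1 : (5 : K) ^ 3 * (helper8316.kY z (-v) u * (2 * helper8316.kY z u v)
        - ((3 * helper8316.kX z u v ^ 2 + 27 * helper8316.kH u v)
            * (helper8316.kX z u v - helper8316.kX z (-v) u) - 2 * helper8316.kY z u v ^ 2))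
        = 10 * (5 * helper8316.kY z (-v) u) * (5 * helper8316.kY z u v)
          - (3 * (5 * helper8316.kX z u v) ^ 2 + 25 * (27 * helper8316.kH u v))
            * (5 * helper8316.kX z u v - 5 * helper8316.kX z (-v) u)
          + 10 * (5 * helper8316.kY z u v) ^ 2 := by ring
    rw [e1, five_mul_kX z h5 u v, five_mul_kX z h5 (-v) u, five_mul_kY z h5 u v,
      five_mul_kY z h5 (-v) u]
    unfold helper8316.kH
    linear_combination
      (-34992*z^8*u^30 - 1154736*z^8*u^25*v^5 - 12597120*z^8*u^20*v^10 - 44264880*z^8*u^15*v^15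
      + 12597120*z^8*u^10*v^20 - 1154736*z^8*u^5*v^25 + 34992*z^8*v^30 + 139968*z^7*u^30 + 4618944*z^7*u^25*v^5
      + 50388480*z^7*u^20*v^10 + 177059520*z^7*u^15*v^15 - 50388480*z^7*u^10*v^20 + 4618944*z^7*u^5*v^25
      - 139968*z^7*v^30 - 104976*z^6*u^30 - 3464208*z^6*u^25*v^5 - 37791360*z^6*u^20*v^10 - 132794640*z^6*u^15*v^15
      + 37791360*z^6*u^10*v^20 - 3464208*z^6*u^5*v^25 + 104976*z^6*v^30 - 279936*z^5*u^30 - 9237888*z^5*u^25*v^5
      - 100776960*z^5*u^20*v^10 - 354119040*z^5*u^15*v^15 + 100776960*z^5*u^10*v^20 - 9237888*z^5*u^5*v^25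
      + 279936*z^5*v^30 + 781488*z^4*u^30 + 22581504*z^4*u^25*v^5 + 211351680*z^4*u^20*v^10 + 619708320*z^4*u^15*v^15
      - 141367680*z^4*u^10*v^20 + 9751104*z^4*u^5*v^25 - 198288*z^4*v^30 - 909792*z^3*u^30 - 20400336*z^3*u^25*v^5
      - 117573120*z^3*u^20*v^10 - 44264880*z^3*u^15*v^15 - 92378880*z^3*u^10*v^20 + 18090864*z^3*u^5*v^25
      - 839808*z^3*v^30 + 1341360*z^2*u^30 + 25894080*z^2*u^25*v^5 + 80481600*z^2*u^20*v^10 - 450813600*z^2*u^15*v^15
      + 129470400*z^2*u^10*v^20 - 12597120*z^2*u^5*v^25 + 408240*z^2*v^30 + 466560*z*u^30 + 8689680*z*u^25*v^5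
      + 22161600*z*u^20*v^10 - 169419600*z*u^15*v^15 + 187790400*z*u^10*v^20 - 29801520*z*u^5*v^25
      + 1283040*z*v^30 + 349920*u^30 + 6881760*u^25*v^5 + 23911200*u^20*v^10 - 99727200*u^15*v^15
      + 46072800*u^10*v^20 - 5948640*u^5*v^25 + 233280*v^30) * hz
  have h' := (mul_eq_zero.mp h).resolve_left (pow_five_ne_zero' h5 3)
  linear_combination h'

theorem kX_neg_neg (z u v : K) : helper8316.kX z (-u) (-v) = helper8316.kX z u v := by
  unfold helper8316.kX; ring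

theorem kY_neg_neg (z u v : K) : helper8316.kY z (-u) (-v) = -helper8316.kY z u v := by
  unfold helper8316.kY; ring

theorem kX_S_eq_J (z u v : K) : helper8316.kX z v (-u) = helper8316.kX z (-v) u := by
  unfold helper8316.kX; ring

/-- A cubic `x³ + A x + B` with a double root has zero discriminant. -/
theorem disc_zero_of_double (A B X : K) (h1 : 3 * X ^ 2 + A = 0) (h2 : X ^ 3 + A * X + B = 0) :
    4 * A ^ 3 + 27 * B ^ 2 = 0 := by
  linear_combination (4 * (3 * X ^ 2 + A) ^ 2 - 9 * (3 * X ^ 2 + A) * X ^ 2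
    - 54 * (X ^ 3 + A * X + B) * X) * h1 + (27 * (X ^ 3 + A * X + B) + 108 * X ^ 3) * h2

/-- The universal point is not a 2-torsion point when the discriminant is nonzero. -/
theorem kY_ne_zero (z : K) (hz : z ^ 4 + z ^ 3 + z ^ 2 + z + 1 = 0) (h5 : (5 : K) ≠ 0) (u v : K)
    (hΔ : 4 * (27 * helper8316.kH u v) ^ 3 + 27 * (54 * helper8316.kT u v) ^ 2 ≠ 0) :
    helper8316.kY z u v ≠ 0 := by
  intro h
  apply hΔ
  have hc := curve_kXY z hz h5 u v
  have hd := dblX_kXY z hz h5 u v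
  rw [h] at hc hd
  have h1 : 3 * helper8316.kX z u v ^ 2 + 27 * helper8316.kH u v = 0 := by
    have h0 : (3 * helper8316.kX z u v ^ 2 + 27 * helper8316.kH u v) ^ 2 = 0 := by
      rw [hd]; ring
    exact (pow_eq_zero_iff (by norm_num : (2 : ℕ) ≠ 0)).mp h0
  have h2 : helper8316.kX z u v ^ 3 + 27 * helper8316.kH u v * helper8316.kX z u v
      + 54 * helper8316.kT u v = 0 := by
    rw [← hc]; ring
  exact disc_zero_of_double _ _ (helper8316.kX z u v) h1 h2

/-- **Recovery** (field `recov`): a Klein parameter `w'` with the same `A`, `kX`, `kY` as `w`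
is `(z^i u, z^j v)`. The hypothesis on `B = 54 kT` is not needed. -/
theorem recov_kXY (z : K) (hz : z ^ 4 + z ^ 3 + z ^ 2 + z + 1 = 0) (h30 : (30 : K) ≠ 0)
    (u v u' v' : K)
    (hΔ : 4 * (27 * helper8316.kH u v) ^ 3 + 27 * (54 * helper8316.kT u v) ^ 2 ≠ 0)
    (hA : 27 * helper8316.kH u' v' = 27 * helper8316.kH u v)
    (hX : helper8316.kX z u' v' = helper8316.kX z u v)
    (hY : helper8316.kY z u' v' = helper8316.kY z u v) :
    ∃ i j : ℕ, u' = z ^ i * u ∧ v' = z ^ j * v := by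
  have k2 := helper8316.two_ne_zero_of_thirty h30
  have k3 := helper8316.three_ne_zero_of_thirty h30
  have k5 := helper8316.five_ne_zero_of_thirty h30
  have hf : helper8316.kF u v ≠ 0 := by
    intro h
    apply hΔ
    have hs : helper8316.kT u v ^ 2 + helper8316.kH u v ^ 3 = 1728 * helper8316.kF u v ^ 5 := by
      unfold helper8316.kT helper8316.kH helper8316.kF; ring
    have e1 : 4 * (27 * helper8316.kH u v) ^ 3 + 27 * (54 * helper8316.kT u v) ^ 2
        = 78732 * (helper8316.kT u v ^ 2 + helper8316.kH u v ^ 3) := by ring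
    rw [e1, hs, h]; ring
  have hY0 := kY_ne_zero z hz k5 u v hΔ
  have hXJ : helper8316.kX z (-v') u' = helper8316.kX z (-v) u := by
    have hd := dblX_kXY z hz k5 u v
    have hd' := dblX_kXY z hz k5 u' v'
    rw [hX, hY, hA] at hd'
    have h0 : 4 * helper8316.kY z u v ^ 2
        * (helper8316.kX z (-v') u' - helper8316.kX z (-v) u) = 0 := by
      linear_combination hd - hd'
    have h4 : (4 : K) * helper8316.kY z u v ^ 2 ≠ 0 := by
      have e4 : (4 : K) = 2 * 2 := by norm_num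
      rw [e4]
      exact mul_ne_zero (mul_ne_zero k2 k2) (pow_ne_zero 2 hY0)
    exact sub_eq_zero.mp ((mul_eq_zero.mp h0).resolve_left h4)
  have h27 : (27 : K) ≠ 0 := by
    have e27 : (27 : K) = 3 * 3 * 3 := by norm_num
    rw [e27]
    exact mul_ne_zero (mul_ne_zero k3 k3) k3
  have hH : helper8316.kH u' v' = helper8316.kH u v := mul_left_cancel₀ h27 hA
  obtain ⟨hu5, hv5⟩ := helper8316.recover_uv hz h30 u v u' v' hf hH hX
    (by rw [kX_S_eq_J, kX_S_eq_J, hXJ]) hY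
  have hu : u ≠ 0 := fun h => hf (by rw [h]; unfold helper8316.kF; ring)
  have hv : v ≠ 0 := fun h => hf (by rw [h]; unfold helper8316.kF; ring)
  obtain ⟨e1, he1, hu'⟩ := helper8316.exists_root_of_pow_five hu hu5
  obtain ⟨e2, he2, hv'⟩ := helper8316.exists_root_of_pow_five hv hv5
  have key : ∀ x : K, x ^ 5 = 1 → ∃ i : ℕ, x = z ^ i := by
    intro x hx
    rcases helper8316.fifth_root_cases hz x hx with h | h | h | h | h
    · exact ⟨0, by rw [h, pow_zero]⟩
    · exact ⟨1, by rw [h, pow_one]⟩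
    · exact ⟨2, h⟩
    · exact ⟨3, h⟩
    · exact ⟨4, h⟩
  obtain ⟨i, hi⟩ := key e1 he1
  obtain ⟨j, hj⟩ := key e2 he2
  exact ⟨i, j, by rw [hu', hi], by rw [hv', hj]⟩

/-- The field `recov` of `helper4741.KleinDatum` for `A w = 27 kH`, `B w = 54 kT`,
`PX w = kX z`, `PY w = kY z`, `E i j w = (z^i w.1, z^j w.2)`. -/
theorem recov_field (z : K) (hz : z ^ 4 + z ^ 3 + z ^ 2 + z + 1 = 0) (h30 : (30 : K) ≠ 0)
    (w w' : K × K)
    (hΔ : 4 * (27 * helper8316.kH w.1 w.2) ^ 3 + 27 * (54 * helper8316.kT w.1 w.2) ^ 2 ≠ 0)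
    (hA : 27 * helper8316.kH w'.1 w'.2 = 27 * helper8316.kH w.1 w.2)
    (_hB : 54 * helper8316.kT w'.1 w'.2 = 54 * helper8316.kT w.1 w.2)
    (hX : helper8316.kX z w'.1 w'.2 = helper8316.kX z w.1 w.2)
    (hY : helper8316.kY z w'.1 w'.2 = helper8316.kY z w.1 w.2) :
    ∃ i j : ℕ, w' = (z ^ i * w.1, z ^ j * w.2) := by
  obtain ⟨i, j, h1, h2⟩ := recov_kXY z hz h30 w.1 w.2 w'.1 w'.2 hΔ hA hX hY
  exact ⟨i, j, Prod.ext h1 h2⟩

end Recov

end Fermat.Agent.S52.helper6116
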