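/-
helper6116 — S52, block AUXP (hedge route for `hB`): the torsor lemma in the four-case surface
`helper52.Stmt_Torsor a b` with Klein's constants `a = (-1 - 2z - 3z² + z³)/5`,
`b = (2 + 4z + z² + 3z³)/5` (`z` a primitive fifth root of unity), together with every other
hypothesis of `helper52.hB_of_torsor` except LINK.

* `fibre_subset_orbit_gen`, `fibre_subset_orbit_ab`: the torsor lemma over any field with
  `2, 3 (, 5) ≠ 0`, WITHOUT the hypotheses `u0 ≠ 0`, `v0 ≠ 0` of `fibre_subset_orbit`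
  (they follow from `kH u0 v0 ≠ 0`), and with an arbitrary fifth root of unity `ze'` in place
  of `z ^ k`.
* `kFv_K`, `kFu_K`: covariance of `(f_v, -f_u)` under `(x, y) ↦ (x + e y, e x - y)`, `e² = e + 1`.
* `stmt_Torsor`, `hKT`, `hKu`, `hKv`, `sigma_kleinA`, `sigma_kleinB`, and
  `hB_of_link : LINK ⟹ helper52.HB C4 C6`.
-/
import Fermat.Agent.S52.helper6116_Torsor
import Fermat.Agent.S52.helper52_RootInst

set_option autoImplicit false

namespace Fermat.Agent.S52.helper6116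

/-! ### Klein's constants -/

section Consts

variable {K : Type*} [Field K]

/-- `e = -(z + z⁴)`, the golden ratio when `z` is a primitive fifth root of unity. -/
def kleinE (z : K) : K := -(z + z ^ 4)

/-- The entry `a` of Klein's matrix `K = [[a, b], [b, -a]]`. -/
def kleinA (z : K) : K := (-1 - 2 * z - 3 * z ^ 2 + z ^ 3) / 5

/-- The entry `b` of Klein's matrix `K = [[a, b], [b, -a]]`. -/
def kleinB (z : K) : K := (2 + 4 * z + z ^ 2 + 3 * z ^ 3) / 5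

theorem kleinE_sq (z : K) (hz : z ^ 4 + z ^ 3 + z ^ 2 + z + 1 = 0) :
    kleinE z ^ 2 = kleinE z + 1 := by
  unfold kleinE
  linear_combination (z^4 - z^3 + 2*z - 1) * hz

theorem five_mul_kleinA (z : K) (h5 : (5 : K) ≠ 0) :
    5 * kleinA z = -1 - 2 * z - 3 * z ^ 2 + z ^ 3 := by
  unfold kleinA; field_simp

theorem five_mul_kleinB (z : K) (h5 : (5 : K) ≠ 0) :
    5 * kleinB z = 2 + 4 * z + z ^ 2 + 3 * z ^ 3 := by
  unfold kleinB; field_simp

theorem kleinB_eq (z : K) (hz : z ^ 4 + z ^ 3 + z ^ 2 + z + 1 = 0) (h5 : (5 : K) ≠ 0) :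
    kleinB z = kleinA z * kleinE z := by
  have h : (5 : K) * (kleinB z - kleinA z * kleinE z) = 0 := by
    have e1 : (5 : K) * (kleinB z - kleinA z * kleinE z)
        = 5 * kleinB z - 5 * kleinA z * kleinE z := by ring
    rw [e1, five_mul_kleinB z h5, five_mul_kleinA z h5]
    unfold kleinE
    linear_combination (z^3 - 4*z^2 + z + 2) * hz
  have h' := (mul_eq_zero.mp h).resolve_left h5
  linear_combination h'

theorem kleinA_sq (z : K) (hz : z ^ 4 + z ^ 3 + z ^ 2 + z + 1 = 0) (h5 : (5 : K) ≠ 0) :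
    kleinA z ^ 2 * (kleinE z + 2) = -1 := by
  have h : (25 : K) * (kleinA z ^ 2 * (kleinE z + 2) + 1) = 0 := by
    have e1 : (25 : K) * (kleinA z ^ 2 * (kleinE z + 2) + 1)
        = (5 * kleinA z) ^ 2 * (kleinE z + 2) + 25 := by ring
    rw [e1, five_mul_kleinA z h5]
    unfold kleinE
    linear_combination (-z^6 + 7*z^5 - 11*z^4 - 6*z^3 + 9*z^2 - 20*z + 27) * hz
  have h25 : (25 : K) ≠ 0 := by
    have e2 : (25 : K) = 5 * 5 := by norm_num
    rw [e2]; exact mul_ne_zero h5 h5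
  have h' := (mul_eq_zero.mp h).resolve_left h25
  linear_combination h'

theorem kleinA_sq_add_kleinB_sq (z : K) (hz : z ^ 4 + z ^ 3 + z ^ 2 + z + 1 = 0)
    (h5 : (5 : K) ≠ 0) : kleinA z ^ 2 + kleinB z ^ 2 = -1 := by
  have h : (25 : K) * (kleinA z ^ 2 + kleinB z ^ 2 + 1) = 0 := by
    have e1 : (25 : K) * (kleinA z ^ 2 + kleinB z ^ 2 + 1)
        = (5 * kleinA z) ^ 2 + (5 * kleinB z) ^ 2 + 25 := by ring
    rw [e1, five_mul_kleinA z h5, five_mul_kleinB z h5]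
    linear_combination (10*z^2 - 10*z + 30) * hz
  have h25 : (25 : K) ≠ 0 := by
    have e2 : (25 : K) = 5 * 5 := by norm_num
    rw [e2]; exact mul_ne_zero h5 h5
  have h' := (mul_eq_zero.mp h).resolve_left h25
  linear_combination h'

end Consts

/-! ### Covariance of the gradient of `f` under Klein's matrix -/

section Cov

variable {R : Type*} [CommRing R]

open Fermat.Agent.S52.helper7043 in
/-- `f_v ∘ T₀ = -(e + 2)⁵ (f_v - e f_u)` for `T₀ (x, y) = (x + e y, e x - y)`, `e² = e + 1`. -/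
theorem kFv_K (e x y : R) (he : e ^ 2 = e + 1) :
    kFv (x + e * y) (e * x - y) = -((e + 2) ^ 5 * (kFv x y - e * kFu x y)) := by
  simp only [kFv, kFu]
  linear_combination
    (-11*e^9*x^10*y + 66*e^9*x^5*y^6 + e^9*y^11 - 11*e^8*x^11 - 11*e^8*x^10*y + 110*e^8*x^9*y^2
      + 396*e^8*x^6*y^5 + 66*e^8*x^5*y^6 - 330*e^8*x^4*y^7 + 11*e^8*x*y^10 + e^8*y^11 - 11*e^7*x^11
      + 88*e^7*x^10*y + 110*e^7*x^9*y^2 - 495*e^7*x^8*y^3 + 990*e^7*x^7*y^4 + 396*e^7*x^6*y^5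
      - 1848*e^7*x^5*y^6 - 330*e^7*x^4*y^7 + 660*e^7*x^3*y^8 + 55*e^7*x^2*y^9 + 11*e^7*x*y^10
      + 2*e^7*y^11 - 22*e^6*x^11 + 77*e^6*x^10*y - 275*e^6*x^9*y^2 + 825*e^6*x^8*y^3 + 2310*e^6*x^7*y^4
      - 4158*e^6*x^6*y^5 - 1782*e^6*x^5*y^6 + 3300*e^6*x^4*y^7 + 825*e^6*x^3*y^8 - 605*e^6*x^2*y^9
      + 22*e^6*x*y^10 + 3*e^6*y^11 - 33*e^5*x^11 + 165*e^5*x^10*y + 825*e^5*x^9*y^2 + 1650*e^5*x^8*y^3
      - 3300*e^5*x^7*y^4 - 6072*e^5*x^6*y^5 + 6270*e^5*x^5*y^6 + 3300*e^5*x^4*y^7 - 2475*e^5*x^3*y^8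
      - 550*e^5*x^2*y^9 + 363*e^5*x*y^10 + 5*e^5*y^11 - 55*e^4*x^11 + 627*e^4*x^10*y + 550*e^4*x^9*y^2
      - 2475*e^4*x^8*y^3 - 3300*e^4*x^7*y^4 + 2970*e^4*x^6*y^5 + 7656*e^4*x^5*y^6 - 3300*e^4*x^4*y^7
      - 1650*e^4*x^3*y^8 + 825*e^4*x^2*y^9 + 385*e^4*x*y^10 - 57*e^4*y^11 - 21*e^3*x^11 + 682*e^3*x^10*y
      - 605*e^3*x^9*y^2 - 825*e^3*x^8*y^3 + 3300*e^3*x^7*y^4 + 198*e^3*x^6*y^5 + 66*e^3*x^5*y^6
      - 2310*e^3*x^4*y^7 + 825*e^3*x^3*y^8 + 275*e^3*x^2*y^9 + 341*e^3*x*y^10 - 42*e^3*y^11 - 66*e^2*x^11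
      + 539*e^2*x^10*y - 55*e^2*x^9*y^2 + 660*e^2*x^8*y^3 + 330*e^2*x^7*y^4 - 6072*e^2*x^6*y^5
      + 2772*e^2*x^5*y^6 + 990*e^2*x^4*y^7 + 495*e^2*x^3*y^8 + 110*e^2*x^2*y^9 + 616*e^2*x*y^10
      - 59*e^2*y^11 - 47*e*x^11 + 341*e*x^10*y - 330*e*x^7*y^4 - 3234*e*x^6*y^5 + 2508*e*x^5*y^6
      - 110*e*x^2*y^9 + 517*e*x*y^10 - 21*e*y^11 - 33*x^11 - 2046*x^6*y^5 + 363*x*y^10) * he

open Fermat.Agent.S52.helper7043 in
/-- `f_u ∘ T₀ = (e + 2)⁵ (e f_v + f_u)` for `T₀ (x, y) = (x + e y, e x - y)`, `e² = e + 1`. -/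
theorem kFu_K (e x y : R) (he : e ^ 2 = e + 1) :
    kFu (x + e * y) (e * x - y) = (e + 2) ^ 5 * (e * kFv x y + kFu x y) := by
  simp only [kFv, kFu]
  linear_combination
    (-e^9*x^11 + 66*e^9*x^6*y^5 + 11*e^9*x*y^10 - e^8*x^11 + 11*e^8*x^10*y + 330*e^8*x^7*y^4
      + 66*e^8*x^6*y^5 - 396*e^8*x^5*y^6 + 110*e^8*x^2*y^9 + 11*e^8*x*y^10 - 11*e^8*y^11 - 2*e^7*x^11
      + 11*e^7*x^10*y - 55*e^7*x^9*y^2 + 660*e^7*x^8*y^3 + 330*e^7*x^7*y^4 - 1848*e^7*x^6*y^5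
      - 396*e^7*x^5*y^6 + 990*e^7*x^4*y^7 + 495*e^7*x^3*y^8 + 110*e^7*x^2*y^9 - 88*e^7*x*y^10
      - 11*e^7*y^11 - 3*e^6*x^11 + 22*e^6*x^10*y + 605*e^6*x^9*y^2 + 825*e^6*x^8*y^3 - 3300*e^6*x^7*y^4
      - 1782*e^6*x^6*y^5 + 4158*e^6*x^5*y^6 + 2310*e^6*x^4*y^7 - 825*e^6*x^3*y^8 - 275*e^6*x^2*y^9
      - 77*e^6*x*y^10 - 22*e^6*y^11 - 5*e^5*x^11 + 363*e^5*x^10*y + 550*e^5*x^9*y^2 - 2475*e^5*x^8*y^3
      - 3300*e^5*x^7*y^4 + 6270*e^5*x^6*y^5 + 6072*e^5*x^5*y^6 - 3300*e^5*x^4*y^7 - 1650*e^5*x^3*y^8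
      + 825*e^5*x^2*y^9 - 165*e^5*x*y^10 - 33*e^5*y^11 + 57*e^4*x^11 + 385*e^4*x^10*y - 825*e^4*x^9*y^2
      - 1650*e^4*x^8*y^3 + 3300*e^4*x^7*y^4 + 7656*e^4*x^6*y^5 - 2970*e^4*x^5*y^6 - 3300*e^4*x^4*y^7
      + 2475*e^4*x^3*y^8 + 550*e^4*x^2*y^9 - 627*e^4*x*y^10 - 55*e^4*y^11 + 42*e^3*x^11 + 341*e^3*x^10*y
      - 275*e^3*x^9*y^2 + 825*e^3*x^8*y^3 + 2310*e^3*x^7*y^4 + 66*e^3*x^6*y^5 - 198*e^3*x^5*y^6
      + 3300*e^3*x^4*y^7 + 825*e^3*x^3*y^8 - 605*e^3*x^2*y^9 - 682*e^3*x*y^10 - 21*e^3*y^11 + 59*e^2*x^11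
      + 616*e^2*x^10*y - 110*e^2*x^9*y^2 + 495*e^2*x^8*y^3 - 990*e^2*x^7*y^4 + 2772*e^2*x^6*y^5
      + 6072*e^2*x^5*y^6 + 330*e^2*x^4*y^7 - 660*e^2*x^3*y^8 - 55*e^2*x^2*y^9 - 539*e^2*x*y^10
      - 66*e^2*y^11 + 21*e*x^11 + 517*e*x^10*y + 110*e*x^9*y^2 + 2508*e*x^6*y^5 + 3234*e*x^5*y^6
      - 330*e*x^4*y^7 - 341*e*x*y^10 - 47*e*y^11 + 363*x^10*y + 2046*x^5*y^6 - 33*y^11) * he

open Fermat.Agent.S52.helper7043 in
theorem kFv_smul' (c x y : R) : kFv (c * x) (c * y) = c ^ 11 * kFv x y := by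
  simp only [kFv]; ring

open Fermat.Agent.S52.helper7043 in
theorem kFu_smul' (c x y : R) : kFu (c * x) (c * y) = c ^ 11 * kFu x y := by
  simp only [kFu]; ring

/-- `T` is invariant under the normalised Klein matrix `[[a, a e], [a e, -a]]`. -/
theorem kT_Knorm (e a : R) (he : e ^ 2 = e + 1) (ha : a ^ 2 * (e + 2) = -1) (u v : R) :
    kT (a * u + a * e * v) (a * e * u - a * v) = kT u v := by
  have h1 : a * u + a * e * v = a * (u + e * v) := by ring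
  have h2 : a * e * u - a * v = a * (e * u - v) := by ring
  have h30 : a ^ 30 * (e + 2) ^ 15 = -1 := by
    have e1 : a ^ 30 * (e + 2) ^ 15 = (a ^ 2 * (e + 2)) ^ 15 := by ring
    rw [e1, ha]; ring
  rw [h1, h2, kT_smul, kT_K _ _ _ he]
  linear_combination (-(kT u v)) * h30

/-- `H` is invariant under the normalised Klein matrix. -/
theorem kH_Knorm (e a : R) (he : e ^ 2 = e + 1) (ha : a ^ 2 * (e + 2) = -1) (u v : R) :
    kH (a * u + a * e * v) (a * e * u - a * v) = kH u v := by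
  have h1 : a * u + a * e * v = a * (u + e * v) := by ring
  have h2 : a * e * u - a * v = a * (e * u - v) := by ring
  have h20 : a ^ 20 * (e + 2) ^ 10 = 1 := by
    have e1 : a ^ 20 * (e + 2) ^ 10 = (a ^ 2 * (e + 2)) ^ 10 := by ring
    rw [e1, ha]; ring
  rw [h1, h2, kH_smul, kH_K _ _ _ he]
  linear_combination (kH u v) * h20

open Fermat.Agent.S52.helper7043 in
/-- Covariance of `f_v` under the normalised Klein matrix. -/
theorem kFv_Knorm (e a : R) (he : e ^ 2 = e + 1) (ha : a ^ 2 * (e + 2) = -1) (u v : R) :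
    kFv (a * u + a * e * v) (a * e * u - a * v) = -(a * e * kFu u v - a * kFv u v) := by
  have h1 : a * u + a * e * v = a * (u + e * v) := by ring
  have h2 : a * e * u - a * v = a * (e * u - v) := by ring
  have h10 : a ^ 10 * (e + 2) ^ 5 = -1 := by
    have e1 : a ^ 10 * (e + 2) ^ 5 = (a ^ 2 * (e + 2)) ^ 5 := by ring
    rw [e1, ha]; ring
  rw [h1, h2, kFv_smul', kFv_K _ _ _ he]
  linear_combination (-(a * (kFv u v - e * kFu u v))) * h10

open Fermat.Agent.S52.helper7043 in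
/-- Covariance of `f_u` under the normalised Klein matrix. -/
theorem kFu_Knorm (e a : R) (he : e ^ 2 = e + 1) (ha : a ^ 2 * (e + 2) = -1) (u v : R) :
    kFu (a * u + a * e * v) (a * e * u - a * v) = -(a * kFu u v + a * e * kFv u v) := by
  have h1 : a * u + a * e * v = a * (u + e * v) := by ring
  have h2 : a * e * u - a * v = a * (e * u - v) := by ring
  have h10 : a ^ 10 * (e + 2) ^ 5 = -1 := by
    have e1 : a ^ 10 * (e + 2) ^ 5 = (a ^ 2 * (e + 2)) ^ 5 := by ring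
    rw [e1, ha]; ring
  rw [h1, h2, kFu_smul', kFu_K _ _ _ he]
  linear_combination (a * (e * kFv u v + kFu u v)) * h10

end Cov

/-! ### The torsor lemma without `u0 ≠ 0`, `v0 ≠ 0` -/

section Gen

variable {K : Type*} [Field K]

theorem not_both_zero_of_kH (u0 v0 : K) (hH0 : kH u0 v0 ≠ 0) : ¬(u0 = 0 ∧ v0 = 0) := by
  rintro ⟨rfl, rfl⟩
  apply hH0; unfold kH; ring

/-- `case_K` with `(u0, v0) ≠ 0` only. -/
theorem case_K' (e a : K) (he : e ^ 2 = e + 1) (ha : a ^ 2 * (e + 2) = -1)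
    (u0 v0 u v ze' : K) (hze' : ze' ^ 5 = 1)
    (hH0 : kH u0 v0 ≠ 0) (hT0 : kT u0 v0 ≠ 0) (hH : kH u v = kH u0 v0) (hT : kT u v = kT u0 v0)
    (hfac : fac e u0 v0 (u ^ 5) (v ^ 5) ze' = 0) :
    ∃ lam ze : K, lam ^ 10 = 1 ∧ ze ^ 5 = 1 ∧
      u = lam * ze * (a * u0 + a * e * ze' * v0) ∧ v = lam * (a * e * u0 - a * ze' * v0) := by
  have hw0 := not_both_zero_of_kH u0 v0 hH0
  have ha0 : a ≠ 0 := by rintro rfl; simp at ha
  have he2 : e + 2 ≠ 0 := by intro h; rw [h] at ha; simp at ha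
  have hze'0 : ze' ≠ 0 := by rintro rfl; simp at hze'
  have huv : ¬(u = 0 ∧ v = 0) := by
    rintro ⟨rfl, rfl⟩
    apply hH0; rw [← hH]; unfold kH; ring
  have hpq : ¬(e * u0 - ze' * v0 = 0 ∧ u0 + e * ze' * v0 = 0) := by
    rintro ⟨h1, h2⟩
    have h3 : (e + 2) * u0 = 0 := by linear_combination e * h1 + h2 - u0 * he
    have hu0 : u0 = 0 := (mul_eq_zero.mp h3).resolve_left he2
    have h4 : ze' * v0 = 0 := by rw [hu0] at h1; linear_combination -h1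
    exact hw0 ⟨hu0, (mul_eq_zero.mp h4).resolve_left hze'0⟩
  have h5 : (u * (e * u0 - ze' * v0)) ^ 5 = (v * (u0 + e * ze' * v0)) ^ 5 := by
    unfold fac at hfac
    rw [mul_pow, mul_pow]; linear_combination hfac
  obtain ⟨m, ze, hze, hu, hv⟩ := prop_of_pow5 u v _ _ h5 huv hpq
  -- scalar equations
  have hHm : kH u v = m ^ 20 * (e + 2) ^ 10 * kH u0 v0 := by
    rw [hu, hv, show m * ze * (u0 + e * ze' * v0) = m * (ze * (u0 + e * (ze' * v0))) by ring,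
      show e * u0 - ze' * v0 = e * u0 - (ze' * v0) by ring, kH_smul, kH_diag_left _ _ _ hze,
      kH_K _ _ _ he, kH_diag_right _ _ _ hze']
    ring
  have hTm : kT u v = -(m ^ 30 * (e + 2) ^ 15 * kT u0 v0) := by
    rw [hu, hv, show m * ze * (u0 + e * ze' * v0) = m * (ze * (u0 + e * (ze' * v0))) by ring,
      show e * u0 - ze' * v0 = e * u0 - (ze' * v0) by ring, kT_smul, kT_diag_left _ _ _ hze,
      kT_K _ _ _ he, kT_diag_right _ _ _ hze']
    ring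
  have h20 : m ^ 20 * (e + 2) ^ 10 = 1 := by
    have : (m ^ 20 * (e + 2) ^ 10 - 1) * kH u0 v0 = 0 := by linear_combination hH - hHm
    rcases mul_eq_zero.mp this with h | h
    · linear_combination h
    · exact absurd h hH0
  have h30 : m ^ 30 * (-(e + 2) ^ 15) = 1 := by
    have : (m ^ 30 * (-(e + 2) ^ 15) - 1) * kT u0 v0 = 0 := by linear_combination hT - hTm
    rcases mul_eq_zero.mp this with h | h
    · linear_combination h
    · exact absurd h hT0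
  have ha20 : a ^ 20 * (e + 2) ^ 10 = 1 := by
    have : a ^ 20 * (e + 2) ^ 10 = (a ^ 2 * (e + 2)) ^ 10 := by ring
    rw [this, ha]; norm_num
  have ha30 : a ^ 30 * (e + 2) ^ 15 = -1 := by
    have : a ^ 30 * (e + 2) ^ 15 = (a ^ 2 * (e + 2)) ^ 15 := by ring
    rw [this, ha]; norm_num
  refine ⟨m / a, ze, ?_, hze, ?_, ?_⟩
  · apply pow_ten_of m ((e + 2) ^ 10) (-(e + 2) ^ 15) h20 h30
    · rw [div_pow, div_eq_iff (pow_ne_zero 20 ha0)]
      linear_combination (-(m ^ 20)) * ha20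
    · rw [div_pow, div_eq_iff (pow_ne_zero 30 ha0)]
      linear_combination (m ^ 30) * ha30
  · rw [hu]; field_simp
  · rw [hv]; field_simp

/-- `case_SK` with `(u0, v0) ≠ 0` only. -/
theorem case_SK' (e a : K) (he : e ^ 2 = e + 1) (ha : a ^ 2 * (e + 2) = -1)
    (u0 v0 u v ze' : K) (hze' : ze' ^ 5 = 1)
    (hH0 : kH u0 v0 ≠ 0) (hT0 : kT u0 v0 ≠ 0) (hH : kH u v = kH u0 v0) (hT : kT u v = kT u0 v0)
    (hfac : fac e u0 v0 (-(v ^ 5)) (u ^ 5) ze' = 0) :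
    ∃ lam ze : K, lam ^ 10 = 1 ∧ ze ^ 5 = 1 ∧
      u = lam * ze * (a * e * u0 - a * ze' * v0) ∧ v = -(lam * (a * u0 + a * e * ze' * v0)) := by
  have hw0 := not_both_zero_of_kH u0 v0 hH0
  have ha0 : a ≠ 0 := by rintro rfl; simp at ha
  have he2 : e + 2 ≠ 0 := by intro h; rw [h] at ha; simp at ha
  have hze'0 : ze' ≠ 0 := by rintro rfl; simp at hze'
  have huv : ¬(u = 0 ∧ -v = 0) := by
    rintro ⟨rfl, hv⟩
    have hv' : v = 0 := by linear_combination -hv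
    subst hv'
    apply hH0; rw [← hH]; unfold kH; ring
  have hpq : ¬(u0 + e * ze' * v0 = 0 ∧ e * u0 - ze' * v0 = 0) := by
    rintro ⟨h2, h1⟩
    have h3 : (e + 2) * u0 = 0 := by linear_combination e * h1 + h2 - u0 * he
    have hu0 : u0 = 0 := (mul_eq_zero.mp h3).resolve_left he2
    have h4 : ze' * v0 = 0 := by rw [hu0] at h1; linear_combination -h1
    exact hw0 ⟨hu0, (mul_eq_zero.mp h4).resolve_left hze'0⟩
  have h5 : (u * (u0 + e * ze' * v0)) ^ 5 = (-v * (e * u0 - ze' * v0)) ^ 5 := by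
    unfold fac at hfac
    rw [mul_pow, mul_pow]; linear_combination -hfac
  obtain ⟨m, ze, hze, hu, hv⟩ := prop_of_pow5 u (-v) _ _ h5 huv hpq
  have hv' : v = m * (-(u0 + e * ze' * v0)) := by linear_combination -hv
  have hHm : kH u v = m ^ 20 * (e + 2) ^ 10 * kH u0 v0 := by
    rw [hu, hv', show m * ze * (e * u0 - ze' * v0) = m * (ze * (e * u0 - (ze' * v0))) by ring,
      show u0 + e * ze' * v0 = u0 + e * (ze' * v0) by ring, kH_smul, kH_diag_left _ _ _ hze,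
      kH_S, kH_K _ _ _ he, kH_diag_right _ _ _ hze']
    ring
  have hTm : kT u v = -(m ^ 30 * (e + 2) ^ 15 * kT u0 v0) := by
    rw [hu, hv', show m * ze * (e * u0 - ze' * v0) = m * (ze * (e * u0 - (ze' * v0))) by ring,
      show u0 + e * ze' * v0 = u0 + e * (ze' * v0) by ring, kT_smul, kT_diag_left _ _ _ hze,
      kT_S, kT_K _ _ _ he, kT_diag_right _ _ _ hze']
    ring
  have h20 : m ^ 20 * (e + 2) ^ 10 = 1 := by
    have : (m ^ 20 * (e + 2) ^ 10 - 1) * kH u0 v0 = 0 := by linear_combination hH - hHm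
    rcases mul_eq_zero.mp this with h | h
    · linear_combination h
    · exact absurd h hH0
  have h30 : m ^ 30 * (-(e + 2) ^ 15) = 1 := by
    have : (m ^ 30 * (-(e + 2) ^ 15) - 1) * kT u0 v0 = 0 := by linear_combination hT - hTm
    rcases mul_eq_zero.mp this with h | h
    · linear_combination h
    · exact absurd h hT0
  have ha20 : a ^ 20 * (e + 2) ^ 10 = 1 := by
    have : a ^ 20 * (e + 2) ^ 10 = (a ^ 2 * (e + 2)) ^ 10 := by ring
    rw [this, ha]; norm_num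
  have ha30 : a ^ 30 * (e + 2) ^ 15 = -1 := by
    have : a ^ 30 * (e + 2) ^ 15 = (a ^ 2 * (e + 2)) ^ 15 := by ring
    rw [this, ha]; norm_num
  refine ⟨m / a, ze, ?_, hze, ?_, ?_⟩
  · apply pow_ten_of m ((e + 2) ^ 10) (-(e + 2) ^ 15) h20 h30
    · rw [div_pow, div_eq_iff (pow_ne_zero 20 ha0)]
      linear_combination (-(m ^ 20)) * ha20
    · rw [div_pow, div_eq_iff (pow_ne_zero 30 ha0)]
      linear_combination (m ^ 30) * ha30
  · rw [hu]; field_simp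
  · rw [hv']; field_simp

/-- `case_one` with `(u0, v0) ≠ 0` only. -/
theorem case_one' (u0 v0 u v : K)
    (hH0 : kH u0 v0 ≠ 0) (hT0 : kT u0 v0 ≠ 0) (hH : kH u v = kH u0 v0) (hT : kT u v = kT u0 v0)
    (hfac : u ^ 5 * v0 ^ 5 - v ^ 5 * u0 ^ 5 = 0) :
    ∃ lam ze : K, lam ^ 10 = 1 ∧ ze ^ 5 = 1 ∧ u = lam * ze * u0 ∧ v = lam * v0 := by
  have hw0 := not_both_zero_of_kH u0 v0 hH0
  have huv : ¬(u = 0 ∧ v = 0) := by
    rintro ⟨rfl, rfl⟩
    apply hH0; rw [← hH]; unfold kH; ring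
  have h5 : (u * v0) ^ 5 = (v * u0) ^ 5 := by rw [mul_pow, mul_pow]; linear_combination hfac
  obtain ⟨m, ze, hze, hu, hv⟩ := prop_of_pow5 u v v0 u0 h5 huv (fun h => hw0 ⟨h.2, h.1⟩)
  have hHm : kH u v = m ^ 20 * kH u0 v0 := by
    rw [hu, hv, show m * ze * u0 = m * (ze * u0) by ring, kH_smul, kH_diag_left _ _ _ hze]
  have hTm : kT u v = m ^ 30 * kT u0 v0 := by
    rw [hu, hv, show m * ze * u0 = m * (ze * u0) by ring, kT_smul, kT_diag_left _ _ _ hze]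
  have h20 : m ^ 20 * 1 = 1 := by
    have : (m ^ 20 - 1) * kH u0 v0 = 0 := by linear_combination hH - hHm
    rcases mul_eq_zero.mp this with h | h
    · linear_combination h
    · exact absurd h hH0
  have h30 : m ^ 30 * 1 = 1 := by
    have : (m ^ 30 - 1) * kT u0 v0 = 0 := by linear_combination hT - hTm
    rcases mul_eq_zero.mp this with h | h
    · linear_combination h
    · exact absurd h hT0
  exact ⟨m, ze, pow_ten_of m 1 1 h20 h30 m (mul_one _).symm (mul_one _).symm, hze, hu, hv⟩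

/-- `case_S` with `(u0, v0) ≠ 0` only. -/
theorem case_S' (u0 v0 u v : K)
    (hH0 : kH u0 v0 ≠ 0) (hT0 : kT u0 v0 ≠ 0) (hH : kH u v = kH u0 v0) (hT : kT u v = kT u0 v0)
    (hfac : u ^ 5 * u0 ^ 5 + v ^ 5 * v0 ^ 5 = 0) :
    ∃ lam ze : K, lam ^ 10 = 1 ∧ ze ^ 5 = 1 ∧ u = lam * ze * v0 ∧ v = -(lam * u0) := by
  have hw0 := not_both_zero_of_kH u0 v0 hH0
  have huv : ¬(u = 0 ∧ -v = 0) := by
    rintro ⟨rfl, hv⟩
    have hv' : v = 0 := by linear_combination -hv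
    subst hv'
    apply hH0; rw [← hH]; unfold kH; ring
  have h5 : (u * u0) ^ 5 = (-v * v0) ^ 5 := by rw [mul_pow, mul_pow]; linear_combination hfac
  obtain ⟨m, ze, hze, hu, hv⟩ := prop_of_pow5 u (-v) u0 v0 h5 huv hw0
  have hv' : v = m * (-u0) := by linear_combination -hv
  have hHm : kH u v = m ^ 20 * kH u0 v0 := by
    rw [hu, hv', show m * ze * v0 = m * (ze * v0) by ring, kH_smul, kH_diag_left _ _ _ hze, kH_S]
  have hTm : kT u v = m ^ 30 * kT u0 v0 := by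
    rw [hu, hv', show m * ze * v0 = m * (ze * v0) by ring, kT_smul, kT_diag_left _ _ _ hze, kT_S]
  have h20 : m ^ 20 * 1 = 1 := by
    have : (m ^ 20 - 1) * kH u0 v0 = 0 := by linear_combination hH - hHm
    rcases mul_eq_zero.mp this with h | h
    · linear_combination h
    · exact absurd h hH0
  have h30 : m ^ 30 * 1 = 1 := by
    have : (m ^ 30 - 1) * kT u0 v0 = 0 := by linear_combination hT - hTm
    rcases mul_eq_zero.mp this with h | h
    · linear_combination h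
    · exact absurd h hT0
  refine ⟨m, ze, pow_ten_of m 1 1 h20 h30 m (mul_one _).symm (mul_one _).symm, hze, hu, ?_⟩
  rw [hv']; ring

/-- **Torsor lemma, general form.** No hypothesis `u0 ≠ 0`, `v0 ≠ 0`; the fifth root of unity
`ze'` replaces `z ^ k`. -/
theorem fibre_subset_orbit_gen (z e a : K) (hz : z ^ 4 + z ^ 3 + z ^ 2 + z + 1 = 0)
    (he : e ^ 2 = e + 1) (ha : a ^ 2 * (e + 2) = -1) (h2 : (2 : K) ≠ 0) (h3 : (3 : K) ≠ 0)
    (u0 v0 u v : K) (hH : kH u v = kH u0 v0) (hT : kT u v = kT u0 v0)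
    (hH0 : kH u0 v0 ≠ 0) (hT0 : kT u0 v0 ≠ 0) :
    ∃ lam ze ze' : K, lam ^ 10 = 1 ∧ ze ^ 5 = 1 ∧ ze' ^ 5 = 1 ∧
      ((u = lam * ze * u0 ∧ v = lam * v0) ∨
       (u = lam * ze * v0 ∧ v = -(lam * u0)) ∨
       (u = lam * ze * (a * u0 + a * e * ze' * v0) ∧ v = lam * (a * e * u0 - a * ze' * v0)) ∨
       (u = lam * ze * (a * e * u0 - a * ze' * v0) ∧
         v = -(lam * (a * u0 + a * e * ze' * v0)))) := by
  have hz5 : z ^ 5 = 1 := by linear_combination (z - 1) * hz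
  have hzk : ∀ k : ℕ, (z ^ k) ^ 5 = 1 := fun k => by rw [← pow_mul, mul_comm, pow_mul, hz5, one_pow]
  have hL : hH4 (u0 ^ 5) (v0 ^ 5) ^ 3 * hT6 (u ^ 5) (v ^ 5) ^ 2
      - hH4 (u ^ 5) (v ^ 5) ^ 3 * hT6 (u0 ^ 5) (v0 ^ 5) ^ 2 = 0 := by
    rw [← kH_eq, ← kH_eq, ← kT_eq, ← kT_eq, hH, hT]; ring
  have hF1 := F1 e (u0 ^ 5) (v0 ^ 5) (u ^ 5) (v ^ 5) he
  rw [hL, mul_zero] at hF1
  have h1728 : (1728 : K) ≠ 0 := by
    have : (1728 : K) = 2 ^ 6 * 3 ^ 3 := by norm_num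
    rw [this]; exact mul_ne_zero (pow_ne_zero _ h2) (pow_ne_zero _ h3)
  rcases mul_eq_zero.mp hF1 with h | h
  · exact absurd h h1728
  rcases mul_eq_zero.mp h with h | hD
  · rcases mul_eq_zero.mp h with h | hC
    · rcases mul_eq_zero.mp h with hA | hB
      · obtain ⟨lam, ze, h1, h2', h3', h4'⟩ := case_one' u0 v0 u v hH0 hT0 hH hT hA
        exact ⟨lam, ze, 1, h1, h2', one_pow 5, Or.inl ⟨h3', h4'⟩⟩
      · obtain ⟨lam, ze, h1, h2', h3', h4'⟩ := case_S' u0 v0 u v hH0 hT0 hH hT hB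
        exact ⟨lam, ze, 1, h1, h2', one_pow 5, Or.inr (Or.inl ⟨h3', h4'⟩)⟩
    · rw [← prod5 e u0 v0 (u ^ 5) (v ^ 5) z he hz] at hC
      have key : ∀ k : ℕ, fac e u0 v0 (u ^ 5) (v ^ 5) (z ^ k) = 0 →
          ∃ lam ze ze' : K, lam ^ 10 = 1 ∧ ze ^ 5 = 1 ∧ ze' ^ 5 = 1 ∧
            ((u = lam * ze * u0 ∧ v = lam * v0) ∨
             (u = lam * ze * v0 ∧ v = -(lam * u0)) ∨
             (u = lam * ze * (a * u0 + a * e * ze' * v0) ∧
               v = lam * (a * e * u0 - a * ze' * v0)) ∨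
             (u = lam * ze * (a * e * u0 - a * ze' * v0) ∧
               v = -(lam * (a * u0 + a * e * ze' * v0)))) := by
        intro k hfac
        obtain ⟨lam, ze, h1, h2', h3', h4'⟩ :=
          case_K' e a he ha u0 v0 u v (z ^ k) (hzk k) hH0 hT0 hH hT hfac
        exact ⟨lam, ze, z ^ k, h1, h2', hzk k, Or.inr (Or.inr (Or.inl ⟨h3', h4'⟩))⟩
      rcases mul_eq_zero.mp hC with h | h0
      · rcases mul_eq_zero.mp h with h | h4
        · rcases mul_eq_zero.mp h with h | h3'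
          · rcases mul_eq_zero.mp h with h1 | h2'
            · exact key 1 (by rw [pow_one]; exact h1)
            · exact key 2 h2'
          · exact key 3 h3'
        · exact key 4 h4
      · exact key 0 (by rw [pow_zero]; exact h0)
  · have hD' : G5 e (u0 ^ 5) (v0 ^ 5) (-(v ^ 5)) (u ^ 5) = 0 := by linear_combination -hD
    rw [← prod5 e u0 v0 (-(v ^ 5)) (u ^ 5) z he hz] at hD'
    have key : ∀ k : ℕ, fac e u0 v0 (-(v ^ 5)) (u ^ 5) (z ^ k) = 0 →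
        ∃ lam ze ze' : K, lam ^ 10 = 1 ∧ ze ^ 5 = 1 ∧ ze' ^ 5 = 1 ∧
          ((u = lam * ze * u0 ∧ v = lam * v0) ∨
           (u = lam * ze * v0 ∧ v = -(lam * u0)) ∨
           (u = lam * ze * (a * u0 + a * e * ze' * v0) ∧
             v = lam * (a * e * u0 - a * ze' * v0)) ∨
           (u = lam * ze * (a * e * u0 - a * ze' * v0) ∧
             v = -(lam * (a * u0 + a * e * ze' * v0)))) := by
      intro k hfac
      obtain ⟨lam, ze, h1, h2', h3', h4'⟩ :=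
        case_SK' e a he ha u0 v0 u v (z ^ k) (hzk k) hH0 hT0 hH hT hfac
      exact ⟨lam, ze, z ^ k, h1, h2', hzk k, Or.inr (Or.inr (Or.inr ⟨h3', h4'⟩))⟩
    rcases mul_eq_zero.mp hD' with h | h0
    · rcases mul_eq_zero.mp h with h | h4
      · rcases mul_eq_zero.mp h with h | h3'
        · rcases mul_eq_zero.mp h with h1 | h2'
          · exact key 1 (by rw [pow_one]; exact h1)
          · exact key 2 h2'
        · exact key 3 h3'
      · exact key 4 h4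
    · exact key 0 (by rw [pow_zero]; exact h0)

/-- **Torsor lemma with Klein's constants** (`a = kleinA z`, `b = kleinB z`): the fibre of
`(kH, kT)` through `(u0, v0)` consists of the points `lam · diag(ze, 1) · g · diag(1, ze') · (u0, v0)`,
`g ∈ {1, S, K, S K}`, `K = [[a, b], [b, -a]]`. -/
theorem fibre_subset_orbit_ab (z : K) (hz : z ^ 4 + z ^ 3 + z ^ 2 + z + 1 = 0)
    (h2 : (2 : K) ≠ 0) (h3 : (3 : K) ≠ 0) (h5 : (5 : K) ≠ 0)
    (u0 v0 u v : K) (hH : kH u v = kH u0 v0) (hT : kT u v = kT u0 v0)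
    (hH0 : kH u0 v0 ≠ 0) (hT0 : kT u0 v0 ≠ 0) :
    ∃ lam ze ze' : K, lam ^ 10 = 1 ∧ ze ^ 5 = 1 ∧ ze' ^ 5 = 1 ∧
      ((u = lam * ze * u0 ∧ v = lam * v0) ∨
       (u = lam * ze * v0 ∧ v = -(lam * u0)) ∨
       (u = lam * ze * (kleinA z * u0 + kleinB z * ze' * v0) ∧
         v = lam * (kleinB z * u0 - kleinA z * ze' * v0)) ∨
       (u = lam * ze * (kleinB z * u0 - kleinA z * ze' * v0) ∧
         v = -(lam * (kleinA z * u0 + kleinB z * ze' * v0)))) := by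
  rw [kleinB_eq z hz h5]
  exact fibre_subset_orbit_gen z (kleinE z) (kleinA z) hz (kleinE_sq z hz) (kleinA_sq z hz h5)
    h2 h3 u0 v0 u v hH hT hH0 hT0

end Gen

/-! ### Specialisation to `Qb` and block AUXP -/

section Qbar

open Polynomial
open Fermat.Agent.S52.helper52

/-- There is a primitive fifth root of unity in `Qb`. -/
theorem exists_zeta5 : ∃ z : Qb, z ^ 4 + z ^ 3 + z ^ 2 + z + 1 = 0 := by
  have : Fact (Nat.Prime 5) := ⟨by norm_num⟩
  have hdeg : (cyclotomic 5 Qb).degree ≠ 0 := (degree_cyclotomic_pos 5 _ (by norm_num)).ne'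
  obtain ⟨z, hz⟩ := IsAlgClosed.exists_root _ hdeg
  refine ⟨z, ?_⟩
  rw [cyclotomic_prime, IsRoot.def] at hz
  simp only [Finset.sum_range_succ, Finset.sum_range_zero, eval_add, eval_pow, eval_X,
    pow_zero, pow_one, zero_add, eval_one] at hz
  linear_combination hz

/-- The torsor statement of `helper52_RootInst`, for Klein's constants. -/
theorem stmt_Torsor (z : Qb) (hz : z ^ 4 + z ^ 3 + z ^ 2 + z + 1 = 0) :
    Stmt_Torsor (kleinA z) (kleinB z) := fun u0 v0 u v hH hT hH0 hT0 =>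
  fibre_subset_orbit_ab z hz two_ne_zero three_ne_zero (by norm_num) u0 v0 u v hH hT hH0 hT0

theorem sigma_kleinA (σ : GQ) (z : Qb) (hσz : σ z = z) : σ (kleinA z) = kleinA z := by
  unfold kleinA
  simp only [map_div₀, map_add, map_sub, map_mul, map_pow, map_neg, map_one, map_ofNat, hσz]

theorem sigma_kleinB (σ : GQ) (z : Qb) (hσz : σ z = z) : σ (kleinB z) = kleinB z := by
  unfold kleinB
  simp only [map_div₀, map_add, map_mul, map_pow, map_ofNat, hσz]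

theorem hKT (z : Qb) (hz : z ^ 4 + z ^ 3 + z ^ 2 + z + 1 = 0) (u v : Qb) :
    Fermat.Agent.S52.helper424.kT (kleinA z * u + kleinB z * v) (kleinB z * u - kleinA z * v)
      = Fermat.Agent.S52.helper424.kT u v := by
  rw [kleinB_eq z hz (by norm_num)]
  exact kT_Knorm (kleinE z) (kleinA z) (kleinE_sq z hz) (kleinA_sq z hz (by norm_num)) u v

theorem hKu (z : Qb) (hz : z ^ 4 + z ^ 3 + z ^ 2 + z + 1 = 0) (u v : Qb) :
    Fermat.Agent.S52.helper7043.kFu (kleinA z * u + kleinB z * v) (kleinB z * u - kleinA z * v)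
      = -(kleinA z * Fermat.Agent.S52.helper7043.kFu u v
          + kleinB z * Fermat.Agent.S52.helper7043.kFv u v) := by
  rw [kleinB_eq z hz (by norm_num)]
  exact kFu_Knorm (kleinE z) (kleinA z) (kleinE_sq z hz) (kleinA_sq z hz (by norm_num)) u v

theorem hKv (z : Qb) (hz : z ^ 4 + z ^ 3 + z ^ 2 + z + 1 = 0) (u v : Qb) :
    Fermat.Agent.S52.helper7043.kFv (kleinA z * u + kleinB z * v) (kleinB z * u - kleinA z * v)
      = -(kleinB z * Fermat.Agent.S52.helper7043.kFu u v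
          - kleinA z * Fermat.Agent.S52.helper7043.kFv u v) := by
  rw [kleinB_eq z hz (by norm_num)]
  exact kFv_Knorm (kleinE z) (kleinA z) (kleinE_sq z hz) (kleinA_sq z hz (by norm_num)) u v

/-- **Block AUXP from LINK alone**: `helper52.hB_of_torsor` with the torsor, Klein's matrix and
its identities discharged. -/
theorem hB_of_link (C4 C6 : ℚ[X]) (c4 c6 : ℤ) (hc4 : c4 ≠ 0) (hc6 : c6 ≠ 0)
    (hΔ : c4 ^ 3 - c6 ^ 2 ≠ 0)
    (hlink : ∀ u v t : Qb, Fermat.Agent.S52.helper424.kH u v = -(c4 : Qb) →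
      Fermat.Agent.S52.helper424.kT u v = -(c6 : Qb) →
      Fermat.Agent.S52.helper424.kH (Fermat.Agent.S52.helper7043.pencilU u v t)
          (Fermat.Agent.S52.helper7043.pencilV u v t) = -(aeval t C4) ∧
      Fermat.Agent.S52.helper424.kT (Fermat.Agent.S52.helper7043.pencilU u v t)
          (Fermat.Agent.S52.helper7043.pencilV u v t) = -(aeval t C6)) :
    HB C4 C6 := by
  obtain ⟨z, hz⟩ := exists_zeta5
  have hz5 : z ^ 5 = 1 := by linear_combination (z - 1) * hz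
  have hfix : ∀ σ : GQ, (∀ x : Qb, x ^ 20 = 1 → σ x = x) → σ z = z := fun σ hσ =>
    hσ z (by rw [show 20 = 5 * 4 from rfl, pow_mul, hz5, one_pow])
  exact hB_of_torsor C4 C6 c4 c6 hc4 hc6 hΔ hlink (kleinA z) (kleinB z)
    (kleinA_sq_add_kleinB_sq z hz (by norm_num))
    (fun σ hσ => sigma_kleinA σ z (hfix σ hσ)) (fun σ hσ => sigma_kleinB σ z (hfix σ hσ))
    (hKT z hz) (hKu z hz) (hKv z hz) (stmt_Torsor z hz)

end Qbar

end Fermat.Agent.S52.helper6116
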