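import Mathlib
import Fermat.Agent.S05.helper959_Good
import Fermat.Agent.S05.helper1297_Ker
import Fermat.Agent.Lib.helper54_Frobenius

/-!
# S52 (L2), part 1 (helper6335): reduction of prime-to-residue-characteristic torsion

`K` a field, `A` a valuation subring of `K` with residue field `k`, `WA` a Weierstrass curve
with coefficients in `A` whose reduction `WA.map (residue A)` has nonzero discriminant.

* `GoodTorsion A W p`: the `p`-torsion points of `W(K)` have coordinates in `A`, distinct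
  `x`-coordinates of `p`-torsion points differ by a unit, and `y - negY x y` is a unit at every
  affine `p`-torsion point.
* `redFun`: coordinatewise reduction of points (junk value `0` on non-integral points).
* `redFun_add`: additivity of `redFun` on `p`-torsion points, `redFun_injOn`: injectivity.
* `goodTorsion_of_shape`: `GoodTorsion` for curves in shape coordinates with good reduction,
  from the landed S05 bricks (`KerStmt`, x-only formulas).
-/

set_option autoImplicit false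
set_option linter.unusedSectionVars false

namespace Fermat.Agent.S52.helper6335

open WeierstrassCurve WeierstrassCurve.Affine

section abstract

variable {K : Type*} [Field K] [DecidableEq K] (A : ValuationSubring K)

/-- Good behaviour of the `p`-torsion of `W(K)` with respect to the valuation subring `A`. -/
structure GoodTorsion (W : WeierstrassCurve K) (p : ℕ) : Prop where
  int : ∀ (x y : K) (h : W.toAffine.Nonsingular x y),
    p • (Point.some x y h : W.toAffine.Point) = 0 → x ∈ A ∧ y ∈ A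
  sepX : ∀ (x₁ y₁ x₂ y₂ : K) (h₁ : W.toAffine.Nonsingular x₁ y₁)
    (h₂ : W.toAffine.Nonsingular x₂ y₂),
    p • (Point.some x₁ y₁ h₁ : W.toAffine.Point) = 0 →
    p • (Point.some x₂ y₂ h₂ : W.toAffine.Point) = 0 → x₁ ≠ x₂ → x₁ - x₂ ∉ A.nonunits
  sepY : ∀ (x y : K) (h : W.toAffine.Nonsingular x y),
    p • (Point.some x y h : W.toAffine.Point) = 0 → y - W.toAffine.negY x y ∉ A.nonunits

variable {A}

/-- A point of `WA.map A.subtype` with coordinates in `A` is a point of `WA`. -/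
theorem equation_of_mem (WA : WeierstrassCurve A) {x y : K} (hx : x ∈ A) (hy : y ∈ A)
    (h : (WA.map A.subtype).toAffine.Equation x y) : WA.toAffine.Equation ⟨x, hx⟩ ⟨y, hy⟩ :=
  (Affine.map_equation (W := WA.toAffine) (f := A.subtype) Subtype.val_injective ⟨x, hx⟩ ⟨y, hy⟩).1 h

/-- The reduction of an integral point is a nonsingular point of the reduced curve. -/
theorem red_nonsingular (WA : WeierstrassCurve A)
    (hΔ : (WA.map (IsLocalRing.residue A)).Δ ≠ 0) {x y : K} (hx : x ∈ A) (hy : y ∈ A)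
    (h : (WA.map A.subtype).toAffine.Nonsingular x y) :
    (WA.map (IsLocalRing.residue A)).toAffine.Nonsingular
      (IsLocalRing.residue A ⟨x, hx⟩) (IsLocalRing.residue A ⟨y, hy⟩) :=
  ((WA.map (IsLocalRing.residue A)).toAffine.equation_iff_nonsingular_of_Δ_ne_zero hΔ).1
    (Affine.Equation.map (IsLocalRing.residue A) (equation_of_mem WA hx hy h.1))

open Classical in
/-- Coordinatewise reduction of points (junk value `0` on non-integral points). -/
noncomputable def redFun (WA : WeierstrassCurve A)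
    (hΔ : (WA.map (IsLocalRing.residue A)).Δ ≠ 0) :
    (WA.map A.subtype).toAffine.Point → (WA.map (IsLocalRing.residue A)).toAffine.Point
  | .zero => 0
  | .some x y h =>
    if hxy : x ∈ A ∧ y ∈ A then
      .some (IsLocalRing.residue A ⟨x, hxy.1⟩) (IsLocalRing.residue A ⟨y, hxy.2⟩)
        (red_nonsingular WA hΔ hxy.1 hxy.2 h)
    else 0

theorem redFun_zero (WA : WeierstrassCurve A) (hΔ : (WA.map (IsLocalRing.residue A)).Δ ≠ 0) :
    redFun WA hΔ 0 = 0 := rfl

theorem redFun_some (WA : WeierstrassCurve A) (hΔ : (WA.map (IsLocalRing.residue A)).Δ ≠ 0)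
    {x y : K} (h : (WA.map A.subtype).toAffine.Nonsingular x y) (hx : x ∈ A) (hy : y ∈ A) :
    redFun WA hΔ (.some x y h) =
      .some (IsLocalRing.residue A ⟨x, hx⟩) (IsLocalRing.residue A ⟨y, hy⟩)
        (red_nonsingular WA hΔ hx hy h) := by
  simp only [redFun]
  rw [dif_pos ⟨hx, hy⟩]

/-- Division by a unit of `A` and its residue. -/
theorem div_mem_residue {a d : K} (ha : a ∈ A) (hd : d ∈ A) (hdu : d ∉ A.nonunits) :
    ∃ h : a / d ∈ A, IsLocalRing.residue A ⟨d, hd⟩ ≠ 0 ∧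
      IsLocalRing.residue A ⟨a / d, h⟩ =
        IsLocalRing.residue A ⟨a, ha⟩ / IsLocalRing.residue A ⟨d, hd⟩ := by
  have hd0 : d ≠ 0 := by
    rintro rfl
    exact hdu (A.mem_nonunits_iff.2 (by simp))
  have hinv : d⁻¹ ∈ A := by
    by_contra hcon
    exact hdu (A.mem_nonunits_iff_or.2 (Or.inr hcon))
  have h : a / d ∈ A := by
    rw [div_eq_mul_inv]; exact A.mul_mem _ _ ha hinv
  have hres : IsLocalRing.residue A ⟨d, hd⟩ ≠ 0 := by
    rw [Ne, IsLocalRing.residue_eq_zero_iff, ← A.coe_mem_nonunits_iff]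
    exact hdu
  refine ⟨h, hres, ?_⟩
  rw [eq_div_iff hres, ← map_mul]
  congr 1
  exact Subtype.ext (div_mul_cancel₀ a hd0)

variable [DecidableEq (IsLocalRing.ResidueField A)]

/-- The slope of two integral points in general position modulo the maximal ideal is integral
and reduces to the slope of the reduced points. -/
theorem slope_red (WA : WeierstrassCurve A) {x₁ y₁ x₂ y₂ : K}
    (hx₁ : x₁ ∈ A) (hy₁ : y₁ ∈ A) (hx₂ : x₂ ∈ A) (hy₂ : y₂ ∈ A)
    (h₁ : (WA.map A.subtype).toAffine.Equation x₁ y₁)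
    (h₂ : (WA.map A.subtype).toAffine.Equation x₂ y₂)
    (hxy : ¬(x₁ = x₂ ∧ y₁ = (WA.map A.subtype).toAffine.negY x₂ y₂))
    (hX : x₁ ≠ x₂ → x₁ - x₂ ∉ A.nonunits)
    (hY : x₁ = x₂ → y₁ - (WA.map A.subtype).toAffine.negY x₁ y₁ ∉ A.nonunits) :
    ¬(IsLocalRing.residue A ⟨x₁, hx₁⟩ = IsLocalRing.residue A ⟨x₂, hx₂⟩ ∧
        IsLocalRing.residue A ⟨y₁, hy₁⟩ = (WA.map (IsLocalRing.residue A)).toAffine.negY
          (IsLocalRing.residue A ⟨x₂, hx₂⟩) (IsLocalRing.residue A ⟨y₂, hy₂⟩)) ∧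
    ∃ L : A, (L : K) = (WA.map A.subtype).toAffine.slope x₁ x₂ y₁ y₂ ∧
      IsLocalRing.residue A L = (WA.map (IsLocalRing.residue A)).toAffine.slope
        (IsLocalRing.residue A ⟨x₁, hx₁⟩) (IsLocalRing.residue A ⟨x₂, hx₂⟩)
        (IsLocalRing.residue A ⟨y₁, hy₁⟩) (IsLocalRing.residue A ⟨y₂, hy₂⟩) := by
  by_cases hx : x₁ = x₂
  · subst hx
    have hy : y₁ ≠ (WA.map A.subtype).toAffine.negY x₁ y₂ := fun h => hxy ⟨rfl, h⟩
    have hyy : y₁ = y₂ := by
      rcases Affine.Y_eq_of_X_eq h₁ h₂ rfl with h | h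
      · exact h
      · exact absurd h hy
    subst hyy
    have hneg : (WA.map A.subtype).toAffine.negY x₁ y₁ =
        ((WA.toAffine.negY ⟨x₁, hx₁⟩ ⟨y₁, hy₁⟩ : A) : K) :=
      Affine.map_negY (W' := WA.toAffine) A.subtype ⟨x₁, hx₁⟩ ⟨y₁, hy₁⟩
    have hnegk : (WA.map (IsLocalRing.residue A)).toAffine.negY
        (IsLocalRing.residue A ⟨x₁, hx₁⟩) (IsLocalRing.residue A ⟨y₁, hy₁⟩) =
        IsLocalRing.residue A (WA.toAffine.negY ⟨x₁, hx₁⟩ ⟨y₁, hy₁⟩) :=
      Affine.map_negY (W' := WA.toAffine) (IsLocalRing.residue A) ⟨x₁, hx₁⟩ ⟨y₁, hy₁⟩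
    -- the denominator
    have hd : y₁ - (WA.map A.subtype).toAffine.negY x₁ y₁ ∈ A := by
      rw [hneg]; exact A.sub_mem hy₁ (Subtype.mem _)
    have hdA : (⟨y₁ - (WA.map A.subtype).toAffine.negY x₁ y₁, hd⟩ : A) =
        ⟨y₁, hy₁⟩ - WA.toAffine.negY ⟨x₁, hx₁⟩ ⟨y₁, hy₁⟩ := by
      apply Subtype.ext
      show y₁ - (WA.map A.subtype).toAffine.negY x₁ y₁ =
        y₁ - ((WA.toAffine.negY ⟨x₁, hx₁⟩ ⟨y₁, hy₁⟩ : A) : K)
      rw [hneg]
    -- the numerator
    have hn : A.subtype (3 * (⟨x₁, hx₁⟩ : A) ^ 2 + 2 * WA.a₂ * ⟨x₁, hx₁⟩ + WA.a₄ -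
          WA.a₁ * ⟨y₁, hy₁⟩) =
        3 * x₁ ^ 2 + 2 * (WA.map A.subtype).a₂ * x₁ + (WA.map A.subtype).a₄ -
          (WA.map A.subtype).a₁ * y₁ := by
      simp only [map_add, map_sub, map_mul, map_pow, map_ofNat, WeierstrassCurve.map]
      rfl
    have hnm : 3 * x₁ ^ 2 + 2 * (WA.map A.subtype).a₂ * x₁ + (WA.map A.subtype).a₄ -
          (WA.map A.subtype).a₁ * y₁ ∈ A := by
      rw [← hn]
      exact (3 * (⟨x₁, hx₁⟩ : A) ^ 2 + 2 * WA.a₂ * (⟨x₁, hx₁⟩ : A) + WA.a₄ -
        WA.a₁ * (⟨y₁, hy₁⟩ : A) : A).2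
    have hnA : (⟨3 * x₁ ^ 2 + 2 * (WA.map A.subtype).a₂ * x₁ + (WA.map A.subtype).a₄ -
          (WA.map A.subtype).a₁ * y₁, hnm⟩ : A) =
          3 * (⟨x₁, hx₁⟩ : A) ^ 2 + 2 * WA.a₂ * ⟨x₁, hx₁⟩ + WA.a₄ - WA.a₁ * ⟨y₁, hy₁⟩ :=
      Subtype.ext hn.symm
    obtain ⟨hL, hres, hLr⟩ := div_mem_residue hnm hd (hY rfl)
    have hyk : IsLocalRing.residue A ⟨y₁, hy₁⟩ ≠ (WA.map (IsLocalRing.residue A)).toAffine.negY
          (IsLocalRing.residue A ⟨x₁, hx₁⟩) (IsLocalRing.residue A ⟨y₁, hy₁⟩) := by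
      rw [hnegk, Ne, ← sub_eq_zero, ← map_sub, ← hdA]
      exact hres
    refine ⟨fun h => hyk h.2, ⟨_, hL⟩, ?_, ?_⟩
    · rw [Affine.slope_of_Y_ne rfl hy]
    · rw [hLr, Affine.slope_of_Y_ne rfl hyk, hnegk, hdA, map_sub]
      rw [hnA]
      simp only [map_add, map_sub, map_mul, map_pow, map_ofNat, WeierstrassCurve.map]
  · have hd : x₁ - x₂ ∈ A := A.sub_mem hx₁ hx₂
    have hnm : y₁ - y₂ ∈ A := A.sub_mem hy₁ hy₂
    obtain ⟨hL, hres, hLr⟩ := div_mem_residue hnm hd (hX hx)
    have hxk : IsLocalRing.residue A ⟨x₁, hx₁⟩ ≠ IsLocalRing.residue A ⟨x₂, hx₂⟩ := by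
      rw [Ne, ← sub_eq_zero, ← map_sub]
      exact hres
    refine ⟨fun h => hxk h.1, ⟨_, hL⟩, ?_, ?_⟩
    · rw [Affine.slope_of_X_ne hx]
    · rw [hLr, Affine.slope_of_X_ne hxk, ← map_sub, ← map_sub]
      rfl

/-- Additivity of the reduction on `p`-torsion points. -/
theorem redFun_add (WA : WeierstrassCurve A) (hΔ : (WA.map (IsLocalRing.residue A)).Δ ≠ 0)
    {p : ℕ} (hG : GoodTorsion A (WA.map A.subtype) p)
    (P Q : (WA.map A.subtype).toAffine.Point) (hP : p • P = 0) (hQ : p • Q = 0) :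
    redFun WA hΔ (P + Q) = redFun WA hΔ P + redFun WA hΔ Q := by
  rcases P with _ | ⟨x₁, y₁, h₁⟩
  · change redFun WA hΔ (0 + Q) = redFun WA hΔ 0 + redFun WA hΔ Q
    rw [zero_add, redFun_zero, zero_add]
  rcases Q with _ | ⟨x₂, y₂, h₂⟩
  · change redFun WA hΔ (Point.some x₁ y₁ h₁ + 0) =
      redFun WA hΔ (Point.some x₁ y₁ h₁) + redFun WA hΔ 0
    rw [add_zero, redFun_zero, add_zero]
  obtain ⟨hx₁, hy₁⟩ := hG.int x₁ y₁ h₁ hP
  obtain ⟨hx₂, hy₂⟩ := hG.int x₂ y₂ h₂ hQ
  rw [redFun_some WA hΔ h₁ hx₁ hy₁, redFun_some WA hΔ h₂ hx₂ hy₂]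
  by_cases hxy : x₁ = x₂ ∧ y₁ = (WA.map A.subtype).toAffine.negY x₂ y₂
  · rw [Point.add_of_Y_eq hxy.1 hxy.2, redFun_zero]
    symm
    apply Point.add_of_Y_eq
    · exact congrArg _ (Subtype.ext hxy.1)
    · have hneg : (WA.map A.subtype).toAffine.negY x₂ y₂ =
          ((WA.toAffine.negY ⟨x₂, hx₂⟩ ⟨y₂, hy₂⟩ : A) : K) :=
        Affine.map_negY (W' := WA.toAffine) A.subtype ⟨x₂, hx₂⟩ ⟨y₂, hy₂⟩
      have hnegk : (WA.map (IsLocalRing.residue A)).toAffine.negY
          (IsLocalRing.residue A ⟨x₂, hx₂⟩) (IsLocalRing.residue A ⟨y₂, hy₂⟩) =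
          IsLocalRing.residue A (WA.toAffine.negY ⟨x₂, hx₂⟩ ⟨y₂, hy₂⟩) :=
        Affine.map_negY (W' := WA.toAffine) (IsLocalRing.residue A) ⟨x₂, hx₂⟩ ⟨y₂, hy₂⟩
      rw [hnegk]
      exact congrArg _ (Subtype.ext (hxy.2.trans hneg))
  · have hX : x₁ ≠ x₂ → x₁ - x₂ ∉ A.nonunits := hG.sepX x₁ y₁ x₂ y₂ h₁ h₂ hP hQ
    have hY : x₁ = x₂ → y₁ - (WA.map A.subtype).toAffine.negY x₁ y₁ ∉ A.nonunits :=
      fun _ => hG.sepY x₁ y₁ h₁ hP
    obtain ⟨hxy', L, hL, hLr⟩ := slope_red WA hx₁ hy₁ hx₂ hy₂ h₁.1 h₂.1 hxy hX hY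
    have hX3 : (WA.map A.subtype).toAffine.addX x₁ x₂
        ((WA.map A.subtype).toAffine.slope x₁ x₂ y₁ y₂) =
        ((WA.toAffine.addX ⟨x₁, hx₁⟩ ⟨x₂, hx₂⟩ L : A) : K) := by
      rw [← hL]
      exact Affine.map_addX (W' := WA.toAffine) A.subtype ⟨x₁, hx₁⟩ ⟨x₂, hx₂⟩ L
    have hY3 : (WA.map A.subtype).toAffine.addY x₁ x₂ y₁
        ((WA.map A.subtype).toAffine.slope x₁ x₂ y₁ y₂) =
        ((WA.toAffine.addY ⟨x₁, hx₁⟩ ⟨x₂, hx₂⟩ ⟨y₁, hy₁⟩ L : A) : K) := by
      rw [← hL]
      exact Affine.map_addY (W' := WA.toAffine) A.subtype ⟨x₁, hx₁⟩ ⟨y₁, hy₁⟩ ⟨x₂, hx₂⟩ L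
    have hX3m : (WA.map A.subtype).toAffine.addX x₁ x₂
        ((WA.map A.subtype).toAffine.slope x₁ x₂ y₁ y₂) ∈ A := by
      rw [hX3]; exact (WA.toAffine.addX ⟨x₁, hx₁⟩ ⟨x₂, hx₂⟩ L).2
    have hY3m : (WA.map A.subtype).toAffine.addY x₁ x₂ y₁
        ((WA.map A.subtype).toAffine.slope x₁ x₂ y₁ y₂) ∈ A := by
      rw [hY3]; exact (WA.toAffine.addY ⟨x₁, hx₁⟩ ⟨x₂, hx₂⟩ ⟨y₁, hy₁⟩ L).2
    rw [Point.add_some hxy, Point.add_some hxy', redFun_some WA hΔ _ hX3m hY3m,
      Point.some.injEq]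
    constructor
    · rw [← hLr]
      rw [Affine.map_addX (W' := WA.toAffine) (IsLocalRing.residue A) ⟨x₁, hx₁⟩ ⟨x₂, hx₂⟩ L]
      exact congrArg _ (Subtype.ext hX3)
    · rw [← hLr]
      rw [Affine.map_addY (W' := WA.toAffine) (IsLocalRing.residue A) ⟨x₁, hx₁⟩ ⟨y₁, hy₁⟩
        ⟨x₂, hx₂⟩ L]
      exact congrArg _ (Subtype.ext hY3)

/-- A nonzero `p`-torsion point does not reduce to zero. -/
theorem redFun_ne_zero (WA : WeierstrassCurve A) (hΔ : (WA.map (IsLocalRing.residue A)).Δ ≠ 0)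
    {p : ℕ} (hG : GoodTorsion A (WA.map A.subtype) p)
    (P : (WA.map A.subtype).toAffine.Point) (hP : p • P = 0) (h0 : redFun WA hΔ P = 0) :
    P = 0 := by
  rcases P with _ | ⟨x, y, h⟩
  · rfl
  · obtain ⟨hx, hy⟩ := hG.int x y h hP
    rw [redFun_some WA hΔ h hx hy] at h0
    exact absurd h0 (Point.some_ne_zero _)

/-- The reduction homomorphism on the `p`-torsion subgroup. -/
noncomputable def redHom (WA : WeierstrassCurve A)
    (hΔ : (WA.map (IsLocalRing.residue A)).Δ ≠ 0)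
    {p : ℕ} (hG : GoodTorsion A (WA.map A.subtype) p) :
    Submodule.torsionBy ℤ (WA.map A.subtype).toAffine.Point (p : ℤ) →+
      (WA.map (IsLocalRing.residue A)).toAffine.Point where
  toFun P := redFun WA hΔ P.1
  map_zero' := rfl
  map_add' P Q := by
    have hP : p • (P.1) = 0 := by
      have := P.2
      rwa [Submodule.mem_torsionBy_iff, natCast_zsmul] at this
    have hQ : p • (Q.1) = 0 := by
      have := Q.2
      rwa [Submodule.mem_torsionBy_iff, natCast_zsmul] at this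
    exact redFun_add WA hΔ hG P.1 Q.1 hP hQ

theorem redHom_injective (WA : WeierstrassCurve A)
    (hΔ : (WA.map (IsLocalRing.residue A)).Δ ≠ 0)
    {p : ℕ} (hG : GoodTorsion A (WA.map A.subtype) p) :
    Function.Injective (redHom WA hΔ hG) := by
  rw [injective_iff_map_eq_zero]
  intro P hP0
  have hP : p • (P.1) = 0 := by
    have := P.2
    rwa [Submodule.mem_torsionBy_iff, natCast_zsmul] at this
  exact Subtype.ext (redFun_ne_zero WA hΔ hG P.1 hP hP0)

/-- **Reduction homomorphism** (transport-friendly form): for `WK = WA.map A.subtype` and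
`Wk = WA.map (residue A)` with `Wk.Δ ≠ 0` and good `p`-torsion, coordinatewise reduction is an
injective additive map from the `p`-torsion of `WK(K)` to `Wk(k)`. -/
theorem exists_redHom (WA : WeierstrassCurve A) (WK : WeierstrassCurve K)
    (hK : WA.map A.subtype = WK) (Wk : WeierstrassCurve (IsLocalRing.ResidueField A))
    (hk : WA.map (IsLocalRing.residue A) = Wk) (hΔ : Wk.Δ ≠ 0) (p : ℕ)
    (hG : GoodTorsion A WK p) :
    ∃ red : Submodule.torsionBy ℤ WK.toAffine.Point (p : ℤ) →+ Wk.toAffine.Point,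
      Function.Injective red ∧
      ∀ (x y : K) (h : WK.toAffine.Nonsingular x y)
        (hp : Point.some x y h ∈ Submodule.torsionBy ℤ WK.toAffine.Point (p : ℤ)),
        ∃ (hx : x ∈ A) (hy : y ∈ A)
          (h' : Wk.toAffine.Nonsingular (IsLocalRing.residue A ⟨x, hx⟩)
            (IsLocalRing.residue A ⟨y, hy⟩)),
          red ⟨Point.some x y h, hp⟩ = Point.some _ _ h' := by
  subst hK hk
  refine ⟨redHom WA hΔ hG, redHom_injective WA hΔ hG, ?_⟩
  intro x y h hp
  have hP : p • (Point.some x y h : (WA.map A.subtype).toAffine.Point) = 0 := by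
    rwa [Submodule.mem_torsionBy_iff, natCast_zsmul] at hp
  obtain ⟨hx, hy⟩ := hG.int x y h hP
  exact ⟨hx, hy, red_nonsingular WA hΔ hx hy h, redFun_some WA hΔ h hx hy⟩

end abstract

section shape

open Fermat.Agent.S05.helper305 (Shape eta)
open Fermat.Agent.S05.helper959

variable {K : Type} [Field K] [DecidableEq K]

/-- A point killed by `2` and by an odd number is zero. -/
theorem eq_zero_of_two_of_odd {G : Type*} [AddCommGroup G] (P : G) {p : ℕ} (hp : ¬ 2 ∣ p)
    (h2 : P + P = 0) (hP : p • P = 0) : P = 0 := by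
  obtain ⟨m, hm⟩ : ∃ m, p = 2 * m + 1 := by
    have := Nat.odd_iff.mpr (Nat.two_dvd_ne_zero.mp hp)
    obtain ⟨m, hm⟩ := this
    exact ⟨m, hm⟩
  rw [hm, add_smul, mul_comm, mul_smul, two_smul, h2, smul_zero, zero_add, one_smul] at hP
  exact hP

/-- **Good torsion from the S05 bricks**: for a curve in shape coordinates with good reduction
at a valuation subring `A` of odd residue characteristic, and an odd prime `p` which is a unit
of `A`, the `p`-torsion is integral and separated modulo the maximal ideal. -/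
theorem goodTorsion_of_shape (hKer : Fermat.Agent.S05.helper5.KerStmt) (A : ValuationSubring K)
    (W : WeierstrassCurve K) (e al be : K) (hS : Shape W e al be)
    (h2 : A.valuation 2 = 1) (he : e ∈ A) (hal : al ∈ A) (hbe : A.valuation be = 1)
    (hdisc : A.valuation (al ^ 2 - 4 * be) = 1) (ha1 : W.a₁ ∈ A) (ha3 : W.a₃ ∈ A)
    (p : ℕ) (hp : p.Prime) (hp2 : p ≠ 2) (hvp : A.valuation (p : K) = 1) :
    GoodTorsion A W p := by
  have two_ne := hS.two_ne
  have hal' : A.valuation al ≤ 1 := (A.valuation_le_one_iff al).2 hal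
  have he' : A.valuation e ≤ 1 := (A.valuation_le_one_iff e).2 he
  have h4 := v_four A.valuation h2
  have hker : ∀ (X Y : K) (hXY : W.toAffine.Nonsingular X Y),
      p • (Point.some X Y hXY : W.toAffine.Point) = 0 → A.valuation (X - e) ≤ 1 := by
    intro X Y hXY hpt
    by_contra hlt
    exact hKer K A.ValueGroup A.valuation W e al be hS h2 hal' hbe.le p hp hp2 hvp X Y hXY
      (not_le.mp hlt) hpt
  have hp2' : ¬ 2 ∣ p := fun h => hp2 ((Nat.prime_dvd_prime_iff_eq Nat.prime_two hp).1 h).symm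
  have hηle : ∀ (x y : K) (h : W.toAffine.Nonsingular x y),
      p • (Point.some x y h : W.toAffine.Point) = 0 → A.valuation (eta W x y) ≤ 1 := by
    intro x y h hP
    have hξ := hker x y h hP
    have hcurve : eta W x y ^ 2 = (x - e) * ((x - e) ^ 2 + al * (x - e) + be) :=
      (hS.equation_iff x y).1 h.1
    apply vle_of_sq A.valuation
    rw [hcurve]
    refine vle_mul _ hξ (vle_add _ (vle_add _ ?_ (vle_mul _ hal' hξ)) hbe.le)
    rw [pow_two]; exact vle_mul _ hξ hξ
  refine ⟨?_, ?_, ?_⟩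
  · -- integrality
    intro x y h hP
    have hξ := hker x y h hP
    have hx : A.valuation x ≤ 1 := by
      have : x = (x - e) + e := by ring
      rw [this]; exact vle_add _ hξ he'
    have hη := hηle x y h hP
    have hhalf : A.valuation ((2 : K)⁻¹) ≤ 1 := by
      rw [map_inv₀, h2, inv_one]
    have hy : A.valuation y ≤ 1 := by
      have : y = eta W x y - (W.a₁ * x + W.a₃) * 2⁻¹ := by
        simp only [eta]; ring
      rw [this]
      exact vle_sub _ hη (vle_mul _ (vle_add _ (vle_mul _ ((A.valuation_le_one_iff _).2 ha1) hx)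
        ((A.valuation_le_one_iff _).2 ha3)) hhalf)
    exact ⟨(A.valuation_le_one_iff x).1 hx, (A.valuation_le_one_iff y).1 hy⟩
  · -- separation of x-coordinates
    intro x₁ y₁ x₂ y₂ h₁ h₂ hP₁ hP₂ hne hcon
    have hδ : A.valuation (x₁ - x₂) < 1 := A.mem_nonunits_iff.1 hcon
    obtain ⟨Xp, Yp, Xm, Ym, hp', hm', hadd, hsub, hprod, hsum⟩ := kum_add_sub hS h₁ h₂ hne
    have hXp : A.valuation (Xp - e) ≤ 1 := by
      apply hker Xp Yp hp'
      rw [← hadd, smul_add, hP₁, hP₂, add_zero]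
    have hXm : A.valuation (Xm - e) ≤ 1 := by
      apply hker Xm Ym hm'
      rw [← hsub, smul_sub, hP₁, hP₂, sub_zero]
    have hδ2 : A.valuation ((x₁ - x₂) ^ 2) < 1 := by
      rw [pow_two]; exact vlt_mul _ hδ.le hδ
    have hu : A.valuation ((x₁ - e) * (x₂ - e) - be) < 1 := by
      apply vlt_of_sq A.valuation
      rw [← hprod]
      exact vlt_mul _ (vle_mul _ hXp hXm) hδ2
    have hs : A.valuation (2 * ((x₁ - e) + (x₂ - e)) * ((x₁ - e) * (x₂ - e) + be)
        + 4 * al * (x₁ - e) * (x₂ - e)) < 1 := by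
      rw [← hsum]
      exact vlt_mul _ (vle_add _ hXp hXm) hδ2
    have hδ' : A.valuation ((x₁ - e) - (x₂ - e)) < 1 := by
      have h3 : x₁ - e - (x₂ - e) = x₁ - x₂ := by ring
      rwa [h3]
    exact not_both_small A.valuation h2 hal' hbe hdisc (hker x₁ y₁ h₁ hP₁) (hker x₂ y₂ h₂ hP₂)
      hδ' hu hs
  · -- `y - negY x y` is a unit
    intro x y h hP hcon
    have hδ : A.valuation (y - W.toAffine.negY x y) < 1 := A.mem_nonunits_iff.1 hcon
    have hξ := hker x y h hP
    have hy' : y ≠ W.toAffine.negY x y := by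
      intro hy
      have h2P : (Point.some x y h : W.toAffine.Point) + Point.some x y h = 0 :=
        Point.add_self_of_Y_eq hy
      exact Point.some_ne_zero h (eq_zero_of_two_of_odd _ hp2' h2P hP)
    obtain ⟨X, Y, hXY, hadd, hdbl⟩ := kum_dbl hS h hy'
    have hX : A.valuation (X - e) ≤ 1 := by
      apply hker X Y hXY
      rw [← hadd, smul_add, hP, add_zero]
    have hcurve : eta W x y ^ 2 = (x - e) * ((x - e) ^ 2 + al * (x - e) + be) :=
      (hS.equation_iff x y).1 h.1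
    have h2η : y - W.toAffine.negY x y = 2 * eta W x y := by
      rw [Fermat.Agent.S05.helper305.two_mul_eta W two_ne]; simp only [Affine.negY]; ring
    have hη : A.valuation (eta W x y) < 1 := by
      rw [h2η] at hδ
      exact vlt_of_unit_mul _ h2 hδ
    have hw : A.valuation ((x - e) * ((x - e) ^ 2 + al * (x - e) + be)) < 1 := by
      rw [← hcurve, pow_two]; exact vlt_mul _ hη.le hη
    have hu : A.valuation ((x - e) ^ 2 - be) < 1 := by
      apply vlt_of_sq A.valuation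
      rw [← hdbl]
      exact vlt_mul _ hX (vlt_mul _ h4.le hw)
    exact dbl_contra A.valuation h2 hal' hbe hdisc hξ hw hu

/-- Integers lie in every valuation subring. -/
theorem intCast_mem_valuationSubring {L : Type*} [Field L] (A : ValuationSubring L) (n : ℤ) :
    (n : L) ∈ A := intCast_mem A n

/-- **Shape coordinates for an integral model**: over an algebraically closed field `K` with a
valuation subring `A` in which `2` and the discriminant are units, the curve
`W.map (Int.castRingHom K)` has shape coordinates `(e, al, be)` with `e, al ∈ A` and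
`be`, `al² - 4 be` units of `A`. -/
theorem exists_shape [IsAlgClosed K] (A : ValuationSubring K) (W : WeierstrassCurve ℤ)
    (h2 : A.valuation 2 = 1) (hΔ : A.valuation ((W.Δ : ℤ) : K) = 1) :
    ∃ e al be : K, Shape (W.map (Int.castRingHom K)) e al be ∧ e ∈ A ∧ al ∈ A ∧
      A.valuation be = 1 ∧ A.valuation (al ^ 2 - 4 * be) = 1 := by
  have two_ne : (2 : K) ≠ 0 := by
    rintro h0
    rw [h0, map_zero] at h2
    exact zero_ne_one h2
  have four_ne : (4 : K) ≠ 0 := by
    have : (4 : K) = 2 * 2 := by norm_num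
    rw [this]; exact mul_ne_zero two_ne two_ne
  have h4 := v_four A.valuation h2
  have hb2 : (W.map (Int.castRingHom K)).b₂ = ((W.b₂ : ℤ) : K) := by
    rw [WeierstrassCurve.map_b₂]; rfl
  have hb4 : (W.map (Int.castRingHom K)).b₄ = ((W.b₄ : ℤ) : K) := by
    rw [WeierstrassCurve.map_b₄]; rfl
  have hb6 : (W.map (Int.castRingHom K)).b₆ = ((W.b₆ : ℤ) : K) := by
    rw [WeierstrassCurve.map_b₆]; rfl
  have hDelta : (W.map (Int.castRingHom K)).Δ = ((W.Δ : ℤ) : K) := by
    rw [WeierstrassCurve.map_Δ]; rfl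
  -- a root of the 2-division cubic
  obtain ⟨e, he⟩ : ∃ e : K, 4 * e ^ 3 + ((W.b₂ : ℤ) : K) * e ^ 2 + 2 * ((W.b₄ : ℤ) : K) * e +
      ((W.b₆ : ℤ) : K) = 0 := by
    have hdeg : (Polynomial.C (4 : K) * Polynomial.X ^ 3 +
        Polynomial.C ((W.b₂ : ℤ) : K) * Polynomial.X ^ 2 +
        Polynomial.C (2 * ((W.b₄ : ℤ) : K)) * Polynomial.X +
        Polynomial.C ((W.b₆ : ℤ) : K)).degree ≠ 0 := by
      rw [Polynomial.degree_cubic four_ne]; decide
    obtain ⟨e, he⟩ := IsAlgClosed.exists_root _ hdeg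
    refine ⟨e, ?_⟩
    simpa [Polynomial.IsRoot] using he
  -- integrality of `4 e`
  have hint : _root_.IsIntegral ℤ (4 * e) := by
    refine ⟨Polynomial.X ^ 3 + (Polynomial.C W.b₂ * Polynomial.X ^ 2 +
      Polynomial.C (8 * W.b₄) * Polynomial.X + Polynomial.C (16 * W.b₆)), ?_, ?_⟩
    · apply Polynomial.monic_X_pow_add
      exact lt_of_le_of_lt Polynomial.degree_quadratic_le (by decide)
    · rw [Polynomial.eval₂_add, Polynomial.eval₂_add, Polynomial.eval₂_add,
        Polynomial.eval₂_mul, Polynomial.eval₂_mul, Polynomial.eval₂_pow, Polynomial.eval₂_pow,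
        Polynomial.eval₂_X, Polynomial.eval₂_C, Polynomial.eval₂_C, Polynomial.eval₂_C]
      simp only [eq_intCast]
      push_cast
      linear_combination 16 * he
  have h4e : 4 * e ∈ A := Fermat.Agent.Lib.helper54.mem_valuationSubring_of_isIntegral A _ hint
  have hev : A.valuation e ≤ 1 := by
    have := (A.valuation_le_one_iff _).2 h4e
    rwa [map_mul, h4, one_mul] at this
  have hbv : ∀ n : ℤ, A.valuation ((n : ℤ) : K) ≤ 1 := fun n =>
    (A.valuation_le_one_iff _).2 (intCast_mem_valuationSubring A n)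
  have h2' : A.valuation 2 ≤ 1 := h2.le
  have h4' : A.valuation 4 ≤ 1 := h4.le
  have h12 : A.valuation 12 ≤ 1 := by
    have : (12 : K) = ((12 : ℤ) : K) := by norm_num
    rw [this]; exact hbv 12
  have h6 : A.valuation 6 ≤ 1 := by
    have : (6 : K) = ((6 : ℤ) : K) := by norm_num
    rw [this]; exact hbv 6
  have h16 : A.valuation 16 = 1 := by
    have : (16 : K) = 4 * 4 := by norm_num
    rw [this, map_mul, h4, one_mul]
  set al : K := (((W.b₂ : ℤ) : K) + 12 * e) / 4 with hal_def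
  set be : K := (((W.b₄ : ℤ) : K) - 6 * e ^ 2 + 4 * al * e) / 2 with hbe_def
  have halv : A.valuation al ≤ 1 := by
    rw [hal_def, map_div₀, h4, div_one]
    exact vle_add _ (hbv _) (vle_mul _ h12 hev)
  have hbev : A.valuation be ≤ 1 := by
    rw [hbe_def, map_div₀, h2, div_one]
    refine vle_add _ (vle_sub _ (hbv _) (vle_mul _ h6 ?_)) (vle_mul _ (vle_mul _ h4' halv) hev)
    rw [pow_two]; exact vle_mul _ hev hev
  have hS : Shape (W.map (Int.castRingHom K)) e al be := by
    refine ⟨two_ne, ?_, ?_, ?_⟩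
    · rw [hb2, hal_def]; field_simp; ring
    · rw [hb4, hbe_def, hal_def]; field_simp; ring
    · rw [hb6, hbe_def, hal_def]; field_simp; linear_combination 2 * he
  have hb8 := shape_b8 hS
  have hΔeq : ((W.Δ : ℤ) : K) = 16 * be ^ 2 * (al ^ 2 - 4 * be) := by
    rw [← hDelta, WeierstrassCurve.Δ, hb8, hS.hb2, hS.hb4, hS.hb6]
    ring
  have hdv : A.valuation (al ^ 2 - 4 * be) ≤ 1 := by
    refine vle_sub _ ?_ (vle_mul _ h4' hbev)
    rw [pow_two]; exact vle_mul _ halv halv
  have hbe2 : A.valuation (be ^ 2) ≤ 1 := by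
    rw [pow_two]; exact vle_mul _ hbev hbev
  refine ⟨e, al, be, hS, (A.valuation_le_one_iff _).1 hev, (A.valuation_le_one_iff _).1 halv,
    ?_, ?_⟩
  · by_contra hne
    have hlt : A.valuation be < 1 := lt_of_le_of_ne hbev hne
    have : A.valuation ((W.Δ : ℤ) : K) < 1 := by
      rw [hΔeq]
      refine vlt_mul' _ (vlt_mul _ h16.le ?_) hdv
      rw [pow_two]; exact vlt_mul _ hbev hlt
    rw [hΔ] at this
    exact lt_irrefl _ this
  · by_contra hne
    have hlt : A.valuation (al ^ 2 - 4 * be) < 1 := lt_of_le_of_ne hdv hne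
    have : A.valuation ((W.Δ : ℤ) : K) < 1 := by
      rw [hΔeq]
      exact vlt_mul _ (vle_mul _ h16.le hbe2) hlt
    rw [hΔ] at this
    exact lt_irrefl _ this

/-- Good torsion for an integral model: `K` algebraically closed, `A` a valuation subring in
which `2`, the discriminant and the odd prime `p` are units. -/
theorem goodTorsion_int [IsAlgClosed K] (A : ValuationSubring K) (W : WeierstrassCurve ℤ)
    (h2 : A.valuation 2 = 1) (hΔ : A.valuation ((W.Δ : ℤ) : K) = 1)
    (p : ℕ) (hp : p.Prime) (hp2 : p ≠ 2) (hvp : A.valuation (p : K) = 1) :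
    GoodTorsion A (W.map (Int.castRingHom K)) p := by
  obtain ⟨e, al, be, hS, he, hal, hbe, hdisc⟩ := exists_shape A W h2 hΔ
  refine goodTorsion_of_shape Fermat.Agent.S05.helper1297.ker A _ e al be hS h2 he hal hbe hdisc
    ?_ ?_ p hp hp2 hvp
  · rw [WeierstrassCurve.map_a₁]; exact intCast_mem_valuationSubring A _
  · rw [WeierstrassCurve.map_a₃]; exact intCast_mem_valuationSubring A _

/-- **Reduction of `p`-torsion for an integral model** (the form consumed downstream).
`K` algebraically closed (e.g. `AlgebraicClosure ℚ`), `A` a valuation subring of `K` with residue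
field `k`, `W` a Weierstrass curve over `ℤ`, `2`, `W.Δ` and the odd prime `p` units of `A`.
For ANY presentations `WK`, `Wk` of the base changes of `W` to `K` and `k`, coordinatewise
reduction is an injective additive map `WK[p](K) → Wk(k)`. -/
theorem exists_redHom_int [IsAlgClosed K] (A : ValuationSubring K)
    [DecidableEq (IsLocalRing.ResidueField A)] (W : WeierstrassCurve ℤ)
    (h2 : A.valuation 2 = 1) (hΔ : A.valuation ((W.Δ : ℤ) : K) = 1)
    (p : ℕ) (hp : p.Prime) (hp2 : p ≠ 2) (hvp : A.valuation (p : K) = 1)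
    (WK : WeierstrassCurve K) (hK : W.map (Int.castRingHom K) = WK)
    (Wk : WeierstrassCurve (IsLocalRing.ResidueField A))
    (hk : W.map (Int.castRingHom (IsLocalRing.ResidueField A)) = Wk) :
    ∃ red : Submodule.torsionBy ℤ WK.toAffine.Point (p : ℤ) →+ Wk.toAffine.Point,
      Function.Injective red ∧
      ∀ (x y : K) (h : WK.toAffine.Nonsingular x y)
        (hp : Point.some x y h ∈ Submodule.torsionBy ℤ WK.toAffine.Point (p : ℤ)),
        ∃ (hx : x ∈ A) (hy : y ∈ A)
          (h' : Wk.toAffine.Nonsingular (IsLocalRing.residue A ⟨x, hx⟩)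
            (IsLocalRing.residue A ⟨y, hy⟩)),
          red ⟨Point.some x y h, hp⟩ = Point.some _ _ h' := by
  have hG := goodTorsion_int A W h2 hΔ p hp hp2 hvp
  have e1 : (W.map (Int.castRingHom A)).map A.subtype = WK := by
    rw [WeierstrassCurve.map_map, ← hK]
    congr 1
  have e2 : (W.map (Int.castRingHom A)).map (IsLocalRing.residue A) = Wk := by
    rw [WeierstrassCurve.map_map, ← hk]
    congr 1
  have hΔk : Wk.Δ ≠ 0 := by
    rw [← e2, WeierstrassCurve.map_Δ, WeierstrassCurve.map_Δ, Ne,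
      IsLocalRing.residue_eq_zero_iff, ← A.coe_mem_nonunits_iff, A.mem_nonunits_iff]
    have : ((Int.castRingHom A W.Δ : A) : K) = ((W.Δ : ℤ) : K) := by simp
    rw [this, hΔ]
    exact lt_irrefl _
  rw [hK] at hG
  exact exists_redHom (W.map (Int.castRingHom A)) WK e1 Wk e2 hΔk p hG

end shape

end Fermat.Agent.S52.helper6335
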