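import Mathlib
import Fermat.Prelude.Def_FLTPrelim_Modularity
import Fermat.Prelude.Def_FLTPrelim_GaloisRep
import Fermat.Prelude.Def_FLTPrelim_Ramification
import Fermat.Prelude.Def_EllipticCurve_FrobeniusTrace
import Fermat.Agent.S52.helper6335_Reduce
import Fermat.Agent.S52.helper3731_FrobAdapter

/-!
# S52 (L2), part 2 (helper6335): from `ℚ̄` to the residue field of a place

* `isAlgClosed_residueField`: the residue field of a valuation subring of an algebraically closed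
  field is algebraically closed.
* `lifted_CH`: Frobenius Cayley–Hamilton on the reduction of an integral model at a good prime
  `ℓ ≠ 2, 5` lifts to the relation `σ² - a σ + ℓ = 0` on `W[5](ℚ̄)` for every Frobenius element
  `σ` at a place of `ℚ̄` over `ℓ`.
* `five_dvd_apOfModel_sub`: the consumer in the frozen vocabulary: a Galois-equivariant injective
  additive map `W[5](ℚ̄) → W'[5](ℚ̄)` forces `5 ∣ a_ℓ(W') - a_ℓ(W)` at common good primes `ℓ ≥ 7`.
-/

set_option autoImplicit false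
set_option linter.unusedSectionVars false

namespace Fermat.Agent.S52.helper6335

open WeierstrassCurve WeierstrassCurve.Affine

/-- The residue field of a valuation subring of an algebraically closed field is algebraically
closed. -/
theorem isAlgClosed_residueField {K : Type*} [Field K] [IsAlgClosed K] (A : ValuationSubring K) :
    IsAlgClosed (IsLocalRing.ResidueField A) := by
  apply IsAlgClosed.of_exists_root
  intro p hp hirr
  obtain ⟨q, hq, hdeg, hqm⟩ := Polynomial.lifts_and_natDegree_eq_and_monic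
    ((Polynomial.mem_lifts _).2 (Polynomial.map_surjective (IsLocalRing.residue A)
      IsLocalRing.residue_surjective p)) hp
  have hqdeg : (q.map A.subtype).degree ≠ 0 := by
    rw [Polynomial.degree_map_eq_of_injective Subtype.val_injective]
    intro h0
    have h1 : q.natDegree = 0 := Polynomial.natDegree_eq_zero_iff_degree_le_zero.2 h0.le
    rw [hdeg] at h1
    exact hirr.natDegree_pos.ne' h1
  obtain ⟨α, hα⟩ := IsAlgClosed.exists_root (q.map A.subtype) hqdeg
  have hint : IsIntegral A α := ⟨q, hqm, by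
    rw [Polynomial.IsRoot, Polynomial.eval_map] at hα
    exact hα⟩
  obtain ⟨y, hy⟩ := IsIntegrallyClosed.isIntegral_iff.mp hint
  refine ⟨IsLocalRing.residue A y, ?_⟩
  have hy0 : q.eval y = 0 := by
    apply Subtype.val_injective
    rw [Polynomial.IsRoot, Polynomial.eval_map, ← hy] at hα
    have : ((q.eval y : A) : K) = Polynomial.eval₂ A.subtype (algebraMap A K y) q :=
      (Polynomial.eval₂_at_apply (p := q) A.subtype y).symm
    rw [this]
    exact hα
  rw [← hq, Polynomial.eval_map, Polynomial.eval₂_at_apply, hy0, map_zero]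

local notation "Qb" => AlgebraicClosure ℚ

/-- Integers prime to `ℓ` are units at every place of `ℚ̄` over `ℓ`. -/
theorem valuation_intCast_eq_one {ℓ : ℕ} (hℓ : ℓ.Prime) (A : ValuationSubring Qb)
    (hA : A.LiesOverPrime ℓ) (n : ℤ) (hn : ¬ (ℓ : ℤ) ∣ n) : A.valuation ((n : ℤ) : Qb) = 1 := by
  have hle : A.valuation ((n : ℤ) : Qb) ≤ 1 :=
    (A.valuation_le_one_iff _).2 (intCast_mem_valuationSubring A n)
  have hℓlt : A.valuation ((ℓ : ℕ) : Qb) < 1 := A.mem_nonunits_iff.1 hA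
  refine le_antisymm hle (not_lt.1 fun hlt => ?_)
  have hcop : IsCoprime (ℓ : ℤ) n :=
    (Nat.prime_iff_prime_int.mp hℓ).irreducible.coprime_iff_not_dvd.mpr hn
  obtain ⟨a, b, hab⟩ := hcop
  have h1 : ((a : ℤ) : Qb) * ((ℓ : ℕ) : Qb) + ((b : ℤ) : Qb) * ((n : ℤ) : Qb) = 1 := by
    have := congrArg (Int.cast : ℤ → Qb) hab
    push_cast at this
    exact this
  have hlt1 : A.valuation (((a : ℤ) : Qb) * ((ℓ : ℕ) : Qb) + ((b : ℤ) : Qb) * ((n : ℤ) : Qb)) < 1 :=
    Fermat.Agent.S05.helper959.vlt_add _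
      (Fermat.Agent.S05.helper959.vlt_mul _
        ((A.valuation_le_one_iff _).2 (intCast_mem_valuationSubring A a)) hℓlt)
      (Fermat.Agent.S05.helper959.vlt_mul _
        ((A.valuation_le_one_iff _).2 (intCast_mem_valuationSubring A b)) hlt)
  rw [h1, map_one] at hlt1
  exact lt_irrefl _ hlt1

/-- The residue field at a place over `ℓ` has characteristic `ℓ`. -/
theorem charP_residueField {ℓ : ℕ} (hℓ : ℓ.Prime) (A : ValuationSubring Qb)
    (hA : A.LiesOverPrime ℓ) : CharP (IsLocalRing.ResidueField A) ℓ := by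
  have h0 : ((ℓ : ℕ) : IsLocalRing.ResidueField A) = 0 := by
    have : ((ℓ : ℕ) : IsLocalRing.ResidueField A) = IsLocalRing.residue A ((ℓ : ℕ) : A) := by
      simp
    rw [this, IsLocalRing.residue_eq_zero_iff, ← A.coe_mem_nonunits_iff]
    have hA' : ((ℓ : ℕ) : Qb) ∈ A.nonunits := hA
    exact_mod_cast hA'
  obtain ⟨c, hc⟩ := CharP.exists (IsLocalRing.ResidueField A)
  have hdvd : c ∣ ℓ := (CharP.cast_eq_zero_iff (IsLocalRing.ResidueField A) c ℓ).1 h0
  rcases (Nat.dvd_prime hℓ).1 hdvd with h1 | h1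
  · subst h1
    have := hc
    exact (CharP.false_of_nontrivial_of_char_one (R := IsLocalRing.ResidueField A)).elim
  · subst h1; exact hc

section main

variable {ℓ : ℕ} [hℓ : Fact ℓ.Prime] (A : ValuationSubring Qb)
  [Algebra (ZMod ℓ) (IsLocalRing.ResidueField A)] [DecidableEq (IsLocalRing.ResidueField A)]

/-- **Lifted Cayley–Hamilton.** `W` an integral model, `ℓ ≠ 2, 5` a good prime, `A` a place of
`ℚ̄` over `ℓ` with residue field `kA`, `σ` a Frobenius element at `A`. If the `ℓ`-power Frobenius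
satisfies `Fr² - a Fr + ℓ = 0` on the points of the reduction of `W` over `kA`, then
`σ² - a σ + ℓ = 0` on `W[5](ℚ̄)`. -/
theorem lifted_CH (W : WeierstrassCurve ℤ) (hℓ2 : ℓ ≠ 2) (hℓ5 : ℓ ≠ 5)
    (hgood : ¬ (ℓ : ℤ) ∣ W.Δ) (hA : A.LiesOverPrime ℓ) (σ : Qb ≃ₐ[ℚ] Qb)
    (hσ : A.IsFrobeniusAt σ ℓ) (a : ℤ)
    (hCH : ∀ P : ((W.reductionMod ℓ)⁄(IsLocalRing.ResidueField A)).Point,
      Point.map (W' := W.reductionMod ℓ)
          (FiniteField.frobeniusAlgHom (ZMod ℓ) (IsLocalRing.ResidueField A))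
          (Point.map (W' := W.reductionMod ℓ)
            (FiniteField.frobeniusAlgHom (ZMod ℓ) (IsLocalRing.ResidueField A)) P)
        - a • Point.map (W' := W.reductionMod ℓ)
            (FiniteField.frobeniusAlgHom (ZMod ℓ) (IsLocalRing.ResidueField A)) P
        + (ℓ : ℤ) • P = 0)
    (x : Submodule.torsionBy ℤ ((W.map (Int.castRingHom ℚ))⁄Qb).Point ((5 : ℕ) : ℤ)) :
    σ • σ • x - a • σ • x + (ℓ : ℤ) • x = 0 := by
  have hp := hℓ.out
  have hnd : ∀ q : ℕ, q.Prime → ℓ ≠ q → ¬ (ℓ : ℤ) ∣ ((q : ℕ) : ℤ) := by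
    intro q hq hne h
    exact hne ((Nat.prime_dvd_prime_iff_eq hp hq).1 (Int.natCast_dvd_natCast.mp h))
  have h2 : A.valuation (2 : Qb) = 1 := by
    have := valuation_intCast_eq_one hp A hA ((2 : ℕ) : ℤ) (hnd 2 Nat.prime_two hℓ2)
    simpa using this
  have hΔ : A.valuation ((W.Δ : ℤ) : Qb) = 1 := valuation_intCast_eq_one hp A hA _ hgood
  have hv5 : A.valuation (((5 : ℕ) : Qb)) = 1 := by
    have := valuation_intCast_eq_one hp A hA ((5 : ℕ) : ℤ) (hnd 5 Nat.prime_five hℓ5)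
    simpa using this
  obtain ⟨red, hinj, hform⟩ := exists_redHom_int A W h2 hΔ 5 Nat.prime_five (by decide) hv5
    ((W.map (Int.castRingHom ℚ))⁄Qb)
    (by
      show W.map (Int.castRingHom Qb) = (W.map (Int.castRingHom ℚ)).map (algebraMap ℚ Qb)
      rw [WeierstrassCurve.map_map]
      exact congrArg _ (RingHom.ext_int _ _))
    ((W.reductionMod ℓ)⁄(IsLocalRing.ResidueField A))
    (by
      show W.map (Int.castRingHom (IsLocalRing.ResidueField A)) =
        (W.map (Int.castRingHom (ZMod ℓ))).map (algebraMap (ZMod ℓ) (IsLocalRing.ResidueField A))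
      rw [WeierstrassCurve.map_map]
      exact congrArg _ (RingHom.ext_int _ _))
  have hres : ∀ (z : Qb) (hz : z ∈ A) (hz' : σ z ∈ A),
      IsLocalRing.residue A ⟨σ z, hz'⟩ = (IsLocalRing.residue A ⟨z, hz⟩) ^ ℓ := by
    intro z hz hz'
    rw [← hσ.smul_residue_eq, ← IsLocalRing.ResidueField.residue_smul]
    rfl
  have hequiv : ∀ y : Submodule.torsionBy ℤ ((W.map (Int.castRingHom ℚ))⁄Qb).Point ((5 : ℕ) : ℤ),
      red (σ • y) = Point.map (W' := W.reductionMod ℓ)
        (FiniteField.frobeniusAlgHom (ZMod ℓ) (IsLocalRing.ResidueField A)) (red y) := by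
    rintro ⟨P, hP⟩
    rcases P with _ | ⟨x0, y0, h0⟩
    · have e1 : (⟨Point.zero, hP⟩ :
          Submodule.torsionBy ℤ ((W.map (Int.castRingHom ℚ))⁄Qb).Point ((5 : ℕ) : ℤ)) = 0 := rfl
      rw [e1, smul_zero, map_zero, map_zero]
    · have h0' : ((W.map (Int.castRingHom ℚ))⁄Qb).Nonsingular (σ x0) (σ y0) :=
        (Affine.baseChange_nonsingular (W := (W.map (Int.castRingHom ℚ)).toAffine)
          (f := σ.toAlgHom) σ.toAlgHom.injective x0 y0).mpr h0
      have hkey : ((σ • (⟨Point.some x0 y0 h0, hP⟩ :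
          Submodule.torsionBy ℤ ((W.map (Int.castRingHom ℚ))⁄Qb).Point ((5 : ℕ) : ℤ)) :
          Submodule.torsionBy ℤ ((W.map (Int.castRingHom ℚ))⁄Qb).Point ((5 : ℕ) : ℤ)) :
          ((W.map (Int.castRingHom ℚ))⁄Qb).Point) = Point.some (σ x0) (σ y0) h0' := rfl
      have hP2 : Point.some (σ x0) (σ y0) h0' ∈
          Submodule.torsionBy ℤ ((W.map (Int.castRingHom ℚ))⁄Qb).Point ((5 : ℕ) : ℤ) := by
        rw [← hkey]; exact Subtype.mem _
      obtain ⟨hx, hy, hns, e⟩ := hform x0 y0 h0 hP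
      obtain ⟨hx', hy', hns', e'⟩ := hform (σ x0) (σ y0) h0' hP2
      have hsm : σ • (⟨Point.some x0 y0 h0, hP⟩ :
          Submodule.torsionBy ℤ ((W.map (Int.castRingHom ℚ))⁄Qb).Point ((5 : ℕ) : ℤ)) =
          ⟨Point.some (σ x0) (σ y0) h0', hP2⟩ := Subtype.ext hkey
      rw [hsm, e', e, Point.map_some, Point.some.injEq]
      constructor
      · rw [hres x0 hx hx']
        simp [ZMod.card]
      · rw [hres y0 hy hy']
        simp [ZMod.card]
  apply hinj
  rw [map_zero, map_add, map_sub, map_zsmul, map_zsmul]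
  simp only [hequiv]
  exact hCH (red x)

end main

/-- **Consumer in the frozen vocabulary.** `W`, `W'` integral models, `ℓ ≥ 7` a common good
prime; Cayley–Hamilton for the `ℓ`-power Frobenius over algebraically closed fields (the output
of (L1) through `helper3731.CHGeneral`); an injective additive `Gal(ℚ̄/ℚ)`-equivariant map
`W[5](ℚ̄) → W'[5](ℚ̄)` with `W[5](ℚ̄) ≠ 0`. Then `5 ∣ a_ℓ(W') - a_ℓ(W)`. -/
theorem five_dvd_apOfModel_sub {ℓ : ℕ} [hℓ : Fact ℓ.Prime] (hℓ2 : ℓ ≠ 2) (hℓ5 : ℓ ≠ 5)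
    (hCH : ∀ (K : Type) [Field K] [Algebra (ZMod ℓ) K] [IsAlgClosed K] [DecidableEq K],
      Fermat.Agent.S52.helper3731.CHGeneral ℓ (FiniteField.frobeniusAlgHom (ZMod ℓ) K))
    (W W' : WeierstrassCurve ℤ) (hW : W.IsGoodPrimeFor ℓ) (hW' : W'.IsGoodPrimeFor ℓ)
    (hnt : Nontrivial
      (Submodule.torsionBy ℤ ((W.map (Int.castRingHom ℚ))⁄Qb).Point ((5 : ℕ) : ℤ)))
    (θ : Submodule.torsionBy ℤ ((W.map (Int.castRingHom ℚ))⁄Qb).Point ((5 : ℕ) : ℤ) →+
      Submodule.torsionBy ℤ ((W'.map (Int.castRingHom ℚ))⁄Qb).Point ((5 : ℕ) : ℤ))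
    (hθ : Function.Injective θ)
    (hθσ : ∀ (σ : Qb ≃ₐ[ℚ] Qb)
      (x : Submodule.torsionBy ℤ ((W.map (Int.castRingHom ℚ))⁄Qb).Point ((5 : ℕ) : ℤ)),
      θ (σ • x) = σ • θ x) :
    (5 : ℤ) ∣ W'.apOfModel ℓ - W.apOfModel ℓ := by
  obtain ⟨A, σ, hA, hσ⟩ := Fermat.Agent.Lib.helper54.exists_liesOverPrime_isFrobeniusAt hℓ.out
  have := charP_residueField hℓ.out A hA
  let _ : Algebra (ZMod ℓ) (IsLocalRing.ResidueField A) := ZMod.algebra _ ℓ
  let _ : DecidableEq (IsLocalRing.ResidueField A) := Classical.decEq _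
  have := isAlgClosed_residueField A
  have hgen := hCH (IsLocalRing.ResidueField A)
  have h1 := lifted_CH A W hℓ2 hℓ5 hW hA σ hσ (W.apOfModel ℓ)
    (fun P => hgen (W.reductionMod ℓ) (Fermat.Agent.S52.helper3731.reductionMod_Δ_ne_zero W hW) P)
  have h2 := lifted_CH A W' hℓ2 hℓ5 hW' hA σ hσ (W'.apOfModel ℓ)
    (fun P => hgen (W'.reductionMod ℓ)
      (Fermat.Agent.S52.helper3731.reductionMod_Δ_ne_zero W' hW') P)
  obtain ⟨v, hv⟩ := exists_ne (0 : Submodule.torsionBy ℤ
    ((W.map (Int.castRingHom ℚ))⁄Qb).Point ((5 : ℕ) : ℤ))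
  set w := θ v with hw
  have hw0 : w ≠ 0 := fun h => hv (hθ (by rw [← hw, h, map_zero]))
  have e1 : σ • σ • w - W.apOfModel ℓ • σ • w + (ℓ : ℤ) • w = 0 := by
    have := congrArg θ (h1 v)
    rw [map_add, map_sub, map_zsmul, map_zsmul, map_zero] at this
    simp only [hθσ] at this
    exact this
  have e2 := h2 w
  have e3 : (W'.apOfModel ℓ - W.apOfModel ℓ) • σ • w = 0 := by
    have : (W'.apOfModel ℓ - W.apOfModel ℓ) • σ • w =
        (σ • σ • w - W.apOfModel ℓ • σ • w + (ℓ : ℤ) • w) -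
          (σ • σ • w - W'.apOfModel ℓ • σ • w + (ℓ : ℤ) • w) := by
      rw [sub_smul]; abel
    rw [this, e1, e2, sub_zero]
  by_contra hndvd
  have hcop : IsCoprime (5 : ℤ) (W'.apOfModel ℓ - W.apOfModel ℓ) :=
    (Nat.prime_iff_prime_int.mp Nat.prime_five).irreducible.coprime_iff_not_dvd.mpr hndvd
  obtain ⟨s, t, hst⟩ := hcop
  have h5 : ((5 : ℕ) : ℤ) • σ • w = 0 := Submodule.smul_torsionBy _ _
  have hzero : σ • w = 0 := by
    have : σ • w = (s * ((5 : ℕ) : ℤ) + t * (W'.apOfModel ℓ - W.apOfModel ℓ)) • σ • w := by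
      have h51 : s * ((5 : ℕ) : ℤ) + t * (W'.apOfModel ℓ - W.apOfModel ℓ) = 1 := by
        rw [← hst]; norm_num
      rw [h51, one_smul]
    rw [this, add_smul, mul_smul, mul_smul, e3, h5, smul_zero, smul_zero, add_zero]
  exact hw0 ((smul_eq_zero_iff_eq σ).1 hzero)

end Fermat.Agent.S52.helper6335
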