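import Mathlib
import Fermat.Prelude.Def_FLTPrelim_ModularRep
import Fermat.Agent.S52.helper489_PsiThree

/-!
# S52 (3-5 switch): top-level wiring (helper9905)

Hypothesis-passing assembly of the frozen statement S52 from three interface statements:

* `Stmt_Family` : the 5-congruent pencil through `W` (L3), integer-parametrised;
* `Stmt_Cong`   : a Galois-equivariant injection on 5-torsion forces `a_ℓ ≡ a_ℓ' mod 5`
                  at common good primes `ℓ > 5` (L1 + L2);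
* `Stmt_Aux`    : the auxiliary prime from the zeta lemma (curve-free form).

Everything else (modulus, CRT, integral model, semistability, `Δ ≠ 0`, irreducibility of the
3-torsion via the landed certificate of helper489, equality of `a_ℓ` at the primes of the modulus)
is proved here.
-/

set_option autoImplicit false

namespace Fermat.Agent.S52.helper9905

open WeierstrassCurve Polynomial
open scoped WeierstrassCurve.Affine

/-- The algebraic closure of `ℚ` used by the frozen statements. -/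
abbrev Qb : Type := AlgebraicClosure ℚ

/-- The `n`-torsion of an integral model over `Qb` (the carrier of the mod-`n` representation). -/
abbrev Tors (W : WeierstrassCurve ℤ) (n : ℕ) : Type :=
  Submodule.torsionBy ℤ ((W.map (Int.castRingHom ℚ))⁄Qb).Point n

/-- A Galois-equivariant additive injection `W[n] → W'[n]`. -/
def TorsionInj (W W' : WeierstrassCurve ℤ) (n : ℕ) : Prop :=
  ∃ ι : Tors W n →+ Tors W' n, Function.Injective ι ∧
    ∀ (σ : Qb ≃ₐ[ℚ] Qb) (P : Tors W n), ι (σ • P) = σ • ι P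

/-- **(CONG)** = L1 + L2: an equivariant injection on 5-torsion gives `a_ℓ ≡ a_ℓ' mod 5` at
common good primes `ℓ > 5`. -/
def Stmt_Cong : Prop :=
  ∀ (W W' : WeierstrassCurve ℤ) (ℓ : ℕ), ℓ.Prime → 5 < ℓ →
    W.IsGoodPrimeFor ℓ → W'.IsGoodPrimeFor ℓ → TorsionInj W W' 5 →
    (5 : ℤ) ∣ W'.apOfModel ℓ - W.apOfModel ℓ

/-- **(FAM)** = L3: the 5-congruent pencil through a semistable `W`, with integer parameter. -/
def Stmt_Family : Prop :=
  ∀ W : WeierstrassCurve ℤ, W.Δ ≠ 0 → W.IsSemistableModel →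
    ∃ (P4 P6 : ℤ[X]) (N0 : ℤ), N0 ≠ 0 ∧ P4.eval 0 = W.c₄ ∧ P6.eval 0 = W.c₆ ∧
      (∀ (t : ℤ) (W' : WeierstrassCurve ℤ), W'.Δ ≠ 0 → W'.c₄ = P4.eval t → W'.c₆ = P6.eval t →
        TorsionInj W W' 5) ∧
      (∀ (t : ℤ) (p : ℕ), p.Prime → ¬ (p : ℤ) ∣ N0 → (p : ℤ) ∣ P4.eval t →
        ¬ (p : ℤ) ∣ P6.eval t) ∧
      ∃ θ : Qb, aeval θ P6 = 0 ∧ ∃ σ : Qb ≃ₐ[ℚ] Qb, σ θ = θ ∧ ∃ r : Qb, r ^ 2 = 3 ∧ σ r ≠ r

/-- **(AUX)**: auxiliary prime from the zeta lemma (curve-free). -/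
def Stmt_Aux : Prop :=
  ∀ (θ : Qb) (σ : Qb ≃ₐ[ℚ] Qb), σ θ = θ → ∀ (D : ℤ) (s : Qb), s ^ 2 = (D : Qb) → σ s ≠ s →
    ∀ (P Q : ℤ[X]), aeval θ P = 0 → aeval θ Q ≠ 0 → ∀ T : Finset ℕ,
      ∃ q : ℕ, q.Prime ∧ q ∉ T ∧ ¬ IsSquare ((D : ℤ) : ZMod q) ∧
        ∃ t : ℤ, (q : ℤ) ∣ P.eval t ∧ ¬ (q : ℤ) ∣ Q.eval t

/-- The frozen statement S52 as a `Prop`. -/
def Stmt_S52 : Prop :=
  ∀ (W : WeierstrassCurve ℤ), W.Δ ≠ 0 → W.IsSemistableModel → W.ModRepIsIrreducible 5 →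
    ∃ W' : WeierstrassCurve ℤ, W'.Δ ≠ 0 ∧ W'.IsSemistableModel ∧ W'.ModRepIsIrreducible 3 ∧
      ∀ ℓ : ℕ, ℓ.Prime → W.IsGoodPrimeFor ℓ → W'.IsGoodPrimeFor ℓ → ℓ ≠ 5 →
        (5 : ℤ) ∣ (W'.apOfModel ℓ - W.apOfModel ℓ)

/-! ### Integral model with prescribed `c₄`, `c₆` -/

/-- An integral model with prescribed `c₄`, `c₆` close to those of `W`, obtained by perturbing
`a₄`, `a₆` only; it is congruent to `W` coefficientwise modulo `N`. -/
theorem exists_model (W : WeierstrassCurve ℤ) (N c4' c6' : ℤ)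
    (h4 : 1728 * N ∣ c4' - W.c₄) (h6 : 1728 * N ∣ c6' - W.c₆) :
    ∃ W' : WeierstrassCurve ℤ, W'.a₁ = W.a₁ ∧ W'.a₂ = W.a₂ ∧ W'.a₃ = W.a₃ ∧
      N ∣ W'.a₄ - W.a₄ ∧ N ∣ W'.a₆ - W.a₆ ∧ W'.c₄ = c4' ∧ W'.c₆ = c6' := by
  obtain ⟨k4, hk4⟩ := h4
  obtain ⟨k6, hk6⟩ := h6
  refine ⟨⟨W.a₁, W.a₂, W.a₃, W.a₄ - 36 * N * k4,
    W.a₆ - (2 * N * k6 + 3 * N * W.b₂ * k4)⟩, rfl, rfl, rfl, ?_, ?_, ?_, ?_⟩
  · exact ⟨-36 * k4, by ring⟩
  · exact ⟨-(2 * k6 + 3 * W.b₂ * k4), by ring⟩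
  · simp only [WeierstrassCurve.c₄, WeierstrassCurve.b₂, WeierstrassCurve.b₄] at hk4 ⊢
    linear_combination -hk4
  · simp only [WeierstrassCurve.c₆, WeierstrassCurve.b₂, WeierstrassCurve.b₄,
      WeierstrassCurve.b₆] at hk6 ⊢
    linear_combination -hk6

/-- Coefficientwise congruence modulo `N` gives equal reductions at every `p ∣ N`. -/
theorem reductionMod_eq_of_congr {W W' : WeierstrassCurve ℤ} {N : ℤ}
    (h1 : W'.a₁ = W.a₁) (h2 : W'.a₂ = W.a₂) (h3 : W'.a₃ = W.a₃)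
    (h4 : N ∣ W'.a₄ - W.a₄) (h6 : N ∣ W'.a₆ - W.a₆) (p : ℕ) (hp : (p : ℤ) ∣ N) :
    W'.reductionMod p = W.reductionMod p := by
  have e4 : ((W'.a₄ : ℤ) : ZMod p) = ((W.a₄ : ℤ) : ZMod p) :=
    (ZMod.intCast_eq_intCast_iff_dvd_sub _ _ p).2 ((dvd_sub_comm).1 (hp.trans h4))
  have e6 : ((W'.a₆ : ℤ) : ZMod p) = ((W.a₆ : ℤ) : ZMod p) :=
    (ZMod.intCast_eq_intCast_iff_dvd_sub _ _ p).2 ((dvd_sub_comm).1 (hp.trans h6))
  unfold WeierstrassCurve.reductionMod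
  ext
  · simp [WeierstrassCurve.map, h1]
  · simp [WeierstrassCurve.map, h2]
  · simp [WeierstrassCurve.map, h3]
  · simpa [WeierstrassCurve.map] using e4
  · simpa [WeierstrassCurve.map] using e6

/-- Equal reductions at `p` give `Δ' ≡ Δ mod p`. -/
theorem dvd_Δ_sub_of_reductionMod_eq {W W' : WeierstrassCurve ℤ} {p : ℕ}
    (h : W'.reductionMod p = W.reductionMod p) : (p : ℤ) ∣ W.Δ - W'.Δ := by
  have := congrArg WeierstrassCurve.Δ h
  unfold WeierstrassCurve.reductionMod at this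
  rw [WeierstrassCurve.map_Δ, WeierstrassCurve.map_Δ] at this
  exact (ZMod.intCast_eq_intCast_iff_dvd_sub _ _ p).1 (by simpa using this)

/-- Equal reductions at `p` give `c₄' ≡ c₄ mod p`. -/
theorem dvd_c₄_sub_of_reductionMod_eq {W W' : WeierstrassCurve ℤ} {p : ℕ}
    (h : W'.reductionMod p = W.reductionMod p) : (p : ℤ) ∣ W.c₄ - W'.c₄ := by
  have := congrArg WeierstrassCurve.c₄ h
  unfold WeierstrassCurve.reductionMod at this
  rw [WeierstrassCurve.map_c₄, WeierstrassCurve.map_c₄] at this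
  exact (ZMod.intCast_eq_intCast_iff_dvd_sub _ _ p).1 (by simpa using this)

/-! ### The assembly -/

/-- **Top-level wiring of S52.** -/
theorem switch_of (hFam : Stmt_Family) (hCong : Stmt_Cong) (hAux : Stmt_Aux)
    (W : WeierstrassCurve ℤ) (hΔ : W.Δ ≠ 0) (hW : W.IsSemistableModel) :
    ∃ W' : WeierstrassCurve ℤ, W'.Δ ≠ 0 ∧ W'.IsSemistableModel ∧ W'.ModRepIsIrreducible 3 ∧
      ∀ ℓ : ℕ, ℓ.Prime → W.IsGoodPrimeFor ℓ → W'.IsGoodPrimeFor ℓ → ℓ ≠ 5 →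
        (5 : ℤ) ∣ (W'.apOfModel ℓ - W.apOfModel ℓ) := by
  obtain ⟨P4, P6, N0, hN0, hP4, hP6, hinj, hbez, θ, hθ6, σ, hσθ, r, hr, hσr⟩ := hFam W hΔ hW
  -- the modulus
  obtain ⟨N, hNdef⟩ : ∃ N : ℤ, N = 12 * N0 * W.Δ := ⟨_, rfl⟩
  have hNne : N ≠ 0 := by
    rw [hNdef]; exact mul_ne_zero (mul_ne_zero (by norm_num) hN0) hΔ
  obtain ⟨M, hMdef⟩ : ∃ M : ℤ, M = 1728 * N := ⟨_, rfl⟩
  have hMne : M ≠ 0 := by rw [hMdef]; exact mul_ne_zero (by norm_num) hNne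
  have h12N : (12 : ℤ) ∣ N := by rw [hNdef]; exact ⟨N0 * W.Δ, by ring⟩
  have hN0N : N0 ∣ N := by rw [hNdef]; exact ⟨12 * W.Δ, by ring⟩
  have hNM : N ∣ M := by rw [hMdef]; exact ⟨1728, by ring⟩
  -- the auxiliary prime
  obtain ⟨q, hq, hqT, hq3, tq, htq, -⟩ :=
    hAux θ σ hσθ 3 r (by rw [hr]; norm_num) hσr P6 1 hθ6 (by simp) M.natAbs.primeFactors
  have hqM : ¬ (q : ℤ) ∣ M := by
    intro h
    apply hqT
    rw [Nat.mem_primeFactors]
    refine ⟨hq, ?_, by simpa using hMne⟩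
    exact Int.natCast_dvd.mp h
  have hq3' : ¬ IsSquare (3 : ZMod q) := by simpa using hq3
  have hqN : ¬ (q : ℤ) ∣ N := fun h => hqM (h.trans hNM)
  have hq2 : q ≠ 2 := by
    rintro rfl
    exact hqN (dvd_trans ⟨6, by norm_num⟩ h12N)
  have hq3ne : q ≠ 3 := by
    rintro rfl
    exact hqN (dvd_trans ⟨4, by norm_num⟩ h12N)
  -- CRT
  have hcop : IsCoprime (q : ℤ) M :=
    ((Nat.prime_iff_prime_int.mp hq).irreducible.coprime_iff_not_dvd).2 hqM
  obtain ⟨a, b, hab⟩ := hcop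
  obtain ⟨t, htdef⟩ : ∃ t : ℤ, t = tq * (b * M) := ⟨_, rfl⟩
  have htM : M ∣ t := by rw [htdef]; exact ⟨tq * b, by ring⟩
  have htq' : (q : ℤ) ∣ t - tq := by
    rw [htdef]; exact ⟨-(tq * a), by linear_combination tq * hab⟩
  -- the invariants of the fibre
  have h4 : 1728 * N ∣ P4.eval t - W.c₄ := by
    rw [← hP4, ← hMdef]
    exact dvd_trans (by simpa using htM) (Polynomial.sub_dvd_eval_sub t 0 P4)
  have h6 : 1728 * N ∣ P6.eval t - W.c₆ := by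
    rw [← hP6, ← hMdef]
    exact dvd_trans (by simpa using htM) (Polynomial.sub_dvd_eval_sub t 0 P6)
  have hq6 : (q : ℤ) ∣ P6.eval t := by
    have h := dvd_trans htq' (Polynomial.sub_dvd_eval_sub t tq P6)
    have := dvd_add h htq
    simpa using this
  -- the model
  obtain ⟨W', h1, h2, h3, ha4, ha6, hc4, hc6⟩ := exists_model W N (P4.eval t) (P6.eval t) h4 h6
  have hred : ∀ p : ℕ, (p : ℤ) ∣ N → W'.reductionMod p = W.reductionMod p :=
    fun p hp => reductionMod_eq_of_congr h1 h2 h3 ha4 ha6 p hp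
  -- Δ' ≠ 0
  have hΔ' : W'.Δ ≠ 0 := by
    intro h0
    have h := dvd_Δ_sub_of_reductionMod_eq (hred N.natAbs (Int.natAbs_dvd.mpr dvd_rfl))
    rw [h0, sub_zero] at h
    have h' : N ∣ W.Δ := Int.natAbs_dvd.mp h
    obtain ⟨k, hk⟩ := h'
    rw [hNdef] at hk
    have h1' : W.Δ * 1 = W.Δ * (12 * (N0 * k)) := by linear_combination hk
    have h2' : (1 : ℤ) = 12 * (N0 * k) := mul_left_cancel₀ hΔ h1'
    omega
  -- semistability
  have hW' : W'.IsSemistableModel := by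
    intro p hp hpΔ hpc4
    have hpZ : Prime (p : ℤ) := Nat.prime_iff_prime_int.mp hp
    by_cases hpN : (p : ℤ) ∣ N
    · have e := hred p hpN
      have hΔp : (p : ℤ) ∣ W.Δ := by
        have := dvd_add (dvd_Δ_sub_of_reductionMod_eq e) hpΔ
        simpa using this
      have hc4p : (p : ℤ) ∣ W.c₄ := by
        have := dvd_add (dvd_c₄_sub_of_reductionMod_eq e) hpc4
        simpa using this
      exact hW p hp hΔp hc4p
    · have hpN0 : ¬ (p : ℤ) ∣ N0 := fun h => hpN (h.trans hN0N)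
      have h46 : ¬ (p : ℤ) ∣ P6.eval t := hbez t p hp hpN0 (hc4 ▸ hpc4)
      apply h46
      rw [← hc6]
      have hrel := W'.c_relation
      have hsq : (p : ℤ) ∣ W'.c₆ ^ 2 := by
        have h1 : (p : ℤ) ∣ W'.c₄ ^ 3 - 1728 * W'.Δ :=
          dvd_sub (dvd_pow hpc4 (by norm_num)) (Dvd.dvd.mul_left hpΔ _)
        have h2 : W'.c₄ ^ 3 - 1728 * W'.Δ = W'.c₆ ^ 2 := by linear_combination -hrel
        rwa [h2] at h1
      exact hpZ.dvd_of_dvd_pow hsq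
  refine ⟨W', hΔ', hW', ?_, ?_⟩
  · exact Fermat.Agent.S52.helper489.modRepIsIrreducible_three_of_semistable W' hΔ' hW' q hq hq2
      hq3ne hq3' (hc6 ▸ hq6)
  · intro ℓ hℓ hgood hgood' hℓ5
    by_cases hℓN : (ℓ : ℤ) ∣ N
    · have e := hred ℓ hℓN
      have : W'.apOfModel ℓ = W.apOfModel ℓ := by
        unfold WeierstrassCurve.apOfModel; rw [e]
      rw [this, sub_self]; exact dvd_zero _
    · have hℓ2 : ℓ ≠ 2 := by
        rintro rfl
        exact hℓN (dvd_trans ⟨6, by norm_num⟩ h12N)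
      have hℓ3 : ℓ ≠ 3 := by
        rintro rfl
        exact hℓN (dvd_trans ⟨4, by norm_num⟩ h12N)
      have h5lt : 5 < ℓ := by
        by_contra hlt
        have hle : ℓ ≤ 5 := by omega
        interval_cases ℓ <;> simp_all (config := { decide := true })
      exact hCong W W' ℓ hℓ h5lt hgood hgood' (hinj t W' hΔ' hc4 hc6)

/-- The frozen statement from the three interfaces. -/
theorem stmt_S52_of (hFam : Stmt_Family) (hCong : Stmt_Cong) (hAux : Stmt_Aux) : Stmt_S52 :=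
  fun W hΔ hW _ => switch_of hFam hCong hAux W hΔ hW

end Fermat.Agent.S52.helper9905
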