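import Mathlib
import Fermat.Agent.S52.helper6335_Transfer
import Fermat.Agent.S52.helper2957_FrobCH
import Fermat.Agent.S52.helper52_Spec
import Fermat.Agent.S52.helper9905_Wiring
import Fermat.Agent.Lib.helper5856_TorsionCard

/-!
# S52 BRIDGE (helper6335): (L1) + (L2) closed, no hypotheses left

* `chGeneral`: Frobenius Cayley–Hamilton for every Weierstrass model over `ZMod ℓ`, `ℓ ≥ 5`, over
  every algebraically closed field `K` (from the landed `helper2957.frob_CH_short` and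
  `helper3731.cayleyHamilton_general_of_short`).
* `stmt_Bridge : helper52.Stmt_Bridge` and `stmt_Cong : helper9905.Stmt_Cong`: a Galois-equivariant
  injective additive map `W[5](ℚ̄) → W'[5](ℚ̄)` forces `5 ∣ a_ℓ(W') - a_ℓ(W)` at every common good
  prime `ℓ > 5`.
-/

set_option autoImplicit false

namespace Fermat.Agent.S52.helper6335

open WeierstrassCurve WeierstrassCurve.Affine

local notation "Qb" => AlgebraicClosure ℚ

/-- **Frobenius Cayley–Hamilton, general model, any algebraically closed field** (`ℓ ≥ 5`). -/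
theorem chGeneral (ℓ : ℕ) [Fact ℓ.Prime] (hℓ : 5 ≤ ℓ) (K : Type) [Field K] [Algebra (ZMod ℓ) K]
    [IsAlgClosed K] [DecidableEq K] :
    Fermat.Agent.S52.helper3731.CHGeneral ℓ (FiniteField.frobeniusAlgHom (ZMod ℓ) K) := by
  apply Fermat.Agent.S52.helper3731.cayleyHamilton_general_of_short hℓ
  intro A B hAB P
  have key := Fermat.Agent.S52.helper2957.frob_CH_short (A := A) (B := B) (K := K)
    (by omega : ℓ ≠ 2) hAB (FiniteField.frobeniusAlgHom (ZMod ℓ) K)
    (fun x => by simp [ZMod.card]) P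
  have e1 : (Fermat.Agent.S52.helper3731.shortModel ℓ A B).traceOfFrobenius =
      (ℓ : ℤ) + 1 - (Nat.card (⟨0, 0, 0, A, B⟩ : WeierstrassCurve (ZMod ℓ)).toAffine.Point : ℤ) := by
    unfold WeierstrassCurve.traceOfFrobenius WeierstrassCurve.card
      Fermat.Agent.S52.helper3731.shortModel
    rw [Nat.card_zmod]
  rw [e1]
  exact key

/-- `W[5](ℚ̄)` is nontrivial for every integral model with `Δ ≠ 0`. -/
theorem nontrivial_tors (W : WeierstrassCurve ℤ) (hΔ : W.Δ ≠ 0) :
    Nontrivial (Submodule.torsionBy ℤ ((W.map (Int.castRingHom ℚ))⁄Qb).Point ((5 : ℕ) : ℤ)) := by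
  have hΔ' : ((W.map (Int.castRingHom ℚ))⁄Qb).Δ ≠ 0 := by
    show ((W.map (Int.castRingHom ℚ)).map (algebraMap ℚ Qb)).Δ ≠ 0
    rw [WeierstrassCurve.map_Δ, WeierstrassCurve.map_Δ]
    simpa using hΔ
  have : ((W.map (Int.castRingHom ℚ))⁄Qb).IsElliptic := ⟨isUnit_iff_ne_zero.2 hΔ'⟩
  have hcard := Fermat.Agent.Lib.helper5856.card_torsionBy
    (W := ((W.map (Int.castRingHom ℚ))⁄Qb)) 5 (by norm_num)
  have hfin : Finite (Submodule.torsionBy ℤ ((W.map (Int.castRingHom ℚ))⁄Qb).Point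
      ((5 : ℕ) : ℤ)) := Nat.finite_of_card_ne_zero (by rw [hcard]; norm_num)
  exact Finite.one_lt_card_iff_nontrivial.1 (by rw [hcard]; norm_num)

/-- **BRIDGE** in the shape of `helper52_Spec`. -/
theorem stmt_Bridge : Fermat.Agent.S52.helper52.Stmt_Bridge := by
  intro W W' _ _ hnt ⟨θ, hθ, hθσ⟩ ℓ hℓ h5 hW hW'
  have : Fact ℓ.Prime := ⟨hℓ⟩
  exact five_dvd_apOfModel_sub (by omega) (by omega)
    (fun K _ _ _ _ => chGeneral ℓ (by omega) K) W W' hW hW' hnt θ hθ hθσ

/-- **(CONG)** in the shape of `helper9905_Wiring`. -/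
theorem stmt_Cong : Fermat.Agent.S52.helper9905.Stmt_Cong := by
  intro W W' ℓ hℓ h5 hW hW' ⟨θ, hθ, hθσ⟩
  have : Fact ℓ.Prime := ⟨hℓ⟩
  have hΔ : W.Δ ≠ 0 := by
    intro h
    apply hW
    rw [h]
    exact dvd_zero _
  exact five_dvd_apOfModel_sub (by omega) (by omega)
    (fun K _ _ _ _ => chGeneral ℓ (by omega) K) W W' hW hW' (nontrivial_tors W hΔ) θ hθ hθσ

end Fermat.Agent.S52.helper6335
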