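/-
S52 / (L1) Frobenius Cayley–Hamilton, parallelogram block (leaf H4 of team_s52_chat #1).

For the twisted curve `E_lam : Y² = X³ + A lam² X + B lam³` over `RatFunc k` (any twisting factor
`lam ≠ 0`), the x-height `ptHt lam P = ht (X(P) / lam)` (and `0` at the origin) satisfies the
exact parallelogram law

  `ptHt lam (P + Q) + ptHt lam (P - Q) = 2 * ptHt lam P + 2 * ptHt lam Q`

for all points `P`, `Q` (Manin).  Imports Mathlib, the landed x-only formulas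
`S05/helper1745_XOnly` and `helper6492_Height`.
-/
import Mathlib
import Fermat.Agent.S05.helper1745_XOnly
import Fermat.Agent.S52.helper6492_Height

set_option autoImplicit false

namespace Fermat.Agent.S52.helper6492

open WeierstrassCurve WeierstrassCurve.Affine

universe u

variable {k : Type u} [Field k]

/-- `W` is the twist `Y² = X³ + A lam² X + B lam³` of `y² = x³ + A x + B` by `lam`. -/
structure IsTwist (W : Affine (RatFunc k)) (A B : k) (lam : RatFunc k) : Prop where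
  a₁ : W.a₁ = 0
  a₂ : W.a₂ = 0
  a₃ : W.a₃ = 0
  a₄ : W.a₄ = RatFunc.C A * lam ^ 2
  a₆ : W.a₆ = RatFunc.C B * lam ^ 3

/-- x-height of a point of a twist by `lam`: `0` at the origin and `ht (X / lam)` at `(X, Y)`. -/
noncomputable def ptHt (lam : RatFunc k) {W : Affine (RatFunc k)} : W.Point → ℕ
  | .zero => 0
  | .some x _ _ => ht (x / lam)

variable {W : Affine (RatFunc k)} {A B : k} {lam : RatFunc k}

@[simp] theorem ptHt_zero : ptHt lam (0 : W.Point) = 0 := rfl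

@[simp] theorem ptHt_some {x y : RatFunc k} (h : W.Nonsingular x y) :
    ptHt lam (Point.some x y h) = ht (x / lam) := rfl

@[simp] theorem ptHt_neg (P : W.Point) : ptHt lam (-P) = ptHt lam P := by
  rcases P with _ | ⟨x, y, h⟩
  · rfl
  · rfl

theorem IsTwist.b₂ (hW : IsTwist W A B lam) : W.b₂ = 0 := by
  simp [WeierstrassCurve.b₂, hW.a₁, hW.a₂]

theorem IsTwist.b₄ (hW : IsTwist W A B lam) : W.b₄ = 2 * (RatFunc.C A * lam ^ 2) := by
  simp [WeierstrassCurve.b₄, hW.a₁, hW.a₄]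

theorem IsTwist.b₆ (hW : IsTwist W A B lam) : W.b₆ = 4 * (RatFunc.C B * lam ^ 3) := by
  simp [WeierstrassCurve.b₆, hW.a₃, hW.a₆]

theorem IsTwist.b₈ (hW : IsTwist W A B lam) : W.b₈ = -(RatFunc.C A * lam ^ 2) ^ 2 := by
  simp [WeierstrassCurve.b₈, hW.a₁, hW.a₂, hW.a₃, hW.a₄]

theorem two_ne_zero_ratFunc (h2 : (2 : k) ≠ 0) : (2 : RatFunc k) ≠ 0 := by
  have h := (map_ne_zero (RatFunc.C : k →+* RatFunc k)).mpr h2
  rwa [map_ofNat] at h

variable [DecidableEq (RatFunc k)]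

/-- generic case of the parallelogram law -/
theorem ptHt_add_sub_of_ne (hW : IsTwist W A B lam) (hlam : lam ≠ 0) (h2 : (2 : k) ≠ 0)
    (hΔ : 4 * A ^ 3 + 27 * B ^ 2 ≠ 0) {x₁ y₁ x₂ y₂ : RatFunc k} (h₁ : W.Nonsingular x₁ y₁)
    (h₂ : W.Nonsingular x₂ y₂) (hx : x₁ ≠ x₂) :
    ptHt lam (Point.some x₁ y₁ h₁ + Point.some x₂ y₂ h₂) +
        ptHt lam (Point.some x₁ y₁ h₁ - Point.some x₂ y₂ h₂) =
      2 * ht (x₁ / lam) + 2 * ht (x₂ / lam) := by
  obtain ⟨Xp, Yp, Xm, Ym, hp, hm, hadd, hsub, hprod, hsum⟩ :=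
    Fermat.Agent.S05.helper1745.exists_add_sub_some h₁ h₂ hx
  rw [hadd, hsub, ptHt_some, ptHt_some]
  rw [hW.b₄, hW.b₆, hW.b₈] at hprod
  rw [hW.b₂, hW.b₄, hW.b₆] at hsum
  obtain ⟨u₁, rfl⟩ : ∃ u, x₁ = lam * u := ⟨x₁ / lam, by field_simp⟩
  obtain ⟨u₂, rfl⟩ : ∃ u, x₂ = lam * u := ⟨x₂ / lam, by field_simp⟩
  obtain ⟨up, rfl⟩ : ∃ u, Xp = lam * u := ⟨Xp / lam, by field_simp⟩
  obtain ⟨um, rfl⟩ : ∃ u, Xm = lam * u := ⟨Xm / lam, by field_simp⟩
  simp only [mul_div_cancel_left₀ _ hlam]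
  apply ht_sum_prod A B h2 hΔ
  · apply mul_left_cancel₀ (pow_ne_zero 3 hlam)
    linear_combination hsum
  · apply mul_left_cancel₀ (pow_ne_zero 4 hlam)
    linear_combination hprod

/-- duplication: `ptHt (2P) = 4 ptHt P` -/
theorem ptHt_double (hW : IsTwist W A B lam) (hlam : lam ≠ 0) (h2 : (2 : k) ≠ 0)
    (hΔ : 4 * A ^ 3 + 27 * B ^ 2 ≠ 0) (P : W.Point) :
    ptHt lam (P + P) = 4 * ptHt lam P := by
  rcases P with _ | ⟨x, y, h⟩
  · show ptHt lam ((0 : W.Point) + 0) = 4 * ptHt lam (0 : W.Point)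
    simp
  · obtain ⟨u, rfl⟩ : ∃ u, x = lam * u := ⟨x / lam, by field_simp⟩
    rw [ptHt_some, mul_div_cancel_left₀ _ hlam]
    by_cases hy : y = W.negY (lam * u) y
    · rw [Point.add_self_of_Y_eq hy, ptHt_zero]
      have h0 := (Fermat.Agent.S05.helper1745.y_eq_negY_iff h.left).mp hy
      rw [hW.b₂, hW.b₄, hW.b₆] at h0
      have h4 : (4 : RatFunc k) ≠ 0 := four_ne_zero_of_two (two_ne_zero_ratFunc h2)
      have hc : u ^ 3 + RatFunc.C A * u + RatFunc.C B = 0 := by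
        apply mul_left_cancel₀ (mul_ne_zero h4 (pow_ne_zero 3 hlam))
        linear_combination h0
      rw [ht_eq_zero_of_cubic A B h2 hΔ hc]
    · obtain ⟨X, Y, h', hadd, hdbl, -⟩ :=
        Fermat.Agent.S05.helper1745.exists_add_self_some h hy
      rw [hadd, ptHt_some]
      rw [hW.b₂, hW.b₄, hW.b₆, hW.b₈] at hdbl
      obtain ⟨v, rfl⟩ : ∃ v, X = lam * v := ⟨X / lam, by field_simp⟩
      rw [mul_div_cancel_left₀ _ hlam]
      apply ht_dup A B h2 hΔ
      apply mul_left_cancel₀ (pow_ne_zero 4 hlam)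
      linear_combination hdbl

/-- **Parallelogram law** for the x-height on a twist `Y² = X³ + A lam² X + B lam³` over
`RatFunc k` (char `k ≠ 2`, `4A³ + 27B² ≠ 0`, `lam ≠ 0`). -/
theorem parallelogram (hW : IsTwist W A B lam) (hlam : lam ≠ 0) (h2 : (2 : k) ≠ 0)
    (hΔ : 4 * A ^ 3 + 27 * B ^ 2 ≠ 0) (P Q : W.Point) :
    ptHt lam (P + Q) + ptHt lam (P - Q) = 2 * ptHt lam P + 2 * ptHt lam Q := by
  rcases P with _ | ⟨x₁, y₁, h₁⟩
  · show ptHt lam ((0 : W.Point) + Q) + ptHt lam ((0 : W.Point) - Q) =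
      2 * ptHt lam (0 : W.Point) + 2 * ptHt lam Q
    simp; ring
  rcases Q with _ | ⟨x₂, y₂, h₂⟩
  · show ptHt lam (Point.some x₁ y₁ h₁ + (0 : W.Point)) +
        ptHt lam (Point.some x₁ y₁ h₁ - (0 : W.Point)) =
      2 * ptHt lam (Point.some x₁ y₁ h₁) + 2 * ptHt lam (0 : W.Point)
    simp; ring
  by_cases hx : x₁ = x₂
  · subst hx
    have hdbl := ptHt_double hW hlam h2 hΔ (Point.some x₁ y₁ h₁)
    rcases Y_eq_of_X_eq h₁.left h₂.left rfl with hy | hy
    · subst hy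
      rw [sub_self, ptHt_zero, hdbl]; ring
    · have hPQ : Point.some x₁ y₁ h₁ = -Point.some x₁ y₂ h₂ := by
        rw [Point.neg_some]; congr
      have hQ : Point.some x₁ y₂ h₂ = -Point.some x₁ y₁ h₁ := by rw [hPQ, neg_neg]
      rw [hQ, sub_neg_eq_add, add_neg_cancel, ptHt_zero, hdbl, ptHt_neg]; ring
  · rw [ptHt_add_sub_of_ne hW hlam h2 hΔ h₁ h₂ hx, ptHt_some, ptHt_some]

end Fermat.Agent.S52.helper6492
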