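/-
S52 (3-5 switch), AUXP block, backup chain:

  `Stmt_TorsorCov`  (torsor + covariance over `Qbar`, for automorphisms fixing the 20th roots of 1)
    ⟹  ROOT  (a root `θ` of `C6` with `C4 θ ≠ 0`, fixed by an automorphism moving `√3`)
    ⟹  `helper352.Stmt_AuxP C4 C6`  (the auxiliary primes of the top assembly)

for every pencil datum `IsPencilData c4 c6 C4 C6` with `c4 c6 (c4³ - c6²) ≠ 0`.
Uses the odd-cycle lemma (`helper6799_OddCycle`) and the landed auxiliary-prime lemma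
(`helper1678_AuxPrime`).  No inertia theory, no torsion points, no group order.
-/
import Mathlib
import Fermat.Agent.S52.helper352_Spec
import Fermat.Agent.S52.helper1678_AuxPrime
import Fermat.Agent.S52.helper6799_OddCycle

set_option autoImplicit false

namespace Fermat.Agent.S52.helper6799

open Polynomial
open Fermat.Agent.S52.helper424 (kF kH kT)
open Fermat.Agent.S52.helper352 (kFu kFv penU penV IsPencilData Stmt_AuxP)

attribute [local instance] isAlgebraic_Qb isAlgClosure_Qb normal_Qb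

/-- **TORSOR + COVARIANCE over `Qbar`.**  Let `σ` fix the 20th roots of unity and let `(u, v)` be a
Klein parameter with `kF kH kT ≠ 0` whose invariants `kH, kT` are `σ`-fixed.  Then
`σ (u, v) = ε · g (u, v)` for a `5`th root of unity `ε` and a matrix `g` of determinant one with
`σ`-fixed entries which preserves `kT` and under which `(kFv, -kFu)` is covariant. -/
def Stmt_TorsorCov : Prop :=
  ∀ u v : AlgebraicClosure ℚ, kF u v ≠ 0 → kH u v ≠ 0 → kT u v ≠ 0 →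
    ∀ σ : AlgebraicClosure ℚ ≃ₐ[ℚ] AlgebraicClosure ℚ,
      (∀ z : AlgebraicClosure ℚ, z ^ 20 = 1 → σ z = z) →
      kH (σ u) (σ v) = kH u v → kT (σ u) (σ v) = kT u v →
      ∃ g11 g12 g21 g22 ε : AlgebraicClosure ℚ, g11 * g22 - g12 * g21 = 1 ∧ ε ^ 5 = 1 ∧
        σ g11 = g11 ∧ σ g12 = g12 ∧ σ g21 = g21 ∧ σ g22 = g22 ∧
        (∀ x y, kT (g11 * x + g12 * y) (g21 * x + g22 * y) = kT x y) ∧
        (∀ x y, kFv (g11 * x + g12 * y) (g21 * x + g22 * y) = g11 * kFv x y - g12 * kFu x y) ∧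
        (∀ x y, kFu (g11 * x + g12 * y) (g21 * x + g22 * y) = g22 * kFu x y - g21 * kFv x y) ∧
        σ u = ε * (g11 * u + g12 * v) ∧ σ v = ε * (g21 * u + g22 * v)

lemma kT_sqrt_neg_one {R : Type*} [CommRing R] (z : R) (hz : z ^ 2 = -1) : kT z 1 = 0 := by
  have h := kleinT_sqrt_neg_one z hz
  simpa only [kleinT, kT] using h

lemma kFv_smul {R : Type*} [CommRing R] (c x y : R) :
    kFv (c * x) (c * y) = c ^ 11 * kFv x y := by
  simp only [kFv]; ring

lemma kFu_smul {R : Type*} [CommRing R] (c x y : R) :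
    kFu (c * x) (c * y) = c ^ 11 * kFu x y := by
  simp only [kFu]; ring

lemma map_kFv' {R S : Type*} [CommRing R] [CommRing S] (φ : R →+* S) (x y : R) :
    φ (kFv x y) = kFv (φ x) (φ y) := by
  simp only [kFv, map_add, map_sub, map_mul, map_pow, map_ofNat]

lemma map_kFu' {R S : Type*} [CommRing R] [CommRing S] (φ : R →+* S) (x y : R) :
    φ (kFu x y) = kFu (φ x) (φ y) := by
  simp only [kFu, map_add, map_sub, map_mul, map_pow, map_ofNat]

/-- `aeval` over `ℤ` does not depend on the `ℤ`-algebra instance. -/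
lemma aeval_eq_eval₂_intCast {A : Type*} [CommRing A] [inst : Algebra ℤ A] (θ : A) (C : ℤ[X]) :
    @aeval ℤ A _ _ inst θ C = C.eval₂ (Int.castRingHom A) θ := by
  rw [aeval_def]
  congr 1
  exact RingHom.ext_int _ _

/-- **ROOT** for a pencil datum, from the torsor statement. -/
theorem rootData_of_torsorCov (hTC : Stmt_TorsorCov) (c4 c6 : ℤ) (h4 : c4 ≠ 0) (h6 : c6 ≠ 0)
    (hΔ : c4 ^ 3 - c6 ^ 2 ≠ 0) (C4 C6 : ℤ[X]) (hdata : IsPencilData c4 c6 C4 C6) :
    ∃ (θ : AlgebraicClosure ℚ) (σ : AlgebraicClosure ℚ ≃ₐ[ℚ] AlgebraicClosure ℚ),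
      aeval θ C6 = 0 ∧ aeval θ C4 ≠ 0 ∧ σ θ = θ ∧
        ∃ r : AlgebraicClosure ℚ, r ^ 2 = 3 ∧ σ r ≠ r := by
  have h2 : (2 : AlgebraicClosure ℚ) ≠ 0 := two_ne_zero
  have h3 : (3 : AlgebraicClosure ℚ) ≠ 0 := three_ne_zero
  have h5 : (5 : AlgebraicClosure ℚ) ≠ 0 := by norm_num
  have hΔ' : (c4 : AlgebraicClosure ℚ) ^ 3 - (c6 : AlgebraicClosure ℚ) ^ 2 ≠ 0 := by
    intro h
    apply hΔ
    have : ((c4 ^ 3 - c6 ^ 2 : ℤ) : AlgebraicClosure ℚ) = 0 := by push_cast; exact h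
    exact_mod_cast this
  obtain ⟨u0, v0, hH, hT, hF, -⟩ :=
    Fermat.Agent.S52.helper424.exists_klein_param h2 h3 h5 (c4 : AlgebraicClosure ℚ)
      (c6 : AlgebraicClosure ℚ) hΔ'
  have hH0 : kH u0 v0 ≠ 0 := by
    rw [hH, neg_ne_zero]
    exact_mod_cast h4
  have hT0 : kT u0 v0 ≠ 0 := by
    rw [hT, neg_ne_zero]
    exact_mod_cast h6
  have hdet : u0 * (-kFu u0 v0) - v0 * kFv u0 v0 ≠ 0 := by
    have he := Fermat.Agent.S52.helper352.euler_kF u0 v0
    have h12 : (12 : AlgebraicClosure ℚ) * kF u0 v0 ≠ 0 := mul_ne_zero (by norm_num) hF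
    intro h
    apply h12
    linear_combination -he - h
  obtain ⟨θ, σ, hθ, hσθ, r, hr, hσr⟩ := exists_root_fixed (fun x y => kT x y)
    (fun c x y => Fermat.Agent.S52.helper424.kT_smul c x y) (fun z hz => kT_sqrt_neg_one z hz)
    u0 v0 (kFv u0 v0) (-kFu u0 v0) hdet (fun σ hσ => by
      have hHσ : kH (σ u0) (σ v0) = kH u0 v0 := by
        have h := Fermat.Agent.S52.helper424.map_kH (σ : AlgebraicClosure ℚ →+* AlgebraicClosure ℚ)
          u0 v0
        have h' : σ (kH u0 v0) = kH u0 v0 := by rw [hH, map_neg, map_intCast]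
        rw [← h']
        exact h.symm
      have hTσ : kT (σ u0) (σ v0) = kT u0 v0 := by
        have h := Fermat.Agent.S52.helper424.map_kT (σ : AlgebraicClosure ℚ →+* AlgebraicClosure ℚ)
          u0 v0
        have h' : σ (kT u0 v0) = kT u0 v0 := by rw [hT, map_neg, map_intCast]
        rw [← h']
        exact h.symm
      obtain ⟨g11, g12, g21, g22, ε, hg, hε, s11, s12, s21, s22, hTg, hFv, hFu, hu, hv⟩ :=
        hTC u0 v0 hF hH0 hT0 σ hσ hHσ hTσ
      have hε11 : ε ^ 11 = ε := by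
        have : ε ^ 11 = (ε ^ 5) ^ 2 * ε := by ring
        rw [this, hε, one_pow, one_mul]
      refine ⟨g11, g12, g21, g22, ε, hg, hε, s11, s12, s21, s22, hTg, hu, hv, ?_, ?_⟩
      · have h := map_kFv' (σ : AlgebraicClosure ℚ →+* AlgebraicClosure ℚ) u0 v0
        have h' : σ (kFv u0 v0) = kFv (σ u0) (σ v0) := h
        rw [h', hu, hv, kFv_smul, hFv, hε11]
        ring
      · have h := map_kFu' (σ : AlgebraicClosure ℚ →+* AlgebraicClosure ℚ) u0 v0
        have h' : σ (kFu u0 v0) = kFu (σ u0) (σ v0) := h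
        rw [map_neg, h', hu, hv, kFu_smul, hFu, hε11]
        ring)
  obtain ⟨-, -, hlink⟩ := hdata
  obtain ⟨hl4, hl6⟩ := hlink (AlgebraicClosure ℚ) h2 h3 u0 v0 θ hH hT
  have hpU : penU θ u0 v0 = u0 + θ * kFv u0 v0 := rfl
  have hpV : penV θ u0 v0 = v0 + θ * (-kFu u0 v0) := by
    simp only [penV]; ring
  rw [hpU, hpV] at hl4 hl6
  have hθ' : kT (u0 + θ * kFv u0 v0) (v0 + θ * (-kFu u0 v0)) = 0 := hθ
  rw [aeval_eq_eval₂_intCast] at hl4 hl6
  refine ⟨θ, σ, ?_, ?_, hσθ, r, hr, hσr⟩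
  · rw [aeval_eq_eval₂_intCast]
    rw [hθ'] at hl6
    exact neg_eq_zero.mp hl6.symm
  · intro h0
    rw [aeval_eq_eval₂_intCast] at h0
    rw [h0, neg_zero] at hl4
    obtain ⟨e1, e2⟩ := Fermat.Agent.S52.helper424.eq_zero_of_kH_eq_zero_of_kT_eq_zero h2 h3 h5
      hl4 hθ'
    apply hdet
    linear_combination (-kFu u0 v0) * e1 - (kFv u0 v0) * e2

/-- **AUXP** for a pencil datum, from the torsor statement: auxiliary primes `q` outside any
modulus with `3` a non-residue and a parameter `tq` with `q ∣ C6(tq)`, `q ∤ C4(tq)`. -/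
theorem stmt_AuxP_of_torsorCov (hTC : Stmt_TorsorCov) (c4 c6 : ℤ) (h4 : c4 ≠ 0) (h6 : c6 ≠ 0)
    (hΔ : c4 ^ 3 - c6 ^ 2 ≠ 0) (C4 C6 : ℤ[X]) (hdata : IsPencilData c4 c6 C4 C6) :
    Stmt_AuxP C4 C6 := by
  obtain ⟨θ, σ, hθ6, hθ4, hσθ, r, hr, hσr⟩ :=
    rootData_of_torsorCov hTC c4 c6 h4 h6 hΔ C4 C6 hdata
  intro N₁ hN₁
  obtain ⟨q, hq, hqT, hsq, t, ht6, ht4⟩ :=
    Fermat.Agent.S52.helper1678.exists_aux_prime θ σ hσθ 3 r (by rw [hr]; norm_num) hσr C6 C4
      hθ6 hθ4 N₁.natAbs.primeFactors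
  refine ⟨q, t, hq, ?_, ?_, ht6, ht4⟩
  · intro hdvd
    apply hqT
    rw [Nat.mem_primeFactors]
    exact ⟨hq, Int.natCast_dvd.mp hdvd, Int.natAbs_ne_zero.mpr hN₁⟩
  · simpa using hsq

end Fermat.Agent.S52.helper6799
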