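/-
S52 (3-5 switch): generalised ENDGAME (helper712), requested by the captain (chat #108).

`endgame_choose` is the top assembly with the irreducibility input in the route-independent form
`HChoose C4 C6`:

  for every modulus `N₁ ≠ 0` there is a parameter `t : ℤ`, `N₁ ∣ t`, with non-vanishing
  discriminant, such that EVERY integral model (`Δ ≠ 0`, semistable) with invariants
  `(C4(t), C6(t))` has irreducible `3`-torsion.

Both irreducibility routes plug in: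
* the auxiliary-prime route: `hChoose_of_hB` (from `HB`, the local certificate `HC` and
  non-degeneracy of the family);
* the `abc`/interpolation route proves `HChoose` directly.

`endgame_of_hB` re-derives the statement of `helper712.endgame` through `endgame_choose`.
The file only imports `helper712_ModelPerturb` (Mathlib + Prelude).
-/
import Fermat.Agent.S52.helper712_ModelPerturb

set_option autoImplicit false

namespace Fermat.Agent.S52.helper712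

open WeierstrassCurve Polynomial

/-- (A1) `5`-congruence of the fibres of the family `(C4, C6)` at the common good primes
`ℓ ≥ 7`. -/
def HA1 (W : WeierstrassCurve ℤ) (C4 C6 : ℚ[X]) : Prop :=
  ∀ (t : ℤ) (W' : WeierstrassCurve ℤ), W'.Δ ≠ 0 →
    (W'.c₄ : ℚ) = C4.eval (t : ℚ) → (W'.c₆ : ℚ) = C6.eval (t : ℚ) →
    ∀ ℓ : ℕ, ℓ.Prime → 7 ≤ ℓ → W.IsGoodPrimeFor ℓ → W'.IsGoodPrimeFor ℓ →
      (5 : ℤ) ∣ (W'.apOfModel ℓ - W.apOfModel ℓ)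

/-- (A2) Outside a finite set of primes, integral values `C4(t), C6(t)` (`t : ℤ`) have no common
prime factor. -/
def HA2 (C4 C6 : ℚ[X]) : Prop :=
  ∃ N₀ : ℤ, N₀ ≠ 0 ∧ ∀ t z₄ z₆ : ℤ, C4.eval (t : ℚ) = (z₄ : ℚ) →
    C6.eval (t : ℚ) = (z₆ : ℚ) → ∀ p : ℕ, p.Prime → ¬ (p : ℤ) ∣ N₀ →
      ¬ ((p : ℤ) ∣ z₄ ∧ (p : ℤ) ∣ z₆)

/-- (B) Auxiliary primes (literally the hypothesis `hB` of `helper712.endgame`). -/
def HB (C4 C6 : ℚ[X]) : Prop :=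
  ∀ N₁ : ℤ, N₁ ≠ 0 → ∃ (q : ℕ) (tq : ℤ), q.Prime ∧ ¬ (q : ℤ) ∣ N₁ ∧
    ¬ IsSquare (3 : ZMod q) ∧ ∀ t z₄ z₆ : ℤ, t ≡ tq [ZMOD q] →
      C4.eval (t : ℚ) = (z₄ : ℚ) → C6.eval (t : ℚ) = (z₆ : ℚ) →
        (q : ℤ) ∣ z₆ ∧ ¬ (q : ℤ) ∣ z₄

/-- (C) The local certificate for irreducibility of the `3`-torsion (literally the hypothesis
`hC` of `helper712.endgame`). -/
def HC : Prop :=
  ∀ (W' : WeierstrassCurve ℤ) (q : ℕ), q.Prime → q ≠ 2 → q ≠ 3 → W'.Δ ≠ 0 →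
    ¬ IsSquare (3 : ZMod q) → (q : ℤ) ∣ W'.c₆ → ¬ (q : ℤ) ∣ W'.c₄ →
      W'.ModRepIsIrreducible 3

/-- Route-independent irreducibility input: for every modulus there is an admissible parameter
`t` all of whose integral semistable models have irreducible `3`-torsion. -/
def HChoose (C4 C6 : ℚ[X]) : Prop :=
  ∀ N₁ : ℤ, N₁ ≠ 0 → ∃ t : ℤ, N₁ ∣ t ∧ (C4 ^ 3 - C6 ^ 2).eval (t : ℚ) ≠ 0 ∧
    ∀ W' : WeierstrassCurve ℤ, W'.Δ ≠ 0 → W'.IsSemistableModel →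
      (W'.c₄ : ℚ) = C4.eval (t : ℚ) → (W'.c₆ : ℚ) = C6.eval (t : ℚ) →
        W'.ModRepIsIrreducible 3

/-- The conclusion of the 3-5 switch for `W`. -/
def Switch (W : WeierstrassCurve ℤ) : Prop :=
  ∃ W' : WeierstrassCurve ℤ, W'.Δ ≠ 0 ∧ W'.IsSemistableModel ∧ W'.ModRepIsIrreducible 3 ∧
    ∀ ℓ : ℕ, ℓ.Prime → W.IsGoodPrimeFor ℓ → W'.IsGoodPrimeFor ℓ → ℓ ≠ 5 →
      (5 : ℤ) ∣ (W'.apOfModel ℓ - W.apOfModel ℓ)

/-- The family is not degenerate as soon as `W.Δ ≠ 0` (value `1728 Δ` at `0`). -/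
theorem hA3_of_Δ_ne_zero (W : WeierstrassCurve ℤ) (hΔ : W.Δ ≠ 0) (C4 C6 : ℚ[X])
    (h04 : C4.eval 0 = (W.c₄ : ℚ)) (h06 : C6.eval 0 = (W.c₆ : ℚ)) :
    C4 ^ 3 - C6 ^ 2 ≠ 0 := by
  intro h
  have h1 : (C4 ^ 3 - C6 ^ 2).eval 0 = 0 := by rw [h]; simp
  rw [eval_sub, eval_pow, eval_pow, h04, h06] at h1
  have h2 : (1728 : ℤ) * W.Δ = W.c₄ ^ 3 - W.c₆ ^ 2 := W.c_relation
  have h3 : ((1728 * W.Δ : ℤ) : ℚ) = 0 := by rw [h2]; push_cast; exact h1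
  have h4 : (1728 : ℤ) * W.Δ = 0 := by exact_mod_cast h3
  rcases mul_eq_zero.mp h4 with h5 | h5
  · norm_num at h5
  · exact hΔ h5

/-- **Generalised endgame.** -/
theorem endgame_choose (W : WeierstrassCurve ℤ) (hW : W.IsSemistableModel)
    (C4 C6 : ℚ[X]) (h04 : C4.eval 0 = (W.c₄ : ℚ)) (h06 : C6.eval 0 = (W.c₆ : ℚ))
    (hA1 : HA1 W C4 C6) (hA2 : HA2 C4 C6) (hCh : HChoose C4 C6) : Switch W := by
  obtain ⟨D4, hD4, hP4⟩ := exists_den C4 W.c₄ h04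
  obtain ⟨D6, hD6, hP6⟩ := exists_den C6 W.c₆ h06
  obtain ⟨N₀, hN₀, hA2'⟩ := hA2
  set M : ℤ := 30 * N₀ with hM
  have hM0 : M ≠ 0 := mul_ne_zero (by norm_num) hN₀
  set K : ℤ := 1728 * M with hK
  have hK0 : K ≠ 0 := mul_ne_zero (by norm_num) hM0
  set L : ℤ := D4 * D6 * K with hL
  have hL0 : L ≠ 0 := mul_ne_zero (mul_ne_zero hD4.ne' hD6.ne') hK0
  obtain ⟨t, ⟨s, hts⟩, hdisc, hirr⟩ := hCh L hL0
  -- integrality of the values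
  obtain ⟨z4, hz4⟩ := hP4 K (D6 * s)
  obtain ⟨z6, hz6⟩ := hP6 K (D4 * s)
  have e4 : D4 * K * (D6 * s) = t := by rw [hts, hL]; ring
  have e6 : D6 * K * (D4 * s) = t := by rw [hts, hL]; ring
  rw [e4] at hz4
  rw [e6] at hz6
  set c4t : ℤ := W.c₄ + K * z4 with hc4t
  set c6t : ℤ := W.c₆ + K * z6 with hc6t
  obtain ⟨e4', e6', hW4, hW6⟩ := exists_perturb W M c4t c6t
    ⟨3 * z4, by simp only [hc4t, hK]; ring⟩ ⟨2 * z6, by simp only [hc6t, hK]; ring⟩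
  set W' : WeierstrassCurve ℤ := perturb W (M * e4') (M * e6') with hW'
  have hΔ' : W'.Δ ≠ 0 := by
    apply Δ_ne_zero_of_c
    rw [hW4, hW6]
    intro hcon
    apply hdisc
    rw [eval_sub, eval_pow, eval_pow, hz4, hz6]
    have : ((c4t : ℤ) : ℚ) ^ 3 = ((c6t : ℤ) : ℚ) ^ 2 := by exact_mod_cast hcon
    rw [this, sub_self]
  have h4Q : (W'.c₄ : ℚ) = C4.eval (t : ℚ) := by rw [hW4, hz4]
  have h6Q : (W'.c₆ : ℚ) = C6.eval (t : ℚ) := by rw [hW6, hz6]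
  have hN₀M : N₀ ∣ M := Dvd.intro_left _ rfl
  have h30M : (30 : ℤ) ∣ M := Dvd.intro _ rfl
  have hss : W'.IsSemistableModel := by
    apply isSemistableModel_perturb W hW M e4' e6'
    intro p hp hpM
    rw [← hW', hW4, hW6]
    exact hA2' t c4t c6t hz4 hz6 p hp (fun h => hpM (dvd_trans h hN₀M))
  refine ⟨W', hΔ', hss, hirr W' hΔ' hss h4Q h6Q, ?_⟩
  intro ℓ hℓ hg hg' _
  by_cases hℓM : (ℓ : ℤ) ∣ M
  · rw [hW', apOfModel_perturb W M e4' e6' ℓ hℓM, sub_self]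
    exact dvd_zero _
  · have h7 : 7 ≤ ℓ :=
      seven_le_of_prime_of_not_dvd ℓ hℓ (fun h => hℓM (dvd_trans h h30M))
    exact hA1 t W' hΔ' h4Q h6Q ℓ hℓ h7 hg hg'

/-- The auxiliary-prime route gives `HChoose`. -/
theorem hChoose_of_hB (C4 C6 : ℚ[X]) (hA3 : C4 ^ 3 - C6 ^ 2 ≠ 0) (hB : HB C4 C6) (hC : HC) :
    HChoose C4 C6 := by
  intro N₁ hN₁
  have h6N : (6 : ℤ) * N₁ ≠ 0 := mul_ne_zero (by norm_num) hN₁
  obtain ⟨q, tq, hq, hqN, h3, hBq⟩ := hB (6 * N₁) h6N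
  have : Fact q.Prime := ⟨hq⟩
  have hqN₁ : ¬ (q : ℤ) ∣ N₁ := fun h => hqN (Dvd.dvd.mul_left h _)
  have hNq : ((N₁ : ℤ) : ZMod q) ≠ 0 := fun h =>
    hqN₁ ((ZMod.intCast_zmod_eq_zero_iff_dvd N₁ q).mp h)
  obtain ⟨s₀, hs₀⟩ : ∃ s₀ : ℤ, N₁ * s₀ ≡ tq [ZMOD q] := by
    refine ⟨((((N₁ : ℤ) : ZMod q)⁻¹ * ((tq : ℤ) : ZMod q)).val : ℤ), ?_⟩
    rw [← ZMod.intCast_eq_intCast_iff]
    push_cast
    rw [ZMod.natCast_val, ZMod.cast_id', id, ← mul_assoc, mul_inv_cancel₀ hNq, one_mul]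
  set tt : ℕ → ℤ := fun j => N₁ * (s₀ + q * j) with htt
  have htt_mod : ∀ j, tt j ≡ tq [ZMOD q] := by
    intro j
    have h1 : tt j = N₁ * s₀ + q * (N₁ * j) := by simp only [htt]; ring
    rw [h1]
    calc N₁ * s₀ + q * (N₁ * j) ≡ N₁ * s₀ + 0 [ZMOD q] :=
          Int.ModEq.add_left _ ((Int.modEq_zero_iff_dvd).mpr (dvd_mul_right _ _))
      _ = N₁ * s₀ := by ring
      _ ≡ tq [ZMOD q] := hs₀
  have hq0 : (q : ℤ) ≠ 0 := by exact_mod_cast hq.ne_zero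
  have htt_inj : Function.Injective (fun j : ℕ => ((tt j : ℤ) : ℚ)) := by
    intro i j hij
    have h0 : ((tt i : ℤ) : ℚ) = ((tt j : ℤ) : ℚ) := hij
    have h1 : tt i = tt j := by exact_mod_cast h0
    simp only [htt] at h1
    have h2 : (s₀ + q * (i : ℤ)) = s₀ + q * (j : ℤ) := mul_left_cancel₀ hN₁ h1
    have h3 : (q : ℤ) * (i : ℤ) = q * (j : ℤ) := by linarith
    exact_mod_cast mul_left_cancel₀ hq0 h3
  obtain ⟨j, hj⟩ : ∃ j : ℕ, (C4 ^ 3 - C6 ^ 2).eval ((tt j : ℤ) : ℚ) ≠ 0 := by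
    by_contra hcon
    push Not at hcon
    exact hA3 (Polynomial.eq_zero_of_infinite_isRoot _
      (Set.infinite_of_injective_forall_mem htt_inj hcon))
  refine ⟨tt j, ⟨s₀ + q * j, rfl⟩, hj, ?_⟩
  intro W' hΔ' _ h4 h6
  obtain ⟨hq6, hq4⟩ := hBq (tt j) W'.c₄ W'.c₆ (htt_mod j) h4.symm h6.symm
  have hq2 : q ≠ 2 := by
    rintro rfl
    exact hqN ⟨3 * N₁, by push_cast; ring⟩
  have hq3 : q ≠ 3 := by
    rintro rfl
    exact hqN ⟨2 * N₁, by push_cast; ring⟩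
  exact hC W' q hq hq2 hq3 hΔ' h3 hq6 hq4

/-- The statement of `helper712.endgame`, re-derived through `endgame_choose`. -/
theorem endgame_of_hB (W : WeierstrassCurve ℤ) (hW : W.IsSemistableModel)
    (C4 C6 : ℚ[X]) (h04 : C4.eval 0 = (W.c₄ : ℚ)) (h06 : C6.eval 0 = (W.c₆ : ℚ))
    (hA1 : HA1 W C4 C6) (hA2 : HA2 C4 C6) (hA3 : C4 ^ 3 - C6 ^ 2 ≠ 0)
    (hB : HB C4 C6) (hC : HC) : Switch W :=
  endgame_choose W hW C4 C6 h04 h06 hA1 hA2 (hChoose_of_hB C4 C6 hA3 hB hC)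

/-- Same, with non-degeneracy discharged from `W.Δ ≠ 0`. -/
theorem endgame_of_hB' (W : WeierstrassCurve ℤ) (hΔ : W.Δ ≠ 0) (hW : W.IsSemistableModel)
    (C4 C6 : ℚ[X]) (h04 : C4.eval 0 = (W.c₄ : ℚ)) (h06 : C6.eval 0 = (W.c₆ : ℚ))
    (hA1 : HA1 W C4 C6) (hA2 : HA2 C4 C6) (hB : HB C4 C6) (hC : HC) : Switch W :=
  endgame_of_hB W hW C4 C6 h04 h06 hA1 hA2 (hA3_of_Δ_ne_zero W hΔ C4 C6 h04 h06) hB hC

/-- The trivial branch: if `W[3]` is already irreducible take `W' = W`. -/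
theorem switch_of_irreducible (W : WeierstrassCurve ℤ) (hΔ : W.Δ ≠ 0)
    (hW : W.IsSemistableModel) (h3 : W.ModRepIsIrreducible 3) : Switch W :=
  ⟨W, hΔ, hW, h3, fun ℓ _ _ _ _ => by rw [sub_self]; exact dvd_zero _⟩

end Fermat.Agent.S52.helper712
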