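/-
S52, helper7156: the "place bridge" (L2-free ending, Frobenius-element variant).

The congruence `5 ∣ a_ℓ(W') - a_ℓ(W)` for two curves on the Klein pencil is reduced to a purely
local statement over fields of characteristic `ℓ` (`Stmt_LocalRel`) by reducing only the two
algebraic numbers `u, v` (the coordinates of the Klein parameter `w₀`) modulo a place of `ℚ̄`
over `ℓ`, and transporting the relation `σ(w₀) = ε · g · w₀` for a Frobenius element `σ`.
No point of an elliptic curve is ever reduced.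
-/
import Mathlib
import Fermat.Prelude.Def_FLTPrelim_Modularity
import Fermat.Prelude.Def_EllipticCurve_FrobeniusTrace
import Fermat.Agent.Lib.helper54_Frobenius
import Fermat.Agent.Lib.helper872_QbarPlaces

set_option autoImplicit false

namespace Fermat.Agent.S52.helper7156

open WeierstrassCurve

/-! ### Klein forms, the pencil, the generators -/

section Forms

variable {R : Type*} [CommRing R]

/-- Klein's icosahedral form of degree 12. -/
def kf (u v : R) : R := u * v * (u ^ 10 + 11 * u ^ 5 * v ^ 5 - v ^ 10)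

/-- Klein's icosahedral form of degree 20. -/
def kH (u v : R) : R :=
  -(u ^ 20 + v ^ 20) + 228 * (u ^ 15 * v ^ 5 - u ^ 5 * v ^ 15) - 494 * u ^ 10 * v ^ 10

/-- Klein's icosahedral form of degree 30. -/
def kT (u v : R) : R :=
  u ^ 30 + v ^ 30 + 522 * (u ^ 25 * v ^ 5 - u ^ 5 * v ^ 25)
    - 10005 * (u ^ 20 * v ^ 10 + u ^ 10 * v ^ 20)

/-- `∂kH/∂u`. -/
def kHu (u v : R) : R :=
  -20 * u ^ 19 + 228 * (15 * u ^ 14 * v ^ 5 - 5 * u ^ 4 * v ^ 15) - 4940 * u ^ 9 * v ^ 10

/-- `∂kH/∂v`. -/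
def kHv (u v : R) : R :=
  -20 * v ^ 19 + 228 * (5 * u ^ 15 * v ^ 4 - 15 * u ^ 5 * v ^ 14) - 4940 * u ^ 10 * v ^ 9

/-- First coordinate of the pencil point `w + s · f(w) · (-H_v(w), H_u(w))`. -/
def pu (s u v : R) : R := u - s * kf u v * kHv u v

/-- Second coordinate of the pencil point `w + s · f(w) · (-H_v(w), H_u(w))`. -/
def pv (s u v : R) : R := v + s * kf u v * kHu u v

/-- The syzygy `T² + H³ = 1728 f⁵`. -/
theorem syzygy (u v : R) : kT u v ^ 2 + kH u v ^ 3 = 1728 * kf u v ^ 5 := by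
  unfold kT kH kf
  ring

/-- The three generators `S`, `D`, `K` of the binary icosahedral group. -/
inductive Gen : Type
  | S : Gen
  | D : Gen
  | K : Gen

/-- Action of a generator on a pair; `z` is a primitive fifth root of unity, `i5 = 1/5`. -/
def genAct (z i5 : R) : Gen → R × R → R × R
  | Gen.S, w => (w.2, -w.1)
  | Gen.D, w => (z ^ 3 * w.1, z ^ 2 * w.2)
  | Gen.K, w =>
    (i5 * (-1 - 2 * z ^ 2 - 2 * z ^ 3) * (-(z - z ^ 4) * w.1 + (z ^ 2 - z ^ 3) * w.2),
     i5 * (-1 - 2 * z ^ 2 - 2 * z ^ 3) * ((z ^ 2 - z ^ 3) * w.1 + (z - z ^ 4) * w.2))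

/-- Action of a word in the generators. -/
def wordAct (z i5 : R) : List Gen → R × R → R × R
  | [], w => w
  | g :: l, w => genAct z i5 g (wordAct z i5 l w)

/-- Scalar multiplication on pairs. -/
def scal (c : R) (w : R × R) : R × R := (c * w.1, c * w.2)

/-- The pencil map on pairs. -/
def pencil (s : R) (w : R × R) : R × R := (pu s w.1 w.2, pv s w.1 w.2)

variable {R' : Type*} [CommRing R'] (φ : R →+* R')

theorem map_kf (u v : R) : φ (kf u v) = kf (φ u) (φ v) := by
  simp only [kf, map_mul, map_add, map_sub, map_pow, map_ofNat]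

theorem map_kH (u v : R) : φ (kH u v) = kH (φ u) (φ v) := by
  simp only [kH, map_mul, map_add, map_sub, map_neg, map_pow, map_ofNat]

theorem map_kT (u v : R) : φ (kT u v) = kT (φ u) (φ v) := by
  simp only [kT, map_mul, map_add, map_sub, map_pow, map_ofNat]

theorem map_kHu (u v : R) : φ (kHu u v) = kHu (φ u) (φ v) := by
  simp only [kHu, map_mul, map_add, map_sub, map_neg, map_pow, map_ofNat]

theorem map_kHv (u v : R) : φ (kHv u v) = kHv (φ u) (φ v) := by
  simp only [kHv, map_mul, map_add, map_sub, map_neg, map_pow, map_ofNat]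

theorem map_pu (s u v : R) : φ (pu s u v) = pu (φ s) (φ u) (φ v) := by
  simp only [pu, map_sub, map_mul, map_kf, map_kHv]

theorem map_pv (s u v : R) : φ (pv s u v) = pv (φ s) (φ u) (φ v) := by
  simp only [pv, map_add, map_mul, map_kf, map_kHu]

theorem map_genAct (z i5 : R) (g : Gen) (w : R × R) :
    Prod.map φ φ (genAct z i5 g w) = genAct (φ z) (φ i5) g (Prod.map φ φ w) := by
  cases g <;>
    simp only [genAct, Prod.map_apply, Prod.map_fst, Prod.map_snd, map_mul, map_add, map_sub,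
      map_neg, map_pow, map_one, map_ofNat]

theorem map_wordAct (z i5 : R) (l : List Gen) (w : R × R) :
    Prod.map φ φ (wordAct z i5 l w) = wordAct (φ z) (φ i5) l (Prod.map φ φ w) := by
  induction l with
  | nil => rfl
  | cons g l ih => simp only [wordAct, map_genAct, ih]

theorem map_scal (c : R) (w : R × R) :
    Prod.map φ φ (scal c w) = scal (φ c) (Prod.map φ φ w) := by
  simp only [scal, Prod.map_apply, Prod.map_fst, Prod.map_snd, map_mul]

theorem map_pencil (s : R) (w : R × R) :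
    Prod.map φ φ (pencil s w) = pencil (φ s) (Prod.map φ φ w) := by
  simp only [pencil, Prod.map_apply, Prod.map_fst, Prod.map_snd, map_pu, map_pv]

end Forms

/-! ### Integrality of the Klein parameter at places prime to 30 -/

section Integrality

section
variable {R : Type*} [CommRing R] {R' : Type*} [CommRing R'] (φ : R →+* R')

def bezA (s : R) : R :=
  -950431323 + 20237705983 * s + 103588896 * s ^ 2 + 20237108822 * s ^ 3
    + 1055557719 * s ^ 4 - 2022161 * s ^ 5

def bezB (s : R) : R :=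
  455818677 - 1001301767 * s - 461063031 * s ^ 2 - 2022161 * s ^ 3

def bezA' (s : R) : R :=
  -950431323 - 20237705983 * s + 103588896 * s ^ 2 - 20237108822 * s ^ 3
    + 1055557719 * s ^ 4 + 2022161 * s ^ 5

def bezB' (s : R) : R :=
  455818677 + 1001301767 * s - 461063031 * s ^ 2 + 2022161 * s ^ 3

theorem map_bezA (s : R) : φ (bezA s) = bezA (φ s) := by
  simp only [bezA, map_mul, map_add, map_sub, map_neg, map_pow, map_ofNat]

theorem map_bezB (s : R) : φ (bezB s) = bezB (φ s) := by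
  simp only [bezB, map_mul, map_sub, map_pow, map_ofNat]

theorem map_bezA' (s : R) : φ (bezA' s) = bezA' (φ s) := by
  simp only [bezA', map_mul, map_add, map_sub, map_neg, map_pow, map_ofNat]

theorem map_bezB' (s : R) : φ (bezB' s) = bezB' (φ s) := by
  simp only [bezB', map_mul, map_add, map_sub, map_pow, map_ofNat]

end

variable {K : Type*} [Field K]

theorem bez_u (u v : K) (hu : u ≠ 0) :
    u * 1406250000 = bezA ((v / u) ^ 5) * kH u v * u⁻¹ ^ 19
      + bezB ((v / u) ^ 5) * kT u v * u⁻¹ ^ 29 := by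
  unfold bezA bezB kH kT
  field_simp
  ring

theorem bez_v (u v : K) (hv : v ≠ 0) :
    v * 1406250000 = bezA' ((u / v) ^ 5) * kH u v * v⁻¹ ^ 19
      + bezB' ((u / v) ^ 5) * kT u v * v⁻¹ ^ 29 := by
  unfold bezA' bezB' kH kT
  field_simp
  ring

theorem bezA_mem (A : ValuationSubring K) {s : K} (hs : s ∈ A) : bezA s ∈ A := by
  have := (bezA (⟨s, hs⟩ : A)).2
  rwa [← A.subtype_apply, map_bezA] at this

theorem bezB_mem (A : ValuationSubring K) {s : K} (hs : s ∈ A) : bezB s ∈ A := by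
  have := (bezB (⟨s, hs⟩ : A)).2
  rwa [← A.subtype_apply, map_bezB] at this

theorem bezA'_mem (A : ValuationSubring K) {s : K} (hs : s ∈ A) : bezA' s ∈ A := by
  have := (bezA' (⟨s, hs⟩ : A)).2
  rwa [← A.subtype_apply, map_bezA'] at this

theorem bezB'_mem (A : ValuationSubring K) {s : K} (hs : s ∈ A) : bezB' s ∈ A := by
  have := (bezB' (⟨s, hs⟩ : A)).2
  rwa [← A.subtype_apply, map_bezB'] at this

/-- **Integrality of the Klein parameter.**  If `kH u v` and `kT u v` lie in a valuation subring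
in which `2⁴·3²·5¹⁰` is invertible, then so do `u` and `v`. -/
theorem mem_of_kH_kT_mem (A : ValuationSubring K) (hN0 : (1406250000 : K) ≠ 0)
    (hN : (1406250000 : K)⁻¹ ∈ A) (u v : K) (hH : kH u v ∈ A) (hT : kT u v ∈ A) :
    u ∈ A ∧ v ∈ A := by
  -- integrally closed: `x ^ 20 ∈ A → x ∈ A`
  have hpow : ∀ x : K, x ^ 20 ∈ A → x ∈ A := by
    intro x hx
    rcases A.mem_or_inv_mem x with h | h
    · exact h
    · by_cases hx0 : x = 0
      · rw [hx0]; exact A.zero_mem
      · have : x = x ^ 20 * x⁻¹ ^ 19 := by field_simp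
        rw [this]
        exact A.mul_mem _ _ hx (pow_mem h 19)
  by_cases hu : u = 0
  · subst hu
    refine ⟨A.zero_mem, hpow v ?_⟩
    have : v ^ 20 = -kH 0 v := by unfold kH; ring
    rw [this]
    exact A.neg_mem _ hH
  by_cases hv : v = 0
  · subst hv
    refine ⟨hpow u ?_, A.zero_mem⟩
    have : u ^ 20 = -kH u 0 := by unfold kH; ring
    rw [this]
    exact A.neg_mem _ hH
  rcases A.mem_or_inv_mem (v / u) with h | h
  · -- `v / u ∈ A`
    have hu' : u ∈ A := by
      rcases A.mem_or_inv_mem u with h' | h'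
      · exact h'
      · have e : u = (1406250000 : K)⁻¹ * (bezA ((v / u) ^ 5) * kH u v * u⁻¹ ^ 19
            + bezB ((v / u) ^ 5) * kT u v * u⁻¹ ^ 29) := by
          rw [← bez_u u v hu]
          field_simp
        rw [e]
        have h5 : (v / u) ^ 5 ∈ A := pow_mem h 5
        exact A.mul_mem _ _ hN (A.add_mem _ _
          (A.mul_mem _ _ (A.mul_mem _ _ (bezA_mem A h5) hH) (pow_mem h' 19))
          (A.mul_mem _ _ (A.mul_mem _ _ (bezB_mem A h5) hT) (pow_mem h' 29)))
    refine ⟨hu', ?_⟩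
    have : v = v / u * u := by field_simp
    rw [this]
    exact A.mul_mem _ _ h hu'
  · -- `u / v ∈ A`
    have h : u / v ∈ A := by rwa [inv_div] at h
    have hv' : v ∈ A := by
      rcases A.mem_or_inv_mem v with h' | h'
      · exact h'
      · have e : v = (1406250000 : K)⁻¹ * (bezA' ((u / v) ^ 5) * kH u v * v⁻¹ ^ 19
            + bezB' ((u / v) ^ 5) * kT u v * v⁻¹ ^ 29) := by
          rw [← bez_v u v hv]
          field_simp
        rw [e]
        have h5 : (u / v) ^ 5 ∈ A := pow_mem h 5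
        exact A.mul_mem _ _ hN (A.add_mem _ _
          (A.mul_mem _ _ (A.mul_mem _ _ (bezA'_mem A h5) hH) (pow_mem h' 19))
          (A.mul_mem _ _ (A.mul_mem _ _ (bezB'_mem A h5) hT) (pow_mem h' 29)))
    refine ⟨?_, hv'⟩
    have : u = u / v * v := by field_simp
    rw [this]
    exact A.mul_mem _ _ h hv'

end Integrality

/-! ### The bridge -/

local notation "Qb" => AlgebraicClosure ℚ

/-- The short Weierstrass curve `y² = x³ - 27 c₄ x - 54 c₆`. -/
def short {R : Type*} [CommRing R] (c4 c6 : R) : WeierstrassCurve R := ⟨0, 0, 0, -27 * c4, -54 * c6⟩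

/-- Residue transfer for a Frobenius element: `res (σ x) = (res x) ^ ℓ`. -/
theorem residue_frobenius {ℓ : ℕ} (A : ValuationSubring Qb) (σ : Qb ≃ₐ[ℚ] Qb)
    (hσ : A.IsFrobeniusAt σ ℓ) (x : A) :
    ∃ h : σ (x : Qb) ∈ A,
      IsLocalRing.residue A ⟨σ (x : Qb), h⟩ = (IsLocalRing.residue A x) ^ ℓ := by
  obtain ⟨hσA, hfrob⟩ := hσ
  have h1 := hfrob (IsLocalRing.residue A x)
  rw [← IsLocalRing.ResidueField.residue_smul] at h1
  exact ⟨((⟨σ, hσA⟩ : A.decompositionSubgroup ℚ) • x).2, h1⟩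

/-- **Local claim** (char `ℓ`): two Klein parameters on which Frobenius acts through the same
element `ε · g` of `μ₅ × 2I` give curves over `𝔽_ℓ` with congruent traces of Frobenius mod 5.
To be supplied by the universal 5-torsion rules (L3) over fields of characteristic `ℓ` and the
Cayley–Hamilton theorem for Frobenius (L1). -/
def Stmt_LocalRel : Prop :=
  ∀ (ℓ : ℕ) [Fact ℓ.Prime], 5 < ℓ → ∀ (K : Type) [Field K] [Algebra (ZMod ℓ) K] (z : K),
    z ^ 4 + z ^ 3 + z ^ 2 + z + 1 = 0 →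
    ∀ (u v u' v' : K) (e : ℕ) (l : List Gen) (c4 c6 c4' c6' : ZMod ℓ),
      algebraMap (ZMod ℓ) K c4 = -kH u v → algebraMap (ZMod ℓ) K c6 = -kT u v →
      algebraMap (ZMod ℓ) K c4' = -kH u' v' → algebraMap (ZMod ℓ) K c6' = -kT u' v' →
      c4 ^ 3 ≠ c6 ^ 2 → c4' ^ 3 ≠ c6' ^ 2 →
      (u ^ ℓ, v ^ ℓ) = scal (z ^ e) (wordAct z 5⁻¹ l (u, v)) →
      (u' ^ ℓ, v' ^ ℓ) = scal (z ^ e) (wordAct z 5⁻¹ l (u', v')) →
      (5 : ℤ) ∣ (short c4' c6').traceOfFrobenius - (short c4 c6).traceOfFrobenius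

/-- **Torsor property over `ℚ̄`, for a pair of points on the pencil**: every Galois
automorphism fixing `H(w)`, `T(w)` acts on `w` and on the pencil point `w_s` through the same
`ε · g`. -/
def Stmt_TorsorPair : Prop :=
  ∀ (z u v : Qb) (s : ℤ), z ^ 4 + z ^ 3 + z ^ 2 + z + 1 = 0 →
    kf u v ≠ 0 → kH u v ≠ 0 → kT u v ≠ 0 →
    ∀ σ : Qb ≃ₐ[ℚ] Qb, σ (kH u v) = kH u v → σ (kT u v) = kT u v →
      ∃ (e : ℕ) (l : List Gen),
        (σ u, σ v) = scal (z ^ e) (wordAct z 5⁻¹ l (u, v)) ∧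
        (σ (pu (s : Qb) u v), σ (pv (s : Qb) u v)) =
          scal (z ^ e) (wordAct z 5⁻¹ l (pu (s : Qb) u v, pv (s : Qb) u v))

theorem exists_zeta5 : ∃ z : Qb, z ^ 4 + z ^ 3 + z ^ 2 + z + 1 = 0 := by
  have hdeg : (Polynomial.X ^ 4 + Polynomial.X ^ 3 + Polynomial.X ^ 2 + Polynomial.X + 1 :
      Polynomial Qb).degree ≠ 0 := by
    have : (Polynomial.X ^ 4 + Polynomial.X ^ 3 + Polynomial.X ^ 2 + Polynomial.X + 1 :
      Polynomial Qb).degree = 4 := by compute_degree!
    rw [this]; norm_num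
  obtain ⟨z, hz⟩ := IsAlgClosed.exists_root _ hdeg
  refine ⟨z, ?_⟩
  simpa using hz

theorem not_dvd_N {ℓ : ℕ} (hℓ : ℓ.Prime) (h5 : 5 < ℓ) : ¬ ℓ ∣ 1406250000 := by
  intro h
  have e : (1406250000 : ℕ) = 2 ^ 4 * 3 ^ 2 * 5 ^ 10 := by norm_num
  rw [e] at h
  rcases (Nat.Prime.dvd_mul hℓ).mp h with h | h
  · rcases (Nat.Prime.dvd_mul hℓ).mp h with h | h
    · have := Nat.le_of_dvd (by norm_num) (hℓ.dvd_of_dvd_pow h); omega
    · have := Nat.le_of_dvd (by norm_num) (hℓ.dvd_of_dvd_pow h); omega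
  · have := Nat.le_of_dvd (by norm_num) (hℓ.dvd_of_dvd_pow h); omega

theorem inv_natCast_mem {ℓ : ℕ} (hℓ : ℓ.Prime) (A : ValuationSubring Qb)
    (hA : A.LiesOverPrime ℓ) {n : ℕ} (hn : ¬ ℓ ∣ n) : ((n : Qb))⁻¹ ∈ A := by
  have h1 : A.valuation ((n : ℤ) : Qb) = 1 :=
    Fermat.Agent.Lib.helper872.valuation_intCast_of_not_dvd hℓ A hA (n : ℤ)
      (fun h => hn (by exact_mod_cast h))
  rw [← A.valuation_le_one_iff, map_inv₀]
  have : ((n : ℤ) : Qb) = (n : Qb) := by push_cast; rfl
  rw [← this, h1, inv_one]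


theorem charP_residueField {ℓ : ℕ} (hℓ : ℓ.Prime) (A : ValuationSubring Qb)
    (hA : A.LiesOverPrime ℓ) : CharP (IsLocalRing.ResidueField A) ℓ := by
  have h0 : ((ℓ : ℕ) : IsLocalRing.ResidueField A) = 0 := by
    have h1 : IsLocalRing.residue A ((ℓ : ℕ) : A) = 0 := by
      rw [IsLocalRing.residue_eq_zero_iff]
      have : (((ℓ : ℕ) : A) : Qb) ∈ A.nonunits := by
        have e : (((ℓ : ℕ) : A) : Qb) = (ℓ : Qb) := by push_cast; rfl
        rw [e]; exact hA
      rw [ValuationSubring.mem_nonunits_iff_exists_mem_maximalIdeal] at this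
      obtain ⟨ha, hm⟩ := this
      exact hm
    rwa [map_natCast] at h1
  obtain ⟨p, hp⟩ := CharP.exists (IsLocalRing.ResidueField A)
  have hdvd : p ∣ ℓ := (CharP.cast_eq_zero_iff (IsLocalRing.ResidueField A) p ℓ).mp h0
  rcases (Nat.dvd_prime hℓ).mp hdvd with h | h
  · exact absurd h (CharP.char_ne_one (IsLocalRing.ResidueField A) p)
  · rwa [h] at hp

/-- **Place bridge.**  From the local claim in characteristic `ℓ` and the torsor property over
`ℚ̄`, the traces of Frobenius of the short models of two curves on the Klein pencil are congruent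
mod 5 at every prime `ℓ > 5` of good reduction for both. -/
theorem short_trace_congr (hloc : Stmt_LocalRel) (hpair : Stmt_TorsorPair)
    (ℓ : ℕ) [hℓ : Fact ℓ.Prime] (h5 : 5 < ℓ) (c4 c6 c4' c6' s : ℤ) (u v : Qb)
    (h4 : (c4 : Qb) = -kH u v) (h6 : (c6 : Qb) = -kT u v)
    (h4' : (c4' : Qb) = -kH (pu (s : Qb) u v) (pv (s : Qb) u v))
    (h6' : (c6' : Qb) = -kT (pu (s : Qb) u v) (pv (s : Qb) u v))
    (hc4 : c4 ≠ 0) (hc6 : c6 ≠ 0)
    (hg : ¬ (ℓ : ℤ) ∣ c4 ^ 3 - c6 ^ 2) (hg' : ¬ (ℓ : ℤ) ∣ c4' ^ 3 - c6' ^ 2) :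
    (5 : ℤ) ∣ (short (c4' : ZMod ℓ) (c6' : ZMod ℓ)).traceOfFrobenius
      - (short (c4 : ZMod ℓ) (c6 : ZMod ℓ)).traceOfFrobenius := by
  have hp := hℓ.out
  obtain ⟨A, σ, hA, hσ⟩ := Fermat.Agent.Lib.helper54.exists_liesOverPrime_isFrobeniusAt hp
  obtain ⟨z, hz⟩ := exists_zeta5
  -- nonvanishing of the forms
  have hH0 : kH u v ≠ 0 := by
    intro h; rw [h, neg_zero] at h4; exact hc4 (by exact_mod_cast h4)
  have hT0 : kT u v ≠ 0 := by
    intro h; rw [h, neg_zero] at h6; exact hc6 (by exact_mod_cast h6)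
  have hf0 : kf u v ≠ 0 := by
    intro h
    have h1 := syzygy u v
    rw [h] at h1
    have h2 : ((c4 ^ 3 - c6 ^ 2 : ℤ) : Qb) = 0 := by
      push_cast; rw [h4, h6]; linear_combination -h1
    have h3 : c4 ^ 3 - c6 ^ 2 = 0 := by exact_mod_cast h2
    rw [h3] at hg
    exact hg (dvd_zero _)
  have hσH : σ (kH u v) = kH u v := by
    have : kH u v = ((-c4 : ℤ) : Qb) := by push_cast; rw [h4]; ring
    rw [this, map_intCast]
  have hσT : σ (kT u v) = kT u v := by
    have : kT u v = ((-c6 : ℤ) : Qb) := by push_cast; rw [h6]; ring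
    rw [this, map_intCast]
  obtain ⟨e, l, hrel, hrel'⟩ := hpair z u v s hz hf0 hH0 hT0 σ hσH hσT
  -- integrality
  have hNinv : ((1406250000 : Qb))⁻¹ ∈ A := by
    have := inv_natCast_mem hp A hA (not_dvd_N hp h5)
    simpa using this
  have hN0 : (1406250000 : Qb) ≠ 0 := by norm_num
  have hHA : kH u v ∈ A := by
    have : kH u v = ((-c4 : ℤ) : Qb) := by push_cast; rw [h4]; ring
    rw [this]; exact Fermat.Agent.Lib.helper872.intCast_mem A _
  have hTA : kT u v ∈ A := by
    have : kT u v = ((-c6 : ℤ) : Qb) := by push_cast; rw [h6]; ring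
    rw [this]; exact Fermat.Agent.Lib.helper872.intCast_mem A _
  obtain ⟨huA, hvA⟩ := mem_of_kH_kT_mem A hN0 hNinv u v hHA hTA
  have hz5 : z ^ 5 = 1 := by linear_combination (z - 1) * hz
  have hzA : z ∈ A := by
    rcases A.mem_or_inv_mem z with h | h
    · exact h
    · have hz0 : z ≠ 0 := by
        intro h0; rw [h0] at hz5; norm_num at hz5
      have : z = z⁻¹ ^ 4 := by
        field_simp
        linear_combination hz5
      rw [this]; exact pow_mem h 4
  have h5A : ((5 : Qb))⁻¹ ∈ A := by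
    have := inv_natCast_mem hp A hA (n := 5) (fun h => by
      have := Nat.le_of_dvd (by norm_num) h; omega)
    simpa using this
  -- elements of `A`
  set uA : A := ⟨u, huA⟩ with huA_def
  set vA : A := ⟨v, hvA⟩ with hvA_def
  set zA : A := ⟨z, hzA⟩ with hzA_def
  set i5A : A := ⟨(5 : Qb)⁻¹, h5A⟩ with hi5A_def
  set sA : A := ((s : ℤ) : A) with hsA_def
  have hsA : A.subtype sA = (s : Qb) := by simp [hsA_def]
  -- the residue field
  have hchar : CharP (IsLocalRing.ResidueField A) ℓ := charP_residueField hp A hA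
  let alg : Algebra (ZMod ℓ) (IsLocalRing.ResidueField A) := ZMod.algebra _ ℓ
  set res : A →+* IsLocalRing.ResidueField A := IsLocalRing.residue A with hres
  -- residue of `1/5`
  have hi5 : res i5A = (5 : IsLocalRing.ResidueField A)⁻¹ := by
    have h1 : (5 : A) * i5A = 1 := by
      apply Subtype.ext
      show (5 : Qb) * (5 : Qb)⁻¹ = 1
      norm_num
    have h2 := congrArg res h1
    rw [map_mul, map_one, map_ofNat] at h2
    exact eq_inv_of_mul_eq_one_right h2
  have hzres : res zA ^ 4 + res zA ^ 3 + res zA ^ 2 + res zA + 1 = 0 := by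
    have h1 : zA ^ 4 + zA ^ 3 + zA ^ 2 + zA + 1 = 0 := by
      apply Subtype.ext
      show z ^ 4 + z ^ 3 + z ^ 2 + z + 1 = 0
      exact hz
    have h2 := congrArg res h1
    simpa using h2
  -- general transfer of a Frobenius relation
  have transfer : ∀ (xA yA : A),
      (σ (xA : Qb), σ (yA : Qb)) = scal (z ^ e) (wordAct z 5⁻¹ l ((xA : Qb), (yA : Qb))) →
      (res xA ^ ℓ, res yA ^ ℓ) =
        scal (res zA ^ e) (wordAct (res zA) 5⁻¹ l (res xA, res yA)) := by
    intro xA yA hxy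
    obtain ⟨hx1, hx2⟩ := residue_frobenius A σ hσ xA
    obtain ⟨hy1, hy2⟩ := residue_frobenius A σ hσ yA
    have hw : Prod.map A.subtype A.subtype (scal (zA ^ e) (wordAct zA i5A l (xA, yA))) =
        scal (z ^ e) (wordAct z 5⁻¹ l ((xA : Qb), (yA : Qb))) := by
      rw [map_scal, map_wordAct]
      rfl
    have hx3 : (⟨σ (xA : Qb), hx1⟩ : A) = (scal (zA ^ e) (wordAct zA i5A l (xA, yA))).1 := by
      apply Subtype.ext
      have := congrArg Prod.fst (hxy.trans hw.symm)
      simpa using this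
    have hy3 : (⟨σ (yA : Qb), hy1⟩ : A) = (scal (zA ^ e) (wordAct zA i5A l (xA, yA))).2 := by
      apply Subtype.ext
      have := congrArg Prod.snd (hxy.trans hw.symm)
      simpa using this
    rw [← hx2, ← hy2, hx3, hy3]
    have := map_scal res (zA ^ e) (wordAct zA i5A l (xA, yA))
    rw [map_wordAct, map_pow, hi5] at this
    exact this
  have hrelA := transfer uA vA hrel
  -- the pencil point
  set u'A : A := pu sA uA vA with hu'A
  set v'A : A := pv sA uA vA with hv'A
  have hu'c : (u'A : Qb) = pu (s : Qb) u v := by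
    have := map_pu A.subtype sA uA vA
    rw [hsA] at this
    exact this
  have hv'c : (v'A : Qb) = pv (s : Qb) u v := by
    have := map_pv A.subtype sA uA vA
    rw [hsA] at this
    exact this
  have hrelA' := transfer u'A v'A (by rw [hu'c, hv'c]; exact hrel')
  -- the invariants
  have hcast : ∀ (c : ℤ) (x : A), (c : Qb) = (x : Qb) →
      algebraMap (ZMod ℓ) (IsLocalRing.ResidueField A) (c : ZMod ℓ) = res x := by
    intro c x hcx
    have h1 : ((c : ℤ) : A) = x := by
      apply Subtype.ext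
      rw [← hcx]; simp
    rw [← h1, map_intCast, map_intCast]
  have e4 : algebraMap (ZMod ℓ) (IsLocalRing.ResidueField A) (c4 : ZMod ℓ) =
      -kH (res uA) (res vA) := by
    rw [← map_kH, ← map_neg]
    apply hcast
    rw [h4]
    exact (by rw [map_neg, map_kH]; rfl : A.subtype (-kH uA vA) = -kH u v).symm
  have e6 : algebraMap (ZMod ℓ) (IsLocalRing.ResidueField A) (c6 : ZMod ℓ) =
      -kT (res uA) (res vA) := by
    rw [← map_kT, ← map_neg]
    apply hcast
    rw [h6]
    exact (by rw [map_neg, map_kT]; rfl : A.subtype (-kT uA vA) = -kT u v).symm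
  have e4' : algebraMap (ZMod ℓ) (IsLocalRing.ResidueField A) (c4' : ZMod ℓ) =
      -kH (res u'A) (res v'A) := by
    rw [← map_kH, ← map_neg]
    apply hcast
    rw [h4', ← hu'c, ← hv'c]
    exact (by rw [map_neg, map_kH]; rfl :
      A.subtype (-kH u'A v'A) = -kH (u'A : Qb) (v'A : Qb)).symm
  have e6' : algebraMap (ZMod ℓ) (IsLocalRing.ResidueField A) (c6' : ZMod ℓ) =
      -kT (res u'A) (res v'A) := by
    rw [← map_kT, ← map_neg]
    apply hcast
    rw [h6', ← hu'c, ← hv'c]
    exact (by rw [map_neg, map_kT]; rfl :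
      A.subtype (-kT u'A v'A) = -kT (u'A : Qb) (v'A : Qb)).symm
  have hne : ((c4 : ZMod ℓ)) ^ 3 ≠ (c6 : ZMod ℓ) ^ 2 := by
    intro h
    apply hg
    rw [← ZMod.intCast_zmod_eq_zero_iff_dvd]
    push_cast
    rw [h, sub_self]
  have hne' : ((c4' : ZMod ℓ)) ^ 3 ≠ (c6' : ZMod ℓ) ^ 2 := by
    intro h
    apply hg'
    rw [← ZMod.intCast_zmod_eq_zero_iff_dvd]
    push_cast
    rw [h, sub_self]
  exact hloc ℓ h5 (IsLocalRing.ResidueField A) (res zA) hzres (res uA) (res vA) (res u'A)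
    (res v'A) e l _ _ _ _ e4 e6 e4' e6' hne hne' hrelA hrelA'

end Fermat.Agent.S52.helper7156
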