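import Mathlib

/-!
# S52, leaf (I)/(SIG): the local core (helper7531)

Pure field/valuation statement, Mathlib only.

Setting: `A` a valuation subring of a field `L` in which `2` is a unit, `τ` a ring endomorphism
of `L` acting trivially modulo the maximal ideal of `A` ("inertia").  A cubic
`g(T) = 4 (T - e₁)(T - e₂)(T - e₃)` with `τ`-fixed coefficients, roots in `A`, not all three
congruent modulo the maximal ideal ("semistable").  Points in `η`-coordinates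
(`η = 2y + a₁x + a₃`, `η² = g(x)`): `Q' = (x', η')`, `Q = 2Q' = (x, η)`, `x₂ = x(2Q)`, all
`x`-coordinates in `A`.

`core`: it is impossible that `τ Q' = -Q'` and `τ Q = -Q` (i.e. `τ` fixes `x', x` and negates
`η', η`).

Proof: `η ∈ 𝔪`, so `x ≡ e` for a root `e`, and the duplication identity
`dup(T) - e g(T) = ((T - e)² - (e - e')(e - e''))²` shows that `e` is a multiple root mod `𝔪`, say
`e ≡ e'`.  Then `e''` is a simple root, hence `τ`-fixed, `x - e''` is a unit, and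
`x - e'' = ρ²` with `ρ = ((x' - e'')² - (e'' - e)(e'' - e')) / η'`, `τ ρ = -ρ`; but `τ` fixes
square roots of fixed units.
-/

set_option autoImplicit false

namespace Fermat.Agent.S52.helper7531

section Basic

variable {L : Type*} [Field L] (A : ValuationSubring L)

theorem nu_mul_left {x y : L} (hx : x ∈ A) (hy : y ∈ A.nonunits) : x * y ∈ A.nonunits := by
  rw [ValuationSubring.mem_nonunits_iff] at hy ⊢
  rw [map_mul]
  have hx1 : A.valuation x ≤ 1 := (A.valuation_le_one_iff x).2 hx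
  calc A.valuation x * A.valuation y ≤ 1 * A.valuation y := mul_le_mul_left hx1 _
    _ = A.valuation y := one_mul _
    _ < 1 := hy

theorem val_eq_one_of {x : L} (hx : x ∈ A) (h : x ∉ A.nonunits) : A.valuation x = 1 :=
  le_antisymm ((A.valuation_le_one_iff x).2 hx)
    (not_lt.1 fun h' => h (A.mem_nonunits_iff.2 h'))

theorem nu_of_mul {x y : L} (hx : x ∈ A) (hy : y ∈ A) (h : x * y ∈ A.nonunits) :
    x ∈ A.nonunits ∨ y ∈ A.nonunits := by
  by_contra hcon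
  rw [not_or] at hcon
  obtain ⟨h1, h2⟩ := hcon
  have hx1 : A.valuation x = 1 := val_eq_one_of A hx h1
  have hy1 : A.valuation y = 1 := val_eq_one_of A hy h2
  rw [ValuationSubring.mem_nonunits_iff, map_mul, hx1, hy1, one_mul] at h
  exact lt_irrefl _ h

theorem nu_of_sq {x : L} (hx : x ∈ A) (h : x ^ 2 ∈ A.nonunits) : x ∈ A.nonunits := by
  rw [pow_two] at h
  rcases nu_of_mul A hx hx h with h' | h' <;> exact h'

theorem nu_sq {x : L} (h : x ∈ A.nonunits) : x ^ 2 ∈ A.nonunits := by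
  rw [pow_two]
  exact A.nonunits.mul_mem h h

theorem mem_of_sq_mem {x : L} (h : x ^ 2 ∈ A) : x ∈ A := by
  rw [← A.valuation_le_one_iff] at h ⊢
  rw [map_pow] at h
  by_contra hlt
  rw [not_le] at hlt
  have h1 : 1 < A.valuation x ^ 2 := one_lt_pow₀ hlt two_ne_zero
  exact absurd h (not_le.2 h1)

theorem val_eq_one_of_sq {x : L} (h : A.valuation (x ^ 2) = 1) : A.valuation x = 1 := by
  rw [map_pow] at h
  rcases lt_trichotomy (A.valuation x) 1 with h1 | h1 | h1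
  · exfalso
    have : A.valuation x ^ 2 < 1 := pow_lt_one₀ zero_le h1 two_ne_zero
    rw [h] at this
    exact lt_irrefl _ this
  · exact h1
  · exfalso
    have : 1 < A.valuation x ^ 2 := one_lt_pow₀ h1 two_ne_zero
    rw [h] at this
    exact lt_irrefl _ this

end Basic

section Core

variable {L : Type*} [Field L]

/-- Asymmetric core: `x ≡ ea ≡ eb`, `ec` not congruent to `ea`. -/
theorem core_aux (A : ValuationSubring L) (τ : L →+* L)
    (hτ : ∀ a ∈ A, τ a - a ∈ A.nonunits) (h2 : A.valuation (2 : L) = 1)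
    (s1 s2 s3 ea eb ec : L)
    (hs1 : s1 = ea + eb + ec) (hs2 : s2 = ea * eb + ea * ec + eb * ec) (hs3 : s3 = ea * eb * ec)
    (hτ1 : τ s1 = s1) (hτ2 : τ s2 = s2) (hτ3 : τ s3 = s3)
    (hec : ec ∈ A)
    (hab : ea - eb ∈ A.nonunits) (hac : ea - ec ∉ A.nonunits)
    (x' η' x : L) (hxA : x ∈ A) (hxa : x - ea ∈ A.nonunits)
    (hη' : η' ^ 2 = 4 * (x' ^ 3 - s1 * x' ^ 2 + s2 * x' - s3)) (hη'0 : η' ≠ 0)
    (hdup' : x * η' ^ 2 = x' ^ 4 - 2 * s2 * x' ^ 2 + 8 * s3 * x' - (4 * s1 * s3 - s2 ^ 2))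
    (hτx' : τ x' = x') (hτη' : τ η' = -η') : False := by
  -- `x - ec` is a unit
  have hxcA : x - ec ∈ A := A.sub_mem hxA hec
  have hxc : x - ec ∉ A.nonunits := by
    intro h
    apply hac
    have h' := A.nonunits.sub_mem h hxa
    have e : x - ec - (x - ea) = ea - ec := by ring
    rwa [e] at h'
  have hv : A.valuation (x - ec) = 1 := val_eq_one_of A hxcA hxc
  -- `τ ec = ec`
  have hroot : ec ^ 3 - s1 * ec ^ 2 + s2 * ec - s3 = 0 := by rw [hs1, hs2, hs3]; ring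
  have hroot' : (τ ec) ^ 3 - s1 * (τ ec) ^ 2 + s2 * τ ec - s3 = 0 := by
    have h := congrArg τ hroot
    rw [map_sub, map_add, map_sub, map_mul, map_mul, map_pow, map_pow, hτ1, hτ2, hτ3,
      map_zero] at h
    exact h
  have hfac : (τ ec - ea) * (τ ec - eb) * (τ ec - ec) = 0 := by
    rw [← hroot', hs1, hs2, hs3]; ring
  have hτec : τ ec = ec := by
    have hm := hτ ec hec
    rcases mul_eq_zero.1 hfac with h | h
    · rcases mul_eq_zero.1 h with h | h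
      · exfalso
        apply hac
        rw [sub_eq_zero.1 h] at hm
        exact hm
      · exfalso
        apply hac
        rw [sub_eq_zero.1 h] at hm
        have h' := A.nonunits.add_mem hab hm
        have e : ea - eb + (eb - ec) = ea - ec := by ring
        rwa [e] at h'
    · exact sub_eq_zero.1 h
  -- the square root `ρ` of `x - ec`
  have hN2 : ((x' - ec) ^ 2 - (3 * ec ^ 2 - 2 * s1 * ec + s2)) ^ 2 = (x - ec) * η' ^ 2 := by
    have e : (x - ec) * η' ^ 2 = x * η' ^ 2 - ec * η' ^ 2 := by ring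
    rw [e, hdup', hη', hs1, hs2, hs3]; ring
  have hτN : τ ((x' - ec) ^ 2 - (3 * ec ^ 2 - 2 * s1 * ec + s2)) =
      (x' - ec) ^ 2 - (3 * ec ^ 2 - 2 * s1 * ec + s2) := by
    simp only [map_sub, map_add, map_mul, map_pow, hτx', hτec, hτ1, hτ2, map_ofNat]
  have hρ2 : (((x' - ec) ^ 2 - (3 * ec ^ 2 - 2 * s1 * ec + s2)) / η') ^ 2 = x - ec := by
    rw [div_pow, hN2]
    field_simp
  have hτρ : τ (((x' - ec) ^ 2 - (3 * ec ^ 2 - 2 * s1 * ec + s2)) / η') =
      -(((x' - ec) ^ 2 - (3 * ec ^ 2 - 2 * s1 * ec + s2)) / η') := by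
    rw [map_div₀, hτN, hτη', div_neg]
  generalize ((x' - ec) ^ 2 - (3 * ec ^ 2 - 2 * s1 * ec + s2)) / η' = ρ at hρ2 hτρ
  have hvρ : A.valuation ρ = 1 := val_eq_one_of_sq A (by rw [hρ2, hv])
  have hρA : ρ ∈ A := (A.valuation_le_one_iff ρ).1 hvρ.le
  have hm := hτ ρ hρA
  rw [hτρ] at hm
  have hval : A.valuation (-ρ - ρ) = 1 := by
    have e : -ρ - ρ = -(2 * ρ) := by ring
    rw [e, Valuation.map_neg, map_mul, h2, hvρ, one_mul]
  rw [ValuationSubring.mem_nonunits_iff, hval] at hm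
  exact lt_irrefl _ hm

/-- Middle step: `x ≡ ea`; the duplication identity forces `ea` to be a multiple root. -/
theorem core_mid (A : ValuationSubring L) (τ : L →+* L)
    (hτ : ∀ a ∈ A, τ a - a ∈ A.nonunits) (h2 : A.valuation (2 : L) = 1)
    (s1 s2 s3 ea eb ec : L)
    (hs1 : s1 = ea + eb + ec) (hs2 : s2 = ea * eb + ea * ec + eb * ec) (hs3 : s3 = ea * eb * ec)
    (hτ1 : τ s1 = s1) (hτ2 : τ s2 = s2) (hτ3 : τ s3 = s3)
    (hea : ea ∈ A) (heb : eb ∈ A) (hec : ec ∈ A)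
    (hss : ¬ (ea - eb ∈ A.nonunits ∧ ea - ec ∈ A.nonunits))
    (x' η' x η x2 : L) (hxA : x ∈ A) (hx2A : x2 ∈ A) (hxa : x - ea ∈ A.nonunits)
    (hη' : η' ^ 2 = 4 * (x' ^ 3 - s1 * x' ^ 2 + s2 * x' - s3)) (hη'0 : η' ≠ 0)
    (hdup' : x * η' ^ 2 = x' ^ 4 - 2 * s2 * x' ^ 2 + 8 * s3 * x' - (4 * s1 * s3 - s2 ^ 2))
    (hτx' : τ x' = x') (hτη' : τ η' = -η')
    (hηm : η ∈ A.nonunits)
    (hη : η ^ 2 = 4 * (x ^ 3 - s1 * x ^ 2 + s2 * x - s3))
    (hdup : x2 * η ^ 2 = x ^ 4 - 2 * s2 * x ^ 2 + 8 * s3 * x - (4 * s1 * s3 - s2 ^ 2)) :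
    False := by
  have hsq : ((x - ea) ^ 2 - (ea - eb) * (ea - ec)) ^ 2 = (x2 - ea) * η ^ 2 := by
    have e : (x2 - ea) * η ^ 2 = x2 * η ^ 2 - ea * η ^ 2 := by ring
    rw [e, hdup, hη, hs1, hs2, hs3]; ring
  have hη2 : η ^ 2 ∈ A.nonunits := nu_sq A hηm
  have h1 : ((x - ea) ^ 2 - (ea - eb) * (ea - ec)) ^ 2 ∈ A.nonunits := by
    rw [hsq]
    exact nu_mul_left A (A.sub_mem hx2A hea) hη2
  have hmemA : (x - ea) ^ 2 - (ea - eb) * (ea - ec) ∈ A :=
    A.sub_mem (pow_mem (A.sub_mem hxA hea) 2) (mul_mem (A.sub_mem hea heb) (A.sub_mem hea hec))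
  have h2' : (x - ea) ^ 2 - (ea - eb) * (ea - ec) ∈ A.nonunits := nu_of_sq A hmemA h1
  have h3 : (ea - eb) * (ea - ec) ∈ A.nonunits := by
    have h' := A.nonunits.sub_mem (nu_sq A hxa) h2'
    have e : (x - ea) ^ 2 - ((x - ea) ^ 2 - (ea - eb) * (ea - ec)) = (ea - eb) * (ea - ec) := by
      ring
    rwa [e] at h'
  rcases nu_of_mul A (A.sub_mem hea heb) (A.sub_mem hea hec) h3 with h | h
  · have hac : ea - ec ∉ A.nonunits := fun h' => hss ⟨h, h'⟩
    exact core_aux A τ hτ h2 s1 s2 s3 ea eb ec hs1 hs2 hs3 hτ1 hτ2 hτ3 hec h hac x' η' x hxA hxa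
      hη' hη'0 hdup' hτx' hτη'
  · have hab : ea - eb ∉ A.nonunits := fun h' => hss ⟨h', h⟩
    exact core_aux A τ hτ h2 s1 s2 s3 ea ec eb (by rw [hs1]; ring) (by rw [hs2]; ring)
      (by rw [hs3]; ring) hτ1 hτ2 hτ3 heb h hab x' η' x hxA hxa hη' hη'0 hdup' hτx' hτη'

/-- **Local core.**  With a "semistable" cubic (`e₁, e₂, e₃` not all congruent mod `𝔪`), an
inertia element `τ` cannot negate both `Q'` and `Q = 2Q'` when the `x`-coordinates of `Q`, `2Q`
are integral. -/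
theorem core (A : ValuationSubring L) (τ : L →+* L)
    (hτ : ∀ a ∈ A, τ a - a ∈ A.nonunits) (h2 : A.valuation (2 : L) = 1)
    (s1 s2 s3 e1 e2 e3 : L)
    (hs1 : s1 = e1 + e2 + e3) (hs2 : s2 = e1 * e2 + e1 * e3 + e2 * e3) (hs3 : s3 = e1 * e2 * e3)
    (hτ1 : τ s1 = s1) (hτ2 : τ s2 = s2) (hτ3 : τ s3 = s3)
    (he1 : e1 ∈ A) (he2 : e2 ∈ A) (he3 : e3 ∈ A)
    (hss : ¬ (e1 - e2 ∈ A.nonunits ∧ e1 - e3 ∈ A.nonunits))
    (x' η' x η x2 : L) (hxA : x ∈ A) (hx2A : x2 ∈ A)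
    (hη' : η' ^ 2 = 4 * (x' ^ 3 - s1 * x' ^ 2 + s2 * x' - s3)) (hη'0 : η' ≠ 0)
    (hdup' : x * η' ^ 2 = x' ^ 4 - 2 * s2 * x' ^ 2 + 8 * s3 * x' - (4 * s1 * s3 - s2 ^ 2))
    (hτx' : τ x' = x') (hτη' : τ η' = -η')
    (hη : η ^ 2 = 4 * (x ^ 3 - s1 * x ^ 2 + s2 * x - s3))
    (hdup : x2 * η ^ 2 = x ^ 4 - 2 * s2 * x ^ 2 + 8 * s3 * x - (4 * s1 * s3 - s2 ^ 2))
    (hτη : τ η = -η) : False := by
  have h4 : A.valuation (4 : L) = 1 := by
    have e : (4 : L) = 2 * 2 := by norm_num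
    rw [e, map_mul, h2, one_mul]
  have h4A : (4 : L) ∈ A := (A.valuation_le_one_iff _).1 h4.le
  have hfacs : 4 * (x ^ 3 - s1 * x ^ 2 + s2 * x - s3) = 4 * ((x - e1) * ((x - e2) * (x - e3))) := by
    rw [hs1, hs2, hs3]; ring
  have hgA : 4 * (x ^ 3 - s1 * x ^ 2 + s2 * x - s3) ∈ A := by
    rw [hfacs]
    exact mul_mem h4A (mul_mem (A.sub_mem hxA he1)
      (mul_mem (A.sub_mem hxA he2) (A.sub_mem hxA he3)))
  have hηA : η ∈ A := mem_of_sq_mem A (by rw [hη]; exact hgA)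
  have hηm : η ∈ A.nonunits := by
    have hm := hτ η hηA
    rw [hτη] at hm
    rw [ValuationSubring.mem_nonunits_iff] at hm ⊢
    have e : -η - η = -(2 * η) := by ring
    rw [e, Valuation.map_neg, map_mul, h2, one_mul] at hm
    exact hm
  have hprod : (x - e1) * ((x - e2) * (x - e3)) ∈ A.nonunits := by
    have hη2 : η ^ 2 ∈ A.nonunits := nu_sq A hηm
    rw [hη, hfacs, ValuationSubring.mem_nonunits_iff, map_mul, h4, one_mul] at hη2
    exact A.mem_nonunits_iff.2 hη2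
  rcases nu_of_mul A (A.sub_mem hxA he1) (mul_mem (A.sub_mem hxA he2) (A.sub_mem hxA he3))
    hprod with h | h
  · exact core_mid A τ hτ h2 s1 s2 s3 e1 e2 e3 hs1 hs2 hs3 hτ1 hτ2 hτ3 he1 he2 he3 hss
      x' η' x η x2 hxA hx2A h hη' hη'0 hdup' hτx' hτη' hηm hη hdup
  · rcases nu_of_mul A (A.sub_mem hxA he2) (A.sub_mem hxA he3) h with h | h
    · refine core_mid A τ hτ h2 s1 s2 s3 e2 e1 e3 (by rw [hs1]; ring) (by rw [hs2]; ring)
        (by rw [hs3]; ring) hτ1 hτ2 hτ3 he2 he1 he3 ?_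
        x' η' x η x2 hxA hx2A h hη' hη'0 hdup' hτx' hτη' hηm hη hdup
      rintro ⟨h21, h23⟩
      apply hss
      have h12 : e1 - e2 ∈ A.nonunits := by
        have h' := A.nonunits.neg_mem h21
        rwa [neg_sub] at h'
      refine ⟨h12, ?_⟩
      have h' := A.nonunits.add_mem h12 h23
      have e : e1 - e2 + (e2 - e3) = e1 - e3 := by ring
      rwa [e] at h'
    · refine core_mid A τ hτ h2 s1 s2 s3 e3 e1 e2 (by rw [hs1]; ring) (by rw [hs2]; ring)
        (by rw [hs3]; ring) hτ1 hτ2 hτ3 he3 he1 he2 ?_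
        x' η' x η x2 hxA hx2A h hη' hη'0 hdup' hτx' hτη' hηm hη hdup
      rintro ⟨h31, h32⟩
      apply hss
      have h13 : e1 - e3 ∈ A.nonunits := by
        have h' := A.nonunits.neg_mem h31
        rwa [neg_sub] at h'
      refine ⟨?_, h13⟩
      have h'' := A.nonunits.add_mem h13 h32
      have e' : e1 - e3 + (e3 - e2) = e1 - e2 := by ring
      rwa [e'] at h''

end Core

end Fermat.Agent.S52.helper7531
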