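import Mathlib
import Fermat.Prelude.Def_FLTPrelim_Ramification
import Fermat.Prelude.Def_FLTPrelim_Modularity
import Fermat.Agent.Lib.helper853_TorsionLadder
import Fermat.Agent.Lib.helper2053_MinkowskiInertia
import Fermat.Agent.S52.helper7531_SigCore

/-!
# S52, leaf (I)/(SIG) (helper7531)

`exists_sigma`: for an integral Weierstrass curve `W` that is semistable at `3`, there is
`σ ∈ Gal(ℚ̄/ℚ)` fixing `W[5](ℚ̄)` pointwise and every square root of `-1`, and negating every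
square root of `-3`.  (So `√-3 ∉ ℚ(W[5], i)`.)

* `no_neg_of_inertia` (local lemma at `3`): for `τ` in an inertia group at `3` and `Q ≠ 0` in
  `W[5]`: `τ • Q ≠ -Q`.  Proof through `core` (x-only duplication identity); no reduction map,
  no component group, no Weil pairing.
* global part: Minkowski in inertia form (landed `Lib/helper2053`) gives `τ` in an inertia group
  moving `√-3`; the residue characteristic is `3`; `τ` permutes the finite set `W[5]` with odd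
  order `N` (an involution in `⟨τ⟩` would negate a nonzero point), and `σ = τ ^ N`.
-/

set_option autoImplicit false

namespace Fermat.Agent.S52.helper7531

open Polynomial WeierstrassCurve WeierstrassCurve.Affine
open Fermat.Agent.Lib.helper853 Fermat.Agent.S05.helper4205

local notation "Qb" => AlgebraicClosure ℚ
local notation "GQ" => (AlgebraicClosure ℚ ≃ₐ[ℚ] AlgebraicClosure ℚ)

section General

variable {L : Type*} [Field L]

/-- A root of an integer polynomial whose leading coefficient is a unit of `A` lies in `A`. -/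
theorem mem_of_aeval_eq_zero (A : ValuationSubring L) (p : ℤ[X])
    (hlc : A.valuation ((p.leadingCoeff : ℤ) : L) = 1) (x : L) (hx : aeval x p = 0) : x ∈ A := by
  have h1 : IsIntegral ℤ (p.leadingCoeff • x) := isIntegral_leadingCoeff_smul p x hx
  have h2 : IsIntegral A (p.leadingCoeff • x) := h1.tower_top
  obtain ⟨y, hy⟩ := IsIntegrallyClosed.isIntegral_iff.mp h2
  have hy' : (y : L) = (p.leadingCoeff : L) * x := by
    have : algebraMap A L y = (y : L) := rfl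
    rw [← this, hy, zsmul_eq_mul]
  have hc0 : ((p.leadingCoeff : ℤ) : L) ≠ 0 := by
    intro h0
    rw [h0, map_zero] at hlc
    exact zero_ne_one hlc
  have hx' : x = ((p.leadingCoeff : ℤ) : L)⁻¹ * (y : L) := by
    rw [hy']; field_simp
  rw [hx', ← A.valuation_le_one_iff, map_mul, map_inv₀, hlc, inv_one, one_mul]
  exact (A.valuation_le_one_iff _).2 y.2

/-- Over an algebraically closed field a monic cubic has three roots (Vieta form). -/
theorem exists_roots_cubic [IsAlgClosed L] (s1 s2 s3 : L) :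
    ∃ e1 e2 e3 : L, s1 = e1 + e2 + e3 ∧ s2 = e1 * e2 + e1 * e3 + e2 * e3 ∧ s3 = e1 * e2 * e3 := by
  obtain ⟨e1, he1⟩ := IsAlgClosed.exists_root
    (C (1 : L) * X ^ 3 + C (-s1) * X ^ 2 + C s2 * X + C (-s3))
    (by rw [degree_cubic one_ne_zero]; norm_num)
  obtain ⟨e2, he2⟩ := IsAlgClosed.exists_root
    (C (1 : L) * X ^ 2 + C (e1 - s1) * X + C (e1 ^ 2 - s1 * e1 + s2))
    (by rw [degree_quadratic one_ne_zero]; norm_num)
  simp only [IsRoot.def, eval_add, eval_mul, eval_C, eval_pow, eval_X] at he1 he2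
  refine ⟨e1, e2, s1 - e1 - e2, by ring, ?_, ?_⟩
  · linear_combination he2
  · linear_combination e1 * he2 - he1

end General

section Dup

variable {F : Type*} [Field F] [DecidableEq F] (W : WeierstrassCurve.Affine F)

/-- x-only duplication, read off a relation `2 • Q' = Q` between affine points. -/
theorem dup_x {x' y' x y : F} (h' : W.Nonsingular x' y') (h : W.Nonsingular x y)
    (hdbl : 2 • (Point.some x' y' h') = Point.some x y h) :
    y' - W.negY x' y' ≠ 0 ∧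
      x * (y' - W.negY x' y') ^ 2 = x' ^ 4 - W.b₄ * x' ^ 2 - 2 * W.b₆ * x' - W.b₈ := by
  have hy : y' ≠ W.negY x' y' := by
    intro hy
    rw [two_nsmul, Point.add_self_of_Y_eq hy] at hdbl
    exact Point.some_ne_zero h hdbl.symm
  refine ⟨sub_ne_zero.mpr hy, ?_⟩
  rw [two_nsmul, Point.add_self_of_Y_ne hy] at hdbl
  have hx := (Point.some.inj hdbl).1
  rw [← hx, Affine.slope_of_Y_ne rfl hy, mul_comm]
  exact addX_dup W h'.1 hy

end Dup

section Local

/-- the ring hom `ℤ → ℚ̄` through which the base-changed curve is `W.map φ` -/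
noncomputable def phiZ : ℤ →+* Qb := (algebraMap ℚ Qb).comp (Int.castRingHom ℚ)

theorem phiZ_apply (n : ℤ) : phiZ n = (n : Qb) := eq_intCast phiZ n

theorem curve_eq (W : WeierstrassCurve ℤ) :
    ((W.map (Int.castRingHom ℚ))⁄Qb : Affine Qb) = W.map phiZ := rfl

/-- integrality of the `x`-coordinate of a nonzero `5`-torsion point at a place over `3` -/
theorem x_mem_of_five_torsion (W : WeierstrassCurve ℤ) (A : ValuationSubring Qb)
    (hA : A.LiesOverPrime 3) {x y : Qb} (h : ((W.map (Int.castRingHom ℚ))⁄Qb).Nonsingular x y)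
    (h5 : (5 : ℕ) • (Point.some x y h) = 0) : x ∈ A := by
  have h5' : (2 * 2 + 1) • (Point.some x y h) = 0 := h5
  have hroot := (nsmul_eq_zero_iff_psiP ((W.map (Int.castRingHom ℚ))⁄Qb) h 2).mp h5'
  have hmap : (psiP W.b₂ W.b₄ W.b₆ W.b₈ 2).map phiZ =
      psiP ((W.map (Int.castRingHom ℚ))⁄Qb).b₂ ((W.map (Int.castRingHom ℚ))⁄Qb).b₄
        ((W.map (Int.castRingHom ℚ))⁄Qb).b₆ ((W.map (Int.castRingHom ℚ))⁄Qb).b₈ 2 := by
    rw [psiP_map, curve_eq, WeierstrassCurve.map_b₂, WeierstrassCurve.map_b₄,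
      WeierstrassCurve.map_b₆, WeierstrassCurve.map_b₈]
  rw [← hmap] at hroot
  have hφ : phiZ = algebraMap ℤ Qb := Subsingleton.elim _ _
  rw [hφ, eval_map_algebraMap] at hroot
  have hLC := psiP_isLC W.b₂ W.b₄ W.b₆ W.b₈ 2
  have hne : (-(2 * ((2 : ℕ) : ℤ) + 1)) ≠ 0 := by norm_num
  have hnd := hLC.natDegree_eq hne
  have hlead : (psiP W.b₂ W.b₄ W.b₆ W.b₈ 2).leadingCoeff = -5 := by
    rw [leadingCoeff, hnd, hLC.2]; norm_num
  refine mem_of_aeval_eq_zero A _ ?_ x hroot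
  rw [hlead]
  exact valuation_intCast_eq_one (by norm_num : Nat.Prime 3) hA (by norm_num)

/-- coordinates of a point negated by a Galois element -/
theorem smul_some_eq_neg {W : WeierstrassCurve ℤ} (τ : GQ) {x y : Qb}
    (h : ((W.map (Int.castRingHom ℚ))⁄Qb).Nonsingular x y)
    (hneg : τ • (Point.some x y h) = -(Point.some x y h)) :
    τ x = x ∧ τ y = ((W.map (Int.castRingHom ℚ))⁄Qb).negY x y := by
  have h1 := congrArg (xyCoord ((W.map (Int.castRingHom ℚ))⁄Qb)) hneg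
  have h2 : (τ x, τ y) = (x, ((W.map (Int.castRingHom ℚ))⁄Qb).negY x y) := h1
  exact ⟨(Prod.mk.inj h2).1, (Prod.mk.inj h2).2⟩

/-- such an element negates `η = y - negY x y = 2y + a₁x + a₃` -/
theorem eta_neg {W : WeierstrassCurve ℤ} (τ : GQ) {x y : Qb}
    (hx : τ x = x) (hy : τ y = ((W.map (Int.castRingHom ℚ))⁄Qb).negY x y) :
    τ (y - ((W.map (Int.castRingHom ℚ))⁄Qb).negY x y) =
      -(y - ((W.map (Int.castRingHom ℚ))⁄Qb).negY x y) := by
  have ha1 : τ ((W.map (Int.castRingHom ℚ))⁄Qb).a₁ = ((W.map (Int.castRingHom ℚ))⁄Qb).a₁ :=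
    τ.commutes _
  have ha3 : τ ((W.map (Int.castRingHom ℚ))⁄Qb).a₃ = ((W.map (Int.castRingHom ℚ))⁄Qb).a₃ :=
    τ.commutes _
  simp only [Affine.negY, map_sub, map_neg, map_mul, hx, ha1, ha3] at hy ⊢
  rw [hy]; ring

/-- **Local lemma at 3**, coordinate form: `Q = 2Q'`, `D = 2Q`, all of order `5`. -/
theorem no_neg_aux (W : WeierstrassCurve ℤ) (hss : ¬ ((3 : ℤ) ∣ W.Δ ∧ (3 : ℤ) ∣ W.c₄))
    (A : ValuationSubring Qb) (hA : A.LiesOverPrime 3) (τ : GQ) (hτ : τ ∈ A.inertiaSubgroupIn ℚ)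
    (Q' Q D : ((W.map (Int.castRingHom ℚ))⁄Qb).Point)
    (h2Q' : 2 • Q' = Q) (h2Q : 2 • Q = D)
    (hQ5 : (5 : ℕ) • Q = 0) (hD5 : (5 : ℕ) • D = 0) (hQ0 : Q ≠ 0) (hD0 : D ≠ 0)
    (hτQ' : τ • Q' = -Q') (hτQ : τ • Q = -Q) : False := by
  have h3 : Nat.Prime 3 := by norm_num
  rcases Q' with _ | ⟨x', y', h'⟩
  · apply hQ0
    rw [← h2Q']
    exact nsmul_zero 2
  rcases Q with _ | ⟨x, y, h⟩
  · exact hQ0 rfl
  rcases D with _ | ⟨x2, y2, hD⟩
  · exact hD0 rfl
  obtain ⟨hη'0, hdup'⟩ := dup_x _ h' h h2Q'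
  obtain ⟨-, hdup⟩ := dup_x _ h hD h2Q
  have hη' := psiTwoSq_eq _ h'.1
  have hη := psiTwoSq_eq _ h.1
  obtain ⟨hτx', hτy'⟩ := smul_some_eq_neg τ h' hτQ'
  obtain ⟨hτx, hτy⟩ := smul_some_eq_neg τ h hτQ
  have hτη' := eta_neg τ hτx' hτy'
  have hτη := eta_neg τ hτx hτy
  have hxA : x ∈ A := x_mem_of_five_torsion W A hA h hQ5
  have hx2A : x2 ∈ A := x_mem_of_five_torsion W A hA hD hD5
  have hv2 : A.valuation (2 : Qb) = 1 := by
    have h := valuation_natCast_eq_one (A := A) h3 hA (n := 2) (by norm_num)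
    rwa [Nat.cast_ofNat] at h
  have hv4 : A.valuation ((4 : ℤ) : Qb) = 1 := valuation_intCast_eq_one h3 hA (by norm_num)
  have hv16 : A.valuation ((16 : ℤ) : Qb) = 1 := valuation_intCast_eq_one h3 hA (by norm_num)
  have h16A : (16 : Qb) ∈ A := by
    have h : ((16 : ℤ) : Qb) ∈ A := (A.valuation_le_one_iff _).1 hv16.le
    rwa [Int.cast_ofNat] at h
  clear hτQ' hτQ hQ5 hD5 hQ0 hD0 h2Q' h2Q
  generalize hE : ((W.map (Int.castRingHom ℚ))⁄Qb : Affine Qb) = E at *
  have hb2 : E.b₂ = (W.b₂ : Qb) := by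
    rw [← hE, curve_eq, WeierstrassCurve.map_b₂, phiZ_apply]
  have hb4 : E.b₄ = (W.b₄ : Qb) := by
    rw [← hE, curve_eq, WeierstrassCurve.map_b₄, phiZ_apply]
  have hb6 : E.b₆ = (W.b₆ : Qb) := by
    rw [← hE, curve_eq, WeierstrassCurve.map_b₆, phiZ_apply]
  have hc4 : E.c₄ = (W.c₄ : Qb) := by
    rw [← hE, curve_eq, WeierstrassCurve.map_c₄, phiZ_apply]
  have hΔ : E.Δ = (W.Δ : Qb) := by
    rw [← hE, curve_eq, WeierstrassCurve.map_Δ, phiZ_apply]
  have hb8rel : 4 * E.b₈ = E.b₂ * E.b₆ - E.b₄ ^ 2 := E.b_relation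
  obtain ⟨e1, e2, e3, hs1, hs2, hs3⟩ := exists_roots_cubic (-E.b₂ / 4) (E.b₄ / 2) (-E.b₆ / 4)
  have hτb : ∀ n : ℤ, τ (n : Qb) = (n : Qb) := fun n => map_intCast τ n
  have hτ1 : τ (-E.b₂ / 4) = -E.b₂ / 4 := by rw [hb2, map_div₀, map_neg, hτb, map_ofNat]
  have hτ2 : τ (E.b₄ / 2) = E.b₄ / 2 := by rw [hb4, map_div₀, hτb, map_ofNat]
  have hτ3 : τ (-E.b₆ / 4) = -E.b₆ / 4 := by rw [hb6, map_div₀, map_neg, hτb, map_ofNat]
  have hG : ∀ e : Qb, e ^ 3 - (-E.b₂ / 4) * e ^ 2 + (E.b₄ / 2) * e - (-E.b₆ / 4) = 0 → e ∈ A := by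
    intro e he
    refine mem_of_aeval_eq_zero A (C 4 * X ^ 3 + C W.b₂ * X ^ 2 + C (2 * W.b₄) * X + C W.b₆)
      ?_ e ?_
    · rw [leadingCoeff_cubic (by norm_num)]
      exact hv4
    · simp only [map_add, map_mul, aeval_C, aeval_X, map_pow, algebraMap_int_eq, Int.coe_castRingHom]
      rw [hb2, hb4, hb6] at he
      push_cast
      linear_combination 4 * he
  have he1 : e1 ∈ A := hG e1 (by rw [hs1, hs2, hs3]; ring)
  have he2 : e2 ∈ A := hG e2 (by rw [hs1, hs2, hs3]; ring)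
  have he3 : e3 ∈ A := hG e3 (by rw [hs1, hs2, hs3]; ring)
  have hb2e : E.b₂ = -4 * (e1 + e2 + e3) := by rw [← hs1]; ring
  have hb4e : E.b₄ = 2 * (e1 * e2 + e1 * e3 + e2 * e3) := by rw [← hs2]; ring
  have hb6e : E.b₆ = -4 * (e1 * e2 * e3) := by rw [← hs3]; ring
  have hss' : ¬ (e1 - e2 ∈ A.nonunits ∧ e1 - e3 ∈ A.nonunits) := by
    rintro ⟨h12, h13⟩
    apply hss
    constructor
    · have e : E.Δ = (16 * ((e1 - e3) * (e2 - e3)) ^ 2 * (e1 - e2)) * (e1 - e2) := by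
        rw [WeierstrassCurve.Δ]
        rw [hb2e, hb4e, hb6e] at hb8rel ⊢
        linear_combination (-4 * (e1 + e2 + e3) ^ 2) * hb8rel
      have hd : ((3 : ℕ) : ℤ) ∣ W.Δ := (intCast_mem_nonunits_iff h3 hA W.Δ).1 (by
        rw [← hΔ, e]
        exact nu_mul_left A (mul_mem (mul_mem h16A (pow_mem (mul_mem (A.sub_mem he1 he3)
          (A.sub_mem he2 he3)) 2)) (A.sub_mem he1 he2)) h12)
      exact_mod_cast hd
    · have e : E.c₄ = 16 * ((e1 - e2) * (e1 - e2) - (e1 - e2) * (e1 - e3) +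
          (e1 - e3) * (e1 - e3)) := by
        rw [WeierstrassCurve.c₄, hb2e, hb4e]; ring
      have hd : ((3 : ℕ) : ℤ) ∣ W.c₄ := (intCast_mem_nonunits_iff h3 hA W.c₄).1 (by
        rw [← hc4, e]
        exact nu_mul_left A h16A (A.nonunits.add_mem (A.nonunits.sub_mem
          (A.nonunits.mul_mem h12 h12) (A.nonunits.mul_mem h12 h13))
          (A.nonunits.mul_mem h13 h13)))
      exact_mod_cast hd
  exact core A (τ : Qb →+* Qb) (fun a ha => apply_sub_mem_nonunits hτ ha) hv2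
    (-E.b₂ / 4) (E.b₄ / 2) (-E.b₆ / 4) e1 e2 e3 hs1 hs2 hs3 hτ1 hτ2 hτ3 he1 he2 he3 hss'
    x' (y' - E.negY x' y') x (y - E.negY x y) x2 hxA hx2A
    (by rw [← hη']; ring) hη'0
    (by rw [hdup']; linear_combination (-1 / 4 : Qb) * hb8rel) hτx' hτη'
    (by rw [← hη]; ring)
    (by rw [hdup]; linear_combination (-1 / 4 : Qb) * hb8rel) hτη

/-- **Local lemma at 3.**  For `W` semistable at `3`, `τ` in an inertia group at `3` and a
nonzero `5`-torsion point `Q`: `τ • Q ≠ -Q`. -/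
theorem no_neg_of_inertia (W : WeierstrassCurve ℤ) (hss : ¬ ((3 : ℤ) ∣ W.Δ ∧ (3 : ℤ) ∣ W.c₄))
    (A : ValuationSubring Qb) (hA : A.LiesOverPrime 3) (τ : GQ) (hτ : τ ∈ A.inertiaSubgroupIn ℚ)
    (Q : ((W.map (Int.castRingHom ℚ))⁄Qb).Point) (hQ5 : (5 : ℕ) • Q = 0) (hQ0 : Q ≠ 0) :
    τ • Q ≠ -Q := by
  intro hτQ
  have h6 : (2 : ℕ) • ((3 : ℕ) • Q) = Q := by
    rw [smul_smul]
    calc (2 * 3 : ℕ) • Q = (5 : ℕ) • Q + (1 : ℕ) • Q := by rw [← add_nsmul]
      _ = Q := by rw [hQ5, zero_add, one_nsmul]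
  have hD0 : (2 : ℕ) • Q ≠ 0 := by
    intro h0
    apply hQ0
    have h5 : (5 : ℕ) • Q = (2 : ℕ) • ((2 : ℕ) • Q) + Q := by
      rw [smul_smul, ← succ_nsmul]
      norm_num
    rw [hQ5, h0, nsmul_zero, zero_add] at h5
    exact h5.symm
  have hD5 : (5 : ℕ) • ((2 : ℕ) • Q) = 0 := by
    rw [nsmul_left_comm, hQ5, nsmul_zero]
  have hτQ' : τ • ((3 : ℕ) • Q) = -((3 : ℕ) • Q) := by
    have h1 : τ • ((3 : ℕ) • Q) = (3 : ℕ) • (τ • Q) :=
      map_nsmul (Point.map (W' := W.map (Int.castRingHom ℚ)) τ.toAlgHom) 3 Q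
    rw [h1, hτQ, neg_nsmul]
  exact no_neg_aux W hss A hA τ hτ ((3 : ℕ) • Q) Q ((2 : ℕ) • Q) h6 rfl hQ5 hD5 hQ0 hD0 hτQ' hτQ

end Local

section Global

open Fermat.Agent.Lib.helper54 Fermat.Agent.Lib.helper2053

attribute [local instance] isAlgebraic_Qbar isAlgClosure_Qbar isGalois_Qbar isIntegral_Qbar

/-- There is an inertia element at a place over `3` negating a given square root of `-3`
(Minkowski: `ℚ(√-3)` is ramified somewhere, and only `3` is possible). -/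
theorem exists_inertia_three (s : Qb) (hs : s ^ 2 = -3) :
    ∃ (A : ValuationSubring Qb) (τ : GQ),
      A.LiesOverPrime 3 ∧ τ ∈ A.inertiaSubgroupIn ℚ ∧ τ s = -s := by
  classical
  have hopen : IsOpen ((MulAction.stabilizer GQ s : Subgroup GQ) : Set GQ) :=
    stabilizer_isOpen_of_isIntegral s
  have hne : (MulAction.stabilizer GQ s : Subgroup GQ) ≠ ⊤ := by
    intro htop
    have hfix : ∀ f : GQ, f s = s := fun f => by
      have hf : f ∈ (MulAction.stabilizer GQ s : Subgroup GQ) := htop ▸ Subgroup.mem_top f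
      exact hf
    obtain ⟨r, hr⟩ := (InfiniteGalois.mem_range_algebraMap_iff_fixed s).2 hfix
    have h1 : (algebraMap ℚ Qb) (r ^ 2) = algebraMap ℚ Qb (-3) := by
      rw [map_pow, hr, hs, map_neg, map_ofNat]
    have h2 : r ^ 2 = -3 := (algebraMap ℚ Qb).injective h1
    nlinarith [sq_nonneg r]
  by_contra hcon
  apply hne
  apply minkowski_inertia _ hopen
  intro q hq A hA τ hτ
  by_contra hτs
  have hτs' : τ s ≠ s := hτs
  have hsq : (τ s) ^ 2 = s ^ 2 := by
    rw [← map_pow, hs, map_neg, map_ofNat]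
  have hneg : τ s = -s := by
    have h0 : (τ s - s) * (τ s + s) = 0 := by linear_combination hsq
    rcases mul_eq_zero.1 h0 with h | h
    · exact absurd (sub_eq_zero.1 h) hτs'
    · exact eq_neg_of_add_eq_zero_left h
  have hωint : _root_.IsIntegral ℤ ((-1 + s) / 2) := by
    refine ⟨X ^ 2 + X + 1, ?_, ?_⟩
    · monicity!
    · simp only [eval₂_add, eval₂_pow, eval₂_X, eval₂_one]
      linear_combination (1 / 4 : Qb) * hs
  have hωA : (-1 + s) / 2 ∈ A := mem_valuationSubring_of_isIntegral A _ hωint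
  have hm := apply_sub_mem_nonunits hτ hωA
  have hτω : τ ((-1 + s) / 2) - (-1 + s) / 2 = -s := by
    rw [map_div₀, map_add, map_neg, map_one, hneg, map_ofNat]; ring
  rw [hτω] at hm
  have hs2 : ((-3 : ℤ) : Qb) ∈ A.nonunits := by
    have h' := A.nonunits.mul_mem hm hm
    have e : -s * -s = ((-3 : ℤ) : Qb) := by push_cast; linear_combination hs
    rwa [e] at h'
  have hq3 : (q : ℤ) ∣ (-3 : ℤ) := (intCast_mem_nonunits_iff hq hA (-3)).1 hs2
  have hq3' : q ∣ 3 := by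
    have h' : (q : ℤ) ∣ ((3 : ℕ) : ℤ) := by simpa using hq3
    exact Int.natCast_dvd_natCast.1 h'
  have hq3'' : q = 3 := (Nat.prime_dvd_prime_iff_eq hq (by norm_num)).1 hq3'
  subst hq3''
  exact hcon ⟨A, τ, hA, hτ, hneg⟩

theorem pow_apply_of_neg (τ : GQ) (s : Qb) (hτs : τ s = -s) (n : ℕ) :
    (τ ^ n) s = (-1) ^ n * s := by
  induction n with
  | zero => simp
  | succ n ih =>
    rw [pow_succ, AlgEquiv.mul_apply, hτs, map_neg, ih]; ring

/-- **(SIG).**  For an integral model `W` semistable at `3` there is `σ ∈ Gal(ℚ̄/ℚ)` which fixes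
`W[5](ℚ̄)` pointwise, fixes the square roots of `-1`, and negates the square roots of `-3`. -/
theorem exists_sigma (W : WeierstrassCurve ℤ) (hss : ¬ ((3 : ℤ) ∣ W.Δ ∧ (3 : ℤ) ∣ W.c₄)) :
    ∃ σ : GQ,
      (∀ P : Submodule.torsionBy ℤ ((W.map (Int.castRingHom ℚ))⁄Qb).Point (5 : ℕ), σ • P = P) ∧
      (∀ z : Qb, z ^ 2 = -1 → σ z = z) ∧ (∀ r : Qb, r ^ 2 = -3 → σ r = -r) := by
  classical
  obtain ⟨s, hs⟩ := IsAlgClosed.exists_pow_nat_eq (-3 : Qb) (n := 2) (by norm_num)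
  obtain ⟨A, τ, hA, hτ, hτs⟩ := exists_inertia_three s hs
  have h3 : Nat.Prime 3 := by norm_num
  have hv2 : A.valuation (2 : Qb) = 1 := by
    have h := valuation_natCast_eq_one (A := A) h3 hA (n := 2) (by norm_num)
    rwa [Nat.cast_ofNat] at h
  have : Finite (Submodule.torsionBy ℤ ((W.map (Int.castRingHom ℚ))⁄Qb).Point ((5 : ℕ) : ℤ)) :=
    finite_torsionBy_of_odd _ (by decide : Odd 5) (by norm_num)
  -- the permutation action of `τ` on the 5-torsion
  set π : GQ →* Equiv.Perm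
      (Submodule.torsionBy ℤ ((W.map (Int.castRingHom ℚ))⁄Qb).Point ((5 : ℕ) : ℤ)) :=
    MulAction.toPermHom GQ _ with hπ
  have hπapp : ∀ (g : GQ)
      (P : Submodule.torsionBy ℤ ((W.map (Int.castRingHom ℚ))⁄Qb).Point ((5 : ℕ) : ℤ)),
      π g P = g • P := fun g P => rfl
  have hNpos : 0 < orderOf (π τ) := orderOf_pos (π τ)
  have hodd : Odd (orderOf (π τ)) := by
    rw [← Nat.not_even_iff_odd]
    rintro ⟨k, hk⟩
    have hk0 : k ≠ 0 := by
      rintro rfl
      rw [hk] at hNpos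
      exact lt_irrefl _ hNpos
    have hklt : k < orderOf (π τ) := by omega
    have hne1 : (π τ) ^ k ≠ 1 := pow_ne_one_of_lt_orderOf hk0 hklt
    have hsq1 : (π τ) ^ k * (π τ) ^ k = 1 := by
      rw [← pow_add, ← hk, pow_orderOf_eq_one]
    -- a point moved by `τ ^ k`
    obtain ⟨R, hR⟩ : ∃ R, ((π τ) ^ k) R ≠ R := by
      by_contra hall
      apply hne1
      ext R
      by_contra hR
      exact hall ⟨R, fun h => hR (by rw [h]; rfl)⟩
    have hτk : ∀ P, ((π τ) ^ k) P = (τ ^ k) • P := fun P => by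
      rw [← map_pow]; exact hπapp _ P
    have hinv : (τ ^ k) • ((τ ^ k) • R) = R := by
      rw [← hτk, ← hτk, ← Equiv.Perm.mul_apply, hsq1]; rfl
    have hRne : (τ ^ k) • R - R ≠ 0 := by
      intro h0
      exact hR (by rw [hτk]; exact sub_eq_zero.1 h0)
    have hneg : (τ ^ k) • ((τ ^ k) • R - R) = -((τ ^ k) • R - R) := by
      rw [smul_sub, hinv, neg_sub]
    have hmem := ((τ ^ k) • R - R).2
    rw [Submodule.mem_torsionBy_iff, natCast_zsmul] at hmem
    refine no_neg_of_inertia W hss A hA (τ ^ k) (Subgroup.pow_mem _ hτ k)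
      (((τ ^ k) • R - R : Submodule.torsionBy ℤ ((W.map (Int.castRingHom ℚ))⁄Qb).Point
        ((5 : ℕ) : ℤ)) : ((W.map (Int.castRingHom ℚ))⁄Qb).Point) hmem ?_ ?_
    · intro h0
      exact hRne (Subtype.ext h0)
    · exact congrArg Subtype.val hneg
  refine ⟨τ ^ orderOf (π τ), ?_, ?_, ?_⟩
  · intro P
    have h1 : π (τ ^ orderOf (π τ)) = 1 := by rw [map_pow, pow_orderOf_eq_one]
    have h2 := hπapp (τ ^ orderOf (π τ)) P
    rw [h1] at h2
    exact h2.symm
  · intro z hz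
    have hvz : A.valuation z = 1 := val_eq_one_of_sq A (by rw [hz, Valuation.map_neg, map_one])
    exact apply_eq_self_of_sq_fixed (Subgroup.pow_mem _ hτ _) hvz hv2
      (by rw [hz, map_neg, map_one])
  · intro r hr
    have hσs : (τ ^ orderOf (π τ)) s = -s := by
      rw [pow_apply_of_neg τ s hτs, hodd.neg_one_pow]; ring
    have h0 : (r - s) * (r + s) = 0 := by linear_combination hr - hs
    rcases mul_eq_zero.1 h0 with h | h
    · rw [sub_eq_zero.1 h, hσs]
    · rw [eq_neg_of_add_eq_zero_left h, map_neg, hσs]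

/-- **(SIG)** in the surface of the top-level spec: semistable integral model. -/
theorem exists_sigma_of_semistable (W : WeierstrassCurve ℤ) (hW : W.IsSemistableModel) :
    ∃ σ : GQ,
      (∀ P : Submodule.torsionBy ℤ ((W.map (Int.castRingHom ℚ))⁄Qb).Point (5 : ℕ), σ • P = P) ∧
      (∀ z : Qb, z ^ 2 = -1 → σ z = z) ∧ (∀ r : Qb, r ^ 2 = -3 → σ r = -r) :=
  exists_sigma W fun h => hW 3 (by norm_num) (by exact_mod_cast h.1) (by exact_mod_cast h.2)

/-- Variant: the same `σ` moves every square root of `3` (since it fixes `i` and `√3 = ±i√-3`). -/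
theorem exists_sigma_sqrt_three (W : WeierstrassCurve ℤ) (hW : W.IsSemistableModel) :
    ∃ σ : GQ,
      (∀ P : Submodule.torsionBy ℤ ((W.map (Int.castRingHom ℚ))⁄Qb).Point (5 : ℕ), σ • P = P) ∧
      (∀ z : Qb, z ^ 2 = -1 → σ z = z) ∧ (∀ r : Qb, r ^ 2 = -3 → σ r = -r) ∧
      (∀ r : Qb, r ^ 2 = 3 → σ r = -r) := by
  obtain ⟨σ, h1, h2, h3⟩ := exists_sigma_of_semistable W hW
  refine ⟨σ, h1, h2, h3, fun r hr => ?_⟩
  obtain ⟨z, hz⟩ := IsAlgClosed.exists_pow_nat_eq (-1 : Qb) (n := 2) (by norm_num)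
  have hz0 : z ≠ 0 := by
    rintro rfl
    norm_num at hz
  have h4 : σ (z * r) = -(z * r) := h3 (z * r) (by rw [mul_pow, hz, hr]; ring)
  rw [map_mul, h2 z hz] at h4
  have h5 : z * (σ r + r) = 0 := by linear_combination h4
  rcases mul_eq_zero.1 h5 with h | h
  · exact absurd h hz0
  · exact eq_neg_of_add_eq_zero_left h

end Global

end Fermat.Agent.S52.helper7531
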