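/-
S52 module (A), helper7612: FROBENIUS CAYLEY-HAMILTON WITH POINT-COUNT TRACE.
Spec file: shared definitions and Prop-valued interfaces (hypothesis-passing style).

Target (`Stmt_CH`): for a prime `p ≥ 5`, a Weierstrass curve `W` over `ZMod p` with `Δ ≠ 0`,
any field `K` over `ZMod p` and any point `P` of `W` over `K`:
  `Fr (Fr P) - a_p • Fr P + p • P = 0`,  `Fr = Point.map (x ↦ x ^ p)`,
  `a_p = W.traceOfFrobenius = p + 1 - #W(F_p)` (the Prelude definition behind `apOfModel`).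
-/
import Mathlib
import Fermat.Prelude.Def_FLTPrelim_Modularity

set_option autoImplicit false

namespace Fermat.Agent.S52.helper7612

open Polynomial WeierstrassCurve WeierstrassCurve.Affine

/-- Degree of a rational function as a map `ℙ¹ → ℙ¹`. -/
noncomputable def ratDeg {k : Type*} [Field k] (r : RatFunc k) : ℕ :=
  max r.num.natDegree r.denom.natDegree

/-- Symmetric square of two projective coordinate pairs:
`(a₀ : a₁), (b₀ : b₁) ↦ (a₀ b₀ : a₀ b₁ + a₁ b₀ : a₁ b₁)`; matches Mathlib's `Point.sym2x`. -/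
def sym2 {R : Type*} [CommRing R] (a b : Fin 2 → R) : Fin 3 → R :=
  ![a 0 * b 0, a 0 * b 1 + a 1 * b 0, a 1 * b 1]

/-- Maximal degree of a pair of polynomials. -/
noncomputable def hp {k : Type*} [Field k] (a : Fin 2 → k[X]) : ℕ :=
  max (a 0).natDegree (a 1).natDegree

/-- The Frobenius map on points of a curve over `ZMod p`, over any field `K` of characteristic
`p`. -/
noncomputable def frobPt {p : ℕ} [Fact p.Prime] (W : WeierstrassCurve (ZMod p))
    (K : Type*) [Field K] [Algebra (ZMod p) K] [DecidableEq K] :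
    (W⁄K).Point →+ (W⁄K).Point :=
  Point.map (W' := W) (FiniteField.frobeniusAlgHom (ZMod p) K)

/-- (B1) HEIGHT CORE: the parallelogram law for coprime polynomial pairs whose symmetric squares
are related by Mathlib's `addSubMap`. -/
def Stmt_PLCore : Prop :=
  ∀ (k : Type) [Field k] (W : WeierstrassCurve k) [W.IsElliptic] (a b c d : Fin 2 → k[X]),
    IsCoprime (a 0) (a 1) → IsCoprime (b 0) (b 1) → IsCoprime (c 0) (c 1) →
    IsCoprime (d 0) (d 1) →
    (∀ i j : Fin 3,
      sym2 c d i * MvPolynomial.eval (sym2 a b) ((W.map (C : k →+* k[X])).addSubMap j)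
        = sym2 c d j * MvPolynomial.eval (sym2 a b) ((W.map (C : k →+* k[X])).addSubMap i)) →
    hp c + hp d = 2 * (hp a + hp b)

/-- (B2) ADD-SUB: Mathlib's `addSubMap` really computes `(x(P+Q) x(P-Q) : x(P+Q) + x(P-Q) : 1)`
from `(x(P) x(Q) : x(P) + x(Q) : 1)` (short Weierstrass form; projective equality written as
vanishing of the `2 × 2` minors), including all degenerate cases. -/
def Stmt_AddSub : Prop :=
  ∀ (F : Type) [Field F] [DecidableEq F] (W : WeierstrassCurve F),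
    W.a₁ = 0 → W.a₂ = 0 → W.a₃ = 0 →
    ∀ (P Q : W.toAffine.Point) (i j : Fin 3),
      (P + Q).sym2x (P - Q) i * MvPolynomial.eval (P.sym2x Q) (W.addSubMap j)
        = (P + Q).sym2x (P - Q) j * MvPolynomial.eval (P.sym2x Q) (W.addSubMap i)

/-- (B3) DEGREE OF A COMPOSITION of rational functions. -/
def Stmt_RatDegComp : Prop :=
  ∀ (k : Type) [Field k] (g : RatFunc k) (σ : RatFunc k →ₐ[k] RatFunc k),
    σ RatFunc.X = g → ∀ r : RatFunc k, ratDeg (σ r) = ratDeg r * ratDeg g

/-- (B4) COUNT: the `x`-coordinate of `Fr η - η` (`η` the generic point of `y² = x³ + A x + B`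
over `F_p`) has degree `#E(F_p)`. -/
def Stmt_Count : Prop :=
  ∀ (p : ℕ) [Fact p.Prime], p ≠ 2 → ∀ (A B : ZMod p), 4 * A ^ 3 + 27 * B ^ 2 ≠ 0 →
    ratDeg
        ((RatFunc.X ^ 3 + RatFunc.C A * RatFunc.X + RatFunc.C B)
            * ((RatFunc.X ^ 3 + RatFunc.C A * RatFunc.X + RatFunc.C B) ^ (p / 2) + 1) ^ 2
            / (RatFunc.X ^ p - RatFunc.X) ^ 2
          - RatFunc.X ^ p - RatFunc.X : RatFunc (ZMod p))
      = 1 + Nat.card {cd : ZMod p × ZMod p // cd.2 ^ 2 = cd.1 ^ 3 + A * cd.1 + B}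

/-- (CH-short) Cayley-Hamilton for Frobenius, short Weierstrass form `y² = x³ + a₄ x + a₆`. -/
def Stmt_CHShort : Prop :=
  ∀ (p : ℕ) [Fact p.Prime], p ≠ 2 → ∀ (W : WeierstrassCurve (ZMod p)), W.Δ ≠ 0 →
    W.a₁ = 0 → W.a₂ = 0 → W.a₃ = 0 →
    ∀ (K : Type) [Field K] [Algebra (ZMod p) K] [DecidableEq K] (P : (W⁄K).Point),
      frobPt W K (frobPt W K P) - W.traceOfFrobenius • frobPt W K P + (p : ℤ) • P = 0

/-- (CH) Cayley-Hamilton for Frobenius, general Weierstrass form, `p ≥ 5`. -/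
def Stmt_CH : Prop :=
  ∀ (p : ℕ) [Fact p.Prime], 5 ≤ p → ∀ (W : WeierstrassCurve (ZMod p)), W.Δ ≠ 0 →
    ∀ (K : Type) [Field K] [Algebra (ZMod p) K] [DecidableEq K] (P : (W⁄K).Point),
      frobPt W K (frobPt W K P) - W.traceOfFrobenius • frobPt W K P + (p : ℤ) • P = 0

end Fermat.Agent.S52.helper7612
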