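/-
S52 (3-5 switch), helper7816: the GLUE of the abc-hedge for the auxiliary-fibre step.

`helper267.exists_polynomial_root` (B1, landed) + the Mason-Stothers statement `NoTau` (B2,
hypothesis-passing) give: for a polynomial family `(C4(t), C6(t))` with
`C4^3 - C6^2 = κ * D^5`, `D` non-constant and coprime to `C4`, there is an integer parameter
`t ≡ 0 (mod N1)` such that EVERY integral Weierstrass model with invariants `(C4(t), C6(t))`
has `Δ ≠ 0` and irreducible mod-3 representation.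

Key point: by `helper489.psi3_shift_identity` a rational root of `ψ₃` gives an integer root of
`Q(n) = n^4 - 486 c₄ n^2 - 5832 c₆ n - 19683 c₄^2`, which depends on `(c₄, c₆)` only.  With
`lam = n^3 - 243 c₄ n - 1458 c₆`, `mu = n^2 - 81 c₄` one has `Q = 4 n lam - 3 mu^2`, and
`τ = (27 mu^3 - 54 lam^2) / (2 lam^2)` satisfies `1728 c₄^3 τ = (c₄^3 - c₆^2) (τ + 27) (τ + 3)^3`.
-/
import Mathlib
import Fermat.Prelude.Def_FLTPrelim_ModularRep
import Fermat.Agent.S52.helper489_PsiThree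
import Fermat.Agent.S52.helper267_IntRoots

set_option autoImplicit false

namespace Fermat.Agent.S52.helper7816

open Polynomial WeierstrassCurve

/-- The Mason-Stothers statement (B2 of the abc-hedge): the generic fibre has no `3`-isogeny. -/
def NoTau (K : Type*) [Field K] : Prop :=
  ∀ (c4 D : K[X]) (κ : K), κ ≠ 0 → IsCoprime c4 D → D.natDegree ≠ 0 →
    ∀ a b : K[X], IsCoprime a b → b ≠ 0 →
      c4 ^ 3 * a * b ^ 3 = C κ * D ^ 5 * (a + 27 * b) * (a + 3 * b) ^ 3 → False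

/-! ### Ring identities for the quartic `Q(n) = n^4 - 486 c₄ n^2 - 5832 c₆ n - 19683 c₄^2` -/

section Identities

variable {R : Type*} [CommRing R]

theorem quartic_eq (n c4 c6 : R) :
    n ^ 4 - 486 * c4 * n ^ 2 - 5832 * c6 * n - 19683 * c4 ^ 2
      = 4 * n * (n ^ 3 - 243 * c4 * n - 1458 * c6) - 3 * (n ^ 2 - 81 * c4) ^ 2 := by
  ring

theorem disc_identity (n c4 c6 : R) :
    13122 * (c4 ^ 3 - c6 ^ 2)
      = -(c4 * n - 9 * c6) * (n ^ 3 - 243 * c4 * n - 1458 * c6)
        + (n * (c4 * n - 9 * c6) - 162 * c4 ^ 2) * (n ^ 2 - 81 * c4) := by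
  ring

/-- The `τ`-identity: on `Q(n) = 0`, `τ = (27 mu^3 - 54 lam^2)/(2 lam^2)` is a root of the
modular equation of `X₀(3)` for `j = 1728 c₄^3 / (c₄^3 - c₆^2)`. -/
theorem tau_identity (n c4 c6 : R)
    (hQ : n ^ 4 - 486 * c4 * n ^ 2 - 5832 * c6 * n - 19683 * c4 ^ 2 = 0) :
    1728 * c4 ^ 3 * (27 * (n ^ 2 - 81 * c4) ^ 3 - 54 * (n ^ 3 - 243 * c4 * n - 1458 * c6) ^ 2)
        * (2 * (n ^ 3 - 243 * c4 * n - 1458 * c6) ^ 2) ^ 3
      = (c4 ^ 3 - c6 ^ 2)
        * ((27 * (n ^ 2 - 81 * c4) ^ 3 - 54 * (n ^ 3 - 243 * c4 * n - 1458 * c6) ^ 2)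
            + 27 * (2 * (n ^ 3 - 243 * c4 * n - 1458 * c6) ^ 2))
        * ((27 * (n ^ 2 - 81 * c4) ^ 3 - 54 * (n ^ 3 - 243 * c4 * n - 1458 * c6) ^ 2)
            + 3 * (2 * (n ^ 3 - 243 * c4 * n - 1458 * c6) ^ 2)) ^ 3 := by
  linear_combination
    (- 123201 * n^20 * c4^3
      - 250047 * n^20 * c6^2
      + 96722262 * n^18 * c4^4
      + 538172586 * n^18 * c4 * c6^2
      - 276349320 * n^17 * c4^3 * c6
      + 3541522824 * n^17 * c6^3
      - 8537599665 * n^16 * c4^5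
      - 454300744527 * n^16 * c4^2 * c6^2
      + 793437161472 * n^15 * c4^4 * c6
      - 5554060130304 * n^15 * c4 * c6^3
      - 7001463077208 * n^14 * c4^6
      + 198864486685656 * n^14 * c4^3 * c6^2
      - 16315051632768 * n^14 * c6^4
      - 386614654382880 * n^13 * c4^5 * c6
      + 3278693107948320 * n^13 * c4^2 * c6^3
      + 1291832699864094 * n^12 * c4^7
      - 49667869999191006 * n^12 * c4^4 * c6^2
      + 17286193923498432 * n^12 * c4 * c6^4
      + 36765547340950656 * n^11 * c4^6 * c6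
      - 978137083976501376 * n^11 * c4^3 * c6^3
      + 27474745308871680 * n^11 * c6^5
      + 106239824160838884 * n^10 * c4^8
      + 6525223767903375900 * n^10 * c4^5 * c6^2
      - 7017989877383235840 * n^10 * c4^2 * c6^4
      + 12336996635111368080 * n^9 * c4^7 * c6
      + 156153325010770992240 * n^9 * c4^4 * c6^3
      - 20204783096221555200 * n^9 * c4 * c6^5
      - 32631685525680920010 * n^8 * c4^9
      - 198981013919288390262 * n^8 * c4^6 * c6^2
      + 1395513622046963350080 * n^8 * c4^3 * c6^4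
      - 19396591772372692992 * n^8 * c6^6
      - 2728120091158256023296 * n^7 * c4^8 * c6
      - 11161526278014711523584 * n^7 * c4^5 * c6^3
      + 5487548811427352752128 * n^7 * c4^2 * c6^5
      + 745670148155491633128 * n^6 * c4^10
      - 46912378451347669266792 * n^6 * c4^7 * c6^2
      - 133428126993620338604160 * n^6 * c4^4 * c6^4
      + 9221814392647625994240 * n^6 * c4 * c6^6
      + 121511813708120984389728 * n^5 * c4^9 * c6
      - 97996187006869538104416 * n^5 * c4^6 * c6^3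
      - 669350027999673520081920 * n^5 * c4^3 * c6^5
      + 4918301009412067196928 * n^5 * c6^7
      + 99243023142281709802563 * n^4 * c4^11
      + 3591240642285367141598589 * n^4 * c4^8 * c6^2
      + 3405702509714699351166528 * n^4 * c4^5 * c6^4
      - 1493933931608915411066880 * n^4 * c4^2 * c6^6
      + 3655469588905564896454272 * n^3 * c4^10 * c6
      + 41946863673456578026362240 * n^3 * c4^7 * c6^3
      + 29094363318083627630527488 * n^3 * c4^4 * c6^5
      - 1195147145287132328853504 * n^3 * c4 * c6^7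
      + 904019688204555111784758 * n^2 * c4^12
      + 42961615378662223645666506 * n^2 * c4^9 * c6^2
      + 226387013161186019104547328 * n^2 * c4^6 * c6^4
      + 89187855717052250040692736 * n^2 * c4^3 * c6^6
      + 14677025526144541814858424 * n * c4^11 * c6
      + 189525068750649083435345736 * n * c4^8 * c6^3
      + 570253255869268123846866432 * n * c4^5 * c6^5
      + 96806918768257718637133824 * n * c4^2 * c6^7
      + 2153693963075557766310747 * c4^13
      + 43791777249203007914985189 * c4^10 * c6^2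
      + 280777879630591234719030720 * c4^7 * c6^4
      + 544538918071449667333877760 * c4^4 * c6^6) * hQ

end Identities

/-! ### Simple roots modulo a prime not dividing `6 (c₄^3 - c₆^2)` -/

theorem simple_root (p : ℕ) (hp : p.Prime) (c4 c6 : ℤ)
    (hp6 : ¬ (p : ℤ) ∣ 6 * (c4 ^ 3 - c6 ^ 2)) (r : ℤ)
    (h1 : (p : ℤ) ∣ r ^ 4 - 486 * c4 * r ^ 2 - 5832 * c6 * r - 19683 * c4 ^ 2) :
    ¬ (p : ℤ) ∣ 4 * r ^ 3 - 972 * c4 * r - 5832 * c6 := by
  intro h2
  have hpZ : Prime (p : ℤ) := Nat.prime_iff_prime_int.mp hp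
  have hp2 : ¬ (p : ℤ) ∣ 2 := fun h =>
    hp6 (Dvd.dvd.mul_right (dvd_trans h ⟨3, by norm_num⟩) _)
  have hp3 : ¬ (p : ℤ) ∣ 3 := fun h =>
    hp6 (Dvd.dvd.mul_right (dvd_trans h ⟨2, by norm_num⟩) _)
  have hpd : ¬ (p : ℤ) ∣ (c4 ^ 3 - c6 ^ 2) := fun h => hp6 (Dvd.dvd.mul_left h _)
  have hlam : (p : ℤ) ∣ r ^ 3 - 243 * c4 * r - 1458 * c6 := by
    have h4 : (p : ℤ) ∣ 2 * (2 * (r ^ 3 - 243 * c4 * r - 1458 * c6)) := by
      have e : 2 * (2 * (r ^ 3 - 243 * c4 * r - 1458 * c6))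
          = 4 * r ^ 3 - 972 * c4 * r - 5832 * c6 := by ring
      rw [e]; exact h2
    rcases hpZ.dvd_or_dvd h4 with h | h
    · exact absurd h hp2
    · rcases hpZ.dvd_or_dvd h with h | h
      · exact absurd h hp2
      · exact h
  have hmu : (p : ℤ) ∣ r ^ 2 - 81 * c4 := by
    have h3 : (p : ℤ) ∣ 3 * (r ^ 2 - 81 * c4) ^ 2 := by
      have e : 3 * (r ^ 2 - 81 * c4) ^ 2
          = 4 * r * (r ^ 3 - 243 * c4 * r - 1458 * c6)
            - (r ^ 4 - 486 * c4 * r ^ 2 - 5832 * c6 * r - 19683 * c4 ^ 2) := by ring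
      rw [e]; exact dvd_sub (Dvd.dvd.mul_left hlam _) h1
    rcases hpZ.dvd_or_dvd h3 with h | h
    · exact absurd h hp3
    · exact hpZ.dvd_of_dvd_pow h
  have h13122 : (p : ℤ) ∣ 13122 * (c4 ^ 3 - c6 ^ 2) := by
    rw [disc_identity r c4 c6]
    exact dvd_add (Dvd.dvd.mul_left hlam _) (Dvd.dvd.mul_left hmu _)
  rcases hpZ.dvd_or_dvd h13122 with h | h
  · have e : (13122 : ℤ) = 2 * 3 ^ 8 := by norm_num
    rw [e] at h
    rcases hpZ.dvd_or_dvd h with h | h
    · exact hp2 h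
    · exact hp3 (hpZ.dvd_of_dvd_pow h)
  · exact hpd h

/-! ### From "no integer root of `Q`" to `Δ ≠ 0` and irreducibility of the `3`-torsion -/

/-- A degenerate pair `c₄^3 = c₆^2` always has an integer root of `Q`. -/
theorem disc_ne_zero_of_no_root (z4 z6 : ℤ)
    (h : ∀ n : ℤ, n ^ 4 - 486 * z4 * n ^ 2 - 5832 * z6 * n - 19683 * z4 ^ 2 ≠ 0) :
    z4 ^ 3 ≠ z6 ^ 2 := by
  intro he
  by_cases h4 : z4 = 0
  · have h6 : z6 = 0 := by
      rw [h4] at he
      have : z6 ^ 2 = 0 := by rw [← he]; ring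
      exact pow_eq_zero_iff (by norm_num) |>.mp this
    exact h 0 (by rw [h4, h6]; ring)
  · have h4' : (z4 : ℚ) ≠ 0 := by exact_mod_cast h4
    have he' : (z4 : ℚ) ^ 3 = (z6 : ℚ) ^ 2 := by exact_mod_cast he
    set m : ℚ := (z6 : ℚ) / z4 with hm
    have hm1 : m * z4 = z6 := by rw [hm]; field_simp
    have hm2 : m ^ 2 = z4 := by
      have : m ^ 2 * (z4 : ℚ) ^ 2 = (z4 : ℚ) * (z4 : ℚ) ^ 2 := by
        have : m ^ 2 * (z4 : ℚ) ^ 2 = (m * z4) ^ 2 := by ring
        rw [this, hm1, ← he']; ring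
      exact mul_right_cancel₀ (pow_ne_zero 2 h4') this
    have hm3 : m ^ 3 = z6 := by
      have : m ^ 3 = m * m ^ 2 := by ring
      rw [this, hm2, hm1]
    have hroot : (-9 * m) ^ 4 - ((486 * z4 : ℤ) : ℚ) * (-9 * m) ^ 2
        - ((5832 * z6 : ℤ) : ℚ) * (-9 * m) - ((19683 * z4 ^ 2 : ℤ) : ℚ) = 0 := by
      push_cast
      rw [← hm2, ← hm3]
      ring
    obtain ⟨n, hn⟩ := helper489.exists_int_of_quartic (-9 * m) (486 * z4) (5832 * z6)
      (19683 * z4 ^ 2) hroot
    rw [← hn] at hroot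
    exact h n (by exact_mod_cast hroot)

/-- No integer root of `Q` forces irreducibility of the mod-3 representation. -/
theorem modRepIsIrreducible_three_of_no_root (W : WeierstrassCurve ℤ) (hΔ : W.Δ ≠ 0)
    (h : ∀ n : ℤ, n ^ 4 - 486 * W.c₄ * n ^ 2 - 5832 * W.c₆ * n - 19683 * W.c₄ ^ 2 ≠ 0) :
    W.ModRepIsIrreducible 3 := by
  by_contra hred
  unfold WeierstrassCurve.ModRepIsIrreducible at hred
  have hΔ' : (W.map (Int.castRingHom ℚ)).Δ ≠ 0 := by
    rw [WeierstrassCurve.map_Δ]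
    simpa using hΔ
  obtain ⟨x₀, hx₀⟩ := Fermat.Agent.S51.helper2572.three_reducible_imp_root
    (W.map (Int.castRingHom ℚ)) hΔ' hred
  have hid := helper489.psi3_shift_identity (W.map (Int.castRingHom ℚ)) x₀
  rw [hx₀, mul_zero] at hid
  simp only [WeierstrassCurve.map_c₄, WeierstrassCurve.map_c₆, WeierstrassCurve.map_b₂,
    eq_intCast] at hid
  obtain ⟨n, hn⟩ := helper489.exists_int_of_quartic (108 * x₀ + 9 * (W.b₂ : ℚ)) (486 * W.c₄)
    (5832 * W.c₆) (19683 * W.c₄ ^ 2) (by push_cast; linear_combination hid)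
  rw [← hn] at hid
  exact h n (by exact_mod_cast hid)

/-! ### Integral polynomial models of a rational polynomial along `t = L * s` -/

lemma exists_den_poly (R : ℚ[X]) : ∃ D : ℤ, 0 < D ∧ ∀ m : ℤ, ∃ P : ℤ[X],
    P.map (Int.castRingHom ℚ)
      = C ((D * m : ℤ) : ℚ) * R.comp (C ((D * m : ℤ) : ℚ) * X) := by
  induction R using Polynomial.induction_on with
  | C a =>
    refine ⟨a.den, by exact_mod_cast a.den_pos, fun m => ⟨C (a.num * m), ?_⟩⟩
    rw [Polynomial.map_C, C_comp, ← C_mul]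
    congr 1
    have := Rat.den_mul_eq_num a
    simp only [eq_intCast]
    push_cast
    linear_combination (-(m : ℚ)) * this
  | add p q hp hq =>
    obtain ⟨D1, hD1, h1⟩ := hp
    obtain ⟨D2, hD2, h2⟩ := hq
    refine ⟨D1 * D2, mul_pos hD1 hD2, fun m => ?_⟩
    obtain ⟨P1, hP1⟩ := h1 (D2 * m)
    obtain ⟨P2, hP2⟩ := h2 (D1 * m)
    refine ⟨P1 + P2, ?_⟩
    have e1 : D1 * (D2 * m) = D1 * D2 * m := by ring
    have e2 : D2 * (D1 * m) = D1 * D2 * m := by ring
    rw [e1] at hP1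
    rw [e2] at hP2
    rw [Polynomial.map_add, hP1, hP2, add_comp, mul_add]
  | monomial n a h =>
    obtain ⟨D, hD, h1⟩ := h
    refine ⟨D, hD, fun m => ?_⟩
    obtain ⟨P, hP⟩ := h1 m
    refine ⟨P * (C (D * m) * X), ?_⟩
    have key : (C a * X ^ (n + 1)).comp (C ((D * m : ℤ) : ℚ) * X)
        = (C a * X ^ n).comp (C ((D * m : ℤ) : ℚ) * X) * (C ((D * m : ℤ) : ℚ) * X) := by
      rw [pow_succ, ← mul_assoc, mul_comp, X_comp]
    have hmap : (C (D * m) * X : ℤ[X]).map (Int.castRingHom ℚ) = C ((D * m : ℤ) : ℚ) * X := by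
      rw [Polynomial.map_mul, Polynomial.map_C, Polynomial.map_X, eq_intCast]
    rw [Polynomial.map_mul, hP, hmap, key]
    ring

lemma exists_int_model (f : ℚ[X]) (c : ℤ) (h0 : f.eval 0 = (c : ℚ)) :
    ∃ D : ℤ, 0 < D ∧ ∀ m : ℤ, ∃ P : ℤ[X],
      P.map (Int.castRingHom ℚ) = f.comp (C ((D * m : ℤ) : ℚ) * X) := by
  obtain ⟨D, hD, h⟩ := exists_den_poly f.divX
  refine ⟨D, hD, fun m => ?_⟩
  obtain ⟨P, hP⟩ := h m
  refine ⟨P * X + C c, ?_⟩
  have hf : f = f.divX * X + C (c : ℚ) := by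
    have h1 := Polynomial.divX_mul_X_add f
    rw [Polynomial.coeff_zero_eq_eval_zero, h0] at h1
    exact h1.symm
  conv_rhs => rw [hf]
  rw [Polynomial.map_add, Polynomial.map_mul, hP, Polynomial.map_X, Polynomial.map_C,
    add_comp, mul_comp, X_comp, C_comp]
  simp only [eq_intCast]
  ring

/-! ### The algebraic core: a polynomial root of `Q` contradicts `NoTau` -/

theorem false_of_polynomial_root {K : Type*} [Field K] [CharZero K] (hNoTau : NoTau K)
    (a4 a6 n D : K[X]) (κ : K) (hκ : κ ≠ 0) (hD : D.natDegree ≠ 0) (hcop : IsCoprime a4 D)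
    (hdisc : a4 ^ 3 - a6 ^ 2 = C κ * D ^ 5)
    (hQ : n ^ 4 - 486 * a4 * n ^ 2 - 5832 * a6 * n - 19683 * a4 ^ 2 = 0) : False := by
  classical
  have hD0 : D ≠ 0 := fun h => hD (by rw [h]; simp)
  have hdisc0 : a4 ^ 3 - a6 ^ 2 ≠ 0 := by
    rw [hdisc]
    exact mul_ne_zero (C_ne_zero.mpr hκ) (pow_ne_zero 5 hD0)
  have h3 : (3 : K[X]) ≠ 0 := by norm_num
  have h13122 : (13122 : K[X]) ≠ 0 := by norm_num
  have h1728 : (1728 : K[X]) ≠ 0 := by norm_num
  set lam : K[X] := n ^ 3 - 243 * a4 * n - 1458 * a6 with hlam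
  set mu : K[X] := n ^ 2 - 81 * a4 with hmu
  have hlam0 : lam ≠ 0 := by
    intro h0
    have hmu2 : 3 * mu ^ 2 = 0 := by
      have := quartic_eq n a4 a6
      rw [hQ, ← hlam, ← hmu, h0] at this
      linear_combination this
    have hmu0 : mu = 0 := by
      rcases mul_eq_zero.mp hmu2 with h | h
      · exact absurd h h3
      · exact pow_eq_zero_iff (by norm_num) |>.mp h
    have := disc_identity n a4 a6
    rw [← hlam, ← hmu, h0, hmu0] at this
    have h' : 13122 * (a4 ^ 3 - a6 ^ 2) = 0 := by rw [this]; ring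
    rcases mul_eq_zero.mp h' with h | h
    · exact h13122 h
    · exact hdisc0 h
  set a0 : K[X] := 27 * mu ^ 3 - 54 * lam ^ 2 with ha0
  set b0 : K[X] := 2 * lam ^ 2 with hb0
  have hb0ne : b0 ≠ 0 := by
    rw [hb0]
    exact mul_ne_zero (by norm_num) (pow_ne_zero 2 hlam0)
  have hτ : 1728 * a4 ^ 3 * a0 * b0 ^ 3 = (a4 ^ 3 - a6 ^ 2) * (a0 + 27 * b0) * (a0 + 3 * b0) ^ 3 :=
    tau_identity n a4 a6 hQ
  -- divide out the gcd
  obtain ⟨a, ha⟩ := EuclideanDomain.gcd_dvd_left a0 b0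
  obtain ⟨b, hb⟩ := EuclideanDomain.gcd_dvd_right a0 b0
  set d : K[X] := EuclideanDomain.gcd a0 b0 with hd
  have hd0 : d ≠ 0 := fun h => hb0ne (by rw [hb, h, zero_mul])
  have hbne : b ≠ 0 := fun h => hb0ne (by rw [hb, h, mul_zero])
  have hab : IsCoprime a b := by
    have hbez := EuclideanDomain.gcd_eq_gcd_ab a0 b0
    rw [← hd] at hbez
    refine ⟨EuclideanDomain.gcdA a0 b0, EuclideanDomain.gcdB a0 b0, ?_⟩
    have h1 : d * (EuclideanDomain.gcdA a0 b0 * a + EuclideanDomain.gcdB a0 b0 * b) = d * 1 := by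
      have e1 : d * (EuclideanDomain.gcdA a0 b0 * a + EuclideanDomain.gcdB a0 b0 * b)
          = (d * a) * EuclideanDomain.gcdA a0 b0 + (d * b) * EuclideanDomain.gcdB a0 b0 := by
        ring
      rw [e1, ← ha, ← hb, ← hbez, mul_one]
    exact mul_left_cancel₀ hd0 h1
  have hfin : a4 ^ 3 * a * b ^ 3 = C (κ / 1728) * D ^ 5 * (a + 27 * b) * (a + 3 * b) ^ 3 := by
    have hC : (C κ : K[X]) = 1728 * C (κ / 1728) := by
      have : (1728 : K[X]) = C (1728 : K) := (map_ofNat C 1728).symm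
      rw [this, ← C_mul]
      congr 1
      field_simp
    have h1 : d ^ 4 * (1728 * (a4 ^ 3 * a * b ^ 3))
        = d ^ 4 * (1728 * (C (κ / 1728) * D ^ 5 * (a + 27 * b) * (a + 3 * b) ^ 3)) := by
      have h2 := hτ
      rw [hdisc, hC, ha, hb] at h2
      linear_combination h2
    exact mul_left_cancel₀ h1728 (mul_left_cancel₀ (pow_ne_zero 4 hd0) h1)
  exact hNoTau a4 D (κ / 1728) (div_ne_zero hκ (by norm_num)) hcop hD a b hab hbne hfin

/-! ### The glue -/

/-- **abc-hedge glue.** For a rational polynomial family `(C4, C6)` through `(c4, c6)` with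
`C4^3 - C6^2 = κ D^5`, `D` non-constant and coprime to `C4` (over any field `K` of
characteristic `0`), and any modulus `N1 ≠ 0`, there is an integer `t ≡ 0 (mod N1)` such that
every integral Weierstrass model with invariants `(C4(t), C6(t))` has `Δ ≠ 0` and irreducible
mod-3 representation. -/
theorem hChoose_of_abc {K : Type*} [Field K] [CharZero K] (hNoTau : NoTau K)
    (C4 C6 : ℚ[X]) (c4 c6 : ℤ)
    (h04 : C4.eval 0 = (c4 : ℚ)) (h06 : C6.eval 0 = (c6 : ℚ)) (hne : c4 ^ 3 ≠ c6 ^ 2)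
    (κ : K) (D : K[X]) (hκ : κ ≠ 0) (hD : D.natDegree ≠ 0)
    (hcop : IsCoprime (C4.map (algebraMap ℚ K)) D)
    (hdisc : (C4 ^ 3 - C6 ^ 2).map (algebraMap ℚ K) = C κ * D ^ 5) :
    ∀ N1 : ℤ, N1 ≠ 0 → ∃ t : ℤ, N1 ∣ t ∧ ∀ W' : WeierstrassCurve ℤ,
      (W'.c₄ : ℚ) = C4.eval (t : ℚ) → (W'.c₆ : ℚ) = C6.eval (t : ℚ) →
        W'.Δ ≠ 0 ∧ W'.ModRepIsIrreducible 3 := by
  intro N1 hN1
  obtain ⟨D4, hD4, hP4⟩ := exists_int_model C4 c4 h04
  obtain ⟨D6, hD6, hP6⟩ := exists_int_model C6 c6 h06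
  obtain ⟨L, hL⟩ : ∃ L : ℤ, L = D4 * D6 * N1 := ⟨_, rfl⟩
  have hL0 : L ≠ 0 := by
    rw [hL]; exact mul_ne_zero (mul_ne_zero hD4.ne' hD6.ne') hN1
  obtain ⟨p4, hp4⟩ := hP4 (D6 * N1)
  obtain ⟨p6, hp6⟩ := hP6 (D4 * N1)
  have e4 : D4 * (D6 * N1) = L := by rw [hL]; ring
  have e6 : D6 * (D4 * N1) = L := by rw [hL]; ring
  rw [e4] at hp4
  rw [e6] at hp6
  -- values of the integral models
  have hv4 : ∀ s : ℤ, ((p4.eval s : ℤ) : ℚ) = C4.eval ((L * s : ℤ) : ℚ) := by
    intro s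
    rw [← helper267.eval_map_cast, hp4, eval_comp, eval_mul, eval_C, eval_X]
    push_cast; rfl
  have hv6 : ∀ s : ℤ, ((p6.eval s : ℤ) : ℚ) = C6.eval ((L * s : ℤ) : ℚ) := by
    intro s
    rw [← helper267.eval_map_cast, hp6, eval_comp, eval_mul, eval_C, eval_X]
    push_cast; rfl
  have h40 : p4.eval 0 = c4 := by
    have := hv4 0
    rw [mul_zero, Int.cast_zero, h04] at this
    exact_mod_cast this
  have h60 : p6.eval 0 = c6 := by
    have := hv6 0
    rw [mul_zero, Int.cast_zero, h06] at this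
    exact_mod_cast this
  -- the bivariate quartic
  obtain ⟨G, hG⟩ : ∃ G : ℤ[X][X], G = X ^ (3 + 1)
      - (C (486 * p4) * X ^ 2 + C (5832 * p6) * X + C (19683 * p4 ^ 2)) := ⟨_, rfl⟩
  have hGm : G.Monic := by
    rw [hG]
    apply Polynomial.monic_X_pow_sub
    compute_degree
    norm_num
  have hGe : ∀ s x : ℤ, G.evalEval s x
      = x ^ 4 - 486 * p4.eval s * x ^ 2 - 5832 * p6.eval s * x - 19683 * p4.eval s ^ 2 := by
    intro s x
    rw [hG]
    simp only [Polynomial.evalEval, eval_sub, eval_add, eval_mul, eval_pow, eval_X, eval_C,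
      eval_ofNat]
    ring
  have hGd : ∀ s x : ℤ, (derivative G).evalEval s x
      = 4 * x ^ 3 - 972 * p4.eval s * x - 5832 * p6.eval s := by
    intro s x
    rw [hG]
    simp only [Polynomial.evalEval, derivative_sub, derivative_add, derivative_mul,
      derivative_X_pow, derivative_C, derivative_X, eval_sub, eval_add, eval_mul, eval_pow,
      eval_X, eval_C, eval_ofNat, eval_zero, eval_one, Nat.cast_ofNat, eval_natCast]
    push_cast
    ring
  -- an auxiliary prime for the simple-root hypothesis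
  obtain ⟨p, hpge, hp⟩ := Nat.exists_infinite_primes ((6 * (c4 ^ 3 - c6 ^ 2)).natAbs + 1)
  have hp6' : ¬ (p : ℤ) ∣ 6 * (c4 ^ 3 - c6 ^ 2) := by
    intro h
    have h' : p ∣ (6 * (c4 ^ 3 - c6 ^ 2)).natAbs := Int.natCast_dvd.mp h
    have hpos : 0 < (6 * (c4 ^ 3 - c6 ^ 2)).natAbs :=
      Int.natAbs_pos.mpr (mul_ne_zero (by norm_num) (sub_ne_zero.mpr hne))
    have := Nat.le_of_dvd hpos h'
    omega
  have : Fact p.Prime := ⟨hp⟩
  -- the key: some fibre has no integer root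
  have key : ∃ s : ℤ, ∀ x : ℤ, G.evalEval s x ≠ 0 := by
    by_contra hno
    push Not at hno
    have hsimple : ∀ r : ℤ, (p : ℤ) ∣ G.evalEval 0 r → ¬ (p : ℤ) ∣ (derivative G).evalEval 0 r := by
      intro r hr
      rw [hGe, h40, h60] at hr
      rw [hGd, h40, h60]
      exact simple_root p hp c4 c6 hp6' r hr
    obtain ⟨g, hg⟩ := helper267.exists_polynomial_root G hGm p 0 hsimple (fun s _ => hno s)
    -- the root over ℚ[X]
    set q4 : ℚ[X] := p4.map (Int.castRingHom ℚ) with hq4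
    set q6 : ℚ[X] := p6.map (Int.castRingHom ℚ) with hq6
    have hg' : g ^ 4 - 486 * q4 * g ^ 2 - 5832 * q6 * g - 19683 * q4 ^ 2 = 0 := by
      rw [hG] at hg
      simp only [Polynomial.map_sub, Polynomial.map_add, Polynomial.map_mul, Polynomial.map_pow,
        Polynomial.map_X, Polynomial.map_C, coe_mapRingHom, eval_sub, eval_add, eval_mul,
        eval_pow, eval_X, eval_C, Polynomial.map_ofNat] at hg
      rw [← hq4, ← hq6] at hg
      linear_combination hg
    -- transport to K[X]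
    set φ : ℚ[X] →+* K[X] := Polynomial.mapRingHom (algebraMap ℚ K) with hφ
    set ψ : K[X] →+* K[X] := Polynomial.compRingHom (C ((L : ℤ) : K) * X) with hψ
    have ha4 : φ q4 = ψ (C4.map (algebraMap ℚ K)) := by
      rw [hφ, hψ, hp4]
      simp only [coe_mapRingHom, coe_compRingHom_apply, Polynomial.map_comp, Polynomial.map_mul,
        Polynomial.map_C, Polynomial.map_X, eq_ratCast, Rat.cast_intCast]
    have ha6 : φ q6 = ψ (C6.map (algebraMap ℚ K)) := by
      rw [hφ, hψ, hp6]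
      simp only [coe_mapRingHom, coe_compRingHom_apply, Polynomial.map_comp, Polynomial.map_mul,
        Polynomial.map_C, Polynomial.map_X, eq_ratCast, Rat.cast_intCast]
    have hQ : (φ g) ^ 4 - 486 * φ q4 * (φ g) ^ 2 - 5832 * φ q6 * φ g - 19683 * (φ q4) ^ 2 = 0 := by
      have := congrArg φ hg'
      simpa only [map_sub, map_mul, map_pow, map_ofNat, map_zero] using this
    have hdisc' : (φ q4) ^ 3 - (φ q6) ^ 2 = C κ * (ψ D) ^ 5 := by
      have := congrArg ψ hdisc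
      rw [Polynomial.map_sub, Polynomial.map_pow, Polynomial.map_pow] at this
      rw [ha4, ha6]
      simpa only [map_sub, map_mul, map_pow, hψ, coe_compRingHom_apply, C_comp] using this
    have hcop' : IsCoprime (φ q4) (ψ D) := by
      rw [ha4]; exact hcop.map ψ
    have hLK : ((L : ℤ) : K) ≠ 0 := by exact_mod_cast hL0
    have hD' : (ψ D).natDegree ≠ 0 := by
      rw [hψ, coe_compRingHom_apply, natDegree_comp, natDegree_C_mul_X _ hLK, mul_one]
      exact hD
    exact false_of_polynomial_root hNoTau (φ q4) (φ q6) (φ g) (ψ D) κ hκ hD' hcop' hdisc' hQ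
  obtain ⟨s, hs⟩ := key
  refine ⟨L * s, ⟨D4 * D6 * s, by rw [hL]; ring⟩, ?_⟩
  intro W' hc4 hc6
  have hc4' : W'.c₄ = p4.eval s := by
    have := (hv4 s).symm ▸ hc4
    exact_mod_cast this
  have hc6' : W'.c₆ = p6.eval s := by
    have := (hv6 s).symm ▸ hc6
    exact_mod_cast this
  have hroot : ∀ n : ℤ, n ^ 4 - 486 * W'.c₄ * n ^ 2 - 5832 * W'.c₆ * n - 19683 * W'.c₄ ^ 2 ≠ 0 := by
    intro n
    rw [hc4', hc6', ← hGe s n]
    exact hs n
  have hne' := disc_ne_zero_of_no_root W'.c₄ W'.c₆ hroot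
  have hΔ' : W'.Δ ≠ 0 := by
    intro h0
    have := W'.c_relation
    rw [h0, mul_zero] at this
    exact hne' (by linarith)
  exact ⟨hΔ', modRepIsIrreducible_three_of_no_root W' hΔ' hroot⟩

end Fermat.Agent.S52.helper7816
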