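/-
S52 helper module (helper7899): the twist-transport homomorphisms `T(s,u)`.

For fields `L`, `L'`, a ring homomorphism `s : L →+* L'`, Weierstrass curves `W` over `L` and
`W'` over `L'`, and `u : L'` with `u ≠ 0` and `s (aᵢ(W)) = uⁱ aᵢ(W')`, the map
`(X, Y) ↦ (s X / u², s Y / u³)` is an additive homomorphism `W(L) →+ W'(L')` (`scaleHom`), and
these maps compose by `T(s',u') ∘ T(s,u) = T(s' ∘ s, s'(u) u')` (`scaleHom_comp`).

Specialised to the twisted short curves `W_d : Y² = X³ + A d² X + B d³` (`tw A B d`), this gives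
the Frobenius endomorphism of the twist, the substitution maps `t ↦ ξ`, and the maps to the
untwisted curve at a point with transcendental `x`-coordinate.
-/
import Mathlib

set_option autoImplicit false

namespace Fermat.Agent.S52.helper7899

open WeierstrassCurve

section Core

variable {L L' L'' : Type*} [Field L] [Field L'] [Field L'']

/-- The data of a semilinear scaling between Weierstrass curves: a ring homomorphism
`s : L →+* L'` and a scaling unit `u` with `s (aᵢ(W)) = uⁱ aᵢ(W')`. -/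
structure ScaleData (s : L →+* L') (u : L') (W : WeierstrassCurve L) (W' : WeierstrassCurve L') :
    Prop where
  hu : u ≠ 0
  h₁ : s W.a₁ = u * W'.a₁
  h₂ : s W.a₂ = u ^ 2 * W'.a₂
  h₃ : s W.a₃ = u ^ 3 * W'.a₃
  h₄ : s W.a₄ = u ^ 4 * W'.a₄
  h₆ : s W.a₆ = u ^ 6 * W'.a₆

namespace ScaleData

variable {s : L →+* L'} {u : L'} {W : WeierstrassCurve L} {W' : WeierstrassCurve L'}

lemma div_eq_zero_iff' (h : ScaleData s u W W') (z : L) (n : ℕ) : s z / u ^ n = 0 ↔ z = 0 := by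
  rw [div_eq_zero_iff, map_eq_zero]
  exact ⟨fun H => H.resolve_right (pow_ne_zero n h.hu), fun H => Or.inl H⟩

lemma div_inj' (h : ScaleData s u W W') (z w : L) (n : ℕ) :
    s z / u ^ n = s w / u ^ n ↔ z = w := by
  constructor
  · intro H
    have h0 : s (z - w) / u ^ n = 0 := by rw [map_sub, sub_div, H, sub_self]
    exact sub_eq_zero.mp ((h.div_eq_zero_iff' _ n).mp h0)
  · intro H; rw [H]

lemma equation_iff (h : ScaleData s u W W') (X Y : L) :
    W'.toAffine.Equation (s X / u ^ 2) (s Y / u ^ 3) ↔ W.toAffine.Equation X Y := by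
  have hu := h.hu
  rw [Affine.equation_iff, Affine.equation_iff]
  have key : (s Y / u ^ 3) ^ 2 + W'.a₁ * (s X / u ^ 2) * (s Y / u ^ 3) + W'.a₃ * (s Y / u ^ 3)
      - ((s X / u ^ 2) ^ 3 + W'.a₂ * (s X / u ^ 2) ^ 2 + W'.a₄ * (s X / u ^ 2) + W'.a₆)
      = s (Y ^ 2 + W.a₁ * X * Y + W.a₃ * Y - (X ^ 3 + W.a₂ * X ^ 2 + W.a₄ * X + W.a₆)) / u ^ 6 := by
    simp only [map_sub, map_add, map_mul, map_pow, h.h₁, h.h₂, h.h₃, h.h₄, h.h₆]
    field_simp
  constructor
  · intro H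
    have h0 : s (Y ^ 2 + W.a₁ * X * Y + W.a₃ * Y - (X ^ 3 + W.a₂ * X ^ 2 + W.a₄ * X + W.a₆))
        / u ^ 6 = 0 := by
      rw [← key]; exact sub_eq_zero.mpr H
    exact sub_eq_zero.mp ((h.div_eq_zero_iff' _ 6).mp h0)
  · intro H
    have h0 : (s Y / u ^ 3) ^ 2 + W'.a₁ * (s X / u ^ 2) * (s Y / u ^ 3) + W'.a₃ * (s Y / u ^ 3)
      - ((s X / u ^ 2) ^ 3 + W'.a₂ * (s X / u ^ 2) ^ 2 + W'.a₄ * (s X / u ^ 2) + W'.a₆) = 0 := by
      rw [key, (h.div_eq_zero_iff' _ 6)]; exact sub_eq_zero.mpr H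
    exact sub_eq_zero.mp h0

lemma negY_eq (h : ScaleData s u W W') (X Y : L) :
    W'.toAffine.negY (s X / u ^ 2) (s Y / u ^ 3) = s (W.toAffine.negY X Y) / u ^ 3 := by
  have hu := h.hu
  simp only [Affine.negY, map_sub, map_neg, map_mul, h.h₁, h.h₃]
  field_simp

lemma nonsingular_iff (h : ScaleData s u W W') (X Y : L) :
    W'.toAffine.Nonsingular (s X / u ^ 2) (s Y / u ^ 3) ↔ W.toAffine.Nonsingular X Y := by
  have hu := h.hu
  rw [Affine.nonsingular_iff', Affine.nonsingular_iff', h.equation_iff]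
  have k1 : W'.a₁ * (s Y / u ^ 3) - (3 * (s X / u ^ 2) ^ 2 + 2 * W'.a₂ * (s X / u ^ 2) + W'.a₄)
      = s (W.a₁ * Y - (3 * X ^ 2 + 2 * W.a₂ * X + W.a₄)) / u ^ 4 := by
    simp only [map_sub, map_add, map_mul, map_pow, map_ofNat, h.h₁, h.h₂, h.h₄]
    field_simp
  have k2 : 2 * (s Y / u ^ 3) + W'.a₁ * (s X / u ^ 2) + W'.a₃
      = s (2 * Y + W.a₁ * X + W.a₃) / u ^ 3 := by
    simp only [map_add, map_mul, map_ofNat, h.h₁, h.h₃]
    field_simp
  rw [k1, k2, Ne, Ne, h.div_eq_zero_iff', h.div_eq_zero_iff']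

lemma addX_eq (h : ScaleData s u W W') (x₁ x₂ ℓ : L) :
    W'.toAffine.addX (s x₁ / u ^ 2) (s x₂ / u ^ 2) (s ℓ / u)
      = s (W.toAffine.addX x₁ x₂ ℓ) / u ^ 2 := by
  have hu := h.hu
  simp only [Affine.addX, map_add, map_sub, map_mul, map_pow, h.h₁, h.h₂]
  field_simp

lemma negAddY_eq (h : ScaleData s u W W') (x₁ x₂ y₁ ℓ : L) :
    W'.toAffine.negAddY (s x₁ / u ^ 2) (s x₂ / u ^ 2) (s y₁ / u ^ 3) (s ℓ / u)
      = s (W.toAffine.negAddY x₁ x₂ y₁ ℓ) / u ^ 3 := by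
  have hu := h.hu
  simp only [Affine.negAddY, h.addX_eq, map_add, map_sub, map_mul]
  field_simp

lemma addY_eq (h : ScaleData s u W W') (x₁ x₂ y₁ ℓ : L) :
    W'.toAffine.addY (s x₁ / u ^ 2) (s x₂ / u ^ 2) (s y₁ / u ^ 3) (s ℓ / u)
      = s (W.toAffine.addY x₁ x₂ y₁ ℓ) / u ^ 3 := by
  simp only [Affine.addY]
  rw [h.negAddY_eq, h.addX_eq, h.negY_eq]

variable [DecidableEq L] [DecidableEq L']

lemma slope_eq (h : ScaleData s u W W') {x₁ x₂ y₁ y₂ : L}
    (e₁ : W.toAffine.Equation x₁ y₁) (e₂ : W.toAffine.Equation x₂ y₂)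
    (hxy : ¬(x₁ = x₂ ∧ y₁ = W.toAffine.negY x₂ y₂)) :
    W'.toAffine.slope (s x₁ / u ^ 2) (s x₂ / u ^ 2) (s y₁ / u ^ 3) (s y₂ / u ^ 3)
      = s (W.toAffine.slope x₁ x₂ y₁ y₂) / u := by
  have hu := h.hu
  by_cases hx : x₁ = x₂
  · subst hx
    have hy : y₁ ≠ W.toAffine.negY x₁ y₂ := fun hy => hxy ⟨rfl, hy⟩
    have hyy : y₁ = y₂ := Affine.Y_eq_of_Y_ne e₁ e₂ rfl hy
    subst hyy
    have hy' : s y₁ / u ^ 3 ≠ W'.toAffine.negY (s x₁ / u ^ 2) (s y₁ / u ^ 3) := by
      rw [h.negY_eq, Ne, h.div_inj']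
      exact hy
    have sl1 := Affine.slope_of_Y_ne (W := W.toAffine) (x₁ := x₁) (x₂ := x₁) rfl hy
    have sl2 := Affine.slope_of_Y_ne (W := W'.toAffine) (x₁ := s x₁ / u ^ 2)
      (x₂ := s x₁ / u ^ 2) rfl hy'
    rw [sl1, sl2, h.negY_eq]
    have hden : s y₁ / u ^ 3 - s (W.toAffine.negY x₁ y₁) / u ^ 3
        = s (y₁ - W.toAffine.negY x₁ y₁) / u ^ 3 := by
      rw [map_sub, sub_div]
    have hnum : 3 * (s x₁ / u ^ 2) ^ 2 + 2 * W'.toAffine.a₂ * (s x₁ / u ^ 2) + W'.toAffine.a₄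
        - W'.toAffine.a₁ * (s y₁ / u ^ 3)
        = s (3 * x₁ ^ 2 + 2 * W.toAffine.a₂ * x₁ + W.toAffine.a₄ - W.toAffine.a₁ * y₁) / u ^ 4 := by
      simp only [map_sub, map_add, map_mul, map_pow, map_ofNat, h.h₁, h.h₂, h.h₄]
      field_simp
    have hne : s (y₁ - W.toAffine.negY x₁ y₁) ≠ 0 :=
      (map_ne_zero s).mpr (sub_ne_zero.mpr hy)
    rw [hden, hnum, map_div₀]
    field_simp
  · have hx' : s x₁ / u ^ 2 ≠ s x₂ / u ^ 2 := by
      rw [Ne, h.div_inj']; exact hx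
    rw [Affine.slope_of_X_ne hx, Affine.slope_of_X_ne hx']
    have hx1 : s x₁ - s x₂ ≠ 0 := by
      rw [← map_sub]
      exact (map_ne_zero s).mpr (sub_ne_zero.mpr hx)
    rw [map_div₀, map_sub, map_sub]
    field_simp

omit [DecidableEq L] [DecidableEq L'] in
/-- Composition of scaling data. -/
lemma comp {s' : L' →+* L''} {u' : L''} {W'' : WeierstrassCurve L''}
    (h : ScaleData s u W W') (h' : ScaleData s' u' W' W'') :
    ScaleData (s'.comp s) (s' u * u') W W'' where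
  hu := mul_ne_zero ((map_ne_zero s').mpr h.hu) h'.hu
  h₁ := by rw [RingHom.comp_apply, h.h₁, map_mul, h'.h₁]; ring
  h₂ := by rw [RingHom.comp_apply, h.h₂, map_mul, map_pow, h'.h₂]; ring
  h₃ := by rw [RingHom.comp_apply, h.h₃, map_mul, map_pow, h'.h₃]; ring
  h₄ := by rw [RingHom.comp_apply, h.h₄, map_mul, map_pow, h'.h₄]; ring
  h₆ := by rw [RingHom.comp_apply, h.h₆, map_mul, map_pow, h'.h₆]; ring

end ScaleData

variable [DecidableEq L] [DecidableEq L'] [DecidableEq L'']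
variable {s : L →+* L'} {u : L'} {W : WeierstrassCurve L} {W' : WeierstrassCurve L'}

/-- The underlying function of the scaling map: `(X, Y) ↦ (s X / u², s Y / u³)`. -/
def scaleFun (h : ScaleData s u W W') : W.toAffine.Point → W'.toAffine.Point
  | .zero => .zero
  | .some X Y hXY => .some (s X / u ^ 2) (s Y / u ^ 3) ((h.nonsingular_iff X Y).mpr hXY)

omit [DecidableEq L] [DecidableEq L'] [DecidableEq L''] in
lemma scaleFun_some (h : ScaleData s u W W') {X Y : L} (hXY : W.toAffine.Nonsingular X Y) :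
    scaleFun h (.some X Y hXY) =
      .some (s X / u ^ 2) (s Y / u ^ 3) ((h.nonsingular_iff X Y).mpr hXY) := rfl

omit [DecidableEq L''] in
lemma scaleFun_add (h : ScaleData s u W W') (P Q : W.toAffine.Point) :
    scaleFun h (P + Q) = scaleFun h P + scaleFun h Q := by
  have hu := h.hu
  rcases P with _ | ⟨x₁, y₁, h₁⟩
  · change scaleFun h (0 + Q) = 0 + scaleFun h Q
    rw [zero_add, zero_add]
  rcases Q with _ | ⟨x₂, y₂, h₂⟩
  · change scaleFun h (_ + 0) = _ + 0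
    rw [add_zero, add_zero]
  by_cases hxy : x₁ = x₂ ∧ y₁ = W.toAffine.negY x₂ y₂
  · rw [Affine.Point.add_of_Y_eq hxy.1 hxy.2, scaleFun_some, scaleFun_some,
      Affine.Point.add_of_Y_eq (by rw [hxy.1]) (by rw [h.negY_eq, hxy.2])]
    rfl
  · have hxy' : ¬(s x₁ / u ^ 2 = s x₂ / u ^ 2 ∧ s y₁ / u ^ 3 =
        W'.toAffine.negY (s x₂ / u ^ 2) (s y₂ / u ^ 3)) := by
      rw [h.negY_eq, h.div_inj', h.div_inj']
      exact hxy
    rw [Affine.Point.add_some hxy, scaleFun_some, scaleFun_some, scaleFun_some,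
      Affine.Point.add_some hxy']
    simp only [Affine.Point.some.injEq]
    rw [h.slope_eq h₁.1 h₂.1 hxy, h.addX_eq, h.addY_eq]
    exact ⟨rfl, rfl⟩

omit [DecidableEq L''] in
/-- The scaling homomorphism `T(s,u) : W(L) →+ W'(L')`, `(X, Y) ↦ (s X / u², s Y / u³)`. -/
def scaleHom (h : ScaleData s u W W') : W.toAffine.Point →+ W'.toAffine.Point where
  toFun := scaleFun h
  map_zero' := rfl
  map_add' := scaleFun_add h

omit [DecidableEq L''] in
lemma scaleHom_some (h : ScaleData s u W W') {X Y : L} (hXY : W.toAffine.Nonsingular X Y) :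
    scaleHom h (.some X Y hXY) =
      .some (s X / u ^ 2) (s Y / u ^ 3) ((h.nonsingular_iff X Y).mpr hXY) := rfl

omit [DecidableEq L''] in
lemma scaleHom_zero' (h : ScaleData s u W W') :
    scaleHom h (.zero : W.toAffine.Point) = .zero := rfl

omit [DecidableEq L''] in
lemma scaleHom_injective (h : ScaleData s u W W') : Function.Injective (scaleHom h) := by
  rintro (_ | ⟨x₁, y₁, h₁⟩) (_ | ⟨x₂, y₂, h₂⟩) hPQ
  · rfl
  · exact absurd hPQ (by rw [scaleHom_some]; exact fun hh => by cases hh)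
  · exact absurd hPQ (by rw [scaleHom_some]; exact fun hh => by cases hh)
  · rw [scaleHom_some, scaleHom_some, Affine.Point.some.injEq, h.div_inj', h.div_inj'] at hPQ
    obtain ⟨c1, c2⟩ := hPQ
    subst c1 c2
    rfl

/-- Composition law: `T(s',u') ∘ T(s,u) = T(s' ∘ s, s'(u) u')`. -/
lemma scaleHom_comp {s' : L' →+* L''} {u' : L''} {W'' : WeierstrassCurve L''}
    (h : ScaleData s u W W') (h' : ScaleData s' u' W' W'')
    (h'' : ScaleData (s'.comp s) (s' u * u') W W'') (P : W.toAffine.Point) :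
    scaleHom h' (scaleHom h P) = scaleHom h'' P := by
  rcases P with _ | ⟨X, Y, hXY⟩
  · rfl
  · rw [scaleHom_some, scaleHom_some, scaleHom_some, Affine.Point.some.injEq]
    have hu := h.hu
    have hu' := h'.hu
    have hsu : s' u ≠ 0 := (map_ne_zero s').mpr hu
    constructor
    · rw [map_div₀, map_pow, RingHom.comp_apply]
      field_simp
    · rw [map_div₀, map_pow, RingHom.comp_apply]
      field_simp

end Core

end Fermat.Agent.S52.helper7899
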