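/-
S52 helper module (helper7899): instances of the scaling homomorphisms `T(s,u)` of
`helper7899_TwistHom` on the twisted curves `W_d : Y² = X³ + A d² X + B d³`.

* `tw A B d`, `scaleData_tw` : the twisted short curves and scaling data between them;
* `map_eq_scaleHom` : Mathlib's `Point.map` is the scaling map `T(f, 1)`;
* `frobData`, `frobTw` : the Frobenius endomorphism `F = T(Frob_p, d^((p-1)/2))` of `W_d(L)`;
* `substAlg` : the substitution `t ↦ ξ`, `k(t) →ₐ[k] M`, at a transcendental `ξ`;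
* `lam`, `twLam`, `P0`, `frobLam` : the curve `Λ` over `k(t)`, its point `P0 = (t, 1)` and `F`;
* `substPt` (`R_Q`) and `thetaPt` (`Θ_{P₁}`) with `R_Q P0 = Q`, `R_Q F = F R_Q`,
  `Θ P0 = P₁`, `Θ F = φ Θ`, `Θ (e λ, 0) = (e, 0)`.
-/
import Mathlib
import Fermat.Agent.S52.helper7899_TwistHom

set_option autoImplicit false

namespace Fermat.Agent.S52.helper7899

open WeierstrassCurve

section Congr

variable {L L' : Type*} [Field L] [Field L'] [DecidableEq L] [DecidableEq L']

lemma scaleHom_congr {s s' : L →+* L'} {u u' : L'} {W : WeierstrassCurve L}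
    {W' : WeierstrassCurve L'} (h : ScaleData s u W W') (h' : ScaleData s' u' W W')
    (hs : s = s') (hu : u = u') (P : W.toAffine.Point) : scaleHom h P = scaleHom h' P := by
  subst hs hu
  rfl

omit [Field L'] [DecidableEq L] [DecidableEq L'] in
lemma point_some_congr {W : WeierstrassCurve L} {x x' y y' : L}
    {h : W.toAffine.Nonsingular x y} {h' : W.toAffine.Nonsingular x' y'} (hx : x = x')
    (hy : y = y') :
    (Affine.Point.some x y h : W.toAffine.Point) = Affine.Point.some x' y' h' := by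
  subst hx hy
  rfl

end Congr

section Twist

variable {L L' : Type*} [Field L] [Field L']

/-- The twisted short Weierstrass curve `Y² = X³ + A d² X + B d³`. -/
abbrev tw (A B d : L) : WeierstrassCurve L := ⟨0, 0, 0, A * d ^ 2, B * d ^ 3⟩

lemma tw_equation_iff (A B d X Y : L) :
    (tw A B d).toAffine.Equation X Y ↔ Y ^ 2 = X ^ 3 + A * d ^ 2 * X + B * d ^ 3 := by
  rw [Affine.equation_iff]
  simp only [zero_mul, add_zero]

lemma tw_nonsingular_iff (A B d X Y : L) :
    (tw A B d).toAffine.Nonsingular X Y ↔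
      Y ^ 2 = X ^ 3 + A * d ^ 2 * X + B * d ^ 3 ∧ (3 * X ^ 2 + A * d ^ 2 ≠ 0 ∨ 2 * Y ≠ 0) := by
  rw [Affine.nonsingular_iff', tw_equation_iff]
  simp only [zero_mul, add_zero, mul_zero, zero_sub, neg_ne_zero]

lemma tw_negY (A B d X Y : L) : (tw A B d).toAffine.negY X Y = -Y := by
  simp [Affine.negY]

/-- Scaling data between two twisted curves. -/
lemma scaleData_tw {s : L →+* L'} {u : L'} {A B d : L} {A' B' d' : L'} (hu : u ≠ 0)
    (hA : s A = A') (hB : s B = B') (hd : s d = u ^ 2 * d') :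
    ScaleData s u (tw A B d) (tw A' B' d') where
  hu := hu
  h₁ := by simp
  h₂ := by simp
  h₃ := by simp
  h₄ := by
    change s (A * d ^ 2) = u ^ 4 * (A' * d' ^ 2)
    rw [map_mul, map_pow, hA, hd]; ring
  h₆ := by
    change s (B * d ^ 3) = u ^ 6 * (B' * d' ^ 3)
    rw [map_mul, map_pow, hB, hd]; ring

end Twist

section MapBridge

variable {R S F K : Type*} [CommRing R] [CommRing S] [Field F] [Field K]
  [Algebra R S] [Algebra R F] [Algebra S F] [IsScalarTower R S F] [Algebra R K] [Algebra S K]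
  [IsScalarTower R S K] (W₀ : WeierstrassCurve R)

/-- An algebra homomorphism gives scaling data with `u = 1` between the base changes. -/
lemma scaleData_algHom (f : F →ₐ[S] K) :
    ScaleData (f : F →+* K) 1 (W₀.map (algebraMap R F)) (W₀.map (algebraMap R K)) := by
  have key : ∀ r : R, (f : F →+* K) (algebraMap R F r) = algebraMap R K r := by
    intro r
    rw [IsScalarTower.algebraMap_apply R S F, IsScalarTower.algebraMap_apply R S K]
    exact f.commutes _
  refine ⟨one_ne_zero, ?_, ?_, ?_, ?_, ?_⟩ <;> simp [key]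

variable [DecidableEq F] [DecidableEq K]

/-- Mathlib's `Point.map` is the scaling homomorphism `T(f, 1)`. -/
lemma map_eq_scaleHom (f : F →ₐ[S] K) (P : (W₀.map (algebraMap R F)).toAffine.Point) :
    Affine.Point.map (W' := W₀) f P = scaleHom (scaleData_algHom W₀ f) P := by
  rcases P with _ | ⟨X, Y, hXY⟩
  · rfl
  · rw [scaleHom_some]
    erw [Affine.Point.map_some]
    simp only [RingHom.coe_coe, one_pow, div_one]
    rfl

end MapBridge

section Short

variable {L L' : Type*} [Field L] [Field L']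

/-- `W` is the short Weierstrass curve `y² = x³ + a x + b`. -/
structure IsShort (W : WeierstrassCurve L) (a b : L) : Prop where
  h₁ : W.a₁ = 0
  h₂ : W.a₂ = 0
  h₃ : W.a₃ = 0
  h₄ : W.a₄ = a
  h₆ : W.a₆ = b

lemma isShort_mk (a b : L) : IsShort (⟨0, 0, 0, a, b⟩ : WeierstrassCurve L) a b :=
  ⟨rfl, rfl, rfl, rfl, rfl⟩

lemma isShort_tw (A B d : L) : IsShort (tw A B d) (A * d ^ 2) (B * d ^ 3) :=
  ⟨rfl, rfl, rfl, rfl, rfl⟩

lemma IsShort.map {W : WeierstrassCurve L} {a b : L} (h : IsShort W a b) (f : L →+* L') :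
    IsShort (W.map f) (f a) (f b) :=
  ⟨by simp [h.h₁], by simp [h.h₂], by simp [h.h₃], by simp [h.h₄], by simp [h.h₆]⟩

lemma isShort_baseChange {k : Type*} [CommRing k] [Algebra k L] (a b : k) :
    IsShort ((⟨0, 0, 0, a, b⟩ : WeierstrassCurve k).map (algebraMap k L))
      (algebraMap k L a) (algebraMap k L b) :=
  ⟨by simp, by simp, by simp, by simp, by simp⟩

lemma IsShort.equation_iff {W : WeierstrassCurve L} {a b : L} (h : IsShort W a b) (x y : L) :
    W.toAffine.Equation x y ↔ y ^ 2 = x ^ 3 + a * x + b := by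
  rw [Affine.equation_iff]
  simp only [WeierstrassCurve.toAffine, h.h₁, h.h₂, h.h₃, h.h₄, h.h₆, zero_mul, add_zero]

lemma IsShort.nonsingular_iff {W : WeierstrassCurve L} {a b : L} (h : IsShort W a b) (x y : L) :
    W.toAffine.Nonsingular x y ↔
      y ^ 2 = x ^ 3 + a * x + b ∧ (3 * x ^ 2 + a ≠ 0 ∨ 2 * y ≠ 0) := by
  rw [Affine.nonsingular_iff', h.equation_iff]
  simp only [WeierstrassCurve.toAffine, h.h₁, h.h₂, h.h₃, h.h₄, zero_mul, add_zero, mul_zero,
    zero_sub, neg_ne_zero]

lemma IsShort.negY {W : WeierstrassCurve L} {a b : L} (h : IsShort W a b) (x y : L) :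
    W.toAffine.negY x y = -y := by
  simp [Affine.negY, WeierstrassCurve.toAffine, h.h₁, h.h₃]

/-- Scaling data from a twisted curve to a short curve. -/
lemma scaleData_tw_short {s : L →+* L'} {u : L'} {A B d : L} {W' : WeierstrassCurve L'}
    {a b : L'} (hW : IsShort W' a b) (hd0 : d ≠ 0) (hA : s A = a) (hB : s B = b)
    (hd : s d = u ^ 2) : ScaleData s u (tw A B d) W' where
  hu := by
    rintro rfl
    rw [zero_pow two_ne_zero, map_eq_zero] at hd
    exact hd0 hd
  h₁ := by simp [hW.h₁]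
  h₂ := by simp [hW.h₂]
  h₃ := by simp [hW.h₃]
  h₄ := by
    change s (A * d ^ 2) = u ^ 4 * W'.a₄
    rw [map_mul, map_pow, hA, hd, hW.h₄]; ring
  h₆ := by
    change s (B * d ^ 3) = u ^ 6 * W'.a₆
    rw [map_mul, map_pow, hB, hd, hW.h₆]; ring

/-- Scaling data between two twisted curves; the unit condition follows from `d ≠ 0`. -/
lemma scaleData_tw' {s : L →+* L'} {u : L'} {A B d : L} {A' B' d' : L'} (hd0 : d ≠ 0)
    (hA : s A = A') (hB : s B = B') (hd : s d = u ^ 2 * d') :
    ScaleData s u (tw A B d) (tw A' B' d') :=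
  scaleData_tw (by
    rintro rfl
    rw [zero_pow two_ne_zero, zero_mul, map_eq_zero] at hd
    exact hd0 hd) hA hB hd

end Short

section Frob

variable {L : Type*} [Field L] (p : ℕ) [Fact p.Prime] [CharP L p]

lemma two_mul_half_add_one (hp : p ≠ 2) : 2 * ((p - 1) / 2) + 1 = p := by
  rcases (Fact.out : p.Prime).eq_two_or_odd' with h | h
  · exact absurd h hp
  · obtain ⟨m, rfl⟩ := h
    omega

/-- Scaling data of the Frobenius endomorphism of a twisted curve with Frobenius-fixed `A`, `B`: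
`F = T(Frob_p, d^((p-1)/2))`. -/
lemma frobData (hp : p ≠ 2) {A B d : L} (hA : A ^ p = A) (hB : B ^ p = B) (hd : d ≠ 0) :
    ScaleData (frobenius L p) (d ^ ((p - 1) / 2)) (tw A B d) (tw A B d) :=
  scaleData_tw (pow_ne_zero _ hd) (by rw [frobenius_def, hA]) (by rw [frobenius_def, hB])
    (by rw [frobenius_def, ← pow_mul, ← pow_succ, mul_comm, two_mul_half_add_one p hp])

/-- Scaling data (with `u = 1`) of the Frobenius endomorphism of a curve with Frobenius-fixed
coefficients. -/
lemma frobData_one {W : WeierstrassCurve L} (h₁ : W.a₁ ^ p = W.a₁) (h₂ : W.a₂ ^ p = W.a₂)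
    (h₃ : W.a₃ ^ p = W.a₃) (h₄ : W.a₄ ^ p = W.a₄) (h₆ : W.a₆ ^ p = W.a₆) :
    ScaleData (frobenius L p) 1 W W :=
  ⟨one_ne_zero, by rw [frobenius_def, h₁, one_mul], by rw [frobenius_def, h₂, one_pow, one_mul],
    by rw [frobenius_def, h₃, one_pow, one_mul], by rw [frobenius_def, h₄, one_pow, one_mul],
    by rw [frobenius_def, h₆, one_pow, one_mul]⟩

/-- Scaling data (with `u = 1`) of the Frobenius endomorphism of a short curve. -/
lemma frobData_short {W : WeierstrassCurve L} {a b : L} (hW : IsShort W a b) (ha : a ^ p = a)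
    (hb : b ^ p = b) : ScaleData (frobenius L p) 1 W W :=
  frobData_one p (by rw [hW.h₁, zero_pow (Fact.out : p.Prime).ne_zero])
    (by rw [hW.h₂, zero_pow (Fact.out : p.Prime).ne_zero])
    (by rw [hW.h₃, zero_pow (Fact.out : p.Prime).ne_zero]) (by rw [hW.h₄, ha]) (by rw [hW.h₆, hb])

variable [DecidableEq L]

/-- The Frobenius endomorphism `F = T(Frob_p, d^((p-1)/2))` of the twisted curve `W_d(L)`. -/
noncomputable def frobTw (hp : p ≠ 2) {A B d : L} (hA : A ^ p = A) (hB : B ^ p = B)
    (hd : d ≠ 0) : (tw A B d).toAffine.Point →+ (tw A B d).toAffine.Point :=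
  scaleHom (frobData p hp hA hB hd)

lemma frobTw_some (hp : p ≠ 2) {A B d : L} (hA : A ^ p = A) (hB : B ^ p = B) (hd : d ≠ 0)
    {X Y : L} (hXY : (tw A B d).toAffine.Nonsingular X Y) :
    frobTw p hp hA hB hd (.some X Y hXY) =
      .some (X ^ p / (d ^ ((p - 1) / 2)) ^ 2) (Y ^ p / (d ^ ((p - 1) / 2)) ^ 3)
        (((frobData p hp hA hB hd).nonsingular_iff X Y).mpr hXY) := rfl

omit [DecidableEq L] [CharP L p] in
/-- In the twist coordinate `x = X / d`, the Frobenius `F` is `x ↦ x ^ p`. -/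
lemma frobTw_xt (hp : p ≠ 2) (d X : L) :
    X ^ p / (d ^ ((p - 1) / 2)) ^ 2 / d = (X / d) ^ p := by
  have h : (d ^ ((p - 1) / 2)) ^ 2 * d = d ^ p := by
    rw [← pow_mul, ← pow_succ, mul_comm, two_mul_half_add_one p hp]
  rw [div_div, h, div_pow]

/-- The Frobenius endomorphism `φ = T(Frob_p, 1)` of a short curve with Frobenius-fixed
coefficients. -/
noncomputable def frobShort {W : WeierstrassCurve L} {a b : L} (hW : IsShort W a b)
    (ha : a ^ p = a) (hb : b ^ p = b) : W.toAffine.Point →+ W.toAffine.Point :=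
  scaleHom (frobData_short p hW ha hb)

lemma frobShort_some {W : WeierstrassCurve L} {a b : L} (hW : IsShort W a b)
    (ha : a ^ p = a) (hb : b ^ p = b) {X Y : L} (hXY : W.toAffine.Nonsingular X Y) :
    frobShort p hW ha hb (.some X Y hXY) =
      .some (X ^ p / 1 ^ 2) (Y ^ p / 1 ^ 3)
        (((frobData_short p hW ha hb).nonsingular_iff X Y).mpr hXY) := rfl

end Frob

section Subst

variable {k M : Type*} [Field k] [Field M] [Algebra k M]

/-- The substitution `t ↦ ξ` at a transcendental element, as a `k`-algebra map `k(t) → M`. -/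
noncomputable def substAlg (ξ : M) (hξ : Transcendental k ξ) : RatFunc k →ₐ[k] M :=
  RatFunc.liftAlgHom (Polynomial.aeval ξ)
    (nonZeroDivisors_le_comap_nonZeroDivisors_of_injective _
      (transcendental_iff_injective.mp hξ))

lemma substAlg_apply (ξ : M) (hξ : Transcendental k ξ) (r : RatFunc k) :
    substAlg ξ hξ r = Polynomial.aeval ξ r.num / Polynomial.aeval ξ r.denom :=
  RatFunc.liftAlgHom_apply _ _ r

lemma substAlg_algebraMap (ξ : M) (hξ : Transcendental k ξ) (q : Polynomial k) :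
    substAlg ξ hξ (algebraMap (Polynomial k) (RatFunc k) q) = Polynomial.aeval ξ q := by
  have h := RatFunc.liftAlgHom_apply_div (Polynomial.aeval ξ)
    (nonZeroDivisors_le_comap_nonZeroDivisors_of_injective _
      (transcendental_iff_injective.mp hξ)) q 1
  rw [map_one, map_one, div_one, div_one] at h
  exact h

@[simp]
lemma substAlg_X (ξ : M) (hξ : Transcendental k ξ) : substAlg ξ hξ RatFunc.X = ξ := by
  rw [← RatFunc.algebraMap_X, substAlg_algebraMap, Polynomial.aeval_X]

@[simp]
lemma substAlg_C (ξ : M) (hξ : Transcendental k ξ) (c : k) :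
    substAlg ξ hξ (RatFunc.C c) = algebraMap k M c := by
  rw [← RatFunc.algebraMap_C, substAlg_algebraMap, Polynomial.aeval_C]

end Subst

section Lambda

variable {k : Type*} [Field k] (A B : k)

/-- `λ = t³ + A t + B ∈ k(t)`. -/
noncomputable def lam : RatFunc k := RatFunc.X ^ 3 + RatFunc.C A * RatFunc.X + RatFunc.C B

lemma lam_eq_algebraMap : lam A B = algebraMap (Polynomial k) (RatFunc k)
    (Polynomial.X ^ 3 + Polynomial.C A * Polynomial.X + Polynomial.C B) := by
  simp [lam, RatFunc.algebraMap_X, RatFunc.algebraMap_C]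

lemma cubic_ne_zero :
    (Polynomial.X ^ 3 + Polynomial.C A * Polynomial.X + Polynomial.C B : Polynomial k) ≠ 0 := by
  intro h
  have h3 := congrArg (fun q : Polynomial k => q.coeff 3) h
  simp at h3

lemma lam_ne_zero : lam A B ≠ 0 := by
  rw [lam_eq_algebraMap, Ne, map_eq_zero_iff _ (RatFunc.algebraMap_injective k)]
  exact cubic_ne_zero A B

lemma two_ne_zero_ratFunc (h2 : (2 : k) ≠ 0) : (2 : RatFunc k) ≠ 0 := by
  have h : (2 : RatFunc k) = algebraMap k (RatFunc k) 2 := (map_ofNat _ 2).symm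
  rw [h]
  exact (map_ne_zero _).mpr h2

section SubstLam

variable {M : Type*} [Field M] [Algebra k M]

lemma substAlg_lam (ξ : M) (hξ : Transcendental k ξ) :
    substAlg ξ hξ (lam A B) = ξ ^ 3 + algebraMap k M A * ξ + algebraMap k M B := by
  simp [lam]

end SubstLam

/-- The curve `Λ : Y² = X³ + A λ² X + B λ³` over `k(t)`. -/
noncomputable abbrev twLam : WeierstrassCurve (RatFunc k) :=
  tw (RatFunc.C A) (RatFunc.C B) (lam A B)

lemma nonsingular_P0 (h2 : (2 : k) ≠ 0) :
    (twLam A B).toAffine.Nonsingular (lam A B * RatFunc.X) (lam A B ^ 2) := by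
  rw [tw_nonsingular_iff]
  refine ⟨?_, Or.inr ?_⟩
  · simp only [lam]; ring
  · exact mul_ne_zero (two_ne_zero_ratFunc h2) (pow_ne_zero 2 (lam_ne_zero A B))

/-- The point `P0 = (t, 1)` (twist coordinates) of `Λ`, i.e. `(λ t, λ²)`. -/
noncomputable def P0 (h2 : (2 : k) ≠ 0) : (twLam A B).toAffine.Point :=
  .some _ _ (nonsingular_P0 A B h2)

/-- The substitution `t ↦ X_Q / λ` sends `λ` to `(Y_Q / λ²)² λ`. -/
lemma substAlg_lam_of_equation {XQ YQ : RatFunc k}
    (hQ : (twLam A B).toAffine.Equation XQ YQ) (hx : Transcendental k (XQ / lam A B)) :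
    substAlg (XQ / lam A B) hx (lam A B) = (YQ / lam A B ^ 2) ^ 2 * lam A B := by
  have hl := lam_ne_zero A B
  have heq := (tw_equation_iff _ _ _ _ _).mp hQ
  rw [substAlg_lam, RatFunc.algebraMap_eq_C]
  field_simp
  linear_combination (-1 : RatFunc k) * heq

/-- Scaling data of the substitution map `R_Q`. -/
lemma substData {XQ YQ : RatFunc k} (hQ : (twLam A B).toAffine.Equation XQ YQ)
    (hx : Transcendental k (XQ / lam A B)) :
    ScaleData (substAlg (XQ / lam A B) hx : RatFunc k →+* RatFunc k)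
      (YQ / lam A B ^ 2) (twLam A B) (twLam A B) :=
  scaleData_tw' (lam_ne_zero A B)
    (by rw [RingHom.coe_coe, substAlg_C, RatFunc.algebraMap_eq_C])
    (by rw [RingHom.coe_coe, substAlg_C, RatFunc.algebraMap_eq_C])
    (by rw [RingHom.coe_coe, substAlg_lam_of_equation A B hQ hx])

variable [DecidableEq (RatFunc k)]

/-- The substitution endomorphism `R_Q = T(t ↦ X_Q / λ, Y_Q / λ²)` of `Λ`, for a point
`Q = (X_Q, Y_Q)` of `Λ` with non-constant twist coordinate `X_Q / λ`. -/
noncomputable def substPt {XQ YQ : RatFunc k} (hQ : (twLam A B).toAffine.Equation XQ YQ)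
    (hx : Transcendental k (XQ / lam A B)) :
    (twLam A B).toAffine.Point →+ (twLam A B).toAffine.Point :=
  scaleHom (substData A B hQ hx)

lemma substPt_some {XQ YQ : RatFunc k} (hQ : (twLam A B).toAffine.Equation XQ YQ)
    (hx : Transcendental k (XQ / lam A B)) {X Y : RatFunc k}
    (hXY : (twLam A B).toAffine.Nonsingular X Y) :
    substPt A B hQ hx (.some X Y hXY) =
      .some (substAlg (XQ / lam A B) hx X / (YQ / lam A B ^ 2) ^ 2)
        (substAlg (XQ / lam A B) hx Y / (YQ / lam A B ^ 2) ^ 3)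
        (((substData A B hQ hx).nonsingular_iff X Y).mpr hXY) := rfl

omit [DecidableEq (RatFunc k)] in
/-- In the twist coordinate `x = X / λ`, the map `R_Q` is the substitution `t ↦ x_Q`. -/
lemma substPt_xt {XQ YQ : RatFunc k} (hQ : (twLam A B).toAffine.Equation XQ YQ)
    (hx : Transcendental k (XQ / lam A B)) (X : RatFunc k) :
    substAlg (XQ / lam A B) hx X / (YQ / lam A B ^ 2) ^ 2 / lam A B
      = substAlg (XQ / lam A B) hx (X / lam A B) := by
  rw [map_div₀, substAlg_lam_of_equation A B hQ hx, div_div]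

/-- `R_Q P0 = Q`. -/
lemma substPt_P0 (h2 : (2 : k) ≠ 0) {XQ YQ : RatFunc k}
    (hQ : (twLam A B).toAffine.Nonsingular XQ YQ) (hx : Transcendental k (XQ / lam A B)) :
    substPt A B hQ.1 hx (P0 A B h2) = .some XQ YQ hQ := by
  have hl := lam_ne_zero A B
  have hu : YQ / lam A B ^ 2 ≠ 0 := (substData A B hQ.1 hx).hu
  have hY : YQ ≠ 0 := fun h => hu (by rw [h, zero_div])
  have hl2 := substAlg_lam_of_equation A B hQ.1 hx
  rw [P0, substPt_some]
  apply point_some_congr
  · rw [map_mul, hl2, substAlg_X]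
    field_simp
  · rw [map_pow, hl2]
    field_simp

section FrobLam

variable (p : ℕ) [Fact p.Prime] [CharP k p]

/-- The Frobenius endomorphism `F` of `Λ` (for Frobenius-fixed `A`, `B`). -/
noncomputable def frobLam (hp : p ≠ 2) (hA : A ^ p = A) (hB : B ^ p = B) :
    (twLam A B).toAffine.Point →+ (twLam A B).toAffine.Point :=
  frobTw p hp (by rw [← map_pow, hA]) (by rw [← map_pow, hB]) (lam_ne_zero A B)

lemma frobLam_some (hp : p ≠ 2) (hA : A ^ p = A) (hB : B ^ p = B) {X Y : RatFunc k}
    (hXY : (twLam A B).toAffine.Nonsingular X Y) :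
    ∃ h', frobLam A B p hp hA hB (.some X Y hXY) =
      .some (X ^ p / (lam A B ^ ((p - 1) / 2)) ^ 2) (Y ^ p / (lam A B ^ ((p - 1) / 2)) ^ 3) h' :=
  ⟨_, rfl⟩

/-- `R_Q F = F R_Q`. -/
lemma substPt_frobLam (hp : p ≠ 2) (hA : A ^ p = A) (hB : B ^ p = B) {XQ YQ : RatFunc k}
    (hQ : (twLam A B).toAffine.Equation XQ YQ) (hx : Transcendental k (XQ / lam A B))
    (P : (twLam A B).toAffine.Point) :
    substPt A B hQ hx (frobLam A B p hp hA hB P) = frobLam A B p hp hA hB (substPt A B hQ hx P) := by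
  have hF : ScaleData (frobenius (RatFunc k) p) (lam A B ^ ((p - 1) / 2)) (twLam A B) (twLam A B) :=
    frobData p hp (by rw [← map_pow, hA]) (by rw [← map_pow, hB]) (lam_ne_zero A B)
  have hR := substData A B hQ hx
  change scaleHom hR (scaleHom hF P) = scaleHom hF (scaleHom hR P)
  rw [scaleHom_comp hF hR (hF.comp hR), scaleHom_comp hR hF (hR.comp hF)]
  apply scaleHom_congr
  · ext x
    simp only [RingHom.comp_apply, frobenius_def, RingHom.coe_coe, map_pow]
  · rw [RingHom.coe_coe, map_pow, substAlg_lam_of_equation A B hQ hx, frobenius_def]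
    have h := two_mul_half_add_one p hp
    have e : (YQ / lam A B ^ 2) ^ p = (YQ / lam A B ^ 2) ^ (2 * ((p - 1) / 2)) * (YQ / lam A B ^ 2) := by
      rw [← pow_succ, h]
    rw [e, pow_mul]
    ring

end FrobLam

section Theta

variable {K : Type*} [Field K] [Algebra k K]

omit [DecidableEq (RatFunc k)] in
/-- Scaling data of `Θ_{P₁}`. -/
lemma thetaData {W' : WeierstrassCurve K}
    (hW : IsShort W' (algebraMap k K A) (algebraMap k K B)) {x1 y1 : K}
    (hP : W'.toAffine.Equation x1 y1) (hx : Transcendental k x1) :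
    ScaleData (substAlg x1 hx : RatFunc k →+* K) y1 (twLam A B) W' :=
  scaleData_tw_short hW (lam_ne_zero A B) (by rw [RingHom.coe_coe, substAlg_C])
    (by rw [RingHom.coe_coe, substAlg_C])
    (by rw [RingHom.coe_coe, substAlg_lam]; exact ((hW.equation_iff x1 y1).mp hP).symm)

variable [DecidableEq K]

/-- The map `Θ_{P₁} = T(t ↦ x₁, y₁) : Λ →+ E(K)` for a point `P₁ = (x₁, y₁)` of the short curve
`E : y² = x³ + A x + B` over an extension `K` of `k`, with `x₁` transcendental over `k`. -/
noncomputable def thetaPt {W' : WeierstrassCurve K}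
    (hW : IsShort W' (algebraMap k K A) (algebraMap k K B)) {x1 y1 : K}
    (hP : W'.toAffine.Equation x1 y1) (hx : Transcendental k x1) :
    (twLam A B).toAffine.Point →+ W'.toAffine.Point :=
  scaleHom (thetaData A B hW hP hx)

lemma thetaPt_some {W' : WeierstrassCurve K}
    (hW : IsShort W' (algebraMap k K A) (algebraMap k K B)) {x1 y1 : K}
    (hP : W'.toAffine.Equation x1 y1) (hx : Transcendental k x1) {X Y : RatFunc k}
    (hXY : (twLam A B).toAffine.Nonsingular X Y) :
    thetaPt A B hW hP hx (.some X Y hXY) =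
      .some (substAlg x1 hx X / y1 ^ 2) (substAlg x1 hx Y / y1 ^ 3)
        (((thetaData A B hW hP hx).nonsingular_iff X Y).mpr hXY) := rfl

/-- `Θ_{P₁} P0 = P₁`. -/
lemma thetaPt_P0 (h2 : (2 : k) ≠ 0) {W' : WeierstrassCurve K}
    (hW : IsShort W' (algebraMap k K A) (algebraMap k K B)) {x1 y1 : K}
    (hP : W'.toAffine.Nonsingular x1 y1) (hx : Transcendental k x1) :
    thetaPt A B hW hP.1 hx (P0 A B h2) = .some x1 y1 hP := by
  have hy : y1 ≠ 0 := (thetaData A B hW hP.1 hx).hu
  have hl : substAlg x1 hx (lam A B) = y1 ^ 2 := by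
    rw [substAlg_lam]; exact ((hW.equation_iff x1 y1).mp hP.1).symm
  rw [P0, thetaPt_some]
  apply point_some_congr
  · rw [map_mul, hl, substAlg_X]
    field_simp
  · rw [map_pow, hl]
    field_simp

/-- `Θ_{P₁}` sends the 2-torsion point `(e λ, 0)` of `Λ` to `(e, 0)`, independently of `P₁`. -/
lemma thetaPt_const {W' : WeierstrassCurve K}
    (hW : IsShort W' (algebraMap k K A) (algebraMap k K B)) {x1 y1 : K}
    (hP : W'.toAffine.Equation x1 y1) (hx : Transcendental k x1) (e : k)
    (h : (twLam A B).toAffine.Nonsingular (RatFunc.C e * lam A B) 0)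
    (h' : W'.toAffine.Nonsingular (algebraMap k K e) 0) :
    thetaPt A B hW hP hx (.some _ _ h) = .some (algebraMap k K e) 0 h' := by
  have hy : y1 ≠ 0 := (thetaData A B hW hP hx).hu
  have hl : substAlg x1 hx (lam A B) = y1 ^ 2 := by
    rw [substAlg_lam]; exact ((hW.equation_iff x1 y1).mp hP).symm
  rw [thetaPt_some]
  apply point_some_congr
  · rw [map_mul, hl, substAlg_C]
    field_simp
  · rw [map_zero, zero_div]

/-- `Θ_{P₁} F = φ Θ_{P₁}`. -/
lemma thetaPt_frobLam (p : ℕ) [Fact p.Prime] [CharP k p] [CharP K p] (hp : p ≠ 2)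
    (hA : A ^ p = A) (hB : B ^ p = B) {W' : WeierstrassCurve K}
    (hW : IsShort W' (algebraMap k K A) (algebraMap k K B)) {x1 y1 : K}
    (hP : W'.toAffine.Equation x1 y1) (hx : Transcendental k x1)
    (P : (twLam A B).toAffine.Point) :
    thetaPt A B hW hP hx (frobLam A B p hp hA hB P) =
      frobShort p hW (by rw [← map_pow, hA]) (by rw [← map_pow, hB]) (thetaPt A B hW hP hx P) := by
  have hF : ScaleData (frobenius (RatFunc k) p) (lam A B ^ ((p - 1) / 2)) (twLam A B) (twLam A B) :=
    frobData p hp (by rw [← map_pow, hA]) (by rw [← map_pow, hB]) (lam_ne_zero A B)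
  have hφ : ScaleData (frobenius K p) 1 W' W' :=
    frobData_short p hW (by rw [← map_pow, hA]) (by rw [← map_pow, hB])
  have hT := thetaData A B hW hP hx
  have hl : substAlg x1 hx (lam A B) = y1 ^ 2 := by
    rw [substAlg_lam]; exact ((hW.equation_iff x1 y1).mp hP).symm
  change scaleHom hT (scaleHom hF P) = scaleHom hφ (scaleHom hT P)
  rw [scaleHom_comp hF hT (hF.comp hT), scaleHom_comp hT hφ (hT.comp hφ)]
  apply scaleHom_congr
  · ext x
    simp only [RingHom.comp_apply, frobenius_def, RingHom.coe_coe, map_pow]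
  · rw [RingHom.coe_coe, map_pow, hl, frobenius_def, mul_one, ← pow_mul, ← pow_succ,
      two_mul_half_add_one p hp]

end Theta

end Lambda

end Fermat.Agent.S52.helper7899
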