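/-
S52 / (L1) Frobenius Cayley–Hamilton: the closed final theorems (helper8312, L1 architect).

`helper2957.frob_CH_short` (the mid-assembly of the Manin-height leaves) is restated here in the
consumer surfaces of `helper3731_FrobAdapter`:

* `chShort`   : `helper3731.CHShort ℓ frob`   (short models `y² = x³ + A x + B`, `ℓ` odd);
* `chGeneral` : `helper3731.CHGeneral ℓ frob` (every Weierstrass model over `ZMod ℓ` with `Δ ≠ 0`,
                `ℓ ≥ 5`, Prelude `traceOfFrobenius`);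
* `dvd_traceOfFrobenius_sub_of_equivariant` : the `a_ℓ`-congruence consumer with Cayley–Hamilton
  discharged;

for every algebraically closed field `K` over `ZMod ℓ` and every `ZMod ℓ`-algebra endomorphism
`frob` of `K` with `frob x = x ^ ℓ` (e.g. `frobAlgHom ℓ K` of `helper8312_FrobFinal`).
-/
import Mathlib
import Fermat.Prelude.Def_FLTPrelim_Modularity
import Fermat.Agent.S52.helper3731_FrobAdapter
import Fermat.Agent.S52.helper2957_FrobCH
import Fermat.Agent.S52.helper8312_FrobFinal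

set_option autoImplicit false

namespace Fermat.Agent.S52.helper8312

open WeierstrassCurve WeierstrassCurve.Affine
open Fermat.Agent.S52.helper3731

section

variable {ℓ : ℕ} [Fact ℓ.Prime] {K : Type*} [Field K] [DecidableEq K] [Algebra (ZMod ℓ) K]
  [IsAlgClosed K]

/-- **Frobenius Cayley–Hamilton, short models** (`ℓ` odd, `K` algebraically closed). -/
theorem chShort (hodd : ℓ ≠ 2) (frob : K →ₐ[ZMod ℓ] K) (hfrob : ∀ x, frob x = x ^ ℓ) :
    CHShort ℓ frob := by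
  apply chShort_of_shortRel
  intro A B hAB P
  have key := Fermat.Agent.S52.helper2957.frob_CH_short (A := A) (B := B) hodd hAB frob hfrob P
  have e : (Fintype.card (ZMod ℓ) : ℤ) = (ℓ : ℤ) := by rw [ZMod.card]
  rw [e]
  exact key

/-- **Frobenius Cayley–Hamilton, all Weierstrass models over `ZMod ℓ` with `Δ ≠ 0`** (`ℓ ≥ 5`,
`K` algebraically closed), with the Prelude `traceOfFrobenius`. -/
theorem chGeneral (hℓ : 5 ≤ ℓ) (frob : K →ₐ[ZMod ℓ] K) (hfrob : ∀ x, frob x = x ^ ℓ) :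
    CHGeneral ℓ frob :=
  cayleyHamilton_general_of_short hℓ frob (chShort (by omega) frob hfrob)

/-- Cayley–Hamilton for one Weierstrass model, unfolded. -/
theorem frobenius_cayleyHamilton (hℓ : 5 ≤ ℓ) (frob : K →ₐ[ZMod ℓ] K)
    (hfrob : ∀ x, frob x = x ^ ℓ) (W : WeierstrassCurve (ZMod ℓ)) (hΔ : W.Δ ≠ 0)
    (P : (W⁄K).Point) :
    Point.map (W' := W) frob (Point.map (W' := W) frob P)
      - W.traceOfFrobenius • Point.map (W' := W) frob P + (ℓ : ℤ) • P = 0 :=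
  chGeneral hℓ frob hfrob W hΔ P

/-- **The `a_ℓ`-congruence consumer with Cayley–Hamilton discharged.**  `W₁, W₂` Weierstrass
curves over `ZMod ℓ` (`ℓ ≥ 5`) with `Δ ≠ 0`, `n` a prime; an injective additive
Frobenius-equivariant map from the (nonzero) `n`-torsion of `W₁(K)` to `W₂(K)` forces
`n ∣ a_ℓ(W₁) − a_ℓ(W₂)`. -/
theorem dvd_traceOfFrobenius_sub_of_equivariant (hℓ : 5 ≤ ℓ) (frob : K →ₐ[ZMod ℓ] K)
    (hfrob : ∀ x, frob x = x ^ ℓ) (W₁ W₂ : WeierstrassCurve (ZMod ℓ)) (h₁ : W₁.Δ ≠ 0)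
    (h₂ : W₂.Δ ≠ 0) (n : ℕ) (hn : n.Prime)
    (θ : Submodule.torsionBy ℤ (W₁⁄K).Point n →+ (W₂⁄K).Point)
    (hθ : Function.Injective θ)
    (hθφ : ∀ x y : Submodule.torsionBy ℤ (W₁⁄K).Point n,
      (y : (W₁⁄K).Point) = Point.map (W' := W₁) frob (x : (W₁⁄K).Point) →
        θ y = Point.map (W' := W₂) frob (θ x))
    (hnt : ∃ x : Submodule.torsionBy ℤ (W₁⁄K).Point n, x ≠ 0) :
    (n : ℤ) ∣ W₁.traceOfFrobenius - W₂.traceOfFrobenius :=
  dvd_traceOfFrobenius_sub frob W₁ W₂ (ℓ : ℤ) (chGeneral hℓ frob hfrob W₁ h₁)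
    (chGeneral hℓ frob hfrob W₂ h₂) n hn θ hθ hθφ hnt

end

/-- Cayley–Hamilton for the canonical Frobenius `frobAlgHom ℓ K`. -/
theorem chGeneral_frobAlgHom {ℓ : ℕ} [Fact ℓ.Prime] (hℓ : 5 ≤ ℓ) (K : Type*) [Field K]
    [DecidableEq K] [Algebra (ZMod ℓ) K] [IsAlgClosed K] : CHGeneral ℓ (frobAlgHom ℓ K) :=
  chGeneral hℓ (frobAlgHom ℓ K) (frobAlgHom_apply ℓ K)

end Fermat.Agent.S52.helper8312
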