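/-
S52 / generic-fibre route for (L3): the specialisation core (helper8312).

For a field `k`, `K = RatFunc k` and `s : k`:

* `placeAt s : ValuationSubring (RatFunc k)` — rational functions regular at `s`;
  `evalAt s : placeAt s →+* k` — evaluation at `s`, a local ring homomorphism;
* `red_eq_zero_of_torsion` — for any valuation subring `A`, the landed reduction homomorphism
  `helper8525.red` is injective on `n`-torsion when `n` is a unit of `A`
  (via the landed `helper5736.v_le_one_of_torsion`);
* `spec Wp s hs` — for a Weierstrass curve `Wp` over `k[X]` and `s : k` with `Δ(s) ≠ 0`, the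
  specialisation homomorphism from the points of the generic fibre (over `RatFunc k`) to the points
  of the fibre at `s`; it is additive, sends a point with polynomial coordinates `(x, y)` to
  `(x(s), y(s))`, and is injective on `n`-torsion for `(n : k) ≠ 0`.
-/
import Mathlib
import Fermat.Agent.Lib.helper8525_RedHom
import Fermat.Agent.S13.helper5736_KerB

set_option autoImplicit false

namespace Fermat.Agent.S52.helper8312

open Polynomial WeierstrassCurve WeierstrassCurve.Affine

/-! ### The place of `RatFunc k` at a point `s : k` -/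

section Place

variable {k : Type*} [Field k] (s : k)

private lemma eval_ne_zero_of_dvd {p q : k[X]} (h : p ∣ q) (hq : q.eval s ≠ 0) :
    p.eval s ≠ 0 := by
  intro hp
  have := Polynomial.eval_dvd (x := s) h
  rw [hp, zero_dvd_iff] at this
  exact hq this

/-- Rational functions regular at `s`, as a subring of `RatFunc k`. -/
noncomputable def placeSubring : Subring (RatFunc k) where
  carrier := {r | r.denom.eval s ≠ 0}
  mul_mem' := by
    intro a b ha hb
    exact eval_ne_zero_of_dvd s (RatFunc.denom_mul_dvd a b)
      (by rw [Polynomial.eval_mul]; exact mul_ne_zero ha hb)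
  one_mem' := by
    change (RatFunc.denom (1 : RatFunc k)).eval s ≠ 0
    rw [RatFunc.denom_one, Polynomial.eval_one]
    exact one_ne_zero
  add_mem' := by
    intro a b ha hb
    exact eval_ne_zero_of_dvd s (RatFunc.denom_add_dvd a b)
      (by rw [Polynomial.eval_mul]; exact mul_ne_zero ha hb)
  zero_mem' := by
    change (RatFunc.denom (0 : RatFunc k)).eval s ≠ 0
    rw [RatFunc.denom_zero, Polynomial.eval_one]
    exact one_ne_zero
  neg_mem' := by
    intro a ha
    have h1 : -a = RatFunc.C (-1 : k) * a := by
      rw [map_neg, map_one, neg_one_mul]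
    change (RatFunc.denom (-a)).eval s ≠ 0
    rw [h1]
    refine eval_ne_zero_of_dvd s (RatFunc.denom_mul_dvd _ a) ?_
    rw [RatFunc.denom_C, one_mul]
    exact ha

/-- The valuation subring of `RatFunc k` of rational functions regular at `s`. -/
noncomputable def placeAt : ValuationSubring (RatFunc k) :=
  { placeSubring s with
    mem_or_inv_mem' := by
      intro x
      by_cases hx : x = 0
      · left
        subst hx
        exact (placeSubring s).zero_mem
      by_cases hd : x.denom.eval s = 0
      · right
        change (RatFunc.denom x⁻¹).eval s ≠ 0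
        refine eval_ne_zero_of_dvd s (RatFunc.denom_inv_dvd hx) ?_
        intro hn
        obtain ⟨a, b, hab⟩ := RatFunc.isCoprime_num_denom x
        have := congrArg (Polynomial.eval s) hab
        rw [Polynomial.eval_add, Polynomial.eval_mul, Polynomial.eval_mul, hn, hd, mul_zero,
          mul_zero, add_zero, Polynomial.eval_one] at this
        exact zero_ne_one this
      · left
        exact hd }

theorem mem_placeAt_iff (r : RatFunc k) : r ∈ placeAt s ↔ r.denom.eval s ≠ 0 := Iff.rfl

theorem algebraMap_mem_placeAt (p : k[X]) : algebraMap k[X] (RatFunc k) p ∈ placeAt s := by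
  rw [mem_placeAt_iff, RatFunc.denom_algebraMap, Polynomial.eval_one]
  exact one_ne_zero

theorem C_mem_placeAt (c : k) : RatFunc.C c ∈ placeAt s := by
  rw [mem_placeAt_iff, RatFunc.denom_C, Polynomial.eval_one]
  exact one_ne_zero

/-- Evaluation at `s` of a rational function regular at `s`. -/
noncomputable def evalAt : placeAt s →+* k where
  toFun r := RatFunc.eval (RingHom.id k) s (r : RatFunc k)
  map_one' := RatFunc.eval_one (RingHom.id k) s
  map_mul' a b := RatFunc.eval_mul (RingHom.id k) s ((mem_placeAt_iff s _).mp a.2)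
    ((mem_placeAt_iff s _).mp b.2)
  map_zero' := RatFunc.eval_zero (RingHom.id k) s
  map_add' a b := RatFunc.eval_add (RingHom.id k) s ((mem_placeAt_iff s _).mp a.2)
    ((mem_placeAt_iff s _).mp b.2)

theorem evalAt_apply (r : placeAt s) :
    evalAt s r = (r : RatFunc k).num.eval s / (r : RatFunc k).denom.eval s := rfl

theorem evalAt_algebraMap (p : k[X]) :
    evalAt s ⟨algebraMap k[X] (RatFunc k) p, algebraMap_mem_placeAt s p⟩ = p.eval s := by
  change RatFunc.eval (RingHom.id k) s (algebraMap k[X] (RatFunc k) p) = p.eval s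
  rw [RatFunc.eval_algebraMap]
  rfl

instance isLocalHom_evalAt : IsLocalHom (evalAt s) where
  map_nonunit := by
    intro r hr
    have hne : evalAt s r ≠ 0 := hr.ne_zero
    rw [evalAt_apply] at hne
    have hnum : (r : RatFunc k).num.eval s ≠ 0 := fun h => hne (by rw [h, zero_div])
    have hr0 : (r : RatFunc k) ≠ 0 := by
      intro h
      rw [h, RatFunc.num_zero, Polynomial.eval_zero] at hnum
      exact hnum rfl
    have hinv : (r : RatFunc k)⁻¹ ∈ placeAt s :=
      eval_ne_zero_of_dvd s (RatFunc.denom_inv_dvd hr0) hnum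
    exact isUnit_iff_exists_inv.mpr ⟨⟨_, hinv⟩, Subtype.ext (mul_inv_cancel₀ hr0)⟩

/-- Polynomials, as elements of the place at `s`. -/
noncomputable def toPlace : k[X] →+* placeAt s :=
  (algebraMap k[X] (RatFunc k)).codRestrict (placeAt s) (algebraMap_mem_placeAt s)

theorem subtype_comp_toPlace :
    (placeAt s).subtype.comp (toPlace s) = algebraMap k[X] (RatFunc k) := rfl

theorem evalAt_comp_toPlace : (evalAt s).comp (toPlace s) = Polynomial.evalRingHom s := by
  ext p
  · simp only [RingHom.comp_apply, Polynomial.coe_evalRingHom]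
    exact evalAt_algebraMap s _
  · simp only [RingHom.comp_apply, Polynomial.coe_evalRingHom]
    exact evalAt_algebraMap s _

theorem evalAt_toPlace (p : k[X]) : evalAt s (toPlace s p) = p.eval s :=
  evalAt_algebraMap s p

/-- A natural number that is nonzero in `k` is a unit at the place `s`. -/
theorem valuation_natCast_placeAt (n : ℕ) (hn : (n : k) ≠ 0) :
    (placeAt s).valuation (n : RatFunc k) = 1 := by
  have h1 : (n : RatFunc k) = RatFunc.C (n : k) := by rw [map_natCast]
  have hmem : (n : RatFunc k) ∈ placeAt s := by rw [h1]; exact C_mem_placeAt s _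
  have hinv : (n : RatFunc k)⁻¹ ∈ placeAt s := by
    rw [h1, ← map_inv₀]; exact C_mem_placeAt s _
  have hn0 : (n : RatFunc k) ≠ 0 := by
    rw [h1]
    exact (_root_.map_ne_zero _).mpr hn
  have hu : IsUnit (⟨(n : RatFunc k), hmem⟩ : placeAt s) :=
    isUnit_iff_exists_inv.mpr ⟨⟨_, hinv⟩, Subtype.ext (mul_inv_cancel₀ hn0)⟩
  exact ((placeAt s).valuation_eq_one_iff _).mp hu

end Place

/-! ### Reduction is injective on prime-to-residue torsion -/

section Torsion

open Fermat.Agent.Lib.helper8525

variable {K : Type*} [Field K] [DecidableEq K] {A : ValuationSubring K} {k : Type*} [Field k]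
  [DecidableEq k] (φ : A →+* k) [IsLocalHom φ] (W : WeierstrassCurve A)

/-- The kernel of the reduction homomorphism contains no nonzero `n`-torsion point when `n` is a
unit of the valuation ring. -/
theorem red_eq_zero_of_torsion (hΔ : IsUnit W.Δ) (n : ℕ) (hn : A.valuation (n : K) = 1)
    (P : (W.map A.subtype).toAffine.Point) (hP : n • P = 0) (h0 : red φ W hΔ P = 0) : P = 0 := by
  rcases P with _ | ⟨x, y, h⟩
  · rfl
  · exfalso
    have hx : x ∉ A := (red_some_eq_zero_iff φ W hΔ h).mp h0
    have hv : A.valuation x ≤ 1 :=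
      Fermat.Agent.S13.helper5736.v_le_one_of_torsion A.valuation (W.map A.subtype).toAffine
        (by rw [WeierstrassCurve.map_b₂]; exact A.valuation_le_one _)
        (by rw [WeierstrassCurve.map_b₄]; exact A.valuation_le_one _)
        (by rw [WeierstrassCurve.map_b₆]; exact A.valuation_le_one _)
        (by rw [WeierstrassCurve.map_b₈]; exact A.valuation_le_one _) h n hn hP
    exact hx ((A.valuation_le_one_iff x).mp hv)

/-- Reduction is injective on `n`-torsion (`n` a unit of the valuation ring). -/
theorem red_injective_on_torsion (hΔ : IsUnit W.Δ) (n : ℕ) (hn : A.valuation (n : K) = 1)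
    (P Q : (W.map A.subtype).toAffine.Point) (hP : n • P = 0) (hQ : n • Q = 0)
    (h : red φ W hΔ P = red φ W hΔ Q) : P = Q := by
  have h1 : n • (P - Q) = 0 := by rw [nsmul_sub, hP, hQ, sub_zero]
  have h2 : red φ W hΔ (P - Q) = 0 := by rw [map_sub, h, sub_self]
  exact sub_eq_zero.mp (red_eq_zero_of_torsion φ W hΔ n hn (P - Q) h1 h2)

end Torsion

/-! ### Transport of points along an equality of curves -/

section Congr

variable {F : Type*} [Field F] [DecidableEq F]

/-- The identity on points, along an equality of Weierstrass curves. -/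
noncomputable def pointCongr {W₁ W₂ : WeierstrassCurve F} (h : W₁ = W₂) :
    W₁.toAffine.Point ≃+ W₂.toAffine.Point :=
  h ▸ AddEquiv.refl _

theorem pointCongr_some {W₁ W₂ : WeierstrassCurve F} (h : W₁ = W₂) {x y : F}
    (h₁ : W₁.toAffine.Nonsingular x y) (h₂ : W₂.toAffine.Nonsingular x y) :
    pointCongr h (Point.some x y h₁) = Point.some x y h₂ := by
  subst h
  rfl

theorem pointCongr_zero {W₁ W₂ : WeierstrassCurve F} (h : W₁ = W₂) :
    pointCongr h (0 : W₁.toAffine.Point) = 0 := map_zero _

end Congr

/-! ### Specialisation of a Weierstrass curve over `k[X]` -/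

section Spec

open Fermat.Agent.Lib.helper8525

variable {k : Type*} [Field k] [DecidableEq k] [DecidableEq (RatFunc k)]
  (Wp : WeierstrassCurve k[X]) (s : k)

omit [DecidableEq k] [DecidableEq (RatFunc k)] in
theorem isUnit_map_toPlace_Δ (hs : Wp.Δ.eval s ≠ 0) : IsUnit (Wp.map (toPlace s)).Δ := by
  rw [WeierstrassCurve.map_Δ]
  refine (isLocalHom_evalAt s).map_nonunit _ ?_
  rw [evalAt_toPlace]
  exact IsUnit.mk0 _ hs

omit [DecidableEq k] [DecidableEq (RatFunc k)] in
theorem map_toPlace_map_subtype :
    (Wp.map (toPlace s)).map (placeAt s).subtype = Wp.map (algebraMap k[X] (RatFunc k)) := by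
  rw [WeierstrassCurve.map_map, subtype_comp_toPlace]

omit [DecidableEq k] [DecidableEq (RatFunc k)] in
theorem map_toPlace_map_evalAt :
    (Wp.map (toPlace s)).map (evalAt s) = Wp.map (Polynomial.evalRingHom s) := by
  rw [WeierstrassCurve.map_map, evalAt_comp_toPlace]

/-- **Specialisation at `s`**: from the points of the generic fibre of `Wp` (over `RatFunc k`) to
the points of the fibre at `s`, when `Δ(s) ≠ 0`.  A group homomorphism. -/
noncomputable def spec (hs : Wp.Δ.eval s ≠ 0) :
    (Wp.map (algebraMap k[X] (RatFunc k))).toAffine.Point →+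
      (Wp.map (Polynomial.evalRingHom s)).toAffine.Point :=
  ((pointCongr (map_toPlace_map_evalAt Wp s)).toAddMonoidHom.comp
      (red (evalAt s) (Wp.map (toPlace s)) (isUnit_map_toPlace_Δ Wp s hs))).comp
    (pointCongr (map_toPlace_map_subtype Wp s).symm).toAddMonoidHom

/-- Specialisation of a point with polynomial coordinates is coordinatewise evaluation. -/
theorem spec_some (hs : Wp.Δ.eval s ≠ 0) (x y : k[X])
    (h : (Wp.map (algebraMap k[X] (RatFunc k))).toAffine.Nonsingular
      (algebraMap k[X] (RatFunc k) x) (algebraMap k[X] (RatFunc k) y))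
    (h' : (Wp.map (Polynomial.evalRingHom s)).toAffine.Nonsingular (x.eval s) (y.eval s)) :
    spec Wp s hs (Point.some _ _ h) = Point.some _ _ h' := by
  have e₁ := map_toPlace_map_subtype Wp s
  have e₂ := map_toPlace_map_evalAt Wp s
  have h₁ : ((Wp.map (toPlace s)).map (placeAt s).subtype).toAffine.Nonsingular
      ((placeAt s).subtype (toPlace s x)) ((placeAt s).subtype (toPlace s y)) := by
    rw [e₁]; exact h
  have h₂ : ((Wp.map (toPlace s)).map (evalAt s)).toAffine.Nonsingular
      (evalAt s (toPlace s x)) (evalAt s (toPlace s y)) := by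
    rw [e₂, evalAt_toPlace, evalAt_toPlace]; exact h'
  have step1 : pointCongr e₁.symm (Point.some _ _ h) = Point.some _ _ h₁ :=
    pointCongr_some e₁.symm h h₁
  have step2 : red (evalAt s) (Wp.map (toPlace s)) (isUnit_map_toPlace_Δ Wp s hs)
      (Point.some _ _ h₁) = Point.some _ _ h₂ :=
    red_some_coe (evalAt s) (Wp.map (toPlace s)) _ (toPlace s x) (toPlace s y) h₁ h₂
  have h₃ : (Wp.map (Polynomial.evalRingHom s)).toAffine.Nonsingular
      (evalAt s (toPlace s x)) (evalAt s (toPlace s y)) := by
    rw [evalAt_toPlace, evalAt_toPlace]; exact h'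
  have step3 : pointCongr e₂ (Point.some _ _ h₂) = Point.some _ _ h₃ :=
    pointCongr_some e₂ h₂ h₃
  have step4 : (Point.some _ _ h₃ : (Wp.map (Polynomial.evalRingHom s)).toAffine.Point)
      = Point.some _ _ h' := by
    congr 1
    · exact evalAt_toPlace s x
    · exact evalAt_toPlace s y
  change pointCongr e₂ (red (evalAt s) (Wp.map (toPlace s)) _ (pointCongr e₁.symm _)) = _
  rw [step1, step2, step3, step4]

/-- Specialisation kills no nonzero `n`-torsion point, for `n` nonzero in `k`. -/
theorem spec_eq_zero_of_torsion (hs : Wp.Δ.eval s ≠ 0) (n : ℕ) (hn : (n : k) ≠ 0)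
    (P : (Wp.map (algebraMap k[X] (RatFunc k))).toAffine.Point) (hP : n • P = 0)
    (h0 : spec Wp s hs P = 0) : P = 0 := by
  have e₁ := map_toPlace_map_subtype Wp s
  have e₂ := map_toPlace_map_evalAt Wp s
  set P' := pointCongr e₁.symm P with hP'
  have h1 : n • P' = 0 := by rw [hP', ← map_nsmul, hP, map_zero]
  have h2 : red (evalAt s) (Wp.map (toPlace s)) (isUnit_map_toPlace_Δ Wp s hs) P' = 0 := by
    have : pointCongr e₂ (red (evalAt s) (Wp.map (toPlace s)) (isUnit_map_toPlace_Δ Wp s hs) P')
        = 0 := h0
    exact (AddEquiv.map_eq_zero_iff _).mp this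
  have h3 := red_eq_zero_of_torsion (evalAt s) (Wp.map (toPlace s))
    (isUnit_map_toPlace_Δ Wp s hs) n (valuation_natCast_placeAt s n hn) P' h1 h2
  exact (AddEquiv.map_eq_zero_iff _).mp h3

/-- Specialisation is injective on `n`-torsion, for `n` nonzero in `k`. -/
theorem spec_injective_on_torsion (hs : Wp.Δ.eval s ≠ 0) (n : ℕ) (hn : (n : k) ≠ 0)
    (P Q : (Wp.map (algebraMap k[X] (RatFunc k))).toAffine.Point) (hP : n • P = 0)
    (hQ : n • Q = 0) (h : spec Wp s hs P = spec Wp s hs Q) : P = Q := by
  have h1 : n • (P - Q) = 0 := by rw [nsmul_sub, hP, hQ, sub_zero]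
  have h2 : spec Wp s hs (P - Q) = 0 := by rw [map_sub, h, sub_self]
  exact sub_eq_zero.mp (spec_eq_zero_of_torsion Wp s hs n hn (P - Q) h1 h2)

end Spec

end Fermat.Agent.S52.helper8312
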