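/-
S52 helper (helper8316): the universal point `(kX, kY)` on `y^2 = x^3 + 27 H x + 54 T` has
order 5 (field-generic, group law of Mathlib's `WeierstrassCurve.Affine.Point`).

* `kJ1`, `kJ2`, `kJ3` : on-curve identity and the two tangent (duplication) identities, as
  polynomial identities in `(p, q) = (u^5, v^5)` modulo `Φ₅(z)` and `5 c = 1`.
* `short_dbl` : duplication on a short Weierstrass curve from the two tangent identities.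
* `kPoint_nonsingular`, `five_smul_kPoint` : for `kF u v ≠ 0` the point `(kX z u v, kY z u v)`
  is a nonsingular point of `⟨0,0,0,27 kH u v,54 kT u v⟩` killed by `5`
  (`2 P(w) = -P(S w)`, `S w = (v,-u)`, hence `4 P = -P`).
-/
import Mathlib
import Fermat.Agent.S52.helper8316_FixRoot

set_option autoImplicit false

namespace Fermat.Agent.S52.helper8316

open WeierstrassCurve WeierstrassCurve.Affine

variable {K : Type*} [Field K]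

section Identities

variable {z : K}

/-- `kX` in terms of `(p, q) = (u^5, v^5)` and `c = 1/5`. -/
def xC (z c p q : K) : K :=
  -15 * (p ^ 2 + q ^ 2) + 18 * c * rt5 z * (p ^ 2 + 11 * p * q - q ^ 2)

/-- `kH` in terms of `(p, q) = (u^5, v^5)`. -/
def hC (p q : K) : K :=
  -(p ^ 4 + q ^ 4) + 228 * (p ^ 3 * q - p * q ^ 3) - 494 * p ^ 2 * q ^ 2

/-- `kT` in terms of `(p, q) = (u^5, v^5)`. -/
def tC (p q : K) : K :=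
  p ^ 6 + q ^ 6 + 522 * (p ^ 5 * q - p * q ^ 5) - 10005 * (p ^ 4 * q ^ 2 + p ^ 2 * q ^ 4)

/-- The universal point lies on the curve. -/
theorem kJ1 (hz : z ^ 4 + z ^ 3 + z ^ 2 + z + 1 = 0) (c : K) (hc : 5 * c = 1) (p q : K) :
    (108 * c * yC z p q) ^ 2
      = xC z c p q ^ 3 + 27 * hC p q * xC z c p q + 54 * tC p q := by
  unfold xC yC hC tC rt5
  linear_combination (3067632 * c * p ^ 2 * q ^ 4 + 3195936 * c * p ^ 2 * q ^ 4 * z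
      + 1796256 * c * p ^ 2 * q ^ 4 * z ^ 2 - 956448 * c * p ^ 3 * q ^ 3
      - 274104 * c * p ^ 3 * q ^ 3 * z - 5027184 * c * p ^ 3 * q ^ 3 * z ^ 2
      + 1831248 * c * p ^ 4 * q ^ 2 - 2496096 * c * p ^ 4 * q ^ 2 * z
      + 1702944 * c * p ^ 4 * q ^ 2 * z ^ 2 - 2676888 * c ^ 2 * p * q ^ 5
      - 2811024 * c ^ 2 * p * q ^ 5 * z - 1032264 * c ^ 2 * p * q ^ 5 * z ^ 2
      - 4828896 * c ^ 2 * p ^ 2 * q ^ 4 * z ^ 3 - 4129056 * c ^ 2 * p ^ 2 * q ^ 4 * z ^ 4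
      + 3359232 * c ^ 2 * p ^ 2 * q ^ 4 * z ^ 5 + 1259712 * c ^ 2 * p ^ 2 * q ^ 4 * z ^ 6
      - 1679616 * c ^ 2 * p ^ 2 * q ^ 4 * z ^ 7 + 419904 * c ^ 2 * p ^ 2 * q ^ 4 * z ^ 8
      - 1475496 * c ^ 2 * p ^ 3 * q ^ 3 * z ^ 3 + 20656944 * c ^ 2 * p ^ 3 * q ^ 3 * z ^ 4
      - 11803968 * c ^ 2 * p ^ 3 * q ^ 3 * z ^ 5 - 4426488 * c ^ 2 * p ^ 3 * q ^ 3 * z ^ 6
      + 5901984 * c ^ 2 * p ^ 3 * q ^ 3 * z ^ 7 - 1475496 * c ^ 2 * p ^ 3 * q ^ 3 * z ^ 8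
      - 5668704 * c ^ 2 * p ^ 4 * q ^ 2 * z ^ 3 + 7628256 * c ^ 2 * p ^ 4 * q ^ 2 * z ^ 4
      - 3359232 * c ^ 2 * p ^ 4 * q ^ 2 * z ^ 5 - 1259712 * c ^ 2 * p ^ 4 * q ^ 2 * z ^ 6
      + 1679616 * c ^ 2 * p ^ 4 * q ^ 2 * z ^ 7 - 419904 * c ^ 2 * p ^ 4 * q ^ 2 * z ^ 8
      + 1813752 * c ^ 2 * p ^ 5 * q - 2169504 * c ^ 2 * p ^ 5 * q * z
      + 2175336 * c ^ 2 * p ^ 5 * q * z ^ 2 + 84564 * c ^ 2 * p ^ 6 - 96228 * c ^ 2 * p ^ 6 * z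
      + 107892 * c ^ 2 * p ^ 6 * z ^ 2 + 119556 * c ^ 2 * q ^ 6 + 125388 * c ^ 2 * q ^ 6 * z
      + 37908 * c ^ 2 * q ^ 6 * z ^ 2 + 4618944 * c ^ 3 * p * q ^ 5 * z ^ 3
      + 1090584 * c ^ 3 * p * q ^ 5 * z ^ 4 - 1539648 * c ^ 3 * p * q ^ 5 * z ^ 5
      - 577368 * c ^ 3 * p * q ^ 5 * z ^ 6 + 769824 * c ^ 3 * p * q ^ 5 * z ^ 7
      - 192456 * c ^ 3 * p * q ^ 5 * z ^ 8 - 5003856 * c ^ 3 * p ^ 5 * q * z ^ 3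
      + 4298184 * c ^ 3 * p ^ 5 * q * z ^ 4 - 1539648 * c ^ 3 * p ^ 5 * q * z ^ 5
      - 577368 * c ^ 3 * p ^ 5 * q * z ^ 6 + 769824 * c ^ 3 * p ^ 5 * q * z ^ 7
      - 192456 * c ^ 3 * p ^ 5 * q * z ^ 8 - 224532 * c ^ 3 * p ^ 6 * z ^ 3
      + 154548 * c ^ 3 * p ^ 6 * z ^ 4 - 46656 * c ^ 3 * p ^ 6 * z ^ 5
      - 17496 * c ^ 3 * p ^ 6 * z ^ 6 + 23328 * c ^ 3 * p ^ 6 * z ^ 7
      - 5832 * c ^ 3 * p ^ 6 * z ^ 8 - 212868 * c ^ 3 * q ^ 6 * z ^ 3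
      - 8748 * c ^ 3 * q ^ 6 * z ^ 4 + 46656 * c ^ 3 * q ^ 6 * z ^ 5
      + 17496 * c ^ 3 * q ^ 6 * z ^ 6 - 23328 * c ^ 3 * q ^ 6 * z ^ 7
      + 5832 * c ^ 3 * q ^ 6 * z ^ 8) * hz
    + (320760 * c * p * q ^ 5 + 239112 * c * p * q ^ 5 * z - 239112 * c * p * q ^ 5 * z ^ 2
      - 239112 * c * p * q ^ 5 * z ^ 3 + 239112 * c * p * q ^ 5 * z ^ 4
      + 1318032 * c * p ^ 2 * q ^ 4 + 5272128 * c * p ^ 2 * q ^ 4 * z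
      + 9051264 * c * p ^ 2 * q ^ 4 * z ^ 2 + 9051264 * c * p ^ 2 * q ^ 4 * z ^ 3
      + 7068384 * c * p ^ 2 * q ^ 4 * z ^ 4 + 4992192 * c * p ^ 2 * q ^ 4 * z ^ 5
      + 1796256 * c * p ^ 2 * q ^ 4 * z ^ 6 - 956448 * c * p ^ 3 * q ^ 3
      - 3825792 * c * p ^ 3 * q ^ 3 * z - 3662496 * c * p ^ 3 * q ^ 3 * z ^ 2
      - 3662496 * c * p ^ 3 * q ^ 3 * z ^ 3 - 8852976 * c * p ^ 3 * q ^ 3 * z ^ 4
      - 5301288 * c * p ^ 3 * q ^ 3 * z ^ 5 - 5027184 * c * p ^ 3 * q ^ 3 * z ^ 6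
      + 81648 * c * p ^ 4 * q ^ 2 + 326592 * c * p ^ 4 * q ^ 2 * z
      + 46656 * c * p ^ 4 * q ^ 2 * z ^ 2 + 46656 * c * p ^ 4 * q ^ 2 * z ^ 3
      + 2029536 * c * p ^ 4 * q ^ 2 * z ^ 4 - 793152 * c * p ^ 4 * q ^ 2 * z ^ 5
      + 1702944 * c * p ^ 4 * q ^ 2 * z ^ 6 - 320760 * c * p ^ 5 * q + 239112 * c * p ^ 5 * q * z
      - 239112 * c * p ^ 5 * q * z ^ 2 - 239112 * c * p ^ 5 * q * z ^ 3
      + 239112 * c * p ^ 5 * q * z ^ 4 - 14580 * c * p ^ 6 + 11664 * c * p ^ 6 * z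
      - 11664 * c * p ^ 6 * z ^ 2 - 11664 * c * p ^ 6 * z ^ 3 + 11664 * c * p ^ 6 * z ^ 4
      - 14580 * c * q ^ 6 - 11664 * c * q ^ 6 * z + 11664 * c * q ^ 6 * z ^ 2
      + 11664 * c * q ^ 6 * z ^ 3 - 11664 * c * q ^ 6 * z ^ 4 - 962280 * c ^ 2 * p * q ^ 5 * z ^ 3
      - 1026432 * c ^ 2 * p * q ^ 5 * z ^ 4 - 833976 * c ^ 2 * p * q ^ 5 * z ^ 5
      - 1026432 * c ^ 2 * p * q ^ 5 * z ^ 6 - 641520 * c ^ 2 * p * q ^ 5 * z ^ 7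
      + 320760 * c ^ 2 * p * q ^ 5 * z ^ 8 + 419904 * c ^ 2 * p ^ 2 * q ^ 4 * z ^ 3
      - 1259712 * c ^ 2 * p ^ 2 * q ^ 4 * z ^ 4 + 3359232 * c ^ 2 * p ^ 2 * q ^ 4 * z ^ 6
      - 2519424 * c ^ 2 * p ^ 2 * q ^ 4 * z ^ 7 - 2519424 * c ^ 2 * p ^ 2 * q ^ 4 * z ^ 8
      + 3359232 * c ^ 2 * p ^ 2 * q ^ 4 * z ^ 9 - 1259712 * c ^ 2 * p ^ 2 * q ^ 4 * z ^ 11
      + 419904 * c ^ 2 * p ^ 2 * q ^ 4 * z ^ 12 - 1475496 * c ^ 2 * p ^ 3 * q ^ 3 * z ^ 3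
      + 4426488 * c ^ 2 * p ^ 3 * q ^ 3 * z ^ 4 - 11803968 * c ^ 2 * p ^ 3 * q ^ 3 * z ^ 6
      + 8852976 * c ^ 2 * p ^ 3 * q ^ 3 * z ^ 7 + 8852976 * c ^ 2 * p ^ 3 * q ^ 3 * z ^ 8
      - 11803968 * c ^ 2 * p ^ 3 * q ^ 3 * z ^ 9 + 4426488 * c ^ 2 * p ^ 3 * q ^ 3 * z ^ 11
      - 1475496 * c ^ 2 * p ^ 3 * q ^ 3 * z ^ 12 - 419904 * c ^ 2 * p ^ 4 * q ^ 2 * z ^ 3
      + 1259712 * c ^ 2 * p ^ 4 * q ^ 2 * z ^ 4 - 3359232 * c ^ 2 * p ^ 4 * q ^ 2 * z ^ 6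
      + 2519424 * c ^ 2 * p ^ 4 * q ^ 2 * z ^ 7 + 2519424 * c ^ 2 * p ^ 4 * q ^ 2 * z ^ 8
      - 3359232 * c ^ 2 * p ^ 4 * q ^ 2 * z ^ 9 + 1259712 * c ^ 2 * p ^ 4 * q ^ 2 * z ^ 11
      - 419904 * c ^ 2 * p ^ 4 * q ^ 2 * z ^ 12 + 962280 * c ^ 2 * p ^ 5 * q * z ^ 3
      + 256608 * c ^ 2 * p ^ 5 * q * z ^ 4 + 449064 * c ^ 2 * p ^ 5 * q * z ^ 5
      + 256608 * c ^ 2 * p ^ 5 * q * z ^ 6 + 641520 * c ^ 2 * p ^ 5 * q * z ^ 7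
      - 320760 * c ^ 2 * p ^ 5 * q * z ^ 8 + 43740 * c ^ 2 * p ^ 6 * z ^ 3
      + 17496 * c ^ 2 * p ^ 6 * z ^ 4 + 23328 * c ^ 2 * p ^ 6 * z ^ 5
      + 17496 * c ^ 2 * p ^ 6 * z ^ 6 + 29160 * c ^ 2 * p ^ 6 * z ^ 7
      - 14580 * c ^ 2 * p ^ 6 * z ^ 8 + 43740 * c ^ 2 * q ^ 6 * z ^ 3
      + 40824 * c ^ 2 * q ^ 6 * z ^ 4 + 34992 * c ^ 2 * q ^ 6 * z ^ 5
      + 40824 * c ^ 2 * q ^ 6 * z ^ 6 + 29160 * c ^ 2 * q ^ 6 * z ^ 7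
      - 14580 * c ^ 2 * q ^ 6 * z ^ 8 + 64152 * p * q ^ 5 - 349920 * p ^ 2 * q ^ 4
      - 349920 * p ^ 4 * q ^ 2 - 64152 * p ^ 5 * q - 2916 * p ^ 6 - 2916 * q ^ 6) * hc

/-- Duplication, `x`-coordinate: `x(2P(w)) = X(S w)`. -/
theorem kJ2 (hz : z ^ 4 + z ^ 3 + z ^ 2 + z + 1 = 0) (c : K) (hc : 5 * c = 1) (p q : K) :
    xC z c q (-p) * (4 * (108 * c * yC z p q) ^ 2)
      = (3 * xC z c p q ^ 2 + 27 * hC p q) ^ 2 - 8 * xC z c p q * (108 * c * yC z p q) ^ 2 := by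
  unfold xC yC hC rt5
  linear_combination (78522048 * c * p * q ^ 7 - 350724816 * c * p ^ 2 * q ^ 6 - 567080352 * c * p ^ 3 * q ^ 5
      + 942474528 * c * p ^ 5 * q ^ 3 - 126915984 * c * p ^ 6 * q ^ 2 - 47449152 * c * p ^ 7 * q
      - 2519424 * c * p ^ 8 - 3779136 * c * q ^ 8 - 2728641168 * c ^ 2 * p ^ 4 * q ^ 4 * z
      - 1188958176 * c ^ 2 * p ^ 4 * q ^ 4 * z ^ 2 - 4906788192 * c ^ 2 * p ^ 4 * q ^ 4 * z ^ 3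
      + 15802877088 * c ^ 2 * p ^ 4 * q ^ 4 * z ^ 5 - 4986569952 * c ^ 2 * p ^ 4 * q ^ 4 * z ^ 7
      - 4986569952 * c ^ 2 * p ^ 4 * q ^ 4 * z ^ 9 + 2493284976 * c ^ 2 * p ^ 4 * q ^ 4 * z ^ 11
      + 3090283488 * c ^ 3 * p * q ^ 7 * z + 1355870016 * c ^ 3 * p * q ^ 7 * z ^ 2
      - 1479951648 * c ^ 3 * p * q ^ 7 * z ^ 3 + 696200832 * c ^ 3 * p * q ^ 7 * z ^ 5
      - 332563968 * c ^ 3 * p * q ^ 7 * z ^ 7 + 83140992 * c ^ 3 * p * q ^ 7 * z ^ 9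
      - 41570496 * c ^ 3 * p * q ^ 7 * z ^ 11 - 20959403184 * c ^ 3 * p ^ 2 * q ^ 6 * z
      - 12708709488 * c ^ 3 * p ^ 2 * q ^ 6 * z ^ 2 + 11076962544 * c ^ 3 * p ^ 2 * q ^ 6 * z ^ 3
      - 6302339136 * c ^ 3 * p ^ 2 * q ^ 6 * z ^ 5 + 3183292224 * c ^ 3 * p ^ 2 * q ^ 6 * z ^ 7
      - 1364268096 * c ^ 3 * p ^ 2 * q ^ 6 * z ^ 9 + 682134048 * c ^ 3 * p ^ 2 * q ^ 6 * z ^ 11
      + 30140079264 * c ^ 3 * p ^ 3 * q ^ 5 * z + 38882900448 * c ^ 3 * p ^ 3 * q ^ 5 * z ^ 2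
      - 18502439904 * c ^ 3 * p ^ 3 * q ^ 5 * z ^ 3 + 8063836416 * c ^ 3 * p ^ 3 * q ^ 5 * z ^ 5
      - 6540424704 * c ^ 3 * p ^ 3 * q ^ 5 * z ^ 7 + 9810637056 * c ^ 3 * p ^ 3 * q ^ 5 * z ^ 9
      - 4905318528 * c ^ 3 * p ^ 3 * q ^ 5 * z ^ 11 + 15420869424 * c ^ 3 * p ^ 4 * q ^ 4 * z ^ 4
      - 86084624016 * c ^ 3 * p ^ 4 * q ^ 4 * z ^ 6 + 72305264304 * c ^ 3 * p ^ 4 * q ^ 4 * z ^ 8
      - 14959709856 * c ^ 3 * p ^ 4 * q ^ 4 * z ^ 10 - 2493284976 * c ^ 3 * p ^ 4 * q ^ 4 * z ^ 12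
      - 17740314144 * c ^ 3 * p ^ 5 * q ^ 3 * z + 16233698592 * c ^ 3 * p ^ 5 * q ^ 3 * z ^ 2
      + 15777262944 * c ^ 3 * p ^ 5 * q ^ 3 * z ^ 3 + 35538994944 * c ^ 3 * p ^ 5 * q ^ 3 * z ^ 5
      - 26161698816 * c ^ 3 * p ^ 5 * q ^ 3 * z ^ 7 - 9810637056 * c ^ 3 * p ^ 5 * q ^ 3 * z ^ 9
      + 4905318528 * c ^ 3 * p ^ 5 * q ^ 3 * z ^ 11 + 6370048656 * c ^ 3 * p ^ 6 * q ^ 2 * z
      - 9320084208 * c ^ 3 * p ^ 6 * q ^ 2 * z ^ 2 + 10319035824 * c ^ 3 * p ^ 6 * q ^ 2 * z ^ 3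
      + 5824488384 * c ^ 3 * p ^ 6 * q ^ 2 * z ^ 5 - 5911828416 * c ^ 3 * p ^ 6 * q ^ 2 * z ^ 7
      - 1364268096 * c ^ 3 * p ^ 6 * q ^ 2 * z ^ 9 + 682134048 * c ^ 3 * p ^ 6 * q ^ 2 * z ^ 11
      + 1530760032 * c ^ 3 * p ^ 7 * q * z - 2107498176 * c ^ 3 * p ^ 7 * q * z ^ 2
      + 1410667488 * c ^ 3 * p ^ 7 * q * z ^ 3 + 412345728 * c ^ 3 * p ^ 7 * q * z ^ 5
      - 498845952 * c ^ 3 * p ^ 7 * q * z ^ 7 - 83140992 * c ^ 3 * p ^ 7 * q * z ^ 9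
      + 41570496 * c ^ 3 * p ^ 7 * q * z ^ 11 + 74323008 * c ^ 3 * p ^ 8 * z
      - 101721744 * c ^ 3 * p ^ 8 * z ^ 2 + 56372112 * c ^ 3 * p ^ 8 * z ^ 3
      + 10707552 * c ^ 3 * p ^ 8 * z ^ 5 - 14486688 * c ^ 3 * p ^ 8 * z ^ 7
      - 1889568 * c ^ 3 * p ^ 8 * z ^ 9 + 944784 * c ^ 3 * p ^ 8 * z ^ 11
      - 129330432 * c ^ 3 * q ^ 8 * z - 47134224 * c ^ 3 * q ^ 8 * z ^ 2
      + 58471632 * c ^ 3 * q ^ 8 * z ^ 3 - 22884768 * c ^ 3 * q ^ 8 * z ^ 5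
      + 10707552 * c ^ 3 * q ^ 8 * z ^ 7 - 1889568 * c ^ 3 * q ^ 8 * z ^ 9
      + 944784 * c ^ 3 * q ^ 8 * z ^ 11 - 4146971904 * c ^ 4 * p * q ^ 7 * z ^ 4
      + 3011341536 * c ^ 4 * p * q ^ 7 * z ^ 6 - 685913184 * c ^ 4 * p * q ^ 7 * z ^ 8
      + 249422976 * c ^ 4 * p * q ^ 7 * z ^ 10 + 41570496 * c ^ 4 * p * q ^ 7 * z ^ 12
      + 54936775152 * c ^ 4 * p ^ 2 * q ^ 6 * z ^ 4 - 40580362368 * c ^ 4 * p ^ 2 * q ^ 6 * z ^ 6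
      + 14097436992 * c ^ 4 * p ^ 2 * q ^ 6 * z ^ 8 - 4092804288 * c ^ 4 * p ^ 2 * q ^ 6 * z ^ 10
      - 682134048 * c ^ 4 * p ^ 2 * q ^ 6 * z ^ 12 - 243095232672 * c ^ 4 * p ^ 3 * q ^ 5 * z ^ 4
      + 229010182848 * c ^ 4 * p ^ 3 * q ^ 5 * z ^ 6
      - 121815410112 * c ^ 4 * p ^ 3 * q ^ 5 * z ^ 8
      + 29431911168 * c ^ 4 * p ^ 3 * q ^ 5 * z ^ 10 + 4905318528 * c ^ 4 * p ^ 3 * q ^ 5 * z ^ 12
      - 165681311328 * c ^ 4 * p ^ 5 * q ^ 3 * z ^ 4 - 51873680448 * c ^ 4 * p ^ 5 * q ^ 3 * z ^ 6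
      + 162693064512 * c ^ 4 * p ^ 5 * q ^ 3 * z ^ 8
      - 29431911168 * c ^ 4 * p ^ 5 * q ^ 3 * z ^ 10 - 4905318528 * c ^ 4 * p ^ 5 * q ^ 3 * z ^ 12
      - 58752232848 * c ^ 4 * p ^ 6 * q ^ 2 * z ^ 4 + 8684874432 * c ^ 4 * p ^ 6 * q ^ 2 * z ^ 6
      + 25466337792 * c ^ 4 * p ^ 6 * q ^ 2 * z ^ 8 - 4092804288 * c ^ 4 * p ^ 6 * q ^ 2 * z ^ 10
      - 682134048 * c ^ 4 * p ^ 6 * q ^ 2 * z ^ 12 - 6245652096 * c ^ 4 * p ^ 7 * q * z ^ 4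
      + 1492128864 * c ^ 4 * p ^ 7 * q * z ^ 6 + 1725175584 * c ^ 4 * p ^ 7 * q * z ^ 8
      - 249422976 * c ^ 4 * p ^ 7 * q * z ^ 10 - 41570496 * c ^ 4 * p ^ 7 * q * z ^ 12
      - 213521184 * c ^ 4 * p ^ 8 * z ^ 4 + 55742256 * c ^ 4 * p ^ 8 * z ^ 6
      + 43145136 * c ^ 4 * p ^ 8 * z ^ 8 - 5668704 * c ^ 4 * p ^ 8 * z ^ 10
      - 944784 * c ^ 4 * p ^ 8 * z ^ 12 + 101406816 * c ^ 4 * q ^ 8 * z ^ 4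
      - 80726544 * c ^ 4 * q ^ 8 * z ^ 6 + 11652336 * c ^ 4 * q ^ 8 * z ^ 8
      - 5668704 * c ^ 4 * q ^ 8 * z ^ 10 - 944784 * c ^ 4 * q ^ 8 * z ^ 12
      - 119147760 * p ^ 4 * q ^ 4) * hz
    + (38631168 * c * p * q ^ 7 + 35481888 * c * p * q ^ 7 * z + 121562208 * c * p * q ^ 7 * z ^ 2
      + 121562208 * c * p * q ^ 7 * z ^ 3 + 35481888 * c * p * q ^ 7 * z ^ 4
      - 238925376 * c * p ^ 2 * q ^ 6 - 170166096 * c * p ^ 2 * q ^ 6 * z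
      - 531283536 * c * p ^ 2 * q ^ 6 * z ^ 2 - 531283536 * c * p ^ 2 * q ^ 6 * z ^ 3
      - 170166096 * c * p ^ 2 * q ^ 6 * z ^ 4 + 210791808 * c * p ^ 3 * q ^ 5
      - 142977312 * c * p ^ 3 * q ^ 5 * z - 991183392 * c * p ^ 3 * q ^ 5 * z ^ 2
      - 991183392 * c * p ^ 3 * q ^ 5 * z ^ 3 - 142977312 * c * p ^ 3 * q ^ 5 * z ^ 4
      - 251942400 * c * p ^ 4 * q ^ 4 - 595738800 * c * p ^ 4 * q ^ 4 * z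
      - 595738800 * c * p ^ 4 * q ^ 4 * z ^ 2 - 595738800 * c * p ^ 4 * q ^ 4 * z ^ 3
      - 595738800 * c * p ^ 4 * q ^ 4 * z ^ 4 + 164602368 * c * p ^ 5 * q ^ 3
      + 1366577568 * c * p ^ 5 * q ^ 3 * z + 518371488 * c * p ^ 5 * q ^ 3 * z ^ 2
      + 518371488 * c * p ^ 5 * q ^ 3 * z ^ 3 + 1366577568 * c * p ^ 5 * q ^ 3 * z ^ 4
      - 15116544 * c * p ^ 6 * q ^ 2 - 307474704 * c * p ^ 6 * q ^ 2 * z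
      + 53642736 * c * p ^ 6 * q ^ 2 * z ^ 2 + 53642736 * c * p ^ 6 * q ^ 2 * z ^ 3
      - 307474704 * c * p ^ 6 * q ^ 2 * z ^ 4 - 7558272 * c * p ^ 7 * q
      - 90489312 * c * p ^ 7 * q * z - 4408992 * c * p ^ 7 * q * z ^ 2
      - 4408992 * c * p ^ 7 * q * z ^ 3 - 90489312 * c * p ^ 7 * q * z ^ 4 - 419904 * c * p ^ 8
      - 4618944 * c * p ^ 8 * z - 419904 * c * p ^ 8 * z ^ 2 - 419904 * c * p ^ 8 * z ^ 3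
      - 4618944 * c * p ^ 8 * z ^ 4 - 1679616 * c * q ^ 8 - 1679616 * c * q ^ 8 * z
      - 5878656 * c * q ^ 8 * z ^ 2 - 5878656 * c * q ^ 8 * z ^ 3 - 1679616 * c * q ^ 8 * z ^ 4
      - 595213920 * c ^ 2 * p * q ^ 7 * z - 820702368 * c ^ 2 * p * q ^ 7 * z ^ 2
      - 528449184 * c ^ 2 * p * q ^ 7 * z ^ 3 - 556582752 * c ^ 2 * p * q ^ 7 * z ^ 4
      - 700399872 * c ^ 2 * p * q ^ 7 * z ^ 5 + 38631168 * c ^ 2 * p * q ^ 7 * z ^ 6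
      + 194835456 * c ^ 2 * p * q ^ 7 * z ^ 7 - 97417728 * c ^ 2 * p * q ^ 7 * z ^ 8
      + 3927677040 * c ^ 2 * p ^ 2 * q ^ 6 * z + 5941011744 * c ^ 2 * p ^ 2 * q ^ 6 * z ^ 2
      + 3818711952 * c ^ 2 * p ^ 2 * q ^ 6 * z ^ 3 + 3768218496 * c ^ 2 * p ^ 2 * q ^ 6 * z ^ 4
      + 5067821376 * c ^ 2 * p ^ 2 * q ^ 6 * z ^ 5 - 159458544 * c ^ 2 * p ^ 2 * q ^ 6 * z ^ 6
      - 1414866528 * c ^ 2 * p ^ 2 * q ^ 6 * z ^ 7 + 707433264 * c ^ 2 * p ^ 2 * q ^ 6 * z ^ 8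
      - 4930722720 * c ^ 2 * p ^ 3 * q ^ 5 * z - 10512716544 * c ^ 2 * p ^ 3 * q ^ 5 * z ^ 2
      - 7724344032 * c ^ 2 * p ^ 3 * q ^ 5 * z ^ 3 - 5928624576 * c ^ 2 * p ^ 3 * q ^ 5 * z ^ 4
      - 7471771776 * c ^ 2 * p ^ 3 * q ^ 5 * z ^ 5 - 997901856 * c ^ 2 * p ^ 3 * q ^ 5 * z ^ 6
      + 1858915008 * c ^ 2 * p ^ 3 * q ^ 5 * z ^ 7 - 929457504 * c ^ 2 * p ^ 3 * q ^ 5 * z ^ 8
      - 668487168 * c ^ 2 * p ^ 4 * q ^ 4 * z - 2005461504 * c ^ 2 * p ^ 4 * q ^ 4 * z ^ 2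
      + 1090070784 * c ^ 2 * p ^ 4 * q ^ 4 * z ^ 3 - 1577369376 * c ^ 2 * p ^ 4 * q ^ 4 * z ^ 4
      - 3691271088 * c ^ 2 * p ^ 4 * q ^ 4 * z ^ 5 + 14893994880 * c ^ 2 * p ^ 4 * q ^ 4 * z ^ 6
      + 11244399264 * c ^ 2 * p ^ 4 * q ^ 4 * z ^ 7 + 8148866976 * c ^ 2 * p ^ 4 * q ^ 4 * z ^ 8
      + 5829737184 * c ^ 2 * p ^ 4 * q ^ 4 * z ^ 9 - 9973139904 * c ^ 2 * p ^ 4 * q ^ 4 * z ^ 10
      - 7479854928 * c ^ 2 * p ^ 4 * q ^ 4 * z ^ 11 - 2493284976 * c ^ 2 * p ^ 4 * q ^ 4 * z ^ 12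
      - 2493284976 * c ^ 2 * p ^ 4 * q ^ 4 * z ^ 13 + 2493284976 * c ^ 2 * p ^ 4 * q ^ 4 * z ^ 14
      + 2493284976 * c ^ 2 * p ^ 4 * q ^ 4 * z ^ 15 + 3540840480 * c ^ 2 * p ^ 5 * q ^ 3 * z
      + 279656064 * c ^ 2 * p ^ 5 * q ^ 3 * z ^ 2 - 2508716448 * c ^ 2 * p ^ 5 * q ^ 3 * z ^ 3
      + 1145918016 * c ^ 2 * p ^ 5 * q ^ 3 * z ^ 4 - 36111744 * c ^ 2 * p ^ 5 * q ^ 3 * z ^ 5
      - 2394922464 * c ^ 2 * p ^ 5 * q ^ 3 * z ^ 6 - 1858915008 * c ^ 2 * p ^ 5 * q ^ 3 * z ^ 7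
      + 929457504 * c ^ 2 * p ^ 5 * q ^ 3 * z ^ 8 - 1235042640 * c ^ 2 * p ^ 6 * q ^ 2 * z
      + 706908384 * c ^ 2 * p ^ 6 * q ^ 2 * z ^ 2 - 1415391408 * c ^ 2 * p ^ 6 * q ^ 2 * z ^ 3
      + 49968576 * c ^ 2 * p ^ 6 * q ^ 2 * z ^ 4 + 591644736 * c ^ 2 * p ^ 6 * q ^ 2 * z ^ 5
      + 1285011216 * c ^ 2 * p ^ 6 * q ^ 2 * z ^ 6 - 1414866528 * c ^ 2 * p ^ 6 * q ^ 2 * z ^ 7
      + 707433264 * c ^ 2 * p ^ 6 * q ^ 2 * z ^ 8 - 301281120 * c ^ 2 * p ^ 7 * q * z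
      + 129960288 * c ^ 2 * p ^ 7 * q * z ^ 2 - 162292896 * c ^ 2 * p ^ 7 * q * z ^ 3
      + 4408992 * c ^ 2 * p ^ 7 * q * z ^ 4 + 78941952 * c ^ 2 * p ^ 7 * q * z ^ 5
      + 305690112 * c ^ 2 * p ^ 7 * q * z ^ 6 - 194835456 * c ^ 2 * p ^ 7 * q * z ^ 7
      + 97417728 * c ^ 2 * p ^ 7 * q * z ^ 8 - 14696640 * c ^ 2 * p ^ 8 * z
      + 5983632 * c ^ 2 * p ^ 8 * z ^ 2 - 5668704 * c ^ 2 * p ^ 8 * z ^ 3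
      + 314928 * c ^ 2 * p ^ 8 * z ^ 4 + 2939328 * c ^ 2 * p ^ 8 * z ^ 5
      + 15011568 * c ^ 2 * p ^ 8 * z ^ 6 - 7768224 * c ^ 2 * p ^ 8 * z ^ 7
      + 3884112 * c ^ 2 * p ^ 8 * z ^ 8 + 25194240 * c ^ 2 * q ^ 8 * z
      + 33277392 * c ^ 2 * q ^ 8 * z ^ 2 + 21625056 * c ^ 2 * q ^ 8 * z ^ 3
      + 23409648 * c ^ 2 * q ^ 8 * z ^ 4 + 28133568 * c ^ 2 * q ^ 8 * z ^ 5
      - 1784592 * c ^ 2 * q ^ 8 * z ^ 6 - 7768224 * c ^ 2 * q ^ 8 * z ^ 7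
      + 3884112 * c ^ 2 * q ^ 8 * z ^ 8 + 837708480 * c ^ 3 * p * q ^ 7 * z ^ 4
      + 796137984 * c ^ 3 * p * q ^ 7 * z ^ 5 + 243754272 * c ^ 3 * p * q ^ 7 * z ^ 6
      + 326895264 * c ^ 3 * p * q ^ 7 * z ^ 7 + 222969024 * c ^ 3 * p * q ^ 7 * z ^ 8
      - 531598464 * c ^ 3 * p * q ^ 7 * z ^ 9 - 282175488 * c ^ 3 * p * q ^ 7 * z ^ 10
      + 20785248 * c ^ 3 * p * q ^ 7 * z ^ 11 - 62355744 * c ^ 3 * p * q ^ 7 * z ^ 12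
      + 41570496 * c ^ 3 * p * q ^ 7 * z ^ 13 - 41570496 * c ^ 3 * p * q ^ 7 * z ^ 14
      - 41570496 * c ^ 3 * p * q ^ 7 * z ^ 15 - 11123781840 * c ^ 3 * p ^ 2 * q ^ 6 * z ^ 4
      - 10441647792 * c ^ 3 * p ^ 2 * q ^ 6 * z ^ 5 - 3144136176 * c ^ 3 * p ^ 2 * q ^ 6 * z ^ 6
      - 4508404272 * c ^ 3 * p ^ 2 * q ^ 6 * z ^ 7 - 3371514192 * c ^ 3 * p ^ 2 * q ^ 6 * z ^ 8
      + 6387999552 * c ^ 3 * p ^ 2 * q ^ 6 * z ^ 9 + 2295195264 * c ^ 3 * p ^ 2 * q ^ 6 * z ^ 10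
      - 909512064 * c ^ 3 * p ^ 2 * q ^ 6 * z ^ 11 + 454756032 * c ^ 3 * p ^ 2 * q ^ 6 * z ^ 12
      - 682134048 * c ^ 3 * p ^ 2 * q ^ 6 * z ^ 13 + 682134048 * c ^ 3 * p ^ 2 * q ^ 6 * z ^ 14
      + 682134048 * c ^ 3 * p ^ 2 * q ^ 6 * z ^ 15 + 49600110240 * c ^ 3 * p ^ 3 * q ^ 5 * z ^ 4
      + 44694791712 * c ^ 3 * p ^ 3 * q ^ 5 * z ^ 5 + 4779137376 * c ^ 3 * p ^ 3 * q ^ 5 * z ^ 6
      + 14589774432 * c ^ 3 * p ^ 3 * q ^ 5 * z ^ 7 + 10502008992 * c ^ 3 * p ^ 3 * q ^ 5 * z ^ 8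
      - 29287464192 * c ^ 3 * p ^ 3 * q ^ 5 * z ^ 9 + 144446976 * c ^ 3 * p ^ 3 * q ^ 5 * z ^ 10
      + 10628190144 * c ^ 3 * p ^ 3 * q ^ 5 * z ^ 11 + 817553088 * c ^ 3 * p ^ 3 * q ^ 5 * z ^ 12
      + 4905318528 * c ^ 3 * p ^ 3 * q ^ 5 * z ^ 13 - 4905318528 * c ^ 3 * p ^ 3 * q ^ 5 * z ^ 14
      - 4905318528 * c ^ 3 * p ^ 3 * q ^ 5 * z ^ 15 - 2493284976 * c ^ 3 * p ^ 4 * q ^ 4 * z ^ 4
      + 9973139904 * c ^ 3 * p ^ 4 * q ^ 4 * z ^ 5 - 4986569952 * c ^ 3 * p ^ 4 * q ^ 4 * z ^ 6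
      - 29919419712 * c ^ 3 * p ^ 4 * q ^ 4 * z ^ 7 + 42385844592 * c ^ 3 * p ^ 4 * q ^ 4 * z ^ 8
      + 19946279808 * c ^ 3 * p ^ 4 * q ^ 4 * z ^ 9 - 69811979328 * c ^ 3 * p ^ 4 * q ^ 4 * z ^ 10
      + 19946279808 * c ^ 3 * p ^ 4 * q ^ 4 * z ^ 11
      + 42385844592 * c ^ 3 * p ^ 4 * q ^ 4 * z ^ 12
      - 29919419712 * c ^ 3 * p ^ 4 * q ^ 4 * z ^ 13 - 4986569952 * c ^ 3 * p ^ 4 * q ^ 4 * z ^ 14
      + 9973139904 * c ^ 3 * p ^ 4 * q ^ 4 * z ^ 15 - 2493284976 * c ^ 3 * p ^ 4 * q ^ 4 * z ^ 16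
      + 32155198560 * c ^ 3 * p ^ 5 * q ^ 3 * z ^ 4 + 37060517088 * c ^ 3 * p ^ 5 * q ^ 3 * z ^ 5
      + 41548870944 * c ^ 3 * p ^ 5 * q ^ 3 * z ^ 6 + 31738233888 * c ^ 3 * p ^ 5 * q ^ 3 * z ^ 7
      + 27650468448 * c ^ 3 * p ^ 5 * q ^ 3 * z ^ 8 - 14315367168 * c ^ 3 * p ^ 5 * q ^ 3 * z ^ 9
      - 43747278336 * c ^ 3 * p ^ 5 * q ^ 3 * z ^ 10
      - 18803721024 * c ^ 3 * p ^ 5 * q ^ 3 * z ^ 11 - 8993083968 * c ^ 3 * p ^ 5 * q ^ 3 * z ^ 12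
      - 4905318528 * c ^ 3 * p ^ 5 * q ^ 3 * z ^ 13 + 4905318528 * c ^ 3 * p ^ 5 * q ^ 3 * z ^ 14
      + 4905318528 * c ^ 3 * p ^ 5 * q ^ 3 * z ^ 15 + 11614019760 * c ^ 3 * p ^ 6 * q ^ 2 * z ^ 4
      + 12296153808 * c ^ 3 * p ^ 6 * q ^ 2 * z ^ 5 + 9740618064 * c ^ 3 * p ^ 6 * q ^ 2 * z ^ 6
      + 8376349968 * c ^ 3 * p ^ 6 * q ^ 2 * z ^ 7 + 7239459888 * c ^ 3 * p ^ 6 * q ^ 2 * z ^ 8
      - 5738827968 * c ^ 3 * p ^ 6 * q ^ 2 * z ^ 9 - 9831632256 * c ^ 3 * p ^ 6 * q ^ 2 * z ^ 10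
      - 3183292224 * c ^ 3 * p ^ 6 * q ^ 2 * z ^ 11 - 1819024128 * c ^ 3 * p ^ 6 * q ^ 2 * z ^ 12
      - 682134048 * c ^ 3 * p ^ 6 * q ^ 2 * z ^ 13 + 682134048 * c ^ 3 * p ^ 6 * q ^ 2 * z ^ 14
      + 682134048 * c ^ 3 * p ^ 6 * q ^ 2 * z ^ 15 + 1240816320 * c ^ 3 * p ^ 7 * q * z ^ 4
      + 1282386816 * c ^ 3 * p ^ 7 * q * z ^ 5 + 934076448 * c ^ 3 * p ^ 7 * q * z ^ 6
      + 850935456 * c ^ 3 * p ^ 7 * q * z ^ 7 + 747009216 * c ^ 3 * p ^ 7 * q * z ^ 8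
      - 576948096 * c ^ 3 * p ^ 7 * q * z ^ 9 - 826371072 * c ^ 3 * p ^ 7 * q * z ^ 10
      - 228637728 * c ^ 3 * p ^ 7 * q * z ^ 11 - 145496736 * c ^ 3 * p ^ 7 * q * z ^ 12
      - 41570496 * c ^ 3 * p ^ 7 * q * z ^ 13 + 41570496 * c ^ 3 * p ^ 7 * q * z ^ 14
      + 41570496 * c ^ 3 * p ^ 7 * q * z ^ 15 + 42515280 * c ^ 3 * p ^ 8 * z ^ 4
      + 43460064 * c ^ 3 * p ^ 8 * z ^ 5 + 31177872 * c ^ 3 * p ^ 8 * z ^ 6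
      + 29288304 * c ^ 3 * p ^ 8 * z ^ 7 + 26139024 * c ^ 3 * p ^ 8 * z ^ 8
      - 18265824 * c ^ 3 * p ^ 8 * z ^ 9 - 23934528 * c ^ 3 * p ^ 8 * z ^ 10
      - 5983632 * c ^ 3 * p ^ 8 * z ^ 11 - 4094064 * c ^ 3 * p ^ 8 * z ^ 12
      - 944784 * c ^ 3 * p ^ 8 * z ^ 13 + 944784 * c ^ 3 * p ^ 8 * z ^ 14
      + 944784 * c ^ 3 * p ^ 8 * z ^ 15 - 20470320 * c ^ 3 * q ^ 8 * z ^ 4
      - 19525536 * c ^ 3 * q ^ 8 * z ^ 5 - 4513968 * c ^ 3 * q ^ 8 * z ^ 6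
      - 6403536 * c ^ 3 * q ^ 8 * z ^ 7 - 3254256 * c ^ 3 * q ^ 8 * z ^ 8
      + 15326496 * c ^ 3 * q ^ 8 * z ^ 9 + 9657792 * c ^ 3 * q ^ 8 * z ^ 10
      + 314928 * c ^ 3 * q ^ 8 * z ^ 11 + 2204496 * c ^ 3 * q ^ 8 * z ^ 12
      - 944784 * c ^ 3 * q ^ 8 * z ^ 13 + 944784 * c ^ 3 * q ^ 8 * z ^ 14
      + 944784 * c ^ 3 * q ^ 8 * z ^ 15 - 7978176 * p * q ^ 7 + 22359888 * p ^ 2 * q ^ 6
      + 155574432 * p ^ 3 * q ^ 5 - 50388480 * p ^ 4 * q ^ 4 - 119147760 * p ^ 4 * q ^ 4 * z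
      - 119147760 * p ^ 4 * q ^ 4 * z ^ 2 - 119147760 * p ^ 4 * q ^ 4 * z ^ 3
      - 119147760 * p ^ 4 * q ^ 4 * z ^ 4 - 155574432 * p ^ 5 * q ^ 3 + 22359888 * p ^ 6 * q ^ 2
      + 7978176 * p ^ 7 * q + 419904 * p ^ 8 + 419904 * q ^ 8) * hc

/-- Duplication, tangent form: the tangent at `P(w)` passes through `P(S w)`. -/
theorem kJ3 (hz : z ^ 4 + z ^ 3 + z ^ 2 + z + 1 = 0) (c : K) (hc : 5 * c = 1) (p q : K) :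
    (108 * c * yC z q (-p) - 108 * c * yC z p q) * (2 * (108 * c * yC z p q))
      = (3 * xC z c p q ^ 2 + 27 * hC p q) * (xC z c q (-p) - xC z c p q) := by
  unfold xC yC hC rt5
  linear_combination (-1842912 * c * p ^ 2 * q ^ 4 - 7511616 * c * p ^ 2 * q ^ 4 * z
      - 5178816 * c * p ^ 2 * q ^ 4 * z ^ 2 + 3989088 * c * p ^ 3 * q ^ 3
      + 6776784 * c * p ^ 3 * q ^ 3 * z + 18032544 * c * p ^ 3 * q ^ 3 * z ^ 2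
      - 956448 * c * p ^ 4 * q ^ 2 - 886464 * c * p ^ 4 * q ^ 2 * z
      - 3219264 * c * p ^ 4 * q ^ 2 * z ^ 2 + 1189728 * c ^ 2 * p * q ^ 5
      + 5960304 * c ^ 2 * p * q ^ 5 * z + 2519424 * c ^ 2 * p * q ^ 5 * z ^ 2
      + 18475776 * c ^ 2 * p ^ 2 * q ^ 4 * z ^ 3 + 28273536 * c ^ 2 * p ^ 2 * q ^ 4 * z ^ 4
      - 20155392 * c ^ 2 * p ^ 2 * q ^ 4 * z ^ 5 - 7558272 * c ^ 2 * p ^ 2 * q ^ 4 * z ^ 6
      + 10077696 * c ^ 2 * p ^ 2 * q ^ 4 * z ^ 7 - 2519424 * c ^ 2 * p ^ 2 * q ^ 4 * z ^ 8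
      + 8852976 * c ^ 2 * p ^ 3 * q ^ 3 * z ^ 3 - 123941664 * c ^ 2 * p ^ 3 * q ^ 3 * z ^ 4
      + 70823808 * c ^ 2 * p ^ 3 * q ^ 3 * z ^ 5 + 26558928 * c ^ 2 * p ^ 3 * q ^ 3 * z ^ 6
      - 35411904 * c ^ 2 * p ^ 3 * q ^ 3 * z ^ 7 + 8852976 * c ^ 2 * p ^ 3 * q ^ 3 * z ^ 8
      + 23514624 * c ^ 2 * p ^ 4 * q ^ 2 * z ^ 3 - 42270336 * c ^ 2 * p ^ 4 * q ^ 2 * z ^ 4
      + 20155392 * c ^ 2 * p ^ 4 * q ^ 2 * z ^ 5 + 7558272 * c ^ 2 * p ^ 4 * q ^ 2 * z ^ 6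
      - 10077696 * c ^ 2 * p ^ 4 * q ^ 2 * z ^ 7 + 2519424 * c ^ 2 * p ^ 4 * q ^ 2 * z ^ 8
      - 1376352 * c ^ 2 * p ^ 5 * q - 1737936 * c ^ 2 * p ^ 5 * q * z
      - 5178816 * c ^ 2 * p ^ 5 * q * z ^ 2 - 69984 * c ^ 2 * p ^ 6 - 93312 * c ^ 2 * p ^ 6 * z
      - 268272 * c ^ 2 * p ^ 6 * z ^ 2 - 46656 * c ^ 2 * q ^ 6 - 256608 * c ^ 2 * q ^ 6 * z
      - 81648 * c ^ 2 * q ^ 6 * z ^ 2 - 18090864 * c ^ 3 * p * q ^ 5 * z ^ 3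
      - 9751104 * c ^ 3 * p * q ^ 5 * z ^ 4 + 9237888 * c ^ 3 * p * q ^ 5 * z ^ 5
      + 3464208 * c ^ 3 * p * q ^ 5 * z ^ 6 - 4618944 * c ^ 3 * p * q ^ 5 * z ^ 7
      + 1154736 * c ^ 3 * p * q ^ 5 * z ^ 8 + 20400336 * c ^ 3 * p ^ 5 * q * z ^ 3
      - 22581504 * c ^ 3 * p ^ 5 * q * z ^ 4 + 9237888 * c ^ 3 * p ^ 5 * q * z ^ 5
      + 3464208 * c ^ 3 * p ^ 5 * q * z ^ 6 - 4618944 * c ^ 3 * p ^ 5 * q * z ^ 7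
      + 1154736 * c ^ 3 * p ^ 5 * q * z ^ 8 + 909792 * c ^ 3 * p ^ 6 * z ^ 3
      - 781488 * c ^ 3 * p ^ 6 * z ^ 4 + 279936 * c ^ 3 * p ^ 6 * z ^ 5
      + 104976 * c ^ 3 * p ^ 6 * z ^ 6 - 139968 * c ^ 3 * p ^ 6 * z ^ 7
      + 34992 * c ^ 3 * p ^ 6 * z ^ 8 + 839808 * c ^ 3 * q ^ 6 * z ^ 3
      + 198288 * c ^ 3 * q ^ 6 * z ^ 4 - 279936 * c ^ 3 * q ^ 6 * z ^ 5
      - 104976 * c ^ 3 * q ^ 6 * z ^ 6 + 139968 * c ^ 3 * q ^ 6 * z ^ 7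
      - 34992 * c ^ 3 * q ^ 6 * z ^ 8) * hz
    + (-478224 * c * p * q ^ 5 * z + 478224 * c * p * q ^ 5 * z ^ 2
      + 478224 * c * p * q ^ 5 * z ^ 3 - 478224 * c * p * q ^ 5 * z ^ 4
      - 1842912 * c * p ^ 2 * q ^ 4 - 7371648 * c * p ^ 2 * q ^ 4 * z
      - 16516224 * c * p ^ 2 * q ^ 4 * z ^ 2 - 16516224 * c * p ^ 2 * q ^ 4 * z ^ 3
      - 12550464 * c * p ^ 2 * q ^ 4 * z ^ 4 - 12690432 * c * p ^ 2 * q ^ 4 * z ^ 5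
      - 5178816 * c * p ^ 2 * q ^ 4 * z ^ 6 + 3989088 * c * p ^ 3 * q ^ 3
      + 15956352 * c * p ^ 3 * q ^ 3 * z + 23607936 * c * p ^ 3 * q ^ 3 * z ^ 2
      + 23607936 * c * p ^ 3 * q ^ 3 * z ^ 3 + 33988896 * c * p ^ 3 * q ^ 3 * z ^ 4
      + 24809328 * c * p ^ 3 * q ^ 3 * z ^ 5 + 18032544 * c * p ^ 3 * q ^ 3 * z ^ 6
      - 956448 * c * p ^ 4 * q ^ 2 - 3825792 * c * p ^ 4 * q ^ 2 * z
      - 3079296 * c * p ^ 4 * q ^ 2 * z ^ 2 - 3079296 * c * p ^ 4 * q ^ 2 * z ^ 3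
      - 7045056 * c * p ^ 4 * q ^ 2 * z ^ 4 - 4105728 * c * p ^ 4 * q ^ 2 * z ^ 5
      - 3219264 * c * p ^ 4 * q ^ 2 * z ^ 6 - 478224 * c * p ^ 5 * q * z
      + 478224 * c * p ^ 5 * q * z ^ 2 + 478224 * c * p ^ 5 * q * z ^ 3
      - 478224 * c * p ^ 5 * q * z ^ 4 - 23328 * c * p ^ 6 * z + 23328 * c * p ^ 6 * z ^ 2
      + 23328 * c * p ^ 6 * z ^ 3 - 23328 * c * p ^ 6 * z ^ 4 + 23328 * c * q ^ 6 * z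
      - 23328 * c * q ^ 6 * z ^ 2 - 23328 * c * q ^ 6 * z ^ 3 + 23328 * c * q ^ 6 * z ^ 4
      + 3849120 * c ^ 2 * p * q ^ 5 * z ^ 3 + 4875552 * c ^ 2 * p * q ^ 5 * z ^ 4
      + 3720816 * c ^ 2 * p * q ^ 5 * z ^ 5 + 4875552 * c ^ 2 * p * q ^ 5 * z ^ 6
      + 2566080 * c ^ 2 * p * q ^ 5 * z ^ 7 - 1283040 * c ^ 2 * p * q ^ 5 * z ^ 8
      - 2519424 * c ^ 2 * p ^ 2 * q ^ 4 * z ^ 3 + 7558272 * c ^ 2 * p ^ 2 * q ^ 4 * z ^ 4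
      - 20155392 * c ^ 2 * p ^ 2 * q ^ 4 * z ^ 6 + 15116544 * c ^ 2 * p ^ 2 * q ^ 4 * z ^ 7
      + 15116544 * c ^ 2 * p ^ 2 * q ^ 4 * z ^ 8 - 20155392 * c ^ 2 * p ^ 2 * q ^ 4 * z ^ 9
      + 7558272 * c ^ 2 * p ^ 2 * q ^ 4 * z ^ 11 - 2519424 * c ^ 2 * p ^ 2 * q ^ 4 * z ^ 12
      + 8852976 * c ^ 2 * p ^ 3 * q ^ 3 * z ^ 3 - 26558928 * c ^ 2 * p ^ 3 * q ^ 3 * z ^ 4
      + 70823808 * c ^ 2 * p ^ 3 * q ^ 3 * z ^ 6 - 53117856 * c ^ 2 * p ^ 3 * q ^ 3 * z ^ 7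
      - 53117856 * c ^ 2 * p ^ 3 * q ^ 3 * z ^ 8 + 70823808 * c ^ 2 * p ^ 3 * q ^ 3 * z ^ 9
      - 26558928 * c ^ 2 * p ^ 3 * q ^ 3 * z ^ 11 + 8852976 * c ^ 2 * p ^ 3 * q ^ 3 * z ^ 12
      + 2519424 * c ^ 2 * p ^ 4 * q ^ 2 * z ^ 3 - 7558272 * c ^ 2 * p ^ 4 * q ^ 2 * z ^ 4
      + 20155392 * c ^ 2 * p ^ 4 * q ^ 2 * z ^ 6 - 15116544 * c ^ 2 * p ^ 4 * q ^ 2 * z ^ 7
      - 15116544 * c ^ 2 * p ^ 4 * q ^ 2 * z ^ 8 + 20155392 * c ^ 2 * p ^ 4 * q ^ 2 * z ^ 9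
      - 7558272 * c ^ 2 * p ^ 4 * q ^ 2 * z ^ 11 + 2519424 * c ^ 2 * p ^ 4 * q ^ 2 * z ^ 12
      - 3849120 * c ^ 2 * p ^ 5 * q * z ^ 3 - 256608 * c ^ 2 * p ^ 5 * q * z ^ 4
      - 1411344 * c ^ 2 * p ^ 5 * q * z ^ 5 - 256608 * c ^ 2 * p ^ 5 * q * z ^ 6
      - 2566080 * c ^ 2 * p ^ 5 * q * z ^ 7 + 1283040 * c ^ 2 * p ^ 5 * q * z ^ 8
      - 174960 * c ^ 2 * p ^ 6 * z ^ 3 - 46656 * c ^ 2 * p ^ 6 * z ^ 4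
      - 81648 * c ^ 2 * p ^ 6 * z ^ 5 - 46656 * c ^ 2 * p ^ 6 * z ^ 6
      - 116640 * c ^ 2 * p ^ 6 * z ^ 7 + 58320 * c ^ 2 * p ^ 6 * z ^ 8
      - 174960 * c ^ 2 * q ^ 6 * z ^ 3 - 186624 * c ^ 2 * q ^ 6 * z ^ 4
      - 151632 * c ^ 2 * q ^ 6 * z ^ 5 - 186624 * c ^ 2 * q ^ 6 * z ^ 6
      - 116640 * c ^ 2 * q ^ 6 * z ^ 7 + 58320 * c ^ 2 * q ^ 6 * z ^ 8) * hc

end Identities

section Bridge

variable {z : K}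

theorem kX_eq_xC (u v : K) : kX z u v = xC z 5⁻¹ (u ^ 5) (v ^ 5) := by
  unfold kX xC; ring

theorem kX_swap_eq_xC (u v : K) : kX z v (-u) = xC z 5⁻¹ (v ^ 5) (-u ^ 5) := by
  unfold kX xC; ring

theorem kY_eq_yC (u v : K) : kY z u v = 108 * 5⁻¹ * yC z (u ^ 5) (v ^ 5) := by
  unfold kY yC; ring

theorem kY_swap_eq_yC (u v : K) : kY z v (-u) = 108 * 5⁻¹ * yC z (v ^ 5) (-u ^ 5) := by
  unfold kY yC; ring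

theorem kH_eq_hC (u v : K) : kH u v = hC (u ^ 5) (v ^ 5) := by
  unfold kH hC; ring

theorem kT_eq_tC (u v : K) : kT u v = tC (u ^ 5) (v ^ 5) := by
  unfold kT tC; ring

theorem hC_swap (p q : K) : hC q (-p) = hC p q := by unfold hC; ring

theorem tC_swap (p q : K) : tC q (-p) = tC p q := by unfold tC; ring

theorem xC_neg (c p q : K) : xC z c (-p) (-q) = xC z c p q := by unfold xC; ring

theorem kF_swap (u v : K) : kF v (-u) = kF u v := by unfold kF; ring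

theorem kH_swap (u v : K) : kH v (-u) = kH u v := by unfold kH; ring

theorem kT_swap (u v : K) : kT v (-u) = kT u v := by unfold kT; ring

/-- `kY` does not vanish where `kF` does not. -/
theorem kY_ne_zero (hz : z ^ 4 + z ^ 3 + z ^ 2 + z + 1 = 0) (h30 : (30 : K) ≠ 0) (u v : K)
    (hf : kF u v ≠ 0) : kY z u v ≠ 0 := by
  have k5 := five_ne_zero_of_thirty h30
  have hu : u ≠ 0 := fun h => hf (by rw [h]; unfold kF; ring)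
  have hv : v ≠ 0 := fun h => hf (by rw [h]; unfold kF; ring)
  intro h
  rw [kY_pq] at h
  have h0 : yC z (u ^ 5) (v ^ 5) = 0 := by
    rcases mul_eq_zero.mp h with h | h
    · exfalso
      have k2 := two_ne_zero_of_thirty h30
      have k3 := three_ne_zero_of_thirty h30
      have h108 : (108 : K) = 0 := by
        rcases div_eq_zero_iff.mp h with h | h
        · exact h
        · exact absurd h k5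
      have : (2 : K) * 2 * (3 * 3 * 3) = 0 := by linear_combination h108
      rcases mul_eq_zero.mp this with h | h
      · rcases mul_eq_zero.mp h with h | h <;> exact k2 h
      · rcases mul_eq_zero.mp h with h | h
        · rcases mul_eq_zero.mp h with h | h <;> exact k3 h
        · exact k3 h
    · exact h
  have := yC_mul hz (u ^ 5) (v ^ 5)
  rw [h0, zero_mul] at this
  have h1 := (mul_eq_zero.mp this.symm).resolve_left k5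
  have h2 : (u ^ 5) ^ 2 + 11 * u ^ 5 * v ^ 5 - (v ^ 5) ^ 2 = 0 := (pow_eq_zero_iff two_ne_zero).mp h1
  apply hf
  have : kF u v = u * v * ((u ^ 5) ^ 2 + 11 * u ^ 5 * v ^ 5 - (v ^ 5) ^ 2) := by unfold kF; ring
  rw [this, h2, mul_zero]

end Bridge

section GroupLaw

variable [DecidableEq K]

/-- The short Weierstrass curve `y^2 = x^3 + a x + b`. -/
def sw (a b : K) : Affine K := ⟨0, 0, 0, a, b⟩

omit [DecidableEq K] in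
theorem sw_nonsingular {a b x y : K} (h2 : (2 : K) ≠ 0) (heq : y ^ 2 = x ^ 3 + a * x + b)
    (hy : y ≠ 0) : (sw a b).Nonsingular x y := by
  rw [Affine.nonsingular_iff, Affine.equation_iff]
  simp only [sw]
  refine ⟨by linear_combination heq, Or.inr ?_⟩
  intro h
  apply hy
  have : 2 * y = 0 := by linear_combination h
  exact (mul_eq_zero.mp this).resolve_left h2

/-- Duplication on a short Weierstrass curve from the two tangent identities. -/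
theorem short_dbl {a b x y x' y' : K} (h2 : (2 : K) ≠ 0) (h : (sw a b).Nonsingular x y)
    (h' : (sw a b).Nonsingular x' (-y')) (hy : y ≠ 0)
    (hx : x' * (4 * y ^ 2) = (3 * x ^ 2 + a) ^ 2 - 8 * x * y ^ 2)
    (hyy : (y' - y) * (2 * y) = (3 * x ^ 2 + a) * (x' - x)) :
    Point.some x y h + Point.some x y h = Point.some x' (-y') h' := by
  have hne : y ≠ (sw a b).negY x y := by
    simp only [sw, Affine.negY]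
    intro hh
    apply hy
    have : 2 * y = 0 := by linear_combination hh
    exact (mul_eq_zero.mp this).resolve_left h2
  have h2y : 2 * y ≠ 0 := mul_ne_zero h2 hy
  have hs : (sw a b).slope x x y y = (3 * x ^ 2 + a) / (2 * y) := by
    rw [Affine.slope_of_Y_ne rfl hne]
    simp only [sw, Affine.negY]
    congr 1 <;> ring
  have eX : (sw a b).addX x x ((sw a b).slope x x y y) = x' := by
    rw [hs]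
    simp only [sw, Affine.addX]
    field_simp
    linear_combination (-1 : K) * hx
  have eY : (sw a b).addY x x y ((sw a b).slope x x y y) = -y' := by
    rw [Affine.addY, Affine.negAddY, eX, hs]
    simp only [sw, Affine.negY]
    field_simp
    linear_combination hyy
  rw [Point.add_self_of_Y_ne hne]
  simp only [Point.some.injEq]
  exact ⟨eX, eY⟩

variable {z : K}

omit [DecidableEq K] in
/-- The universal point is a nonsingular point of `y^2 = x^3 + 27 H x + 54 T`. -/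
theorem kPoint_nonsingular (hz : z ^ 4 + z ^ 3 + z ^ 2 + z + 1 = 0) (h30 : (30 : K) ≠ 0)
    (u v : K) (hf : kF u v ≠ 0) :
    (sw (27 * kH u v) (54 * kT u v)).Nonsingular (kX z u v) (kY z u v) := by
  have k2 := two_ne_zero_of_thirty h30
  have k5 := five_ne_zero_of_thirty h30
  have hc : (5 : K) * 5⁻¹ = 1 := mul_inv_cancel₀ k5
  refine sw_nonsingular k2 ?_ (kY_ne_zero hz h30 u v hf)
  rw [kX_eq_xC, kY_eq_yC, kH_eq_hC, kT_eq_tC]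
  linear_combination kJ1 hz 5⁻¹ hc (u ^ 5) (v ^ 5)

/-- **The universal point has order dividing 5.** -/
theorem five_smul_kPoint (hz : z ^ 4 + z ^ 3 + z ^ 2 + z + 1 = 0) (h30 : (30 : K) ≠ 0)
    (u v : K) (hf : kF u v ≠ 0)
    (h : (sw (27 * kH u v) (54 * kT u v)).Nonsingular (kX z u v) (kY z u v)) :
    (5 : ℤ) • (Point.some (kX z u v) (kY z u v) h) = 0 := by
  have k2 := two_ne_zero_of_thirty h30
  have k5 := five_ne_zero_of_thirty h30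
  have hc : (5 : K) * 5⁻¹ = 1 := mul_inv_cancel₀ k5
  have hY : kY z u v ≠ 0 := kY_ne_zero hz h30 u v hf
  have hYS : kY z v (-u) ≠ 0 := kY_ne_zero hz h30 v (-u) (by rw [kF_swap]; exact hf)
  -- the identities at `w` and at `S w`
  have E2 : kY z v (-u) ^ 2 = kX z v (-u) ^ 3 + 27 * kH u v * kX z v (-u) + 54 * kT u v := by
    have := kJ1 hz 5⁻¹ hc (v ^ 5) (-u ^ 5)
    rw [kX_swap_eq_xC, kY_swap_eq_yC, kH_eq_hC, kT_eq_tC]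
    rw [hC_swap, tC_swap] at this
    linear_combination this
  have D1x : kX z v (-u) * (4 * kY z u v ^ 2)
      = (3 * kX z u v ^ 2 + 27 * kH u v) ^ 2 - 8 * kX z u v * kY z u v ^ 2 := by
    have := kJ2 hz 5⁻¹ hc (u ^ 5) (v ^ 5)
    rw [kX_swap_eq_xC, kX_eq_xC, kY_eq_yC, kH_eq_hC]
    linear_combination this
  have D1y : (kY z v (-u) - kY z u v) * (2 * kY z u v)
      = (3 * kX z u v ^ 2 + 27 * kH u v) * (kX z v (-u) - kX z u v) := by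
    have := kJ3 hz 5⁻¹ hc (u ^ 5) (v ^ 5)
    rw [kX_swap_eq_xC, kY_swap_eq_yC, kX_eq_xC, kY_eq_yC, kH_eq_hC]
    linear_combination this
  have D2x : kX z u v * (4 * (-kY z v (-u)) ^ 2)
      = (3 * kX z v (-u) ^ 2 + 27 * kH u v) ^ 2 - 8 * kX z v (-u) * (-kY z v (-u)) ^ 2 := by
    have := kJ2 hz 5⁻¹ hc (v ^ 5) (-u ^ 5)
    rw [xC_neg, hC_swap] at this
    rw [kX_swap_eq_xC, kY_swap_eq_yC, kX_eq_xC, kH_eq_hC]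
    linear_combination this
  have D2y : (kY z u v - -kY z v (-u)) * (2 * -kY z v (-u))
      = (3 * kX z v (-u) ^ 2 + 27 * kH u v) * (kX z u v - kX z v (-u)) := by
    have := kJ3 hz 5⁻¹ hc (v ^ 5) (-u ^ 5)
    rw [xC_neg, hC_swap, yC_neg] at this
    rw [kX_swap_eq_xC, kY_swap_eq_yC, kX_eq_xC, kY_eq_yC, kH_eq_hC]
    linear_combination this
  have h2 : (sw (27 * kH u v) (54 * kT u v)).Nonsingular (kX z v (-u)) (-kY z v (-u)) :=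
    sw_nonsingular k2 (by linear_combination E2) (neg_ne_zero.mpr hYS)
  have h3 : (sw (27 * kH u v) (54 * kT u v)).Nonsingular (kX z u v) (-kY z u v) := by
    have := h
    rw [Affine.nonsingular_iff, Affine.equation_iff] at this
    simp only [sw] at this
    exact sw_nonsingular k2 (by linear_combination this.1) (neg_ne_zero.mpr hY)
  have s1 : Point.some _ _ h + Point.some _ _ h = Point.some _ _ h2 :=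
    short_dbl k2 h h2 hY D1x D1y
  have s2 : Point.some _ _ h2 + Point.some _ _ h2 = Point.some _ _ h3 :=
    short_dbl k2 h2 h3 (neg_ne_zero.mpr hYS) D2x D2y
  have s3 : Point.some _ _ h3 = -Point.some _ _ h := by
    rw [Point.neg_some]
    congr 1
    simp only [sw, Affine.negY]
    ring
  have e5 : (5 : ℤ) • Point.some _ _ h
      = (Point.some _ _ h + Point.some _ _ h) + (Point.some _ _ h + Point.some _ _ h)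
        + Point.some _ _ h := by
    rw [show (5 : ℤ) = 2 + 2 + 1 by norm_num, add_smul, add_smul, two_smul, one_smul]
  rw [e5, s1, s2, s3, neg_add_cancel]

end GroupLaw

end Fermat.Agent.S52.helper8316
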