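/-
S52 helper (helper8316): FIXROOT, transport to the Galois-representation surface.

* `shortModel`, `isVarChange_short` : `y^2 = x^3 - 27 c₄ x - 54 c₆` and its change of variables
  to a general Weierstrass curve over `ℚ`.
* `coords_fixed_of_torsion_fixed` : an automorphism `σ` of `ℚ̄/ℚ` fixing the `n`-torsion of `E`
  pointwise fixes the coordinates of every `n`-torsion point of the short model.
-/
import Mathlib
import Fermat.Prelude.Def_FLTPrelim_GaloisRep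
import Fermat.Agent.S05.helper725_Transfer
import Fermat.Agent.S52.helper8316_FixRoot
import Fermat.Agent.S52.helper8316_FiveTorsion

set_option autoImplicit false

namespace Fermat.Agent.S52.helper8316

open WeierstrassCurve WeierstrassCurve.Affine Fermat.Agent.S05.helper725

/-- The short Weierstrass model `y^2 = x^3 - 27 c₄ x - 54 c₆`. -/
def shortModel {F : Type*} [Field F] (c4 c6 : F) : WeierstrassCurve F :=
  ⟨0, 0, 0, -27 * c4, -54 * c6⟩

/-- The short model of `E` is obtained from `E` by the substitution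
`(X, Y) = (x/36 - b₂/12, y/216 - a₁ x/72 + t)`. -/
theorem isVarChange_short (E : WeierstrassCurve ℚ) :
    IsVarChange (shortModel E.c₄ E.c₆) E (1 / 6) (-E.b₂ / 12) (-E.a₁ / 2)
      (-(E.a₃ + (-E.b₂ / 12) * E.a₁) / 2) where
  hu := by norm_num
  h₁ := by simp only [shortModel]; ring
  h₂ := by simp only [shortModel, WeierstrassCurve.b₂]; ring
  h₃ := by simp only [shortModel, WeierstrassCurve.b₂]; ring
  h₄ := by
    simp only [shortModel, WeierstrassCurve.c₄, WeierstrassCurve.b₂, WeierstrassCurve.b₄]; ring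
  h₆ := by
    simp only [shortModel, WeierstrassCurve.c₆, WeierstrassCurve.b₂, WeierstrassCurve.b₄,
      WeierstrassCurve.b₆]
    ring

section Transport

open WeierstrassCurve.Affine.Point

local notation "Qb" => AlgebraicClosure ℚ

/-- An automorphism fixing the `n`-torsion of `E` pointwise fixes the coordinates of every
`n`-torsion point of the short model of `E`. -/
theorem coords_fixed_of_torsion_fixed (E : WeierstrassCurve ℚ) (n : ℕ) (σ : Qb ≃ₐ[ℚ] Qb)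
    (hσ : ∀ P : Submodule.torsionBy ℤ (E⁄Qb).Point n, σ • P = P)
    {x y : Qb} (h : ((shortModel E.c₄ E.c₆)⁄Qb).Nonsingular x y)
    (hn : (n : ℤ) • (Point.some x y h : ((shortModel E.c₄ E.c₆)⁄Qb).Point) = 0) :
    σ x = x ∧ σ y = y := by
  have hK : IsVarChange ((shortModel E.c₄ E.c₆)⁄Qb) (E⁄Qb) (algebraMap ℚ Qb (1 / 6))
      (algebraMap ℚ Qb (-E.b₂ / 12)) (algebraMap ℚ Qb (-E.a₁ / 2))
      (algebraMap ℚ Qb (-(E.a₃ + (-E.b₂ / 12) * E.a₁) / 2)) :=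
    (isVarChange_short E).map (algebraMap ℚ Qb)
  set P : ((shortModel E.c₄ E.c₆)⁄Qb).Point := Point.some x y h with hP
  have hQ : vcHom hK P ∈ Submodule.torsionBy ℤ (E⁄Qb).Point n := by
    rw [Submodule.mem_torsionBy_iff, ← map_zsmul, hn, _root_.map_zero]
  have h1 := congrArg Subtype.val (hσ ⟨vcHom hK P, hQ⟩)
  have h2 : σ • vcHom hK P = vcHom hK P := h1
  have h3 : vcHom hK (σ • P) = vcHom hK P := by
    rw [← h2]; exact vcHom_smul (S := ℚ) hK σ P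
  have h4 : σ • P = P := vcHom_injective hK h3
  have h5 : Point.map (W' := shortModel E.c₄ E.c₆) σ.toAlgHom (Point.some x y h)
      = Point.some x y h := h4
  rw [Point.map_some] at h5
  simpa using h5

/-- Variant of `coords_fixed_of_torsion_fixed` for a curve propositionally equal to the short
model. -/
theorem coords_fixed_of_torsion_fixed' (E : WeierstrassCurve ℚ) (n : ℕ) (σ : Qb ≃ₐ[ℚ] Qb)
    (hσ : ∀ P : Submodule.torsionBy ℤ (E⁄Qb).Point n, σ • P = P)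
    (C : Affine Qb) (hC : C = (shortModel E.c₄ E.c₆)⁄Qb)
    {x y : Qb} (h : C.Nonsingular x y) (hn : (n : ℤ) • (Point.some x y h : C.Point) = 0) :
    σ x = x ∧ σ y = y := by
  subst hC
  exact coords_fixed_of_torsion_fixed E n σ hσ h hn

/-- The short model of `W ⊗ ℚ` over `ℚ̄` is `y^2 = x^3 + 27 H(w0) x + 54 T(w0)` when
`H(w0) = -c₄`, `T(w0) = -c₆`. -/
theorem sw_eq_shortModel (W : WeierstrassCurve ℤ) (u0 v0 : Qb)
    (hH0 : kH u0 v0 = -((W.c₄ : ℤ) : Qb)) (hT0 : kT u0 v0 = -((W.c₆ : ℤ) : Qb)) :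
    sw (27 * kH u0 v0) (54 * kT u0 v0)
      = (shortModel (W.map (Int.castRingHom ℚ)).c₄ (W.map (Int.castRingHom ℚ)).c₆)⁄Qb := by
  rw [hH0, hT0, WeierstrassCurve.map_c₄, WeierstrassCurve.map_c₆]
  simp only [sw, shortModel, WeierstrassCurve.baseChange, WeierstrassCurve.map]
  ext <;> simp

/-- The universal 5-torsion point at `w` with `H(w) = -c₄`, `T(w) = -c₆`, `f(w) ≠ 0` has
coordinates fixed by every automorphism fixing `W[5]` pointwise. -/
theorem kPoint_fixed (W : WeierstrassCurve ℤ) (z u v : Qb)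
    (hz : z ^ 4 + z ^ 3 + z ^ 2 + z + 1 = 0)
    (hH : kH u v = -((W.c₄ : ℤ) : Qb)) (hT : kT u v = -((W.c₆ : ℤ) : Qb)) (hf : kF u v ≠ 0)
    (σ : Qb ≃ₐ[ℚ] Qb)
    (hσ : ∀ P : Submodule.torsionBy ℤ ((W.map (Int.castRingHom ℚ))⁄Qb).Point (5 : ℕ), σ • P = P) :
    σ (kX z u v) = kX z u v ∧ σ (kY z u v) = kY z u v := by
  have h30 : (30 : Qb) ≠ 0 := by norm_num
  have hns := kPoint_nonsingular hz h30 u v hf
  exact coords_fixed_of_torsion_fixed' (W.map (Int.castRingHom ℚ)) 5 σ hσ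
    (sw (27 * kH u v) (54 * kT u v)) (sw_eq_shortModel W u v hH hT) hns
    (by exact_mod_cast five_smul_kPoint hz h30 u v hf hns)

/-- **FIXROOT, Galois surface, general covariant pencil.** -/
theorem fixroot_pencil (W : WeierstrassCurve ℤ) (z i u0 v0 a1 a2 b1 b2 : Qb)
    (hz : z ^ 4 + z ^ 3 + z ^ 2 + z + 1 = 0) (hi : i ^ 2 = -1)
    (hH0 : kH u0 v0 = -((W.c₄ : ℤ) : Qb)) (hT0 : kT u0 v0 = -((W.c₆ : ℤ) : Qb))
    (hf : kF u0 v0 ≠ 0)
    (hfK : kF (klU z u0 v0) (klV z u0 v0) = kF u0 v0)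
    (hHK : kH (klU z u0 v0) (klV z u0 v0) = kH u0 v0)
    (hTK : kT (klU z u0 v0) (klV z u0 v0) = kT u0 v0)
    (hdet : a1 * b2 - a2 * b1 ≠ 0) :
    ∃ θ : Qb, kT (a1 + θ * b1) (a2 + θ * b2) = 0 ∧ kH (a1 + θ * b1) (a2 + θ * b2) ≠ 0 ∧
      ∀ σ : Qb ≃ₐ[ℚ] Qb,
        (∀ P : Submodule.torsionBy ℤ ((W.map (Int.castRingHom ℚ))⁄Qb).Point (5 : ℕ), σ • P = P) →
        σ z = z → σ i = i →
        (∀ lam : Qb, lam ^ 5 = 1 → σ u0 = lam * u0 → σ v0 = lam * v0 →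
          σ a1 = lam * a1 ∧ σ a2 = lam * a2 ∧ σ b1 = lam * b1 ∧ σ b2 = lam * b2) →
        σ θ = θ := by
  have h30 : (30 : Qb) ≠ 0 := by norm_num
  obtain ⟨θ, h1, h2, h3⟩ := exists_root_pencil hz h30 i hi u0 v0 a1 a2 b1 b2 hf hdet
  refine ⟨θ, h1, h2, ?_⟩
  intro σ hσ hσz hσi hpen
  have hf1 : kF (klU z u0 v0) (klV z u0 v0) ≠ 0 := by rw [hfK]; exact hf
  have hσH : σ (kH u0 v0) = kH u0 v0 := by rw [hH0, map_neg, map_intCast]
  have p0 := kPoint_fixed W z u0 v0 hz hH0 hT0 hf σ hσ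
  have p1 := kPoint_fixed W z v0 (-u0) hz (by rw [kH_swap, hH0]) (by rw [kT_swap, hT0])
    (by rw [kF_swap]; exact hf) σ hσ
  have p2 := kPoint_fixed W z (klU z u0 v0) (klV z u0 v0) hz (by rw [hHK, hH0])
    (by rw [hTK, hT0]) hf1 σ hσ
  have p3 := kPoint_fixed W z (klV z u0 v0) (-klU z u0 v0) hz (by rw [kH_swap, hHK, hH0])
    (by rw [kT_swap, hTK, hT0]) (by rw [kF_swap]; exact hf1) σ hσ
  exact h3 (σ : Qb →+* Qb) hσz hσi hfK hσH p0.1 p1.1 p0.2 (by rw [hHK]; exact hσH) p2.1 p3.1 p2.2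
    hpen

/-- **FIXROOT, Galois surface, degree-11 pencil** `w_t = w0 + t (f_v(w0), -f_u(w0))`:
there is a root `θ` of `t ↦ kT (w_t)` with `kH (w_θ) ≠ 0` which is fixed by every
`σ ∈ Gal(ℚ̄/ℚ)` fixing `W[5]` pointwise, `z = ζ₅` and `i`. -/
theorem fixroot_deg11 (W : WeierstrassCurve ℤ) (z i u0 v0 : Qb)
    (hz : z ^ 4 + z ^ 3 + z ^ 2 + z + 1 = 0) (hi : i ^ 2 = -1)
    (hH0 : kH u0 v0 = -((W.c₄ : ℤ) : Qb)) (hT0 : kT u0 v0 = -((W.c₆ : ℤ) : Qb))
    (hf : kF u0 v0 ≠ 0)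
    (hfK : kF (klU z u0 v0) (klV z u0 v0) = kF u0 v0)
    (hHK : kH (klU z u0 v0) (klV z u0 v0) = kH u0 v0)
    (hTK : kT (klU z u0 v0) (klV z u0 v0) = kT u0 v0) :
    ∃ θ : Qb, kT (u0 + θ * kFv u0 v0) (v0 - θ * kFu u0 v0) = 0 ∧
      kH (u0 + θ * kFv u0 v0) (v0 - θ * kFu u0 v0) ≠ 0 ∧
      ∀ σ : Qb ≃ₐ[ℚ] Qb,
        (∀ P : Submodule.torsionBy ℤ ((W.map (Int.castRingHom ℚ))⁄Qb).Point (5 : ℕ), σ • P = P) →
        σ z = z → σ i = i → σ θ = θ := by
  have h30 : (30 : Qb) ≠ 0 := by norm_num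
  obtain ⟨θ, h1, h2, h3⟩ := exists_root_deg11 hz h30 i hi u0 v0 hf
  refine ⟨θ, h1, h2, ?_⟩
  intro σ hσ hσz hσi
  have hf1 : kF (klU z u0 v0) (klV z u0 v0) ≠ 0 := by rw [hfK]; exact hf
  have hσH : σ (kH u0 v0) = kH u0 v0 := by rw [hH0, map_neg, map_intCast]
  have p0 := kPoint_fixed W z u0 v0 hz hH0 hT0 hf σ hσ
  have p1 := kPoint_fixed W z v0 (-u0) hz (by rw [kH_swap, hH0]) (by rw [kT_swap, hT0])
    (by rw [kF_swap]; exact hf) σ hσ
  have p2 := kPoint_fixed W z (klU z u0 v0) (klV z u0 v0) hz (by rw [hHK, hH0])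
    (by rw [hTK, hT0]) hf1 σ hσ
  have p3 := kPoint_fixed W z (klV z u0 v0) (-klU z u0 v0) hz (by rw [kH_swap, hHK, hH0])
    (by rw [kT_swap, hTK, hT0]) (by rw [kF_swap]; exact hf1) σ hσ
  exact h3 (σ : Qb →+* Qb) hσz hσi hfK hσH p0.1 p1.1 p0.2 (by rw [hHK]; exact hσH) p2.1 p3.1 p2.2

end Transport

end Fermat.Agent.S52.helper8316
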