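import Mathlib
import Fermat.Agent.Lib.helper956_LadderTorsion

/-!
# S52 / L3-GEN-Z (helper8890): torsion sections along a pencil, without torsor and without groups

Abstract (hypothesis-passing) form of the "5-congruence along the Klein pencil":
two universal torsion sections `P₁ = (X₁, Y₁)`, `P₂ = (X₂, Y₂)` on the family of short Weierstrass
curves `y² = x³ + a(w) x + b(w)`, `w = (u, v)`, with doubling given by the substitution
`S (u, v) = (v, -u)`, and a pencil `R_τ (w) = w + τ • n(w)` whose curve depends only on the curve of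
`w` (`LINK`).  Then the coordinates of `P_i (R_τ w₁)` in the basis `P₁ (R_τ w₀), P₂ (R_τ w₀)` do not
depend on `τ` (Zariski argument in `τ`), hence every ring endomorphism acts by the same matrix on
the `5`-torsion of the curve of `w₀` and of the curve of `R_t w₀`.
-/

set_option autoImplicit false

namespace Fermat.Agent.S52.helper8890

open WeierstrassCurve WeierstrassCurve.Affine Polynomial

variable {K : Type*} [Field K] [DecidableEq K]

/-! ## Part 0: points on a short Weierstrass curve -/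

/-- `W` is the short Weierstrass curve `y² = x³ + a x + b`. -/
structure IsShort (W : Affine K) (a b : K) : Prop where
  a₁ : W.a₁ = 0
  a₂ : W.a₂ = 0
  a₃ : W.a₃ = 0
  a₄ : W.a₄ = a
  a₆ : W.a₆ = b

omit [DecidableEq K] in
theorem IsShort.equation_iff {W : Affine K} {a b : K} (hW : IsShort W a b) (x y : K) :
    W.Equation x y ↔ y ^ 2 = x ^ 3 + a * x + b := by
  rw [Affine.equation_iff, hW.a₁, hW.a₂, hW.a₃, hW.a₄, hW.a₆]
  constructor <;> intro h <;> linear_combination h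

omit [DecidableEq K] in
theorem IsShort.Δ_eq {W : Affine K} {a b : K} (hW : IsShort W a b) :
    W.Δ = -16 * (4 * a ^ 3 + 27 * b ^ 2) := by
  simp only [WeierstrassCurve.Δ, WeierstrassCurve.b₂, WeierstrassCurve.b₄, WeierstrassCurve.b₆,
    WeierstrassCurve.b₈, hW.a₁, hW.a₂, hW.a₃, hW.a₄, hW.a₆]
  ring

omit [DecidableEq K] in
theorem IsShort.nonsingular {W : Affine K} {a b : K} (hW : IsShort W a b) (h2 : (2 : K) ≠ 0)
    (hΔ : 4 * a ^ 3 + 27 * b ^ 2 ≠ 0) {x y : K} (h : y ^ 2 = x ^ 3 + a * x + b) :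
    W.Nonsingular x y := by
  refine (Affine.equation_iff_nonsingular_of_Δ_ne_zero ?_).mp ((hW.equation_iff x y).mpr h)
  rw [hW.Δ_eq]
  have h16 : (16 : K) ≠ 0 := by
    have : (16 : K) = 2 ^ 4 := by norm_num
    rw [this]; exact pow_ne_zero _ h2
  exact mul_ne_zero (neg_ne_zero.mpr h16) hΔ

omit [DecidableEq K] in
theorem IsShort.eq_of {W W' : Affine K} {a b : K} (hW : IsShort W a b) (hW' : IsShort W' a b) :
    W = W' := by
  cases W; cases W'
  obtain ⟨h1, h2, h3, h4, h6⟩ := hW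
  obtain ⟨h1', h2', h3', h4', h6'⟩ := hW'
  simp only at h1 h2 h3 h4 h6 h1' h2' h3' h4' h6'
  subst h1 h2 h3 h4 h6 h1' h2' h3'
  simp [h4', h6']

/-- The point with coordinates `(x, y)` if these are nonsingular on `W`, and `0` otherwise. -/
noncomputable def pt (W : Affine K) (x y : K) : W.Point := by
  classical exact if h : W.Nonsingular x y then Point.some x y h else 0

omit [DecidableEq K] in
theorem pt_of {W : Affine K} {x y : K} (h : W.Nonsingular x y) : pt W x y = Point.some x y h := by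
  unfold pt; simp [h]

omit [DecidableEq K] in
theorem pt_ne_zero {W : Affine K} {x y : K} (h : W.Nonsingular x y) : pt W x y ≠ 0 := by
  rw [pt_of h]; exact Point.some_ne_zero h

omit [DecidableEq K] in
theorem pt_eq_pt_iff {W : Affine K} {x y x' y' : K} (h : W.Nonsingular x y)
    (h' : W.Nonsingular x' y') : pt W x y = pt W x' y' ↔ x = x' ∧ y = y' := by
  rw [pt_of h, pt_of h', Point.some.injEq]

omit [DecidableEq K] in
theorem neg_pt {W : Affine K} {a b : K} (hW : IsShort W a b) {x y : K} (h : W.Nonsingular x y) :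
    W.Nonsingular x (-y) ∧ -pt W x y = pt W x (-y) := by
  have hneg : W.negY x y = -y := by rw [Affine.negY, hW.a₁, hW.a₃]; ring
  have h' : W.Nonsingular x (-y) := by
    have := (Affine.nonsingular_neg (W' := W) x y).mpr h
    rwa [hneg] at this
  refine ⟨h', ?_⟩
  rw [pt_of h, pt_of h', Point.neg_some, Point.some.injEq]
  exact ⟨rfl, hneg⟩

/-- Chord formula as two polynomial conditions. -/
theorem pt_add_pt_eq_iff {W : Affine K} {a b : K} (hW : IsShort W a b)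
    {x1 y1 x2 y2 x3 y3 : K} (h1 : W.Nonsingular x1 y1) (h2 : W.Nonsingular x2 y2)
    (h3 : W.Nonsingular x3 y3) (hx : x1 ≠ x2) :
    pt W x3 y3 = pt W x1 y1 + pt W x2 y2 ↔
      x3 * (x1 - x2) ^ 2 - ((y1 - y2) ^ 2 - (x1 + x2) * (x1 - x2) ^ 2) = 0 ∧
      (y3 + y1) * (x1 - x2) + (y1 - y2) * (x3 - x1) = 0 := by
  have hne : x1 - x2 ≠ 0 := sub_ne_zero.mpr hx
  rw [pt_of h1, pt_of h2, pt_of h3, Point.add_of_X_ne hx, Point.some.injEq,
    Affine.slope_of_X_ne hx]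
  simp only [Affine.addX, Affine.addY, Affine.negAddY, Affine.negY, hW.a₁, hW.a₂, hW.a₃]
  constructor
  · rintro ⟨rfl, rfl⟩
    constructor <;> field_simp <;> ring
  · rintro ⟨hA, hB⟩
    have hx3 : x3 = ((y1 - y2) / (x1 - x2)) ^ 2 + 0 * ((y1 - y2) / (x1 - x2)) - 0 - x1 - x2 := by
      field_simp
      linear_combination hA
    refine ⟨hx3, ?_⟩
    rw [← hx3]
    field_simp
    linear_combination hB

/-- Doubling formula: `2 • (x, y) = (x', y')` from the `x`-duplication identity and the tangent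
condition for `(x', -y')`. -/
theorem pt_add_self {W : Affine K} {a b : K} (hW : IsShort W a b) (h2 : (2 : K) ≠ 0)
    {x y x' y' : K} (h : W.Nonsingular x y) (h' : W.Nonsingular x' y')
    (hx' : x' * (4 * y ^ 2) = (x ^ 2 - a) ^ 2 - 8 * b * x)
    (hy' : (-y' - y) * (2 * y) = (3 * x ^ 2 + a) * (x' - x)) :
    pt W x y + pt W x y = pt W x' y' := by
  have heq : y ^ 2 = x ^ 3 + a * x + b := (hW.equation_iff x y).mp h.1
  have hy : y ≠ 0 := by
    rintro rfl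
    have hns := (Affine.nonsingular_iff x 0).mp h
    rw [hW.a₁, hW.a₂, hW.a₃, hW.a₄] at hns
    have h3 : 3 * x ^ 2 + a = 0 := by
      have : (3 * x ^ 2 + a) ^ 2 = 0 := by
        linear_combination (-1 : K) * hx' - 8 * x * heq
      exact pow_eq_zero_iff (two_ne_zero) |>.mp this
    rcases hns.2 with h4 | h4
    · exact h4 (by linear_combination (-1 : K) * h3)
    · exact h4 (by ring)
  have hnegY : W.negY x y = -y := by rw [Affine.negY, hW.a₁, hW.a₃]; ring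
  have hyne : y ≠ W.negY x y := by
    rw [hnegY]
    intro hh
    have : 2 * y = 0 := by linear_combination hh
    rcases mul_eq_zero.mp this with h0 | h0
    · exact h2 h0
    · exact hy h0
  have h2y : 2 * y ≠ 0 := mul_ne_zero h2 hy
  rw [pt_of h, pt_of h', Point.add_self_of_Y_ne hyne, Point.some.injEq,
    Affine.slope_of_Y_ne rfl hyne]
  simp only [Affine.addX, Affine.addY, Affine.negAddY, Affine.negY, hW.a₁, hW.a₂, hW.a₃, hW.a₄]
  have hd : y - (-y - 0 * x - 0) = 2 * y := by ring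
  rw [hd]
  have hx'' : ((3 * x ^ 2 + 2 * 0 * x + a - 0 * y) / (2 * y)) ^ 2 +
      0 * ((3 * x ^ 2 + 2 * 0 * x + a - 0 * y) / (2 * y)) - 0 - x - x = x' := by
    field_simp
    linear_combination (-1 : K) * hx' - 8 * x * heq
  refine ⟨hx'', ?_⟩
  rw [hx'']
  field_simp
  linear_combination hy'

/-! ## Part 1: the covering lemma -/

omit [DecidableEq K] in
/-- Over an infinite field: if the complement of the zero set of a nonzero polynomial `d` is
covered by finitely many sets, each cut out by two polynomials, then one of these pairs of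
polynomials is identically zero. -/
theorem exists_pair_eq_zero_of_cover [Infinite K] {ι : Type*} [Finite ι] (d : K[X]) (hd : d ≠ 0)
    (g h : ι → K[X])
    (hcov : ∀ τ : K, d.eval τ ≠ 0 → ∃ i, (g i).eval τ = 0 ∧ (h i).eval τ = 0) :
    ∃ i, g i = 0 ∧ h i = 0 := by
  classical
  by_contra hcon
  have hcon : ∀ i, g i = 0 → h i ≠ 0 := fun i hg hh => hcon ⟨i, hg, hh⟩
  have hr : ∀ i, ∃ r : K[X], r ≠ 0 ∧ (r = g i ∨ r = h i) := by
    intro i
    by_cases hg : g i = 0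
    · exact ⟨h i, hcon i hg, Or.inr rfl⟩
    · exact ⟨g i, hg, Or.inl rfl⟩
  choose r hr0 hr1 using hr
  have := Fintype.ofFinite ι
  set p : K[X] := d * ∏ i, r i with hp
  have hp0 : p ≠ 0 := mul_ne_zero hd (Finset.prod_ne_zero_iff.mpr fun i _ => hr0 i)
  have hex : ∃ τ : K, p.eval τ ≠ 0 := by
    by_contra hall
    have hall : ∀ τ : K, p.eval τ = 0 := fun τ => by
      by_contra hne
      exact hall ⟨τ, hne⟩
    exact hp0 (Polynomial.eq_zero_of_infinite_isRoot p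
      (by
        have : {x | p.IsRoot x} = Set.univ := by
          ext x; simpa [Polynomial.IsRoot] using hall x
        rw [this]; exact Set.infinite_univ))
  obtain ⟨τ, hτ⟩ := hex
  rw [hp, Polynomial.eval_mul, Polynomial.eval_prod] at hτ
  have hdτ : d.eval τ ≠ 0 := left_ne_zero_of_mul hτ
  have hrτ : ∀ i, (r i).eval τ ≠ 0 := fun i =>
    (Finset.prod_ne_zero_iff.mp (right_ne_zero_of_mul hτ)) i (Finset.mem_univ i)
  obtain ⟨i, hgi, hhi⟩ := hcov τ hdτ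
  rcases hr1 i with h1 | h1
  · exact hrτ i (by rw [h1]; exact hgi)
  · exact hrτ i (by rw [h1]; exact hhi)

/-! ## Part 2: torsion sections with doubling by `S (u, v) = (v, -u)` -/

/-- A pair of coordinate functions on the parameter plane. -/
structure Sec (K : Type*) where
  /-- the `x`-coordinate -/
  x : K → K → K
  /-- the `y`-coordinate -/
  y : K → K → K

/-- Ambient data: the family of short curves `y² = x³ + a(w) x + b(w)`, good locus `f ≠ 0`. -/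
structure IsAmb (f a b : K → K → K) : Prop where
  two : (2 : K) ≠ 0
  five : (5 : K) ≠ 0
  disc : ∀ u v, f u v ≠ 0 ↔ 4 * a u v ^ 3 + 27 * b u v ^ 2 ≠ 0
  aS : ∀ u v, a v (-u) = a u v
  bS : ∀ u v, b v (-u) = b u v

/-- A universal torsion section: on the curve, with `2 • P(w) = (x(Sw), e • y(Sw))`, odd. -/
structure IsTorsSec (a b : K → K → K) (s : Sec K) (e : K) : Prop where
  on : ∀ u v, s.y u v ^ 2 = s.x u v ^ 3 + a u v * s.x u v + b u v
  dx : ∀ u v, s.x v (-u) * (4 * s.y u v ^ 2) = (s.x u v ^ 2 - a u v) ^ 2 - 8 * b u v * s.x u v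
  dy : ∀ u v, (-(e * s.y v (-u)) - s.y u v) * (2 * s.y u v) =
    (3 * s.x u v ^ 2 + a u v) * (s.x v (-u) - s.x u v)
  px : ∀ u v, s.x (-u) (-v) = s.x u v
  py : ∀ u v, s.y (-u) (-v) = -s.y u v
  e_sq : e = 1 ∨ e = -1

/-- The point of the section `s` at the parameter `(u, v)`, on the curve `W`. -/
noncomputable def Sec.P (s : Sec K) (W : Affine K) (u v : K) : W.Point := pt W (s.x u v) (s.y u v)

omit [DecidableEq K] in
theorem IsAmb.fS {f a b : K → K → K} (hA : IsAmb f a b) {u v : K} (hf : f u v ≠ 0) :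
    f v (-u) ≠ 0 := by
  rw [hA.disc, hA.aS, hA.bS]; exact (hA.disc u v).mp hf

omit [DecidableEq K] in
theorem IsAmb.shortS {f a b : K → K → K} (hA : IsAmb f a b) {W : Affine K} {u v : K}
    (hW : IsShort W (a u v) (b u v)) : IsShort W (a v (-u)) (b v (-u)) := by
  rw [hA.aS, hA.bS]; exact hW

omit [DecidableEq K] in
theorem IsAmb.fneg {f a b : K → K → K} (hA : IsAmb f a b) {u v : K} (hf : f u v ≠ 0) :
    f (-u) (-v) ≠ 0 := hA.fS (hA.fS hf)

omit [DecidableEq K] in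
theorem IsAmb.shortNeg {f a b : K → K → K} (hA : IsAmb f a b) {W : Affine K} {u v : K}
    (hW : IsShort W (a u v) (b u v)) : IsShort W (a (-u) (-v)) (b (-u) (-v)) :=
  hA.shortS (hA.shortS hW)

section OneSection

variable {f a b : K → K → K} (hA : IsAmb f a b) {s : Sec K} {e : K} (hs : IsTorsSec a b s e)
  {W : Affine K} {u v : K}

include hA hs

omit [DecidableEq K] in
theorem IsTorsSec.nons (hW : IsShort W (a u v) (b u v)) (hf : f u v ≠ 0) :
    W.Nonsingular (s.x u v) (s.y u v) :=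
  hW.nonsingular hA.two ((hA.disc u v).mp hf) (hs.on u v)

omit [DecidableEq K] in
theorem IsTorsSec.P_ne_zero (hW : IsShort W (a u v) (b u v)) (hf : f u v ≠ 0) :
    s.P W u v ≠ 0 := pt_ne_zero (hs.nons hA hW hf)

omit [DecidableEq K] in
theorem IsTorsSec.nonsE (hW : IsShort W (a u v) (b u v)) (hf : f u v ≠ 0) :
    W.Nonsingular (s.x v (-u)) (e * s.y v (-u)) := by
  refine hW.nonsingular hA.two ((hA.disc u v).mp hf) ?_
  have h1 := hs.on v (-u)
  rw [hA.aS, hA.bS] at h1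
  rcases hs.e_sq with rfl | rfl
  · linear_combination h1
  · linear_combination h1

/-- The integer sign attached to `e = ±1`. -/
def sgn (e : K) : ℤ := if e = 1 then 1 else -1

omit hA hs in
theorem sgn_mul_sgn (e : K) : sgn e * sgn e = 1 := by
  unfold sgn; split_ifs <;> norm_num

omit hA hs in
theorem pt_sign_mul {a' b' : K} (hW : IsShort W a' b') {x y e : K} (he : e = 1 ∨ e = -1)
    (h : W.Nonsingular x y) : pt W x (e * y) = sgn e • pt W x y := by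
  unfold sgn
  by_cases h1 : e = 1
  · simp [h1]
  · have h2 : e = -1 := he.resolve_left h1
    simp only [h1, if_false, neg_smul, one_smul]
    rw [(neg_pt hW h).2, h2]
    simp

theorem IsTorsSec.two_nsmul_coord (hW : IsShort W (a u v) (b u v)) (hf : f u v ≠ 0) :
    s.P W u v + s.P W u v = pt W (s.x v (-u)) (e * s.y v (-u)) :=
  pt_add_self hW hA.two (hs.nons hA hW hf) (hs.nonsE hA hW hf) (hs.dx u v) (hs.dy u v)

theorem IsTorsSec.two_nsmul (hW : IsShort W (a u v) (b u v)) (hf : f u v ≠ 0) :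
    (2 : ℤ) • s.P W u v = sgn e • s.P W v (-u) := by
  rw [two_zsmul, hs.two_nsmul_coord hA hW hf, Sec.P,
    pt_sign_mul hW hs.e_sq (hs.nons hA (hA.shortS hW) (hA.fS hf))]

omit [DecidableEq K] in
theorem IsTorsSec.P_neg (hW : IsShort W (a u v) (b u v)) (hf : f u v ≠ 0) :
    s.P W (-u) (-v) = -s.P W u v := by
  unfold Sec.P
  rw [hs.px, hs.py, (neg_pt hW (hs.nons hA hW hf)).2]

theorem IsTorsSec.four_zsmul (hW : IsShort W (a u v) (b u v)) (hf : f u v ≠ 0) :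
    (4 : ℤ) • s.P W u v = -s.P W u v := by
  have h4 : (4 : ℤ) • s.P W u v = (2 : ℤ) • ((2 : ℤ) • s.P W u v) := by
    rw [smul_smul]; norm_num
  rw [h4, hs.two_nsmul hA hW hf, smul_comm, hs.two_nsmul hA (hA.shortS hW) (hA.fS hf), smul_smul,
    sgn_mul_sgn, one_smul]
  have := hs.P_neg hA hW hf
  simpa using this

theorem IsTorsSec.five_zsmul (hW : IsShort W (a u v) (b u v)) (hf : f u v ≠ 0) :
    (5 : ℤ) • s.P W u v = 0 := by
  have h5 : (5 : ℤ) • s.P W u v = (4 : ℤ) • s.P W u v + s.P W u v := by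
    rw [show (5 : ℤ) = 4 + 1 by norm_num, add_smul, one_smul]
  rw [h5, hs.four_zsmul hA hW hf, neg_add_cancel]

theorem IsTorsSec.zsmul_eq_of_modEq (hW : IsShort W (a u v) (b u v)) (hf : f u v ≠ 0)
    {m n : ℤ} (h : m ≡ n [ZMOD 5]) : m • s.P W u v = n • s.P W u v := by
  obtain ⟨k, hk⟩ := h.symm.dvd
  have : m = n + k * 5 := by linarith
  rw [this, add_smul, mul_smul, hs.five_zsmul hA hW hf, smul_zero, add_zero]

/-- `x`-coordinate of `c • P(w)` for `c = 1, 2, 3, 4`. -/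
def Sec.mulX (s : Sec K) (c : ℕ) (u v : K) : K :=
  if c = 1 ∨ c = 4 then s.x u v else s.x v (-u)

/-- `y`-coordinate of `c • P(w)` for `c = 1, 2, 3, 4`. -/
def Sec.mulY (s : Sec K) (e : K) (c : ℕ) (u v : K) : K :=
  if c = 1 then s.y u v else if c = 2 then e * s.y v (-u) else
    if c = 3 then -(e * s.y v (-u)) else -(s.y u v)

theorem IsTorsSec.nsmul_coord (hW : IsShort W (a u v) (b u v)) (hf : f u v ≠ 0) {c : ℕ}
    (hc1 : 1 ≤ c) (hc4 : c ≤ 4) :
    W.Nonsingular (s.mulX c u v) (s.mulY e c u v) ∧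
      (c : ℤ) • s.P W u v = pt W (s.mulX c u v) (s.mulY e c u v) := by
  have h2c := hs.two_nsmul_coord hA hW hf
  have hn1 := hs.nons hA hW hf
  have hn2 := hs.nonsE hA hW hf
  have h2z : (2 : ℤ) • s.P W u v = pt W (s.x v (-u)) (e * s.y v (-u)) := by
    rw [two_zsmul]; exact h2c
  interval_cases c
  · refine ⟨by simpa [Sec.mulX, Sec.mulY] using hn1, ?_⟩
    simp [Sec.mulX, Sec.mulY, Sec.P]
  · refine ⟨by simpa [Sec.mulX, Sec.mulY] using hn2, ?_⟩
    simpa [Sec.mulX, Sec.mulY] using h2z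
  · have hn3 := (neg_pt hW hn2).1
    refine ⟨by simpa [Sec.mulX, Sec.mulY] using hn3, ?_⟩
    have h3 : ((3 : ℕ) : ℤ) • s.P W u v = -((2 : ℤ) • s.P W u v) := by
      have := hs.zsmul_eq_of_modEq hA hW hf (m := 3) (n := -2) (by decide)
      simpa using this
    rw [h3, h2z, (neg_pt hW hn2).2]
    simp [Sec.mulX, Sec.mulY]
  · have hn4 := (neg_pt hW hn1).1
    refine ⟨by simpa [Sec.mulX, Sec.mulY] using hn4, ?_⟩
    have h4 := hs.four_zsmul hA hW hf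
    have : ((4 : ℕ) : ℤ) • s.P W u v = -s.P W u v := by simpa using h4
    rw [this, Sec.P, (neg_pt hW hn1).2]
    simp [Sec.mulX, Sec.mulY]

omit hA hs [DecidableEq K] in
theorem Sec.mulX_mem (s : Sec K) (c : ℕ) (u v : K) :
    s.mulX c u v = s.x u v ∨ s.mulX c u v = s.x v (-u) := by
  unfold Sec.mulX; split_ifs <;> simp

end OneSection

section TwoSections

variable {f a b : K → K → K} (hA : IsAmb f a b) {s1 s2 : Sec K} {e1 e2 : K}
  (hs1 : IsTorsSec a b s1 e1) (hs2 : IsTorsSec a b s2 e2)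
  (hind1 : ∀ u v, f u v ≠ 0 → s2.x u v ≠ s1.x u v)
  (hind2 : ∀ u v, f u v ≠ 0 → s2.x u v ≠ s1.x v (-u))
  {W : Affine K} {u v : K}

include hA hs1 hs2 hind1 hind2

theorem P2_ne_zsmul_P1 (hW : IsShort W (a u v) (b u v)) (hf : f u v ≠ 0) (c : ℤ) :
    s2.P W u v ≠ c • s1.P W u v := by
  intro h
  have h0 : 0 ≤ c % 5 := Int.emod_nonneg c (by norm_num)
  have h1 : c % 5 < 5 := Int.emod_lt_of_pos c (by norm_num)
  have hc : c • s1.P W u v = ((c % 5).toNat : ℤ) • s1.P W u v := by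
    apply hs1.zsmul_eq_of_modEq hA hW hf
    rw [Int.toNat_of_nonneg h0]
    exact (Int.mod_modEq c 5).symm
  have hr : (c % 5).toNat < 5 := by omega
  rw [hc] at h
  rcases Nat.eq_zero_or_pos (c % 5).toNat with hz | hpos
  · rw [hz] at h
    simp only [Nat.cast_zero, zero_smul] at h
    exact hs2.P_ne_zero hA hW hf h
  · obtain ⟨hns, hco⟩ := hs1.nsmul_coord hA hW hf (c := (c % 5).toNat) hpos (by omega)
    rw [hco] at h
    have hxy := (pt_eq_pt_iff (hs2.nons hA hW hf) hns).mp h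
    rcases s1.mulX_mem (c % 5).toNat u v with hx | hx
    · exact hind1 u v hf (hxy.1.trans hx)
    · exact hind2 u v hf (hxy.1.trans hx)

theorem indep (hW : IsShort W (a u v) (b u v)) (hf : f u v ≠ 0) {m n : ℤ}
    (h : m • s1.P W u v + n • s2.P W u v = 0) : (5 : ℤ) ∣ m ∧ (5 : ℤ) ∣ n := by
  have hp : Prime (5 : ℤ) := by norm_num
  have h5n : (5 : ℤ) ∣ n := by
    by_contra hn
    obtain ⟨x, y, hxy⟩ : IsCoprime n 5 := (hp.coprime_iff_not_dvd.mpr hn).symm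
    have hP2 : s2.P W u v = (-(x * m)) • s1.P W u v := by
      have e1 : s2.P W u v = (x * n + y * 5) • s2.P W u v := by rw [hxy, one_smul]
      have e2 : n • s2.P W u v = -(m • s1.P W u v) := eq_neg_of_add_eq_zero_right h
      rw [e1, add_smul, mul_smul, mul_smul, hs2.five_zsmul hA hW hf, smul_zero, add_zero, e2,
        smul_neg, neg_smul, mul_smul]
    exact P2_ne_zsmul_P1 hA hs1 hs2 hind1 hind2 hW hf _ hP2
  refine ⟨?_, h5n⟩
  by_contra hm
  obtain ⟨k, rfl⟩ := h5n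
  rw [mul_comm, mul_smul, hs2.five_zsmul hA hW hf, smul_zero, add_zero] at h
  obtain ⟨x, y, hxy⟩ : IsCoprime m 5 := (hp.coprime_iff_not_dvd.mpr hm).symm
  have hP1 : s1.P W u v = 0 := by
    have e1 : s1.P W u v = (x * m + y * 5) • s1.P W u v := by rw [hxy, one_smul]
    rw [e1, add_smul, mul_smul, mul_smul, hs1.five_zsmul hA hW hf, h, smul_zero, smul_zero,
      add_zero]
  exact hs1.P_ne_zero hA hW hf hP1

/-- The two sections span the `5`-torsion of the curve. -/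
theorem span (hW : IsShort W (a u v) (b u v)) (hf : f u v ≠ 0) (Q : W.Point)
    (hQ : (5 : ℤ) • Q = 0) :
    ∃ c d : Fin 5, Q = ((c : ℕ) : ℤ) • s1.P W u v + ((d : ℕ) : ℤ) • s2.P W u v := by
  have h5 : ((2 * 2 + 1 : ℕ) : K) ≠ 0 := by
    have : ((2 * 2 + 1 : ℕ) : K) = 5 := by norm_num
    rw [this]; exact hA.five
  have hfin := Fermat.Agent.Lib.helper956.finite_torsion W 2 h5
  have hcard := Fermat.Agent.Lib.helper956.card_torsion_le W 2 h5
  have key : ∀ P : W.Point, (5 : ℤ) • P = 0 → (2 * 2 + 1) • P = 0 := by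
    intro P hP
    have : ((2 * 2 + 1 : ℕ) : ℤ) • P = 0 := by simpa using hP
    rwa [natCast_zsmul] at this
  let g : Fin 5 × Fin 5 → {P : W.Point // (2 * 2 + 1) • P = 0} := fun cd =>
    ⟨((cd.1 : ℕ) : ℤ) • s1.P W u v + ((cd.2 : ℕ) : ℤ) • s2.P W u v, key _ (by
      rw [smul_add, smul_comm, hs1.five_zsmul hA hW hf, smul_comm (5 : ℤ),
        hs2.five_zsmul hA hW hf, smul_zero, smul_zero, add_zero])⟩
  have hg : Function.Injective g := by
    rintro ⟨c, d⟩ ⟨c', d'⟩ h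
    have h' : ((c : ℕ) : ℤ) • s1.P W u v + ((d : ℕ) : ℤ) • s2.P W u v =
        ((c' : ℕ) : ℤ) • s1.P W u v + ((d' : ℕ) : ℤ) • s2.P W u v := congrArg Subtype.val h
    have h0 : (((c : ℕ) : ℤ) - ((c' : ℕ) : ℤ)) • s1.P W u v +
        (((d : ℕ) : ℤ) - ((d' : ℕ) : ℤ)) • s2.P W u v = 0 := by
      rw [sub_smul, sub_smul]
      have := sub_eq_zero.mpr h'
      rw [← this]; abel
    obtain ⟨hc, hd⟩ := indep hA hs1 hs2 hind1 hind2 hW hf h0
    have hc1 := c.isLt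
    have hc2 := c'.isLt
    have hd1 := d.isLt
    have hd2 := d'.isLt
    have ec : (c : ℕ) = c' := by omega
    have ed : (d : ℕ) = d' := by omega
    exact Prod.ext (Fin.ext ec) (Fin.ext ed)
  have hbij : Function.Bijective g := hg.bijective_of_nat_card_le (by
    simpa using hcard)
  obtain ⟨⟨c, d⟩, hcd⟩ := hbij.2 ⟨Q, key Q hQ⟩
  exact ⟨c, d, (congrArg Subtype.val hcd).symm⟩

end TwoSections

/-! ## Part 3: the Zariski argument along a line -/

/-- `F` restricted to any affine line of the parameter plane is a polynomial function. -/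
def IsPolyLine (F : K → K → K) : Prop :=
  ∀ p q r s : K, ∃ P : K[X], ∀ τ : K, P.eval τ = F (p + τ * q) (r + τ * s)

omit [DecidableEq K] in
theorem exists_poly_mul {s : Sec K} (hx : IsPolyLine s.x) (hy : IsPolyLine s.y) (e : K) (c : ℕ)
    (p q r t : K) : ∃ PX PY : K[X], ∀ τ : K,
      PX.eval τ = s.mulX c (p + τ * q) (r + τ * t) ∧
      PY.eval τ = s.mulY e c (p + τ * q) (r + τ * t) := by
  obtain ⟨A, hA⟩ := hx p q r t
  obtain ⟨B, hB⟩ := hx r t (-p) (-q)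
  obtain ⟨C', hC⟩ := hy p q r t
  obtain ⟨D, hD⟩ := hy r t (-p) (-q)
  have hneg : ∀ τ : K, -p + τ * -q = -(p + τ * q) := fun τ => by ring
  refine ⟨if c = 1 ∨ c = 4 then A else B,
    if c = 1 then C' else if c = 2 then C e * D else if c = 3 then -(C e * D) else -C', ?_⟩
  intro τ
  constructor
  · unfold Sec.mulX
    split_ifs
    · exact hA τ
    · rw [hB τ, hneg]
  · unfold Sec.mulY
    split_ifs
    · exact hC τ
    · rw [eval_mul, eval_C, hD τ, hneg]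
    · rw [eval_neg, eval_mul, eval_C, hD τ, hneg]
    · rw [eval_neg, hC τ]

section Zariski

variable {f a b : K → K → K} (hA : IsAmb f a b) {s1 s2 : Sec K} {e1 e2 : K}
  (hs1 : IsTorsSec a b s1 e1) (hs2 : IsTorsSec a b s2 e2)
  (hind1 : ∀ u v, f u v ≠ 0 → s2.x u v ≠ s1.x u v)
  (hind2 : ∀ u v, f u v ≠ 0 → s2.x u v ≠ s1.x v (-u))

include hA hs1 hs2 hind1 hind2

/-- `x(c • P₁) ≠ x(d • P₂)` for `1 ≤ c, d ≤ 4`. -/
theorem mulX_ne_mulX {W : Affine K} {u v : K} (hW : IsShort W (a u v) (b u v)) (hf : f u v ≠ 0)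
    {c d : ℕ} (hc1 : 1 ≤ c) (hc4 : c ≤ 4) (hd1 : 1 ≤ d) (hd4 : d ≤ 4) :
    s1.mulX c u v ≠ s2.mulX d u v := by
  intro hx
  obtain ⟨hn1, hco1⟩ := hs1.nsmul_coord hA hW hf hc1 hc4
  obtain ⟨hn2, hco2⟩ := hs2.nsmul_coord hA hW hf hd1 hd4
  have h5 : (5 : ℤ) ∣ (c : ℤ) := by
    rcases (Point.X_eq_iff (h₁ := hn1) (h₂ := hn2)).mp hx with h | h
    · rw [← pt_of hn1, ← pt_of hn2, ← hco1, ← hco2] at h
      have h0 : (c : ℤ) • s1.P W u v + (-(d : ℤ)) • s2.P W u v = 0 := by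
        rw [neg_smul, h, add_neg_cancel]
      exact (indep hA hs1 hs2 hind1 hind2 hW hf h0).1
    · rw [← pt_of hn1, ← pt_of hn2, ← hco1, ← hco2] at h
      have h0 : (c : ℤ) • s1.P W u v + (d : ℤ) • s2.P W u v = 0 := by
        rw [h, neg_add_cancel]
      exact (indep hA hs1 hs2 hind1 hind2 hW hf h0).1
  omega

/-- **Zariski argument along a line.**  Let `L₀, L₁` be two affine lines in the parameter plane
along which the curves agree.  If the coordinates of `P₃ (L₁ τ)` in the basis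
`P₁ (L₀ τ), P₂ (L₀ τ)` are `(m, n)` for one good `τ = τ₀`, they are `(m, n)` for every good `τ`. -/
theorem zariski_line [Infinite K] (hfl : IsPolyLine f)
    (h1x : IsPolyLine s1.x) (h1y : IsPolyLine s1.y) (h2x : IsPolyLine s2.x) (h2y : IsPolyLine s2.y)
    {s3 : Sec K} {e3 : K} (hs3 : IsTorsSec a b s3 e3) (h3x : IsPolyLine s3.x) (h3y : IsPolyLine s3.y)
    (p0 q0 r0 t0 p1 q1 r1 t1 : K)
    (hlink : ∀ τ : K, a (p1 + τ * q1) (r1 + τ * t1) = a (p0 + τ * q0) (r0 + τ * t0) ∧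
      b (p1 + τ * q1) (r1 + τ * t1) = b (p0 + τ * q0) (r0 + τ * t0))
    {τ₀ : K} (hf0 : f (p0 + τ₀ * q0) (r0 + τ₀ * t0) ≠ 0) {W0 : Affine K}
    (hW0 : IsShort W0 (a (p0 + τ₀ * q0) (r0 + τ₀ * t0)) (b (p0 + τ₀ * q0) (r0 + τ₀ * t0)))
    {m n : ℤ}
    (h0 : s3.P W0 (p1 + τ₀ * q1) (r1 + τ₀ * t1) =
      m • s1.P W0 (p0 + τ₀ * q0) (r0 + τ₀ * t0) + n • s2.P W0 (p0 + τ₀ * q0) (r0 + τ₀ * t0))
    {t : K} (hft : f (p0 + t * q0) (r0 + t * t0) ≠ 0) {W : Affine K}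
    (hW : IsShort W (a (p0 + t * q0) (r0 + t * t0)) (b (p0 + t * q0) (r0 + t * t0))) :
    s3.P W (p1 + t * q1) (r1 + t * t1) =
      m • s1.P W (p0 + t * q0) (r0 + t * t0) + n • s2.P W (p0 + t * q0) (r0 + t * t0) := by
  classical
  -- goodness and shortness along the second line
  have hf1 : ∀ τ : K, f (p0 + τ * q0) (r0 + τ * t0) ≠ 0 → f (p1 + τ * q1) (r1 + τ * t1) ≠ 0 := by
    intro τ h
    rw [hA.disc, (hlink τ).1, (hlink τ).2]
    exact (hA.disc _ _).mp h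
  have hsh1 : ∀ (τ : K) (W' : Affine K),
      IsShort W' (a (p0 + τ * q0) (r0 + τ * t0)) (b (p0 + τ * q0) (r0 + τ * t0)) →
      IsShort W' (a (p1 + τ * q1) (r1 + τ * t1)) (b (p1 + τ * q1) (r1 + τ * t1)) := by
    intro τ W' h
    rw [(hlink τ).1, (hlink τ).2]; exact h
  -- the polynomials
  obtain ⟨d, hd⟩ := hfl p0 q0 r0 t0
  have hd0 : d ≠ 0 := by
    rintro rfl
    exact hf0 (by rw [← hd τ₀, eval_zero])
  obtain ⟨P3x, hP3x⟩ := h3x p1 q1 r1 t1
  obtain ⟨P3y, hP3y⟩ := h3y p1 q1 r1 t1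
  choose MX1 MY1 hM1 using fun c : ℕ => exists_poly_mul h1x h1y e1 c p0 q0 r0 t0
  choose MX2 MY2 hM2 using fun c : ℕ => exists_poly_mul h2x h2y e2 c p0 q0 r0 t0
  -- the closed conditions
  let g : Fin 5 × Fin 5 → K[X] := fun cd =>
    if (cd.1 : ℕ) = 0 then (if (cd.2 : ℕ) = 0 then 1 else P3x - MX2 cd.2)
    else if (cd.2 : ℕ) = 0 then P3x - MX1 cd.1
    else P3x * (MX1 cd.1 - MX2 cd.2) ^ 2 -
      ((MY1 cd.1 - MY2 cd.2) ^ 2 - (MX1 cd.1 + MX2 cd.2) * (MX1 cd.1 - MX2 cd.2) ^ 2)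
  let h : Fin 5 × Fin 5 → K[X] := fun cd =>
    if (cd.1 : ℕ) = 0 then (if (cd.2 : ℕ) = 0 then 1 else P3y - MY2 cd.2)
    else if (cd.2 : ℕ) = 0 then P3y - MY1 cd.1
    else (P3y + MY1 cd.1) * (MX1 cd.1 - MX2 cd.2) + (MY1 cd.1 - MY2 cd.2) * (P3x - MX1 cd.1)
  have key : ∀ (τ : K), f (p0 + τ * q0) (r0 + τ * t0) ≠ 0 → ∀ (W' : Affine K),
      IsShort W' (a (p0 + τ * q0) (r0 + τ * t0)) (b (p0 + τ * q0) (r0 + τ * t0)) →
      ∀ cd : Fin 5 × Fin 5,
      (s3.P W' (p1 + τ * q1) (r1 + τ * t1) =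
        ((cd.1 : ℕ) : ℤ) • s1.P W' (p0 + τ * q0) (r0 + τ * t0) +
        ((cd.2 : ℕ) : ℤ) • s2.P W' (p0 + τ * q0) (r0 + τ * t0) ↔
        (g cd).eval τ = 0 ∧ (h cd).eval τ = 0) := by
    intro τ hfτ W' hW' cd
    obtain ⟨c, d'⟩ := cd
    have hn3 := hs3.nons hA (hsh1 τ W' hW') (hf1 τ hfτ)
    have hc4 : (c : ℕ) ≤ 4 := by have := c.isLt; omega
    have hd4 : (d' : ℕ) ≤ 4 := by have := d'.isLt; omega
    by_cases hc : (c : ℕ) = 0
    · by_cases hdz : (d' : ℕ) = 0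
      · simp only [g, h, hc, hdz, if_true, Nat.cast_zero, zero_smul, add_zero, eval_one,
          one_ne_zero, and_self, iff_false]
        exact hs3.P_ne_zero hA (hsh1 τ W' hW') (hf1 τ hfτ)
      · obtain ⟨hn2, hco2⟩ := hs2.nsmul_coord hA hW' hfτ (c := (d' : ℕ)) (by omega) hd4
        simp only [g, h, hc, hdz, if_true, if_false, Nat.cast_zero, zero_smul, zero_add, eval_sub]
        rw [hco2, Sec.P, pt_eq_pt_iff hn3 hn2, hP3x τ, hP3y τ, (hM2 _ τ).1, (hM2 _ τ).2,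
          sub_eq_zero, sub_eq_zero]
    · by_cases hdz : (d' : ℕ) = 0
      · obtain ⟨hn1, hco1⟩ := hs1.nsmul_coord hA hW' hfτ (c := (c : ℕ)) (by omega) hc4
        simp only [g, h, hc, hdz, if_true, if_false, Nat.cast_zero, zero_smul, add_zero, eval_sub]
        rw [hco1, Sec.P, pt_eq_pt_iff hn3 hn1, hP3x τ, hP3y τ, (hM1 _ τ).1, (hM1 _ τ).2,
          sub_eq_zero, sub_eq_zero]
      · obtain ⟨hn1, hco1⟩ := hs1.nsmul_coord hA hW' hfτ (c := (c : ℕ)) (by omega) hc4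
        obtain ⟨hn2, hco2⟩ := hs2.nsmul_coord hA hW' hfτ (c := (d' : ℕ)) (by omega) hd4
        have hxne := mulX_ne_mulX hA hs1 hs2 hind1 hind2 hW' hfτ (c := (c : ℕ)) (d := (d' : ℕ))
          (by omega) hc4 (by omega) hd4
        simp only [g, h, hc, hdz, if_false, eval_sub, eval_add, eval_mul, eval_pow]
        rw [hco1, hco2, Sec.P, pt_add_pt_eq_iff hW' hn1 hn2 hn3 hxne, hP3x τ, hP3y τ,
          (hM1 _ τ).1, (hM1 _ τ).2, (hM2 _ τ).1, (hM2 _ τ).2]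
  -- covering
  have hcov : ∀ τ : K, d.eval τ ≠ 0 → ∃ i, (g i).eval τ = 0 ∧ (h i).eval τ = 0 := by
    intro τ hτ
    rw [hd τ] at hτ
    let Wτ : Affine K :=
      ⟨0, 0, 0, a (p0 + τ * q0) (r0 + τ * t0), b (p0 + τ * q0) (r0 + τ * t0)⟩
    have hWτ : IsShort Wτ (a (p0 + τ * q0) (r0 + τ * t0)) (b (p0 + τ * q0) (r0 + τ * t0)) :=
      ⟨rfl, rfl, rfl, rfl, rfl⟩
    obtain ⟨c, d', hcd⟩ := span hA hs1 hs2 hind1 hind2 hWτ hτ
      (s3.P Wτ (p1 + τ * q1) (r1 + τ * t1)) (hs3.five_zsmul hA (hsh1 τ Wτ hWτ) (hf1 τ hτ))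
    exact ⟨(c, d'), (key τ hτ Wτ hWτ (c, d')).mp hcd⟩
  obtain ⟨⟨c0, d0⟩, hg0, hh0⟩ := exists_pair_eq_zero_of_cover d hd0 g h hcov
  have hall : ∀ (τ : K), f (p0 + τ * q0) (r0 + τ * t0) ≠ 0 → ∀ (W' : Affine K),
      IsShort W' (a (p0 + τ * q0) (r0 + τ * t0)) (b (p0 + τ * q0) (r0 + τ * t0)) →
      s3.P W' (p1 + τ * q1) (r1 + τ * t1) =
        ((c0 : ℕ) : ℤ) • s1.P W' (p0 + τ * q0) (r0 + τ * t0) +
        ((d0 : ℕ) : ℤ) • s2.P W' (p0 + τ * q0) (r0 + τ * t0) := by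
    intro τ hfτ W' hW'
    refine (key τ hfτ W' hW' (c0, d0)).mpr ?_
    rw [hg0, hh0]; simp
  -- identify the index at `τ₀`
  have hat0 := hall τ₀ hf0 W0 hW0
  rw [h0] at hat0
  have hz : (m - ((c0 : ℕ) : ℤ)) • s1.P W0 (p0 + τ₀ * q0) (r0 + τ₀ * t0) +
      (n - ((d0 : ℕ) : ℤ)) • s2.P W0 (p0 + τ₀ * q0) (r0 + τ₀ * t0) = 0 := by
    rw [sub_smul, sub_smul]
    have := sub_eq_zero.mpr hat0
    rw [← this]; abel
  obtain ⟨hm5, hn5⟩ := indep hA hs1 hs2 hind1 hind2 hW0 hf0 hz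
  rw [hall t hft W hW]
  congr 1
  · exact hs1.zsmul_eq_of_modEq hA hW hft ((Int.modEq_iff_dvd.mpr hm5))
  · exact hs2.zsmul_eq_of_modEq hA hW hft ((Int.modEq_iff_dvd.mpr hn5))

end Zariski

/-! ## Part 4: ring endomorphisms act by the same matrix at `w₀` and at `R_t w₀` -/

/-- The pencil `R_τ (u, v) = (u + τ n₁(u,v), v + τ n₂(u,v))` only sees the curve: if two parameter
points have the same curve, so do their images under `R_τ`, for every `τ`. -/
def IsLink (a b n1 n2 : K → K → K) : Prop :=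
  ∀ u v u' v' : K, a u' v' = a u v → b u' v' = b u v → ∀ τ : K,
    a (u' + τ * n1 u' v') (v' + τ * n2 u' v') = a (u + τ * n1 u v) (v + τ * n2 u v) ∧
    b (u' + τ * n1 u' v') (v' + τ * n2 u' v') = b (u + τ * n1 u v) (v + τ * n2 u v)

/-- All the data identities, bundled. -/
structure IsKleinData (f a b n1 n2 : K → K → K) (s1 s2 : Sec K) (e1 e2 : K) : Prop where
  amb : IsAmb f a b
  sec1 : IsTorsSec a b s1 e1
  sec2 : IsTorsSec a b s2 e2
  ind1 : ∀ u v, f u v ≠ 0 → s2.x u v ≠ s1.x u v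
  ind2 : ∀ u v, f u v ≠ 0 → s2.x u v ≠ s1.x v (-u)
  fl : IsPolyLine f
  x1l : IsPolyLine s1.x
  y1l : IsPolyLine s1.y
  x2l : IsPolyLine s2.x
  y2l : IsPolyLine s2.y
  link : IsLink a b n1 n2

/-- Compatibility of a ring endomorphism `σ` with the data; `c₁, c₂ ∈ {1,2,3,4}` are the
multipliers of the conjugation rule `σ (Pᵢ (w)) = cᵢ • Pᵢ (σ w)`. -/
structure IsCompat (σ : K →+* K) (a b n1 n2 : K → K → K) (s1 s2 : Sec K) (e1 e2 : K)
    (c1 c2 : ℕ) : Prop where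
  n1 : ∀ u v, σ (n1 u v) = n1 (σ u) (σ v)
  n2 : ∀ u v, σ (n2 u v) = n2 (σ u) (σ v)
  a : ∀ u v, σ (a u v) = a (σ u) (σ v)
  b : ∀ u v, σ (b u v) = b (σ u) (σ v)
  c1_pos : 1 ≤ c1
  c1_le : c1 ≤ 4
  c2_pos : 1 ≤ c2
  c2_le : c2 ≤ 4
  x1 : ∀ u v, σ (s1.x u v) = s1.mulX c1 (σ u) (σ v)
  y1 : ∀ u v, σ (s1.y u v) = s1.mulY e1 c1 (σ u) (σ v)
  x2 : ∀ u v, σ (s2.x u v) = s2.mulX c2 (σ u) (σ v)
  y2 : ∀ u v, σ (s2.y u v) = s2.mulY e2 c2 (σ u) (σ v)

section Pencil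

variable {f a b n1 n2 : K → K → K} {s1 s2 : Sec K} {e1 e2 : K}

/-- **Zariski argument along the pencil** (the base point is `τ = 0`). -/
theorem zariski_pencil [Infinite K] (hD : IsKleinData f a b n1 n2 s1 s2 e1 e2)
    {s3 : Sec K} {e3 : K} (hs3 : IsTorsSec a b s3 e3) (h3x : IsPolyLine s3.x)
    (h3y : IsPolyLine s3.y) {u0 v0 u1 v1 : K} (ha : a u1 v1 = a u0 v0) (hb : b u1 v1 = b u0 v0)
    (hf0 : f u0 v0 ≠ 0) {W0 : Affine K} (hW0 : IsShort W0 (a u0 v0) (b u0 v0)) {m n : ℤ}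
    (h0 : s3.P W0 u1 v1 = m • s1.P W0 u0 v0 + n • s2.P W0 u0 v0)
    {t : K} (hft : f (u0 + t * n1 u0 v0) (v0 + t * n2 u0 v0) ≠ 0) {W : Affine K}
    (hW : IsShort W (a (u0 + t * n1 u0 v0) (v0 + t * n2 u0 v0))
      (b (u0 + t * n1 u0 v0) (v0 + t * n2 u0 v0))) :
    s3.P W (u1 + t * n1 u1 v1) (v1 + t * n2 u1 v1) =
      m • s1.P W (u0 + t * n1 u0 v0) (v0 + t * n2 u0 v0) +
      n • s2.P W (u0 + t * n1 u0 v0) (v0 + t * n2 u0 v0) := by
  refine zariski_line hD.amb hD.sec1 hD.sec2 hD.ind1 hD.ind2 hD.fl hD.x1l hD.y1l hD.x2l hD.y2l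
    hs3 h3x h3y u0 (n1 u0 v0) v0 (n2 u0 v0) u1 (n1 u1 v1) v1 (n2 u1 v1)
    (fun τ => hD.link u0 v0 u1 v1 ha hb τ) (τ₀ := 0) ?_ (W0 := W0) ?_ ?_ hft hW
  · simpa using hf0
  · simpa using hW0
  · simpa using h0

/-- **Matrix form of L3-GEN.**  A map `ψ` on the points of the curve of `w₀` and a map `ψ'` on the
points of the curve of `R_t w₀`, both acting on coordinates through the same ring endomorphism `σ`
fixing the curve of `w₀` and `t`, have the same matrix in the bases `P₁, P₂`. -/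
theorem exists_matrix [Infinite K] (hD : IsKleinData f a b n1 n2 s1 s2 e1 e2) {σ : K →+* K}
    {c1 c2 : ℕ} (hσ : IsCompat σ a b n1 n2 s1 s2 e1 e2 c1 c2) {u0 v0 t : K}
    (hf0 : f u0 v0 ≠ 0) (hσa : σ (a u0 v0) = a u0 v0) (hσb : σ (b u0 v0) = b u0 v0)
    (hσt : σ t = t) (hft : f (u0 + t * n1 u0 v0) (v0 + t * n2 u0 v0) ≠ 0)
    {W W' : Affine K} (hW : IsShort W (a u0 v0) (b u0 v0))
    (hW' : IsShort W' (a (u0 + t * n1 u0 v0) (v0 + t * n2 u0 v0))
      (b (u0 + t * n1 u0 v0) (v0 + t * n2 u0 v0)))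
    (ψ : W.Point → W.Point) (hψ : ∀ x y, W.Nonsingular x y → ψ (pt W x y) = pt W (σ x) (σ y))
    (ψ' : W'.Point → W'.Point)
    (hψ' : ∀ x y, W'.Nonsingular x y → ψ' (pt W' x y) = pt W' (σ x) (σ y)) :
    ∃ m11 m12 m21 m22 : ℤ,
      ψ (s1.P W u0 v0) = m11 • s1.P W u0 v0 + m12 • s2.P W u0 v0 ∧
      ψ (s2.P W u0 v0) = m21 • s1.P W u0 v0 + m22 • s2.P W u0 v0 ∧
      ψ' (s1.P W' (u0 + t * n1 u0 v0) (v0 + t * n2 u0 v0)) =
        m11 • s1.P W' (u0 + t * n1 u0 v0) (v0 + t * n2 u0 v0) +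
        m12 • s2.P W' (u0 + t * n1 u0 v0) (v0 + t * n2 u0 v0) ∧
      ψ' (s2.P W' (u0 + t * n1 u0 v0) (v0 + t * n2 u0 v0)) =
        m21 • s1.P W' (u0 + t * n1 u0 v0) (v0 + t * n2 u0 v0) +
        m22 • s2.P W' (u0 + t * n1 u0 v0) (v0 + t * n2 u0 v0) := by
  have hA := hD.amb
  have hs1 := hD.sec1
  have hs2 := hD.sec2
  have ha1 : a (σ u0) (σ v0) = a u0 v0 := by rw [← hσ.a, hσa]
  have hb1 : b (σ u0) (σ v0) = b u0 v0 := by rw [← hσ.b, hσb]
  have hf1 : f (σ u0) (σ v0) ≠ 0 := by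
    rw [hA.disc, ha1, hb1]; exact (hA.disc _ _).mp hf0
  have hW1 : IsShort W (a (σ u0) (σ v0)) (b (σ u0) (σ v0)) := by rw [ha1, hb1]; exact hW
  have hσu : σ (u0 + t * n1 u0 v0) = σ u0 + t * n1 (σ u0) (σ v0) := by
    rw [map_add, map_mul, hσt, hσ.n1]
  have hσv : σ (v0 + t * n2 u0 v0) = σ v0 + t * n2 (σ u0) (σ v0) := by
    rw [map_add, map_mul, hσt, hσ.n2]
  obtain ⟨hat, hbt⟩ := hD.link u0 v0 (σ u0) (σ v0) ha1 hb1 t
  have hft1 : f (σ u0 + t * n1 (σ u0) (σ v0)) (σ v0 + t * n2 (σ u0) (σ v0)) ≠ 0 := by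
    rw [hA.disc, hat, hbt]; exact (hA.disc _ _).mp hft
  have hW1' : IsShort W' (a (σ u0 + t * n1 (σ u0) (σ v0)) (σ v0 + t * n2 (σ u0) (σ v0)))
      (b (σ u0 + t * n1 (σ u0) (σ v0)) (σ v0 + t * n2 (σ u0) (σ v0))) := by
    rw [hat, hbt]; exact hW'
  -- the first section
  have e1eq : ψ (s1.P W u0 v0) = (c1 : ℤ) • s1.P W (σ u0) (σ v0) := by
    rw [Sec.P, hψ _ _ (hs1.nons hA hW hf0), hσ.x1, hσ.y1]
    exact ((hs1.nsmul_coord hA hW1 hf1 hσ.c1_pos hσ.c1_le).2).symm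
  have e1eq' : ψ' (s1.P W' (u0 + t * n1 u0 v0) (v0 + t * n2 u0 v0)) =
      (c1 : ℤ) • s1.P W' (σ u0 + t * n1 (σ u0) (σ v0)) (σ v0 + t * n2 (σ u0) (σ v0)) := by
    rw [Sec.P, hψ' _ _ (hs1.nons hA hW' hft), hσ.x1, hσ.y1, hσu, hσv]
    exact ((hs1.nsmul_coord hA hW1' hft1 hσ.c1_pos hσ.c1_le).2).symm
  obtain ⟨c, d, hcd⟩ := span hA hs1 hs2 hD.ind1 hD.ind2 hW hf0 (s1.P W (σ u0) (σ v0))
    (hs1.five_zsmul hA hW1 hf1)
  have z1 := zariski_pencil hD hs1 hD.x1l hD.y1l ha1 hb1 hf0 hW hcd hft hW'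
  -- the second section
  have e2eq : ψ (s2.P W u0 v0) = (c2 : ℤ) • s2.P W (σ u0) (σ v0) := by
    rw [Sec.P, hψ _ _ (hs2.nons hA hW hf0), hσ.x2, hσ.y2]
    exact ((hs2.nsmul_coord hA hW1 hf1 hσ.c2_pos hσ.c2_le).2).symm
  have e2eq' : ψ' (s2.P W' (u0 + t * n1 u0 v0) (v0 + t * n2 u0 v0)) =
      (c2 : ℤ) • s2.P W' (σ u0 + t * n1 (σ u0) (σ v0)) (σ v0 + t * n2 (σ u0) (σ v0)) := by
    rw [Sec.P, hψ' _ _ (hs2.nons hA hW' hft), hσ.x2, hσ.y2, hσu, hσv]
    exact ((hs2.nsmul_coord hA hW1' hft1 hσ.c2_pos hσ.c2_le).2).symm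
  obtain ⟨c', d', hcd'⟩ := span hA hs1 hs2 hD.ind1 hD.ind2 hW hf0 (s2.P W (σ u0) (σ v0))
    (hs2.five_zsmul hA hW1 hf1)
  have z2 := zariski_pencil hD hs2 hD.x2l hD.y2l ha1 hb1 hf0 hW hcd' hft hW'
  refine ⟨(c1 : ℤ) * ((c : ℕ) : ℤ), (c1 : ℤ) * ((d : ℕ) : ℤ), (c2 : ℤ) * ((c' : ℕ) : ℤ),
    (c2 : ℤ) * ((d' : ℕ) : ℤ), ?_, ?_, ?_, ?_⟩
  · rw [e1eq, hcd, smul_add, smul_smul, smul_smul]
  · rw [e2eq, hcd', smul_add, smul_smul, smul_smul]
  · rw [e1eq', z1, smul_add, smul_smul, smul_smul]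
  · rw [e2eq', z2, smul_add, smul_smul, smul_smul]

end Pencil

/-! ## Part 5: the consumer -/

omit [DecidableEq K] in
/-- Pure group theory: two endomorphisms with the same matrix on independent `5`-torsion bases and
quadratic relations `X² - a X + q`, `X² - a' X + q` have `a ≡ a' (mod 5)`. -/
theorem dvd_of_matrix {G G' : Type*} [AddCommGroup G] [AddCommGroup G'] (ψ : G →+ G)
    (ψ' : G' →+ G') {p1 p2 : G} {p1' p2' : G'}
    (h5p1' : (5 : ℤ) • p1' = 0) (h5p2' : (5 : ℤ) • p2' = 0)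
    (hind : ∀ m n : ℤ, m • p1 + n • p2 = 0 → (5 : ℤ) ∣ m ∧ (5 : ℤ) ∣ n)
    (hind' : ∀ m n : ℤ, m • p1' + n • p2' = 0 → (5 : ℤ) ∣ m ∧ (5 : ℤ) ∣ n)
    {m11 m12 m21 m22 : ℤ}
    (h1 : ψ p1 = m11 • p1 + m12 • p2) (h2 : ψ p2 = m21 • p1 + m22 • p2)
    (h1' : ψ' p1' = m11 • p1' + m12 • p2') (h2' : ψ' p2' = m21 • p1' + m22 • p2')
    {a a' q : ℤ} (hCH : ψ (ψ p1) - a • ψ p1 + q • p1 = 0)
    (hCH' : ψ' (ψ' p1') - a' • ψ' p1' + q • p1' = 0) (hne : ψ' p1' ≠ 0) :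
    (5 : ℤ) ∣ a' - a := by
  -- the relation at `p1` in coordinates
  have e : ψ (ψ p1) - a • ψ p1 + q • p1 =
      (m11 * m11 + m12 * m21 - a * m11 + q) • p1 + (m11 * m12 + m12 * m22 - a * m12) • p2 := by
    rw [h1, map_add, map_zsmul, map_zsmul, h1, h2]
    simp only [smul_add, smul_smul, add_smul, sub_smul]
    abel
  have e' : ψ' (ψ' p1') - a • ψ' p1' + q • p1' =
      (m11 * m11 + m12 * m21 - a * m11 + q) • p1' + (m11 * m12 + m12 * m22 - a * m12) • p2' := by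
    rw [h1', map_add, map_zsmul, map_zsmul, h1', h2']
    simp only [smul_add, smul_smul, add_smul, sub_smul]
    abel
  rw [e] at hCH
  obtain ⟨⟨k1, hk1⟩, ⟨k2, hk2⟩⟩ := hind _ _ hCH
  have hz : ψ' (ψ' p1') - a • ψ' p1' + q • p1' = 0 := by
    rw [e', hk1, hk2, mul_comm 5 k1, mul_comm 5 k2, mul_smul, mul_smul, h5p1', h5p2', smul_zero,
      smul_zero, add_zero]
  have hdiff : (a' - a) • ψ' p1' = 0 := by
    have := sub_eq_zero.mpr (hz.trans hCH'.symm)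
    rw [← this, sub_smul]; abel
  by_contra hndvd
  rw [h1', smul_add, smul_smul, smul_smul] at hdiff
  obtain ⟨hd1, hd2⟩ := hind' _ _ hdiff
  have hp : Prime (5 : ℤ) := by norm_num
  obtain ⟨j1, hj1⟩ := (hp.dvd_or_dvd hd1).resolve_left hndvd
  obtain ⟨j2, hj2⟩ := (hp.dvd_or_dvd hd2).resolve_left hndvd
  apply hne
  rw [h1', hj1, hj2, mul_comm 5 j1, mul_comm 5 j2, mul_smul, mul_smul, h5p1', h5p2', smul_zero,
    smul_zero, add_zero]

section Consumer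

variable {f a b n1 n2 : K → K → K} {s1 s2 : Sec K} {e1 e2 : K}

/-- **θ-free consumer form of L3-GEN.**  If `ψ`, `ψ'` (additive, acting on coordinates through
`σ`) satisfy `ψ² - a₀ ψ + q = 0` and `ψ'² - a₀' ψ' + q = 0`, then `5 ∣ a₀' - a₀`. -/
theorem five_dvd_of_CH [Infinite K] (hD : IsKleinData f a b n1 n2 s1 s2 e1 e2) {σ : K →+* K}
    {c1 c2 : ℕ} (hσ : IsCompat σ a b n1 n2 s1 s2 e1 e2 c1 c2) {u0 v0 t : K}
    (hf0 : f u0 v0 ≠ 0) (hσa : σ (a u0 v0) = a u0 v0) (hσb : σ (b u0 v0) = b u0 v0)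
    (hσt : σ t = t) (hft : f (u0 + t * n1 u0 v0) (v0 + t * n2 u0 v0) ≠ 0)
    {W W' : Affine K} (hW : IsShort W (a u0 v0) (b u0 v0))
    (hW' : IsShort W' (a (u0 + t * n1 u0 v0) (v0 + t * n2 u0 v0))
      (b (u0 + t * n1 u0 v0) (v0 + t * n2 u0 v0)))
    (ψ : W.Point →+ W.Point) (hψ : ∀ x y, W.Nonsingular x y → ψ (pt W x y) = pt W (σ x) (σ y))
    (ψ' : W'.Point →+ W'.Point)
    (hψ' : ∀ x y, W'.Nonsingular x y → ψ' (pt W' x y) = pt W' (σ x) (σ y))
    (hinj : Function.Injective ψ') {a₀ a₀' q : ℤ}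
    (hCH : ∀ P : W.Point, ψ (ψ P) - a₀ • ψ P + q • P = 0)
    (hCH' : ∀ P : W'.Point, ψ' (ψ' P) - a₀' • ψ' P + q • P = 0) :
    (5 : ℤ) ∣ a₀' - a₀ := by
  obtain ⟨m11, m12, m21, m22, h1, h2, h1', h2'⟩ :=
    exists_matrix hD hσ hf0 hσa hσb hσt hft hW hW' ψ hψ ψ' hψ'
  have hA := hD.amb
  refine dvd_of_matrix ψ ψ' (hD.sec1.five_zsmul hA hW' hft) (hD.sec2.five_zsmul hA hW' hft)
    (fun m n h => indep hA hD.sec1 hD.sec2 hD.ind1 hD.ind2 hW hf0 h)
    (fun m n h => indep hA hD.sec1 hD.sec2 hD.ind1 hD.ind2 hW' hft h)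
    h1 h2 h1' h2' (hCH _) (hCH' _) ?_
  intro h0
  have : s1.P W' (u0 + t * n1 u0 v0) (v0 + t * n2 u0 v0) = 0 := hinj (by rw [h0, map_zero])
  exact hD.sec1.P_ne_zero hA hW' hft this

end Consumer

end Fermat.Agent.S52.helper8890
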