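import Mathlib
import Fermat.Agent.S14.helper2850_ZetaLemma

/-!
# S52, leaf (C): the auxiliary prime, from the S14 zeta lemma

`exists_aux_prime`: let `θ ∈ Qbar` be fixed by some `σ ∈ Gal(Qbar/ℚ)` that moves a square root
`s` of the integer `D`.  Let `P, Q ∈ ℤ[X]` with `P(θ) = 0`, `Q(θ) ≠ 0`, and let `T` be a finite
set of primes.  Then there are a prime `q ∉ T` with `D` a non-square modulo `q` and an integer `t`
with `q ∣ P(t)` and `q ∤ Q(t)`.
-/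

set_option autoImplicit false

open NumberField Polynomial

namespace Fermat.Agent.S52.helper9361

noncomputable section

local notation "Qb" => AlgebraicClosure ℚ

/-- The fixed field of a single automorphism of `Qbar`. -/
def fixF (σ : Qb ≃ₐ[ℚ] Qb) : IntermediateField ℚ Qb where
  carrier := {x | σ x = x}
  mul_mem' := by
    intro a b ha hb
    change σ a = a at ha
    change σ b = b at hb
    change σ (a * b) = a * b
    rw [map_mul, ha, hb]
  one_mem' := map_one σ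
  add_mem' := by
    intro a b ha hb
    change σ a = a at ha
    change σ b = b at hb
    change σ (a + b) = a + b
    rw [map_add, ha, hb]
  zero_mem' := map_zero σ
  algebraMap_mem' := fun r => σ.commutes r
  inv_mem' := by
    intro x hx
    change σ x = x at hx
    change σ x⁻¹ = x⁻¹
    rw [map_inv₀, hx]

theorem mem_fixF {σ : Qb ≃ₐ[ℚ] Qb} {x : Qb} : x ∈ fixF σ ↔ σ x = x := Iff.rfl

/-- The big field `ℚ(θ, s)`. -/
def bigF (θ s : Qb) : IntermediateField ℚ Qb := IntermediateField.adjoin ℚ {θ, s}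

/-- The small field: the elements of `ℚ(θ, s)` fixed by `σ`. -/
def smallF (θ s : Qb) (σ : Qb ≃ₐ[ℚ] Qb) : IntermediateField ℚ Qb := bigF θ s ⊓ fixF σ

instance bigF_finite (θ s : Qb) : FiniteDimensional ℚ (bigF θ s) :=
  IntermediateField.finiteDimensional_adjoin (fun x _ => ((AlgebraicClosure.isAlgebraic ℚ).isAlgebraic x).isIntegral)

instance bigF_numberField (θ s : Qb) : NumberField (bigF θ s) where
  to_charZero := inferInstance
  to_finiteDimensional := bigF_finite θ s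

theorem smallF_le (θ s : Qb) (σ : Qb ≃ₐ[ℚ] Qb) : smallF θ s σ ≤ bigF θ s := inf_le_left

instance smallF_finite (θ s : Qb) (σ : Qb ≃ₐ[ℚ] Qb) : FiniteDimensional ℚ (smallF θ s σ) :=
  Module.Finite.of_injective (IntermediateField.inclusion (smallF_le θ s σ)).toLinearMap
    (IntermediateField.inclusion (smallF_le θ s σ)).injective

instance smallF_numberField (θ s : Qb) (σ : Qb ≃ₐ[ℚ] Qb) : NumberField (smallF θ s σ) where
  to_charZero := inferInstance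
  to_finiteDimensional := smallF_finite θ s σ

/-! ### Integers of an intermediate field, seen inside `Qbar` -/

/-- The coercion from the ring of integers of an intermediate field to `Qbar`. -/
def cv (F : IntermediateField ℚ Qb) : 𝓞 F →+* Qb :=
  (algebraMap F Qb).comp (algebraMap (𝓞 F) F)

theorem cv_injective (F : IntermediateField ℚ Qb) : Function.Injective (cv F) :=
  (algebraMap F Qb).injective.comp RingOfIntegers.coe_injective

theorem cv_mem (F : IntermediateField ℚ Qb) (a : 𝓞 F) : cv F a ∈ F :=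
  (algebraMap (𝓞 F) F a).2

theorem cv_isIntegral (F : IntermediateField ℚ Qb) (a : 𝓞 F) : IsIntegral ℤ (cv F a) :=
  map_isIntegral_int (algebraMap F Qb) (RingOfIntegers.isIntegral_coe a)

theorem exists_cv_eq (F : IntermediateField ℚ Qb) {x : Qb} (hx : x ∈ F) (hi : IsIntegral ℤ x) :
    ∃ a : 𝓞 F, cv F a = x :=
  ⟨⟨⟨x, hx⟩, (isIntegral_algebraMap_iff (algebraMap F Qb).injective).mp hi⟩, rfl⟩

/-- The inclusion of rings of integers induced by an inclusion of intermediate fields. -/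
def incl {F F' : IntermediateField ℚ Qb} (h : F ≤ F') : 𝓞 F →+* 𝓞 F' :=
  RingOfIntegers.mapRingHom (IntermediateField.inclusion h).toRingHom

theorem cv_incl {F F' : IntermediateField ℚ Qb} (h : F ≤ F') (a : 𝓞 F) :
    cv F' (incl h a) = cv F a := rfl

/-- A prime ideal of norm `ℓ` is the kernel of a surjection onto `ZMod ℓ`. -/
theorem exists_hom_zmod (F : IntermediateField ℚ Qb) [NumberField F] (ℓ : ℕ) (hℓ : ℓ.Prime)
    (𝔮 : Ideal (𝓞 F)) (hN : Ideal.absNorm 𝔮 = ℓ) :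
    ∃ π : 𝓞 F →+* ZMod ℓ, Function.Surjective π ∧ RingHom.ker π = 𝔮 := by
  have : Finite (𝓞 F ⧸ 𝔮) := (Ideal.absNorm_ne_zero_iff 𝔮).mp (hN ▸ hℓ.ne_zero)
  let _ : Fintype (𝓞 F ⧸ 𝔮) := Fintype.ofFinite _
  have hcard : Fintype.card (𝓞 F ⧸ 𝔮) = ℓ := by
    rw [← Nat.card_eq_fintype_card, ← hN, Ideal.absNorm_apply, Submodule.cardQuot_apply]
  let e : ZMod ℓ ≃+* (𝓞 F ⧸ 𝔮) := ZMod.ringEquivOfPrime (𝓞 F ⧸ 𝔮) hℓ hcard
  refine ⟨e.symm.toRingHom.comp (Ideal.Quotient.mk 𝔮),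
    e.symm.surjective.comp Ideal.Quotient.mk_surjective, ?_⟩
  ext x
  rw [RingHom.mem_ker, RingHom.comp_apply]
  change e.symm (Ideal.Quotient.mk 𝔮 x) = 0 ↔ x ∈ 𝔮
  rw [map_eq_zero_iff e.symm e.symm.injective, Ideal.Quotient.eq_zero_iff_mem]

/-- Reduction of a root: a degree-one prime `𝔮` of `F` (norm `ℓ`) not dividing the denominator
`m` of `θ` gives an integer `t` with `ℓ ∣ P(t)`; and `ℓ ∤ Q(t)` as soon as the integral multiple
`β` of `Q(θ)` is outside `𝔮`. -/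
theorem exists_int_root (F : IntermediateField ℚ Qb) [NumberField F] (θ : Qb) (m : ℤ)
    (α : 𝓞 F) (hα : cv F α = (m : Qb) * θ) (P Q : ℤ[X]) (hP : aeval θ P = 0)
    (ℓ : ℕ) (hℓ : ℓ.Prime) (hm : ¬ (ℓ : ℤ) ∣ m) (𝔮 : Ideal (𝓞 F)) (hN : Ideal.absNorm 𝔮 = ℓ)
    (hβ : eval₂ (Int.castRingHom (𝓞 F)) α (scaleRoots Q m) ∉ 𝔮) :
    ∃ t : ℤ, (ℓ : ℤ) ∣ P.eval t ∧ ¬ (ℓ : ℤ) ∣ Q.eval t := by
  have : Fact ℓ.Prime := ⟨hℓ⟩
  obtain ⟨π, hπs, hπk⟩ := exists_hom_zmod F ℓ hℓ 𝔮 hN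
  have hm0 : ((m : ℤ) : ZMod ℓ) ≠ 0 := by
    rw [Ne, ZMod.intCast_zmod_eq_zero_iff_dvd]; exact hm
  obtain ⟨t, ht⟩ := ZMod.intCast_surjective (((m : ℤ) : ZMod ℓ)⁻¹ * π α)
  have hπα : π α = Int.castRingHom (ZMod ℓ) m * (t : ZMod ℓ) := by
    rw [ht, eq_intCast, ← mul_assoc, mul_inv_cancel₀ hm0, one_mul]
  have hcomp : π.comp (Int.castRingHom (𝓞 F)) = Int.castRingHom (ZMod ℓ) := RingHom.ext_int _ _
  have hcomp' : (cv F).comp (Int.castRingHom (𝓞 F)) = Int.castRingHom Qb := RingHom.ext_int _ _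
  -- evaluation of a scaled polynomial modulo `𝔮`
  have key : ∀ R : ℤ[X], π (eval₂ (Int.castRingHom (𝓞 F)) α (scaleRoots R m)) =
      ((m : ℤ) : ZMod ℓ) ^ R.natDegree * ((R.eval t : ℤ) : ZMod ℓ) := by
    intro R
    rw [hom_eval₂, hcomp, hπα, scaleRoots_eval₂_mul, eq_intCast]
    congr 1
    rw [← eq_intCast (Int.castRingHom (ZMod ℓ)) t, eval₂_at_apply, eq_intCast]
  have hP0 : eval₂ (Int.castRingHom (𝓞 F)) α (scaleRoots P m) = 0 := by
    apply cv_injective F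
    rw [hom_eval₂, hcomp', hα, map_zero, ← eq_intCast (Int.castRingHom Qb) m,
      scaleRoots_eval₂_mul]
    have : eval₂ (Int.castRingHom Qb) θ P = aeval θ P := by
      rw [aeval_def]; rfl
    rw [this, hP, mul_zero]
  refine ⟨t, ?_, ?_⟩
  · have h1 := key P
    rw [hP0, map_zero] at h1
    have h2 : ((P.eval t : ℤ) : ZMod ℓ) = 0 := by
      rcases mul_eq_zero.mp h1.symm with h | h
      · exact absurd h (pow_ne_zero _ hm0)
      · exact h
    exact (ZMod.intCast_zmod_eq_zero_iff_dvd _ _).mp h2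
  · intro hdvd
    apply hβ
    rw [← hπk, RingHom.mem_ker, key Q, (ZMod.intCast_zmod_eq_zero_iff_dvd _ _).mpr hdvd, mul_zero]

/-! ### The quadratic extension `F ≤ F'` cut out by `σ` -/

/-- If `x' - ι r ∈ 𝔔` is solvable for every `x'`, then `𝔔` and its contraction have the same
norm. -/
theorem absNorm_eq_of_surj {F F' : IntermediateField ℚ Qb} [NumberField F] [NumberField F']
    (h : F ≤ F') (𝔔 : Ideal (𝓞 F'))
    (hsurj : ∀ x' : 𝓞 F', ∃ r : 𝓞 F, x' - incl h r ∈ 𝔔) :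
    Ideal.absNorm 𝔔 = Ideal.absNorm (𝔔.comap (incl h)) := by
  let g : 𝓞 F →+* 𝓞 F' ⧸ 𝔔 := (Ideal.Quotient.mk 𝔔).comp (incl h)
  have hg : Function.Surjective g := by
    intro z
    obtain ⟨x', rfl⟩ := Ideal.Quotient.mk_surjective z
    obtain ⟨r, hr⟩ := hsurj x'
    exact ⟨r, (Ideal.Quotient.eq.mpr hr).symm⟩
  have hker : RingHom.ker g = 𝔔.comap (incl h) := by
    rw [← RingHom.comap_ker, Ideal.mk_ker]
  have e : (𝓞 F ⧸ RingHom.ker g) ≃+* (𝓞 F' ⧸ 𝔔) := RingHom.quotientKerEquivOfSurjective hg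
  rw [← hker, Ideal.absNorm_apply, Ideal.absNorm_apply, Submodule.cardQuot_apply,
    Submodule.cardQuot_apply]
  exact (Nat.card_congr e.toEquiv).symm

/-- **Splitting of the quadratic.**  Every integer of `F'` is congruent to an integer of `F`
modulo any prime of `F'` above a rational prime `ℓ ∤ 2c` with `c² ≡ D (mod ℓ)`. -/
theorem exists_sub_mem {F F' : IntermediateField ℚ Qb} (h : F ≤ F') (σ : Qb ≃ₐ[ℚ] Qb)
    (hσF' : ∀ x ∈ F', σ x ∈ F') (hσσ : ∀ x ∈ F', σ (σ x) = x)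
    (hfix : ∀ x ∈ F', σ x = x → x ∈ F)
    (s : Qb) (hsmem : s ∈ F') (D : ℤ) (hs : s ^ 2 = (D : Qb)) (hσs : σ s = -s)
    (ℓ a c b k : ℤ) (hbez : 2 * a * c + b * ℓ = 1) (hk : c ^ 2 - D = ℓ * k)
    (𝔔 : Ideal (𝓞 F')) [𝔔.IsPrime] (hℓ : (ℓ : 𝓞 F') ∈ 𝔔) (x' : 𝓞 F') :
    ∃ r : 𝓞 F, x' - incl h r ∈ 𝔔 := by
  have hxF' : cv F' x' ∈ F' := cv_mem F' x'
  have hxi : IsIntegral ℤ (cv F' x') := cv_isIntegral F' x'
  set x : Qb := cv F' x' with hxdef
  set y : Qb := σ x with hydef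
  have hyF' : y ∈ F' := hσF' x hxF'
  have hyi : IsIntegral ℤ y := map_isIntegral_int (σ : Qb →+* Qb) hxi
  have hσy : σ y = x := hσσ x hxF'
  have hsi : IsIntegral ℤ s := by
    refine IsIntegral.of_pow (n := 2) (by norm_num) ?_
    rw [hs]
    exact isIntegral_algebraMap (R := ℤ) (A := Qb) (x := D)
  -- the trace `u = x + y` and `d = (x - y) s` lie in `F`
  have hu : x + y ∈ F := by
    refine hfix _ (add_mem hxF' hyF') ?_
    rw [map_add, hσy, ← hydef, add_comm]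
  have hui : IsIntegral ℤ (x + y) := hxi.add hyi
  have hdi : IsIntegral ℤ ((x - y) * s) := (hxi.sub hyi).mul hsi
  have hd : (x - y) * s ∈ F := by
    refine hfix _ (mul_mem (sub_mem hxF' hyF') hsmem) ?_
    rw [map_mul, map_sub, hσy, ← hydef, hσs]; ring
  have hρ : (a : Qb) * ((c : Qb) * (x + y) + (x - y) * s) ∈ F :=
    mul_mem (intCast_mem F a) (add_mem (mul_mem (intCast_mem F c) hu) hd)
  have hρ' : (a : Qb) * ((c : Qb) * (x + y) - (x - y) * s) ∈ F :=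
    mul_mem (intCast_mem F a) (sub_mem (mul_mem (intCast_mem F c) hu) hd)
  have hρi : IsIntegral ℤ ((a : Qb) * ((c : Qb) * (x + y) + (x - y) * s)) :=
    (isIntegral_algebraMap (R := ℤ) (A := Qb) (x := a)).mul
      (((isIntegral_algebraMap (R := ℤ) (A := Qb) (x := c)).mul hui).add hdi)
  have hρi' : IsIntegral ℤ ((a : Qb) * ((c : Qb) * (x + y) - (x - y) * s)) :=
    (isIntegral_algebraMap (R := ℤ) (A := Qb) (x := a)).mul
      (((isIntegral_algebraMap (R := ℤ) (A := Qb) (x := c)).mul hui).sub hdi)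
  obtain ⟨r, hr⟩ := exists_cv_eq F hρ hρi
  obtain ⟨r', hr'⟩ := exists_cv_eq F hρ' hρi'
  -- the cofactor
  have hwF' : ((b : Qb) ^ 2 * ℓ - 2 * b) * (x * y) + b * ((x + y) * x)
      + (a : Qb) ^ 2 * k * (x - y) ^ 2 ∈ F' := by
    refine add_mem (add_mem (mul_mem ?_ (mul_mem hxF' hyF')) (mul_mem (intCast_mem F' b)
      (mul_mem (add_mem hxF' hyF') hxF'))) (mul_mem (mul_mem (pow_mem (intCast_mem F' a) 2)
      (intCast_mem F' k)) (pow_mem (sub_mem hxF' hyF') 2))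
    exact sub_mem (mul_mem (pow_mem (intCast_mem F' b) 2) (intCast_mem F' ℓ))
      (mul_mem (ofNat_mem F' 2) (intCast_mem F' b))
  have hI : ∀ n : ℤ, IsIntegral ℤ ((n : ℤ) : Qb) := fun n =>
    isIntegral_algebraMap (R := ℤ) (A := Qb) (x := n)
  have hwi : IsIntegral ℤ (((b : Qb) ^ 2 * ℓ - 2 * b) * (x * y) + b * ((x + y) * x)
      + (a : Qb) ^ 2 * k * (x - y) ^ 2) := by
    have h2 : IsIntegral ℤ (2 : Qb) := by exact_mod_cast hI 2
    exact ((((((hI b).pow 2).mul (hI ℓ)).sub (h2.mul (hI b))).mul (hxi.mul hyi)).add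
      ((hI b).mul ((hxi.add hyi).mul hxi))).add ((((hI a).pow 2).mul (hI k)).mul
      ((hxi.sub hyi).pow 2))
  obtain ⟨w', hw'⟩ := exists_cv_eq F' hwF' hwi
  have hprod : (x' - incl h r) * (x' - incl h r') = (ℓ : 𝓞 F') * w' := by
    apply cv_injective F'
    rw [map_mul, map_mul, map_sub, map_sub, cv_incl, cv_incl, hr, hr', hw', map_intCast,
      ← hxdef]
    have h1 : (2 * a * c + b * ℓ : Qb) = 1 := by exact_mod_cast congrArg (Int.cast : ℤ → Qb) hbez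
    have h2 : ((c : Qb) ^ 2 - D) = ℓ * k := by exact_mod_cast congrArg (Int.cast : ℤ → Qb) hk
    linear_combination (-(a : Qb) ^ 2 * (x - y) ^ 2) * hs
      + (-(x + y) * x + (1 - b * ℓ + 2 * a * c) * (x * y)) * h1
      + ((a : Qb) ^ 2 * (x - y) ^ 2) * h2
  have hmem : (x' - incl h r) * (x' - incl h r') ∈ 𝔔 := by
    rw [hprod]; exact 𝔔.mul_mem_right _ hℓ
  rcases (Ideal.IsPrime.mem_or_mem inferInstance hmem) with h1 | h1
  · exact ⟨r, h1⟩
  · exact ⟨r', h1⟩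

/-- The endomorphism of `𝓞 F'` induced by `σ`, when `σ` maps `F'` into itself. -/
def sigInt {F' : IntermediateField ℚ Qb} (σ : Qb ≃ₐ[ℚ] Qb) (hσF' : ∀ x ∈ F', σ x ∈ F') :
    𝓞 F' →+* 𝓞 F' :=
  RingOfIntegers.mapRingHom
    (((σ : Qb →+* Qb).comp (algebraMap F' Qb)).codRestrict F' (fun x => hσF' x x.2))

theorem cv_sigInt {F' : IntermediateField ℚ Qb} (σ : Qb ≃ₐ[ℚ] Qb)
    (hσF' : ∀ x ∈ F', σ x ∈ F') (z : 𝓞 F') : cv F' (sigInt σ hσF' z) = σ (cv F' z) := rfl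

/-- **A prime of norm `ℓ` above `𝔮` containing `s - c`.** -/
theorem exists_prime_over {F F' : IntermediateField ℚ Qb} [NumberField F] [NumberField F']
    (h : F ≤ F') (σ : Qb ≃ₐ[ℚ] Qb)
    (hσF' : ∀ x ∈ F', σ x ∈ F') (hσσ : ∀ x ∈ F', σ (σ x) = x)
    (hfix : ∀ x ∈ F', σ x = x → x ∈ F) (hFfix : ∀ x ∈ F, σ x = x)
    (s : Qb) (hsmem : s ∈ F') (D : ℤ) (hs : s ^ 2 = (D : Qb)) (hσs : σ s = -s)
    (sI : 𝓞 F') (hsI : cv F' sI = s)
    (ℓ : ℕ) (hℓ : ℓ.Prime) (c : ℤ) (hc : (ℓ : ℤ) ∣ c ^ 2 - D) (h2c : ¬ (ℓ : ℤ) ∣ 2 * c)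
    (𝔮 : Ideal (𝓞 F)) (hN : Ideal.absNorm 𝔮 = ℓ) :
    ∃ J : Ideal (𝓞 F'), Ideal.absNorm J = ℓ ∧ J.comap (incl h) = 𝔮 ∧ sI - (c : 𝓞 F') ∈ J := by
  obtain ⟨k, hk⟩ := hc
  have hcop : IsCoprime ((ℓ : ℕ) : ℤ) (2 * c) :=
    (Nat.prime_iff_prime_int.mp hℓ).irreducible.coprime_iff_not_dvd.mpr h2c
  obtain ⟨b, a, hab⟩ := hcop
  have hbez : 2 * a * c + b * ℓ = 1 := by linarith
  have h𝔮prime : 𝔮.IsPrime := Ideal.isPrime_of_irreducible_absNorm (hN ▸ hℓ)
  -- every prime above `𝔮` has norm `ℓ`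
  have hgen : ∀ J : Ideal (𝓞 F'), J.IsPrime → J.comap (incl h) = 𝔮 → Ideal.absNorm J = ℓ := by
    intro J hJp hJc
    have hℓJ : (((ℓ : ℕ) : ℤ) : 𝓞 F') ∈ J := by
      have h1 : ((ℓ : ℕ) : 𝓞 F) ∈ 𝔮 := hN ▸ Ideal.absNorm_mem 𝔮
      rw [← hJc, Ideal.mem_comap, map_natCast] at h1
      exact_mod_cast h1
    rw [absNorm_eq_of_surj h J (fun x' => exists_sub_mem h σ hσF' hσσ hfix s hsmem D hs hσs
      ℓ a c b k hbez hk J hℓJ x'), hJc, hN]
  -- lying over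
  let _ : Algebra F F' := (IntermediateField.inclusion h).toRingHom.toAlgebra
  obtain ⟨Q0, -, hQ0p, hQ0c⟩ := Ideal.exists_ideal_over_prime_of_isIntegral 𝔮
    (⊥ : Ideal (𝓞 F')) (by
      rw [← RingHom.ker_eq_comap_bot, RingOfIntegers.ker_algebraMap_eq_bot]; exact bot_le)
  have hQ0c' : Q0.comap (incl h) = 𝔮 := hQ0c
  have hprod : (sI - (c : 𝓞 F')) * (sI + (c : 𝓞 F')) = -(((ℓ : ℕ) : ℤ) : 𝓞 F') * (k : 𝓞 F') := by
    apply cv_injective F'
    simp only [map_mul, map_sub, map_add, map_neg, map_intCast, hsI]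
    have h2 : ((c : Qb) ^ 2 - D) = ((ℓ : ℕ) : ℤ) * k := by
      exact_mod_cast congrArg (Int.cast : ℤ → Qb) hk
    linear_combination hs - h2
  have hℓQ0 : (((ℓ : ℕ) : ℤ) : 𝓞 F') ∈ Q0 := by
    have h1 : ((ℓ : ℕ) : 𝓞 F) ∈ 𝔮 := hN ▸ Ideal.absNorm_mem 𝔮
    rw [← hQ0c', Ideal.mem_comap, map_natCast] at h1
    exact_mod_cast h1
  have hmem : (sI - (c : 𝓞 F')) * (sI + (c : 𝓞 F')) ∈ Q0 := by
    rw [hprod]; exact Q0.mul_mem_right _ (Q0.neg_mem hℓQ0)
  rcases hQ0p.mem_or_mem hmem with h1 | h1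
  · exact ⟨Q0, hgen Q0 hQ0p hQ0c', hQ0c', h1⟩
  · have hcomp : (sigInt σ hσF').comp (incl h) = incl h := by
      refine RingHom.ext fun z => ?_
      apply cv_injective F'
      rw [RingHom.comp_apply, cv_sigInt, cv_incl]
      exact hFfix _ (cv_mem F z)
    have hJc : (Q0.comap (sigInt σ hσF')).comap (incl h) = 𝔮 := by
      rw [Ideal.comap_comap, hcomp, hQ0c']
    refine ⟨Q0.comap (sigInt σ hσF'), hgen _ (Ideal.comap_isPrime _ _) hJc, hJc, ?_⟩
    rw [Ideal.mem_comap]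
    have : sigInt σ hσF' (sI - (c : 𝓞 F')) = -(sI + (c : 𝓞 F')) := by
      apply cv_injective F'
      rw [cv_sigInt]
      simp only [map_sub, map_add, map_neg, map_intCast, hsI, hσs]
      ring
    rw [this]
    exact Q0.neg_mem h1

/-- **Counting.**  If `D ≡ c² (mod ℓ)` with `ℓ ∤ 2c`, then `F'` has at least twice as many ideals
of norm `ℓ` as `F`. -/
theorem two_mul_card_le {F F' : IntermediateField ℚ Qb} [NumberField F] [NumberField F']
    (h : F ≤ F') (σ : Qb ≃ₐ[ℚ] Qb)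
    (hσF' : ∀ x ∈ F', σ x ∈ F') (hσσ : ∀ x ∈ F', σ (σ x) = x)
    (hfix : ∀ x ∈ F', σ x = x → x ∈ F) (hFfix : ∀ x ∈ F, σ x = x)
    (s : Qb) (hsmem : s ∈ F') (D : ℤ) (hs : s ^ 2 = (D : Qb)) (hσs : σ s = -s)
    (ℓ : ℕ) (hℓ : ℓ.Prime) (c : ℤ) (hc : (ℓ : ℤ) ∣ c ^ 2 - D) (h2c : ¬ (ℓ : ℤ) ∣ 2 * c) :
    2 * Nat.card {I : Ideal (𝓞 F) // Ideal.absNorm I = ℓ} ≤
      Nat.card {I : Ideal (𝓞 F') // Ideal.absNorm I = ℓ} := by
  have hsi : IsIntegral ℤ s := by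
    refine IsIntegral.of_pow (n := 2) (by norm_num) ?_
    rw [hs]
    exact isIntegral_algebraMap (R := ℤ) (A := Qb) (x := D)
  obtain ⟨sI, hsI⟩ := exists_cv_eq F' hsmem hsi
  have hc' : (ℓ : ℤ) ∣ (-c) ^ 2 - D := by simpa using hc
  have h2c' : ¬ (ℓ : ℤ) ∣ 2 * (-c) := by
    rw [mul_neg, dvd_neg]; exact h2c
  have ex : ∀ (I : {I : Ideal (𝓞 F) // Ideal.absNorm I = ℓ}) (e : Bool),
      ∃ J : Ideal (𝓞 F'), Ideal.absNorm J = ℓ ∧ J.comap (incl h) = I.1 ∧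
        sI - (((if e then c else -c : ℤ) : ℤ) : 𝓞 F') ∈ J := by
    intro I e
    cases e
    · exact exists_prime_over h σ hσF' hσσ hfix hFfix s hsmem D hs hσs sI hsI ℓ hℓ (-c) hc' h2c'
        I.1 I.2
    · exact exists_prime_over h σ hσF' hσσ hfix hFfix s hsmem D hs hσs sI hsI ℓ hℓ c hc h2c
        I.1 I.2
  choose f hf1 hf2 hf3 using ex
  -- a prime of norm `ℓ` cannot contain both `s - c` and `s + c`
  have key : ∀ J : Ideal (𝓞 F'), Ideal.absNorm J = ℓ → sI - ((c : ℤ) : 𝓞 F') ∈ J →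
      sI - (((-c : ℤ) : ℤ) : 𝓞 F') ∈ J → False := by
    intro J hJ h1 h2
    have hcop : IsCoprime ((ℓ : ℕ) : ℤ) (2 * c) :=
      (Nat.prime_iff_prime_int.mp hℓ).irreducible.coprime_iff_not_dvd.mpr h2c
    obtain ⟨b, a, hab⟩ := hcop
    have hℓJ : ((ℓ : ℕ) : 𝓞 F') ∈ J := hJ ▸ Ideal.absNorm_mem J
    have h3 : ((2 * c : ℤ) : 𝓞 F') ∈ J := by
      have := J.sub_mem h2 h1
      have e : sI - (((-c : ℤ) : ℤ) : 𝓞 F') - (sI - ((c : ℤ) : 𝓞 F')) = ((2 * c : ℤ) : 𝓞 F') := by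
        push_cast; ring
      rwa [e] at this
    have h4 : (1 : 𝓞 F') ∈ J := by
      have e : (1 : 𝓞 F') = (b : 𝓞 F') * ((ℓ : ℕ) : 𝓞 F') + (a : 𝓞 F') * ((2 * c : ℤ) : 𝓞 F') := by
        have := congrArg (Int.cast : ℤ → 𝓞 F') hab
        push_cast at this ⊢
        rw [← this]
      rw [e]
      exact J.add_mem (J.mul_mem_left _ hℓJ) (J.mul_mem_left _ h3)
    have h5 : J = ⊤ := (Ideal.eq_top_iff_one J).mpr h4
    rw [h5, Ideal.absNorm_top] at hJ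
    exact hℓ.one_lt.ne hJ
  let g : {I : Ideal (𝓞 F) // Ideal.absNorm I = ℓ} × Bool →
      {J : Ideal (𝓞 F') // Ideal.absNorm J = ℓ} := fun p => ⟨f p.1 p.2, hf1 p.1 p.2⟩
  have hg : Function.Injective g := by
    rintro ⟨I₁, e₁⟩ ⟨I₂, e₂⟩ heq
    have heq' : f I₁ e₁ = f I₂ e₂ := congrArg Subtype.val heq
    have hI : I₁ = I₂ := Subtype.ext (by rw [← hf2 I₁ e₁, ← hf2 I₂ e₂, heq'])
    subst hI
    have he : e₁ = e₂ := by
      by_contra hne
      cases e₁ <;> cases e₂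
      · exact hne rfl
      · have h1 := hf3 I₁ true
        have h2 := hf3 I₁ false
        rw [heq'] at h2
        exact key _ (hf1 I₁ true) (by simpa using h1) (by simpa using h2)
      · have h1 := hf3 I₁ true
        have h2 := hf3 I₁ false
        rw [← heq'] at h2
        exact key _ (hf1 I₁ true) (by simpa using h1) (by simpa using h2)
      · exact hne rfl
    rw [he]
  have hfin : Finite {J : Ideal (𝓞 F') // Ideal.absNorm J = ℓ} :=
    Ideal.finite_setOfPred_absNorm_eq ℓ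
  calc 2 * Nat.card {I : Ideal (𝓞 F) // Ideal.absNorm I = ℓ}
      = Nat.card ({I : Ideal (𝓞 F) // Ideal.absNorm I = ℓ} × Bool) := by
        rw [Nat.card_prod, Nat.card_eq_fintype_card (α := Bool), Fintype.card_bool, mul_comm]
    _ ≤ Nat.card {I : Ideal (𝓞 F') // Ideal.absNorm I = ℓ} :=
        Nat.card_le_card_of_injective g hg

/-- The image in `Qbar` of the value of a scaled polynomial at an integral multiple of `θ`. -/
theorem cv_eval₂_scaleRoots (F : IntermediateField ℚ Qb) (θ : Qb) (m : ℤ)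
    (α : 𝓞 F) (hα : cv F α = (m : Qb) * θ) (R : ℤ[X]) :
    cv F (eval₂ (Int.castRingHom (𝓞 F)) α (scaleRoots R m)) =
      (m : Qb) ^ R.natDegree * aeval θ R := by
  have hcomp' : (cv F).comp (Int.castRingHom (𝓞 F)) = Int.castRingHom Qb := RingHom.ext_int _ _
  rw [hom_eval₂, hcomp', hα, ← eq_intCast (Int.castRingHom Qb) m, scaleRoots_eval₂_mul]
  have : eval₂ (Int.castRingHom Qb) θ R = aeval θ R := by
    rw [aeval_def]; rfl
  rw [this]

/-! ### The auxiliary prime -/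

/-- **Auxiliary prime (S52, leaf (C)).**  Let `θ ∈ Qbar` be fixed by an automorphism `σ` of `Qbar`
which moves a square root `s` of the integer `D`.  Let `P, Q ∈ ℤ[X]` with `P(θ) = 0` and
`Q(θ) ≠ 0`, and let `T` be a finite set of primes.  Then there are a prime `q ∉ T` such that `D` is
not a square modulo `q`, and an integer `t` with `q ∣ P(t)` and `q ∤ Q(t)`. -/
theorem exists_aux_prime (θ : Qb) (σ : Qb ≃ₐ[ℚ] Qb) (hθ : σ θ = θ) (D : ℤ) (s : Qb)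
    (hs : s ^ 2 = (D : Qb)) (hσs : σ s ≠ s) (P Q : ℤ[X]) (hP : aeval θ P = 0)
    (hQ : aeval θ Q ≠ 0) (T : Finset ℕ) :
    ∃ q : ℕ, q.Prime ∧ q ∉ T ∧ ¬ IsSquare ((D : ℤ) : ZMod q) ∧
      ∃ t : ℤ, (q : ℤ) ∣ P.eval t ∧ ¬ (q : ℤ) ∣ Q.eval t := by
  by_contra hcon
  -- basic facts about `σ`, `s`, `D`
  have hσs' : σ s = -s := by
    have h1 : (σ s) ^ 2 = s ^ 2 := by
      rw [← map_pow, hs, map_intCast]
    have h2 : (σ s - s) * (σ s + s) = 0 := by linear_combination h1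
    rcases mul_eq_zero.mp h2 with h3 | h3
    · exact absurd (sub_eq_zero.mp h3) hσs
    · exact eq_neg_of_add_eq_zero_left h3
  have hD0 : D ≠ 0 := by
    rintro rfl
    apply hσs
    have : s = 0 := by
      have : s ^ 2 = 0 := by rw [hs]; simp
      exact pow_eq_zero_iff (two_ne_zero) |>.mp this
    rw [this, map_zero]
  -- the two fields
  have hθF' : θ ∈ bigF θ s := IntermediateField.subset_adjoin ℚ _ (by simp)
  have hsF' : s ∈ bigF θ s := IntermediateField.subset_adjoin ℚ _ (by simp)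
  have hσF' : ∀ x ∈ bigF θ s, σ x ∈ bigF θ s := by
    have hle : bigF θ s ≤ (bigF θ s).comap (σ : Qb →ₐ[ℚ] Qb) := by
      refine IntermediateField.adjoin_le_iff.mpr ?_
      rintro x (rfl | rfl)
      · change σ x ∈ bigF x s
        rw [hθ]; exact hθF'
      · change σ x ∈ bigF θ x
        rw [hσs']; exact neg_mem hsF'
    exact fun x hx => hle hx
  have hσσ : ∀ x ∈ bigF θ s, σ (σ x) = x := by
    have hle : bigF θ s ≤ fixF (σ.trans σ) := by
      refine IntermediateField.adjoin_le_iff.mpr ?_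
      rintro x (rfl | rfl)
      · change σ (σ x) = x
        rw [hθ, hθ]
      · change σ (σ x) = x
        rw [hσs', map_neg, hσs', neg_neg]
    exact fun x hx => hle hx
  have hfix : ∀ x ∈ bigF θ s, σ x = x → x ∈ smallF θ s σ := fun x hx hσx => ⟨hx, hσx⟩
  have hFfix : ∀ x ∈ smallF θ s σ, σ x = x := fun x hx => hx.2
  have hθF : θ ∈ smallF θ s σ := ⟨hθF', hθ⟩
  -- an integral multiple of `θ`
  have halg : IsAlgebraic ℤ θ :=
    (IsFractionRing.isAlgebraic_iff ℤ ℚ Qb).mpr ((AlgebraicClosure.isAlgebraic ℚ).isAlgebraic θ)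
  obtain ⟨m, hm0, hmi⟩ := halg.exists_integral_multiple
  rw [zsmul_eq_mul] at hmi
  obtain ⟨α, hα⟩ := exists_cv_eq (smallF θ s σ) (mul_mem (intCast_mem _ m) hθF) hmi
  set β : 𝓞 (smallF θ s σ) := eval₂ (Int.castRingHom (𝓞 (smallF θ s σ))) α (scaleRoots Q m)
    with hβdef
  have hβ0 : β ≠ 0 := by
    intro h0
    have h1 := cv_eval₂_scaleRoots (smallF θ s σ) θ m α hα Q
    rw [← hβdef, h0, map_zero] at h1
    rcases mul_eq_zero.mp h1.symm with h2 | h2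
    · exact pow_ne_zero _ (Int.cast_ne_zero.mpr hm0) h2
    · exact hQ h2
  -- the bad primes
  set M : ℕ := 2 * D.natAbs * m.natAbs * Ideal.absNorm (Ideal.span {β}) with hMdef
  have hM0 : M ≠ 0 := by
    have h1 : Ideal.absNorm (Ideal.span {β}) ≠ 0 := by
      rw [Ne, Ideal.absNorm_eq_zero_iff, Ideal.span_singleton_eq_bot]; exact hβ0
    have h2 : D.natAbs ≠ 0 := Int.natAbs_ne_zero.mpr hD0
    have h3 : m.natAbs ≠ 0 := Int.natAbs_ne_zero.mpr hm0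
    positivity
  apply Fermat.Agent.S14.helper2850.zeta_lemma_count (smallF θ s σ) (bigF θ s) 2 le_rfl
    (T ∪ M.primeFactors)
  intro ℓ hℓ hℓT
  rw [Finset.mem_union, not_or] at hℓT
  obtain ⟨hℓT, hℓM⟩ := hℓT
  have hℓM' : ¬ ℓ ∣ M := fun hdvd => hℓM (Nat.mem_primeFactors.mpr ⟨hℓ, hdvd, hM0⟩)
  have hℓ2 : ¬ ℓ ∣ 2 := fun hdvd => hℓM' (by
    rw [hMdef, mul_assoc, mul_assoc]; exact Dvd.dvd.mul_right hdvd _)
  have hℓD : ¬ ℓ ∣ D.natAbs := fun hdvd => hℓM' (by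
    rw [hMdef]; exact Dvd.dvd.mul_right (Dvd.dvd.mul_right (Dvd.dvd.mul_left hdvd _) _) _)
  have hℓm : ¬ ℓ ∣ m.natAbs := fun hdvd => hℓM' (by
    rw [hMdef]; exact Dvd.dvd.mul_right (Dvd.dvd.mul_left hdvd _) _)
  have hℓβ : ¬ ℓ ∣ Ideal.absNorm (Ideal.span {β}) := fun hdvd => hℓM' (by
    rw [hMdef]; exact Dvd.dvd.mul_left hdvd _)
  by_cases hne : Nonempty {I : Ideal (𝓞 (smallF θ s σ)) // Ideal.absNorm I = ℓ}
  swap
  · rw [not_nonempty_iff] at hne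
    rw [Nat.card_of_isEmpty, mul_zero]
    exact Nat.zero_le _
  obtain ⟨⟨𝔮₀, hN⟩⟩ := hne
  have hβ𝔮 : β ∉ 𝔮₀ := by
    intro hmem
    apply hℓβ
    rw [← hN]
    exact Ideal.absNorm_dvd_absNorm_of_le ((Ideal.span_singleton_le_iff_mem 𝔮₀).mpr hmem)
  obtain ⟨t, ht1, ht2⟩ := exists_int_root (smallF θ s σ) θ m α hα P Q hP ℓ hℓ
    (fun hdvd => hℓm (Int.natCast_dvd.mp hdvd)) 𝔮₀ hN hβ𝔮
  have hsq : IsSquare ((D : ℤ) : ZMod ℓ) := by
    by_contra hns
    exact hcon ⟨ℓ, hℓ, hℓT, hns, t, ht1, ht2⟩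
  obtain ⟨cbar, hcbar⟩ := hsq
  obtain ⟨c, rfl⟩ := ZMod.intCast_surjective cbar
  have hc : (ℓ : ℤ) ∣ c ^ 2 - D := by
    rw [← ZMod.intCast_zmod_eq_zero_iff_dvd]
    push_cast
    rw [hcbar]; ring
  have h2c : ¬ (ℓ : ℤ) ∣ 2 * c := by
    intro hdvd
    rcases (Nat.prime_iff_prime_int.mp hℓ).dvd_or_dvd hdvd with h1 | h1
    · exact hℓ2 (by exact_mod_cast h1)
    · apply hℓD
      rw [← Int.natCast_dvd]
      have h3 : (ℓ : ℤ) ∣ c ^ 2 := Dvd.dvd.pow h1 two_ne_zero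
      have h4 := dvd_sub h3 hc
      rwa [sub_sub_cancel] at h4
  exact two_mul_card_le (smallF_le θ s σ) σ hσF' hσσ hfix hFfix s hsF' D hs hσs' ℓ hℓ c hc h2c

end

end Fermat.Agent.S52.helper9361
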