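import Mathlib
import Fermat.Agent.Lib.helper8525_RedHom
import Fermat.Agent.S13.helper5736_KerB

/-!
# S52 (LOC, generic-fibre route): specialisation of the generic fibre over `RatFunc k`

For a Weierstrass curve `W` over `k[X]` and a point `t : k` with `Δ(t) ≠ 0`, the landed reduction
homomorphism (`Lib/helper8525_RedHom`) for the valuation subring `placeAt t` of `RatFunc k`
(functions regular at `X = t`) gives a group homomorphism

`ρ : W(RatFunc k) →+ W_t(k)`,  `(x, y) ↦ (x(t), y(t))` on polynomial points,

which is injective on torsion prime to the characteristic (`S13/helper5736_KerB`).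
Main statement: `exists_spec_hom`.
-/

set_option autoImplicit false

open Polynomial WeierstrassCurve WeierstrassCurve.Affine

namespace Fermat.Agent.S52.helper9361

noncomputable section

variable {k : Type*} [Field k]

/-! ### The place `X = t` of `RatFunc k` -/

theorem num_eval_ne_zero_of_denom_eval_eq_zero {t : k} {r : RatFunc k}
    (h : r.denom.eval t = 0) : r.num.eval t ≠ 0 := by
  obtain ⟨a, b, hab⟩ := RatFunc.isCoprime_num_denom r
  intro h0
  have := congrArg (Polynomial.eval t) hab
  rw [eval_add, eval_mul, eval_mul, h, h0, mul_zero, mul_zero, add_zero, eval_one] at this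
  exact zero_ne_one this

/-- The valuation subring of `RatFunc k` of the functions regular at `X = t`. -/
def placeAt (t : k) : ValuationSubring (RatFunc k) where
  carrier := {r | r.denom.eval t ≠ 0}
  mul_mem' := by
    intro a b ha hb
    change a.denom.eval t ≠ 0 at ha
    change b.denom.eval t ≠ 0 at hb
    change (a * b).denom.eval t ≠ 0
    obtain ⟨c, hc⟩ := RatFunc.denom_mul_dvd a b
    intro h
    apply mul_ne_zero ha hb
    rw [← eval_mul, hc, eval_mul, h, zero_mul]
  one_mem' := by
    change (1 : RatFunc k).denom.eval t ≠ 0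
    rw [RatFunc.denom_one, eval_one]; exact one_ne_zero
  add_mem' := by
    intro a b ha hb
    change a.denom.eval t ≠ 0 at ha
    change b.denom.eval t ≠ 0 at hb
    change (a + b).denom.eval t ≠ 0
    obtain ⟨c, hc⟩ := RatFunc.denom_add_dvd a b
    intro h
    apply mul_ne_zero ha hb
    rw [← eval_mul, hc, eval_mul, h, zero_mul]
  zero_mem' := by
    change (0 : RatFunc k).denom.eval t ≠ 0
    rw [RatFunc.denom_zero, eval_one]; exact one_ne_zero
  neg_mem' := by
    intro a ha
    change a.denom.eval t ≠ 0 at ha
    change (-a).denom.eval t ≠ 0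
    have e : -a = algebraMap k[X] (RatFunc k) (-a.num) / algebraMap k[X] (RatFunc k) a.denom := by
      rw [map_neg, neg_div, RatFunc.num_div_denom]
    obtain ⟨c, hc⟩ := RatFunc.denom_div_dvd (-a.num) a.denom
    rw [← e] at hc
    intro h
    apply ha
    rw [hc, eval_mul, h, zero_mul]
  mem_or_inv_mem' := by
    intro x
    by_cases hx : x = 0
    · left
      change x.denom.eval t ≠ 0
      rw [hx, RatFunc.denom_zero, eval_one]; exact one_ne_zero
    by_cases h : x.denom.eval t = 0
    · right
      change (x⁻¹).denom.eval t ≠ 0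
      obtain ⟨c, hc⟩ := RatFunc.denom_inv_dvd hx
      intro h0
      apply num_eval_ne_zero_of_denom_eval_eq_zero h
      rw [hc, eval_mul, h0, zero_mul]
    · left
      exact h

theorem mem_placeAt {t : k} {r : RatFunc k} : r ∈ placeAt t ↔ r.denom.eval t ≠ 0 := Iff.rfl

theorem algebraMap_mem_placeAt (t : k) (p : k[X]) :
    algebraMap k[X] (RatFunc k) p ∈ placeAt t := by
  rw [mem_placeAt, RatFunc.denom_algebraMap, eval_one]; exact one_ne_zero

/-- Evaluation at `X = t` on the functions regular at `t`. -/
def evalAt (t : k) : placeAt t →+* k where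
  toFun r := RatFunc.eval (RingHom.id k) t r.1
  map_one' := RatFunc.eval_one _ _
  map_mul' := by
    intro a b
    have ha : Polynomial.eval₂ (RingHom.id k) t a.1.denom ≠ 0 := by rw [eval₂_id]; exact a.2
    have hb : Polynomial.eval₂ (RingHom.id k) t b.1.denom ≠ 0 := by rw [eval₂_id]; exact b.2
    exact RatFunc.eval_mul _ _ ha hb
  map_zero' := RatFunc.eval_zero _ _
  map_add' := by
    intro a b
    have ha : Polynomial.eval₂ (RingHom.id k) t a.1.denom ≠ 0 := by rw [eval₂_id]; exact a.2
    have hb : Polynomial.eval₂ (RingHom.id k) t b.1.denom ≠ 0 := by rw [eval₂_id]; exact b.2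
    exact RatFunc.eval_add _ _ ha hb

theorem evalAt_apply (t : k) (r : placeAt t) :
    evalAt t r = r.1.num.eval t / r.1.denom.eval t := by
  change RatFunc.eval (RingHom.id k) t r.1 = _
  rw [RatFunc.eval, eval₂_id, eval₂_id]

theorem evalAt_algebraMap (t : k) (p : k[X]) :
    evalAt t ⟨algebraMap k[X] (RatFunc k) p, algebraMap_mem_placeAt t p⟩ = p.eval t := by
  rw [evalAt_apply]
  simp only [RatFunc.num_algebraMap, RatFunc.denom_algebraMap, eval_one, div_one]

instance evalAt_isLocalHom (t : k) : IsLocalHom (evalAt t) where
  map_nonunit := by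
    intro a ha
    have hne : evalAt t a ≠ 0 := ha.ne_zero
    rw [evalAt_apply] at hne
    have hnum : a.1.num.eval t ≠ 0 := fun h0 => hne (by rw [h0, zero_div])
    have ha0 : a.1 ≠ 0 := by
      intro h0
      rw [h0, RatFunc.num_zero, eval_zero] at hnum
      exact hnum rfl
    have hinv : a.1⁻¹ ∈ placeAt t := by
      rw [mem_placeAt]
      obtain ⟨c, hc⟩ := RatFunc.denom_inv_dvd ha0
      intro h0
      apply hnum
      rw [hc, eval_mul, h0, zero_mul]
    exact isUnit_iff_exists_inv.mpr ⟨⟨a.1⁻¹, hinv⟩, Subtype.ext (mul_inv_cancel₀ ha0)⟩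

/-- Polynomials, as functions regular at `t`. -/
def polyToPlace (t : k) : k[X] →+* placeAt t :=
  (algebraMap k[X] (RatFunc k)).codRestrict (placeAt t).toSubring (algebraMap_mem_placeAt t)

theorem subtype_comp_polyToPlace (t : k) :
    (placeAt t).subtype.comp (polyToPlace t) = algebraMap k[X] (RatFunc k) := rfl

theorem evalAt_comp_polyToPlace (t : k) :
    (evalAt t).comp (polyToPlace t) = Polynomial.evalRingHom t := by
  refine RingHom.ext fun p => ?_
  exact evalAt_algebraMap t p

/-! ### Transport of points along an equality of curves -/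

/-- Transport of points along an equality of Weierstrass curves. -/
def castPoint {F : Type*} [Field F] [DecidableEq F] {W₁ W₂ : WeierstrassCurve F} (h : W₁ = W₂) :
    W₁.toAffine.Point ≃+ W₂.toAffine.Point := by
  subst h
  exact AddEquiv.refl _

theorem castPoint_some {F : Type*} [Field F] [DecidableEq F] {W₁ W₂ : WeierstrassCurve F}
    (h : W₁ = W₂) {x y : F} (hxy : W₁.toAffine.Nonsingular x y)
    (hxy' : W₂.toAffine.Nonsingular x y) :
    castPoint h (Point.some x y hxy) = Point.some x y hxy' := by
  subst h
  rfl

theorem nonsingular_of_eq {F : Type*} [Field F] {W₁ W₂ : WeierstrassCurve F}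
    (h : W₁ = W₂) {x y : F} (hxy : W₁.toAffine.Nonsingular x y) :
    W₂.toAffine.Nonsingular x y := by
  subst h
  exact hxy

/-! ### The specialisation homomorphism -/

section Spec

variable [DecidableEq k] [DecidableEq (RatFunc k)]

/-- **Specialisation of the generic fibre.**  For a Weierstrass curve `W` over `k[X]` and `t : k`
with `Δ(t) ≠ 0` there is a group homomorphism from the points of `W` over `RatFunc k` to the points
of the fibre `W_t` over `k`, which is `(x, y) ↦ (x(t), y(t))` on points with polynomial
coordinates, and which kills no nonzero torsion point of order prime to the characteristic. -/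
theorem exists_spec_hom (W : WeierstrassCurve k[X]) (t : k) (hΔ : W.Δ.eval t ≠ 0) :
    ∃ ρ : (W.map (algebraMap k[X] (RatFunc k))).toAffine.Point →+
        (W.map (Polynomial.evalRingHom t)).toAffine.Point,
      (∀ (x y : k[X])
          (h : (W.map (algebraMap k[X] (RatFunc k))).toAffine.Nonsingular
            (algebraMap k[X] (RatFunc k) x) (algebraMap k[X] (RatFunc k) y))
          (h' : (W.map (Polynomial.evalRingHom t)).toAffine.Nonsingular (x.eval t) (y.eval t)),
          ρ (.some (algebraMap k[X] (RatFunc k) x) (algebraMap k[X] (RatFunc k) y) h) =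
            .some (x.eval t) (y.eval t) h') ∧
      (∀ (n : ℕ) (Z : (W.map (algebraMap k[X] (RatFunc k))).toAffine.Point),
          (n : k) ≠ 0 → n • Z = 0 → ρ Z = 0 → Z = 0) := by
  -- the model over the valuation ring
  set WA : WeierstrassCurve (placeAt t) := W.map (polyToPlace t) with hWA
  have e1 : WA.map (placeAt t).subtype = W.map (algebraMap k[X] (RatFunc k)) := by
    rw [hWA, WeierstrassCurve.map_map, subtype_comp_polyToPlace]
  have e2 : WA.map (evalAt t) = W.map (Polynomial.evalRingHom t) := by
    rw [hWA, WeierstrassCurve.map_map, evalAt_comp_polyToPlace]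
  have hΔA : IsUnit WA.Δ := by
    apply isUnit_of_map_unit (evalAt t)
    have : evalAt t WA.Δ = W.Δ.eval t := by
      rw [hWA, WeierstrassCurve.map_Δ]
      exact evalAt_algebraMap t W.Δ
    rw [this]
    exact isUnit_iff_ne_zero.mpr hΔ
  let red := Fermat.Agent.Lib.helper8525.red (evalAt t) WA hΔA
  refine ⟨(castPoint e2).toAddMonoidHom.comp (red.comp (castPoint e1.symm).toAddMonoidHom),
    ?_, ?_⟩
  · intro x y h h'
    have h1 : (WA.map (placeAt t).subtype).toAffine.Nonsingular
        (algebraMap k[X] (RatFunc k) x) (algebraMap k[X] (RatFunc k) y) :=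
      nonsingular_of_eq e1.symm h
    have h2 : (WA.map (evalAt t)).toAffine.Nonsingular
        (evalAt t ⟨algebraMap k[X] (RatFunc k) x, algebraMap_mem_placeAt t x⟩)
        (evalAt t ⟨algebraMap k[X] (RatFunc k) y, algebraMap_mem_placeAt t y⟩) := by
      rw [evalAt_algebraMap, evalAt_algebraMap]
      exact nonsingular_of_eq e2.symm h'
    change castPoint e2 (red (castPoint e1.symm (Point.some _ _ h))) = _
    rw [castPoint_some e1.symm h h1]
    have hred : red (Point.some _ _ h1) = Point.some _ _ h2 :=
      Fermat.Agent.Lib.helper8525.red_some_of_mem (evalAt t) WA hΔA h1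
        (algebraMap_mem_placeAt t x) (algebraMap_mem_placeAt t y) h2
    rw [hred, castPoint_some e2 h2 (nonsingular_of_eq e2 h2)]
    simp only [evalAt_algebraMap]
  · intro n Z hn hnZ hρZ
    have hred : red (castPoint e1.symm Z) = 0 := by
      have : castPoint e2 (red (castPoint e1.symm Z)) = 0 := hρZ
      exact (AddEquiv.map_eq_zero_iff (castPoint e2)).mp this
    have hnZ' : n • castPoint e1.symm Z = 0 := by
      rw [← map_nsmul, hnZ, map_zero]
    suffices hZ' : castPoint e1.symm Z = 0 from (AddEquiv.map_eq_zero_iff (castPoint e1.symm)).mp hZ'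
    rcases (Fermat.Agent.Lib.helper8525.red_eq_zero_iff (evalAt t) WA hΔA _).mp hred with
      h0 | ⟨x, y, hxy, hZeq, hx⟩
    · exact h0
    · exfalso
      apply hx
      rw [hZeq] at hnZ'
      -- the kernel of reduction has no prime-to-characteristic torsion
      have hunit : IsUnit ((n : ℕ) : placeAt t) := by
        apply isUnit_of_map_unit (evalAt t)
        rw [map_natCast]
        exact isUnit_iff_ne_zero.mpr hn
      have hvn : (placeAt t).valuation ((n : ℕ) : RatFunc k) = 1 := by
        have := (ValuationSubring.valuation_eq_one_iff (placeAt t) ((n : ℕ) : placeAt t)).mp hunit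
        simpa using this
      have hb : ∀ a : placeAt t, (placeAt t).valuation ((placeAt t).subtype a) ≤ 1 :=
        fun a => (placeAt t).valuation_le_one a
      have key := Fermat.Agent.S13.helper5736.v_le_one_of_torsion (placeAt t).valuation
        (WA.map (placeAt t).subtype).toAffine
        (by rw [WeierstrassCurve.map_b₂]; exact hb _) (by rw [WeierstrassCurve.map_b₄]; exact hb _)
        (by rw [WeierstrassCurve.map_b₆]; exact hb _) (by rw [WeierstrassCurve.map_b₈]; exact hb _)
        hxy n hvn hnZ'
      exact ((placeAt t).valuation_le_one_iff x).mp key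

end Spec

end

end Fermat.Agent.S52.helper9361
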