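/-
S52, leaf "FixSig" (helper9382): a fixed root of the pencil polynomial together with an
automorphism fixing it — pure 2×2 linear algebra, no group theory.
-/
import Mathlib

set_option autoImplicit false

namespace Fermat.Agent.S52.helper9382

open Matrix Polynomial IntermediateField

section TwoDim

variable {K : Type*} [Field K]

/-- The 2×2 determinant of two column vectors. -/
def det2 (x y : Fin 2 → K) : K := x 0 * y 1 - x 1 * y 0

lemma det2_smul_left (c : K) (x y : Fin 2 → K) : det2 (c • x) y = c * det2 x y := by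
  simp only [det2, Pi.smul_apply, smul_eq_mul]; ring

lemma det2_smul_right (c : K) (x y : Fin 2 → K) : det2 x (c • y) = c * det2 x y := by
  simp only [det2, Pi.smul_apply, smul_eq_mul]; ring

lemma det2_add_left (x x' y : Fin 2 → K) : det2 (x + x') y = det2 x y + det2 x' y := by
  simp only [det2, Pi.add_apply]; ring

lemma det2_neg_left (x y : Fin 2 → K) : det2 (-x) y = - det2 x y := by
  simp only [det2, Pi.neg_apply]; ring

lemma det2_swap (x y : Fin 2 → K) : det2 x y = - det2 y x := by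
  simp only [det2]; ring

lemma det2_self (x : Fin 2 → K) : det2 x x = 0 := by
  simp only [det2]; ring

omit [Field K] in
lemma vec2_ext {x y : Fin 2 → K} (h0 : x 0 = y 0) (h1 : x 1 = y 1) : x = y := by
  funext i; fin_cases i <;> assumption

lemma vec2_ne_zero {y : Fin 2 → K} (hy : y ≠ 0) : y 0 ≠ 0 ∨ y 1 ≠ 0 := by
  by_contra h
  rw [not_or, not_not, not_not] at h
  exact hy (vec2_ext h.1 h.2)

lemma exists_smul_of_det2_eq_zero {x y : Fin 2 → K} (h : det2 x y = 0) (hy : y ≠ 0) :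
    ∃ μ : K, x = μ • y := by
  rcases vec2_ne_zero hy with h0 | h1
  · refine ⟨x 0 / y 0, vec2_ext ?_ ?_⟩
    · simp only [Pi.smul_apply, smul_eq_mul]; field_simp
    · simp only [Pi.smul_apply, smul_eq_mul]
      have : x 0 * y 1 = x 1 * y 0 := by
        have := h; simp only [det2] at this; linear_combination this
      field_simp; linear_combination -this
  · refine ⟨x 1 / y 1, vec2_ext ?_ ?_⟩
    · simp only [Pi.smul_apply, smul_eq_mul]
      have : x 0 * y 1 = x 1 * y 0 := by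
        have := h; simp only [det2] at this; linear_combination this
      field_simp; linear_combination this
    · simp only [Pi.smul_apply, smul_eq_mul]; field_simp

lemma ne_zero_of_det2_ne_zero_right {x y : Fin 2 → K} (h : det2 x y ≠ 0) : y ≠ 0 := by
  rintro rfl; apply h; simp [det2]

lemma ne_zero_of_det2_ne_zero_left {x y : Fin 2 → K} (h : det2 x y ≠ 0) : x ≠ 0 := by
  rintro rfl; apply h; simp [det2]

/-- Plücker: if `e₁, e₂` are independent and `b ≠ 0`, then `b` is not parallel to both. -/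
lemma det2_ne_zero_or {b e₁ e₂ : Fin 2 → K} (he : det2 e₁ e₂ ≠ 0) (hb : b ≠ 0) :
    det2 b e₁ ≠ 0 ∨ det2 b e₂ ≠ 0 := by
  by_contra h
  rw [not_or, not_not, not_not] at h
  obtain ⟨h1, h2⟩ := h
  apply hb
  have key0 : b 0 * det2 e₁ e₂ = e₁ 0 * det2 b e₂ - e₂ 0 * det2 b e₁ := by
    simp only [det2]; ring
  have key1 : b 1 * det2 e₁ e₂ = e₁ 1 * det2 b e₂ - e₂ 1 * det2 b e₁ := by
    simp only [det2]; ring
  rw [h1, h2, mul_zero, mul_zero, sub_zero] at key0 key1
  exact vec2_ext ((mul_eq_zero.mp key0).resolve_right he) ((mul_eq_zero.mp key1).resolve_right he)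

lemma mulVec_apply2 (M : Matrix (Fin 2) (Fin 2) K) (x : Fin 2 → K) (i : Fin 2) :
    (M *ᵥ x) i = M i 0 * x 0 + M i 1 * x 1 := by
  simp [Matrix.mulVec, dotProduct, Fin.sum_univ_two]

lemma det2_mulVec (M : Matrix (Fin 2) (Fin 2) K) (x y : Fin 2 → K) :
    det2 (M *ᵥ x) (M *ᵥ y) = M.det * det2 x y := by
  simp only [det2, mulVec_apply2, Matrix.det_fin_two]; ring

/-- A matrix killing two independent vectors is zero. -/
lemma eq_zero_of_mulVec_eq_zero {M : Matrix (Fin 2) (Fin 2) K} {x y : Fin 2 → K}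
    (hx : M *ᵥ x = 0) (hy : M *ᵥ y = 0) (h : det2 x y ≠ 0) : M = 0 := by
  have hx' : ∀ i, M i 0 * x 0 + M i 1 * x 1 = 0 := fun i => by
    rw [← mulVec_apply2, hx]; rfl
  have hy' : ∀ i, M i 0 * y 0 + M i 1 * y 1 = 0 := fun i => by
    rw [← mulVec_apply2, hy]; rfl
  ext i j
  have e0 : M i 0 * det2 x y = 0 := by
    simp only [det2]; linear_combination y 1 * hx' i - x 1 * hy' i
  have e1 : M i 1 * det2 x y = 0 := by
    simp only [det2]; linear_combination x 0 * hy' i - y 0 * hx' i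
  fin_cases j
  · simpa using (mul_eq_zero.mp e0).resolve_right h
  · simpa using (mul_eq_zero.mp e1).resolve_right h

lemma pow_mulVec_eigen {M : Matrix (Fin 2) (Fin 2) K} {e : Fin 2 → K} {μ : K}
    (h : M *ᵥ e = μ • e) (n : ℕ) : (M ^ n) *ᵥ e = μ ^ n • e := by
  induction n with
  | zero => simp
  | succ n ih =>
    rw [pow_succ, ← Matrix.mulVec_mulVec, h, Matrix.mulVec_smul, ih, smul_smul, pow_succ, mul_comm]

/-- A 2×2 matrix of determinant one squaring to one is `±1`. -/
lemma eq_one_or_neg_one_of_sq (h2 : (2 : K) ≠ 0) {M : Matrix (Fin 2) (Fin 2) K}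
    (hsq : M * M = 1) (hdet : M.det = 1) : M = 1 ∨ M = -1 := by
  have h00 : M 0 0 * M 0 0 + M 0 1 * M 1 0 = 1 := by
    have := congrFun (congrFun hsq 0) 0
    simpa [Matrix.mul_apply, Fin.sum_univ_two] using this
  have h01 : M 0 0 * M 0 1 + M 0 1 * M 1 1 = 0 := by
    have := congrFun (congrFun hsq 0) 1
    simpa [Matrix.mul_apply, Fin.sum_univ_two] using this
  have h10 : M 1 0 * M 0 0 + M 1 1 * M 1 0 = 0 := by
    have := congrFun (congrFun hsq 1) 0
    simpa [Matrix.mul_apply, Fin.sum_univ_two] using this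
  have h11 : M 1 0 * M 0 1 + M 1 1 * M 1 1 = 1 := by
    have := congrFun (congrFun hsq 1) 1
    simpa [Matrix.mul_apply, Fin.sum_univ_two] using this
  rw [Matrix.det_fin_two] at hdet
  -- a (a + d) = 2
  have ha : M 0 0 * (M 0 0 + M 1 1) = 2 := by linear_combination h00 + hdet
  have hd : M 1 1 * (M 0 0 + M 1 1) = 2 := by linear_combination h11 + hdet
  have htr : M 0 0 + M 1 1 ≠ 0 := by
    intro h; rw [h, mul_zero] at ha; exact h2 ha.symm
  have hb : M 0 1 = 0 := by
    have : M 0 1 * (M 0 0 + M 1 1) = 0 := by linear_combination h01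
    exact (mul_eq_zero.mp this).resolve_right htr
  have hc : M 1 0 = 0 := by
    have : M 1 0 * (M 0 0 + M 1 1) = 0 := by linear_combination h10
    exact (mul_eq_zero.mp this).resolve_right htr
  have had : M 0 0 = M 1 1 := by
    have : (M 0 0 - M 1 1) * (M 0 0 + M 1 1) = 0 := by linear_combination ha - hd
    exact sub_eq_zero.mp ((mul_eq_zero.mp this).resolve_right htr)
  have hasq : (M 0 0 - 1) * (M 0 0 + 1) = 0 := by
    rw [hb] at h00; linear_combination h00
  rcases mul_eq_zero.mp hasq with h | h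
  · left
    have h0 : M 0 0 = 1 := sub_eq_zero.mp h
    ext i j; fin_cases i <;> fin_cases j <;> simp [h0, hb, hc, ← had]
  · right
    have h0 : M 0 0 = -1 := eq_neg_of_add_eq_zero_left h
    ext i j; fin_cases i <;> fin_cases j <;> simp [h0, hb, hc, ← had]

/-- From `δ^(2^a) = 1` and `det δ ^ 5 = 1`: `δ = ±1` or some power of `δ` squares to `-1`. -/
lemma order_two_pow (h2 : (2 : K) ≠ 0) (a : ℕ) :
    ∀ δ : Matrix (Fin 2) (Fin 2) K, δ.det ^ 5 = 1 → δ ^ (2 ^ a) = 1 →
      δ = 1 ∨ δ = -1 ∨ ∃ j : ℕ, δ ^ j * δ ^ j = -1 := by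
  induction a with
  | zero => intro δ _ h; left; simpa using h
  | succ a ih =>
    intro δ hdet h
    have h' : (δ ^ 2) ^ (2 ^ a) = 1 := by rw [← pow_mul, ← pow_succ']; exact h
    have hdet' : (δ ^ 2).det ^ 5 = 1 := by
      rw [Matrix.det_pow, ← pow_mul, mul_comm, pow_mul, hdet, one_pow]
    rcases ih (δ ^ 2) hdet' h' with h1 | h1 | ⟨j, hj⟩
    · have hd2 : δ.det ^ 2 = 1 := by rw [← Matrix.det_pow, h1, Matrix.det_one]
      have hd : δ.det = 1 := by
        have : δ.det = δ.det ^ 5 * (δ.det ^ 2)⁻¹ ^ 2 := by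
          have hne : δ.det ≠ 0 := by
            intro h0; rw [h0] at hd2; simp at hd2
          field_simp
        rw [this, hdet, hd2]; simp
      rcases eq_one_or_neg_one_of_sq h2 (by rw [← pow_two]; exact h1) hd with h | h
      · exact Or.inl h
      · exact Or.inr (Or.inl h)
    · right; right; exact ⟨1, by rw [pow_one, ← pow_two]; exact h1⟩
    · right; right; exact ⟨2 * j, by rw [pow_mul]; exact hj⟩

/-- Final step: a `τ`-fixed zero `e` of `T`, not parallel to `B w0`, on which `τ` acts on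
`det2 (A w0) e`, `det2 (B w0) e` by a common nonzero factor, gives a `τ`-fixed parameter. -/
lemma finish (τ : K →+* K) (T : (Fin 2 → K) → K)
    (hThom : ∀ (c : K) (w : Fin 2 → K), T (c • w) = c ^ 30 * T w)
    (a0 b0 e : Fin 2 → K) (hT : T e = 0) (hτe : (fun i => τ (e i)) = e)
    (hBe : det2 b0 e ≠ 0) (ν : K) (hν : ν ≠ 0)
    (hA' : det2 (fun i => τ (a0 i)) e = ν * det2 a0 e)
    (hB' : det2 (fun i => τ (b0 i)) e = ν * det2 b0 e) :
    ∃ θ : K, T (a0 + θ • b0) = 0 ∧ τ θ = θ := by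
  have he : e ≠ 0 := ne_zero_of_det2_ne_zero_right hBe
  have hτdet : ∀ x : Fin 2 → K, τ (det2 x e) = det2 (fun i => τ (x i)) e := by
    intro x
    have h0 : τ (e 0) = e 0 := congrFun hτe 0
    have h1 : τ (e 1) = e 1 := congrFun hτe 1
    simp only [det2, map_sub, map_mul, h0, h1]
  refine ⟨-(det2 a0 e) / det2 b0 e, ?_, ?_⟩
  · have hz : det2 (a0 + (-(det2 a0 e) / det2 b0 e) • b0) e = 0 := by
      rw [det2_add_left, det2_smul_left]; field_simp; ring
    obtain ⟨l, hl⟩ := exists_smul_of_det2_eq_zero hz he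
    rw [hl, hThom, hT, mul_zero]
  · rw [map_div₀, map_neg, hτdet, hτdet, hA', hB']
    field_simp

/-- Core statement for one automorphism `τ` acting on `w0` through the matrix `δ`. -/
theorem fixed_root_core (h2 : (2 : K) ≠ 0)
    (τ : K →+* K) (I : K) (hI : I ^ 2 = -1) (hτI : τ I = I)
    (w0 : Fin 2 → K) (δ : Matrix (Fin 2) (Fin 2) K)
    (hδτ : ∀ i j, τ (δ i j) = δ i j)
    (hτw : (fun i => τ (w0 i)) = δ *ᵥ w0)
    (a : ℕ) (hfix : (δ ^ (2 ^ a)) *ᵥ w0 = w0)
    (hdet : δ.det ^ 5 = 1)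
    (T : (Fin 2 → K) → K)
    (hThom : ∀ (c : K) (w : Fin 2 → K), T (c • w) = c ^ 30 * T w)
    (hTδ : ∀ w, T (δ *ᵥ w) = T w)
    (hTI : T ![I, 1] = 0) (hTI' : T ![-I, 1] = 0) (hTw0 : T w0 ≠ 0)
    (A B : (Fin 2 → K) → (Fin 2 → K))
    (hAτ : ∀ w, A (fun i => τ (w i)) = fun i => τ (A w i))
    (hBτ : ∀ w, B (fun i => τ (w i)) = fun i => τ (B w i))
    (hAδ : ∀ w, A (δ *ᵥ w) = δ *ᵥ A w) (hBδ : ∀ w, B (δ *ᵥ w) = δ *ᵥ B w)
    (hAneg : ∀ w, A (-w) = -A w) (hBneg : ∀ w, B (-w) = -B w)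
    (hAB : det2 (A w0) (B w0) ≠ 0) :
    ∃ θ : K, T (A w0 + θ • B w0) = 0 ∧ τ θ = θ := by
  have hw0 : w0 ≠ 0 := by
    rintro rfl
    apply hTw0
    have := hThom 0 0
    simpa using this
  have hI0 : I ≠ 0 := by
    rintro rfl; simp at hI
  have hB0 : B w0 ≠ 0 := ne_zero_of_det2_ne_zero_right hAB
  have hdetne : δ.det ≠ 0 := by
    intro h0; rw [h0] at hdet; simp at hdet
  have hTpow : ∀ (n : ℕ) w, T ((δ ^ n) *ᵥ w) = T w := by
    intro n
    induction n with
    | zero => intro w; simp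
    | succ n ih => intro w; rw [pow_succ, ← Matrix.mulVec_mulVec, ih, hTδ]
  by_cases hcase : det2 w0 (δ *ᵥ w0) = 0
  · -- Case A: `w0` is an eigenvector of `δ`
    obtain ⟨c, hc⟩ := exists_smul_of_det2_eq_zero
      (x := δ *ᵥ w0) (y := w0) (by rw [det2_swap, hcase, neg_zero]) hw0
    have hc30 : c ^ 30 = 1 := by
      have := hTδ w0
      rw [hc, hThom] at this
      exact mul_right_cancel₀ hTw0 (by rw [this, one_mul])
    have hc2a : c ^ (2 ^ a) = 1 := by
      have := pow_mulVec_eigen hc (2 ^ a)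
      rw [hfix] at this
      rcases vec2_ne_zero hw0 with h | h
      · have h' := congrFun this 0
        simp only [Pi.smul_apply, smul_eq_mul] at h'
        exact (mul_right_cancel₀ h (by rw [one_mul]; exact h')).symm
      · have h' := congrFun this 1
        simp only [Pi.smul_apply, smul_eq_mul] at h'
        exact (mul_right_cancel₀ h (by rw [one_mul]; exact h')).symm
    have hc2 : c ^ 2 = 1 := by
      have hg : c ^ (Nat.gcd (2 ^ a) 30) = 1 := pow_gcd_eq_one.mpr ⟨hc2a, hc30⟩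
      have hdvd : Nat.gcd (2 ^ a) 30 ∣ 2 := by
        have hcop : Nat.Coprime (2 ^ a) 15 := Nat.Coprime.pow_left a (by norm_num)
        have hcop' : Nat.Coprime (Nat.gcd (2 ^ a) 30) 15 :=
          Nat.Coprime.coprime_dvd_left (Nat.gcd_dvd_left _ _) hcop
        exact hcop'.dvd_of_dvd_mul_right (Nat.gcd_dvd_right (2 ^ a) (2 * 15))
      obtain ⟨k, hk⟩ := hdvd
      rw [hk, pow_mul, hg, one_pow]
    have hc1 : c = 1 ∨ c = -1 := by
      have : (c - 1) * (c + 1) = 0 := by linear_combination hc2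
      rcases mul_eq_zero.mp this with h | h
      · exact Or.inl (sub_eq_zero.mp h)
      · exact Or.inr (eq_neg_of_add_eq_zero_left h)
    have hcne : c ≠ 0 := by
      rcases hc1 with h | h <;> rw [h] <;> simp
    have hτw' : (fun i => τ (w0 i)) = c • w0 := by rw [hτw, hc]
    have hAc : (fun i => τ (A w0 i)) = c • A w0 := by
      rw [← hAτ, hτw']
      rcases hc1 with h | h
      · rw [h, one_smul, one_smul]
      · rw [h, neg_one_smul, neg_one_smul, hAneg]
    have hBc : (fun i => τ (B w0 i)) = c • B w0 := by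
      rw [← hBτ, hτw']
      rcases hc1 with h | h
      · rw [h, one_smul, one_smul]
      · rw [h, neg_one_smul, neg_one_smul, hBneg]
    have he12 : det2 ![I, 1] ![-I, 1] ≠ 0 := by
      have : det2 ![I, 1] ![-I, 1] = 2 * I := by
        simp [det2]; ring
      rw [this]; exact mul_ne_zero h2 hI0
    have hτe1 : (fun i => τ ((![I, 1] : Fin 2 → K) i)) = ![I, 1] := by
      apply vec2_ext <;> simp [hτI]
    have hτe2 : (fun i => τ ((![-I, 1] : Fin 2 → K) i)) = ![-I, 1] := by
      apply vec2_ext <;> simp [hτI]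
    rcases det2_ne_zero_or he12 hB0 with h | h
    · exact finish τ T hThom (A w0) (B w0) _ hTI hτe1 h c hcne
        (by rw [hAc, det2_smul_left]) (by rw [hBc, det2_smul_left])
    · exact finish τ T hThom (A w0) (B w0) _ hTI' hτe2 h c hcne
        (by rw [hAc, det2_smul_left]) (by rw [hBc, det2_smul_left])
  · -- Case B: `w0`, `δ w0` independent, so `δ ^ (2 ^ a) = 1`
    have hone : δ ^ (2 ^ a) = 1 := by
      have hM : δ ^ (2 ^ a) - 1 = 0 := by
        apply eq_zero_of_mulVec_eq_zero (x := w0) (y := δ *ᵥ w0) _ _ hcase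
        · rw [Matrix.sub_mulVec, hfix, Matrix.one_mulVec, sub_self]
        · rw [Matrix.sub_mulVec, Matrix.one_mulVec, Matrix.mulVec_mulVec, ← pow_succ, pow_succ',
            ← Matrix.mulVec_mulVec, hfix, sub_self]
      exact sub_eq_zero.mp hM
    rcases order_two_pow h2 a δ hdet hone with h1 | h1 | ⟨j, hj⟩
    · exfalso; apply hcase; rw [h1, Matrix.one_mulVec, det2_self]
    · exfalso; apply hcase
      rw [h1, Matrix.neg_mulVec, Matrix.one_mulVec, det2_swap, det2_neg_left, det2_self, neg_zero,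
        neg_zero]
    · -- `d2 := δ ^ j` squares to `-1`
      set d2 : Matrix (Fin 2) (Fin 2) K := δ ^ j with hd2
      have hd2det : d2.det = 1 := by
        have h5 : d2.det ^ 5 = 1 := by
          rw [hd2, Matrix.det_pow, ← pow_mul, mul_comm, pow_mul, hdet, one_pow]
        have h2' : d2.det ^ 2 = 1 := by
          rw [pow_two, ← Matrix.det_mul, hj]
          simp [Matrix.det_fin_two]
        have hne : d2.det ≠ 0 := by
          intro h0; rw [h0] at h2'; simp at h2'
        have : d2.det = d2.det ^ 5 * (d2.det ^ 2)⁻¹ ^ 2 := by field_simp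
        rw [this, h5, h2']; simp
      have hd2τ : ∀ i k, τ (d2 i k) = d2 i k := by
        have hmap : δ.map τ = δ := by ext i k; simp [hδτ]
        have : d2.map τ = d2 := by rw [hd2, Matrix.map_pow, hmap]
        intro i k
        have := congrFun (congrFun this i) k
        simpa using this
      have hcomm : d2 * δ = δ * d2 := by
        rw [hd2]; exact (pow_mul_comm' δ j)
      have hTd2 : ∀ w, T (d2 *ᵥ w) = T w := hTpow j
      -- the two projectors
      set Np : Matrix (Fin 2) (Fin 2) K := d2 + I • 1 with hNp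
      set Nm : Matrix (Fin 2) (Fin 2) K := d2 - I • 1 with hNm
      have hI2 : I * I = -1 := by rw [← pow_two]; exact hI
      have hmp : Nm * Np = 0 := by
        have : Nm * Np = d2 * d2 - (I * I) • (1 : Matrix (Fin 2) (Fin 2) K) := by
          rw [hNm, hNp]
          simp only [Matrix.sub_mul, Matrix.mul_add,
            Matrix.mul_smul, Matrix.smul_mul, Matrix.mul_one, Matrix.one_mul, smul_sub,
            smul_smul]
          abel
        rw [this, hj, hI2]; simp
      have hpm : Np * Nm = 0 := by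
        have : Np * Nm = d2 * d2 - (I * I) • (1 : Matrix (Fin 2) (Fin 2) K) := by
          rw [hNm, hNp]
          simp only [Matrix.add_mul, Matrix.mul_sub,
            Matrix.mul_smul, Matrix.smul_mul, Matrix.mul_one, Matrix.one_mul, smul_add,
            smul_smul]
          abel
        rw [this, hj, hI2]; simp
      have hNp0 : Np ≠ 0 := by
        intro h0
        have hd : d2 = -(I • (1 : Matrix (Fin 2) (Fin 2) K)) := eq_neg_of_add_eq_zero_left h0
        have : d2.det = -1 := by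
          rw [hd]; simp [Matrix.det_fin_two]; linear_combination hI2
        rw [hd2det] at this
        apply h2; linear_combination this
      have hNm0 : Nm ≠ 0 := by
        intro h0
        have hd : d2 = I • (1 : Matrix (Fin 2) (Fin 2) K) := sub_eq_zero.mp h0
        have : d2.det = -1 := by
          rw [hd]; simp; linear_combination hI2
        rw [hd2det] at this
        apply h2; linear_combination this
      -- nonzero columns
      have hcol : ∀ N : Matrix (Fin 2) (Fin 2) K, N ≠ 0 → ∃ k, (fun i => N i k) ≠ 0 := by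
        intro N hN
        by_contra hall
        apply hN
        ext i k
        have : (fun i => N i k) = 0 := by
          by_contra hk; exact hall ⟨k, hk⟩
        exact congrFun this i
      obtain ⟨kp, hkp⟩ := hcol Np hNp0
      obtain ⟨km, hkm⟩ := hcol Nm hNm0
      set ep : Fin 2 → K := fun i => Np i kp with hep
      set em : Fin 2 → K := fun i => Nm i km with hem
      have hNmep : Nm *ᵥ ep = 0 := by
        funext i
        have := congrFun (congrFun hmp i) kp
        simpa [Matrix.mul_apply, Matrix.mulVec, dotProduct, hep] using this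
      have hNpem : Np *ᵥ em = 0 := by
        funext i
        have := congrFun (congrFun hpm i) km
        simpa [Matrix.mul_apply, Matrix.mulVec, dotProduct, hem] using this
      have hd2ep : d2 *ᵥ ep = I • ep := by
        have := hNmep
        rw [hNm, Matrix.sub_mulVec, Matrix.smul_mulVec, Matrix.one_mulVec] at this
        exact sub_eq_zero.mp this
      have hd2em : d2 *ᵥ em = (-I) • em := by
        have := hNpem
        rw [hNp, Matrix.add_mulVec, Matrix.smul_mulVec, Matrix.one_mulVec] at this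
        rw [neg_smul]; exact eq_neg_of_add_eq_zero_left this
      have hτone : ∀ i k : Fin 2, τ ((1 : Matrix (Fin 2) (Fin 2) K) i k) = (1 : Matrix (Fin 2) (Fin 2) K) i k := by
        intro i k
        by_cases hik : i = k
        · rw [hik, Matrix.one_apply_eq, map_one]
        · rw [Matrix.one_apply_ne hik, map_zero]
      have hτep : (fun i => τ (ep i)) = ep := by
        funext i
        simp only [hep, hNp, Matrix.add_apply, Matrix.smul_apply, smul_eq_mul, map_add, map_mul,
          hd2τ, hτI, hτone]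
      have hτem : (fun i => τ (em i)) = em := by
        funext i
        simp only [hem, hNm, Matrix.sub_apply, Matrix.smul_apply, smul_eq_mul, map_sub, map_mul,
          hd2τ, hτI, hτone]
      have hI30 : I ^ 30 = -1 := by
        have : I ^ 30 = (I ^ 2) ^ 15 := by rw [← pow_mul]
        rw [this, hI]; norm_num
      have hTep : T ep = 0 := by
        have := hTd2 ep
        rw [hd2ep, hThom, hI30] at this
        have h' : (2 : K) * T ep = 0 := by linear_combination -this
        exact (mul_eq_zero.mp h').resolve_left h2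
      have hTem : T em = 0 := by
        have := hTd2 em
        rw [hd2em, hThom] at this
        have hmI : (-I) ^ 30 = -1 := by
          rw [show (-I) ^ 30 = I ^ 30 by ring, hI30]
        rw [hmI] at this
        have h' : (2 : K) * T em = 0 := by linear_combination -this
        exact (mul_eq_zero.mp h').resolve_left h2
      -- independence of `ep`, `em`
      have hind : det2 ep em ≠ 0 := by
        intro h0
        obtain ⟨μ', hμ'⟩ := exists_smul_of_det2_eq_zero h0 hkm
        have h1 : d2 *ᵥ ep = (-I) • ep := by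
          rw [hμ', Matrix.mulVec_smul, hd2em, smul_comm]
        rw [hd2ep] at h1
        have h3 : (2 * I) • ep = 0 := by
          have : I • ep - (-I) • ep = 0 := sub_eq_zero.mpr h1
          rw [← sub_smul] at this
          rw [show (2 * I) = I - -I by ring]; exact this
        rcases smul_eq_zero.mp h3 with h | h
        · exact (mul_ne_zero h2 hI0) h
        · exact hkp h
      -- eigenvectors of `δ`
      have heig : ∀ (N : Matrix (Fin 2) (Fin 2) K) (e : Fin 2 → K), N ≠ 0 → N * δ = δ * N →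
          N *ᵥ e = 0 → e ≠ 0 → ∃ μ : K, δ *ᵥ e = μ • e := by
        intro N e hN hNδ hNe he
        have hNδe : N *ᵥ (δ *ᵥ e) = 0 := by
          rw [Matrix.mulVec_mulVec, hNδ, ← Matrix.mulVec_mulVec, hNe, Matrix.mulVec_zero]
        have hdz : det2 (δ *ᵥ e) e = 0 := by
          by_contra hne
          exact hN (eq_zero_of_mulVec_eq_zero hNδe hNe hne)
        exact exists_smul_of_det2_eq_zero hdz he
      have hNmδ : Nm * δ = δ * Nm := by
        rw [hNm, Matrix.sub_mul, Matrix.mul_sub, hcomm]; simp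
      have hNpδ : Np * δ = δ * Np := by
        rw [hNp, Matrix.add_mul, Matrix.mul_add, hcomm]; simp
      -- the common finishing argument for an eigenvector `e` of `δ`
      have hfin : ∀ e : Fin 2 → K, e ≠ 0 → T e = 0 → (fun i => τ (e i)) = e →
          (∃ μ : K, δ *ᵥ e = μ • e) → det2 (B w0) e ≠ 0 →
          ∃ θ : K, T (A w0 + θ • B w0) = 0 ∧ τ θ = θ := by
        intro e he hTe hτe ⟨μ, hμ⟩ hBe
        have hμ0 : μ ≠ 0 := by
          intro h0
          have := pow_mulVec_eigen hμ (2 ^ a)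
          rw [hone, Matrix.one_mulVec, h0, zero_pow (by positivity), zero_smul] at this
          exact he this
        have hkey : ∀ x : Fin 2 → K, det2 (δ *ᵥ x) e = (δ.det / μ) * det2 x e := by
          intro x
          have h1 : μ * det2 (δ *ᵥ x) e = δ.det * det2 x e := by
            rw [← det2_smul_right, ← hμ, det2_mulVec]
          field_simp
          linear_combination h1
        refine finish τ T hThom (A w0) (B w0) e hTe hτe hBe (δ.det / μ)
          (div_ne_zero hdetne hμ0) ?_ ?_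
        · rw [← hAτ, hτw, hAδ, hkey]
        · rw [← hBτ, hτw, hBδ, hkey]
      rcases det2_ne_zero_or hind hB0 with h | h
      · exact hfin ep hkp hTep hτep (heig Nm ep hNm0 hNmδ hNmep hkp) h
      · exact hfin em hkm hTem hτem (heig Np em hNp0 hNpδ hNpem hkm) h

end TwoDim

section Wrapper

variable {F K : Type*} [Field F] [Field K] [Algebra F K]

/-- Every element of an algebraic extension has a finite orbit under an automorphism. -/
lemma exists_pow_apply_eq [Algebra.IsAlgebraic F K] (σ : K ≃ₐ[F] K) (x : K) :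
    ∃ n : ℕ, 0 < n ∧ (σ ^ n) x = x := by
  have hfin : ((minpoly F x).rootSet K).Finite := Polynomial.rootSet_finite _ _
  have hmem : ∀ n : ℕ, (σ ^ n) x ∈ (minpoly F x).rootSet K := by
    intro n
    rw [Polynomial.mem_rootSet]
    refine ⟨minpoly.ne_zero (Algebra.IsIntegral.isIntegral x), ?_⟩
    rw [Polynomial.aeval_algHom_apply (σ ^ n) x (minpoly F x), minpoly.aeval, map_zero]
  have : Finite ↥((minpoly F x).rootSet K) := hfin.to_subtype
  obtain ⟨n₁, n₂, hne, heq⟩ := Finite.exists_ne_map_eq_of_infinite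
    (fun n : ℕ => (⟨(σ ^ n) x, hmem n⟩ : ↥((minpoly F x).rootSet K)))
  have heq' : (σ ^ n₁) x = (σ ^ n₂) x := congrArg Subtype.val heq
  have key : ∀ a b : ℕ, a < b → (σ ^ a) x = (σ ^ b) x → ∃ n : ℕ, 0 < n ∧ (σ ^ n) x = x := by
    intro a b hab h
    refine ⟨b - a, Nat.sub_pos_of_lt hab, ?_⟩
    have hb : σ ^ b = σ ^ a * σ ^ (b - a) := by
      rw [← pow_add, Nat.add_sub_cancel' hab.le]
    rw [hb, AlgEquiv.mul_apply] at h
    exact ((σ ^ a).injective h).symm
  rcases Nat.lt_or_gt_of_ne hne with h | h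
  · exact key n₁ n₂ h heq'
  · exact key n₂ n₁ h heq'.symm

lemma pow_apply_eq_self_of_apply_eq_self (σ : K ≃ₐ[F] K) {x : K} (h : σ x = x) (n : ℕ) :
    (σ ^ n) x = x := by
  induction n with
  | zero => simp
  | succ n ih => rw [pow_succ, AlgEquiv.mul_apply, h, ih]

lemma pow_mul_apply_eq_self (σ : K ≃ₐ[F] K) {x : K} {n : ℕ} (h : (σ ^ n) x = x) (m : ℕ) :
    (σ ^ (n * m)) x = x := by
  rw [pow_mul]; exact pow_apply_eq_self_of_apply_eq_self _ h m

/-- **Fixed root lemma.**  Pure linear algebra: from one automorphism `σ` acting on `w0` through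
a `σ`-fixed matrix `γ` preserving `T` and commuting with the pencil `A + t B`, we get an odd power
`σ ^ k` and a root `θ` of `t ↦ T (A w0 + t B w0)` fixed by it. -/
theorem fixed_root_of_torsor [Algebra.IsAlgebraic F K] (h2 : (2 : K) ≠ 0)
    (σ : K ≃ₐ[F] K) (I : K) (hI : I ^ 2 = -1) (hσI : σ I = I)
    (w0 : Fin 2 → K) (γ : Matrix (Fin 2) (Fin 2) K)
    (hγσ : ∀ i j, σ (γ i j) = γ i j)
    (hσw : (fun i => σ (w0 i)) = γ *ᵥ w0)
    (hdet : γ.det ^ 5 = 1)
    (T : (Fin 2 → K) → K)
    (hThom : ∀ (c : K) (w : Fin 2 → K), T (c • w) = c ^ 30 * T w)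
    (hTγ : ∀ w, T (γ *ᵥ w) = T w)
    (hTI : T ![I, 1] = 0) (hTI' : T ![-I, 1] = 0) (hTw0 : T w0 ≠ 0)
    (A B : (Fin 2 → K) → (Fin 2 → K))
    (hAσ : ∀ w, A (fun i => σ (w i)) = fun i => σ (A w i))
    (hBσ : ∀ w, B (fun i => σ (w i)) = fun i => σ (B w i))
    (hAγ : ∀ w, A (γ *ᵥ w) = γ *ᵥ A w) (hBγ : ∀ w, B (γ *ᵥ w) = γ *ᵥ B w)
    (hAneg : ∀ w, A (-w) = -A w) (hBneg : ∀ w, B (-w) = -B w)
    (hAB : det2 (A w0) (B w0) ≠ 0) :
    ∃ k : ℕ, Odd k ∧ ∃ θ : K, T (A w0 + θ • B w0) = 0 ∧ (σ ^ k) θ = θ := by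
  -- a common period of the two coordinates
  obtain ⟨n₀, hn₀, hf₀⟩ := exists_pow_apply_eq σ (w0 0)
  obtain ⟨n₁, hn₁, hf₁⟩ := exists_pow_apply_eq σ (w0 1)
  have hN : n₀ * n₁ ≠ 0 := Nat.mul_ne_zero hn₀.ne' hn₁.ne'
  obtain ⟨a, m, hm, hNam⟩ := Nat.exists_eq_two_pow_mul_odd hN
  have hfixN : (fun i => (σ ^ (n₀ * n₁)) (w0 i)) = w0 := by
    apply vec2_ext
    · exact pow_mul_apply_eq_self σ hf₀ n₁
    · show (σ ^ (n₀ * n₁)) (w0 1) = w0 1
      rw [mul_comm]; exact pow_mul_apply_eq_self σ hf₁ n₀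
  have hγmap : γ.map (σ : K →+* K) = γ := by ext i j; simp [hγσ]
  -- iterates of `σ` act through powers of `γ`
  have hiter : ∀ n : ℕ, (fun i => (σ ^ n) (w0 i)) = (γ ^ n) *ᵥ w0 := by
    intro n
    induction n with
    | zero => simp
    | succ n ih =>
      have h1 : (fun i => (σ ^ (n + 1)) (w0 i)) = fun i => σ ((γ ^ n *ᵥ w0) i) := by
        funext i
        rw [pow_succ', AlgEquiv.mul_apply]
        exact congrArg σ (congrFun ih i)
      rw [h1]
      funext i
      have h3 := RingHom.map_mulVec (σ : K →+* K) (γ ^ n) w0 i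
      rw [Matrix.map_pow, hγmap] at h3
      have h4 : ((σ : K →+* K) : K → K) ∘ w0 = γ *ᵥ w0 := hσw
      rw [h4, Matrix.mulVec_mulVec, ← pow_succ] at h3
      exact h3
  have hγpowσ : ∀ (n : ℕ) i j, σ ((γ ^ n) i j) = (γ ^ n) i j := by
    intro n i j
    have : (γ ^ n).map (σ : K →+* K) = γ ^ n := by rw [Matrix.map_pow, hγmap]
    have := congrFun (congrFun this i) j
    simpa using this
  have hTpow : ∀ (n : ℕ) w, T ((γ ^ n) *ᵥ w) = T w := by
    intro n
    induction n with
    | zero => intro w; simp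
    | succ n ih => intro w; rw [pow_succ, ← Matrix.mulVec_mulVec, ih, hTγ]
  have hApow : ∀ (n : ℕ) w, A ((γ ^ n) *ᵥ w) = (γ ^ n) *ᵥ A w := by
    intro n
    induction n with
    | zero => intro w; simp
    | succ n ih => intro w; rw [pow_succ, ← Matrix.mulVec_mulVec, ih, hAγ, Matrix.mulVec_mulVec]
  have hBpow : ∀ (n : ℕ) w, B ((γ ^ n) *ᵥ w) = (γ ^ n) *ᵥ B w := by
    intro n
    induction n with
    | zero => intro w; simp
    | succ n ih => intro w; rw [pow_succ, ← Matrix.mulVec_mulVec, ih, hBγ, Matrix.mulVec_mulVec]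
  have hAσpow : ∀ (n : ℕ) w, A (fun i => (σ ^ n) (w i)) = fun i => (σ ^ n) (A w i) := by
    intro n
    induction n with
    | zero => intro w; simp
    | succ n ih =>
      intro w
      have h1 : (fun i => (σ ^ (n + 1)) (w i)) = fun i => σ ((fun i => (σ ^ n) (w i)) i) := by
        funext i; rw [pow_succ', AlgEquiv.mul_apply]
      rw [h1, hAσ, ih]
      funext i; rw [pow_succ', AlgEquiv.mul_apply]
  have hBσpow : ∀ (n : ℕ) w, B (fun i => (σ ^ n) (w i)) = fun i => (σ ^ n) (B w i) := by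
    intro n
    induction n with
    | zero => intro w; simp
    | succ n ih =>
      intro w
      have h1 : (fun i => (σ ^ (n + 1)) (w i)) = fun i => σ ((fun i => (σ ^ n) (w i)) i) := by
        funext i; rw [pow_succ', AlgEquiv.mul_apply]
      rw [h1, hBσ, ih]
      funext i; rw [pow_succ', AlgEquiv.mul_apply]
  refine ⟨m, hm, ?_⟩
  have hcore := fixed_root_core h2 ((σ ^ m : K ≃ₐ[F] K) : K →+* K) I hI
    (pow_apply_eq_self_of_apply_eq_self σ hσI m) w0 (γ ^ m)
    (fun i j => pow_apply_eq_self_of_apply_eq_self σ (hγpowσ m i j) m)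
    (hiter m) a
    (by rw [← pow_mul, mul_comm, ← hNam, ← hiter, hfixN])
    (by rw [Matrix.det_pow, ← pow_mul, mul_comm, pow_mul, hdet, one_pow])
    T hThom (hTpow m) hTI hTI' hTw0 A B (hAσpow m) (hBσpow m) (hApow m) (hBpow m)
    hAneg hBneg hAB
  exact hcore

end Wrapper

open Polynomial IntermediateField

section Cyclo

variable {K : Type*} [Field K] [CharZero K]

lemma isPrimitiveRoot_four_of_sq {I : K} (hI : I ^ 2 = -1) : IsPrimitiveRoot I 4 := by
  have h2 : (2 : K) ≠ 0 := two_ne_zero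
  have hne : (1 : K) ≠ -1 := by
    intro h; apply h2; linear_combination h
  refine IsPrimitiveRoot.mk_of_lt I (by norm_num) ?_ ?_
  · have : I ^ 4 = (I ^ 2) ^ 2 := by ring
    rw [this, hI]; norm_num
  · intro l hl hl4 h
    interval_cases l
    · -- I = 1
      rw [pow_one] at h; rw [h, one_pow] at hI; exact hne hI
    · rw [hI] at h; exact hne h.symm
    · have : I ^ 3 = I ^ 2 * I := by ring
      rw [this, hI] at h
      have hI' : I = -1 := by linear_combination -h
      rw [hI', neg_one_sq] at hI; exact hne hI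

lemma isPrimitiveRoot_three_of_eq {ω : K} (hω : ω ^ 2 + ω + 1 = 0) : IsPrimitiveRoot ω 3 := by
  have h3 : (3 : K) ≠ 0 := three_ne_zero
  have : NeZero ((3 : ℕ) : K) := ⟨by exact_mod_cast h3⟩
  rw [← Polynomial.isRoot_cyclotomic_iff, Polynomial.cyclotomic_three]
  simp only [IsRoot.def, eval_add, eval_pow, eval_X, eval_one]
  exact hω

/-- `√3` does not lie in the 20-th cyclotomic field. -/
lemma sqrt_three_notMem_adjoin {z I r : K} (hz : IsPrimitiveRoot z 5) (hI : I ^ 2 = -1)
    (hr : r ^ 2 = 3) : r ∉ ℚ⟮z * I⟯ := by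
  intro hrL
  have hI4 : IsPrimitiveRoot I 4 := isPrimitiveRoot_four_of_sq hI
  have hz5 : z ^ 5 = 1 := hz.pow_eq_one
  have hI4' : I ^ 4 = 1 := hI4.pow_eq_one
  have hzI : z * I ∈ ℚ⟮z * I⟯ := mem_adjoin_simple_self ℚ (z * I)
  have hzL : z ∈ ℚ⟮z * I⟯ := by
    have h : (z * I) ^ 16 = z := by
      have : (z * I) ^ 16 = (z ^ 5) ^ 3 * z * (I ^ 4) ^ 4 := by ring
      rw [this, hz5, hI4']; ring
    have h' := pow_mem hzI 16
    rwa [h] at h'
  have hIL : I ∈ ℚ⟮z * I⟯ := by
    have h : (z * I) ^ 5 = I := by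
      have : (z * I) ^ 5 = z ^ 5 * (I ^ 4) * I := by ring
      rw [this, hz5, hI4']; ring
    have h' := pow_mem hzI 5
    rwa [h] at h'
  -- the cube root of unity
  set ω : K := (-1 + I * r) / 2 with hω
  have hωL : ω ∈ ℚ⟮z * I⟯ := by
    rw [hω]
    refine div_mem (add_mem (neg_mem (one_mem _)) (mul_mem hIL hrL)) ?_
    exact_mod_cast IntermediateField.natCast_mem ℚ⟮z * I⟯ 2
  have hω3 : IsPrimitiveRoot ω 3 := by
    apply isPrimitiveRoot_three_of_eq
    rw [hω]
    have hI2 : I * I = -1 := by rw [← pow_two]; exact hI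
    have hr2 : r * r = 3 := by rw [← pow_two]; exact hr
    field_simp
    linear_combination (r * r) * hI2 - hr2
  -- orders
  have ho5 : orderOf z = 5 := hz.eq_orderOf.symm
  have ho4 : orderOf I = 4 := hI4.eq_orderOf.symm
  have ho3 : orderOf ω = 3 := hω3.eq_orderOf.symm
  have ho20 : orderOf (z * I) = 20 := by
    rw [(Commute.all z I).orderOf_mul_eq_mul_orderOf_of_coprime (by rw [ho5, ho4]; norm_num),
      ho5, ho4]
  have ho60 : orderOf (z * I * ω) = 60 := by
    rw [(Commute.all (z * I) ω).orderOf_mul_eq_mul_orderOf_of_coprime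
      (by rw [ho20, ho3]; norm_num), ho20, ho3]
  have hp20 : IsPrimitiveRoot (z * I) 20 := ho20 ▸ IsPrimitiveRoot.orderOf (z * I)
  have hp60 : IsPrimitiveRoot (z * I * ω) 60 := ho60 ▸ IsPrimitiveRoot.orderOf (z * I * ω)
  have hint20 : IsIntegral ℚ (z * I) := (hp20.isIntegral (by norm_num)).tower_top
  have hint60 : IsIntegral ℚ (z * I * ω) := (hp60.isIntegral (by norm_num)).tower_top
  have hf20 : Module.finrank ℚ ℚ⟮z * I⟯ = 8 := by
    rw [adjoin.finrank hint20, ← cyclotomic_eq_minpoly_rat hp20 (by norm_num),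
      natDegree_cyclotomic]
    decide
  have hf60 : Module.finrank ℚ ℚ⟮z * I * ω⟯ = 16 := by
    rw [adjoin.finrank hint60, ← cyclotomic_eq_minpoly_rat hp60 (by norm_num),
      natDegree_cyclotomic]
    decide
  have hle : ℚ⟮z * I * ω⟯ ≤ ℚ⟮z * I⟯ := by
    rw [adjoin_simple_le_iff]
    exact mul_mem hzI hωL
  have : FiniteDimensional ℚ ℚ⟮z * I⟯ := adjoin.finiteDimensional hint20
  have := finrank_le_of_le_right hle
  rw [hf20, hf60] at this
  omega

end Cyclo

/-- There is an automorphism of `ℚ̄` fixing `ζ₅` and `i` and moving `√3`. -/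
theorem exists_sigma_sqrt_three {K : Type*} [Field K] [inst : Algebra ℚ K] [IsGalois ℚ K]
    {z I r : K} (hz : IsPrimitiveRoot z 5) (hI : I ^ 2 = -1) (hr : r ^ 2 = 3) :
    ∃ σ : K ≃ₐ[ℚ] K, σ z = z ∧ σ I = I ∧ σ r = -r := by
  have hchar : CharZero K := algebraRat.charZero K
  obtain rfl : inst = DivisionRing.toRatAlgebra := Subsingleton.elim _ _
  have hnot : r ∉ ℚ⟮z * I⟯ := sqrt_three_notMem_adjoin hz hI hr
  have hfixed := InfiniteGalois.fixedField_fixingSubgroup (ℚ⟮z * I⟯ : IntermediateField ℚ K)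
  have hnot' : r ∉ IntermediateField.fixedField (ℚ⟮z * I⟯ : IntermediateField ℚ K).fixingSubgroup := by
    rw [hfixed]; exact hnot
  rw [IntermediateField.mem_fixedField_iff] at hnot'
  push Not at hnot'
  obtain ⟨σ, hσ, hσr⟩ := hnot'
  have hfix : ∀ x ∈ ℚ⟮z * I⟯, σ x = x := by
    intro x hx
    exact (IntermediateField.mem_fixingSubgroup_iff _ σ).mp hσ x hx
  have hI4 : IsPrimitiveRoot I 4 := isPrimitiveRoot_four_of_sq hI
  have hz5 : z ^ 5 = 1 := hz.pow_eq_one
  have hI4' : I ^ 4 = 1 := hI4.pow_eq_one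
  have hzI : σ (z * I) = z * I := hfix _ (mem_adjoin_simple_self ℚ (z * I))
  refine ⟨σ, ?_, ?_, ?_⟩
  · have h : (z * I) ^ 16 = z := by
      have : (z * I) ^ 16 = (z ^ 5) ^ 3 * z * (I ^ 4) ^ 4 := by ring
      rw [this, hz5, hI4']; ring
    rw [← h, map_pow, hzI]
  · have h : (z * I) ^ 5 = I := by
      have : (z * I) ^ 5 = z ^ 5 * (I ^ 4) * I := by ring
      rw [this, hz5, hI4']; ring
    rw [← h, map_pow, hzI]
  · have h1 : (σ r) ^ 2 = 3 := by rw [← map_pow, hr, map_ofNat]
    have h2 : (σ r - r) * (σ r + r) = 0 := by linear_combination h1 - hr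
    rcases mul_eq_zero.mp h2 with h | h
    · exact absurd (sub_eq_zero.mp h) hσr
    · exact eq_neg_of_add_eq_zero_left h


section Final

open Matrix

/-- **FixSig.**  Combination of `exists_sigma_sqrt_three` and `fixed_root_of_torsor`: if the torsor
property holds for every automorphism fixing `ζ₅` (with a matrix `γ` whose entries are fixed),
then there are a root `θ` of `t ↦ T (A w0 + t • B w0)` and an automorphism `σ` of `K = ℚ̄` with
`σ θ = θ` and `σ r = -r` for every square root `r` of `3`. -/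
theorem exists_root_fixed_sqrt_three_moved {K : Type*} [Field K] [Algebra ℚ K]
    [Algebra.IsAlgebraic ℚ K] [IsGalois ℚ K] [IsAlgClosed K]
    {z I : K} (hz : IsPrimitiveRoot z 5) (hI : I ^ 2 = -1)
    (w0 : Fin 2 → K) (T : (Fin 2 → K) → K)
    (hThom : ∀ (c : K) (w : Fin 2 → K), T (c • w) = c ^ 30 * T w)
    (hTI : T ![I, 1] = 0) (hTI' : T ![-I, 1] = 0) (hTw0 : T w0 ≠ 0)
    (A B : (Fin 2 → K) → (Fin 2 → K))
    (hAσ : ∀ (σ : K ≃ₐ[ℚ] K) w, A (fun i => σ (w i)) = fun i => σ (A w i))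
    (hBσ : ∀ (σ : K ≃ₐ[ℚ] K) w, B (fun i => σ (w i)) = fun i => σ (B w i))
    (hAneg : ∀ w, A (-w) = -A w) (hBneg : ∀ w, B (-w) = -B w)
    (hAB : det2 (A w0) (B w0) ≠ 0)
    (htorsor : ∀ σ : K ≃ₐ[ℚ] K, σ z = z → ∃ γ : Matrix (Fin 2) (Fin 2) K,
      (∀ i j, σ (γ i j) = γ i j) ∧ γ.det ^ 5 = 1 ∧ (fun i => σ (w0 i)) = γ *ᵥ w0 ∧
      (∀ w, T (γ *ᵥ w) = T w) ∧ (∀ w, A (γ *ᵥ w) = γ *ᵥ A w) ∧ (∀ w, B (γ *ᵥ w) = γ *ᵥ B w)) :
    ∃ (θ : K) (σ : K ≃ₐ[ℚ] K), T (A w0 + θ • B w0) = 0 ∧ σ θ = θ ∧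
      ∀ r : K, r ^ 2 = 3 → σ r = -r := by
  have hchar : CharZero K := algebraRat.charZero K
  have h2 : (2 : K) ≠ 0 := two_ne_zero
  obtain ⟨r₀, hr₀⟩ := IsAlgClosed.exists_pow_nat_eq (3 : K) (n := 2) (by norm_num)
  obtain ⟨σ₀, hσz, hσI, hσr⟩ := exists_sigma_sqrt_three hz hI hr₀
  obtain ⟨γ, hγσ, hdet, hσw, hTγ, hAγ, hBγ⟩ := htorsor σ₀ hσz
  obtain ⟨k, hk, θ, hθ, hfix⟩ := fixed_root_of_torsor h2 σ₀ I hI hσI w0 γ hγσ hσw hdet T hThom hTγ
    hTI hTI' hTw0 A B (hAσ σ₀) (hBσ σ₀) hAγ hBγ hAneg hBneg hAB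
  refine ⟨θ, σ₀ ^ k, hθ, hfix, ?_⟩
  have hpow : ∀ n : ℕ, (σ₀ ^ n) r₀ = (-1) ^ n * r₀ := by
    intro n
    induction n with
    | zero => simp
    | succ n ih =>
      rw [pow_succ', AlgEquiv.mul_apply, ih, map_mul, map_pow, map_neg, map_one, hσr, pow_succ]
      ring
  have hk' : (σ₀ ^ k) r₀ = -r₀ := by rw [hpow, hk.neg_one_pow]; ring
  intro r hr
  have h3 : (r - r₀) * (r + r₀) = 0 := by linear_combination hr - hr₀
  rcases mul_eq_zero.mp h3 with h | h
  · rw [sub_eq_zero.mp h]; exact hk'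
  · rw [eq_neg_of_add_eq_zero_left h, map_neg, hk']

end Final

section Qbar

open Matrix

theorem isAlgebraic_Qb : Algebra.IsAlgebraic ℚ (AlgebraicClosure ℚ) :=
  AlgebraicClosure.isAlgebraic ℚ

theorem isAlgClosure_Qb : IsAlgClosure ℚ (AlgebraicClosure ℚ) :=
  ⟨inferInstance, isAlgebraic_Qb⟩

theorem isGalois_Qb : IsGalois ℚ (AlgebraicClosure ℚ) :=
  haveI := isAlgClosure_Qb
  inferInstance

/-- `exists_root_fixed_sqrt_three_moved` for `AlgebraicClosure ℚ` with the default `ℚ`-algebra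
structure (the one used by the frozen statements). -/
theorem exists_root_fixed_sqrt_three_moved_Qb
    {z I : AlgebraicClosure ℚ} (hz : IsPrimitiveRoot z 5) (hI : I ^ 2 = -1)
    (w0 : Fin 2 → AlgebraicClosure ℚ) (T : (Fin 2 → AlgebraicClosure ℚ) → AlgebraicClosure ℚ)
    (hThom : ∀ (c : AlgebraicClosure ℚ) (w : Fin 2 → AlgebraicClosure ℚ),
      T (c • w) = c ^ 30 * T w)
    (hTI : T ![I, 1] = 0) (hTI' : T ![-I, 1] = 0) (hTw0 : T w0 ≠ 0)
    (A B : (Fin 2 → AlgebraicClosure ℚ) → (Fin 2 → AlgebraicClosure ℚ))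
    (hAσ : ∀ (σ : AlgebraicClosure ℚ ≃ₐ[ℚ] AlgebraicClosure ℚ) w,
      A (fun i => σ (w i)) = fun i => σ (A w i))
    (hBσ : ∀ (σ : AlgebraicClosure ℚ ≃ₐ[ℚ] AlgebraicClosure ℚ) w,
      B (fun i => σ (w i)) = fun i => σ (B w i))
    (hAneg : ∀ w, A (-w) = -A w) (hBneg : ∀ w, B (-w) = -B w)
    (hAB : det2 (A w0) (B w0) ≠ 0)
    (htorsor : ∀ σ : AlgebraicClosure ℚ ≃ₐ[ℚ] AlgebraicClosure ℚ, σ z = z →
      ∃ γ : Matrix (Fin 2) (Fin 2) (AlgebraicClosure ℚ),
      (∀ i j, σ (γ i j) = γ i j) ∧ γ.det ^ 5 = 1 ∧ (fun i => σ (w0 i)) = γ *ᵥ w0 ∧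
      (∀ w, T (γ *ᵥ w) = T w) ∧ (∀ w, A (γ *ᵥ w) = γ *ᵥ A w) ∧ (∀ w, B (γ *ᵥ w) = γ *ᵥ B w)) :
    ∃ (θ : AlgebraicClosure ℚ) (σ : AlgebraicClosure ℚ ≃ₐ[ℚ] AlgebraicClosure ℚ),
      T (A w0 + θ • B w0) = 0 ∧ σ θ = θ ∧ ∀ r : AlgebraicClosure ℚ, r ^ 2 = 3 → σ r = -r :=
  haveI := isAlgebraic_Qb
  haveI := isGalois_Qb
  exists_root_fixed_sqrt_three_moved hz hI w0 T hThom hTI hTI' hTw0 A B hAσ hBσ hAneg hBneg hAB
    htorsor

end Qbar

end Fermat.Agent.S52.helper9382
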